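/-
Vectors fixed by a level in a representation with an injective Kirillov map: irreducibility under
the compressed translations, reduction to a factor, and a nonzero twisted trace.
-/
import Fermat.Agent.LT.RankinSelberg.Kirillov
import Fermat.Agent.LT.Tame.Nonvanishing
import Mathlib.Analysis.Complex.Polynomial.Basic

set_option autoImplicit false

noncomputable section

namespace Fermat.Agent.LT.Descent

open RankinSelberg

variable {G V : Type*} [Group G] [AddCommGroup V] [Module ℂ V] (R : G →* (V →ₗ[ℂ] V))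

/-- A projection onto the vectors of a level, with compressed translations combinations of
translations. -/
structure IsLevelProj (e : V →ₗ[ℂ] V) (VJ : Submodule ℂ V) : Prop where
  mem : ∀ v, e v ∈ VJ
  fix : ∀ v ∈ VJ, e v = v
  comb : ∀ g, ∃ c : G →₀ ℂ, ∀ v ∈ VJ, e (R g v) = c.sum fun h r => r • R h v

/-- Stable under all compressed translations by elements of `S`. -/
def IsStableOn (e : V →ₗ[ℂ] V) (S : Set G) (N : Submodule ℂ V) : Prop :=
  ∀ g ∈ S, ∀ n ∈ N, e (R g n) ∈ N

variable {R} {e : V →ₗ[ℂ] V} {VJ N : Submodule ℂ V}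

/-- The span of the translates of a stable space compresses into it. -/
theorem IsStableOn.compress (hN : IsStableOn R e Set.univ N) {x : V}
    (hx : x ∈ Submodule.span ℂ {x | ∃ g, ∃ n ∈ N, R g n = x}) : e x ∈ N := by
  induction hx using Submodule.span_induction with
  | mem x hx => obtain ⟨g, n, hn, rfl⟩ := hx; exact hN g trivial n hn
  | zero => rw [map_zero]; exact N.zero_mem
  | add x y _ _ hx hy => rw [map_add]; exact N.add_mem hx hy
  | smul c x _ hx => rw [map_smul]; exact N.smul_mem c hx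

theorem span_translates_stable (g : G) {x : V}
    (hx : x ∈ Submodule.span ℂ {x | ∃ g, ∃ n ∈ N, R g n = x}) :
    R g x ∈ Submodule.span ℂ {x | ∃ g, ∃ n ∈ N, R g n = x} := by
  refine (Submodule.span_le (p := (Submodule.span ℂ _).comap (R g))).mpr ?_ hx
  rintro _ ⟨g', n, hn, rfl⟩
  exact Submodule.subset_span ⟨g * g', n, hn, by rw [map_mul]; rfl⟩

section Irreducible

variable {A X : Type*} [CommGroup A] {W : V →ₗ[ℂ] A → ℂ} {L : A → V →ₗ[ℂ] V}
  {P : X → V →ₗ[ℂ] V} {ψ : X → A → ℂ} {U : ℕ → Subgroup A}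

/-- **Irreducibility of the vectors of a level.**  If every vector lies in a larger level in which
stable spaces have stable complements, a nonzero stable space is everything. -/
theorem eq_of_isStableOn (h : IsKirillovModel W L P ψ U) (hanti : Antitone U)
    (hfin : ∀ n m, n ≤ m → ((U m).subgroupOf (U n)).FiniteIndex)
    (hL : ∀ t, ∃ g, L t = R g) (hP : ∀ x, ∃ g, P x = R g) (hJ : IsLevelProj R e VJ)
    (hdeep : ∀ v, ∃ (e' : V →ₗ[ℂ] V) (VJ' : Submodule ℂ V), IsLevelProj R e' VJ' ∧ VJ ≤ VJ' ∧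
      v ∈ VJ' ∧ ∀ Q ≤ VJ', IsStableOn R e' Set.univ Q →
        ∃ Q' ≤ VJ', IsStableOn R e' Set.univ Q' ∧ Q ⊓ Q' = ⊥ ∧ Q ⊔ Q' = VJ')
    (hle : N ≤ VJ) (hN0 : N ≠ ⊥) (hN : IsStableOn R e Set.univ N) : N = VJ := by
  obtain ⟨n₀, hn₀⟩ := h.exists_indicator (M := ⊤) (fun _ _ _ => trivial) (fun _ _ _ => trivial)
    (fun htop => hN0 (le_bot_iff.1 (htop ▸ le_top)))
  obtain ⟨φ, -, hWφ⟩ := hn₀ n₀ le_rfl
  have hmem : ∀ M : Submodule ℂ V, (∀ g, ∀ x ∈ M, R g x ∈ M) → M ≠ ⊥ → φ ∈ M := fun M hM hM0 =>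
    h.indicator_mem hanti hfin (fun t x hx => by obtain ⟨g, hg⟩ := hL t; rw [hg]; exact hM g x hx)
      (fun t x hx => by obtain ⟨g, hg⟩ := hP t; rw [hg]; exact hM g x hx) hM0 hWφ
  obtain ⟨e', VJ', hJ', hJJ', hφJ', hcompl⟩ := hdeep φ
  have hφ0 : φ ≠ 0 := fun h0 => by
    have := congrFun hWφ 1
    rw [h0, map_zero, Set.indicator_of_mem (U n₀).one_mem] at this
    exact one_ne_zero this.symm
  -- the span of the translates of a nonzero space contains `φ`
  have hspan : ∀ Q : Submodule ℂ V, Q ≠ ⊥ →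
      φ ∈ Submodule.span ℂ {x | ∃ g, ∃ n ∈ Q, R g n = x} := by
    intro Q hQ0
    refine hmem _ (fun g x hx => span_translates_stable g hx) ?_
    obtain ⟨q, hq, hq0⟩ := Submodule.exists_mem_ne_zero_of_ne_bot hQ0
    exact (Submodule.ne_bot_iff _).2 ⟨q, Submodule.subset_span ⟨1, q, hq, by simp⟩, hq0⟩
  set C := Submodule.span ℂ {x | ∃ g, e' (R g φ) = x}
  have hC : C ≤ VJ' := Submodule.span_le.2 (by rintro _ ⟨g, rfl⟩; exact hJ'.mem _)
  have hCst : IsStableOn R e' Set.univ C := by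
    intro g _ x hx
    induction hx using Submodule.span_induction with
    | mem x hx =>
      obtain ⟨g', rfl⟩ := hx
      obtain ⟨c, hc⟩ := hJ'.comb g'
      rw [hc φ hφJ', Finsupp.sum, map_sum, map_sum]
      exact C.sum_mem fun k _ => by
        rw [map_smul, map_smul]
        exact C.smul_mem _ (Submodule.subset_span ⟨g * k, by rw [map_mul]; rfl⟩)
    | zero => rw [map_zero, map_zero]; exact C.zero_mem
    | add x y _ _ hx hy => rw [map_add, map_add]; exact C.add_mem hx hy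
    | smul c x _ hx => rw [map_smul, map_smul]; exact C.smul_mem c hx
  have hφC : φ ∈ C := Submodule.subset_span ⟨1, by rw [map_one]; exact hJ'.fix φ hφJ'⟩
  obtain ⟨Q, hQ, hQst, hdisj, hsup⟩ := hcompl C hC hCst
  have hQ0 : Q = ⊥ := by
    by_contra hQ0
    have hφQ : φ ∈ Q := by simpa [hJ'.fix φ hφJ'] using hQst.compress (hspan Q hQ0)
    exact hφ0 ((Submodule.mem_bot ℂ).1 (hdisj ▸ ⟨hφC, hφQ⟩))
  rw [hQ0, sup_bot_eq] at hsup
  refine le_antisymm hle fun w hw => ?_
  rw [← hJ.fix w hw]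
  refine hN.compress ?_
  have hw' : w ∈ C := hsup ▸ hJJ' hw
  refine (Submodule.span_le.2 ?_) hw'
  rintro _ ⟨g, rfl⟩
  obtain ⟨c, hc⟩ := hJ'.comb g
  rw [hc φ hφJ']
  exact Submodule.sum_mem _ fun k _ => Submodule.smul_mem _ _
    (span_translates_stable k (hspan N hN0))

end Irreducible

/-- Reduction to the factor `S`: when every compressed translation factors through `S` and `T`,
and some vector is an eigenvector of all those from `T`, the level is irreducible under `S`. -/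
theorem eq_of_isStableOn_factor (hJ : IsLevelProj R e VJ)
    (hirr : ∀ N ≤ VJ, N ≠ ⊥ → IsStableOn R e Set.univ N → N = VJ) {S T : Set G}
    (hfac : ∀ g, ∃ s ∈ S, ∃ t ∈ T, ∀ v ∈ VJ, e (R g v) = e (R s (e (R t v))))
    (hcomm : ∀ s ∈ S, ∀ t ∈ T, ∀ v ∈ VJ, e (R s (e (R t v))) = e (R t (e (R s v))))
    {φ : V} (hφ : φ ∈ VJ) (hφ0 : φ ≠ 0) (hT : ∀ t ∈ T, ∃ c : ℂ, e (R t φ) = c • φ)
    (hle : N ≤ VJ) (hN0 : N ≠ ⊥) (hN : IsStableOn R e S N) : N = VJ := by
  set C := Submodule.span ℂ {x | ∃ g, e (R g φ) = x}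
  have hCle : C ≤ VJ := Submodule.span_le.2 (by rintro _ ⟨g, rfl⟩; exact hJ.mem _)
  have hCstab : IsStableOn R e Set.univ C := by
    intro g _ x hx
    induction hx using Submodule.span_induction with
    | mem x hx =>
      obtain ⟨g', rfl⟩ := hx
      obtain ⟨c, hc⟩ := hJ.comb g'
      rw [hc φ hφ, Finsupp.sum, map_sum, map_sum]
      exact C.sum_mem fun k _ => by
        rw [map_smul, map_smul]
        exact C.smul_mem _ (Submodule.subset_span ⟨g * k, by rw [map_mul]; rfl⟩)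
    | zero => rw [map_zero, map_zero]; exact C.zero_mem
    | add x y _ _ hx hy => rw [map_add, map_add]; exact C.add_mem hx hy
    | smul c x _ hx => rw [map_smul, map_smul]; exact C.smul_mem c hx
  have hCeq : C = VJ := hirr C hCle ((Submodule.ne_bot_iff _).2
    ⟨φ, Submodule.subset_span ⟨1, by rw [map_one]; exact hJ.fix φ hφ⟩, hφ0⟩) hCstab
  have hscal : ∀ t ∈ T, ∃ c : ℂ, ∀ v ∈ VJ, e (R t v) = c • v := by
    intro t ht
    obtain ⟨c, hc⟩ := hT t ht
    refine ⟨c, fun v hv => ?_⟩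
    rw [← hCeq] at hv
    induction hv using Submodule.span_induction with
    | mem x hx =>
      obtain ⟨g, rfl⟩ := hx
      obtain ⟨s, hs, t', ht', hst⟩ := hfac g
      obtain ⟨c', hc'⟩ := hT t' ht'
      rw [hst φ hφ, hc', map_smul, map_smul, map_smul, map_smul, ← hcomm s hs t ht φ hφ, hc,
        map_smul, map_smul, smul_comm]
    | zero => simp
    | add x y _ _ hx hy => rw [map_add, map_add, hx, hy, smul_add]
    | smul a x _ hx => rw [map_smul, map_smul, hx, smul_comm]
  refine hirr N hle hN0 fun g _ n hn => ?_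
  obtain ⟨s, hs, t, ht, hst⟩ := hfac g
  obtain ⟨c, hc⟩ := hscal t ht
  rw [hst n (hle hn), hc n (hle hn), map_smul, map_smul]
  exact N.smul_mem c (hN s hs n hn)

/-- The compressed translation on a level. -/
def levelOp (hJ : IsLevelProj R e VJ) (g : G) : Module.End ℂ VJ :=
  LinearMap.codRestrict VJ ((e ∘ₗ R g) ∘ₗ VJ.subtype) fun _ => hJ.mem _

theorem coe_levelOp (hJ : IsLevelProj R e VJ) (g : G) (v : VJ) :
    ((levelOp hJ g v : VJ) : V) = e (R g v) := rfl

/-- **A twisted trace is nonzero.** -/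
theorem exists_trace_levelOp_ne_zero (hJ : IsLevelProj R e VJ) [FiniteDimensional ℂ VJ]
    (S : Subgroup G)
    (hcomb : ∀ g ∈ S, ∃ c : G →₀ ℂ, ↑c.support ⊆ (S : Set G) ∧
      ∀ v ∈ VJ, e (R g v) = c.sum fun h r => r • R h v)
    (hirr : ∀ N ≤ VJ, N ≠ ⊥ → IsStableOn R e (S : Set G) N → N = VJ)
    {θ : Module.End ℂ VJ} (hθ : θ ≠ 0) :
    ∃ g ∈ S, LinearMap.trace ℂ VJ (levelOp hJ g * θ) ≠ 0 := by
  refine Exists.elim (Tame.exists_trace_mul_ne_zero (fun g : S => levelOp hJ g) ?_ ?_ ?_ hθ)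
    fun g hg => ⟨g, g.2, hg⟩
  · refine Submodule.subset_span ⟨1, LinearMap.ext fun v => Subtype.ext ?_⟩
    rw [coe_levelOp, OneMemClass.coe_one, map_one]
    exact hJ.fix _ v.2
  · intro i j
    obtain ⟨c, hc, hcv⟩ := hcomb j j.2
    have : levelOp hJ i * levelOp hJ j = c.sum fun h r => r • levelOp hJ ((i : G) * h) := by
      refine LinearMap.ext fun v => Subtype.ext ?_
      rw [Module.End.mul_apply, coe_levelOp, coe_levelOp, hcv v v.2]
      simp only [Finsupp.sum, map_sum, map_smul, LinearMap.sum_apply, LinearMap.smul_apply,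
        AddSubmonoidClass.coe_finsetSum, SetLike.val_smul, coe_levelOp, map_mul,
        Module.End.mul_apply]
    rw [this]
    exact Submodule.sum_mem _ fun h hh => Submodule.smul_mem _ _
      (Submodule.subset_span ⟨⟨(i : G) * h, mul_mem i.2 (hc hh)⟩, rfl⟩)
  · intro W hW
    by_cases h0 : W.map VJ.subtype = ⊥
    · exact Or.inl (Submodule.map_injective_of_injective VJ.subtype_injective (by rw [h0, Submodule.map_bot]))
    · refine Or.inr (eq_top_iff.2 fun v _ => ?_)
      have heq := hirr (W.map VJ.subtype) (Submodule.map_subtype_le _ _) h0 (by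
        rintro g hg _ ⟨n, hn, rfl⟩
        exact ⟨levelOp hJ g n, hW ⟨g, hg⟩ n hn, rfl⟩)
      have hv : (v : V) ∈ W.map VJ.subtype := by rw [heq]; exact v.2
      obtain ⟨w, hw, hwv⟩ := hv
      rwa [← Subtype.ext hwv]

end Fermat.Agent.LT.Descent
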