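/-
Averaging over a level in a smooth representation: the level projection and the compressed
translations as orbit averages.
-/
import Fermat.Agent.LT.Descent.LevelVectors
import Mathlib.GroupTheory.GroupAction.Quotient
import Mathlib.GroupTheory.Index

set_option autoImplicit false

noncomputable section

namespace Fermat.Agent.LT.Descent

variable {G V : Type*} [Group G] [AddCommGroup V] [Module ℂ V] (R : G →* (V →ₗ[ℂ] V))
  (J : Subgroup G)

/-- The vectors fixed by `J`. -/
def fixedVectors : Submodule ℂ V where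
  carrier := {v | ∀ j ∈ J, R j v = v}
  add_mem' := fun ha hb j hj => by rw [map_add, ha j hj, hb j hj]
  zero_mem' := fun j _ => map_zero _
  smul_mem' := fun c v hv j hj => by rw [map_smul, hv j hj]

theorem mem_fixedVectors {v : V} : v ∈ fixedVectors R J ↔ ∀ j ∈ J, R j v = v := Iff.rfl

theorem fixedVectors_anti {J' : Subgroup G} (h : J ≤ J') : fixedVectors R J' ≤ fixedVectors R J :=
  fun _ hv j hj => hv j (h hj)

/-- `H` has finite index in `J` and fixes `v`. -/
def IsStab (H : Subgroup J) (v : V) : Prop := H.FiniteIndex ∧ ∀ h ∈ H, R (h : G) v = v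

open Classical in
/-- The average over `J ⧸ H`. -/
def avgOver (H : Subgroup J) (v : V) : V :=
  if _h : H.FiniteIndex then
    have := Fintype.ofFinite (J ⧸ H)
    (Fintype.card (J ⧸ H) : ℂ)⁻¹ • ∑ q : J ⧸ H, R ((q.out : J) : G) v
  else 0

variable {R J}

theorem avgOver_eq {H : Subgroup J} (hH : H.FiniteIndex) [Fintype (J ⧸ H)] (v : V) :
    avgOver R J H v = (Fintype.card (J ⧸ H) : ℂ)⁻¹ • ∑ q : J ⧸ H, R ((q.out : J) : G) v := by
  rw [avgOver, dif_pos hH]
  congr!

theorem apply_out_of_isStab {H : Subgroup J} {v : V} (hv : IsStab R J H v) (x : J) :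
    R (((x : J ⧸ H).out : J) : G) v = R (x : G) v := by
  obtain ⟨h, hh⟩ := QuotientGroup.mk_out_eq_mul H x
  rw [hh, Subgroup.coe_mul, map_mul, Module.End.mul_apply, hv.2 h h.2]

theorem avgOver_of_le {H H' : Subgroup J} {v : V} (hv : IsStab R J H v) (hle : H' ≤ H)
    (hH' : H'.FiniteIndex) : avgOver R J H' v = avgOver R J H v := by
  have := hv.1
  have := Fintype.ofFinite (J ⧸ H)
  have := Fintype.ofFinite (J ⧸ H')
  have := Fintype.ofFinite (H ⧸ H'.subgroupOf H)
  rw [avgOver_eq hH', avgOver_eq hv.1]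
  let e : J ⧸ H' ≃ (J ⧸ H) × (H ⧸ H'.subgroupOf H) := Subgroup.quotientEquivProdOfLE hle
  have hsum : ∑ q : J ⧸ H', R ((q.out : J) : G) v =
      (Fintype.card (H ⧸ H'.subgroupOf H)) • ∑ q : J ⧸ H, R ((q.out : J) : G) v := by
    rw [← e.symm.sum_comp, Fintype.sum_prod_type, Finset.smul_sum]
    refine Finset.sum_congr rfl fun q _ => ?_
    rw [← Finset.card_univ, ← Finset.sum_const]
    refine Finset.sum_congr rfl fun r _ => ?_
    induction r using QuotientGroup.induction_on with
    | _ h =>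
      have he : e.symm (q, (h : H ⧸ H'.subgroupOf H)) = ((q.out * (h : J) : J) : J ⧸ H') := rfl
      rw [he, apply_out_of_isStab ⟨hH', fun x hx => hv.2 x (hle hx)⟩, Subgroup.coe_mul, map_mul,
        Module.End.mul_apply, hv.2 h h.2]
  rw [hsum, Fintype.card_congr e, Fintype.card_prod, ← Nat.cast_smul_eq_nsmul ℂ, smul_smul,
    Nat.cast_mul, mul_inv, mul_assoc, inv_mul_cancel₀ (Nat.cast_ne_zero.2 Fintype.card_ne_zero),
    mul_one]

theorem avgOver_congr {H H' : Subgroup J} {v : V} (hv : IsStab R J H v) (hv' : IsStab R J H' v) :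
    avgOver R J H v = avgOver R J H' v := by
  have := hv.1
  have := hv'.1
  rw [← avgOver_of_le hv (inf_le_left : H ⊓ H' ≤ H) inferInstance,
    avgOver_of_le hv' (inf_le_right : H ⊓ H' ≤ H') inferInstance]

/-- **The level projection.** -/
theorem exists_levelProj (hsm : ∀ v, ∃ H : Subgroup J, IsStab R J H v) :
    ∃ e : V →ₗ[ℂ] V, ∀ v H, IsStab R J H v → e v = avgOver R J H v := by
  choose H hH using hsm
  have hadd : ∀ v w, avgOver R J (H (v + w)) (v + w) = avgOver R J (H v) v + avgOver R J (H w) w := by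
    intro v w
    have := (hH v).1
    have := (hH w).1
    set L := H v ⊓ H w
    have hL : L.FiniteIndex := inferInstance
    have hLv : IsStab R J L v := ⟨hL, fun h hh => (hH v).2 h hh.1⟩
    have hLw : IsStab R J L w := ⟨hL, fun h hh => (hH w).2 h hh.2⟩
    have := Fintype.ofFinite (J ⧸ L)
    rw [avgOver_congr (hH v) hLv, avgOver_congr (hH w) hLw,
      avgOver_congr (hH (v + w)) ⟨hL, fun h hh => by rw [map_add, hLv.2 h hh, hLw.2 h hh]⟩,
      avgOver_eq hL, avgOver_eq hL, avgOver_eq hL]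
    simp only [map_add, Finset.sum_add_distrib, smul_add]
  refine ⟨{ toFun := fun v => avgOver R J (H v) v, map_add' := hadd, map_smul' := fun c v => ?_ },
    fun v H' hv => avgOver_congr (hH v) hv⟩
  have := (hH v).1
  have := Fintype.ofFinite (J ⧸ H v)
  rw [avgOver_congr (hH (c • v)) ⟨(hH v).1, fun h hh => by rw [map_smul, (hH v).2 h hh]⟩,
    avgOver_eq (hH v).1, avgOver_eq (hH v).1]
  simp only [map_smul, ← Finset.smul_sum, RingHom.id_apply, smul_comm c]

open MulAction

/-- A compressed translation is the average over the orbit of the coset. -/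
theorem levelProj_translate {e : V →ₗ[ℂ] V}
    (he : ∀ v H, IsStab R J H v → e v = avgOver R J H v) {g : G}
    (hfin : (orbit J (g : G ⧸ J)).Finite) {v : V} (hv : v ∈ fixedVectors R J) :
    e (R g v) = (hfin.toFinset.card : ℂ)⁻¹ • ∑ y ∈ hfin.toFinset, R y.out v := by
  have hout : ∀ x : G, R (x : G ⧸ J).out v = R x v := fun x => by
    obtain ⟨j, hj⟩ := QuotientGroup.mk_out_eq_mul J x
    rw [hj, map_mul, Module.End.mul_apply, hv j j.2]
  have hst : IsStab R J (stabilizer J (g : G ⧸ J)) (R g v) := by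
    constructor
    · have := hfin.to_subtype
      have := Finite.of_equiv _ (orbitEquivQuotientStabilizer J (g : G ⧸ J))
      exact Subgroup.finiteIndex_of_finite_quotient
    · intro h hh
      rw [← Module.End.mul_apply, ← map_mul, ← hout, ← hout g]
      exact congrArg (fun y : G ⧸ J => R y.out v) hh
  have := hfin.to_subtype
  have := Finite.of_equiv _ (orbitEquivQuotientStabilizer J (g : G ⧸ J))
  have := Fintype.ofFinite (J ⧸ stabilizer J (g : G ⧸ J))
  have := hfin.fintype
  let ε := orbitEquivQuotientStabilizer J (g : G ⧸ J)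
  rw [he _ _ hst, avgOver_eq hst.1, ← Fintype.card_congr ε, ← Set.Finite.card_toFinset hfin,
    ← ε.sum_comp]
  congr 1
  rw [← Finset.sum_coe_sort hfin.toFinset (fun y : G ⧸ J => R y.out v)]
  refine Fintype.sum_equiv (Equiv.subtypeEquivRight fun y => hfin.mem_toFinset.symm) _ _ fun y => ?_
  obtain ⟨x, hx⟩ := QuotientGroup.mk_surjective (ε y)
  have hy : (y : G ⧸ J) = x • (g : G ⧸ J) := by
    rw [← ε.symm_apply_apply y, ← hx]; exact orbitEquivQuotientStabilizer_symm_apply J _ x
  rw [← hx, apply_out_of_isStab hst, ← Module.End.mul_apply, ← map_mul, Equiv.subtypeEquivRight_apply_coe,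
    hy, ← hout]
  rfl

/-- **Level projections exist.** -/
theorem exists_isLevelProj (hsm : ∀ v, ∃ H : Subgroup J, IsStab R J H v)
    (hfin : ∀ g : G, (orbit J (g : G ⧸ J)).Finite) :
    ∃ e : V →ₗ[ℂ] V, IsLevelProj R e (fixedVectors R J) ∧
      ∀ g, ∀ v ∈ fixedVectors R J,
        e (R g v) = ((hfin g).toFinset.card : ℂ)⁻¹ • ∑ y ∈ (hfin g).toFinset, R y.out v := by
  obtain ⟨e, he⟩ := exists_levelProj hsm
  refine ⟨e, ⟨fun v j hj => ?_, fun v hv => ?_, fun g => ?_⟩, fun g v hv =>
    levelProj_translate he (hfin g) hv⟩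
  · obtain ⟨H, hH⟩ := hsm v
    have := hH.1
    have := Fintype.ofFinite (J ⧸ H)
    rw [he v H hH, avgOver_eq hH.1, map_smul, map_sum]
    congr 1
    rw [← Equiv.sum_comp (MulAction.toPerm (⟨j, hj⟩ : J)) (fun q : J ⧸ H => R ((q.out : J) : G) v)]
    refine Finset.sum_congr rfl fun q _ => ?_
    conv_rhs => rw [show (MulAction.toPerm (⟨j, hj⟩ : J)) q = ((⟨j, hj⟩ * q.out : J) : J ⧸ H) by
      conv_lhs => rw [← QuotientGroup.out_eq' q]
      rfl]
    rw [apply_out_of_isStab hH, Subgroup.coe_mul, map_mul]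
    rfl
  · have htop : IsStab R J ⊤ v := ⟨inferInstance, fun h _ => hv h h.2⟩
    have := Fintype.ofFinite (J ⧸ (⊤ : Subgroup J))
    rw [he v ⊤ htop, avgOver_eq htop.1, Finset.sum_congr rfl fun q _ => hv _ q.out.2,
      Finset.sum_const, Finset.card_univ, ← Nat.cast_smul_eq_nsmul ℂ, smul_smul,
      inv_mul_cancel₀ (Nat.cast_ne_zero.2 Fintype.card_ne_zero), one_smul]
  · refine ⟨∑ y ∈ (hfin g).toFinset, Finsupp.single y.out ((hfin g).toFinset.card : ℂ)⁻¹,
      fun v hv => ?_⟩
    rw [levelProj_translate he (hfin g) hv, Finset.smul_sum, ← Finsupp.sum_finsetSum_index]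
    · exact Finset.sum_congr rfl fun y _ =>
        (Finsupp.sum_single_index (h := fun h r => r • R h v) (zero_smul ℂ _)).symm
    · exact fun _ => zero_smul ℂ _
    · exact fun _ _ _ => add_smul _ _ _

end Fermat.Agent.LT.Descent
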