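/-
Cusp eigenforms of arbitrary level supported in a finite set of places `S`, with a fixed Hecke
system outside `S`, as a representation of the `S`-part of `GL₂(𝔸_f)`.
-/
import Fermat.Agent.LT.Boundary.Defs
import Fermat.Agent.LT.Aleph.LocalAdele
import Fermat.Agent.LT.RankinSelberg.Neighbours
import Fermat.Agent.LT.Arch.Eigen

set_option autoImplicit false

noncomputable section

namespace Fermat.Agent.LT.Descent

open IsDedekindDomain NumberField Matrix MeasureTheory Filter
open Fermat.Agent.LT.Adelic Fermat.Agent.LT.Aleph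
open Fermat.Agent.LT.RankinSelberg (nbrMatrix compAt compAt_nbrMatrix_of_ne)
open scoped Topology

variable {K : Type*} [Field K] [NumberField K] {ι : Type*} [Fintype ι] [DecidableEq ι]

/-- `n` is a unit outside `S`. -/
def SupportedIn (S : Set (HeightOneSpectrum (𝓞 K))) (n : 𝓞 K) : Prop :=
  n ≠ 0 ∧ ∀ v ∉ S, v.intValuation n = 1

variable (Φ : Frame K ι) (S : Set (HeightOneSpectrum (𝓞 K))) (a : HeightOneSpectrum (𝓞 K) → ℂ)

/-- A function on `(H³)^ι × GL₂(𝔸_f)` that is a spherical cusp form of level supported in `S`,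
eigen with system `a` outside `S`. -/
structure IsSForm (ψ : (ι → HSpace) → GfK K → ℂ) : Prop where
  invariant : ∀ (γ : GL (Fin 2) K) (τ : ι → HSpace) (g : GfK K),
    ψ (fun i => Φ.toInf i γ • τ i) (toGf K γ * g) = ψ τ g
  center : ∀ (τ : ι → HSpace) (g : GfK K), ∀ z ∈ centerGf (𝓞 K) K, ψ τ (g * z) = ψ τ g
  smooth : ∃ n : 𝓞 K, SupportedIn S n ∧
    ∀ (τ : ι → HSpace) (g : GfK K), ∀ u ∈ principalLevel K n, ψ τ (g * u) = ψ τ g
  continuous : ∀ g : GfK K, Continuous fun τ : ι → HSpace => ψ τ g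
  bounded : ∃ C : ℝ, ∀ τ g, ‖ψ τ g‖ ≤ C
  cuspidal : ∀ (g : GfK K) (r : ι → ℝ) (hr : ∀ i, 0 < r i),
    Tendsto (fun R : ℝ => ⨍ z in Set.univ.pi (fun _ : ι => Metric.closedBall (0 : ℂ) R),
      ψ (fun i => ⟨z i, r i, hr i⟩) g ∂(volume : Measure (ι → ℂ))) atTop (𝓝 0)
  spherical : ∀ k : ℝ → ℂ, Continuous k → HasCompactSupport k → ∀ (i : ι) (τ : ι → HSpace)
    (g : GfK K),
    ∫ p, k (HSpace.coshDist (τ i) p) * ψ (Function.update τ i p) g ∂HSpace.measure =
      sphTransform k 0 * ψ τ g
  hecke : ∀ v ∉ S, ∀ ϖ : (FiniteAdeleRing (𝓞 K) K)ˣ, IsUniformiserAt v ϖ →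
    ∀ (τ : ι → HSpace) (g : GfK K),
    ∑ᶠ o, ψ τ (g * nbrMatrix v ϖ o) = (Real.sqrt (Ideal.absNorm v.asIdeal) : ℂ) * a v * ψ τ g

variable {Φ S a} {ψ ψ' : (ι → HSpace) → GfK K → ℂ}

theorem finite_nbrIndex (v : HeightOneSpectrum (𝓞 K)) : Finite (Option (𝓞 K ⧸ v.asIdeal)) :=
  have : Finite (𝓞 K ⧸ v.asIdeal) := Ring.HasFiniteQuotients.finiteQuotient v.ne_bot
  inferInstance

theorem isQuartic_of_compactSupport {k : ℝ → ℂ} (hk : Continuous k) (hc : HasCompactSupport k) :
    Arch.IsQuartic k := by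
  obtain ⟨C, hC⟩ := ((hc.mul_left (f := fun u : ℝ => ((u ^ 4 : ℝ) : ℂ))).exists_bound_of_continuous
    ((Complex.continuous_ofReal.comp (continuous_pow 4)).mul hk))
  refine ⟨max C 0, le_max_right _ _, fun u hu => ?_⟩
  have h := hC u
  rw [Pi.mul_apply, norm_mul, Complex.norm_real, Real.norm_of_nonneg (by positivity)] at h
  rw [le_div_iff₀ (by positivity), mul_comm]
  exact h.trans (le_max_left _ _)

theorem IsSForm.integrable (h : IsSForm Φ S a ψ) {k : ℝ → ℂ} (hk : Continuous k)
    (hc : HasCompactSupport k) (i : ι) (τ : ι → HSpace) (g : GfK K) :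
    Integrable (fun p => k (HSpace.coshDist (τ i) p) * ψ (Function.update τ i p) g)
      HSpace.measure := by
  have := Arch.opensMeasurableSpace_hspace
  obtain ⟨C, hC⟩ := h.bounded
  have hq : Arch.IsQuartic k := isQuartic_of_compactSupport hk hc
  have h0 := Arch.integrable_pointPair hk hq (τ i) (j := 0) zero_le_one
  simp only [pow_zero, mul_one] at h0
  exact h0.mul_bdd ((h.continuous g).comp (continuous_const.update i continuous_id)).aestronglyMeasurable
    (Eventually.of_forall fun p => hC _ _)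

theorem IsSForm.integrableOn_box (h : IsSForm Φ S a ψ) (g : GfK K) (r : ι → ℝ) (hr : ∀ i, 0 < r i)
    (R : ℝ) :
    IntegrableOn (fun z => ψ (fun i => ⟨z i, r i, hr i⟩) g)
      (Set.univ.pi fun _ : ι => Metric.closedBall (0 : ℂ) R) volume := by
  refine ((h.continuous g).comp ?_).continuousOn.integrableOn_compact
    (isCompact_univ_pi fun _ => isCompact_closedBall _ _)
  refine continuous_pi fun i => continuous_induced_rng.2 ?_
  exact (continuous_apply i).prodMk continuous_const

variable (Φ S a) in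
/-- The space of all such forms. -/
def sForms : Submodule ℂ ((ι → HSpace) → GfK K → ℂ) where
  carrier := {ψ | IsSForm Φ S a ψ}
  zero_mem' :=
    { invariant := fun _ _ _ => rfl
      center := fun _ _ _ _ => rfl
      smooth := ⟨1, ⟨one_ne_zero, fun v _ => map_one _⟩, fun _ _ _ _ => rfl⟩
      continuous := fun _ => continuous_const
      bounded := ⟨0, fun _ _ => by simp⟩
      cuspidal := fun _ _ _ => by simp
      spherical := fun _ _ _ _ _ _ => by simp
      hecke := fun _ _ _ _ _ _ => by simp }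
  add_mem' := fun {ψ ψ'} h h' =>
    { invariant := fun γ τ g => by simp [h.invariant, h'.invariant]
      center := fun τ g z hz => by simp [h.center τ g z hz, h'.center τ g z hz]
      smooth := by
        obtain ⟨n, ⟨hn, hnS⟩, hinv⟩ := h.smooth
        obtain ⟨m, ⟨hm, hmS⟩, hinv'⟩ := h'.smooth
        refine ⟨n * m, ⟨mul_ne_zero hn hm, fun v hv => by rw [map_mul, hnS v hv, hmS v hv, one_mul]⟩,
          fun τ g u hu => ?_⟩
        simp [hinv τ g u (principalLevel_mono (dvd_mul_right n m) hu),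
          hinv' τ g u (principalLevel_mono (dvd_mul_left m n) hu)]
      continuous := fun g => (h.continuous g).add (h'.continuous g)
      bounded := by
        obtain ⟨C, hC⟩ := h.bounded
        obtain ⟨C', hC'⟩ := h'.bounded
        exact ⟨C + C', fun τ g => (norm_add_le _ _).trans (add_le_add (hC τ g) (hC' τ g))⟩
      cuspidal := fun g r hr => by
        have h2 := (h.cuspidal g r hr).add (h'.cuspidal g r hr)
        rw [add_zero] at h2
        refine h2.congr fun R => ?_
        simp only [setAverage_eq, Pi.add_apply]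
        rw [integral_add (h.integrableOn_box g r hr R) (h'.integrableOn_box g r hr R), smul_add]
      spherical := fun k hk hc i τ g => by
        simp only [Pi.add_apply, mul_add]
        rw [integral_add (h.integrable hk hc i τ g) (h'.integrable hk hc i τ g),
          h.spherical k hk hc i τ g, h'.spherical k hk hc i τ g]
      hecke := fun v hv ϖ hϖ τ g => by
        have := finite_nbrIndex v
        simp only [Pi.add_apply]
        rw [finsum_add_distrib (Set.toFinite _) (Set.toFinite _), h.hecke v hv ϖ hϖ τ g,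
          h'.hecke v hv ϖ hϖ τ g, mul_add] }
  smul_mem' := fun c {ψ} h =>
    { invariant := fun γ τ g => by simp [h.invariant]
      center := fun τ g z hz => by simp [h.center τ g z hz]
      smooth := h.smooth.imp fun n hn => ⟨hn.1, fun τ g u hu => by simp [hn.2 τ g u hu]⟩
      continuous := fun g => (h.continuous g).const_smul c
      bounded := by
        obtain ⟨C, hC⟩ := h.bounded
        exact ⟨‖c‖ * C, fun τ g => by
          simpa using mul_le_mul_of_nonneg_left (hC τ g) (norm_nonneg c)⟩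
      cuspidal := fun g r hr => by
        have h2 := (h.cuspidal g r hr).const_smul c
        rw [smul_zero] at h2
        refine h2.congr fun R => ?_
        simp only [setAverage_eq, Pi.smul_apply]
        rw [integral_smul, smul_comm]
      spherical := fun k hk hc i τ g => by
        simp only [Pi.smul_apply, smul_eq_mul]
        rw [show (fun p => k (HSpace.coshDist (τ i) p) * (c * ψ (Function.update τ i p) g))
          = fun p => c * (k (HSpace.coshDist (τ i) p) * ψ (Function.update τ i p) g) from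
            funext fun p => by ring, integral_const_mul, h.spherical k hk hc i τ g]
        ring
      hecke := fun v hv ϖ hϖ τ g => by
        simp only [Pi.smul_apply, smul_eq_mul]
        have := finite_nbrIndex v
        have := Fintype.ofFinite (Option (𝓞 K ⧸ v.asIdeal))
        have h2 := h.hecke v hv ϖ hϖ τ g
        rw [finsum_eq_sum_of_fintype] at h2 ⊢
        rw [← Finset.mul_sum, h2]
        ring }

theorem mem_sForms : ψ ∈ sForms Φ S a ↔ IsSForm Φ S a ψ := Iff.rfl

variable (S) in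
/-- The elements of `GL₂(𝔸_f)` trivial outside `S`. -/
def gfSupported : Subgroup (GfK K) where
  carrier := {h | ∀ v ∉ S, localGL K v h = 1}
  one_mem' := fun v _ => map_one _
  mul_mem' := fun hx hy v hv => by rw [map_mul, hx v hv, hy v hv, one_mul]
  inv_mem' := fun hx v hv => by rw [map_inv, hx v hv, inv_one]

theorem commute_of_disjoint {x y : GfK K} (h : ∀ v, localGL K v x = 1 ∨ localGL K v y = 1) :
    x * y = y * x :=
  Aleph.gf_ext fun v => by rcases h v with h | h <;> simp [h]

/-- An element supported exactly at `S`. -/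
theorem exists_supportedIn (hS : S.Finite) :
    ∃ n : 𝓞 K, SupportedIn S n ∧ ∀ v ∈ S, v.intValuation n < 1 := by
  classical
  have hgen : ∀ v : HeightOneSpectrum (𝓞 K), ∃ (x : 𝓞 K) (h : ℕ), 0 < h ∧
      v.asIdeal ^ h = Ideal.span {x} := fun v => by
    have hmem : v.asIdeal ∈ nonZeroDivisors (Ideal (𝓞 K)) :=
      mem_nonZeroDivisors_iff_ne_zero.2 v.ne_bot
    refine ⟨_, Fintype.card (ClassGroup (𝓞 K)), Fintype.card_pos,
      (?_ : ((v.asIdeal ^ Fintype.card (ClassGroup (𝓞 K))).IsPrincipal)).principal.choose_spec⟩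
    have h1 : ClassGroup.mk0 (⟨v.asIdeal, hmem⟩ ^ Fintype.card (ClassGroup (𝓞 K))) = 1 := by
      rw [map_pow, pow_card_eq_one]
    exact (ClassGroup.mk0_eq_one_iff (pow_mem hmem _)).1 h1
  choose x h hh hx using hgen
  have hx0 : ∀ v, x v ≠ 0 := fun v h0 => by
    have := hx v
    rw [h0, Ideal.span_singleton_zero] at this
    exact v.ne_bot (pow_eq_zero_iff (hh v).ne' |>.1 this)
  have hval : ∀ v w : HeightOneSpectrum (𝓞 K), w.intValuation (x v) < 1 ↔ w = v := fun v w => by
    rw [HeightOneSpectrum.intValuation_lt_one_iff_dvd, Ideal.dvd_span_singleton, ← Ideal.span_singleton_le_iff_mem,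
      ← hx v, (w.isPrime).pow_le_iff (hh v).ne']
    exact ⟨fun hle => (HeightOneSpectrum.ext (((v.isPrime).isMaximal v.ne_bot).eq_of_le
      w.isPrime.ne_top hle)).symm, fun e => e ▸ le_rfl⟩
  refine ⟨∏ v ∈ hS.toFinset, x v, ⟨Finset.prod_ne_zero_iff.2 fun v _ => hx0 v, fun w hw => ?_⟩,
    fun w hw => ?_⟩
  · rw [map_prod]
    refine Finset.prod_eq_one fun v hv => le_antisymm (w.intValuation_le_one _) (not_lt.1 ?_)
    rw [hval]
    exact fun e => hw (e ▸ hS.mem_toFinset.1 hv)
  · rw [map_prod, ← Finset.mul_prod_erase _ _ (hS.mem_toFinset.2 hw)]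
    exact mul_lt_one_of_lt_of_le ((hval w w).2 rfl) (Finset.prod_le_one' fun v _ => w.intValuation_le_one _)

/-- Powers of an element supported at `S` are arbitrarily small at `S`. -/
theorem exists_pow_intValuation_le (hS : S.Finite) {n₀ m : 𝓞 K}
    (hn₀ : ∀ v ∈ S, v.intValuation n₀ < 1) (hm : m ≠ 0) :
    ∃ k : ℕ, ∀ v ∈ S, v.intValuation (n₀ ^ k) ≤ v.intValuation m := by
  have key : ∀ v ∈ S, ∃ k : ℕ, ∀ k' ≥ k, v.intValuation (n₀ ^ k') ≤ v.intValuation m := by
    intro v hv
    have hm' := v.intValuation_ne_zero m hm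
    refine ⟨(-WithZero.log (v.intValuation m)).toNat, fun k' hk' => ?_⟩
    rw [map_pow]
    refine (pow_le_pow_left' (RankinSelberg.le_exp_neg_one_of_lt_one (hn₀ v hv)) k').trans ?_
    conv_rhs => rw [← WithZero.exp_log hm']
    rw [← WithZero.exp_nsmul, WithZero.exp_le_exp]
    simp only [smul_neg, nsmul_eq_mul, mul_one]
    omega
  choose! k hk using key
  exact ⟨hS.toFinset.sup k, fun v hv => hk v hv _ (Finset.le_sup (hS.mem_toFinset.2 hv))⟩

/-- Conjugation by an element trivial outside `S` preserves the levels supported in `S`. -/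
theorem exists_conj_le_supported (hS : S.Finite) {h : GfK K} (hh : h ∈ gfSupported S) {n : 𝓞 K}
    (hn : SupportedIn S n) :
    ∃ m : 𝓞 K, SupportedIn S m ∧ ∀ x ∈ principalLevel K m, h * x * h⁻¹ ∈ principalLevel K n := by
  classical
  obtain ⟨n₀, ⟨hn₀, hn₀S⟩, hn₀lt⟩ := exists_supportedIn (S := S) hS
  obtain ⟨m, hm, hconj⟩ := exists_conj_le h hn.1
  obtain ⟨k, hk⟩ := exists_pow_intValuation_le hS hn₀lt hm
  refine ⟨n₀ ^ k, ⟨pow_ne_zero _ hn₀, fun v hv => by rw [map_pow, hn₀S v hv, one_pow]⟩,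
    fun x hx => ?_⟩
  have hx1 : ∀ v, IsIntLocal (localGL K v x) :=
    mem_principalLevel_one_iff.1 (principalLevel_mono (one_dvd _) hx)
  set x' := gfOfLocal K (fun v => if v ∈ S then localGL K v x else 1) fun v => by
    by_cases hv : v ∈ S
    · rw [if_pos hv]; exact hx1 v
    · rw [if_neg hv]; exact isIntLocal_one
  have hx' : x' ∈ principalLevel K m := by
    have key : ∀ y z : GfK K, MatMemMul (n₀ ^ k)
        ((y : Matrix (Fin 2) (Fin 2) (FiniteAdeleRing (𝓞 K) K)) - 1) →
        (∀ v, localGL K v z = if v ∈ S then localGL K v y else 1) →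
        MatMemMul m ((z : Matrix (Fin 2) (Fin 2) (FiniteAdeleRing (𝓞 K) K)) - 1) := by
      intro y z hy hz i j v
      rw [Matrix.sub_apply, coe_apply_sub, ← localGL_apply, hz v]
      by_cases hv : v ∈ S
      · rw [if_pos hv, localGL_apply, ← coe_apply_sub, ← Matrix.sub_apply]
        exact (hy i j v).trans (hk v hv)
      · rw [if_neg hv, Units.val_one, Matrix.one_apply, Matrix.one_apply]
        split <;> simp [coe_apply_one, coe_apply_zero]
    exact ⟨key x x' (mem_principalLevel.1 hx).1 fun v => localGL_gfOfLocal _ _ v,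
      key x⁻¹ x'⁻¹ (mem_principalLevel.1 hx).2 fun v => by
        rw [map_inv, map_inv, localGL_gfOfLocal]
        by_cases hv : v ∈ S <;> simp [hv]⟩
  have hy : x'⁻¹ * x ∈ principalLevel K n := by
    refine Aleph.mem_principalLevel_of_local
      (mul_mem (inv_mem (principalLevel_mono (one_dvd _) hx')) (principalLevel_mono (one_dvd _) hx))
      fun v hv => ?_
    have hvS : v ∈ S := by by_contra hvS; exact absurd (hn.2 v hvS) hv.ne
    rw [map_mul, map_inv, localGL_gfOfLocal, if_pos hvS, inv_mul_cancel]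
  have hcomm : (x'⁻¹ * x) * h⁻¹ = h⁻¹ * (x'⁻¹ * x) := by
    refine commute_of_disjoint fun v => ?_
    by_cases hv : v ∈ S
    · exact Or.inl (by rw [map_mul, map_inv, localGL_gfOfLocal, if_pos hv, inv_mul_cancel])
    · exact Or.inr (by rw [map_inv, hh v hv, inv_one])
  have := mul_mem (hconj x' hx') hy
  rwa [mul_assoc, ← hcomm, ← mul_assoc, mul_assoc h x', mul_inv_cancel_left] at this

/-- Translates of forms are forms. -/
theorem IsSForm.translate (h : IsSForm Φ S a ψ) (hS : S.Finite) {x : GfK K}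
    (hx : x ∈ gfSupported S) : IsSForm Φ S a fun τ g => ψ τ (g * x) where
  invariant γ τ g := by simp only [mul_assoc]; exact h.invariant γ τ (g * x)
  center τ g z hz := by
    simp only [mul_assoc g z x, centerGf_comm hz x, ← mul_assoc g x z]
    exact h.center τ (g * x) z hz
  smooth := by
    obtain ⟨n, hn, hinv⟩ := h.smooth
    obtain ⟨m, hm, hconj⟩ := exists_conj_le_supported hS (inv_mem hx) hn
    refine ⟨m, hm, fun τ g u hu => ?_⟩
    have := hconj u hu
    rw [inv_inv] at this
    conv_rhs => rw [← hinv τ (g * x) _ this]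
    simp [mul_assoc]
  continuous g := h.continuous _
  bounded := h.bounded.imp fun _ hC τ g => hC τ _
  cuspidal g := h.cuspidal _
  spherical k hk hc i τ g := h.spherical k hk hc i τ _
  hecke v hv ϖ hϖ τ g := by
    rw [← h.hecke v hv ϖ hϖ τ (g * x)]
    refine finsum_congr fun o => ?_
    rw [mul_assoc, mul_assoc]
    congr 2
    refine commute_of_disjoint fun w => ?_
    by_cases hw : w = v
    · exact Or.inr (hx w (hw ▸ hv))
    · exact Or.inl (compAt_nbrMatrix_of_ne hϖ hw o)

variable (Φ S a) in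
/-- Right translation. -/
def translateRep (hS : S.Finite) : gfSupported S →* (sForms Φ S a →ₗ[ℂ] sForms Φ S a) where
  toFun x :=
    { toFun := fun ψ => ⟨fun τ g => ψ.1 τ (g * x.1), ψ.2.translate hS x.2⟩
      map_add' := fun _ _ => rfl
      map_smul' := fun _ _ => rfl }
  map_one' := LinearMap.ext fun ψ => Subtype.ext (funext fun τ => funext fun g => by simp)
  map_mul' x y := LinearMap.ext fun ψ => Subtype.ext (funext fun τ => funext fun g => by
    simp [mul_assoc])

@[simp] theorem translateRep_apply (hS : S.Finite) (x : gfSupported S) (ψ : sForms Φ S a)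
    (τ : ι → HSpace) (g : GfK K) : (translateRep Φ S a hS x ψ).1 τ g = ψ.1 τ (g * x.1) := rfl

section Space

variable {U : Subgroup (GfK K)}

/-- An eigenform on a level supported in `S` gives a form. -/
theorem isSForm_of_space {φ : Space Φ U → ℂ} (hU1 : U ≤ principalLevel K (1 : 𝓞 K)) {n : 𝓞 K}
    (hn : SupportedIn S n) (hnU : principalLevel K n ≤ U) (hinv : IsInvariant φ)
    (hcont : ∀ y : Yf U, Continuous fun τ : ι → HSpace => φ (Space.mk τ y))
    (hb : ∃ C : ℝ, ∀ x, ‖φ x‖ ≤ C) (hcusp : HasZeroMean φ) (hsph : IsSphericalEigen φ 0)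
    (hecke : ∀ v ∉ S, IsHeckeEigenAt φ v (a v)) :
    IsSForm Φ S a fun τ g => φ (Space.mk τ (g : Yf U)) where
  invariant γ τ g := hinv γ (Space.mk τ (g : Yf U))
  center τ g z hz := by
    rw [show ((g * z : GfK K) : Yf U) = (g : Yf U) from QuotientGroup.eq.2 (by
      rw [_root_.mul_inv_rev, inv_mul_cancel_right]
      exact (le_sup_right : centerGf _ _ ≤ levelZ U) (inv_mem hz))]
  smooth := ⟨n, hn, fun τ g u hu => by
    rw [show ((g * u : GfK K) : Yf U) = (g : Yf U) from QuotientGroup.eq.2 (by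
      rw [_root_.mul_inv_rev, inv_mul_cancel_right]
      exact le_levelZ U (inv_mem (hnU hu)))]⟩
  continuous g := hcont _
  bounded := hb.imp fun _ hC τ g => hC _
  cuspidal g r hr := hcusp _ r hr
  spherical k hk hc i τ g := hsph k hk hc i (Space.mk τ (g : Yf U))
  hecke v hv ϖ hϖ τ g := by
    have := congrFun (hecke v hv ϖ hϖ) (Space.mk τ (g : Yf U))
    have := finite_nbrIndex v
    have := Fintype.ofFinite (𝓞 K ⧸ v.asIdeal)
    have h' := congrFun (hecke v hv ϖ hϖ) (Space.mk τ (g : Yf U))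
    rw [RankinSelberg.heckeOp_eq_sum hU1 (RankinSelberg.hasFullLocal_of_le hnU (hn.2 v hv)) hϖ]
      at h'
    rw [finsum_eq_sum_of_fintype, Fintype.sum_option]
    exact h'

/-- The function on the space of a form invariant under `U`. -/
def toSpace (ψ : (ι → HSpace) → GfK K → ℂ) : Space Φ U → ℂ := fun x => ψ x.pt x.fin.out

theorem toSpace_mk (h : IsSForm Φ S a ψ) (hfix : ∀ τ g, ∀ u ∈ U, ψ τ (g * u) = ψ τ g)
    (τ : ι → HSpace) (g : GfK K) : toSpace (Φ := Φ) (U := U) ψ (Space.mk τ (g : Yf U)) = ψ τ g := by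
  show ψ τ (Quotient.out (g : Yf U)) = _
  obtain ⟨u, hu⟩ := QuotientGroup.mk_out_eq_mul (levelZ U) g
  obtain ⟨w, hw, z, hz, e⟩ := mem_levelZ.1 u.2
  rw [hu, ← e, ← mul_assoc, h.center _ _ z hz, hfix _ _ w hw]

/-- A form invariant under `U` is an eigenform on `Space Φ U`. -/
theorem isCuspEigen_toSpace (h : IsSForm Φ S a ψ) (hψ : ψ ≠ 0)
    (hfix : ∀ τ g, ∀ u ∈ U, ψ τ (g * u) = ψ τ g) :
    IsCuspEigen (toSpace (Φ := Φ) (U := U) ψ) := by
  have e : ∀ (τ : ι → HSpace) (y : Yf U),
      toSpace (Φ := Φ) ψ (Space.mk τ y) = ψ τ y.out := fun _ _ => rfl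
  refine ⟨fun γ x => ?_, fun y => ?_, ?_, fun y r hr => ?_, fun k hk hc i x => ?_, ?_⟩
  · obtain ⟨g, hg⟩ := QuotientGroup.mk_surjective x.fin
    rw [← Space.mk_pt_fin x, Space.smul_mk, ← hg,
      show toGf K γ • (g : Yf U) = ((toGf K γ * g : GfK K) : Yf U) from rfl, toSpace_mk h hfix,
      toSpace_mk h hfix, h.invariant]
  · exact h.continuous (Quotient.out y)
  · exact h.bounded.imp fun _ hC x => hC _ _
  · exact h.cuspidal (Quotient.out y) r hr
  · exact h.spherical k hk hc i x.pt (Quotient.out x.fin)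
  · by_contra hno
    push Not at hno
    exact hψ (funext fun τ => funext fun g => by rw [← toSpace_mk (U := U) h hfix τ g, hno]; rfl)

theorem isHeckeEigenAt_toSpace (h : IsSForm Φ S a ψ) (hU1 : U ≤ principalLevel K (1 : 𝓞 K))
    {n : 𝓞 K} (hn : SupportedIn S n) (hnU : principalLevel K n ≤ U)
    (hfix : ∀ τ g, ∀ u ∈ U, ψ τ (g * u) = ψ τ g) {v : HeightOneSpectrum (𝓞 K)} (hv : v ∉ S) :
    IsHeckeEigenAt (toSpace (Φ := Φ) (U := U) ψ) v (a v) := by
  intro ϖ hϖ
  funext x
  obtain ⟨g, hg⟩ := QuotientGroup.mk_surjective x.fin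
  rw [← Space.mk_pt_fin x, ← hg]
  have := finite_nbrIndex v
  have := Fintype.ofFinite (𝓞 K ⧸ v.asIdeal)
  rw [RankinSelberg.heckeOp_eq_sum hU1 (RankinSelberg.hasFullLocal_of_le hnU (hn.2 v hv)) hϖ,
    Pi.smul_apply, smul_eq_mul]
  simp only [toSpace_mk h hfix]
  rw [← h.hecke v hv ϖ hϖ, finsum_eq_sum_of_fintype, Fintype.sum_option]
  rfl

end Space

end Fermat.Agent.LT.Descent
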