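/-
Levels of the representation on forms: smoothness, level projections, and their identification
with Hecke operators on the space of a level.
-/
import Fermat.Agent.LT.Descent.SForm
import Fermat.Agent.LT.Descent.Averaging

set_option autoImplicit false

noncomputable section

namespace Fermat.Agent.LT.Descent

open IsDedekindDomain NumberField Matrix MulAction
open Fermat.Agent.LT.Adelic Fermat.Agent.LT.Aleph

variable {K : Type*} [Field K] [NumberField K] {ι : Type*} [Fintype ι] [DecidableEq ι]
  {Φ : Frame K ι} {S : Set (HeightOneSpectrum (𝓞 K))} {a : HeightOneSpectrum (𝓞 K) → ℂ}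
  {U : Subgroup (GfK K)} {n : 𝓞 K}

/-- The `S`-part of a level. -/
def supLevel (S : Set (HeightOneSpectrum (𝓞 K))) (U : Subgroup (GfK K)) :
    Subgroup (gfSupported S) := U.comap (gfSupported S).subtype

theorem mem_supLevel {x : gfSupported S} : x ∈ supLevel S U ↔ (x : GfK K) ∈ U := Iff.rfl

/-- Congruence subgroups have finite index in integral groups. -/
theorem finiteIndex_comap_principalLevel {J : Type*} [Group J] (f : J →* GfK K)
    (hf : ∀ j, f j ∈ principalLevel K (1 : 𝓞 K)) (hn : n ≠ 0) :
    ((principalLevel K n).comap f).FiniteIndex := by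
  classical
  let F : J ⧸ (principalLevel K n).comap f → GfK K ⧸ principalLevel K n :=
    Quotient.map' f fun x y h => by
      rw [QuotientGroup.leftRel_apply] at h ⊢
      simpa [Subgroup.mem_comap, map_mul, map_inv] using h
  have hF : Function.Injective F := by
    intro x y
    induction x using QuotientGroup.induction_on with
    | _ x =>
      induction y using QuotientGroup.induction_on with
      | _ y =>
        intro h
        have := QuotientGroup.eq.1 (h : ((f x : GfK K) : GfK K ⧸ principalLevel K n) = (f y : GfK K))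
        exact QuotientGroup.eq.2 (by simpa [Subgroup.mem_comap] using this)
  have := (finite_image_principalLevel (K := K) hn).to_subtype
  have : Finite (J ⧸ (principalLevel K n).comap f) := Finite.of_injective
    (fun x => (⟨F x, by
      induction x using QuotientGroup.induction_on with
      | _ x => exact ⟨f x, hf x, rfl⟩⟩ : ((fun g : GfK K => (g : GfK K ⧸ principalLevel K n)) ''
        (principalLevel K (1 : 𝓞 K) : Set (GfK K)))))
    fun x y h => hF (congrArg Subtype.val h)
  exact Subgroup.finiteIndex_of_finite_quotient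

theorem exists_isStab_translateRep (hS : S.Finite) (hU : U ≤ principalLevel K (1 : 𝓞 K))
    (ψ : sForms Φ S a) :
    ∃ H : Subgroup (supLevel S U), IsStab (translateRep Φ S a hS) (supLevel S U) H ψ := by
  obtain ⟨m, hm, hinv⟩ := ψ.2.smooth
  refine ⟨(principalLevel K m).comap ((gfSupported S).subtype.comp (supLevel S U).subtype),
    finiteIndex_comap_principalLevel _ (fun j => hU j.2) hm.1, fun h hh => ?_⟩
  exact Subtype.ext (funext fun τ => funext fun g => hinv τ g _ hh)

theorem finite_orbit_supLevel (hS : S.Finite) (hn : SupportedIn S n) (hnU : principalLevel K n ≤ U)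
    (hU : U ≤ principalLevel K (1 : 𝓞 K)) (x : gfSupported S) :
    (orbit (supLevel S U) (x : gfSupported S ⧸ supLevel S U)).Finite := by
  obtain ⟨m, hm, hconj⟩ := exists_conj_le_supported hS (inv_mem x.2) hn
  set H := (principalLevel K m).comap ((gfSupported S).subtype.comp (supLevel S U).subtype)
  have hle : H ≤ stabilizer (supLevel S U) (x : gfSupported S ⧸ supLevel S U) := by
    intro j hj
    refine mem_stabilizer_iff.2 (QuotientGroup.eq.2 ?_)
    have := hnU (hconj _ (inv_mem hj))
    rw [mem_supLevel]
    simpa [Submonoid.smul_def, Subgroup.smul_def, mul_assoc] using this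
  have := finiteIndex_comap_principalLevel ((gfSupported S).subtype.comp (supLevel S U).subtype)
    (fun j => hU j.2) hm.1
  have : (stabilizer (supLevel S U) (x : gfSupported S ⧸ supLevel S U)).FiniteIndex :=
    Subgroup.finiteIndex_of_le hle
  have := Finite.of_equiv _ (orbitEquivQuotientStabilizer (supLevel S U)
    (x : gfSupported S ⧸ supLevel S U)).symm
  exact Set.toFinite _

/-- Level projections on forms. -/
theorem exists_isLevelProj_translateRep (hS : S.Finite) (hn : SupportedIn S n)
    (hnU : principalLevel K n ≤ U) (hU : U ≤ principalLevel K (1 : 𝓞 K)) :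
    ∃ e, IsLevelProj (translateRep Φ S a hS) e (fixedVectors (translateRep Φ S a hS) (supLevel S U)) ∧
      ∀ v H, IsStab (translateRep Φ S a hS) (supLevel S U) H v →
        e v = avgOver (translateRep Φ S a hS) (supLevel S U) H v := by
  obtain ⟨e, he⟩ := exists_levelProj (exists_isStab_translateRep (Φ := Φ) (a := a) hS hU)
  obtain ⟨e', he', hform⟩ := exists_isLevelProj (exists_isStab_translateRep (Φ := Φ) (a := a) hS hU)
    (finite_orbit_supLevel hS hn hnU hU)
  refine ⟨e, ⟨fun v => ?_, fun v hv => ?_, fun g => ?_⟩, he⟩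
  · obtain ⟨H, hH⟩ := exists_isStab_translateRep (Φ := Φ) (a := a) hS hU v
    have := hH.1
    have := Fintype.ofFinite (supLevel S U ⧸ H)
    intro j hj
    rw [he v H hH, avgOver_eq hH.1, map_smul, map_sum]
    congr 1
    rw [← Equiv.sum_comp (MulAction.toPerm (⟨j, hj⟩ : supLevel S U))
      (fun q : supLevel S U ⧸ H => translateRep Φ S a hS ((q.out : supLevel S U) : gfSupported S) v)]
    refine Finset.sum_congr rfl fun q _ => ?_
    conv_rhs => rw [show (MulAction.toPerm (⟨j, hj⟩ : supLevel S U)) q
        = ((⟨j, hj⟩ * q.out : supLevel S U) : supLevel S U ⧸ H) by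
      conv_lhs => rw [← QuotientGroup.out_eq' q]
      rfl]
    rw [apply_out_of_isStab hH, Subgroup.coe_mul, map_mul]
    rfl
  · have htop : IsStab (translateRep Φ S a hS) (supLevel S U) ⊤ v :=
      ⟨inferInstance, fun h _ => hv h h.2⟩
    have := Fintype.ofFinite (supLevel S U ⧸ (⊤ : Subgroup (supLevel S U)))
    rw [he v ⊤ htop, avgOver_eq htop.1, Finset.sum_congr rfl fun q _ => hv _ q.out.2,
      Finset.sum_const, Finset.card_univ, ← Nat.cast_smul_eq_nsmul ℂ, smul_smul,
      inv_mul_cancel₀ (Nat.cast_ne_zero.2 Fintype.card_ne_zero), one_smul]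
  · obtain ⟨c, hc⟩ := he'.comb g
    refine ⟨c, fun v hv => ?_⟩
    rw [← hc v hv, hform g v hv, levelProj_translate he (finite_orbit_supLevel hS hn hnU hU g) hv]

/-- The `S`-part of an element of `U` lies in `U`, and the rest commutes with the `S`-part. -/
theorem exists_split_mem (hn : SupportedIn S n) (hnU : principalLevel K n ≤ U)
    (hU : U ≤ principalLevel K (1 : 𝓞 K)) {u : GfK K} (hu : u ∈ U) :
    ∃ s : supLevel S U, ∃ r ∈ principalLevel K n, ((s : gfSupported S) : GfK K) * r = u ∧
      ∀ x ∈ gfSupported S, r * x = x * r := by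
  classical
  have hint := mem_principalLevel_one_iff.1 (hU hu)
  let r : GfK K := gfOfLocal K (fun v => if v ∈ S then 1 else localGL K v u) fun v => by
    by_cases hv : v ∈ S
    · rw [if_pos hv]; exact isIntLocal_one
    · rw [if_neg hv]; exact hint v
  have hrloc : ∀ v, localGL K v r = if v ∈ S then 1 else localGL K v u := fun v =>
    localGL_gfOfLocal _ _ v
  have hr : r ∈ principalLevel K n := Aleph.mem_principalLevel_of_local (gfOfLocal_mem _ _)
    fun v hv => by
      rw [hrloc, if_pos]
      by_contra hvS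
      exact absurd (hn.2 v hvS) hv.ne
  clear_value r
  have hs : u * r⁻¹ ∈ gfSupported S := fun v hv => by
    rw [map_mul, map_inv, hrloc, if_neg hv, mul_inv_cancel]
  have hsU : (⟨u * r⁻¹, hs⟩ : gfSupported S) ∈ supLevel S U :=
    mem_supLevel.2 (mul_mem hu (inv_mem (hnU hr)))
  refine ⟨⟨⟨u * r⁻¹, hs⟩, hsU⟩, r, hr, inv_mul_cancel_right u r,
    fun x hx => commute_of_disjoint fun v => ?_⟩
  by_cases hv : v ∈ S
  · exact Or.inl (by rw [hrloc, if_pos hv])
  · exact Or.inr (hx v hv)

theorem fixedVectors_supLevel_iff (hS : S.Finite) (hn : SupportedIn S n)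
    (hnU : principalLevel K n ≤ U) (hU : U ≤ principalLevel K (1 : 𝓞 K)) (ψ : sForms Φ S a)
    (hn' : ∀ τ g, ∀ u ∈ principalLevel K n, ψ.1 τ (g * u) = ψ.1 τ g) :
    ψ ∈ fixedVectors (translateRep Φ S a hS) (supLevel S U) ↔
      ∀ τ g, ∀ u ∈ U, ψ.1 τ (g * u) = ψ.1 τ g := by
  constructor
  · intro h τ g u hu
    obtain ⟨s, r, hr, rfl, hcomm⟩ := exists_split_mem hn hnU hU hu
    rw [← mul_assoc, hn' τ _ r hr]
    exact congrArg (fun φ : sForms Φ S a => φ.1 τ g) (h s.1 s.2)
  · intro h j hj
    exact Subtype.ext (funext fun τ => funext fun g => h τ g _ hj)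

open Classical in
/-- **Hecke operators are multiples of compressed translations.** -/
theorem heckeOp_toSpace (hS : S.Finite) (hn : SupportedIn S n) (hnU : principalLevel K n ≤ U)
    (hU : U ≤ principalLevel K (1 : 𝓞 K))
    {e : sForms Φ S a →ₗ[ℂ] sForms Φ S a}
    (he : ∀ v H, IsStab (translateRep Φ S a hS) (supLevel S U) H v →
      e v = avgOver (translateRep Φ S a hS) (supLevel S U) H v)
    (D : gfSupported S) {ψ : sForms Φ S a} (hfix : ∀ τ g, ∀ u ∈ U, ψ.1 τ (g * u) = ψ.1 τ g) :
    heckeOp (D : GfK K) (toSpace (Φ := Φ) (U := U) ψ.1) =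
      ((nbrs (D : GfK K) ((1 : GfK K) : Yf U)).ncard : ℂ) •
        toSpace (U := U) (e (translateRep Φ S a hS D ψ)).1 := by
  set J := supLevel S U
  set H : Subgroup J := (stabilizer (GfK K) (((D : GfK K)) : Yf U)).comap
    ((gfSupported S).subtype.comp J.subtype)
  have hlevel : IsLevel U := ⟨n, hn.1, hnU, hU⟩
  have hnb : ∀ y, y ∈ nbrs (D : GfK K) ((1 : GfK K) : Yf U) ↔
      ∃ j : J, y = (((j : gfSupported S) : GfK K) * D : GfK K) := by
    intro y
    rw [nbrs_mk]
    constructor
    · rintro ⟨u, hu, rfl⟩
      obtain ⟨s, r, hr, rfl, hcomm⟩ := exists_split_mem hn hnU hU hu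
      refine ⟨s, QuotientGroup.eq.2 (le_levelZ U ?_)⟩
      simp only [one_mul]
      rw [show (s : gfSupported S).1 * r * D.1 = (s : gfSupported S).1 * D.1 * r by
        rw [mul_assoc, hcomm D.1 D.2, ← mul_assoc], _root_.mul_inv_rev, inv_mul_cancel_right]
      exact inv_mem (hnU hr)
    · rintro ⟨j, rfl⟩
      exact ⟨_, j.2, by dsimp only; rw [one_mul]; rfl⟩
  let F : J ⧸ H → Yf U := Quotient.lift (fun j : J => (((j : gfSupported S) : GfK K) * D : GfK K))
    fun x y hxy => by
      have := QuotientGroup.leftRel_apply.1 hxy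
      rw [Subgroup.mem_comap, mem_stabilizer_iff] at this
      calc (((x : gfSupported S) : GfK K) * D : GfK K)
          = ((x : gfSupported S) : GfK K) • (((D : GfK K)) : Yf U) := rfl
        _ = _ := by
          conv_lhs => rw [← this]
          rw [← mul_smul]
          simp
  have hFinj : Function.Injective F := by
    intro x y
    induction x using QuotientGroup.induction_on with
    | _ x =>
      induction y using QuotientGroup.induction_on with
      | _ y =>
        intro h
        refine QuotientGroup.eq.2 (mem_stabilizer_iff.2 ?_)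
        have h' : ((x : gfSupported S) : GfK K) • (((D : GfK K)) : Yf U) =
            ((y : gfSupported S) : GfK K) • (((D : GfK K)) : Yf U) := h
        simp only [map_mul, map_inv, MonoidHom.coe_comp, Function.comp_apply, Subgroup.coe_subtype]
        rw [mul_smul, ← h', inv_smul_smul]
  have hrange : Set.range F = nbrs (D : GfK K) ((1 : GfK K) : Yf U) := by
    ext y
    rw [hnb]
    constructor
    · rintro ⟨x, rfl⟩
      induction x using QuotientGroup.induction_on with
      | _ x => exact ⟨x, rfl⟩
    · rintro ⟨j, rfl⟩; exact ⟨(j : J ⧸ H), rfl⟩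
  have hfin := finite_nbrs hlevel (D : GfK K) ((1 : GfK K) : Yf U)
  have : Finite (J ⧸ H) := by
    have hr : (Set.range F).Finite := hrange ▸ hfin
    have := hr.to_subtype
    exact Finite.of_injective (Set.rangeFactorization F) fun a b h =>
      hFinj (congrArg Subtype.val h)
  have : H.FiniteIndex := Subgroup.finiteIndex_of_finite_quotient
  have := Fintype.ofFinite (J ⧸ H)
  have hst : IsStab (translateRep Φ S a hS) J H (translateRep Φ S a hS D ψ) := by
    refine ⟨inferInstance, fun h hh => Subtype.ext (funext fun τ => funext fun g => ?_)⟩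
    rw [translateRep_apply, translateRep_apply, translateRep_apply]
    obtain ⟨u, hu, z, hz, e'⟩ := mem_levelZ.1 (QuotientGroup.eq.1 (mem_stabilizer_iff.1 hh).symm)
    have e'' : ((h : gfSupported S) : GfK K) * D = D * (u * z) := by
      rw [e']; simp [mul_assoc]
    rw [mul_assoc, e'', ← mul_assoc, ← mul_assoc, ψ.2.center _ _ z hz, hfix _ _ u hu]
  funext x
  obtain ⟨g, hg⟩ := QuotientGroup.mk_surjective x.fin
  rw [← Space.mk_pt_fin x, ← hg, heckeOp_mk, Pi.smul_apply, smul_eq_mul]
  have hfix' : ∀ τ g', ∀ u ∈ U, (e (translateRep Φ S a hS D ψ)).1 τ (g' * u)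
      = (e (translateRep Φ S a hS D ψ)).1 τ g' := by
    intro τ g' u hu
    obtain ⟨s, r, hr, rfl, hcomm⟩ := exists_split_mem hn hnU hU hu
    rw [he _ H hst, avgOver_eq hst.1]
    simp only [SetLike.val_smul, AddSubmonoidClass.coe_finsetSum, Pi.smul_apply, Finset.sum_apply,
      translateRep_apply, smul_eq_mul]
    congr 1
    rw [← Equiv.sum_comp (MulAction.toPerm s) (fun q : J ⧸ H =>
      ψ.1 τ (g' * ((q.out : J) : gfSupported S).1 * D.1))]
    refine Finset.sum_congr rfl fun q _ => ?_
    have hq : (MulAction.toPerm s) q = ((s * q.out : J) : J ⧸ H) := by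
      conv_lhs => rw [← QuotientGroup.out_eq' q]
      rfl
    have h1 := congrArg (fun φ : sForms Φ S a => φ.1 τ g')
      (apply_out_of_isStab hst (s * q.out))
    simp only [translateRep_apply, Subgroup.coe_mul] at h1
    rw [hq, h1, show g' * ((s : gfSupported S).1 * r) * (q.out : gfSupported S).1 * D.1 =
      g' * ((s : gfSupported S).1 * (q.out : gfSupported S).1) * D.1 * r by
        rw [← mul_assoc g', mul_assoc (g' * _) r, hcomm _ (q.out : gfSupported S).2]
        simp only [mul_assoc]
        rw [hcomm _ D.2], hfix _ _ r (hnU hr)]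
  rw [toSpace_mk (e (translateRep Φ S a hS D ψ)).2 hfix', ← mul_one g,
    show ((g * 1 : GfK K) : Yf U) = g • ((1 : GfK K) : Yf U) from rfl, nbrs_smul,
    finsum_mem_image ((MulAction.injective g).injOn), ← hrange, finsum_mem_range hFinj,
    finsum_eq_sum_of_fintype, he _ H hst, avgOver_eq hst.1, mul_one,
    Set.ncard_range_of_injective hFinj, Nat.card_eq_fintype_card]
  simp only [SetLike.val_smul, AddSubmonoidClass.coe_finsetSum, Pi.smul_apply, Finset.sum_apply,
    translateRep_apply, smul_eq_mul]
  rw [← mul_assoc, mul_inv_cancel₀ (Nat.cast_ne_zero.2 Fintype.card_ne_zero), one_mul]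
  refine Finset.sum_congr rfl fun q _ => ?_
  conv_lhs => rw [← QuotientGroup.out_eq' q]
  show toSpace ψ.1 (Space.mk x.pt ((g * (((q.out : J) : gfSupported S).1 * D.1) : GfK K) : Yf U)) = _
  rw [toSpace_mk ψ.2 hfix, mul_assoc]

end Fermat.Agent.LT.Descent
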