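/-
The Kirillov model of the forms with a fixed system outside `S`, from a coefficient map.
-/
import Fermat.Agent.LT.Descent.SFormLevels
import Fermat.Agent.LT.Adelic.Approx

set_option autoImplicit false

noncomputable section

namespace Fermat.Agent.LT.Descent

open IsDedekindDomain NumberField Matrix
open Fermat.Agent.LT.Adelic Fermat.Agent.LT.Aleph
open Fermat.Agent.LT.RankinSelberg (nbrMatrix localShift localShift_apply_of_ne valued_localShift_le
  IsKirillovModel sum_addChar_reps le_exp_neg_one_of_lt_one)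

variable {K : Type*} [Field K] [NumberField K] {ι : Type*} [Fintype ι] [DecidableEq ι]

/-- A coefficient map for the forms, with a character whose exact conductor is given by `δ`. -/
structure CoeffData (Φ : Frame K ι) (S : Set (HeightOneSpectrum (𝓞 K)))
    (a : HeightOneSpectrum (𝓞 K) → ℂ) where
  /-- the coefficient -/
  coeff : sForms Φ S a →ₗ[ℂ] GfK K → K → ℂ
  /-- the character -/
  psi : AddChar (FiniteAdeleRing (𝓞 K) K) ℂ
  /-- a generator of the inverse different -/
  delta : (FiniteAdeleRing (𝓞 K) K)ˣ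
  psi_int : ∀ x ∈ intAdele (𝓞 K) K, psi ((delta : FiniteAdeleRing (𝓞 K) K) * x) = 1
  psi_exact : ∀ v : HeightOneSpectrum (𝓞 K), ∃ s : FiniteAdeleRing (𝓞 K) K,
    (∀ w ≠ v, s w = 0) ∧ Valued.v (s v) ≤ WithZero.exp (1 : ℤ) ∧
      psi ((delta : FiniteAdeleRing (𝓞 K) K) * s) ≠ 1
  coeff_translate : ∀ (hS : S.Finite) (x : gfSupported S) (φ : sForms Φ S a) (g : GfK K) (α : K),
    coeff (translateRep Φ S a hS x φ) g α = coeff φ (g * x) α
  coeff_invariant : ∀ (φ : sForms Φ S a) (g u : GfK K),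
    (∀ τ g', φ.1 τ (g' * u) = φ.1 τ g') → ∀ α, coeff φ (g * u) α = coeff φ g α
  coeff_unipotent : ∀ (φ : sForms Φ S a) (t : FiniteAdeleRing (𝓞 K) K) (g : GfK K) (α : K),
    coeff φ (unipotent t * g) α = psi (algebraMap K _ α * t) * coeff φ g α
  coeff_diag : ∀ (φ : sForms Φ S a) (b : Kˣ) (g : GfK K) (α : K),
    coeff φ (toGf K (diag2 b 1) * g) α * ∏ i, (‖Φ.emb i (b : K)‖ : ℂ) = coeff φ g (α * b)
  coeff_zero : ∀ (φ : sForms Φ S a) (g : GfK K), coeff φ g 0 = 0
  coeff_ext : ∀ (φ : sForms Φ S a) (g : GfK K), (∀ α, coeff φ g α = 0) → ∀ τ, φ.1 τ g = 0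
  coeff_hecke : ∀ (φ : sForms Φ S a), ∀ v ∉ S, ∀ ϖ : (FiniteAdeleRing (𝓞 K) K)ˣ,
    IsUniformiserAt v ϖ → ∀ (g : GfK K) (α : K),
    ∑ᶠ o, coeff φ (g * nbrMatrix v ϖ o) α =
      (Real.sqrt (Ideal.absNorm v.asIdeal) : ℂ) * a v * coeff φ g α

variable {Φ : Frame K ι} {S : Set (HeightOneSpectrum (𝓞 K))} {a : HeightOneSpectrum (𝓞 K) → ℂ}

/-- The inverse of a unit adele, componentwise. -/
theorem inv_apply (x : (FiniteAdeleRing (𝓞 K) K)ˣ) (w : HeightOneSpectrum (𝓞 K)) :
    ((x⁻¹ : (FiniteAdeleRing (𝓞 K) K)ˣ) : FiniteAdeleRing (𝓞 K) K) w =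
      ((x : FiniteAdeleRing (𝓞 K) K) w)⁻¹ :=
  RankinSelberg.inv_uniformiser_apply x w

theorem idele_ne_zero (x : (FiniteAdeleRing (𝓞 K) K)ˣ) (w : HeightOneSpectrum (𝓞 K)) :
    (x : FiniteAdeleRing (𝓞 K) K) w ≠ 0 :=
  (FiniteAdeleRing.isUnit_iff.1 x.isUnit).1 w

theorem exists_uniformiser (v : HeightOneSpectrum (𝓞 K)) :
    ∃ ϖ : (FiniteAdeleRing (𝓞 K) K)ˣ, IsUniformiserAt v ϖ := by
  classical
  obtain ⟨π, hπ⟩ := v.valuation_exists_uniformizer K
  let x : FiniteAdeleRing (𝓞 K) K :=
    ⟨fun w => if w = v then (π : w.adicCompletion K) else 1,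
      (Set.finite_singleton v).subset fun w hw => by
        by_contra h
        refine hw ?_
        show Valued.v (if w = v then (π : w.adicCompletion K) else 1) ≤ 1
        rw [if_neg (show ¬ w = v from h), map_one]⟩
  have hx : ∀ w, x w = if w = v then (π : w.adicCompletion K) else 1 := fun _ => rfl
  have hv : Valued.v (x v) = WithZero.exp (-1 : ℤ) := by
    rw [hx, if_pos rfl, HeightOneSpectrum.adicCompletion.valued_coe, hπ]
  have hu : IsUnit x := isUnit_of_forall (fun w h => by
      rw [hx] at h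
      split_ifs at h with hw
      · subst hw; rw [hx, if_pos rfl, h, map_zero] at hv; exact WithZero.exp_ne_zero hv.symm
      · exact one_ne_zero h)
    ((Set.finite_singleton v).subset fun w hw => by
      by_contra h
      refine hw ?_
      show Valued.v (x w) = 1
      rw [hx, if_neg (show ¬ w = v from h), map_one])
  exact ⟨hu.unit, by rw [IsUnit.unit_spec]; exact hv, fun w hw => by
    rw [IsUnit.unit_spec, hx, if_neg hw]⟩

/-- The adele supported at `v` with component `z`. -/
theorem exists_single (v : HeightOneSpectrum (𝓞 K)) (z : v.adicCompletion K) :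
    ∃ t : FiniteAdeleRing (𝓞 K) K, (∀ w ≠ v, t w = 0) ∧ t v = z := by
  classical
  refine ⟨⟨fun w => if h : w = v then h ▸ z else 0, (Set.finite_singleton v).subset fun w hw => ?_⟩,
    fun w hw => dif_neg hw, dif_pos rfl⟩
  by_contra h
  refine hw ?_
  show Valued.v ((if h : w = v then h ▸ z else 0 : w.adicCompletion K)) ≤ 1
  rw [dif_neg (show ¬ w = v from h), map_zero]
  exact zero_le

theorem diag2_mul_diag2 {A : Type*} [CommRing A] (x y x' y' : Aˣ) :
    diag2 x y * diag2 x' y' = diag2 (x * x') (y * y') := by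
  apply GL.ext_fin_two; ext i j; fin_cases i <;> fin_cases j <;> simp

theorem diag2_mul_unipotent {A : Type*} [CommRing A] (x : Aˣ) (t : A) :
    diag2 x 1 * unipotent t = unipotent (x * t) * diag2 x 1 := by
  apply GL.ext_fin_two; ext i j; fin_cases i <;> fin_cases j <;> simp

theorem diag2_one_eq (ϖ : (FiniteAdeleRing (𝓞 K) K)ˣ) :
    diag2 1 ϖ = diag2 ϖ⁻¹ 1 * scalarHom (𝓞 K) K ϖ := by
  apply GL.ext_fin_two
  ext i j; fin_cases i <;> fin_cases j <;> simp [scalarHom]

theorem isIntLocal_diag2 (v : HeightOneSpectrum (𝓞 K)) {x : (FiniteAdeleRing (𝓞 K) K)ˣ}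
    (hx : Valued.v ((x : FiniteAdeleRing (𝓞 K) K) v) = 1) :
    IsIntLocal (localGL K v (diag2 x 1)) := by
  intro i j
  rw [← map_inv, localGL_apply, localGL_apply,
    show (diag2 x 1 : GfK K)⁻¹ = diag2 x⁻¹ 1 from inv_eq_of_mul_eq_one_right (by
      apply GL.ext_fin_two; ext i j; fin_cases i <;> fin_cases j <;> simp)]
  fin_cases i <;> fin_cases j <;> simp [coe_apply_one, coe_apply_zero, inv_apply, hx]

theorem isIntLocal_unipotent (v : HeightOneSpectrum (𝓞 K)) {t : FiniteAdeleRing (𝓞 K) K}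
    (ht : Valued.v (t v) ≤ 1) : IsIntLocal (localGL K v (unipotent t)) := by
  intro i j
  rw [← map_inv, localGL_apply, localGL_apply,
    show (unipotent t : GfK K)⁻¹ = unipotent (-t) from inv_eq_of_mul_eq_one_right (by
      apply GL.ext_fin_two; ext i j; fin_cases i <;> fin_cases j <;> simp)]
  fin_cases i <;> fin_cases j <;> simp [coe_apply_one, coe_apply_zero, coe_apply_neg, ht]

theorem localGL_diag2_eq_one {x : (FiniteAdeleRing (𝓞 K) K)ˣ} {v : HeightOneSpectrum (𝓞 K)}
    (hx : (x : FiniteAdeleRing (𝓞 K) K) v = 1) : localGL K v (diag2 x 1) = 1 := by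
  refine Units.ext (Matrix.ext fun i j => ?_)
  rw [localGL_apply]
  fin_cases i <;> fin_cases j <;> simp [hx, coe_apply_one, coe_apply_zero]

theorem localGL_unipotent_eq_one {t : FiniteAdeleRing (𝓞 K) K} {v : HeightOneSpectrum (𝓞 K)}
    (ht : t v = 0) : localGL K v (unipotent t) = 1 := by
  refine Units.ext (Matrix.ext fun i j => ?_)
  rw [localGL_apply]
  fin_cases i <;> fin_cases j <;> simp [ht, coe_apply_one, coe_apply_zero]

variable (S) in
/-- The ideles equal to one outside `S`. -/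
def ideleSupported : Subgroup (FiniteAdeleRing (𝓞 K) K)ˣ where
  carrier := {x | ∀ v ∉ S, (x : FiniteAdeleRing (𝓞 K) K) v = 1}
  one_mem' := fun v _ => coe_apply_one v
  mul_mem' := fun hx hy v hv => by rw [Units.val_mul, coe_apply_mul, hx v hv, hy v hv, one_mul]
  inv_mem' := fun hx v hv => by rw [inv_apply, hx v hv, inv_one]

variable (S) in
/-- The adeles equal to zero outside `S`. -/
def adeleSupported : AddSubgroup (FiniteAdeleRing (𝓞 K) K) where
  carrier := {x | ∀ v ∉ S, x v = 0}
  zero_mem' := fun v _ => coe_apply_zero v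
  add_mem' := fun hx hy v hv => by rw [coe_apply_add, hx v hv, hy v hv, add_zero]
  neg_mem' := fun hx v hv => by rw [coe_apply_neg, hx v hv, neg_zero]

/-- `diag(t, 1)` for a supported idele. -/
def torusHom : ideleSupported S →* gfSupported S where
  toFun t := ⟨diag2 t.1 1, fun v hv => localGL_diag2_eq_one (t.2 v hv)⟩
  map_one' := Subtype.ext (GL.ext_fin_two (by
    ext i j; fin_cases i <;> fin_cases j <;> simp))
  map_mul' s t := Subtype.ext (by
    show diag2 (s.1 * t.1) 1 = diag2 s.1 1 * diag2 t.1 1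
    rw [diag2_mul_diag2, one_mul])

/-- `n(x)` for a supported adele. -/
def unipElt (x : adeleSupported S) : gfSupported S :=
  ⟨unipotent x.1, fun v hv => localGL_unipotent_eq_one (x.2 v hv)⟩

theorem diag2_mem_principalLevel {n : 𝓞 K} (hn : SupportedIn S n)
    {u : (FiniteAdeleRing (𝓞 K) K)ˣ} (hu : ∀ v, Valued.v ((u : FiniteAdeleRing (𝓞 K) K) v) = 1)
    (hu1 : ∀ v ∈ S, (u : FiniteAdeleRing (𝓞 K) K) v = 1) :
    diag2 u 1 ∈ principalLevel K n :=
  Aleph.mem_principalLevel_of_local
    (mem_principalLevel_one_iff.2 fun v => isIntLocal_diag2 v (hu v)) fun v hv =>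
      localGL_diag2_eq_one (hu1 v (by by_contra h; exact absurd (hn.2 v h) hv.ne))

theorem unipotent_mem_principalLevel {n : 𝓞 K} (hn : SupportedIn S n)
    {t : FiniteAdeleRing (𝓞 K) K} (ht : ∀ v, Valued.v (t v) ≤ 1) (ht0 : ∀ v ∈ S, t v = 0) :
    unipotent t ∈ principalLevel K n :=
  Aleph.mem_principalLevel_of_local
    (mem_principalLevel_one_iff.2 fun v => isIntLocal_unipotent v (ht v)) fun v hv =>
      localGL_unipotent_eq_one (ht0 v (by by_contra h; exact absurd (hn.2 v h) hv.ne))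

namespace CoeffData

variable (D : CoeffData Φ S a)

/-- The coefficient at `diag(x δ, 1)`. -/
def torusCoeff (φ : sForms Φ S a) (x : (FiniteAdeleRing (𝓞 K) K)ˣ) : ℂ :=
  D.coeff φ (diag2 (x * D.delta) 1) 1

theorem torusCoeff_mul_unipotent (φ : sForms Φ S a) (x : (FiniteAdeleRing (𝓞 K) K)ˣ)
    (t : FiniteAdeleRing (𝓞 K) K) (h : GfK K) :
    D.coeff φ (diag2 (x * D.delta) 1 * (unipotent t * h)) 1 =
      D.psi ((D.delta : FiniteAdeleRing (𝓞 K) K) * (x * t)) *
        D.coeff φ (diag2 (x * D.delta) 1 * h) 1 := by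
  rw [← mul_assoc, diag2_mul_unipotent, mul_assoc, D.coeff_unipotent, map_one, one_mul,
    Units.val_mul]
  ring_nf

theorem torusCoeff_eq_zero (φ : sForms Φ S a) {v : HeightOneSpectrum (𝓞 K)} (hv : v ∉ S)
    {x : (FiniteAdeleRing (𝓞 K) K)ˣ}
    (hx : 1 < Valued.v ((x : FiniteAdeleRing (𝓞 K) K) v)) : D.torusCoeff φ x = 0 := by
  obtain ⟨n, hn, hinv⟩ := φ.2.smooth
  obtain ⟨s, hs0, hsv, hs1⟩ := D.psi_exact v
  obtain ⟨t, ht0, htv⟩ := exists_single v (s v / (x : FiniteAdeleRing (𝓞 K) K) v)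
  have hxt : (x : FiniteAdeleRing (𝓞 K) K) * t = s := FiniteAdeleRing.ext K fun w => by
    rw [coe_apply_mul]
    by_cases hw : w = v
    · subst hw; rw [htv, mul_div_cancel₀ _ (idele_ne_zero x w)]
    · rw [ht0 w hw, hs0 w hw, mul_zero]
  have hint : ∀ w, Valued.v (t w) ≤ 1 := fun w => by
    by_cases hw : w = v
    · subst hw
      rw [htv, map_div₀]
      refine div_le_one_of_le₀ (hsv.trans ?_) zero_le
      rcases eq_or_ne (Valued.v ((x : FiniteAdeleRing (𝓞 K) K) w)) 0 with h0 | h0
      · rw [h0] at hx; exact absurd hx (not_lt.2 zero_le)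
      · rw [← WithZero.exp_log h0] at hx ⊢
        rw [← WithZero.exp_zero, WithZero.exp_lt_exp] at hx
        rw [WithZero.exp_le_exp]; omega
    · rw [ht0 w hw, map_zero]; exact zero_le
  have hmem := unipotent_mem_principalLevel hn hint
    (fun w hw => ht0 w fun e => hv (e ▸ hw))
  have h1 := D.coeff_invariant φ (diag2 (x * D.delta) 1) _ (fun τ g' => hinv τ g' _ hmem) 1
  have h2 := D.torusCoeff_mul_unipotent φ x t 1
  simp only [mul_one, hxt, h1] at h2
  by_contra h
  exact hs1 (mul_right_cancel₀ h (h2.symm.trans (one_mul _).symm))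

theorem torusCoeff_mul_unit (φ : sForms Φ S a) (x : (FiniteAdeleRing (𝓞 K) K)ˣ)
    {u : (FiniteAdeleRing (𝓞 K) K)ˣ} (hu : ∀ v, Valued.v ((u : FiniteAdeleRing (𝓞 K) K) v) = 1)
    (hu1 : ∀ v ∈ S, (u : FiniteAdeleRing (𝓞 K) K) v = 1) :
    D.torusCoeff φ (x * u) = D.torusCoeff φ x := by
  obtain ⟨n, hn, hinv⟩ := φ.2.smooth
  have h := D.coeff_invariant φ (diag2 (x * D.delta) 1) _
    (fun τ g' => hinv τ g' _ (diag2_mem_principalLevel hn hu hu1)) 1
  rw [diag2_mul_diag2, one_mul] at h
  rw [torusCoeff, torusCoeff, ← h, mul_right_comm x u D.delta]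

/-- The Hecke recursion on the torus. -/
theorem torusCoeff_hecke (φ : sForms Φ S a) {v : HeightOneSpectrum (𝓞 K)} (hv : v ∉ S)
    {ϖ : (FiniteAdeleRing (𝓞 K) K)ˣ} (hϖ : IsUniformiserAt v ϖ)
    {x : (FiniteAdeleRing (𝓞 K) K)ˣ}
    (hx : Valued.v ((x : FiniteAdeleRing (𝓞 K) K) v) ≤ 1) :
    (Nat.card (𝓞 K ⧸ v.asIdeal) : ℂ) * D.torusCoeff φ (x * ϖ) + D.torusCoeff φ (x * ϖ⁻¹) =
      (Real.sqrt (Ideal.absNorm v.asIdeal) : ℂ) * a v * D.torusCoeff φ x := by
  have := finite_nbrIndex v
  have : Finite (𝓞 K ⧸ v.asIdeal) := Ring.HasFiniteQuotients.finiteQuotient v.ne_bot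
  have := Fintype.ofFinite (𝓞 K ⧸ v.asIdeal)
  have h := D.coeff_hecke φ v hv ϖ hϖ (diag2 (x * D.delta) 1) 1
  rw [finsum_eq_sum_of_fintype, Fintype.sum_option] at h
  change _ = _ * a v * D.torusCoeff φ x at h
  rw [← h, add_comm]
  congr 1
  · obtain ⟨n, hn, -⟩ := φ.2.smooth
    have hz : ∀ τ g', φ.1 τ (g' * scalarHom (𝓞 K) K ϖ) = φ.1 τ g' := fun τ g' =>
      φ.2.center τ g' _ ⟨ϖ, rfl⟩
    rw [show nbrMatrix v ϖ none = diag2 ϖ⁻¹ 1 * scalarHom (𝓞 K) K ϖ from diag2_one_eq ϖ,
      ← mul_assoc, D.coeff_invariant φ _ _ hz, diag2_mul_diag2, one_mul, torusCoeff,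
      mul_right_comm x ϖ⁻¹ D.delta]
  · have hterm : ∀ q : 𝓞 K ⧸ v.asIdeal,
        D.coeff φ (diag2 (x * D.delta) 1 * nbrMatrix v ϖ (some q)) 1 = D.torusCoeff φ (x * ϖ) := by
      intro q
      show D.coeff φ (diag2 (x * D.delta) 1 * (unipotent (localShift ϖ q.out) * heckeMatrix K ϖ)) 1 = _
      rw [D.torusCoeff_mul_unipotent, D.psi_int _ ?_, one_mul, heckeMatrix, diag2_mul_diag2, one_mul,
        torusCoeff]
      · rw [mul_right_comm x D.delta ϖ]
      · intro w
        rw [coe_apply_mul, map_mul]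
        by_cases hw : w = v
        · subst hw; exact mul_le_one' hx (valued_localShift_le hϖ _)
        · rw [localShift_apply_of_ne hϖ _ hw, map_zero, mul_zero]; exact zero_le
    rw [Finset.sum_congr rfl fun q _ => hterm q, Finset.sum_const, Finset.card_univ, nsmul_eq_mul,
      Nat.card_eq_fintype_card]

/-- The coefficients on the supported ideles determine those on all ideles. -/
theorem torusCoeff_eq_zero_of_supported (φ : sForms Φ S a) (hS : S.Finite)
    (h : ∀ x ∈ ideleSupported S, D.torusCoeff φ x = 0) (x : (FiniteAdeleRing (𝓞 K) K)ˣ) :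
    D.torusCoeff φ x = 0 := by
  classical
  have main : ∀ (T : Finset (HeightOneSpectrum (𝓞 K))) (x : (FiniteAdeleRing (𝓞 K) K)ˣ),
      (∀ v, v ∉ S → v ∉ T → Valued.v ((x : FiniteAdeleRing (𝓞 K) K) v) = 1) →
      D.torusCoeff φ x = 0 := by
    intro T
    induction T using Finset.induction_on with
    | empty =>
      intro x hx
      -- strip the units outside `S`
      let u : FiniteAdeleRing (𝓞 K) K :=
        ⟨fun w => if w ∈ S then 1 else (x : FiniteAdeleRing (𝓞 K) K) w,
          Filter.Eventually.of_forall fun w => by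
            show Valued.v (if w ∈ S then 1 else (x : FiniteAdeleRing (𝓞 K) K) w) ≤ 1
            split
            · rw [map_one]
            · rename_i hw; exact (hx w hw (Finset.notMem_empty w)).le⟩
      have hu : ∀ w, u w = if w ∈ S then 1 else (x : FiniteAdeleRing (𝓞 K) K) w := fun _ => rfl
      have hval : ∀ w, Valued.v (u w) = 1 := fun w => by
        rw [hu]
        split
        · rw [map_one]
        · rename_i hw; exact hx w hw (Finset.notMem_empty w)
      have hunit : IsUnit u := isUnit_of_forall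
        (fun w h0 => by have := hval w; rw [h0, map_zero] at this; exact zero_ne_one this)
        (Filter.Eventually.of_forall hval)
      have hmem : x * hunit.unit⁻¹ ∈ ideleSupported S := fun w hw => by
        rw [Units.val_mul, coe_apply_mul, inv_apply, IsUnit.unit_spec, hu, if_neg hw,
          mul_inv_cancel₀ (idele_ne_zero x w)]
      rw [← inv_mul_cancel_right x hunit.unit, D.torusCoeff_mul_unit φ _ (by simpa using hval)
        (fun w hw => by rw [IsUnit.unit_spec, hu, if_pos hw])]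
      exact h _ hmem
    | @insert v T _ ih =>
      intro x hx
      by_cases hvS : v ∈ S
      · exact ih x fun w hw hwT => hx w hw fun h => (Finset.mem_insert.1 h).elim
          (fun e => hw (e ▸ hvS)) hwT
      obtain ⟨ϖ, hϖ⟩ := exists_uniformiser v
      have hval : ∀ (k : ℕ) (z : (FiniteAdeleRing (𝓞 K) K)ˣ),
          Valued.v ((z : FiniteAdeleRing (𝓞 K) K) v) = WithZero.exp (-(k : ℤ)) →
          (∀ w, w ∉ S → w ∉ insert v T → Valued.v ((z : FiniteAdeleRing (𝓞 K) K) w) = 1) →
          D.torusCoeff φ z = 0 := by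
        intro k
        induction k using Nat.strong_induction_on with
        | _ k ihk =>
          intro z hz hzT
          rcases k with _ | k
          · refine ih z fun w hw hwT => ?_
            by_cases hwv : w = v
            · subst hwv; rw [hz]; simp
            · exact hzT w hw fun h => (Finset.mem_insert.1 h).elim hwv hwT
          have hstep : ∀ w, w ∉ S → w ∉ insert v T →
              Valued.v (((z * ϖ⁻¹ : (FiniteAdeleRing (𝓞 K) K)ˣ) : FiniteAdeleRing (𝓞 K) K) w) = 1 :=
            fun w hw hwT => by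
              rw [Units.val_mul, coe_apply_mul, inv_apply,
                hϖ.2 w fun e => hwT (e ▸ Finset.mem_insert_self v T), inv_one, mul_one]
              exact hzT w hw hwT
          have hv1 : Valued.v (((z * ϖ⁻¹ : (FiniteAdeleRing (𝓞 K) K)ˣ) :
              FiniteAdeleRing (𝓞 K) K) v) = WithZero.exp (-(k : ℤ)) := by
            rw [Units.val_mul, coe_apply_mul, inv_apply, map_mul, map_inv₀, hz, hϖ.1,
              ← WithZero.exp_neg, ← WithZero.exp_add]
            congr 1; push_cast; ring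
          have hle : Valued.v (((z * ϖ⁻¹ : (FiniteAdeleRing (𝓞 K) K)ˣ) :
              FiniteAdeleRing (𝓞 K) K) v) ≤ 1 := by
            rw [hv1, ← WithZero.exp_zero, WithZero.exp_le_exp]; omega
          have hrec := D.torusCoeff_hecke φ hvS hϖ hle
          rw [inv_mul_cancel_right, ihk k (by omega) _ hv1 hstep, mul_zero] at hrec
          have h0 : D.torusCoeff φ (z * ϖ⁻¹ * ϖ⁻¹) = 0 := by
            rcases k with _ | k
            · refine D.torusCoeff_eq_zero φ hvS ?_
              rw [Units.val_mul, coe_apply_mul, map_mul, hv1, inv_apply, map_inv₀, hϖ.1,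
                ← WithZero.exp_neg, ← WithZero.exp_add, ← WithZero.exp_zero, WithZero.exp_lt_exp]
              norm_num
            · refine ihk k (by omega) _ ?_ fun w hw hwT => ?_
              · rw [Units.val_mul, coe_apply_mul, map_mul, hv1, inv_apply, map_inv₀, hϖ.1,
                  ← WithZero.exp_neg, ← WithZero.exp_add]
                congr 1; push_cast; ring
              · rw [Units.val_mul, coe_apply_mul, inv_apply,
                  hϖ.2 w fun e => hwT (e ▸ Finset.mem_insert_self v T), inv_one, mul_one]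
                exact hstep w hw hwT
          rw [h0, add_zero] at hrec
          refine (mul_eq_zero.1 hrec).resolve_left ?_
          have : Finite (𝓞 K ⧸ v.asIdeal) := Ring.HasFiniteQuotients.finiteQuotient v.ne_bot
          exact_mod_cast Nat.card_pos.ne'
      by_cases hbig : 1 < Valued.v ((x : FiniteAdeleRing (𝓞 K) K) v)
      · exact D.torusCoeff_eq_zero φ hvS hbig
      have h0 : Valued.v ((x : FiniteAdeleRing (𝓞 K) K) v) ≠ 0 :=
        (Valuation.ne_zero_iff _).2 (idele_ne_zero x v)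
      refine hval (-WithZero.log (Valued.v ((x : FiniteAdeleRing (𝓞 K) K) v))).toNat x ?_ hx
      rw [not_lt, ← WithZero.exp_log h0, ← WithZero.exp_zero, WithZero.exp_le_exp] at hbig
      conv_lhs => rw [← WithZero.exp_log h0]
      congr 1; omega
  have hfin : {v | Valued.v ((x : FiniteAdeleRing (𝓞 K) K) v) ≠ 1}.Finite :=
    (FiniteAdeleRing.isUnit_iff.1 x.isUnit).2
  exact main hfin.toFinset x fun v _ hv => by simpa using hv

/-- The Kirillov map. -/
def kirillov : sForms Φ S a →ₗ[ℂ] ideleSupported S → ℂ where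
  toFun φ x := D.torusCoeff φ x.1
  map_add' φ φ' := funext fun x => by simp [torusCoeff]
  map_smul' c φ := funext fun x => by simp [torusCoeff]

theorem kirillov_injective (hS : S.Finite) : Function.Injective D.kirillov := by
  rw [injective_iff_map_eq_zero]
  intro φ hφ
  have h0 := D.torusCoeff_eq_zero_of_supported φ hS fun x hx => congrFun hφ ⟨x, hx⟩
  refine Subtype.ext (funext fun τ => funext fun g => ?_)
  obtain ⟨n, hn, hinv⟩ := φ.2.smooth
  obtain ⟨t, ht⟩ : ∃ t : (FiniteAdeleRing (𝓞 K) K)ˣ,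
      (g : Matrix (Fin 2) (Fin 2) (FiniteAdeleRing (𝓞 K) K)).det = t :=
    ⟨GeneralLinearGroup.det g, (GeneralLinearGroup.val_det_apply g).symm⟩
  obtain ⟨γ, -, u, hu, rfl⟩ := exists_eq_mul_diag hn.1 le_rfl g t ht
  have hzero : ∀ τ', φ.1 τ' (diag2 t 1) = 0 := by
    refine D.coeff_ext φ _ fun α => ?_
    rcases eq_or_ne α 0 with rfl | hα
    · exact D.coeff_zero φ _
    have h := D.coeff_diag φ (Units.mk0 α hα) (diag2 t 1) 1
    rw [one_mul, Units.val_mk0] at h
    rw [← h]
    set tt := Units.map (algebraMap K (FiniteAdeleRing (𝓞 K) K)).toMonoidHom (Units.mk0 α hα) * t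
    have he : toGf K (diag2 (Units.mk0 α hα) 1) * diag2 t 1 =
        diag2 (tt * D.delta⁻¹ * D.delta) 1 := by
      rw [inv_mul_cancel_right]
      apply GL.ext_fin_two
      ext i j; fin_cases i <;> fin_cases j <;> simp [toGf, tt, Matrix.mul_apply, Fin.sum_univ_two]
    rw [he]
    show D.torusCoeff φ _ * _ = 0
    rw [h0, zero_mul]
  show φ.1 τ (toGfR γ * diag2 t 1 * u) = 0
  rw [hinv _ _ u hu, show (toGfR : GL (Fin 2) K →* GfK K) = toGf K from rfl]
  conv_lhs => rw [show τ = fun i => Φ.toInf i γ • (fun j => (Φ.toInf j γ)⁻¹ • τ j) i from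
    funext fun i => (smul_inv_smul _ _).symm]
  rw [φ.2.invariant, hzero]

end CoeffData

end Fermat.Agent.LT.Descent
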