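import Fermat.Agent.LT.Descent.CuspGrowth

/-!
# Regularity of eigenclasses

A cusp class which is an eigenvector, with nonzero eigenvalue, of a Lipschitz test operator has a
continuous, bounded, rapidly decreasing cuspidal representative satisfying all its eigen equations
pointwise; if it has the spherical eigenvalues of parameter `0` this is an `IsCuspEigen`.
-/

set_option autoImplicit false

noncomputable section

namespace Fermat.Agent.LT.Descent

open Fermat.Agent.LT.Adelic Fermat.Agent.LT.Spectral MeasureTheory NumberField IsDedekindDomain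
  Filter Matrix
open scoped MatrixGroups ENNReal NNReal ComplexConjugate InnerProductSpace

variable {K : Type*} [Field K] [NumberField K] {ι : Type*} [Fintype ι] {Φ : Frame K ι}
  {U : Subgroup (GfK K)}

theorem HKer.id_comp_apply (f : HKer U) (y z : Yf U) : (HKer.id U).comp f y z = f y z := by
  show ∑ᶠ w, HKer.id U y w * f w z = f y z
  rw [finsum_eq_single _ y fun w hw => by simp [HKer.id, Ne.symm hw]]
  simp [HKer.id]

theorem HKer.comp_id_apply (f : HKer U) (y z : Yf U) : f.comp (HKer.id U) y z = f y z := by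
  show ∑ᶠ w, f y w * HKer.id U w z = f y z
  rw [finsum_eq_single _ z fun w hw => by simp [HKer.id, hw]]
  simp [HKer.id]

theorem HKer.comp_id_comm (f : HKer U) (y z : Yf U) :
    f.comp (HKer.id U) y z = (HKer.id U).comp f y z := by
  rw [HKer.id_comp_apply, HKer.comp_id_apply]

theorem testOp_smul (k : ι → PPKer) (f : HKer U) (c : ℂ) (φ : Space Φ U → ℂ) :
    testOp k f (c • φ) = c • testOp k f φ := by
  funext x
  simp only [testOp, Pi.smul_apply, smul_eq_mul, mul_left_comm _ c]
  exact integral_const_mul c _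

theorem testOp_congr_ae (k : ι → PPKer) (f : HKer U) {φ ψ : Space Φ U → ℂ}
    (h : φ =ᵐ[Space.measure Φ U] ψ) : testOp k f φ = testOp k f ψ :=
  funext fun _ => integral_congr_ae (h.mono fun _ hy => congrArg (_ * ·) hy)

omit [Fintype ι] in
theorem HasGrowth.mono {φ : Space Φ U → ℂ} {a b : ℤ} (h : HasGrowth φ a) (hab : a ≤ b) :
    HasGrowth φ b := by
  intro Y c C hY hc hC
  obtain ⟨G, hG0, hG⟩ := h Y c C hY hc hC
  refine ⟨G * c ^ (a - b), mul_nonneg hG0 (zpow_nonneg hc.le _), fun x hx j => ?_⟩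
  refine (hG x hx j).trans ?_
  rw [mul_assoc]
  refine mul_le_mul_of_nonneg_left ?_ hG0
  calc (x.pt j).r ^ a = (x.pt j).r ^ (a - b) * (x.pt j).r ^ b := by
        rw [← zpow_add₀ (x.pt j).r_pos.ne', sub_add_cancel]
    _ ≤ _ := mul_le_mul_of_nonneg_right (hx.r_le_zpow hc (sub_nonpos.mpr hab) j)
        (zpow_nonneg (x.pt j).r_pos.le _)

/-- Growth `r ^ 0` on strips is boundedness, for invariant functions. -/
theorem exists_bound_of_hasGrowth (hU : IsLevel U) {φ : Space Φ U → ℂ} (hinv : IsInvariant φ)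
    (h : HasGrowth φ 0) : ∃ C : ℝ, ∀ x, ‖φ x‖ ≤ C := by
  have : Nonempty ι := (Reduction.isFrame_of_frame Φ).placeEquiv.nonempty
  obtain ⟨Y0, c, C, R, hY0, hc, hC, hcov⟩ := Reduction.exists_siegel Φ hU
  obtain ⟨G, -, hG⟩ := h Y0 c (max 1 C) hY0 hc (le_max_left _ _)
  refine ⟨G, fun x => ?_⟩
  obtain ⟨γ, h1, h2⟩ := hcov x
  rw [← hinv γ x]
  refine (hG (γ • x) ⟨h1, h2.1, fun i l => (h2.2.1 i l).trans (mul_le_mul_of_nonneg_right
    (le_max_right _ _) ((γ • x).pt l).r_pos.le)⟩ (Classical.arbitrary ι)).trans ?_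
  rw [zpow_zero, mul_one]

variable [Countable (Yf U)] {D : QuotData Φ U}

/-- What an eigenclass with nonzero eigenvalue of a Lipschitz operator gives. -/
structure IsRegularRep (e : cuspClasses D) (φ : Space Φ U → ℂ) : Prop where
  sliceInt : SliceInt φ
  invariant : IsInvariant φ
  continuous : ∀ y : Yf U, Continuous fun τ : ι → HSpace => φ (Space.mk τ y)
  cuspidal : HasZeroMean φ
  decay : ∀ a : ℤ, HasGrowth φ a
  bounded : ∃ C : ℝ, ∀ x, ‖φ x‖ ≤ C
  ae_eq : (e : Lp ℂ 2 D.ν) =ᵐ[D.ν] φ
  eigen : ∀ (k : ι → PPKer) (f : HKer U) (c : ℂ), cuspOp D k f e = c • e → testOp k f φ = c • φ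

theorem exists_regularRep {ks : ι → PPKer} (hks : IsLipKernel ks) {μ : ℂ} (hμ : μ ≠ 0)
    {e : cuspClasses D} (h : cuspOp D ks (HKer.id U) e = μ • e) :
    ∃ φ, IsRegularRep e φ := by
  obtain ⟨φ₀, hm, hi, hc, hae⟩ := e.2
  have h2 : MemLp φ₀ 2 D.ν := (Lp.memLp (e : Lp ℂ 2 D.ν)).ae_eq hae
  have hs₀ := sliceInt_of_memLp hm hi h2
  set φ : Space Φ U → ℂ := μ⁻¹ • testOp ks (HKer.id U) φ₀ with hφ
  have hinv : IsInvariant φ := fun γ x => by
    simp only [hφ, Pi.smul_apply,
      isInvariant_testOp ks (HKer.id U) ((isInvariant_iff_pgl φ₀).mpr hi) γ x]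
  have hinv' := (isInvariant_iff_pgl φ).mp hinv
  have hcont : ∀ y : Yf U, Continuous fun τ : ι → HSpace => φ (Space.mk τ y) := fun y =>
    continuous_const.mul (continuous_testOp ks (HKer.id U) hs₀ y)
  have hs : SliceInt φ := .of_continuous hcont
  have hae' : (e : Lp ℂ 2 D.ν) =ᵐ[D.ν] φ := by
    have h1 := coeFn_cuspOp ks (HKer.id U) hm hi hae
    rw [h] at h1
    filter_upwards [h1, Lp.coeFn_smul μ (e : Lp ℂ 2 D.ν)] with x hx hx'
    rw [Submodule.coe_smul, hx', Pi.smul_apply, smul_eq_mul] at hx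
    simp [hφ, ← hx, inv_mul_cancel_left₀ hμ]
  have hμae : φ₀ =ᵐ[Space.measure Φ U] φ :=
    invariant_rep_unique D.isWeight hi hinv' (hae.symm.trans hae')
  have hself : testOp ks (HKer.id U) φ = μ • φ := by
    rw [← testOp_congr_ae ks (HKer.id U) hμae, hφ, smul_smul, mul_inv_cancel₀ hμ, one_smul]
  have hφ2 : MemLp φ 2 D.ν := (Lp.memLp (e : Lp ℂ 2 D.ν)).ae_eq hae'
  have hcusp : IsCuspidalFn φ := hc.congr hμae
  have hstart : HasGrowth φ ((Fintype.card ι : ℤ) - 1) := by
    intro Y c C hY hc' hC'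
    obtain ⟨M, hM0, hM⟩ := hasCuspBound_of_lip (D := D) hks (HKer.id U) Y c C hY hc' hC'
    refine ⟨‖μ‖⁻¹ * (M * (eLpNorm φ 2 D.ν).toReal),
      mul_nonneg (inv_nonneg.mpr (norm_nonneg μ)) (mul_nonneg hM0 ENNReal.toReal_nonneg),
      fun x hx j => ?_⟩
    have h' := hM φ hs.measurable hinv' hφ2 hcusp x hx j
    rw [hself, Pi.smul_apply, norm_smul] at h'
    rw [mul_assoc, inv_mul_eq_div, le_div_iff₀' (norm_pos_iff.mpr hμ)]
    exact h'
  have hstep : ∀ a, HasGrowth φ a → HasGrowth φ (a - 1) := by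
    intro a ha Y c C hY hc' hC'
    obtain ⟨G, hG0, hG⟩ :=
      hasGrowth_testOp hks (HKer.id U) hs.measurable hinv' hφ2 hcusp ha Y c C hY hc' hC'
    refine ⟨‖μ‖⁻¹ * G, mul_nonneg (inv_nonneg.mpr (norm_nonneg μ)) hG0, fun x hx j => ?_⟩
    have h' := hG x hx j
    rw [hself, Pi.smul_apply, norm_smul] at h'
    rw [mul_assoc, inv_mul_eq_div, le_div_iff₀' (norm_pos_iff.mpr hμ)]
    exact h'
  have hdown : ∀ m : ℕ, HasGrowth φ ((Fintype.card ι : ℤ) - 1 - m) := by
    intro m
    induction m with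
    | zero => simpa using hstart
    | succ m ih =>
      have := hstep _ ih
      rwa [show (Fintype.card ι : ℤ) - 1 - (m + 1 : ℕ) = (Fintype.card ι : ℤ) - 1 - m - 1 by
        push_cast; ring]
  have hall : ∀ a : ℤ, HasGrowth φ a := fun a => by
    obtain ⟨m, hm⟩ : ∃ m : ℕ, (Fintype.card ι : ℤ) - 1 - m ≤ a :=
      ⟨((Fintype.card ι : ℤ) - 1 - a).toNat, by omega⟩
    exact (hdown m).mono hm
  refine ⟨φ, hs, hinv, hcont, hasZeroMean_of_isCuspidalFn hcont hinv' D.level hcusp, hall,
    exists_bound_of_hasGrowth D.level hinv (hall 0), hae', fun k f c hk => ?_⟩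
  -- eigen equations hold pointwise
  have h1 : testOp k f φ =ᵐ[D.ν] c • φ := by
    have h3 := coeFn_cuspOp k f hs.measurable hinv' hae'
    rw [hk] at h3
    filter_upwards [h3, Lp.coeFn_smul c (e : Lp ℂ 2 D.ν), hae'] with x hx hx' hx''
    rw [Submodule.coe_smul, hx', Pi.smul_apply, hx''] at hx
    rw [← hx, Pi.smul_apply]
  have h4 : testOp k f φ =ᵐ[Space.measure Φ U] c • φ :=
    invariant_rep_unique D.isWeight ((isInvariant_iff_pgl _).mp (isInvariant_testOp k f hinv))
      (fun g x => by simp [hinv']) h1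
  have h5 : testOp ks (HKer.id U) (testOp k f φ) = testOp k f (testOp ks (HKer.id U) φ) := by
    rw [testOp_comp ks k _ f hs, testOp_comp k ks f _ hs]
    exact congrFun (testOp_congr (fun i => PPKer.comp_comm _ _)
      (fun y z => (HKer.comp_id_comm f y z).symm)) φ
  have h6 : μ • testOp k f φ = μ • (c • φ) := by
    calc μ • testOp k f φ = testOp k f (testOp ks (HKer.id U) φ) :=
          (testOp_smul k f μ φ).symm.trans (congrArg (testOp k f) hself.symm)
      _ = testOp ks (HKer.id U) (c • φ) := by rw [← h5, testOp_congr_ae ks _ h4]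
      _ = μ • (c • φ) := by rw [testOp_smul, hself, smul_comm]
  exact smul_right_injective _ hμ h6

variable [DecidableEq ι]

theorem ofProfile_re_im {k₀ : ℝ → ℂ} (hk₀ : Continuous k₀) (hc : HasCompactSupport k₀)
    {hre : Continuous fun t => ((k₀ t).re : ℂ)} {hrec : HasCompactSupport fun t => ((k₀ t).re : ℂ)}
    {him : Continuous fun t => ((k₀ t).im : ℂ)} {himc : HasCompactSupport fun t => ((k₀ t).im : ℂ)}
    (k : PPKer) (p q : HSpace) :
    PPKer.comp (PPKer.ofProfile k₀ hk₀ hc) k p q
      = PPKer.comp (PPKer.ofProfile _ hre hrec) k p q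
        + Complex.I * PPKer.comp (PPKer.ofProfile _ him himc) k p q := by
  have hi : ∀ κ : PPKer, Integrable (fun x => κ p x * k x q) HSpace.measure := fun κ =>
    ((κ.continuous_right p).mul (k.continuous'.comp (Continuous.prodMk_left q))
      ).integrable_of_hasCompactSupport ((κ.hasCompactSupport p).mul_right)
  simp only [PPKer.comp_apply]
  rw [← integral_const_mul, ← integral_add (hi _) ((hi _).const_mul _)]
  refine integral_congr_ae (Eventually.of_forall fun x => ?_)
  show k₀ _ * _ = ((k₀ _).re : ℂ) * _ + Complex.I * (((k₀ _).im : ℂ) * _)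
  conv_lhs => rw [← Complex.re_add_im (k₀ (HSpace.coshDist p x))]
  ring

/-- Eigenclasses with the spherical eigenvalues of parameter `0` are cusp eigenforms; it is
enough to test real profiles. -/
theorem exists_isCuspEigen {ks : ι → PPKer} (hks : IsLipKernel ks) {μ : ℂ} (hμ : μ ≠ 0)
    {e : cuspClasses D} (he : e ≠ 0) (h : cuspOp D ks (HKer.id U) e = μ • e)
    (hsph : ∀ (k₀ : ℝ → ℂ) (hk₀ : Continuous k₀) (hc : HasCompactSupport k₀) (i : ι),
      (∀ t, (k₀ t).im = 0) →
      cuspOp D (Function.update ks i (PPKer.comp (PPKer.ofProfile k₀ hk₀ hc) (ks i))) (HKer.id U) e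
        = (sphTransform k₀ 0 * μ) • e) :
    ∃ φ, IsRegularRep e φ ∧ IsCuspEigen φ := by
  obtain ⟨φ, hφ⟩ := exists_regularRep hks hμ h
  refine ⟨φ, hφ, hφ.invariant, hφ.continuous, hφ.bounded, hφ.cuspidal, ?_, ?_⟩
  · refine isSphericalEigen_of_testOp hφ.sliceInt hμ (hφ.eigen _ _ _ h)
      fun k₀ hk₀ hc i => ?_
    have hre : Continuous fun t => ((k₀ t).re : ℂ) := by fun_prop
    have him : Continuous fun t => ((k₀ t).im : ℂ) := by fun_prop
    have hrec : HasCompactSupport fun t => ((k₀ t).re : ℂ) :=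
      hc.comp_left (g := fun z : ℂ => (z.re : ℂ)) (by simp)
    have himc : HasCompactSupport fun t => ((k₀ t).im : ℂ) :=
      hc.comp_left (g := fun z : ℂ => (z.im : ℂ)) (by simp)
    have er := hφ.eigen _ _ _ (hsph _ hre hrec i fun t => Complex.ofReal_im _)
    have ei := hφ.eigen _ _ _ (hsph _ him himc i fun t => Complex.ofReal_im _)
    set Kr := Function.update ks i (PPKer.comp (PPKer.ofProfile _ hre hrec) (ks i)) with hKr
    set Ki := Function.update ks i (PPKer.comp (PPKer.ofProfile _ him himc) (ks i)) with hKi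
    have hker : ∀ x y : Space Φ U,
        testKernel (Function.update ks i (PPKer.comp (PPKer.ofProfile k₀ hk₀ hc) (ks i)))
          (HKer.id U) x y
        = testKernel Kr (HKer.id U) x y + Complex.I * testKernel Ki (HKer.id U) x y := by
      intro x y
      simp only [testKernel, hKr, hKi, ← Finset.mul_prod_erase _ _ (Finset.mem_univ i),
        Function.update_self]
      rw [ofProfile_re_im hk₀ hc (hre := hre) (hrec := hrec) (him := him) (himc := himc) (ks i)]
      have hrest : ∀ k' : PPKer, ∏ j ∈ Finset.univ.erase i,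
          Function.update ks i k' j (x.pt j) (y.pt j)
            = ∏ j ∈ Finset.univ.erase i, ks j (x.pt j) (y.pt j) := fun k' =>
        Finset.prod_congr rfl fun j hj => by rw [Function.update_of_ne (Finset.ne_of_mem_erase hj)]
      simp only [hrest]
      ring
    have hhat : sphTransform k₀ 0 = sphTransform (fun t => ((k₀ t).re : ℂ)) 0
        + Complex.I * sphTransform (fun t => ((k₀ t).im : ℂ)) 0 := by
      have hi : ∀ κ : PPKer, Integrable
          (fun τ => κ HSpace.base τ * (τ.r : ℂ) ^ (1 + (0 : ℂ))) HSpace.measure := fun κ =>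
        ((κ.continuous_right _).mul (PPKer.continuous_cpow_r _)).integrable_of_hasCompactSupport
          ((κ.hasCompactSupport _).mul_right)
      rw [← PPKer.hat_ofProfile k₀ hk₀ hc, ← PPKer.hat_ofProfile _ hre hrec,
        ← PPKer.hat_ofProfile _ him himc]
      simp only [PPKer.hat]
      rw [← integral_const_mul, ← integral_add (hi _) ((hi _).const_mul _)]
      refine integral_congr_ae (Eventually.of_forall fun x => ?_)
      show k₀ _ * _ = ((k₀ _).re : ℂ) * _ + Complex.I * (((k₀ _).im : ℂ) * _)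
      conv_lhs => rw [← Complex.re_add_im (k₀ (HSpace.coshDist HSpace.base x))]
      ring
    funext x
    have hint := fun k' : ι → PPKer => integrable_testKernel_mul k' (HKer.id U) hφ.sliceInt x
    calc testOp _ (HKer.id U) φ x
        = ∫ y, (testKernel Kr (HKer.id U) x y * φ y
            + Complex.I * (testKernel Ki (HKer.id U) x y * φ y)) ∂Space.measure Φ U :=
          integral_congr_ae (Eventually.of_forall fun y => by simp only [hker]; ring)
      _ = testOp Kr (HKer.id U) φ x + Complex.I * testOp Ki (HKer.id U) φ x := by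
          rw [integral_add (hint _) ((hint _).const_mul _), integral_const_mul]
          rfl
      _ = _ := by
          rw [er, ei, PPKer.hat_ofProfile, hhat]
          simp only [Pi.smul_apply, smul_eq_mul]
          ring
  · by_contra hzero
    refine he (Subtype.ext (Lp.ext ?_))
    filter_upwards [hφ.ae_eq, Lp.coeFn_zero ℂ 2 D.ν] with x hx hx'
    rw [hx, show φ x = 0 from by_contra fun hne => hzero ⟨x, hne⟩]
    exact hx'.symm

end Fermat.Agent.LT.Descent

end
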