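import Fermat.Agent.LT.Spectral.RowOperator
import Mathlib.Analysis.InnerProductSpace.JointEigenspace
import Mathlib.Analysis.InnerProductSpace.Trace

/-!
# Decomposition of a Hilbert space into joint eigenclasses

`P` is compact self-adjoint, `A` a commuting family of self-adjoint operators commuting with `P`.
The joint eigenspaces with nonzero `P`-eigenvalue are finite dimensional, countably many, and
exhaust the orthogonal of `ker P`; if `P` is Hilbert–Schmidt the trace of `X P²` is the sum of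
`μ²` times the traces of the compressions of `X`.
-/

set_option autoImplicit false

noncomputable section

open Module End
open scoped InnerProductSpace

namespace Fermat.Agent.LT.Descent

universe u v

variable {E : Type u} [NormedAddCommGroup E] [InnerProductSpace ℂ E] {J : Type v}

/-- The joint eigenclasses of `P` and `A` away from `ker P`. -/
structure IsClassDecomp (P : E →L[ℂ] E) (A : J → E →L[ℂ] E) {Λ : Type*}
    (V : Λ → Submodule ℂ E) (μ : Λ → ℝ) (lam : Λ → J → ℝ) : Prop where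
  ne_zero : ∀ i, μ i ≠ 0
  ne_bot : ∀ i, V i ≠ ⊥
  finiteDimensional : ∀ i, FiniteDimensional ℂ (V i)
  mem_iff : ∀ i v, v ∈ V i ↔ P v = (μ i : ℂ) • v ∧ ∀ j, A j v = (lam i j : ℂ) • v
  orthogonal : ∀ i i', i ≠ i' → V i ⟂ V i'
  complete : ∀ (v : E) (m : ℝ) (L : J → ℝ), v ≠ 0 → m ≠ 0 → P v = (m : ℂ) • v →
    (∀ j, A j v = (L j : ℂ) • v) → ∃ i, μ i = m ∧ lam i = L
  orth_ker : ∀ v : E, (∀ i, ∀ u ∈ V i, ⟪u, v⟫_ℂ = 0) → P v = 0

/-- The joint eigenspace of real eigenvalues. -/
def jointSpace (P : E →L[ℂ] E) (A : J → E →L[ℂ] E) (x : ℝ × (J → ℝ)) : Submodule ℂ E :=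
  eigenspace (P : Module.End ℂ E) (x.1 : ℂ) ⊓ ⨅ j, eigenspace (A j : Module.End ℂ E) (x.2 j : ℂ)

theorem mem_jointSpace {P : E →L[ℂ] E} {A : J → E →L[ℂ] E} {x : ℝ × (J → ℝ)} {v : E} :
    v ∈ jointSpace P A x ↔ P v = (x.1 : ℂ) • v ∧ ∀ j, A j v = (x.2 j : ℂ) • v := by
  simp [jointSpace, Submodule.mem_iInf]

/-- The classes. -/
abbrev ClassIdx (P : E →L[ℂ] E) (A : J → E →L[ℂ] E) : Type v :=
  {x : ℝ × (J → ℝ) // x.1 ≠ 0 ∧ jointSpace P A x ≠ ⊥}

variable [CompleteSpace E] {P : E →L[ℂ] E} {A : J → E →L[ℂ] E}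

theorem jointSpace_orthogonal (hP : IsSelfAdjoint P) (hA : ∀ j, IsSelfAdjoint (A j))
    {x y : ℝ × (J → ℝ)} (h : x ≠ y) : jointSpace P A x ⟂ jointSpace P A y := by
  rw [Submodule.isOrtho_iff_inner_eq]
  intro v hv w hw
  obtain ⟨hv1, hv2⟩ := mem_jointSpace.mp hv
  obtain ⟨hw1, hw2⟩ := mem_jointSpace.mp hw
  have key : ∀ {T : E →L[ℂ] E}, IsSelfAdjoint T → ∀ {a b : ℝ}, T v = (a : ℂ) • v →
      T w = (b : ℂ) • w → a ≠ b → ⟪v, w⟫_ℂ = 0 := by
    intro T hT a b ha hb hab
    have h1 : ⟪T v, w⟫_ℂ = ⟪v, T w⟫_ℂ := hT.isSymmetric v w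
    rw [ha, hb, inner_smul_left, inner_smul_right, Complex.conj_ofReal] at h1
    by_contra hne
    exact hab (Complex.ofReal_inj.mp (mul_right_cancel₀ hne h1))
  by_cases h1 : x.1 = y.1
  · obtain ⟨j, hj⟩ : ∃ j, x.2 j ≠ y.2 j := Function.ne_iff.mp fun h2 => h (Prod.ext h1 h2)
    exact key (hA j) (hv2 j) (hw2 j) hj
  · exact key hP hv1 hw1 h1

theorem countable_classIdx [TopologicalSpace.SeparableSpace E] (hP : IsSelfAdjoint P)
    (hA : ∀ j, IsSelfAdjoint (A j)) : Countable (ClassIdx P A) := by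
  choose u hu hu0 using fun i : ClassIdx P A => Submodule.exists_mem_ne_zero_of_ne_bot i.2.2
  refine Spectral.orthonormal_countable (v := fun i => (‖u i‖⁻¹ : ℂ) • u i)
    ⟨fun i => ?_, fun i i' hii => ?_⟩
  · simp [norm_smul, hu0 i]
  · simp only
    rw [inner_smul_left, inner_smul_right, (jointSpace_orthogonal hP hA
      fun e => hii (Subtype.ext e)).inner_eq (hu i) (hu i'), mul_zero, mul_zero]

/-- The joint eigenspaces form a class decomposition. -/
theorem isClassDecomp_jointSpace (hPc : IsCompactOperator P) (hP : IsSelfAdjoint P)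
    (hA : ∀ j, IsSelfAdjoint (A j)) (hAA : ∀ j j', Commute (A j) (A j'))
    (hAP : ∀ j, Commute (A j) P) :
    IsClassDecomp P A (fun i : ClassIdx P A => jointSpace P A i.1) (fun i => i.1.1)
      fun i => i.1.2 where
  ne_zero i := i.2.1
  ne_bot i := i.2.2
  finiteDimensional i :=
    have := ContinuousLinearMap.finite_dimensional_eigenspace hPc (i.1.1 : ℂ)
      (Complex.ofReal_ne_zero.mpr i.2.1)
    Submodule.finiteDimensional_of_le (inf_le_left :
      jointSpace P A i.1 ≤ eigenspace (P : Module.End ℂ E) (i.1.1 : ℂ))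
  mem_iff i v := mem_jointSpace
  orthogonal i i' h := jointSpace_orthogonal hP hA fun e => h (Subtype.ext e)
  complete v m L hv hm h1 h2 :=
    ⟨⟨(m, L), hm, fun hb => hv (by
      have : v ∈ jointSpace P A (m, L) := mem_jointSpace.mpr ⟨h1, h2⟩
      rwa [hb, Submodule.mem_bot] at this)⟩, rfl, rfl⟩
  orth_ker v hv := by
    have hsymm := hP.isSymmetric
    have key : ∀ m : ℂ, m ≠ 0 → ∀ w ∈ eigenspace (P : Module.End ℂ E) m, ⟪w, v⟫_ℂ = 0 := by
      intro m hm
      set W := eigenspace (P : Module.End ℂ E) m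
      have : FiniteDimensional ℂ W := ContinuousLinearMap.finite_dimensional_eigenspace hPc m hm
      have hmaps : ∀ j, Set.MapsTo (A j : E →ₗ[ℂ] E) W W := fun j w hw => by
        rw [SetLike.mem_coe, mem_eigenspace_iff] at hw ⊢
        show P (A j w) = m • A j w
        rw [show P (A j w) = A j (P w) from (congrArg (fun f : E →L[ℂ] E => f w) (hAP j).eq).symm,
          show P w = m • w from hw, map_smul]
      let T : J → W →ₗ[ℂ] W := fun j => (A j : E →ₗ[ℂ] E).restrict (hmaps j)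
      have hT : ∀ j, (T j).IsSymmetric := fun j => (hA j).isSymmetric.restrict_invariant (hmaps j)
      have hcomm : Pairwise fun j j' => Commute (T j) (T j') := fun j j' _ =>
        LinearMap.ext fun w => Subtype.ext (congrArg (fun f : E →L[ℂ] E => f (w : E)) (hAA j j').eq)
      intro w hw
      have htop := LinearMap.IsSymmetric.iSup_iInf_eq_top_of_commute hT hcomm
      have hmem : (⟨w, hw⟩ : W) ∈ ⨆ χ : J → ℂ, ⨅ j, eigenspace (T j) (χ j) := htop ▸ trivial
      refine Submodule.iSup_induction _ (motive := fun z : W => ⟪(z : E), v⟫_ℂ = 0) hmem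
        (fun χ z hz => ?_) (by simp) fun a b ha hb => by
          rw [Submodule.coe_add, inner_add_left, ha, hb, add_zero]
      rw [Submodule.mem_iInf] at hz
      by_cases hz0 : (z : E) = 0
      · rw [hz0, inner_zero_left]
      have hPz : P (z : E) = m • (z : E) := mem_eigenspace_iff.mp z.2
      have hAz : ∀ j, A j (z : E) = χ j • (z : E) := fun j =>
        congrArg Subtype.val (mem_eigenspace_iff.mp (hz j))
      have hreal : ∀ {S : E →L[ℂ] E} {c : ℂ}, IsSelfAdjoint S → S (z : E) = c • (z : E) →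
          ((c.re : ℝ) : ℂ) = c := fun {S c} hS hc =>
        Complex.conj_eq_iff_re.mp (hS.isSymmetric.conj_eigenvalue_eq_self
          (hasEigenvalue_of_hasEigenvector ⟨mem_eigenspace_iff.mpr hc, hz0⟩))
      have hm' := hreal hP hPz
      have hmemz : (z : E) ∈ jointSpace P A (m.re, fun j => (χ j).re) := mem_jointSpace.mpr
        ⟨by simp only; rw [hm']; exact hPz,
          fun j => by simp only; rw [hreal (hA j) (hAz j)]; exact hAz j⟩
      exact hv ⟨_, fun h => hm (by rw [← hm', show m.re = 0 from h, Complex.ofReal_zero]), fun hb => hz0 (by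
        rwa [hb, Submodule.mem_bot] at hmemz)⟩ _ hmemz
    have hPv : P v ∈ (⨆ m : ℂ, eigenspace (P : Module.End ℂ E) m)ᗮ := by
      rw [Submodule.mem_orthogonal]
      intro w hw
      refine Submodule.iSup_induction _ (motive := fun z => ⟪z, P v⟫_ℂ = 0) hw
        (fun m z hz => ?_) (inner_zero_left _) fun a b ha hb => by
          rw [inner_add_left, ha, hb, add_zero]
      have h1 : ⟪P z, v⟫_ℂ = ⟪z, P v⟫_ℂ := hsymm z v
      rw [← h1, show P z = m • z from mem_eigenspace_iff.mp hz, inner_smul_left]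
      rcases eq_or_ne m 0 with rfl | hm
      · simp
      · rw [key m hm z hz, mul_zero]
    rwa [ContinuousLinearMap.orthogonalComplement_iSup_eigenspaces_eq_bot hPc hsymm,
      Submodule.mem_bot] at hPv

/-- A compact self-adjoint operator and a commuting family have a countable class decomposition. -/
theorem exists_classDecomp [TopologicalSpace.SeparableSpace E] (hPc : IsCompactOperator P)
    (hP : IsSelfAdjoint P) (hA : ∀ j, IsSelfAdjoint (A j))
    (hAA : ∀ j j', Commute (A j) (A j')) (hAP : ∀ j, Commute (A j) P) :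
    ∃ (Λ : Type v) (_ : Countable Λ) (V : Λ → Submodule ℂ E) (μ : Λ → ℝ) (lam : Λ → J → ℝ),
      IsClassDecomp P A V μ lam :=
  ⟨ClassIdx P A, countable_classIdx hP hA, _, _, _,
    isClassDecomp_jointSpace hPc hP hA hAA hAP⟩

variable {Λ : Type*} (V : Λ → Submodule ℂ E) [∀ i, FiniteDimensional ℂ (V i)]

/-- The compression of `X` to the class `i`. -/
def compress (X : E →L[ℂ] E) (i : Λ) : Module.End ℂ (V i) :=
  ((V i).orthogonalProjectionOnto.comp (X.comp (V i).subtypeL)).toLinearMap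

omit [CompleteSpace E] in
theorem compress_apply (X : E →L[ℂ] E) (i : Λ) (v : V i) :
    compress V X i v = (V i).orthogonalProjectionOnto (X v) := rfl

omit [CompleteSpace E] in
theorem coe_compress_of_mem (X : E →L[ℂ] E) {i : Λ} {v : V i} (h : X v ∈ V i) :
    (compress V X i v : E) = X v :=
  congrArg Subtype.val ((V i).orthogonalProjectionOnto_mem_subspace_eq_self ⟨X v, h⟩)

omit [CompleteSpace E] in
theorem compress_eq_zero_of_mapsTo (X : E →L[ℂ] E) {i i' : Λ} (h : V i ⟂ V i')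
    (hmaps : ∀ v ∈ V i, X v ∈ V i') : compress V X i = 0 := by
  refine LinearMap.ext fun v => ?_
  rw [compress_apply, LinearMap.zero_apply]
  exact Submodule.orthogonalProjectionOnto_eq_zero_iff.mpr (h.ge (hmaps v v.2))

omit [CompleteSpace E] in
theorem trace_compress_eq_zero_of_mapsTo (X : E →L[ℂ] E) {i i' : Λ} (h : V i ⟂ V i')
    (hmaps : ∀ v ∈ V i, X v ∈ V i') : LinearMap.trace ℂ (V i) (compress V X i) = 0 := by
  rw [compress_eq_zero_of_mapsTo V X h hmaps, map_zero]

omit [CompleteSpace E] in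
theorem norm_compress_le (X : E →L[ℂ] E) (i : Λ) (v : V i) :
    ‖compress V X i v‖ ≤ ‖X‖ * ‖v‖ := by
  rw [compress_apply]
  exact ((V i).norm_orthogonalProjectionOnto_apply_le _).trans (X.le_opNorm _)

omit [CompleteSpace E] in
theorem compress_one (i : Λ) : compress V (1 : E →L[ℂ] E) i = 1 :=
  LinearMap.ext fun v => Subtype.ext (coe_compress_of_mem V 1 (v := v) v.2)

variable {V} {μ : Λ → ℝ} {lam : Λ → J → ℝ}

/-- Bases of the classes extend to a Hilbert basis whose other vectors are killed by `P`. -/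
theorem IsClassDecomp.exists_adapted_basis [TopologicalSpace.SeparableSpace E]
    (h : IsClassDecomp P A V μ lam) :
    ∃ (w : Set E) (b : HilbertBasis w ℂ E) (_ : Countable w)
      (c : ∀ i, OrthonormalBasis (Fin (Module.finrank ℂ (V i))) ℂ (V i))
      (e : (Σ i, Fin (Module.finrank ℂ (V i))) → w), Function.Injective e ∧
      (∀ p, b (e p) = (c p.1 p.2 : E)) ∧ ∀ x, x ∉ Set.range e → P (b x) = 0 := by
  let c := fun i => stdOrthonormalBasis ℂ (V i)
  let u : (Σ i, Fin (Module.finrank ℂ (V i))) → E := fun p => (c p.1 p.2 : E)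
  have hfam : OrthogonalFamily ℂ (fun i => (V i)) fun i => (V i).subtypeₗᵢ :=
    OrthogonalFamily.of_pairwise fun i i' hii => h.orthogonal i i' hii
  have hu : Orthonormal ℂ u :=
    hfam.orthonormal_sigma_orthonormal (v_family := fun i => c i) fun i => (c i).orthonormal
  have hinj : Function.Injective u := hu.linearIndependent.injective
  obtain ⟨w, b, hsub, hb⟩ := hu.toSubtypeRange.exists_hilbertBasis_extension
  refine ⟨w, b, Spectral.orthonormal_countable b.orthonormal, c, fun p => ⟨u p, hsub ⟨p, rfl⟩⟩,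
    fun p p' hpp => hinj (congrArg Subtype.val hpp),
    fun p => congrFun hb ⟨u p, hsub ⟨p, rfl⟩⟩, fun x hx => h.orth_ker _ fun i y hy => ?_⟩
  have h0 : ∀ l, ⟪(c i l : E), b x⟫_ℂ = 0 := fun l => by
    rw [show (c i l : E) = b ⟨u ⟨i, l⟩, hsub ⟨⟨i, l⟩, rfl⟩⟩ from
      (congrFun hb ⟨u ⟨i, l⟩, hsub ⟨⟨i, l⟩, rfl⟩⟩).symm]
    exact b.orthonormal.2 fun e => hx ⟨⟨i, l⟩, e⟩
  rw [show y = ((∑ l, (c i).repr ⟨y, hy⟩ l • c i l : V i) : E) by
    rw [(c i).sum_repr], Submodule.coe_sum, sum_inner]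
  exact Finset.sum_eq_zero fun l _ => by rw [Submodule.coe_smul, inner_smul_left, h0 l, mul_zero]

omit [CompleteSpace E] in
theorem hasSum_norm_inner_sq {ι : Type*} (b : HilbertBasis ι ℂ E) (x : E) :
    HasSum (fun i => ‖⟪b i, x⟫_ℂ‖ ^ 2) (‖x‖ ^ 2) := by
  have h := Complex.hasSum_re (b.hasSum_inner_mul_inner x x)
  have e : ∀ i, (⟪x, b i⟫_ℂ * ⟪b i, x⟫_ℂ).re = ‖⟪b i, x⟫_ℂ‖ ^ 2 := fun i => by
    rw [← inner_conj_symm x (b i), mul_comm, Complex.mul_conj, Complex.ofReal_re,
      Complex.normSq_eq_norm_sq]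
  simp only [e] at h
  convert h using 1
  exact (inner_self_eq_norm_sq (𝕜 := ℂ) x).symm

omit [CompleteSpace E] in
theorem summable_swap_of_nonneg {ι κ : Type*} {F : ι → κ → ℝ} (h0 : ∀ i k, 0 ≤ F i k)
    {r : ι → ℝ} (h1 : ∀ i, HasSum (F i) (r i)) (h : Summable r) :
    Summable fun k => ∑' i, F i k := by
  have hd : Summable fun p : ι × κ => F p.1 p.2 :=
    (summable_prod_of_nonneg fun p : ι × κ => h0 p.1 p.2).mpr
      ⟨fun i => (h1 i).summable, h.congr fun i => ((h1 i).tsum_eq).symm⟩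
  exact ((summable_prod_of_nonneg fun p : κ × ι => h0 p.2 p.1).mp hd.prod_symm).2

/-- Square summability of a self-adjoint operator does not depend on the basis. -/
theorem summable_norm_sq_of_basis (hP : IsSelfAdjoint P) {ι κ : Type*} (b : HilbertBasis ι ℂ E)
    (c : HilbertBasis κ ℂ E) (h : Summable fun i => ‖P (b i)‖ ^ 2) :
    Summable fun k => ‖P (c k)‖ ^ 2 := by
  have h1 := summable_swap_of_nonneg (F := fun i k => ‖⟪c k, P (b i)⟫_ℂ‖ ^ 2)
    (fun i k => sq_nonneg _) (fun i => hasSum_norm_inner_sq c (P (b i))) h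
  refine h1.congr fun k => ?_
  refine (tsum_congr fun i => ?_).trans (hasSum_norm_inner_sq b (P (c k))).tsum_eq
  have h2 : ⟪P (c k), b i⟫_ℂ = ⟪c k, P (b i)⟫_ℂ := hP.isSymmetric _ _
  rw [← h2, norm_inner_symm]

variable [TopologicalSpace.SeparableSpace E]

/-- For Hilbert–Schmidt `P` the squares of the eigenvalues, with multiplicity, are summable. -/
theorem IsClassDecomp.summable_finrank_mul_sq (h : IsClassDecomp P A V μ lam)
    (hP : IsSelfAdjoint P) {ι : Type*} (b : HilbertBasis ι ℂ E)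
    (hs : Summable fun k => ‖P (b k)‖ ^ 2) :
    Summable fun i => (Module.finrank ℂ (V i) : ℝ) * μ i ^ 2 := by
  obtain ⟨w, b', -, c, e, he, hbe, -⟩ := h.exists_adapted_basis
  have h1 := (summable_norm_sq_of_basis hP b b' hs).comp_injective he
  have hval : ∀ p, ‖P (b' (e p))‖ ^ 2 = μ p.1 ^ 2 := fun p => by
    rw [hbe, ((h.mem_iff p.1 _).mp (c p.1 p.2).2).1, norm_smul, mul_pow, Complex.norm_real,
      Real.norm_eq_abs, sq_abs]
    simp [← Submodule.coe_norm, (c p.1).orthonormal.1 p.2]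
  refine ((h1.congr hval).sigma).congr fun i => ?_
  simp [tsum_fintype]

/-- **The trace over the classes.** -/
theorem IsClassDecomp.hasSum_trace (h : IsClassDecomp P A V μ lam) (X : E →L[ℂ] E) (I : ℂ)
    (hI : ∀ (w : Set E) (b : HilbertBasis w ℂ E), Countable w →
      HasSum (fun k => ⟪b k, X (P (P (b k)))⟫_ℂ) I) :
    HasSum (fun i => (μ i : ℂ) ^ 2 * LinearMap.trace ℂ (V i) (compress V X i)) I := by
  obtain ⟨w, b, hw, c, e, he, hbe, hoff⟩ := h.exists_adapted_basis
  have h1 := (he.hasSum_iff fun x hx => by rw [hoff x hx, map_zero, map_zero, inner_zero_right]).mpr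
    (hI w b hw)
  refine HasSum.sigma (g := fun i => (μ i : ℂ) ^ 2 * LinearMap.trace ℂ (V i) (compress V X i))
    h1 fun i => ?_
  rw [LinearMap.trace_eq_sum_inner _ (c i), Finset.mul_sum]
  have h2 := hasSum_fintype (fun l => ((⟪b (e ⟨i, l⟩), X (P (P (b (e ⟨i, l⟩))))⟫_ℂ)))
  convert h2 using 1
  · rfl
  apply Finset.sum_congr rfl
  intro l _
  have hmu := ((h.mem_iff i _).mp (c i l).2).1
  rw [hbe, hmu, map_smul, hmu, smul_smul, map_smul, inner_smul_right, ← sq, compress_apply,
    Submodule.inner_orthogonalProjectionOnto_eq_of_mem_left]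

end Fermat.Agent.LT.Descent

end
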