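import Fermat.Agent.LT.Descent.KernelBound
import Fermat.Agent.LT.Descent.SpectralClasses
import Fermat.Agent.LT.Spectral.Trace

/-!
# The trace identities on the cusp space

The trace of a product of two test operators, possibly preceded by a twist `S e = e ∘ s⁻¹`, is the
integral of the periodised composite kernel at `(x, s x)`. The first factor needs bounded point
functionals, the second one in addition cuspidal columns.
-/

set_option autoImplicit false

noncomputable section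

namespace Fermat.Agent.LT.Descent

open Fermat.Agent.LT.Adelic Fermat.Agent.LT.Spectral MeasureTheory NumberField IsDedekindDomain
  Filter Matrix
open scoped MatrixGroups ENNReal NNReal ComplexConjugate InnerProductSpace

variable {K : Type*} [Field K] [NumberField K] {ι : Type*} [Fintype ι] {Φ : Frame K ι}
  {U : Subgroup (GfK K)}

omit [Fintype ι] in
/-- A twist lying over an automorphism moves through the periodisation of an invariant kernel. -/
theorem perKer_swap_twist {k : Space Φ U → Space Φ U → ℂ} {s s' : Space Φ U → Space Φ U}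
    (σ : PGL(2, K) ≃ PGL(2, K)) (hσ : ∀ g x, s (g • x) = σ g • s x) (hr : ∀ x, s (s' x) = x)
    (hk : ∀ a b, k (s a) (s b) = k a b) (x y : Space Φ U) :
    perKer PGL(2, K) k (s' y) x = perKer PGL(2, K) k y (s x) := by
  show ∑' g : PGL(2, K), k (s' y) (g • x) = ∑' g : PGL(2, K), k y (g • s x)
  rw [← σ.tsum_eq fun g => k y (g • s x)]
  refine tsum_congr fun g => ?_
  rw [← hσ, ← hk, hr]

variable [Countable (Yf U)] {D : QuotData Φ U}

/-- Combinations of kernels with bounded point functionals have them. -/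
theorem hasPointBound_sum {X : Type*} [MeasurableSpace X] {ν : Measure X}
    {E : Submodule ℂ (Lp ℂ 2 ν)} {α : Type*} [Fintype α] (c : α → ℂ) {K : α → X → X → ℂ}
    {C : α → X → ℝ} (h : ∀ a, HasPointBound E (K a) (C a)) :
    HasPointBound E (fun x y => ∑ a, c a * K a x y) fun x => ∑ a, ‖c a‖ * C a x := by
  refine ⟨Finset.measurable_sum _ fun a _ => (h a).measurable.const_mul _,
    memLp_finsetSum _ fun a _ => (h a).memLp.const_mul _, ?_, ?_⟩
  · filter_upwards [ae_all_iff.mpr fun a => (h a).integrable] with x hx e he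
    simp only [Finset.sum_mul, mul_assoc]
    exact integrable_finsetSum _ fun a _ => (hx a e he).const_mul _
  · filter_upwards [ae_all_iff.mpr fun a => (h a).integrable,
      ae_all_iff.mpr fun a => (h a).bound] with x hi hx e he
    simp only [Finset.sum_mul, mul_assoc]
    rw [integral_finsetSum _ fun a _ => (hi a e he).const_mul _]
    refine (norm_sum_le _ _).trans (Finset.sum_le_sum fun a _ => ?_)
    rw [integral_const_mul, norm_mul]
    exact mul_le_mul_of_nonneg_left (hx a e he) (norm_nonneg _)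

set_option maxHeartbeats 400000 in
/-- **The trace identity for combinations**, with the second kernel read after the inverse twist. -/
theorem hasSum_trace_twisted_core {κ : Type*} [Countable κ] (b : HilbertBasis κ ℂ (cuspClasses D))
    {α : Type*} [Fintype α] (c : α → ℂ) {k₁ : ι → PPKer} {f₁ : HKer U}
    {k₂ : α → ι → PPKer} {f₂ : α → HKer U} (h₁ : HasCuspBound D k₁ f₁)
    (h₂ : ∀ a, HasCuspBound D (fun i => (k₂ a i).conjKer) (f₂ a).adj)
    (hcol : HasCuspidalColumnsSum D c k₂ f₂)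
    {s s' : Space Φ U → Space Φ U}
    (hs : MeasurePreserving s (Space.measure Φ U) (Space.measure Φ U)) (hs' : Measurable s')
    (hl : ∀ x, s' (s x) = x) (hr : ∀ x, s (s' x) = x)
    (S : cuspClasses D →L[ℂ] cuspClasses D)
    (hS : ∀ (e : cuspClasses D) (φ : Space Φ U → ℂ), Measurable φ →
      (∀ (g : PGL(2, K)) x, φ (g • x) = φ x) → (e : Lp ℂ 2 D.ν) =ᵐ[D.ν] φ →
        (∀ (g : PGL(2, K)) x, φ (s' (g • x)) = φ (s' x)) ∧
          (S e : Lp ℂ 2 D.ν) =ᵐ[D.ν] fun x => φ (s' x)) :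
    HasSum (fun i => ⟪b i, (∑ a, c a • cuspOp D (k₂ a) (f₂ a))
        (cuspOp D k₁ f₁ (S (b i)))⟫_ℂ)
      (∫ x, testOp k₁ f₁ (fun y => ∑ a, c a *
        perKer PGL(2, K) (testKernel (k₂ a) (f₂ a)) (s' y) x) x ∂D.ν) := by
  let es : Space Φ U ≃ᵐ Space Φ U := ⟨⟨s, s', hl, hr⟩, hs.measurable, hs'⟩
  set k' : Space Φ U → Space Φ U → ℂ := fun a z => testKernel k₁ f₁ a (s z) with hk'
  have hk'm : Measurable (Function.uncurry k') :=
    measurable_testKernel_comp k₁ f₁ measurable_fst (hs.measurable.comp measurable_snd)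
  -- the kernel of `R(k₁) S`
  have key : ∀ (x : Space Φ U) (G : Space Φ U → ℂ), Measurable G →
      (∀ (g : PGL(2, K)) y, G (g • y) = G y) → SliceInt (fun y => G (s' y)) →
      Integrable (fun z => perKer PGL(2, K) k' x z * G z) D.ν ∧
        ∫ z, perKer PGL(2, K) k' x z * G z ∂D.ν = testOp k₁ f₁ (fun y => G (s' y)) x := by
    intro x G hG hinv hsl
    have hm : Measurable (k' x) := hk'm.comp (measurable_const.prodMk measurable_id)
    have hi : Integrable (fun z => k' x z * G z) (Space.measure Φ U) := by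
      have h := (hs.integrable_comp_emb es.measurableEmbedding).mpr
        (integrable_testKernel_mul k₁ f₁ hsl x)
      exact h.congr (Eventually.of_forall fun z => by simp only [Function.comp_apply, hl, hk'])
    refine ⟨integrable_periodize_mul (G := PGL(2, K)) D.isWeight hm hG hinv hi, ?_⟩
    refine (integral_periodize_mul (G := PGL(2, K)) D.isWeight hm hG hinv hi).trans ?_
    exact (integral_congr_ae (Eventually.of_forall fun z => by simp only [hk']; rw [hl])).trans
      (hs.integral_comp es.measurableEmbedding fun y => testKernel k₁ f₁ x y * G (s' y))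
  have rep : ∀ e : cuspClasses D, ∃ φ : Space Φ U → ℂ, Measurable φ ∧
      (∀ (g : PGL(2, K)) x, φ (g • x) = φ x) ∧ (e : Lp ℂ 2 D.ν) =ᵐ[D.ν] φ := fun e => by
    obtain ⟨φ, hm, hi, -, he⟩ := e.2
    exact ⟨φ, hm, hi, he⟩
  have hkey : ∀ (e : cuspClasses D) (x : Space Φ U),
      Integrable (fun z => perKer PGL(2, K) k' x z * (e : Lp ℂ 2 D.ν) z) D.ν ∧
      ∫ z, perKer PGL(2, K) k' x z * (e : Lp ℂ 2 D.ν) z ∂D.ν
        = ∫ y, perKer PGL(2, K) (testKernel k₁ f₁) x y * (S e : Lp ℂ 2 D.ν) y ∂D.ν := by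
    intro e x
    obtain ⟨φ, hm, hi, he⟩ := rep e
    obtain ⟨hi', he'⟩ := hS e φ hm hi he
    have hsl : SliceInt (fun y => φ (s' y)) :=
      sliceInt_of_memLp (hm.comp hs') hi' ((Lp.memLp (S e : Lp ℂ 2 D.ν)).ae_eq he')
    obtain ⟨a1, a2⟩ := key x φ hm hi hsl
    refine ⟨a1.congr (he.mono fun z hz => congrArg (_ * ·) hz.symm), ?_⟩
    rw [integral_congr_ae (he.mono fun z hz => congrArg (perKer PGL(2, K) k' x z * ·) hz), a2,
      integral_congr_ae (he'.mono fun z hz =>
        congrArg (perKer PGL(2, K) (testKernel k₁ f₁) x z * ·) hz),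
      integral_perKer_testKernel_mul k₁ f₁ hsl hi']
  obtain ⟨C₁, hC₁⟩ := h₁.hasPointBound
  choose C₂ hC₂ using fun a => (h₂ a).hasPointBound
  set K₂ : Space Φ U → Space Φ U → ℂ := fun u v =>
    ∑ a, c a * perKer PGL(2, K) (testKernel (k₂ a) (f₂ a)) u v with hK₂
  have hP₁ : HasPointBound (cuspClasses D) (perKer PGL(2, K) k') fun x => |C₁ x| * ‖S‖ := by
    refine ⟨measurable_perKer hk'm, hC₁.memLp.abs.mul_const _,
      Eventually.of_forall fun x e he => (hkey ⟨e, he⟩ x).1, ?_⟩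
    filter_upwards [hC₁.bound] with x hx e he
    rw [(hkey ⟨e, he⟩ x).2, mul_assoc]
    exact (hx _ (S ⟨e, he⟩).2).trans (mul_le_mul (le_abs_self _) (S.le_opNorm ⟨e, he⟩)
      (norm_nonneg _) (abs_nonneg _))
  have hconj : (fun x y => conj (K₂ y x)) = fun x y => ∑ a, conj (c a) *
      perKer PGL(2, K) (testKernel (fun i => (k₂ a i).conjKer) (f₂ a).adj) x y := by
    funext x y
    simp only [hK₂, map_sum, map_mul, conj_perKer_testKernel]
  have hP₂ : HasPointBound (cuspClasses D) (fun x y => conj (K₂ y x))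
      fun x => ∑ a, ‖conj (c a)‖ * C₂ a x := hconj ▸ hasPointBound_sum _ hC₂
  choose col hcol using hcol
  obtain ⟨t, r, ht, hr', hsum⟩ := exists_rows_trace b hP₁ hP₂ (Eventually.of_forall hcol)
  have et : ∀ e, rowOp t e = (cuspOp D k₁ f₁ (S e) : Lp ℂ 2 D.ν) := fun e =>
    Lp.ext ((ht e).trans (EventuallyEq.trans (Eventually.of_forall fun x => (hkey e x).2)
      (coeFn_kerCLM _ _).symm))
  have er : ∀ e, rowOp r e
      = ((∑ a, conj (c a) • (cuspOp D (k₂ a) (f₂ a)).adjoint e : cuspClasses D) : Lp ℂ 2 D.ν) := by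
    intro e
    have h1 : ∀ᵐ x ∂D.ν, ∀ a, Integrable (fun y => perKer PGL(2, K)
        (testKernel (fun i => (k₂ a i).conjKer) (f₂ a).adj) x y * (e : Lp ℂ 2 D.ν) y) D.ν :=
      ae_all_iff.mpr fun a => (hC₂ a).integrable.mono fun x hx => hx e e.2
    have h2 : ∀ᵐ x ∂D.ν, ∀ a, (((cuspOp D (k₂ a) (f₂ a)).adjoint e : cuspClasses D) : Lp ℂ 2 D.ν) x
        = ∫ y, perKer PGL(2, K) (testKernel (fun i => (k₂ a i).conjKer) (f₂ a).adj) x y *
            (e : Lp ℂ 2 D.ν) y ∂D.ν := ae_all_iff.mpr fun a => by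
      rw [adjoint_cuspOp]
      exact coeFn_kerCLM _ _
    refine Lp.ext ((hr' e).trans ?_)
    rw [AddSubmonoidClass.coe_finsetSum]
    refine EventuallyEq.trans ?_ (Lp.coeFn_finsetSum _ _).symm
    filter_upwards [h1, h2, ae_all_iff.mpr fun a => Lp.coeFn_smul (conj (c a))
      (((cuspOp D (k₂ a) (f₂ a)).adjoint e : cuspClasses D) : Lp ℂ 2 D.ν)] with x hx hx' hx''
    simp only [congrFun (congrFun hconj x), Finset.sum_mul, mul_assoc]
    rw [integral_finsetSum _ fun a _ => (hx a).const_mul _, Finset.sum_apply]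
    refine Finset.sum_congr rfl fun a _ => ?_
    rw [Submodule.coe_smul, hx'', Pi.smul_apply, smul_eq_mul, hx', integral_const_mul]
  have hI : (∫ x, testOp k₁ f₁ (fun y => ∑ a, c a *
        perKer PGL(2, K) (testKernel (k₂ a) (f₂ a)) (s' y) x) x ∂D.ν)
      = ∫ x, ∫ y, perKer PGL(2, K) k' x y * K₂ y x ∂D.ν ∂D.ν := by
    refine integral_congr_ae (Eventually.of_forall fun x => ?_)
    have hinv : ∀ (g : PGL(2, K)) y, K₂ (g • y) x = K₂ y x := fun g y => by
      simp only [hK₂, perKer_testKernel_smul_left]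
    have hmeas : Measurable fun y => K₂ y x :=
      Finset.measurable_sum _ fun a _ => (measurable_column (k₂ a) (f₂ a) x).const_mul _
    obtain ⟨hi', he'⟩ := hS (col x) (fun y => K₂ y x) hmeas hinv (hcol x)
    exact (key x (fun y => K₂ y x) hmeas hinv
      (sliceInt_of_memLp (hmeas.comp hs') hi' ((Lp.memLp _).ae_eq he'))).2.symm
  rw [hI]
  refine hsum.congr_fun fun i => ?_
  rw [ContinuousLinearMap.comp_apply, ContinuousLinearMap.adjoint_inner_right, et, er,
    ← Submodule.coe_inner, _root_.sum_apply, inner_sum, sum_inner]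
  refine Finset.sum_congr rfl fun a _ => ?_
  rw [_root_.smul_apply, inner_smul_left, inner_smul_right, RCLike.conj_conj,
    ContinuousLinearMap.adjoint_inner_left]

/-- A column of a composite, integrated against the first kernel. -/
theorem testOp_column_sum {α : Type*} [Fintype α] (D : QuotData Φ U) (c : α → ℂ) (k₁ : ι → PPKer)
    (f₁ : HKer U) (k₂ : α → ι → PPKer) (f₂ : α → HKer U) (x z : Space Φ U) :
    testOp k₁ f₁ (fun y => ∑ a, c a * perKer PGL(2, K) (testKernel (k₂ a) (f₂ a)) y z) x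
      = ∑ a, c a * perKer PGL(2, K)
          (testKernel (fun i => PPKer.comp (k₁ i) (k₂ a i)) (f₁.comp (f₂ a))) x z := by
  have hinv : ∀ a (g : PGL(2, K)) y, perKer PGL(2, K) (testKernel (k₂ a) (f₂ a)) (g • y) z
      = perKer PGL(2, K) (testKernel (k₂ a) (f₂ a)) y z := fun a g y =>
    perKer_testKernel_smul_left (k₂ a) (f₂ a) g y z
  have hi := fun a => integrable_testKernel_mul k₁ f₁ (sliceInt_column D (k₂ a) (f₂ a) z) x
  simp only [testOp, Finset.mul_sum, mul_left_comm _ (c _)]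
  rw [integral_finsetSum _ fun a _ => (hi a).const_mul _]
  refine Finset.sum_congr rfl fun a _ => ?_
  rw [integral_const_mul, ← integral_perKer_testKernel_comp (D := D),
    integral_perKer_testKernel_mul k₁ f₁ (sliceInt_column D (k₂ a) (f₂ a) z) (hinv a) x]
  rfl

/-- **The twisted trace identity, for combinations.** Only the combination needs cuspidal columns
and invariance under the twist. -/
theorem hasSum_trace_twisted_sum {κ : Type*} [Countable κ] (b : HilbertBasis κ ℂ (cuspClasses D))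
    {α : Type*} [Fintype α] (c : α → ℂ) {k₁ : ι → PPKer} {f₁ : HKer U}
    {k₂ : α → ι → PPKer} {f₂ : α → HKer U} (h₁ : HasCuspBound D k₁ f₁)
    (h₂ : ∀ a, HasCuspBound D (fun i => (k₂ a i).conjKer) (f₂ a).adj)
    (hcol : HasCuspidalColumnsSum D c k₂ f₂)
    {s s' : Space Φ U → Space Φ U}
    (hs : MeasurePreserving s (Space.measure Φ U) (Space.measure Φ U)) (hs' : Measurable s')
    (hl : ∀ x, s' (s x) = x) (hr : ∀ x, s (s' x) = x)
    (hswap : ∀ x y, ∑ a, c a * perKer PGL(2, K) (testKernel (k₂ a) (f₂ a)) (s' y) x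
      = ∑ a, c a * perKer PGL(2, K) (testKernel (k₂ a) (f₂ a)) y (s x))
    (S : cuspClasses D →L[ℂ] cuspClasses D)
    (hS : ∀ (e : cuspClasses D) (φ : Space Φ U → ℂ), Measurable φ →
      (∀ (g : PGL(2, K)) x, φ (g • x) = φ x) → (e : Lp ℂ 2 D.ν) =ᵐ[D.ν] φ →
        (∀ (g : PGL(2, K)) x, φ (s' (g • x)) = φ (s' x)) ∧
          (S e : Lp ℂ 2 D.ν) =ᵐ[D.ν] fun x => φ (s' x)) :
    HasSum (fun i => ⟪b i, (∑ a, c a • cuspOp D (k₂ a) (f₂ a))
        (cuspOp D k₁ f₁ (S (b i)))⟫_ℂ)
      (∫ x, ∑ a, c a * perKer PGL(2, K)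
        (testKernel (fun i => PPKer.comp (k₁ i) (k₂ a i)) (f₁.comp (f₂ a))) x (s x) ∂D.ν) := by
  convert hasSum_trace_twisted_core b c h₁ h₂ hcol hs hs' hl hr S hS using 1
  refine integral_congr_ae (Eventually.of_forall fun x => ?_)
  simp only [hswap, testOp_column_sum D]

/-- **The twisted trace identity.** -/
theorem hasSum_trace_twisted {κ : Type*} [Countable κ] (b : HilbertBasis κ ℂ (cuspClasses D))
    {k₁ k₂ : ι → PPKer} {f₁ f₂ : HKer U} (h₁ : HasCuspBound D k₁ f₁)
    (h₂ : HasCuspBound D (fun i => (k₂ i).conjKer) f₂.adj) (hcol : HasCuspidalColumns D k₂ f₂)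
    {s s' : Space Φ U → Space Φ U}
    (hs : MeasurePreserving s (Space.measure Φ U) (Space.measure Φ U)) (hs' : Measurable s')
    (hl : ∀ x, s' (s x) = x) (hr : ∀ x, s (s' x) = x)
    (hswap : ∀ x y, perKer PGL(2, K) (testKernel k₂ f₂) (s' y) x
      = perKer PGL(2, K) (testKernel k₂ f₂) y (s x))
    (S : cuspClasses D →L[ℂ] cuspClasses D)
    (hS : ∀ (e : cuspClasses D) (φ : Space Φ U → ℂ), Measurable φ →
      (∀ (g : PGL(2, K)) x, φ (g • x) = φ x) → (e : Lp ℂ 2 D.ν) =ᵐ[D.ν] φ →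
        (∀ (g : PGL(2, K)) x, φ (s' (g • x)) = φ (s' x)) ∧
          (S e : Lp ℂ 2 D.ν) =ᵐ[D.ν] fun x => φ (s' x)) :
    HasSum (fun i => ⟪b i, cuspOp D k₂ f₂ (cuspOp D k₁ f₁ (S (b i)))⟫_ℂ)
      (∫ x, perKer PGL(2, K)
        (testKernel (fun i => PPKer.comp (k₁ i) (k₂ i)) (f₁.comp f₂)) x (s x) ∂D.ν) := by
  have h := hasSum_trace_twisted_sum b (α := Unit) (fun _ => 1) (k₂ := fun _ => k₂)
    (f₂ := fun _ => f₂) h₁ (fun _ => h₂) (fun x => by simpa using hcol x) hs hs' hl hr
    (by simpa using hswap) S hS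
  simpa using h

/-- **The trace identity.** -/
theorem hasSum_trace_plain {κ : Type*} [Countable κ] (b : HilbertBasis κ ℂ (cuspClasses D))
    {k₁ k₂ : ι → PPKer} {f₁ f₂ : HKer U} (h₁ : HasCuspBound D k₁ f₁)
    (h₂ : HasCuspBound D (fun i => (k₂ i).conjKer) f₂.adj) (hcol : HasCuspidalColumns D k₂ f₂) :
    HasSum (fun i => ⟪b i, cuspOp D k₂ f₂ (cuspOp D k₁ f₁ (b i))⟫_ℂ)
      (∫ x, perKer PGL(2, K)
        (testKernel (fun i => PPKer.comp (k₁ i) (k₂ i)) (f₁.comp f₂)) x x ∂D.ν) :=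
  hasSum_trace_twisted b h₁ h₂ hcol (MeasurePreserving.id _) measurable_id (fun _ => rfl)
    (fun _ => rfl) (fun _ _ => rfl) (ContinuousLinearMap.id ℂ _)
    fun _ _ _ hi he => ⟨hi, he⟩

/-- The operators with bounded point functionals are Hilbert–Schmidt on the cusp space. -/
theorem HasCuspBound.summable_norm_sq {k : ι → PPKer} {f : HKer U} (h : HasCuspBound D k f)
    {κ : Type*} [Countable κ] (b : HilbertBasis κ ℂ (cuspClasses D)) :
    Summable fun i => ‖cuspOp D k f (b i)‖ ^ 2 := by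
  obtain ⟨t, ht⟩ := h.exists_rows
  refine (Complex.hasSum_re (hasSum_inner_rowOp b t t)).summable.congr fun i => ?_
  rw [ht, ← Submodule.coe_inner, inner_self_eq_norm_sq_to_K]
  norm_cast

/-- **The trace over the classes**, twisted. -/
theorem IsClassDecomp.hasSum_trace_integral {J Λ : Type*} {P : cuspClasses D →L[ℂ] cuspClasses D}
    {A : J → cuspClasses D →L[ℂ] cuspClasses D} {V : Λ → Submodule ℂ (cuspClasses D)}
    [∀ i, FiniteDimensional ℂ (V i)] {μ : Λ → ℝ} {lam : Λ → J → ℝ}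
    (h : IsClassDecomp P A V μ lam) (X : cuspClasses D →L[ℂ] cuspClasses D)
    {k₁ k₂ : ι → PPKer} {f₁ f₂ : HKer U} (h₁ : HasCuspBound D k₁ f₁)
    (h₂ : HasCuspBound D (fun i => (k₂ i).conjKer) f₂.adj) (hcol : HasCuspidalColumns D k₂ f₂)
    {s s' : Space Φ U → Space Φ U}
    (hs : MeasurePreserving s (Space.measure Φ U) (Space.measure Φ U)) (hs' : Measurable s')
    (hl : ∀ x, s' (s x) = x) (hr : ∀ x, s (s' x) = x)
    (hswap : ∀ x y, perKer PGL(2, K) (testKernel k₂ f₂) (s' y) x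
      = perKer PGL(2, K) (testKernel k₂ f₂) y (s x))
    (S : cuspClasses D →L[ℂ] cuspClasses D)
    (hS : ∀ (e : cuspClasses D) (φ : Space Φ U → ℂ), Measurable φ →
      (∀ (g : PGL(2, K)) x, φ (g • x) = φ x) → (e : Lp ℂ 2 D.ν) =ᵐ[D.ν] φ →
        (∀ (g : PGL(2, K)) x, φ (s' (g • x)) = φ (s' x)) ∧
          (S e : Lp ℂ 2 D.ν) =ᵐ[D.ν] fun x => φ (s' x))
    (hX : ∀ e, X (P (P e)) = cuspOp D k₂ f₂ (cuspOp D k₁ f₁ (S e))) :
    HasSum (fun i => (μ i : ℂ) ^ 2 * LinearMap.trace ℂ (V i) (compress V X i))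
      (∫ x, perKer PGL(2, K)
        (testKernel (fun i => PPKer.comp (k₁ i) (k₂ i)) (f₁.comp f₂)) x (s x) ∂D.ν) :=
  h.hasSum_trace X _ fun w b hw => by
    simp only [hX]
    exact hasSum_trace_twisted b h₁ h₂ hcol hs hs' hl hr hswap S hS

/-- **The trace over the classes**, for combinations. -/
theorem IsClassDecomp.hasSum_trace_integral_sum {J Λ : Type*}
    {P : cuspClasses D →L[ℂ] cuspClasses D}
    {A : J → cuspClasses D →L[ℂ] cuspClasses D} {V : Λ → Submodule ℂ (cuspClasses D)}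
    [∀ i, FiniteDimensional ℂ (V i)] {μ : Λ → ℝ} {lam : Λ → J → ℝ}
    (h : IsClassDecomp P A V μ lam) (X : cuspClasses D →L[ℂ] cuspClasses D)
    {α : Type*} [Fintype α] (c : α → ℂ) {k₁ : ι → PPKer} {f₁ : HKer U}
    {k₂ : α → ι → PPKer} {f₂ : α → HKer U} (h₁ : HasCuspBound D k₁ f₁)
    (h₂ : ∀ a, HasCuspBound D (fun i => (k₂ a i).conjKer) (f₂ a).adj)
    (hcol : HasCuspidalColumnsSum D c k₂ f₂) {s s' : Space Φ U → Space Φ U}
    (hs : MeasurePreserving s (Space.measure Φ U) (Space.measure Φ U)) (hs' : Measurable s')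
    (hl : ∀ x, s' (s x) = x) (hr : ∀ x, s (s' x) = x)
    (hswap : ∀ x y, ∑ a, c a * perKer PGL(2, K) (testKernel (k₂ a) (f₂ a)) (s' y) x
      = ∑ a, c a * perKer PGL(2, K) (testKernel (k₂ a) (f₂ a)) y (s x))
    (S : cuspClasses D →L[ℂ] cuspClasses D)
    (hS : ∀ (e : cuspClasses D) (φ : Space Φ U → ℂ), Measurable φ →
      (∀ (g : PGL(2, K)) x, φ (g • x) = φ x) → (e : Lp ℂ 2 D.ν) =ᵐ[D.ν] φ →
        (∀ (g : PGL(2, K)) x, φ (s' (g • x)) = φ (s' x)) ∧
          (S e : Lp ℂ 2 D.ν) =ᵐ[D.ν] fun x => φ (s' x))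
    (hX : ∀ e, X (P (P e))
      = (∑ a, c a • cuspOp D (k₂ a) (f₂ a)) (cuspOp D k₁ f₁ (S e))) :
    HasSum (fun i => (μ i : ℂ) ^ 2 * LinearMap.trace ℂ (V i) (compress V X i))
      (∫ x, ∑ a, c a * perKer PGL(2, K)
        (testKernel (fun i => PPKer.comp (k₁ i) (k₂ a i)) (f₁.comp (f₂ a))) x (s x) ∂D.ν) :=
  h.hasSum_trace X _ fun w b hw => by
    simp only [hX]
    exact hasSum_trace_twisted_sum b c h₁ h₂ hcol hs hs' hl hr hswap S hS

/-- Finite mass along `t` gives integrability of the periodised kernel at `(x, t x)`. -/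
theorem integrable_perKer_diag (k : ι → PPKer) (f : HKer U) {t : Space Φ U → Space Φ U}
    (ht : Measurable t)
    (h : ∫⁻ x, D.w x * ∑' g : PGL(2, K), ‖testKernel k f x (g • t x)‖ₑ ∂Space.measure Φ U ≠ ⊤) :
    Integrable (fun x => perKer PGL(2, K) (testKernel k f) x (t x)) D.ν := by
  have hm : Measurable fun x => perKer PGL(2, K) (testKernel k f) x (t x) :=
    (measurable_perKer (measurable_testKernel k f)).comp (measurable_id.prodMk ht)
  refine ⟨hm.aestronglyMeasurable, ?_⟩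
  rw [HasFiniteIntegral, lintegral_withDensity_eq_lintegral_mul _ D.isWeight.1 hm.enorm]
  exact lt_of_le_of_lt (lintegral_mono fun x => mul_le_mul_right enorm_tsum_le_tsum_enorm _) h.lt_top

/-- The integral of a combination, termwise. -/
theorem integral_diag_sum {α : Type*} [Fintype α] (c : α → ℂ) (k : α → ι → PPKer)
    (f : α → HKer U) {t : Space Φ U → Space Φ U} (ht : Measurable t)
    (h : ∀ a, ∫⁻ x, D.w x * ∑' g : PGL(2, K), ‖testKernel (k a) (f a) x (g • t x)‖ₑ
      ∂Space.measure Φ U ≠ ⊤) :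
    ∫ x, ∑ a, c a * perKer PGL(2, K) (testKernel (k a) (f a)) x (t x) ∂D.ν
      = ∑ a, c a * ∫ x, perKer PGL(2, K) (testKernel (k a) (f a)) x (t x) ∂D.ν := by
  rw [integral_finsetSum _ fun a _ => (integrable_perKer_diag (k a) (f a) ht (h a)).const_mul _]
  simp only [integral_const_mul]

end Fermat.Agent.LT.Descent

end
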