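import Fermat.Agent.LT.Descent.Setting
import Mathlib.Algebra.BigOperators.Ring.Finset
import Mathlib.Data.Fintype.Pi
import Mathlib.Order.Filter.Cofinite

/-!
# Functions on restricted products

Sums over a restricted product of products of local functions, and fibre matches of such products
from local fibre matches that respect the base points at almost all places.
-/

set_option autoImplicit false

noncomputable section

namespace Fermat.Agent.LT.Descent

open Filter Function

section Restricted

variable {I : Type*} {X : I → Type*} {Y : Type*} {R : Type*} [CommSemiring R]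

/-- `e` identifies `Y` with the restricted product of the `X i` along the base points `b i`. -/
structure IsRestrictedProd (e : Y → ∀ i, X i) (b : ∀ i, X i) : Prop where
  injective : Injective e
  eventually_base : ∀ y, ∀ᶠ i in cofinite, e y i = b i
  exists_of_eventually : ∀ x : ∀ i, X i, (∀ᶠ i in cofinite, x i = b i) → ∃ y, e y = x

/-- The function is the indicator of the point. -/
def IsDeltaAt {Z : Type*} (h : Z → R) (b : Z) : Prop := h b = 1 ∧ ∀ a, a ≠ b → h a = 0

theorem IsDeltaAt.finsum_eq {Z : Type*} {h : Z → R} {b : Z} (hh : IsDeltaAt h b) :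
    ∑ᶠ a, h a = 1 := by
  rw [finsum_eq_single h b hh.2, hh.1]

variable {e : Y → ∀ i, X i} {b : ∀ i, X i}

theorem IsRestrictedProd.hasFiniteMulSupport (he : IsRestrictedProd e b) (h : ∀ i, X i → R)
    (hh : ∀ᶠ i in cofinite, h i (b i) = 1) (y : Y) :
    HasFiniteMulSupport fun i => h i (e y i) := by
  refine (eventually_cofinite.1 ((he.eventually_base y).and hh)).subset fun i hi hc => hi ?_
  show h i (e y i) = 1
  rw [hc.1, hc.2]

theorem IsRestrictedProd.ne_zero_of_finprod (he : IsRestrictedProd e b) {h : ∀ i, X i → R}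
    (hh : ∀ᶠ i in cofinite, h i (b i) = 1) {y : Y} (hy : ∏ᶠ i, h i (e y i) ≠ 0) (i : I) :
    h i (e y i) ≠ 0 :=
  fun h0 => hy (finprod_eq_zero _ i h0 (he.hasFiniteMulSupport h hh y))

/-- A set with finite components, almost all of them a single point, is finite. -/
theorem IsRestrictedProd.finite_setOf (he : IsRestrictedProd e b) {A : ∀ i, Set (X i)}
    (hA : ∀ i, (A i).Finite) {c : ∀ i, X i} (hc : ∀ᶠ i in cofinite, A i ⊆ {c i}) :
    {y | ∀ i, e y i ∈ A i}.Finite := by
  have := (eventually_cofinite.1 hc).to_subtype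
  refine Set.Finite.of_finite_image (f := fun y (i : {i | ¬A i ⊆ {c i}}) => e y i)
    ((Set.Finite.pi fun i : {i | ¬A i ⊆ {c i}} => hA i).subset ?_) fun y hy z hz h => ?_
  · rintro _ ⟨y, hy, rfl⟩ i -
    exact hy i
  · refine he.injective (funext fun i => ?_)
    by_cases hi : A i ⊆ {c i}
    · exact (hi (hy i)).trans (hi (hz i)).symm
    · exact congrFun h ⟨i, hi⟩

/-- **A sum over a restricted product of products is the product of the sums.** -/
theorem IsRestrictedProd.finsum_finprod (he : IsRestrictedProd e b) (h : ∀ i, X i → R)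
    (hfin : ∀ i, (support (h i)).Finite) (hev : ∀ᶠ i in cofinite, IsDeltaAt (h i) (b i)) :
    ∑ᶠ y, ∏ᶠ i, h i (e y i) = ∏ᶠ i, ∑ᶠ a, h i a := by
  classical
  set S := (eventually_cofinite.1 hev).toFinset with hS
  have hS' : ∀ i ∉ S, IsDeltaAt (h i) (b i) := fun i hi => by simpa [hS] using hi
  have hsum : ∀ i, ∑ᶠ a, h i a = ∑ a ∈ (hfin i).toFinset, h i a := fun i =>
    finsum_eq_sum_of_support_subset _ (Set.Finite.coe_toFinset _).ge
  let glue : (∀ i ∈ S, X i) → ∀ i, X i := fun p i => if hi : i ∈ S then p i hi else b i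
  have glue_mem : ∀ p i (hi : i ∈ S), glue p i = p i hi := fun p i hi => dif_pos hi
  have glue_not : ∀ p, ∀ i ∉ S, glue p i = b i := fun p i hi => dif_neg hi
  choose g hg using fun p => he.exists_of_eventually (glue p)
    ((S.eventually_cofinite_notMem).mono (glue_not p))
  rw [finprod_eq_prod_of_mulSupport_subset (s := S) _ fun i hi => ?_,
    Finset.prod_congr rfl fun i _ => hsum i, Finset.prod_sum,
    finsum_eq_sum_of_support_subset (s := (S.pi fun i => (hfin i).toFinset).image g) _ fun y hy => ?_,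
    Finset.sum_image fun p _ q _ hpq => ?_]
  · refine Finset.sum_congr rfl fun p _ => ?_
    rw [finprod_eq_prod_of_mulSupport_subset (s := S) _ fun i hi => ?_, ← Finset.prod_attach]
    · refine Finset.prod_congr rfl fun i _ => ?_
      rw [hg, glue_mem p i i.2]
    · by_contra hiS
      refine hi ?_
      show h i (e (g p) i) = 1
      rw [hg, glue_not p i hiS, (hS' i hiS).1]
  · funext i hi
    have := congrArg (fun y => e y i) hpq
    simpa only [hg, glue_mem _ _ hi] using this
  · have hne := he.ne_zero_of_finprod (hev.mono fun _ => And.left) hy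
    refine Finset.mem_coe.2 (Finset.mem_image.2 ⟨fun i _ => e y i,
      Finset.mem_pi.2 fun i _ => (Set.Finite.mem_toFinset _).2 (hne i), he.injective ?_⟩)
    funext i
    rw [hg]
    simp only [glue]
    split_ifs with hi
    · rfl
    · by_contra hb
      exact hne i ((hS' i hi).2 _ (Ne.symm hb))
  · by_contra hiS
    exact hi (hS' i hiS).finsum_eq

/-- The same over the points all of whose components satisfy a condition. -/
theorem IsRestrictedProd.finsum_mem_finprod (he : IsRestrictedProd e b) (h : ∀ i, X i → R)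
    (P : ∀ i, Set (X i))
    (hfin : ∀ i, (support (h i) ∩ P i).Finite)
    (hev : ∀ᶠ i in cofinite, IsDeltaAt ((P i).indicator (h i)) (b i)) :
    ∑ᶠ y ∈ {y | ∀ i, e y i ∈ P i}, ∏ᶠ i, h i (e y i) = ∏ᶠ i, ∑ᶠ a ∈ P i, h i a := by
  classical
  simp only [finsum_mem_def]
  rw [← he.finsum_finprod (fun i => (P i).indicator (h i))
    (fun i => (hfin i).subset fun a ha => ?_) hev]
  · refine finsum_congr fun y => ?_
    by_cases hy : ∀ i, e y i ∈ P i
    · rw [Set.indicator_of_mem (show y ∈ {y | ∀ i, e y i ∈ P i} from hy)]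
      exact finprod_congr fun i => (Set.indicator_of_mem (hy i) _).symm
    · rw [Set.indicator_of_notMem (show y ∉ {y | ∀ i, e y i ∈ P i} from hy)]
      obtain ⟨i, hi⟩ := not_forall.1 hy
      exact (finprod_eq_zero _ i (Set.indicator_of_notMem hi _)
        (he.hasFiniteMulSupport (fun i => (P i).indicator (h i)) (hev.mono fun _ => And.left) y)).symm
  · obtain ⟨hm, hn⟩ : a ∈ P i ∧ h i a ≠ 0 := by
      simpa only [mem_support, ne_eq, Set.indicator_apply_eq_zero, Classical.not_imp] using ha
    exact ⟨hn, hm⟩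

end Restricted

section Regroup

variable {J I : Type*} {Z : J → Type*} {Y : Type*} {e : Y → ∀ j, Z j} {b : ∀ j, Z j}

/-- A restricted product regrouped along a map with finite fibres. -/
theorem IsRestrictedProd.regroup (he : IsRestrictedProd e b) (π : J → I)
    (hπ : ∀ i, (π ⁻¹' {i}).Finite) :
    IsRestrictedProd (fun y i (j : {j // π j = i}) => e y j) fun _ j => b j where
  injective y z h := he.injective (funext fun j => congrFun (congrFun h (π j)) ⟨j, rfl⟩)
  eventually_base y := by
    refine eventually_cofinite.2 (((eventually_cofinite.1 (he.eventually_base y)).image π).subset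
      fun i hi => ?_)
    obtain ⟨j, hj⟩ := not_forall.1 fun h => hi (funext h)
    exact ⟨j, hj, j.2⟩
  exists_of_eventually x hx := by
    obtain ⟨y, hy⟩ := he.exists_of_eventually (fun j => x (π j) ⟨j, rfl⟩)
      (eventually_cofinite.2 (((eventually_cofinite.1 hx).preimage' fun i _ => hπ i).subset
        fun j hj h => hj (congrFun h ⟨j, rfl⟩)))
    refine ⟨y, funext fun i => funext fun j => ?_⟩
    obtain ⟨j, rfl⟩ := j
    exact congrFun hy j

theorem finprod_regroup {M : Type*} [CommMonoid M] (π : J → I) (h : J → M)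
    (hh : HasFiniteMulSupport h) :
    ∏ᶠ j, h j = ∏ᶠ i, ∏ᶠ j : {j // π j = i}, h j := by
  classical
  set S := hh.toFinset
  rw [finprod_eq_prod_of_mulSupport_subset (s := S) h (fun j hj => Finset.mem_coe.2 (hh.mem_toFinset.2 hj)),
    finprod_eq_prod_of_mulSupport_subset (s := S.image π) _ fun i hi => ?_,
    ← Finset.prod_fiberwise_of_maps_to (g := π) fun j hj => Finset.mem_image_of_mem π hj]
  · refine Finset.prod_congr rfl fun i _ => ?_
    rw [finprod_eq_prod_of_mulSupport_subset (s := S.subtype fun j => π j = i) _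
      (fun j hj => Finset.mem_coe.2 (Finset.mem_subtype.2 (hh.mem_toFinset.2 hj))),
      Finset.prod_subtype_eq_prod_filter]
  · simp only [Finset.coe_image]
    obtain ⟨j, hj⟩ := not_forall.1 fun h' => hi (finprod_eq_one_of_forall_eq_one h')
    exact ⟨j, hh.mem_toFinset.2 hj, j.2⟩

end Regroup

section Fibre

variable {T : Type*} [Group T] {Y : Type*} [MulAction T Y] {Y' : Type*} [MulAction T Y']

variable (T) in
/-- An equivariant partial map defined on the support of `f`, with finite fibres there. -/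
structure IsFibration (q : Y' → Option Y) (f : Y' → ℂ) : Prop where
  equivariant : ∀ (t : T) y, q (t • y) = (q y).map (t • ·)
  isSome : ∀ y, f y ≠ 0 → (q y).isSome
  finite : ∀ m, (support f ∩ {y | q y = some m}).Finite

/-- The sum of `f` over a fibre. -/
def matchSum {Y Y' : Type*} (q : Y' → Option Y) (f : Y' → ℂ) (m : Y) : ℂ :=
  ∑ᶠ y ∈ {y | q y = some m}, f y

theorem hasFibreMatch_iff {f : Y → ℂ} {f' : Y' → ℂ} :
    HasFibreMatch T f f' ↔ ∃ (p : Y → Option Y) (p' : Y' → Option Y),
      IsFibration T p f ∧ IsFibration T p' f' ∧ ∀ m, matchSum p f m = matchSum p' f' m :=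
  ⟨fun ⟨p, p', a, b, c, d, e, f, g⟩ => ⟨p, p', ⟨a, c, e⟩, ⟨b, d, f⟩, g⟩,
    fun ⟨p, p', ⟨a, c, e⟩, ⟨b, d, f⟩, g⟩ => ⟨p, p', a, b, c, d, e, f, g⟩⟩

/-- In the fibre over `b` the function is the indicator of `b'`. -/
def IsBaseFibre {Y Y' : Type*} (q : Y' → Option Y) (f : Y' → ℂ) (b : Y) (b' : Y') : Prop :=
  q b' = some b ∧ f b' = 1 ∧ ∀ y, q y = some b → f y ≠ 0 → y = b'

theorem IsBaseFibre.isDeltaAt {Y Y' : Type*} {q : Y' → Option Y} {f : Y' → ℂ} {b : Y} {b' : Y'}
    (h : IsBaseFibre q f b b') : IsDeltaAt ({y | q y = some b}.indicator f) b' := by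
  refine ⟨(Set.indicator_of_mem (show b' ∈ {y | q y = some b} from h.1) f).trans h.2.1,
    fun a ha => ?_⟩
  by_contra hne
  have hm : a ∈ {y | q y = some b} := Set.mem_of_indicator_ne_zero hne
  rw [Set.indicator_of_mem hm] at hne
  exact ha (h.2.2 a hm hne)

/-- A fibre match carrying base points to each other; the shape needed at almost all places. -/
def HasBaseMatch (T : Type*) [Group T] {Y : Type*} [MulAction T Y] {Y' : Type*} [MulAction T Y']
    (f : Y → ℂ) (f' : Y' → ℂ) (b : Y) (b' : Y') : Prop :=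
  ∃ (p : Y → Option Y) (p' : Y' → Option Y),
    IsFibration T p f ∧ IsFibration T p' f' ∧ (∀ m, matchSum p f m = matchSum p' f' m) ∧
      IsBaseFibre p f b b ∧ IsBaseFibre p' f' b b'

theorem HasBaseMatch.hasFibreMatch {f : Y → ℂ} {f' : Y' → ℂ} {b : Y} {b' : Y'}
    (h : HasBaseMatch T f f' b b') : HasFibreMatch T f f' :=
  hasFibreMatch_iff.2 (h.imp fun _ => Exists.imp fun _ h => ⟨h.1, h.2.1, h.2.2.1⟩)

/-- The identity fibres a function with finite value set at each point. -/
theorem isFibration_some (f : Y → ℂ) : IsFibration T (fun y : Y => some y) f :=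
  ⟨fun _ _ => rfl, fun _ _ => rfl, fun m => (Set.finite_singleton m).subset fun _ hy =>
    Option.some_injective _ hy.2⟩

theorem isBaseFibre_some {Y : Type*} {f : Y → ℂ} {b : Y} (h : f b = 1) :
    IsBaseFibre (fun y : Y => some y) f b b :=
  ⟨rfl, h, fun _ hy _ => Option.some_injective _ hy⟩

end Fibre

section Product

variable {I : Type*} {X Z : I → Type*} {Y Y' : Type*} {e : Y → ∀ i, X i} {b : ∀ i, X i}
  {e' : Y' → ∀ i, Z i} {b' : ∀ i, Z i}

/-- The product of local partial maps. -/
def prodMap (e : Y → ∀ i, X i) (e' : Y' → ∀ i, Z i) (q : ∀ i, Z i → Option (X i)) :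
    Y' → Option Y := by
  classical
  exact fun y => if h : ∃ z, ∀ i, q i (e' y i) = some (e z i) then some h.choose else none

theorem prodMap_eq_some (he : IsRestrictedProd e b) {q : ∀ i, Z i → Option (X i)} {y : Y'}
    {m : Y} : prodMap e e' q y = some m ↔ ∀ i, q i (e' y i) = some (e m i) := by
  classical
  unfold prodMap
  constructor
  · intro h
    split_ifs at h with hz
    exact Option.some_injective _ h ▸ hz.choose_spec
  · intro h
    have hz : ∃ z, ∀ i, q i (e' y i) = some (e z i) := ⟨m, h⟩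
    rw [dif_pos hz]
    exact congrArg some (he.injective (funext fun i =>
      Option.some_injective _ ((hz.choose_spec i).symm.trans (h i))))

variable {T : Type*} [Group T] [MulAction T Y] [MulAction T Y'] {Tl : I → Type*}
  [∀ i, Group (Tl i)] [∀ i, MulAction (Tl i) (X i)] [∀ i, MulAction (Tl i) (Z i)]

/-- **Local fibrations give a fibration of the product, with multiplicative fibre sums.** -/
theorem isFibration_prodMap (he : IsRestrictedProd e b) (he' : IsRestrictedProd e' b')
    (φ : ∀ i, T →* Tl i) (hT : ∀ (t : T) y i, e (t • y) i = φ i t • e y i)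
    (hT' : ∀ (t : T) y i, e' (t • y) i = φ i t • e' y i) {q : ∀ i, Z i → Option (X i)}
    {h : ∀ i, Z i → ℂ} (hq : ∀ i, IsFibration (Tl i) (q i) (h i))
    (hev : ∀ᶠ i in cofinite, IsBaseFibre (q i) (h i) (b i) (b' i)) :
    IsFibration T (prodMap e e' q) (fun y => ∏ᶠ i, h i (e' y i)) ∧
      ∀ m, matchSum (prodMap e e' q) (fun y => ∏ᶠ i, h i (e' y i)) m =
        ∏ᶠ i, matchSum (q i) (h i) (e m i) := by
  have h1 : ∀ᶠ i in cofinite, h i (b' i) = 1 := hev.mono fun _ hi => hi.2.1
  have hset : ∀ m, {y | prodMap e e' q y = some m} =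
      {y | ∀ i, e' y i ∈ {a | q i a = some (e m i)}} :=
    fun m => Set.ext fun y => prodMap_eq_some he
  have hfib : ∀ m, ∀ᶠ i in cofinite, e m i = b i ∧ IsBaseFibre (q i) (h i) (b i) (b' i) :=
    fun m => (he.eventually_base m).and hev
  refine ⟨⟨fun t y => Option.ext fun m => ?_, fun y hy => ?_, fun m => ?_⟩, fun m => ?_⟩
  · rw [prodMap_eq_some he, Option.map_eq_some_iff]
    constructor
    · intro H
      refine ⟨t⁻¹ • m, (prodMap_eq_some he).2 fun i => ?_, smul_inv_smul t m⟩
      have := H i
      rw [hT', (hq i).equivariant, Option.map_eq_some_iff] at this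
      obtain ⟨z, hz, hzm⟩ := this
      rw [hz, hT, ← hzm, map_inv, inv_smul_smul]
    · rintro ⟨z, hz, rfl⟩ i
      rw [hT', (hq i).equivariant, (prodMap_eq_some he).1 hz i, Option.map_some, hT]
  · have hne := he'.ne_zero_of_finprod h1 hy
    obtain ⟨x, hx⟩ : ∃ x : ∀ i, X i, ∀ i, q i (e' y i) = some (x i) :=
      ⟨fun i => (q i (e' y i)).get ((hq i).isSome _ (hne i)), fun i => (Option.some_get _).symm⟩
    obtain ⟨z, rfl⟩ := he.exists_of_eventually x
      (((he'.eventually_base y).and hev).mono fun i hi =>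
        Option.some_injective _ ((hx i).symm.trans (by rw [hi.1, hi.2.1])))
    rw [(prodMap_eq_some he).2 hx]
    rfl
  · refine (he'.finite_setOf (A := fun i => support (h i) ∩ {a | q i a = some (e m i)})
      (c := b') (fun i => (hq i).finite _) ((hfib m).mono fun i hi a ha => ?_)).subset
      fun y hy i => ⟨he'.ne_zero_of_finprod h1 hy.1 i, (prodMap_eq_some he).1 hy.2 i⟩
    exact hi.2.2.2 a (hi.1 ▸ ha.2) ha.1
  · rw [matchSum, hset m]
    exact he'.finsum_mem_finprod h (fun i => {a | q i a = some (e m i)})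
      (fun i => (hq i).finite _) ((hfib m).mono fun i hi => by rw [hi.1]; exact hi.2.isDeltaAt)

/-- **Restricted products of fibre matches.** -/
theorem hasFibreMatch_finprod (he : IsRestrictedProd e b) (he' : IsRestrictedProd e' b')
    (φ : ∀ i, T →* Tl i) (hT : ∀ (t : T) y i, e (t • y) i = φ i t • e y i)
    (hT' : ∀ (t : T) y i, e' (t • y) i = φ i t • e' y i)
    {f : ∀ i, X i → ℂ} {f' : ∀ i, Z i → ℂ} (hall : ∀ i, HasFibreMatch (Tl i) (f i) (f' i))
    (hev : ∀ᶠ i in cofinite, HasBaseMatch (Tl i) (f i) (f' i) (b i) (b' i)) :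
    HasFibreMatch T (fun y => ∏ᶠ i, f i (e y i)) (fun y => ∏ᶠ i, f' i (e' y i)) := by
  classical
  have key : ∀ i, ∃ (p : X i → Option (X i)) (p' : Z i → Option (X i)),
      IsFibration (Tl i) p (f i) ∧ IsFibration (Tl i) p' (f' i) ∧
        (∀ m, matchSum p (f i) m = matchSum p' (f' i) m) ∧
        (HasBaseMatch (Tl i) (f i) (f' i) (b i) (b' i) →
          IsBaseFibre p (f i) (b i) (b i) ∧ IsBaseFibre p' (f' i) (b i) (b' i)) := by
    intro i
    by_cases hb : HasBaseMatch (Tl i) (f i) (f' i) (b i) (b' i)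
    · obtain ⟨p, p', h1, h2, h3, h4⟩ := hb
      exact ⟨p, p', h1, h2, h3, fun _ => h4⟩
    · obtain ⟨p, p', h1, h2, h3⟩ := hasFibreMatch_iff.1 (hall i)
      exact ⟨p, p', h1, h2, h3, fun h => absurd h hb⟩
  choose p p' hp hp' hs hbase using key
  obtain ⟨h1, hs1⟩ := isFibration_prodMap he he φ hT hT hp (hev.mono fun i hi => (hbase i hi).1)
  obtain ⟨h2, hs2⟩ := isFibration_prodMap he he' φ hT hT' hp' (hev.mono fun i hi => (hbase i hi).2)
  exact hasFibreMatch_iff.2 ⟨_, _, h1, h2, fun m => by
    rw [hs1, hs2]; exact finprod_congr fun i => hs i _⟩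

/-- **One place with vanishing fibre sums suffices.** -/
theorem hasFibreMatch_zero_finprod {Y₀ : Type*} [MulAction T Y₀] (he : IsRestrictedProd e b)
    (φ : ∀ i, T →* Tl i) (hT : ∀ (t : T) y i, e (t • y) i = φ i t • e y i)
    {f : ∀ i, X i → ℂ} (hev : ∀ᶠ i in cofinite, f i (b i) = 1) (i₀ : I)
    (h0 : HasFibreMatch (Tl i₀) (f i₀) (fun _ : X i₀ => (0 : ℂ))) :
    HasFibreMatch T (fun y => ∏ᶠ i, f i (e y i)) (fun _ : Y₀ => (0 : ℂ)) := by
  classical
  obtain ⟨p₀, p₀', hp₀, -, hs₀⟩ := hasFibreMatch_iff.1 h0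
  let q : ∀ i, X i → Option (X i) := update (fun _ x => some x) i₀ p₀
  have hq : ∀ i, IsFibration (Tl i) (q i) (f i) := fun i => by
    rcases eq_or_ne i i₀ with rfl | hi
    · rwa [show q i = p₀ from update_self ..]
    · rw [show q i = fun x => some x from update_of_ne hi ..]
      exact isFibration_some _
  obtain ⟨h1, hs1⟩ := isFibration_prodMap he he φ hT hT hq
    (((eventually_cofinite_ne i₀).and hev).mono fun i hi => by
      rw [show q i = fun x => some x from update_of_ne hi.1 ..]
      exact isBaseFibre_some hi.2)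
  refine hasFibreMatch_iff.2 ⟨_, fun _ => none, h1, ⟨fun _ _ => rfl, fun _ h => absurd rfl h,
    fun m => Set.finite_empty.subset fun y hy => absurd rfl hy.1⟩, fun m => ?_⟩
  have hzero : ∀ {W : Type _} (g : W → Option Y), matchSum g (fun _ => (0 : ℂ)) m = 0 :=
    fun g => by simp [matchSum]
  rw [hs1, hzero]
  refine finprod_eq_zero _ i₀ ?_ ((eventually_cofinite.1 (((eventually_cofinite_ne i₀).and
    hev).and (he.eventually_base m))).subset fun i hi hc => hi ?_)
  · rw [show q i₀ = p₀ from update_self .., hs₀]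
    simp [matchSum]
  · show matchSum (q i) (f i) (e m i) = 1
    rw [show q i = fun x => some x from update_of_ne hc.1.1 .., hc.2, ← hc.1.2, matchSum]
    simp

end Product

end Fermat.Agent.LT.Descent

end
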