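import Fermat.Agent.LT.Descent.Setting
import Fermat.Agent.LT.Geom.TwistedClasses

/-!
# Actions used on the two geometric sides

`PGL₂(K)` acts on `Yf U`; over a cubic twist a point of the space upstairs is moved by the
automorphism, and the global matching hypotheses for one class are phrased with `HasFibreMatch`.
-/

set_option autoImplicit false

noncomputable section

namespace Fermat.Agent.LT.Descent

open Fermat.Agent.LT.Adelic Fermat.Agent.LT.Geom MeasureTheory NumberField IsDedekindDomain Matrix
open scoped MatrixGroups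

section Yf

variable {K : Type*} [Field K] [NumberField K] {U : Subgroup (GfK K)}

theorem scalar_smul_yf (u : Kˣ) (y : Yf U) :
    toGf K (GeneralLinearGroup.scalar (Fin 2) u) • y = y :=
  smul_center_yf (toGf_scalar u) y

/-- `GL₂(K)` on `Yf U`. -/
@[reducible] def yfGLAction : MulAction (GL (Fin 2) K) (Yf U) := MulAction.compHom _ (toGf K)

/-- `PGL₂(K)` on `Yf U`. -/
instance instPGLActionYf : MulAction PGL(2, K) (Yf U) :=
  letI : MulAction (GL (Fin 2) K) (Yf U) := yfGLAction
  ProjGenLinGroup.mulActionOfGL scalar_smul_yf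

theorem pgl_smul_yf (g : GL (Fin 2) K) (y : Yf U) :
    (ProjGenLinGroup.mk g : PGL(2, K)) • y = toGf K g • y := rfl

variable {ι : Type*} {Φ : Frame K ι}

theorem fin_pgl_smul (g : PGL(2, K)) (x : Space Φ U) : (g • x).fin = g • x.fin := by
  induction g using ProjGenLinGroup.induction_on with | mk g => rfl

end Yf

variable {K K' : Type*} [Field K] [NumberField K] [Field K'] [NumberField K'] [Algebra K K']
  {Φ : Frame K Unit} {Φ' : Frame K' (Fin 3)} {U : Subgroup (GfK K)} {U' : Subgroup (GfK K')}

/-- An automorphism of `Yf U'` lying over the generator. -/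
def IsTwistMap (tw : CubicTwist Φ Φ') (σf : Yf U' → Yf U') : Prop :=
  ∀ (g : GL (Fin 2) K') (y : Yf U'),
    σf (toGf K' g • y) = toGf K' (GeneralLinearGroup.map tw.σ.toRingEquiv.toRingHom g) • σf y

theorem IsTwistMap.pgl_smul {tw : CubicTwist Φ Φ'} {σf : Yf U' → Yf U'} (h : IsTwistMap tw σf)
    (g : PGL(2, K')) (y : Yf U') : σf (g • y) = pglSigma tw.σ g • σf y := by
  induction g using ProjGenLinGroup.induction_on with
  | mk g => exact h g y

/-- The twist of a point upstairs. -/
def twistPt (σf : Yf U' → Yf U') (x : Space Φ' U') : Space Φ' U' :=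
  Space.mk (fun i => x.pt (i + 1)) (σf x.fin)

theorem twistPt_smul {tw : CubicTwist Φ Φ'} {σf : Yf U' → Yf U'} (h : IsTwistMap tw σf)
    (g : PGL(2, K')) (x : Space Φ' U') :
    twistPt σf (g • x) = pglSigma tw.σ g • twistPt σf x := by
  induction g using ProjGenLinGroup.induction_on with
  | mk g =>
    have e : ∀ i, Φ'.toInf i (GeneralLinearGroup.map tw.σ.toRingEquiv.toRingHom g)
        = Φ'.toInf (i + 1) g := fun i => by
      refine Units.ext (Matrix.ext fun a b => ?_)
      exact tw.emb_twist i _
    show Space.mk _ _ = Space.mk _ _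
    refine congrArg₂ Space.mk (funext fun i => ?_) (h g x.fin)
    show Φ'.toInf (i + 1) g • x.pt (i + 1)
      = Φ'.toInf i (GeneralLinearGroup.map tw.σ.toRingEquiv.toRingHom g) • x.pt (i + 1)
    rw [e]

/-- The torus of an invariant: the stabiliser of its normal form under conjugation. -/
def classTorus (c : K) (hc : c ≠ 0) : Subgroup PGL(2, K) :=
  Subgroup.centralizer {classRep c hc}

theorem mem_classTorus {c : K} {hc : c ≠ 0} {t : PGL(2, K)} :
    t ∈ classTorus c hc ↔ t * classRep c hc = classRep c hc * t :=
  Subgroup.mem_centralizer_singleton_iff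

/-- A subgroup of `PGL₂(K)` acting upstairs. -/
@[reducible] def upAction (T : Subgroup PGL(2, K)) (U' : Subgroup (GfK K')) :
    MulAction T (Yf U') :=
  MulAction.compHom _ ((pglMap (algebraMap K K')).comp T.subtype)

/-- The finite diagonal functions of the class `c` and of its norm source `δ` match. -/
def MatchesAt (σf : Yf U' → Yf U') (f : HKer U) (f' : HKer U') (c : K) (hc : c ≠ 0)
    (δ : PGL(2, K')) : Prop :=
  letI := upAction (classTorus c hc) U'
  HasFibreMatch (classTorus c hc) (fun y : Yf U => f y (classRep c hc • y))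
    (fun y : Yf U' => f' y (δ • σf y))

/-- The finite diagonal function of the class `c` has vanishing fibre sums. -/
def VanishesAt (f : HKer U) (c : K) (hc : c ≠ 0) : Prop :=
  HasFibreMatch (classTorus c hc) (fun y : Yf U => f y (classRep c hc • y))
    (fun _ : Yf U => (0 : ℂ))

end Fermat.Agent.LT.Descent

end
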