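import Fermat.Agent.LT.Descent.Tensor
import Fermat.Agent.LT.Tame.RestrictedProd
import Fermat.Agent.LT.Tame.BaseChange

/-!
# Global fibre matches from local ones

For a cubic twist the places upstairs are grouped by the place below.  Fibre matches at every
place below, respecting base points at almost all of them, give `MatchesAt` for the matrices of
the two families; one place with vanishing fibre sums gives `VanishesAt`.
-/

set_option autoImplicit false
set_option linter.unusedSectionVars false

noncomputable section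

namespace Fermat.Agent.LT.Descent

open IsDedekindDomain IsDedekindDomain.HeightOneSpectrum Matrix NumberField Filter Function
open Fermat.Agent.LT.Adelic Fermat.Agent.LT.Tame Fermat.Agent.LT.Aleph Fermat.Agent.LT.Geom
open scoped MatrixGroups

variable {K K' : Type*} [Field K] [NumberField K] [Field K'] [NumberField K'] [Algebra K K']

/-- `π w` is the place below `w`. -/
structure IsPlaceCover (π : HeightOneSpectrum (𝓞 K') → HeightOneSpectrum (𝓞 K)) : Prop where
  above : ∀ (w : HeightOneSpectrum (𝓞 K')) (r : 𝓞 K),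
    RingOfIntegers.mapRingHom (algebraMap K K') r ∈ w.asIdeal ↔ r ∈ (π w).asIdeal
  finite : ∀ v, (π ⁻¹' {v}).Finite

variable {π : HeightOneSpectrum (𝓞 K') → HeightOneSpectrum (𝓞 K)}

theorem IsPlaceCover.map_placePerm (hπ : IsPlaceCover π) (σ : K' ≃ₐ[K] K')
    (w : HeightOneSpectrum (𝓞 K')) : π (placePerm σ.toRingEquiv w) = π w := by
  refine HeightOneSpectrum.ext (Ideal.ext fun r => ?_)
  rw [← hπ.above, ← hπ.above, mem_placePerm]
  rw [show RingOfIntegers.mapRingEquiv σ.toRingEquiv
      (RingOfIntegers.mapRingHom (algebraMap K K') r) =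
      RingOfIntegers.mapRingHom (algebraMap K K') r from RingOfIntegers.ext (σ.commutes _)]

/-- `K_v → K'_w` for `w` over `v`. -/
def IsPlaceCover.emb (hπ : IsPlaceCover π) (v : HeightOneSpectrum (𝓞 K)) (w : {w // π w = v}) :
    v.adicCompletion K →+* w.1.adicCompletion K' :=
  completionEmb (RingOfIntegers.mapRingHom (algebraMap K K')) (algebraMap K K') (fun _ => rfl)
    fun r => by rw [hπ.above w.1 r, w.2]

theorem IsPlaceCover.pglMap_emb (hπ : IsPlaceCover π) (v : HeightOneSpectrum (𝓞 K))
    (w : {w // π w = v}) (g : PGL(2, K)) :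
    pglMap (hπ.emb v w) (pglMap (algebraMap K (v.adicCompletion K)) g) =
      pglMap (algebraMap K' (w.1.adicCompletion K')) (pglMap (algebraMap K K') g) := by
  rw [pglMap_pglMap, pglMap_pglMap]
  congr 2
  exact RingHom.ext fun x => completionEmb_coe (RingOfIntegers.mapRingHom (algebraMap K K'))
    (algebraMap K K') (fun _ => rfl) (fun r => by rw [hπ.above w.1 r, w.2]) x

variable {V : ∀ v : HeightOneSpectrum (𝓞 K), Subgroup (GL (Fin 2) (v.adicCompletion K))}
  {V' : ∀ w : HeightOneSpectrum (𝓞 K'), Subgroup (GL (Fin 2) (w.adicCompletion K'))}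

variable (π V') in
/-- The local coset spaces over `v`. -/
abbrev FibreY (v : HeightOneSpectrum (𝓞 K)) : Type _ := ∀ w : {w // π w = v}, LocY V' w.1

variable (π V') in
/-- The base point over `v`. -/
def fibreBase (v : HeightOneSpectrum (𝓞 K)) : FibreY π V' v := fun w => basePt V' w.1

theorem IsLocalLevel.isRestrictedProd_fibre (hV' : IsLocalLevel V') (hπ : IsPlaceCover π) :
    IsRestrictedProd (fun (y : Yf (productLevel V')) v (w : {w // π w = v}) => locY V' w.1 y)
      (fibreBase π V') :=
  hV'.isRestrictedProd.regroup π hπ.finite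

/-- The centraliser of `γ` in `PGL₂(K_v)`. -/
abbrev locTorus (γ : PGL(2, K)) (v : HeightOneSpectrum (𝓞 K)) :
    Subgroup PGL(2, v.adicCompletion K) :=
  Subgroup.centralizer {pglMap (algebraMap K (v.adicCompletion K)) γ}

/-- The local centraliser acts on the places above componentwise. -/
@[reducible] def fibreAction (hπ : IsPlaceCover π) (γ : PGL(2, K))
    (v : HeightOneSpectrum (𝓞 K)) : MulAction (locTorus γ v) (FibreY π V' v) :=
  MulAction.compHom _
    (MonoidHom.pi fun w : {w // π w = v} => (pglMap (hπ.emb v w)).comp (locTorus γ v).subtype)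

theorem fibreAction_apply (hπ : IsPlaceCover π) (γ : PGL(2, K)) (v : HeightOneSpectrum (𝓞 K))
    (t : locTorus γ v) (Y : FibreY π V' v) (w : {w // π w = v}) :
    letI := fibreAction (V' := V') hπ γ v
    (t • Y) w = pglMap (hπ.emb v w) (t : PGL(2, v.adicCompletion K)) • Y w := rfl

/-- The twist on the places over `v`. -/
def fibreTwist (hπ : IsPlaceCover π) (σ : K' ≃ₐ[K] K')
    (hσ : ∀ w, ∀ g ∈ V' (placePerm σ.toRingEquiv w), GeneralLinearGroup.map
      (completionEquiv σ.toRingEquiv (valuation_apply_placePerm σ.toRingEquiv w)).toRingHom g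
        ∈ V' w)
    (v : HeightOneSpectrum (𝓞 K)) (Y : FibreY π V' v) : FibreY π V' v := fun w =>
  cosetTwist σ.toRingEquiv hσ w.1
    (Y ⟨placePerm σ.toRingEquiv w.1, (hπ.map_placePerm σ w.1).trans w.2⟩)

theorem locY_yfAut (σ : K' ≃+* K')
    (hσ : ∀ w, ∀ g ∈ V' (placePerm σ w), GeneralLinearGroup.map
      (completionEquiv σ (valuation_apply_placePerm σ w)).toRingHom g ∈ V' w)
    (w : HeightOneSpectrum (𝓞 K')) (y : Yf (productLevel V')) :
    locY V' w (yfAut σ (isStableLevel_productLevel σ hσ) y) =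
      cosetTwist σ hσ w (locY V' (placePerm σ w) y) := by
  induction y using QuotientGroup.induction_on with
  | _ g => rw [yfAut_mk, locY_mk, locY_mk, cosetTwist_mk, localPGL_gfAut]

/-- The diagonal function at `v`. -/
def locDiag (k : KerFamily V) (γ : PGL(2, K)) (v : HeightOneSpectrum (𝓞 K)) (y : LocY V v) : ℂ :=
  k.ker v y (pglMap (algebraMap K (v.adicCompletion K)) γ • y)

/-- The twisted diagonal function over `v`. -/
def locTwDiag (hπ : IsPlaceCover π) (σ : K' ≃ₐ[K] K')
    (hσ : ∀ w, ∀ g ∈ V' (placePerm σ.toRingEquiv w), GeneralLinearGroup.map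
      (completionEquiv σ.toRingEquiv (valuation_apply_placePerm σ.toRingEquiv w)).toRingHom g
        ∈ V' w)
    (k' : KerFamily V') (δ : PGL(2, K')) (v : HeightOneSpectrum (𝓞 K)) (Y : FibreY π V' v) : ℂ :=
  ∏ᶠ w : {w // π w = v}, k'.ker w.1 (Y w)
    (pglMap (algebraMap K' (w.1.adicCompletion K')) δ • fibreTwist hπ σ hσ v Y w)

/-- The functions of `γ` and of `δ` match at `v`. -/
def MatchesAtPlace (hπ : IsPlaceCover π) (σ : K' ≃ₐ[K] K')
    (hσ : ∀ w, ∀ g ∈ V' (placePerm σ.toRingEquiv w), GeneralLinearGroup.map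
      (completionEquiv σ.toRingEquiv (valuation_apply_placePerm σ.toRingEquiv w)).toRingHom g
        ∈ V' w)
    (k : KerFamily V) (k' : KerFamily V') (γ : PGL(2, K)) (δ : PGL(2, K'))
    (v : HeightOneSpectrum (𝓞 K)) : Prop :=
  letI := fibreAction (V' := V') hπ γ v
  HasFibreMatch (locTorus γ v) (locDiag k γ v) (locTwDiag hπ σ hσ k' δ v)

/-- The functions of `γ` and of `δ` match at `v`, base point to base point. -/
def BaseMatchesAtPlace (hπ : IsPlaceCover π) (σ : K' ≃ₐ[K] K')
    (hσ : ∀ w, ∀ g ∈ V' (placePerm σ.toRingEquiv w), GeneralLinearGroup.map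
      (completionEquiv σ.toRingEquiv (valuation_apply_placePerm σ.toRingEquiv w)).toRingHom g
        ∈ V' w)
    (k : KerFamily V) (k' : KerFamily V') (γ : PGL(2, K)) (δ : PGL(2, K'))
    (v : HeightOneSpectrum (𝓞 K)) : Prop :=
  letI := fibreAction (V' := V') hπ γ v
  HasBaseMatch (locTorus γ v) (locDiag k γ v) (locTwDiag hπ σ hσ k' δ v) (basePt V v)
    (fibreBase π V' v)

/-- The fibre sums of the function of `γ` at `v` vanish. -/
def VanishesAtPlace (k : KerFamily V) (γ : PGL(2, K)) (v : HeightOneSpectrum (𝓞 K)) : Prop :=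
  HasFibreMatch (locTorus γ v) (locDiag k γ v) (fun _ : LocY V v => (0 : ℂ))

theorem BaseMatchesAtPlace.matchesAtPlace {hπ : IsPlaceCover π} {σ : K' ≃ₐ[K] K'}
    {hσ : ∀ w, ∀ g ∈ V' (placePerm σ.toRingEquiv w), GeneralLinearGroup.map
      (completionEquiv σ.toRingEquiv (valuation_apply_placePerm σ.toRingEquiv w)).toRingHom g
        ∈ V' w}
    {k : KerFamily V} {k' : KerFamily V'} {γ : PGL(2, K)} {δ : PGL(2, K')}
    {v : HeightOneSpectrum (𝓞 K)} (h : BaseMatchesAtPlace hπ σ hσ k k' γ δ v) :
    MatchesAtPlace hπ σ hσ k k' γ δ v :=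
  letI := fibreAction (V' := V') hπ γ v
  h.hasFibreMatch

variable {Φ : Frame K Unit} {Φ' : Frame K' (Fin 3)}

/-- The localisation of the torus of a class. -/
def classTorusLoc (c : K) (hc : c ≠ 0) (v : HeightOneSpectrum (𝓞 K)) :
    classTorus c hc →* locTorus (classRep c hc) v :=
  ((pglMap (algebraMap K (v.adicCompletion K))).comp (classTorus c hc).subtype).codRestrict _
    fun t => Subgroup.mem_centralizer_singleton_iff.2 (by
      rw [MonoidHom.comp_apply, ← map_mul, ← map_mul, Subgroup.coe_subtype,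
        mem_classTorus.1 t.2])

theorem coe_classTorusLoc (c : K) (hc : c ≠ 0) (v : HeightOneSpectrum (𝓞 K))
    (t : classTorus c hc) :
    (classTorusLoc c hc v t : PGL(2, v.adicCompletion K)) =
      pglMap (algebraMap K (v.adicCompletion K)) (t : PGL(2, K)) := rfl

theorem KerFamily.toHKer_apply_twist (hV' : IsLocalLevel V') (hπ : IsPlaceCover π)
    (σ : K' ≃ₐ[K] K')
    (hσ : ∀ w, ∀ g ∈ V' (placePerm σ.toRingEquiv w), GeneralLinearGroup.map
      (completionEquiv σ.toRingEquiv (valuation_apply_placePerm σ.toRingEquiv w)).toRingHom g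
        ∈ V' w)
    (k' : KerFamily V') (δ : PGL(2, K')) (y : Yf (productLevel V')) :
    (k'.toHKer hV') y (δ • yfAut σ.toRingEquiv (isStableLevel_productLevel _ hσ) y) =
      ∏ᶠ v, locTwDiag hπ σ hσ k' δ v fun w => locY V' w.1 y := by
  rw [toHKer_apply, finprod_regroup π _ (hasFiniteMulSupport hV' k' _ _)]
  refine finprod_congr fun v => finprod_congr fun w => ?_
  rw [locY_pgl_smul, locY_yfAut]
  rfl

/-- **Global match from local matches.** -/
theorem matchesAt_of_local (tw : CubicTwist Φ Φ') (hV : IsLocalLevel V) (hV' : IsLocalLevel V')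
    (hπ : IsPlaceCover π)
    (hσ : ∀ w, ∀ g ∈ V' (placePerm tw.σ.toRingEquiv w), GeneralLinearGroup.map
      (completionEquiv tw.σ.toRingEquiv (valuation_apply_placePerm tw.σ.toRingEquiv w)).toRingHom g
        ∈ V' w)
    (k : KerFamily V) (k' : KerFamily V') (c : K) (hc : c ≠ 0) (δ : PGL(2, K'))
    (hall : ∀ v, MatchesAtPlace hπ tw.σ hσ k k' (classRep c hc) δ v)
    (hev : ∀ᶠ v in cofinite, BaseMatchesAtPlace hπ tw.σ hσ k k' (classRep c hc) δ v) :
    MatchesAt (yfAut tw.σ.toRingEquiv (isStableLevel_productLevel _ hσ)) (k.toHKer hV)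
      (k'.toHKer hV') c hc δ := by
  letI := upAction (classTorus c hc) (productLevel V')
  letI := fun v => fibreAction (V' := V') hπ (classRep c hc) v
  show HasFibreMatch (classTorus c hc) _ _
  have h := hasFibreMatch_finprod hV.isRestrictedProd (hV'.isRestrictedProd_fibre hπ)
    (T := classTorus c hc) (Tl := fun v => locTorus (classRep c hc) v)
    (classTorusLoc c hc) (fun t y v => locY_pgl_smul V v (t : PGL(2, K)) y)
    (fun t y v => funext fun w => by
      rw [fibreAction_apply, coe_classTorusLoc, hπ.pglMap_emb]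
      exact locY_pgl_smul V' w.1 _ y)
    hall hev
  convert h using 2 with y y
  · rw [KerFamily.toHKer_apply_smul]
    rfl
  · exact KerFamily.toHKer_apply_twist hV' hπ tw.σ hσ k' δ y

/-- **One local obstruction suffices.** -/
theorem vanishesAt_of_local (hV : IsLocalLevel V) (k : KerFamily V) (c : K) (hc : c ≠ 0)
    (v : HeightOneSpectrum (𝓞 K)) (h : VanishesAtPlace k (classRep c hc) v) :
    VanishesAt (k.toHKer hV) c hc := by
  show HasFibreMatch (classTorus c hc) _ _
  have h' := hasFibreMatch_zero_finprod (T := classTorus c hc) (Y₀ := Yf (productLevel V))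
    (Tl := fun v => locTorus (classRep c hc) v) hV.isRestrictedProd (classTorusLoc c hc)
    (fun t y v => locY_pgl_smul V v (t : PGL(2, K)) y)
    (f := locDiag k (classRep c hc)) (k.eventually_diag_base hV (classRep c hc)) v h
  convert h' using 2 with y
  rw [KerFamily.toHKer_apply_smul]
  rfl

end Fermat.Agent.LT.Descent

end
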