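import Fermat.Agent.LT.Geom.HasseLocal
import Fermat.Agent.LT.Descent.Places.Generic
import Fermat.Agent.LT.Descent.TensorMatch
import Fermat.Agent.LT.Inert.PlaceInstances

/-!
# An elliptic class without a norm has a tame or inert place without a local norm

The places above three are assumed split.
-/

set_option autoImplicit false

noncomputable section

open IsDedekindDomain NumberField
open scoped MatrixGroups

namespace Fermat.Agent.LT.Descent

open Fermat.Agent.LT.Geom Places

variable {K K' : Type*} [Field K] [NumberField K] [Field K'] [NumberField K'] [Algebra K K']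
  {σ : K' ≃ₐ[K] K'}

/-- A radical for a cubic cyclic extension with the cube roots of unity in the base. -/
theorem exists_radical (hσ : IsCubicGen σ) {ζ : K} (hζ : ζ ^ 2 + ζ + 1 = 0) :
    ∃ θ : K', θ ≠ 0 ∧ σ θ = algebraMap K K' ζ * θ := by
  set z := algebraMap K K' ζ with hz
  have hz1 : z ^ 2 + z + 1 = 0 := by
    rw [hz, ← map_pow, ← map_add, ← map_one (algebraMap K K'), ← map_add, hζ, map_zero]
  obtain ⟨y, hy⟩ := exists_eval_ne_zero σ hσ.ne_one hσ.order_three (z ^ 2) z
  refine ⟨y + z ^ 2 * σ y + z * σ (σ y), hy, ?_⟩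
  have hzc : σ z = z := σ.commutes ζ
  rw [map_add, map_add, map_mul, map_mul, map_pow, hσ.order_three, hzc]
  linear_combination (-(z - 1) * σ y) * hz1

/-- **Where the norm fails.** A class that is no twisted norm has a tame or inert place at which it
is no local norm. -/
theorem exists_tame_or_inert_not_isLocalNorm (hσ : IsCubicGen σ) {ζ : K}
    (hζ : ζ ^ 2 + ζ + 1 = 0)
    (h3 : ∀ v : HeightOneSpectrum (𝓞 K), (3 : 𝓞 K) ∈ v.asIdeal → IsSplit σ v)
    {c : K} (hc : c ≠ 0) (hns : ¬ IsSquare (c ^ 2 - 4 * c))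
    (hno : ∀ δ : PGL(2, K'), twNorm (pglSigma σ) δ ≠ pglMap (algebraMap K K') (classRep c hc)) :
    ∃ (v : HeightOneSpectrum (𝓞 K)) (w : HeightOneSpectrum (𝓞 K')), IsAbove v w ∧
      (v ∈ tamePlaces σ ∨ IsInert σ v) ∧ ¬ IsLocalNorm σ c hc w := by
  obtain ⟨θ, hθ, hσθ⟩ := exists_radical hσ hζ
  obtain ⟨w, hw, hloc⟩ :=
    exists_place_not_isLocalNorm σ hσ.fixed hσ.order_three hζ hθ hσθ hc hns hno
  obtain ⟨v, hv⟩ := exists_below (K := K) w
  have hns' : ¬ IsSplit σ v := fun h => h w hv hw
  refine ⟨v, w, hv, ?_, hloc⟩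
  rcases trichotomy hσ v (fun h => hns' (h3 v h)) with h | h | h
  · exact Or.inl h
  · exact Or.inr h
  · exact absurd h hns'

/-- At a tame place the missing local norm, in the completions. -/
theorem tame_twNorm_ne {v : HeightOneSpectrum (𝓞 K)} {w : HeightOneSpectrum (𝓞 K')}
    (P : Tame.TamePlace σ v w) {c : K} {hc : c ≠ 0} (hloc : ¬ IsLocalNorm σ c hc w)
    (δ : PGL(2, w.adicCompletion K')) :
    twNorm (pglEquiv P.aut) δ ≠
      P.pglEmb (pglMap (algebraMap K (v.adicCompletion K)) (classRep c hc)) :=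
  twNorm_ne_of_not_isLocalNorm σ hloc (Tame.continuous_completionEquiv _ _) P.aut_coe P.emb_coe δ

/-- **A tame place without a local norm**: no coset is fixed, the fibre sums vanish. -/
theorem tame_vanishesAtPlace {v : HeightOneSpectrum (𝓞 K)} {w : HeightOneSpectrum (𝓞 K')}
    (P : Tame.TamePlace σ v w)
    {V : ∀ u : HeightOneSpectrum (𝓞 K), Subgroup (GL (Fin 2) (u.adicCompletion K))}
    {a : IsLocalRing.ResidueField (v.adicCompletionIntegers K)} (ha : ∀ t, t ^ 2 - t ≠ a)
    (hq : Ideal.absNorm v.asIdeal % 3 = 1)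
    (hV : (V v).map Matrix.ProjGenLinGroup.mk =
      Tame.levelOf (v.adicCompletion K) (Tame.torus a))
    {k : KerFamily V} (hk : k.ker v = LKer.one _ _)
    {c : K} {hc : c ≠ 0} (hloc : ¬ IsLocalNorm σ c hc w) :
    VanishesAtPlace k (classRep c hc) v := by
  have hfx : ∀ x, pglEquiv P.aut (P.pglEmb x) = P.pglEmb x := fun x =>
    (P.pglEquiv_fixed_iff _).2 ⟨x, rfl⟩
  have hzero : ∀ y, locDiag k (classRep c hc) v y = 0 := by
    intro y
    induction y using QuotientGroup.induction_on with | _ g => ?_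
    rw [locDiag, hk]
    refine LKer.one_apply_ne fun he => ?_
    rw [MulAction.Quotient.smul_coe, smul_eq_mul, QuotientGroup.eq, ← mul_assoc, hV,
      P.mem_level_iff, map_mul, map_mul, map_inv] at he
    obtain ⟨δ, -, -, hδ⟩ := (P.isTameLevel ha hq).exists_norm_of_conj_mem (hfx _) (hfx g) he
    exact tame_twNorm_ne P hloc δ hδ
  exact hasFibreMatch_iff.2 ⟨fun y => some y, fun y => some y, isFibration_some _,
    isFibration_some _, fun m => by
      unfold matchSum
      exact finsum_congr fun y => finsum_congr fun _ => hzero y⟩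

/-- **A class without a norm vanishes.** For tame torus levels with trivial matrices and for radial
base changes at the inert places, the diagonal function of such a class has vanishing fibre sums. -/
theorem vanishesAt_of_no_norm (hσ : IsCubicGen σ) {ζ : K} (hζ : ζ ^ 2 + ζ + 1 = 0)
    (h3 : ∀ v : HeightOneSpectrum (𝓞 K), (3 : 𝓞 K) ∈ v.asIdeal → IsSplit σ v)
    {V : ∀ u : HeightOneSpectrum (𝓞 K), Subgroup (GL (Fin 2) (u.adicCompletion K))}
    (hV : IsLocalLevel V) {k : KerFamily V}
    (htame : ∀ v ∈ tamePlaces σ, ∃ a : IsLocalRing.ResidueField (v.adicCompletionIntegers K),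
      (∀ t, t ^ 2 - t ≠ a) ∧
        (V v).map Matrix.ProjGenLinGroup.mk = Tame.levelOf (v.adicCompletion K) (Tame.torus a) ∧
        k.ker v = LKer.one _ _)
    (hinert : ∀ (v : HeightOneSpectrum (𝓞 K)) (w : HeightOneSpectrum (𝓞 K'))
      (P : Inert.InertPlace σ v w),
        ∃ (hH₀ : Inert.IsUnimodularLevel (v.adicCompletionIntegers K)
            ((V v).map Matrix.ProjGenLinGroup.mk)) (φ f : ℕ →₀ ℂ),
          Inert.IsBaseChange (Inert.resCard (v.adicCompletionIntegers K))
              (Inert.resCard (w.adicCompletionIntegers K')) φ f ∧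
            k.ker v = Inert.radKer P.cubic.baseData hH₀ f)
    {c : K} (hc : c ≠ 0) (hns : ¬ IsSquare (c ^ 2 - 4 * c))
    (hno : ∀ δ : PGL(2, K'), twNorm (pglSigma σ) δ ≠ pglMap (algebraMap K K') (classRep c hc)) :
    VanishesAt (k.toHKer hV) c hc := by
  obtain ⟨v, w, hw, htype, hloc⟩ :=
    exists_tame_or_inert_not_isLocalNorm hσ hζ h3 hc hns hno
  refine vanishesAt_of_local hV k c hc v ?_
  rcases htype with ht | hi
  · obtain ⟨a, ha, hVa, hk⟩ := htame v ht
    have hprim : IsPrimitiveRoot ζ 3 := IsPrimitiveRoot.mk_of_lt ζ (by norm_num)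
      (by linear_combination (ζ - 1) * hζ) fun l h0 h1 hl => by
        interval_cases l
        · rw [pow_one] at hl; rw [hl] at hζ; norm_num at hζ
        · have e1 : ζ = -2 := by linear_combination hζ - hl
          norm_num [e1] at hζ
    exact tame_vanishesAtPlace (tamePlace hσ ht hw) ha (absNorm_mod_three hprim v ht.1) hVa hk hloc
  · have P := Inert.inertPlace_of_isInert hσ hi hw
    obtain ⟨hH₀, φ, f, hf, hk⟩ := hinert v w P
    exact P.vanishesAtPlace hH₀ hf hk (by rwa [classInv_classRep])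
      (twNorm_ne_of_not_isLocalNorm σ hloc P.continuous_aut P.aut_coe P.emb_coe)

end Fermat.Agent.LT.Descent

end
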