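import Fermat.Agent.LT.Descent.Setting
import Fermat.Agent.LT.Adelic.HypMeasure
import Mathlib.MeasureTheory.Integral.Prod

/-!
# Three cyclically twisted kernels are one composed kernel

`∫ h(τ₀) k₀(τ₀, δ₀τ₁) k₁(τ₁, δ₁τ₂) k₂(τ₂, δ₂τ₀) = ∫ h(a) (k₀ * k₁ * k₂)(a, δ₀δ₁δ₂ a)`.
-/

set_option autoImplicit false

noncomputable section

namespace Fermat.Agent.LT.Descent

open Fermat.Agent.LT.Adelic MeasureTheory

/-- `kc` is the composite of the three kernels. -/
def IsComposite3 (kc : PPKer) (k : Fin 3 → PPKer) : Prop :=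
  ∀ p q, kc p q = ∫ a, k 0 p a * ∫ b, k 1 a b * k 2 b q ∂HSpace.measure ∂HSpace.measure

/-- Coordinates on three copies of hyperbolic space. -/
def threeEquiv : (Fin 3 → HSpace) ≃ᵐ HSpace × HSpace × HSpace :=
  (MeasurableEquiv.piFinSuccAbove (fun _ => HSpace) 0).trans
    ((MeasurableEquiv.refl HSpace).prodCongr MeasurableEquiv.finTwoArrow)

theorem threeEquiv_apply (τ : Fin 3 → HSpace) : threeEquiv τ = (τ 0, τ 1, τ 2) := rfl

theorem measurePreserving_threeEquiv :
    MeasurePreserving threeEquiv (Measure.pi fun _ : Fin 3 => HSpace.measure)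
      (HSpace.measure.prod (HSpace.measure.prod HSpace.measure)) :=
  (measurePreserving_piFinSuccAbove (fun _ : Fin 3 => HSpace.measure) 0).trans
    ((MeasurePreserving.id HSpace.measure).prod (measurePreserving_finTwoArrow HSpace.measure))

theorem integral_comp_smul_hspace (g : GL (Fin 2) ℂ) (F : HSpace → ℂ) :
    ∫ p, F (g • p) ∂HSpace.measure = ∫ p, F p ∂HSpace.measure :=
  (measurePreserving_smul g HSpace.measure).integral_comp (measurableEmbedding_const_smul g) F

theorem integral_cyclic_three (δ : Fin 3 → GL (Fin 2) ℂ) {k : Fin 3 → PPKer} {kc : PPKer}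
    (hc : IsComposite3 kc k) (h : HSpace → ℂ)
    (hint : Integrable (fun τ : Fin 3 → HSpace => h (τ 0) * ∏ i, k i (τ i) (δ i • τ (i + 1)))
      (Measure.pi fun _ : Fin 3 => HSpace.measure)) :
    ∫ τ : Fin 3 → HSpace, h (τ 0) * ∏ i, k i (τ i) (δ i • τ (i + 1))
        ∂(Measure.pi fun _ : Fin 3 => HSpace.measure)
      = ∫ a, h a * kc a ((δ 0 * δ 1 * δ 2) • a) ∂HSpace.measure := by
  let F : HSpace × HSpace × HSpace → ℂ := fun p =>
    h p.1 * (k 0 p.1 (δ 0 • p.2.1) * (k 1 p.2.1 (δ 1 • p.2.2) * k 2 p.2.2 (δ 2 • p.1)))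
  have he : (fun τ : Fin 3 → HSpace => h (τ 0) * ∏ i, k i (τ i) (δ i • τ (i + 1)))
      = F ∘ threeEquiv := by
    funext τ
    simp only [Function.comp_apply, threeEquiv_apply, F, Fin.prod_univ_three, mul_assoc]
    rfl
  have hF : Integrable F (HSpace.measure.prod (HSpace.measure.prod HSpace.measure)) :=
    (measurePreserving_threeEquiv.integrable_comp_emb threeEquiv.measurableEmbedding).mp (he ▸ hint)
  rw [he, Function.comp_def, measurePreserving_threeEquiv.integral_comp threeEquiv.measurableEmbedding,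
    integral_prod F hF]
  refine integral_congr_ae (hF.prod_right_ae.mono fun a ha => ?_)
  simp only
  rw [integral_prod _ ha, hc]
  conv_rhs => rw [← integral_comp_smul_hspace (δ 0), ← integral_const_mul]
  refine integral_congr_ae (Filter.Eventually.of_forall fun b => ?_)
  simp only [F]
  rw [integral_const_mul, integral_const_mul]
  conv_rhs => rw [← integral_comp_smul_hspace (δ 0 * δ 1)]
  refine congrArg _ (congrArg _ (integral_congr_ae (Filter.Eventually.of_forall fun c => ?_)))
  simp only [mul_smul, (k 1).smul', (k 2).smul']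

end Fermat.Agent.LT.Descent

end
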