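import Fermat.Agent.LT.Descent.Pushforward
import Fermat.Agent.LT.Descent.ArchCompose
import Fermat.Agent.LT.Geom.UnfoldComplex

/-!
# Equality of the two geometric sides

The diagonal sum of a test kernel on `F` and the twisted diagonal sum on `F'` have the same
integral over the quotients when the finite parts match class by class and the infinite part on
`F` is the composite of the three parts on `F'`.
-/

set_option autoImplicit false

noncomputable section

namespace Fermat.Agent.LT.Descent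

open Fermat.Agent.LT.Adelic Fermat.Agent.LT.Geom MeasureTheory NumberField IsDedekindDomain Matrix
open scoped MatrixGroups ENNReal

section Kernels

variable {K : Type*} [Field K] [NumberField K] {ι : Type*} [Fintype ι] {Φ : Frame K ι}
  {U : Subgroup (GfK K)}

/-- The diagonal of a test kernel at the class element `γ`. -/
def diagKer (k : ι → PPKer) (f : HKer U) (γ : PGL(2, K)) (x : Space Φ U) : ℂ :=
  testKernel k f x (γ • x)

theorem measurable_diag_slice (k : ι → PPKer) (c : ℂ) {S : (ι → HSpace) → (ι → HSpace)}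
    (hS : Measurable S) : Measurable fun τ : ι → HSpace => c * ∏ i, k i (τ i) (S τ i) :=
  measurable_const.mul (Finset.measurable_prod _ fun i _ =>
    ((k i).continuous'.measurable).comp
      ((measurable_pi_apply i).prodMk ((measurable_pi_apply i).comp hS)))

theorem measurable_diagKer [Countable (Yf U)] (k : ι → PPKer) (f : HKer U) (γ : PGL(2, K)) :
    Measurable (diagKer (Φ := Φ) k f γ) := by
  induction γ using ProjGenLinGroup.induction_on with
  | mk g =>
    refine Space.measurable_iff.mpr fun y => ?_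
    show Measurable fun τ : ι → HSpace => f y (toGf K g • y) * ∏ i, k i (τ i) (Φ.toInf i g • τ i)
    exact measurable_diag_slice k _ (Φ.measurable_smul g)

theorem diagKer_mk (k : ι → PPKer) (f : HKer U) (g : GL (Fin 2) K) (x : Space Φ U) :
    diagKer k f (ProjGenLinGroup.mk g) x
      = f x.fin ((ProjGenLinGroup.mk g : PGL(2, K)) • x.fin) *
          ∏ i, k i (x.pt i) (Φ.toInf i g • x.pt i) := rfl

theorem diagKer_conj (k : ι → PPKer) (f : HKer U) (g γ : PGL(2, K)) (x : Space Φ U) :
    diagKer k f (g * γ * g⁻¹) (g • x) = diagKer k f γ x := by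
  rw [diagKer, mul_smul, inv_smul_smul, mul_smul, testKernel_pglSmul]
  rfl

end Kernels

section Twist

variable {K K' : Type*} [Field K] [NumberField K] [Field K'] [NumberField K'] [Algebra K K']
  {Φ : Frame K Unit} {Φ' : Frame K' (Fin 3)} {U : Subgroup (GfK K)} {U' : Subgroup (GfK K')}

/-- The twisted diagonal of a test kernel at `δ`. -/
def twDiag (k : Fin 3 → PPKer) (f : HKer U') (σf : Yf U' → Yf U') (δ : PGL(2, K'))
    (x : Space Φ' U') : ℂ :=
  testKernel k f x (δ • twistPt σf x)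

theorem measurable_twDiag [Countable (Yf U')] (k : Fin 3 → PPKer) (f : HKer U')
    (σf : Yf U' → Yf U') (δ : PGL(2, K')) : Measurable (twDiag (Φ' := Φ') k f σf δ) := by
  induction δ using ProjGenLinGroup.induction_on with
  | mk g =>
    refine Space.measurable_iff.mpr fun y => ?_
    show Measurable fun τ : Fin 3 → HSpace => f y (toGf K' g • σf y) *
      ∏ i, k i (τ i) (Φ'.toInf i g • τ (i + 1))
    exact measurable_diag_slice k _
      ((Φ'.measurable_smul g).comp (measurable_pi_lambda _ fun i => measurable_pi_apply (i + 1)))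

theorem twDiag_mk (k : Fin 3 → PPKer) (f : HKer U') (σf : Yf U' → Yf U') (g : GL (Fin 2) K')
    (x : Space Φ' U') :
    twDiag k f σf (ProjGenLinGroup.mk g) x
      = f x.fin ((ProjGenLinGroup.mk g : PGL(2, K')) • σf x.fin) *
          ∏ i, k i (x.pt i) (Φ'.toInf i g • x.pt (i + 1)) := rfl

theorem twDiag_twConj {tw : CubicTwist Φ Φ'} {σf : Yf U' → Yf U'} (hσf : IsTwistMap tw σf)
    (k : Fin 3 → PPKer) (f : HKer U') (g δ : PGL(2, K')) (x : Space Φ' U') :
    twDiag k f σf (twConj (pglSigma tw.σ) g δ) (g • x) = twDiag k f σf δ x := by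
  rw [twDiag, twistPt_smul hσf, twConj, mul_smul, inv_smul_smul, mul_smul, testKernel_pglSmul]
  rfl

theorem CubicTwist.sigma_ne_one (tw : CubicTwist Φ Φ') : tw.σ ≠ 1 := fun h => by
  have e : Φ'.emb 0 = Φ'.emb 1 := RingHom.ext fun x => by
    have := tw.emb_twist 0 x
    rw [h] at this
    exact this
  exact absurd (Φ'.bij.1 (congrArg InfinitePlace.mk e)) (by decide)

theorem toInf_sigma (tw : CubicTwist Φ Φ') (i : Fin 3) (g : GL (Fin 2) K') :
    Φ'.toInf i (GeneralLinearGroup.map tw.σ.toRingEquiv.toRingHom g) = Φ'.toInf (i + 1) g :=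
  Units.ext (Matrix.ext fun _ _ => tw.emb_twist i _)

theorem toInf_base (tw : CubicTwist Φ Φ') (g : GL (Fin 2) K) :
    Φ'.toInf 0 (GeneralLinearGroup.map (algebraMap K K') g) = Φ.toInf () g :=
  Units.ext (Matrix.ext fun _ _ => RingHom.congr_fun (tw.emb_base 0) _)

theorem toInf_twNorm_smul (tw : CubicTwist Φ Φ') {g : GL (Fin 2) K'} {g₀ : GL (Fin 2) K}
    (h : twNorm (pglSigma tw.σ) (ProjGenLinGroup.mk g)
      = pglMap (algebraMap K K') (ProjGenLinGroup.mk g₀)) (p : HSpace) :
    (Φ'.toInf 0 g * Φ'.toInf 1 g * Φ'.toInf 2 g) • p = Φ.toInf () g₀ • p := by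
  rw [twNorm, pglSigma, pglEquiv_apply, pglEquiv_apply, pglMap_mk, pglMap_mk, pglMap_mk,
    ← map_mul, ← map_mul, ProjGenLinGroup.mk_eq_mk_iff] at h
  obtain ⟨u, hu⟩ := h
  have h1 := congrArg (fun z => Φ'.toInf 0 z • p) hu
  simp only [map_mul, toInf_base tw, toInf_sigma tw, mul_smul] at h1
  rw [← h1, mul_smul, mul_smul]
  have hs : Φ'.toInf 0 (GeneralLinearGroup.scalar (Fin 2) u)
      = GeneralLinearGroup.scalar (Fin 2) (Units.map (Φ'.emb 0).toMonoidHom u) := by
    refine Units.ext (Matrix.ext fun a b => ?_)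
    simp only [Frame.toInf]
    fin_cases a <;> fin_cases b <;> simp [GeneralLinearGroup.coe_scalar]
  rw [hs, HSpace.scalar_smul]
  rfl

/-- Classes of `PGL₂(K)` with invariant in `C`. -/
def DiagClassSet (C : Set K) : Type _ := {γ : PGL(2, K) // classInv γ ∈ C}

instance (C : Set K) : MulAction PGL(2, K) (DiagClassSet C) where
  smul g γ := ⟨g * γ.1 * g⁻¹, by rw [classInv_conj]; exact γ.2⟩
  one_smul γ := Subtype.ext (show 1 * γ.1 * 1⁻¹ = γ.1 by group)
  mul_smul g h γ := Subtype.ext
    (show g * h * γ.1 * (g * h)⁻¹ = g * (h * γ.1 * h⁻¹) * g⁻¹ by group)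

instance (C : Set K) : Countable (DiagClassSet C) := Subtype.countable

/-- Twisted classes with norm invariant in `C`. -/
def TwDiagClassSet (tw : CubicTwist Φ Φ') (C : Set K) : Type _ :=
  {δ : PGL(2, K') // classInv (twNorm (pglSigma tw.σ) δ) ∈ algebraMap K K' '' C}

instance (tw : CubicTwist Φ Φ') (C : Set K) : MulAction PGL(2, K') (TwDiagClassSet tw C) where
  smul g δ := ⟨twConj (pglSigma tw.σ) g δ.1, by
    rw [twNorm_twConj _ (pglSigma_cube tw.σ tw.order_three), classInv_conj]; exact δ.2⟩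
  one_smul δ := Subtype.ext (twConj_one _ _)
  mul_smul g h δ := Subtype.ext (twConj_mul _ g h _)

instance (tw : CubicTwist Φ Φ') (C : Set K) : Countable (TwDiagClassSet tw C) := Subtype.countable

end Twist

section Class

variable {K K' : Type*} [Field K] [NumberField K] [Field K'] [NumberField K'] [Algebra K K']
  {Φ : Frame K Unit} {Φ' : Frame K' (Fin 3)} {U : Subgroup (GfK K)} {U' : Subgroup (GfK K')}
  [Countable (Yf U)] [Countable (Yf U')]
  {σf : Yf U' → Yf U'} {k : PPKer} {k' : Fin 3 → PPKer} {f : HKer U} {f' : HKer U'}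
  {c : K} {hc : c ≠ 0}

/-- A class which is not a norm contributes nothing. -/
theorem exists_weight_vanish {w : Space Φ U → ℝ≥0∞}
    (hw : IsWeight PGL(2, K) (Space.measure Φ U) w) {H : Subgroup PGL(2, K)}
    (e : H ≃ classTorus c hc) (he : ∀ h, (e h : PGL(2, K)) = (h : PGL(2, K)))
    (hv : VanishesAt f c hc)
    (hint : ∀ ψ, IsWeight H (Space.measure Φ U) ψ → Integrable
      (fun x => (ψ x).toReal • diagKer (fun _ => k) f (classRep c hc) x) (Space.measure Φ U)) :
    ∃ ψ, IsWeight H (Space.measure Φ U) ψ ∧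
      ∫ x, (ψ x).toReal • diagKer (fun _ => k) f (classRep c hc) x ∂Space.measure Φ U = 0 := by
  obtain ⟨p, p₀, hp, -, hs, -, hf, -, hsum⟩ := hv
  obtain ⟨η, hη⟩ := exists_isWeight_subgroup hw (classTorus c hc)
  obtain ⟨ψ₀, hψ₀⟩ := exists_isWeight_subgroup hw H
  have hψ : IsWeight H (Space.measure Φ U) (pullWeight id p η ψ₀) :=
    isWeight_pullWeight e (fun h y => by rw [← he h]; exact hp (e h) y) measurable_id
      (Measure.QuasiMeasurePreserving.id _)
      (fun h x m => by
        rw [he]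
        generalize (h : PGL(2, K)) = t
        induction t using ProjGenLinGroup.induction_on with | mk g => rfl)
      hη hψ₀
  refine ⟨_, hψ, ?_⟩
  let G : (Unit → HSpace) → ℂ := fun τ =>
    ∏ i, k (τ i) ((classRep c hc • Space.mk (Φ := Φ) τ ((1 : GfK K) : Yf U)).pt i)
  refine (integral_pullWeight (G := G) (g := fun y => f y (classRep c hc • y)) hs hf
    (hint _ hψ)).trans ?_
  refine (tsum_congr fun m => ?_).trans tsum_zero
  rw [hsum m]
  simp

/-- A norm class contributes equally on both sides. -/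
theorem exists_weight_match (tw : CubicTwist Φ Φ') (hk : IsComposite3 k k')
    {w : Space Φ U → ℝ≥0∞} (hw : IsWeight PGL(2, K) (Space.measure Φ U) w)
    {w' : Space Φ' U' → ℝ≥0∞} (hw' : IsWeight PGL(2, K') (Space.measure Φ' U') w')
    {δ : PGL(2, K')} (hδ : twNorm (pglSigma tw.σ) δ = pglMap (algebraMap K K') (classRep c hc))
    {H : Subgroup PGL(2, K)} (e : H ≃ classTorus c hc)
    (he : ∀ h, (e h : PGL(2, K)) = (h : PGL(2, K)))
    {H' : Subgroup PGL(2, K')} (e' : H' ≃ classTorus c hc)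
    (he' : ∀ h, pglMap (algebraMap K K') (e' h : PGL(2, K)) = (h : PGL(2, K')))
    (hm : MatchesAt σf f f' c hc δ)
    (hint : ∀ ψ, IsWeight H (Space.measure Φ U) ψ → Integrable
      (fun x => (ψ x).toReal • diagKer (fun _ => k) f (classRep c hc) x) (Space.measure Φ U))
    (hint' : ∀ ψ, IsWeight H' (Space.measure Φ' U') ψ → Integrable
      (fun x => (ψ x).toReal • twDiag k' f' σf δ x) (Space.measure Φ' U')) :
    ∃ ψ ψ', IsWeight H (Space.measure Φ U) ψ ∧ IsWeight H' (Space.measure Φ' U') ψ' ∧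
      ∫ x, (ψ x).toReal • diagKer (fun _ => k) f (classRep c hc) x ∂Space.measure Φ U
        = ∫ x, (ψ' x).toReal • twDiag k' f' σf δ x ∂Space.measure Φ' U' := by
  obtain ⟨p, p', hp, hp', hs, hs', hf, hf', hsum⟩ := hm
  obtain ⟨η, hη⟩ := exists_isWeight_subgroup hw (classTorus c hc)
  obtain ⟨ψ₀, hψ₀⟩ := exists_isWeight_subgroup hw H
  obtain ⟨ψ₀', hψ₀'⟩ := exists_isWeight_subgroup hw' H'
  have hψ : IsWeight H (Space.measure Φ U) (pullWeight id p η ψ₀) :=
    isWeight_pullWeight e (fun h y => by rw [← he h]; exact hp (e h) y) measurable_id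
      (Measure.QuasiMeasurePreserving.id _)
      (fun h x m => by
        rw [he]
        generalize (h : PGL(2, K)) = t
        induction t using ProjGenLinGroup.induction_on with | mk g => rfl)
      hη hψ₀
  let a : (Fin 3 → HSpace) → (Unit → HSpace) := fun τ _ => τ 0
  have hψ' : IsWeight H' (Space.measure Φ' U') (pullWeight a p' η ψ₀') :=
    isWeight_pullWeight e' (fun h y => by rw [← he' h]; exact hp' (e' h) y)
      (measurable_pi_lambda _ fun _ => measurable_pi_apply 0)
      ((measurePreserving_funUnique HSpace.measure Unit).symm.quasiMeasurePreserving.comp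
        (Measure.quasiMeasurePreserving_eval _ 0))
      (fun h x m => by
        rw [← he']
        generalize (e' h : PGL(2, K)) = t
        induction t using ProjGenLinGroup.induction_on with
        | mk g =>
          refine congrArg₂ Space.mk (funext fun i => ?_) rfl
          exact congrArg (fun z => z • x.pt 0) (toInf_base tw g))
      hη hψ₀'
  refine ⟨_, _, hψ, hψ', ?_⟩
  -- representatives
  obtain ⟨g, rfl⟩ := ProjGenLinGroup.mk_surjective δ
  let g₀ : GL (Fin 2) K :=
    GeneralLinearGroup.mkOfDetNeZero (classMat c) (by rwa [det_classMat])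
  let G : (Unit → HSpace) → ℂ := fun τ => ∏ i, k (τ i) (Φ.toInf i g₀ • τ i)
  let G' : (Fin 3 → HSpace) → ℂ := fun τ => ∏ i, k' i (τ i) (Φ'.toInf i g • τ (i + 1))
  have hcls : classRep c hc = ProjGenLinGroup.mk g₀ := rfl
  have hd : ∀ x : Space Φ U, diagKer (fun _ => k) f (classRep c hc) x
      = (fun y => f y (classRep c hc • y)) x.fin * G x.pt := fun x => by
    simp only [hcls, diagKer_mk, G]
  have hd' : ∀ x : Space Φ' U', twDiag k' f' σf (ProjGenLinGroup.mk g) x
      = (fun y => f' y ((ProjGenLinGroup.mk g : PGL(2, K')) • σf y)) x.fin * G' x.pt :=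
    fun x => by simp only [twDiag_mk, G']
  have hint₁ := hint _ hψ
  have hint₂ := hint' _ hψ'
  simp only [hd] at hint₁
  simp only [hd'] at hint₂
  simp only [hd, hd']
  rw [integral_pullWeight (G := G) (g := fun y => f y (classRep c hc • y)) hs hf hint₁,
    integral_pullWeight (G := G')
      (g := fun y => f' y ((ProjGenLinGroup.mk g : PGL(2, K')) • σf y)) hs' hf' hint₂]
  refine Eq.symm (tsum_pullFactor_congr (U := U) (U₁ := U') (p := p') (a := a) (η := η)
    (G := G') (G₂ := G) (a₂ := id)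
    (g := fun y => f' y ((ProjGenLinGroup.mk g : PGL(2, K')) • σf y))
    (g₂ := fun y => f y (classRep c hc • y)) p (fun m => (hsum m).symm) fun m y hpy hy => ?_)
  have hint₃ := integrable_pullFactor (U := U) (U₁ := U') (a := a) (p := p') (η := η) (G := G')
    (g := fun y => f' y ((ProjGenLinGroup.mk g : PGL(2, K')) • σf y)) hint₂ hy hpy
  simp only [pullFactor, a, G, G', id_eq, Complex.real_smul] at hint₃ ⊢
  rw [integral_cyclic_three (fun i => Φ'.toInf i g) hk
    (fun b => (((η (Space.mk (fun _ => b) m)).toReal : ℝ) : ℂ)) hint₃]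
  rw [← (measurePreserving_funUnique HSpace.measure Unit).symm.integral_comp'
    (fun τ : Unit → HSpace => (((η (Space.mk τ m)).toReal : ℝ) : ℂ) *
      ∏ i, k (τ i) (Φ.toInf i g₀ • τ i))]
  refine integral_congr_ae (Filter.Eventually.of_forall fun b => ?_)
  simp only [Finset.univ_unique, Finset.prod_singleton, toInf_twNorm_smul tw hδ]
  rfl

end Class

section Main

variable {K K' : Type*} [Field K] [NumberField K] [Field K'] [NumberField K'] [Algebra K K']
  {Φ : Frame K Unit} {Φ' : Frame K' (Fin 3)} {U : Subgroup (GfK K)} {U' : Subgroup (GfK K')}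
  [Countable (Yf U)] [Countable (Yf U')]

theorem integrable_class {G X S : Type*} [Group G] [Countable G] [MulAction G X]
    [MeasurableSpace X] [MeasurableConstSMul G X] {μ : Measure X} [SMulInvariantMeasure G X μ]
    [MulAction G S] [Countable S] {w : X → ℝ≥0∞} {F : S → X → ℂ} (hw : IsWeight G μ w)
    (hF : IsInvariantKernel G F) (hm : ∀ t, Measurable (F t))
    (hfin : ∫⁻ x, w x * ∑' s : S, ‖F s x‖ₑ ∂μ ≠ ∞) (s : S) {ψ : X → ℝ≥0∞}
    (hψ : IsWeight (MulAction.stabilizer G s) μ ψ) :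
    Integrable (fun x => (ψ x).toReal • F s x) μ := by
  refine ⟨(hψ.1.ennreal_toReal.smul (hm s)).aestronglyMeasurable, ?_⟩
  have h := lintegral_orbit hw s hψ (hF.comp fun z => ‖z‖ₑ) fun t => (hm t).enorm
  have hle : ∫⁻ x, ψ x * ‖F s x‖ₑ ∂μ ≤ ∫⁻ x, w x * ∑' s : S, ‖F s x‖ₑ ∂μ := by
    rw [← h]
    refine lintegral_mono fun x => mul_le_mul_right ?_ _
    exact ENNReal.tsum_comp_le_tsum_of_injective Subtype.val_injective fun t => ‖F t x‖ₑ
  refine lt_of_le_of_lt (lintegral_mono fun x => ?_) (ne_top_of_le_ne_top hfin hle).lt_top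
  rw [enorm_smul, Real.enorm_eq_ofReal ENNReal.toReal_nonneg]
  exact mul_le_mul_left ENNReal.ofReal_toReal_le _

theorem mem_stabilizer_diagClassSet {C : Set K} {c : K} (hc : c ≠ 0) (s : DiagClassSet C)
    (hs : s.1 = classRep c hc) (g : PGL(2, K)) :
    g ∈ MulAction.stabilizer PGL(2, K) s ↔ g ∈ classTorus c hc := by
  rw [MulAction.mem_stabilizer_iff, mem_classTorus]
  have h : g • s = s ↔ g * s.1 * g⁻¹ = s.1 :=
    ⟨fun h => congrArg Subtype.val h, fun h => Subtype.ext h⟩
  rw [h, hs, mul_inv_eq_iff_eq_mul]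

theorem bijective_pglMap_torus (tw : CubicTwist Φ Φ') {C : Set K} {c : K} (hc : c ≠ 0)
    (δ : TwDiagClassSet tw C)
    (hδ : twNorm (pglSigma tw.σ) δ.1 = pglMap (algebraMap K K') (classRep c hc)) :
    ∃ e : MulAction.stabilizer PGL(2, K') δ ≃ classTorus c hc,
      ∀ h, pglMap (algebraMap K K') (e h : PGL(2, K)) = (h : PGL(2, K')) := by
  have hmem : ∀ g, g ∈ MulAction.stabilizer PGL(2, K') δ ↔
      ∃ γ : PGL(2, K), γ * classRep c hc = classRep c hc * γ ∧ pglMap (algebraMap K K') γ = g :=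
    fun g => Subtype.ext_iff.trans
      (twStabilizer_iff tw.σ tw.fixed tw.order_three hc hδ g)
  let F : classTorus c hc → MulAction.stabilizer PGL(2, K') δ := fun t =>
    ⟨pglMap (algebraMap K K') t.1, (hmem _).mpr ⟨t.1, mem_classTorus.mp t.2, rfl⟩⟩
  have hF : Function.Bijective F := by
    refine ⟨fun t t' h => Subtype.ext (pglMap_injective _ (congrArg Subtype.val h)), fun s => ?_⟩
    obtain ⟨γ, hγ, hs⟩ := (hmem _).mp s.2
    exact ⟨⟨γ, mem_classTorus.mpr hγ⟩, Subtype.ext hs⟩
  refine ⟨(Equiv.ofBijective F hF).symm, fun h => ?_⟩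
  exact congrArg Subtype.val ((Equiv.ofBijective F hF).apply_symm_apply h)

/-- **The two geometric sides agree.** -/
theorem geometric_eq (tw : CubicTwist Φ Φ') {σf : Yf U' → Yf U'} (hσf : IsTwistMap tw σf)
    {k : PPKer} {k' : Fin 3 → PPKer} (hk : IsComposite3 k k') {f : HKer U} {f' : HKer U'}
    {w : Space Φ U → ℝ≥0∞} (hw : IsWeight PGL(2, K) (Space.measure Φ U) w)
    {w' : Space Φ' U' → ℝ≥0∞} (hw' : IsWeight PGL(2, K') (Space.measure Φ' U') w')
    (C : Finset K) (hC : ∀ c ∈ C, c ≠ 0 ∧ c ≠ 4 ∧ ¬ IsSquare (c ^ 2 - 4 * c))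
    (hsupp : ∀ γ (x : Space Φ U), diagKer (fun _ => k) f γ x ≠ 0 → classInv γ ∈ C)
    (hsupp' : ∀ δ (x : Space Φ' U'), twDiag k' f' σf δ x ≠ 0 →
      ∃ c ∈ C, algebraMap K K' c = classInv (twNorm (pglSigma tw.σ) δ))
    (hfin : ∫⁻ x, w x * ∑' γ : PGL(2, K), ‖diagKer (fun _ => k) f γ x‖ₑ ∂Space.measure Φ U ≠ ∞)
    (hfin' : ∫⁻ x, w' x * ∑' δ : PGL(2, K'), ‖twDiag k' f' σf δ x‖ₑ
      ∂Space.measure Φ' U' ≠ ∞)
    (hmatch : ∀ c ∈ C, ∀ (hc : c ≠ 0) (δ : PGL(2, K')),
      twNorm (pglSigma tw.σ) δ = pglMap (algebraMap K K') (classRep c hc) →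
        MatchesAt σf f f' c hc δ)
    (hnone : ∀ c ∈ C, ∀ hc : c ≠ 0,
      (∀ δ, twNorm (pglSigma tw.σ) δ ≠ pglMap (algebraMap K K') (classRep c hc)) →
        VanishesAt f c hc) :
    ∫ x, ∑' γ : PGL(2, K), diagKer (fun _ => k) f γ x ∂(Space.measure Φ U).withDensity w
      = ∫ x, ∑' δ : PGL(2, K'), twDiag k' f' σf δ x
          ∂(Space.measure Φ' U').withDensity w' := by
  classical
  let S := DiagClassSet (C : Set K)
  let S' := TwDiagClassSet tw (C : Set K)
  let F : S → Space Φ U → ℂ := fun s => diagKer (fun _ => k) f s.1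
  let F' : S' → Space Φ' U' → ℂ := fun s => twDiag k' f' σf s.1
  have hFi : IsInvariantKernel PGL(2, K) F := fun g s x => diagKer_conj _ f g s.1 x
  have hFi' : IsInvariantKernel PGL(2, K') F' := fun g s x => twDiag_twConj hσf k' f' g s.1 x
  have hFm : ∀ s, Measurable (F s) := fun s => measurable_diagKer _ f s.1
  have hFm' : ∀ s, Measurable (F' s) := fun s => measurable_twDiag _ f' σf s.1
  have hsum : ∀ x, ∑' γ : PGL(2, K), diagKer (fun _ => k) f γ x = ∑' s : S, F s x := fun x =>
    (Subtype.val_injective.tsum_eq (g := Subtype.val)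
      (f := fun γ : PGL(2, K) => diagKer (fun _ => k) f γ x)
      fun γ hγ => ⟨⟨γ, hsupp γ x hγ⟩, rfl⟩).symm
  have hsum' : ∀ x, ∑' δ : PGL(2, K'), twDiag k' f' σf δ x = ∑' s : S', F' s x := fun x =>
    (Subtype.val_injective.tsum_eq (g := Subtype.val)
      (f := fun δ : PGL(2, K') => twDiag k' f' σf δ x) fun δ hδ => by
        obtain ⟨c, hcC, hcδ⟩ := hsupp' δ x hδ
        exact ⟨⟨δ, c, hcC, hcδ⟩, rfl⟩).symm
  have hfinS : ∫⁻ x, w x * ∑' s : S, ‖F s x‖ₑ ∂Space.measure Φ U ≠ ∞ :=
    ne_top_of_le_ne_top hfin (lintegral_mono fun x => mul_le_mul_right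
      (ENNReal.tsum_comp_le_tsum_of_injective Subtype.val_injective
        fun γ => ‖diagKer (fun _ => k) f γ x‖ₑ) _)
  have hfinS' : ∫⁻ x, w' x * ∑' s : S', ‖F' s x‖ₑ ∂Space.measure Φ' U' ≠ ∞ :=
    ne_top_of_le_ne_top hfin' (lintegral_mono fun x => mul_le_mul_right
      (ENNReal.tsum_comp_le_tsum_of_injective Subtype.val_injective
        fun δ => ‖twDiag k' f' σf δ x‖ₑ) _)
  simp only [hsum, hsum']
  -- representatives
  let hC0 : ∀ c : {x // x ∈ C}, (c : K) ≠ 0 := fun c => (hC c c.2).1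
  let rep : {x // x ∈ C} → S := fun c =>
    ⟨classRep c (hC0 c), by rw [classInv_classRep]; exact c.2⟩
  have hrep : Function.Bijective fun c =>
      (⟦rep c⟧ : MulAction.orbitRel.Quotient PGL(2, K) S) := by
    refine ⟨fun c d h => ?_, fun q => ?_⟩
    · obtain ⟨g, hg⟩ := Quotient.exact h
      have h1 := congrArg (fun s : S => classInv s.1) hg
      simp only at h1
      rw [show (g • rep d).1 = g * classRep (d : K) (hC0 d) * g⁻¹ from rfl, classInv_conj,
        classInv_classRep, show (rep c).1 = classRep (c : K) (hC0 c) from rfl, classInv_classRep] at h1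
      exact Subtype.ext h1.symm
    · induction q using Quotient.inductionOn with | h s => ?_
      obtain ⟨g, hg⟩ := isConj_iff.mp (isConj_classRep (hC0 ⟨_, s.2⟩) (hC _ s.2).2.1
        (rfl : classInv s.1 = classInv s.1))
      exact ⟨⟨_, s.2⟩, Quotient.sound ⟨g, Subtype.ext hg⟩⟩
  let I := {c : {x // x ∈ C} //
    ∃ δ, twNorm (pglSigma tw.σ) δ = pglMap (algebraMap K K') (classRep c (hC0 c))}
  let rep' : I → S' := fun i => ⟨i.2.choose, i.1.1, i.1.2, by
    rw [i.2.choose_spec, classInv_pglMap, classInv_classRep]⟩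
  have hrep' : Function.Bijective fun i =>
      (⟦rep' i⟧ : MulAction.orbitRel.Quotient PGL(2, K') S') := by
    refine ⟨fun i j h => ?_, fun q => ?_⟩
    · obtain ⟨g, hg⟩ := Quotient.exact h
      have h1 := congrArg (fun s : S' => classInv (twNorm (pglSigma tw.σ) s.1)) hg
      simp only at h1
      rw [show (g • rep' j).1 = twConj (pglSigma tw.σ) g (rep' j).1 from rfl,
        twNorm_twConj _ (pglSigma_cube tw.σ tw.order_three), classInv_conj] at h1
      simp only [rep'] at h1
      rw [j.2.choose_spec, i.2.choose_spec, classInv_pglMap, classInv_pglMap, classInv_classRep,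
        classInv_classRep] at h1
      exact Subtype.ext (Subtype.ext ((algebraMap K K').injective h1).symm)
    · induction q using Quotient.inductionOn with | h s => ?_
      obtain ⟨c, hcC, hcs⟩ := s.2
      obtain ⟨hc0, hc4, hns⟩ := hC c hcC
      obtain ⟨g, hg⟩ := exists_twConj_norm_eq tw.σ tw.order_three hc0 hc4 hcs.symm
      let i : I := ⟨⟨c, hcC⟩, _, hg⟩
      have hi : classInv (twNorm (pglSigma tw.σ) (rep' i).1) = algebraMap K K' c := by
        simp only [rep']
        rw [i.2.choose_spec, classInv_pglMap, classInv_classRep]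
      obtain ⟨g', hg'⟩ := exists_twConj_eq tw.σ tw.fixed tw.sigma_ne_one tw.order_three
        hc0 hc4 hns hcs.symm hi
      exact ⟨i, Quotient.sound ⟨g', Subtype.ext hg'⟩⟩
  -- class by class
  have hclass : ∀ c : {x // x ∈ C}, ∃ ψ,
      IsWeight (MulAction.stabilizer PGL(2, K) (rep c)) (Space.measure Φ U) ψ ∧
      ∀ (hex : ∃ δ, twNorm (pglSigma tw.σ) δ = pglMap (algebraMap K K') (classRep c (hC0 c))),
        ∃ ψ', IsWeight (MulAction.stabilizer PGL(2, K') (rep' ⟨c, hex⟩)) (Space.measure Φ' U') ψ' ∧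
          ∫ x, (ψ x).toReal • F (rep c) x ∂Space.measure Φ U
            = ∫ x, (ψ' x).toReal • F' (rep' ⟨c, hex⟩) x ∂Space.measure Φ' U' := by
    intro c
    let e : MulAction.stabilizer PGL(2, K) (rep c) ≃ classTorus (c : K) (hC0 c) :=
      Equiv.subtypeEquivRight fun g => mem_stabilizer_diagClassSet (hC0 c) (rep c) rfl g
    have hint := fun ψ hψ => integrable_class hw hFi hFm hfinS (rep c) (ψ := ψ) hψ
    by_cases hex : ∃ δ, twNorm (pglSigma tw.σ) δ = pglMap (algebraMap K K') (classRep c (hC0 c))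
    · obtain ⟨e', he'⟩ := bijective_pglMap_torus tw (hC0 c) (rep' ⟨c, hex⟩) hex.choose_spec
      obtain ⟨ψ, ψ', hψ, hψ', heq⟩ := exists_weight_match (σf := σf) tw hk hw hw' hex.choose_spec
        e (fun _ => rfl) e' he' (hmatch c c.2 (hC0 c) _ hex.choose_spec) hint
        fun ψ hψ => integrable_class hw' hFi' hFm' hfinS' (rep' ⟨c, hex⟩) hψ
      exact ⟨ψ, hψ, fun _ => ⟨ψ', hψ', heq⟩⟩
    · obtain ⟨ψ, hψ⟩ := exists_isWeight_subgroup hw (MulAction.stabilizer PGL(2, K) (rep c))
      exact ⟨ψ, hψ, fun h => absurd h hex⟩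
  have hzero : ∀ c : {x // x ∈ C},
      (¬ ∃ δ, twNorm (pglSigma tw.σ) δ = pglMap (algebraMap K K') (classRep c (hC0 c))) →
      ∃ ψ, IsWeight (MulAction.stabilizer PGL(2, K) (rep c)) (Space.measure Φ U) ψ ∧
        ∫ x, (ψ x).toReal • F (rep c) x ∂Space.measure Φ U = 0 := fun c hex => by
    let e : MulAction.stabilizer PGL(2, K) (rep c) ≃ classTorus (c : K) (hC0 c) :=
      Equiv.subtypeEquivRight fun g => mem_stabilizer_diagClassSet (hC0 c) (rep c) rfl g
    exact exists_weight_vanish hw e (fun _ => rfl)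
      (hnone c c.2 (hC0 c) (not_exists.mp hex))
      fun ψ hψ => integrable_class hw hFi hFm hfinS (rep c) hψ
  let hexP : {x // x ∈ C} → Prop := fun c =>
    ∃ δ, twNorm (pglSigma tw.σ) δ = pglMap (algebraMap K K') (classRep c (hC0 c))
  let ψ : {x // x ∈ C} → Space Φ U → ℝ≥0∞ := fun c =>
    if h : hexP c then (hclass c).choose else (hzero c h).choose
  let ψ' : I → Space Φ' U' → ℝ≥0∞ := fun i => ((hclass i.1).choose_spec.2 i.2).choose
  have hψ : ∀ c, IsWeight (MulAction.stabilizer PGL(2, K) (rep c)) (Space.measure Φ U) (ψ c) :=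
    fun c => by
      by_cases h : hexP c
      · simp only [ψ, dif_pos h]; exact (hclass c).choose_spec.1
      · simp only [ψ, dif_neg h]; exact (hzero c h).choose_spec.1
  obtain ⟨-, h1⟩ := integral_unfold_complex hw hFi hFm hfinS rep hrep ψ hψ
  obtain ⟨-, h2⟩ := integral_unfold_complex hw' hFi' hFm' hfinS' rep' hrep' ψ' fun i =>
    ((hclass i.1).choose_spec.2 i.2).choose_spec.1
  rw [h1, h2]
  have hterm : ∀ i : I, ∫ x, (ψ' i x).toReal • F' (rep' i) x ∂Space.measure Φ' U'
      = ∫ x, (ψ i.1 x).toReal • F (rep i.1) x ∂Space.measure Φ U := fun i => by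
    simp only [ψ, dif_pos (show hexP i.1 from i.2)]
    exact ((hclass i.1).choose_spec.2 i.2).choose_spec.2.symm
  rw [tsum_congr hterm]
  symm
  refine Subtype.val_injective.tsum_eq (g := Subtype.val)
    (f := fun c => ∫ x, (ψ c x).toReal • F (rep c) x ∂Space.measure Φ U) fun c hc => ?_
  by_cases h : hexP c
  · exact ⟨⟨c, h⟩, rfl⟩
  · refine absurd ?_ hc
    simp only [ψ, dif_neg h]
    exact (hzero c h).choose_spec.2

end Main

end Fermat.Agent.LT.Descent

end
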