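import Fermat.Agent.LT.Descent.TensorCover
import Fermat.Agent.LT.Descent.Geometric
import Fermat.Agent.LT.Tame.PlaceInstances
import Fermat.Agent.LT.Inert.PlaceInstances

/-!
# Almost every place is trivial

For a fixed class `c` and a fixed `δ` with twisted norm its representative, almost every place is
split or inert, with maximal levels, identity matrices and integral elements; there the diagonal
functions match base point to base point.  Hence `MatchesAt` follows from a match at every place.
-/

set_option autoImplicit false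
set_option linter.unusedSectionVars false

noncomputable section

namespace Fermat.Agent.LT.Descent

open IsDedekindDomain IsDedekindDomain.HeightOneSpectrum Matrix NumberField Filter Function
open Fermat.Agent.LT.Adelic Fermat.Agent.LT.Tame Fermat.Agent.LT.Aleph Fermat.Agent.LT.Geom
open scoped MatrixGroups

variable {K K' : Type*} [Field K] [NumberField K] [Field K'] [NumberField K'] [Algebra K K']
  {σ : K' ≃ₐ[K] K'}

/-- At a split place the isomorphism of completions carries the maximal compact onto the maximal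
compact. -/
theorem map_localFull_emb {v : HeightOneSpectrum (𝓞 K)} {w : HeightOneSpectrum (𝓞 K')}
    (P : SplitPlace σ v w) :
    (localFull K v).map (GeneralLinearGroup.map P.emb) = localFull K' w := by
  refine le_antisymm ?_ fun γ hγ => ?_
  · rintro _ ⟨g, hg, rfl⟩
    intro i j
    rw [← map_inv]
    exact ⟨(P.emb_mem_integers_iff _).2 (hg i j).1, (P.emb_mem_integers_iff _).2 (hg i j).2⟩
  · have he : ∀ M : GL (Fin 2) (w.adicCompletion K'), GeneralLinearGroup.map P.emb
        (GeneralLinearGroup.map P.embEquiv.symm.toRingHom M) = M := fun M =>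
      Units.ext (Matrix.ext fun i j => P.embEquiv.apply_symm_apply _)
    refine ⟨GeneralLinearGroup.map P.embEquiv.symm.toRingHom γ, fun i j => ?_, he γ⟩
    rw [← map_inv]
    constructor <;> refine (P.emb_mem_integers_iff _).1 ?_
    · show P.emb (P.embEquiv.symm ((γ : Matrix (Fin 2) (Fin 2) (w.adicCompletion K')) i j)) ∈ _
      rw [← SplitPlace.embEquiv_apply, RingEquiv.apply_symm_apply]
      exact (hγ i j).1
    · show P.emb (P.embEquiv.symm
        (((γ⁻¹ : GL (Fin 2) (w.adicCompletion K')) : Matrix (Fin 2) (Fin 2) _) i j)) ∈ _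
      rw [← SplitPlace.embEquiv_apply, RingEquiv.apply_symm_apply]
      exact (hγ i j).2

variable {V : ∀ v : HeightOneSpectrum (𝓞 K), Subgroup (GL (Fin 2) (v.adicCompletion K))}
  {V' : ∀ w : HeightOneSpectrum (𝓞 K'), Subgroup (GL (Fin 2) (w.adicCompletion K'))}

/-- The representative of a class with unit invariant is integral, with unit lower left entry. -/
theorem exists_classRep_integral {c : K} (hc : c ≠ 0) {v : HeightOneSpectrum (𝓞 K)}
    (hv : Valued.v (algebraMap K (v.adicCompletion K) c) = 1) :
    ∃ (M : Inert.Mat (v.adicCompletionIntegers K)) (hM : IsUnit M.det),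
      IsUnit (M 1 0) ∧ M.trace ≠ 0 ∧
      pglMap (algebraMap K (v.adicCompletion K)) (classRep c hc) =
        Inert.toL (v.adicCompletion K) M hM.ne_zero := by
  let cI : v.adicCompletionIntegers K := ⟨algebraMap K (v.adicCompletion K) c, hv.le⟩
  have hcI : IsUnit cI := by
    refine IsUnit.of_mul_eq_one
      (⟨algebraMap K (v.adicCompletion K) c⁻¹, by
        show Valued.v (algebraMap K (v.adicCompletion K) c⁻¹) ≤ 1
        rw [map_inv₀, map_inv₀, hv, inv_one]⟩ : v.adicCompletionIntegers K) (Subtype.ext ?_)
    show algebraMap K (v.adicCompletion K) c * algebraMap K (v.adicCompletion K) c⁻¹ = 1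
    rw [← map_mul, mul_inv_cancel₀ hc, map_one]
  refine ⟨classMat cI, by rwa [det_classMat], by simp [classMat], ?_, ?_⟩
  · rw [trace_classMat]
    exact hcI.ne_zero
  · rw [classRep, pglMap_mk, Inert.toL]
    refine congrArg ProjGenLinGroup.mk (Units.ext (Matrix.ext fun i j => ?_))
    fin_cases i <;> fin_cases j <;> simp [classMat, cI]

/-- **Almost every place matches base point to base point.** -/
theorem eventually_baseMatchesAtPlace (hgen : Places.IsCubicGen σ) (hV : IsLocalLevel V)
    (hV' : IsLocalLevel V')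
    (hσ : ∀ w, ∀ g ∈ V' (placePerm σ.toRingEquiv w), GeneralLinearGroup.map
      (completionEquiv σ.toRingEquiv (valuation_apply_placePerm σ.toRingEquiv w)).toRingHom g
        ∈ V' w)
    (k : KerFamily V) (k' : KerFamily V') {c : K} (hc : c ≠ 0) {δ : PGL(2, K')}
    (hN : Geom.twNorm (pglSigma σ) δ = pglMap (algebraMap K K') (classRep c hc)) :
    ∀ᶠ v in cofinite, BaseMatchesAtPlace (isPlaceCover_placeUnder hgen) σ hσ k k'
      (classRep c hc) δ v := by
  have h3 : ∀ᶠ v : HeightOneSpectrum (𝓞 K) in cofinite, (3 : 𝓞 K) ∉ v.asIdeal := by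
    refine (eventually_valued_eq_one (L := K) (x := 3) (by norm_num)).mono fun v hv hmem => ?_
    have h := (v.valuation_lt_one_iff_mem (K := K) (3 : 𝓞 K)).2 hmem
    rw [algebraMap_adicCompletion, Function.comp_apply, Algebra.algebraMap_self, RingHom.id_apply,
      adicCompletion.valued_coe] at hv
    refine lt_irrefl _ (lt_of_eq_of_lt ?_ h)
    refine hv.symm.trans (congrArg _ ?_)
    norm_cast
  have htame : ∀ᶠ v in cofinite, v ∉ Places.tamePlaces σ :=
    (Places.finite_tamePlaces hgen).eventually_cofinite_notMem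
  have hup : ∀ᶠ v in cofinite, ∀ w, placeUnder K w = v → V' w = localFull K' w ∧
      k'.ker w = LKer.one _ _ ∧
      pglMap (algebraMap K' (w.adicCompletion K')) δ ∈ (V' w).map ProjGenLinGroup.mk :=
    eventually_forall_fibre (hV'.eventually_eq.and (k'.eventually_one.and (hV'.eventually_mem δ)))
  refine ((((h3.and htame).and (hV.eventually_eq.and k.eventually_one)).and hup).and
    (eventually_valued_eq_one hc)).mono fun v hv => ?_
  obtain ⟨⟨⟨⟨hv3, hvt⟩, hVv, hkv⟩, hfib⟩, hcv⟩ := hv
  obtain ⟨w, hw⟩ := Places.exists_isAbove (K' := K') v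
  have hwv : placeUnder K w = v := placeUnder_eq_iff.2 hw
  rcases Places.trichotomy hgen v hv3 with h | h | h
  · exact absurd h hvt
  · obtain ⟨M, hM, hM10, htr, hγ⟩ := exists_classRep_integral hc hcv
    obtain ⟨hVw, hk'w, hδw⟩ := hfib w hwv
    exact (Inert.inertPlace_of_isInert hgen h hw).baseMatchesAtPlace (isPlaceCover_placeUnder hgen)
      hσ (Inert.fibre_iff_of_isInert (isPlaceCover_placeUnder hgen) hgen h hwv)
      (hVv ▸ Inert.isUnimodularLevel_localFull v)
      (hVw ▸ Inert.isUnimodularLevel_localFull w)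
      hkv hk'w hN hM hM10 htr hγ hδw
  · have P : SplitPlace σ v w := ⟨hgen.order_three, hgen.fixed, hw, h w hw⟩
    refine P.baseMatchesAtPlace (isPlaceCover_placeUnder hgen) hσ
      (SplitPlace.isSplitLevel_of_map fun u Q => ?_) (placeUnder_eq_iff_orbit hgen hw) hkv
      (fun u hu => (hfib u hu).2.1) (fun u hu => (hfib u hu).2.2) hN
    rw [(hfib u (placeUnder_eq_iff.2 Q.above)).1, hVv, map_localFull_emb Q]

variable {Φ : Frame K Unit} {Φ' : Frame K' (Fin 3)}

theorem CubicTwist.isCubicGen (tw : CubicTwist Φ Φ') : Places.IsCubicGen tw.σ :=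
  ⟨tw.sigma_ne_one, tw.order_three, tw.fixed⟩

/-- **`MatchesAt` from a match at every place.** -/
theorem matchesAt_of_places (tw : CubicTwist Φ Φ') (hV : IsLocalLevel V) (hV' : IsLocalLevel V')
    (hσ : ∀ w, ∀ g ∈ V' (placePerm tw.σ.toRingEquiv w), GeneralLinearGroup.map
      (completionEquiv tw.σ.toRingEquiv (valuation_apply_placePerm tw.σ.toRingEquiv w)).toRingHom g
        ∈ V' w)
    (k : KerFamily V) (k' : KerFamily V') {c : K} (hc : c ≠ 0) {δ : PGL(2, K')}
    (hN : Geom.twNorm (pglSigma tw.σ) δ = pglMap (algebraMap K K') (classRep c hc))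
    (hall : ∀ v, MatchesAtPlace (isPlaceCover_placeUnder tw.isCubicGen) tw.σ hσ k k'
      (classRep c hc) δ v) :
    MatchesAt (yfAut tw.σ.toRingEquiv (isStableLevel_productLevel _ hσ)) (k.toHKer hV)
      (k'.toHKer hV') c hc δ :=
  matchesAt_of_local tw hV hV' (isPlaceCover_placeUnder tw.isCubicGen) hσ k k' c hc δ hall
    (eventually_baseMatchesAtPlace tw.isCubicGen hV hV' hσ k k' hc hN)

end Fermat.Agent.LT.Descent

end
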