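import Fermat.Agent.LT.Descent.Tensor
import Mathlib.Algebra.Algebra.Basic
import Mathlib.Algebra.Module.Basic

/-!
# The algebra of local invariant matrices

Invariant matrices with finite rows and columns form a `ℂ`-algebra under composition.  Real
entries, symmetry and equality along an equivariant bijection are compatible with the operations.
-/

set_option autoImplicit false
set_option linter.unusedSectionVars false

noncomputable section

namespace Fermat.Agent.LT.Descent

open Function ComplexConjugate

namespace LKer

variable {G X : Type*} [Group G] [MulAction G X]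

instance instAdd : Add (LKer G X) :=
  ⟨fun f g =>
    { toFun := fun a c => f a c + g a c
      smul' := fun γ a c => by simp only [f.smul', g.smul']
      finite_row := fun a => ((f.finite_row a).union (g.finite_row a)).subset
        (support_add _ _)
      finite_col := fun c => ((f.finite_col c).union (g.finite_col c)).subset
        (support_add _ _) }⟩

instance instZero : Zero (LKer G X) :=
  ⟨{ toFun := fun _ _ => 0
     smul' := fun _ _ _ => rfl
     finite_row := fun _ => by simp
     finite_col := fun _ => by simp }⟩

instance instSMulComplex : SMul ℂ (LKer G X) :=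
  ⟨fun r f =>
    { toFun := fun a c => r * f a c
      smul' := fun γ a c => by simp only [f.smul']
      finite_row := fun a => (f.finite_row a).subset fun c hc => right_ne_zero_of_mul hc
      finite_col := fun c => (f.finite_col c).subset fun a ha => right_ne_zero_of_mul ha }⟩

instance instNeg : Neg (LKer G X) := ⟨fun f => (-1 : ℂ) • f⟩

@[simp] theorem add_apply (f g : LKer G X) (a c : X) : (f + g) a c = f a c + g a c := rfl

@[simp] theorem zero_apply (a c : X) : (0 : LKer G X) a c = 0 := rfl

@[simp] theorem smul_apply (r : ℂ) (f : LKer G X) (a c : X) : (r • f) a c = r * f a c := rfl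

@[simp] theorem neg_apply (f : LKer G X) (a c : X) : (-f) a c = -f a c := neg_one_mul _

instance instAddCommGroup : AddCommGroup (LKer G X) where
  add_assoc _ _ _ := ext' fun _ _ => add_assoc _ _ _
  zero_add _ := ext' fun _ _ => zero_add _
  add_zero _ := ext' fun _ _ => add_zero _
  add_comm _ _ := ext' fun _ _ => add_comm _ _
  neg_add_cancel f := ext' fun a c => by simp
  nsmul := nsmulRec
  zsmul := zsmulRec

@[simp] theorem sub_apply (f g : LKer G X) (a c : X) : (f - g) a c = f a c - g a c := by
  rw [sub_eq_add_neg, add_apply, neg_apply, sub_eq_add_neg]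

instance instModule : Module ℂ (LKer G X) where
  one_smul _ := ext' fun _ _ => one_mul _
  mul_smul _ _ _ := ext' fun _ _ => mul_assoc _ _ _
  smul_add _ _ _ := ext' fun _ _ => mul_add _ _ _
  add_smul _ _ _ := ext' fun _ _ => add_mul _ _ _
  smul_zero _ := ext' fun _ _ => mul_zero _
  zero_smul _ := ext' fun _ _ => zero_mul _

theorem finite_support_mul (f : LKer G X) (a : X) (g : X → ℂ) :
    (support fun c => f a c * g c).Finite :=
  (f.finite_row a).subset fun _ hc => left_ne_zero_of_mul hc

theorem comp_apply (f g : LKer G X) (a d : X) : (f.comp g) a d = ∑ᶠ c, f a c * g c d := rfl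

theorem add_comp (f g h : LKer G X) : (f + g).comp h = f.comp h + g.comp h := ext' fun a d => by
  simp only [comp_apply, add_apply, add_mul]
  exact finsum_add_distrib (finite_support_mul f a _) (finite_support_mul g a _)

theorem comp_add (f g h : LKer G X) : f.comp (g + h) = f.comp g + f.comp h := ext' fun a d => by
  simp only [comp_apply, add_apply, mul_add]
  exact finsum_add_distrib (finite_support_mul f a _) (finite_support_mul f a _)

theorem smul_comp (r : ℂ) (f g : LKer G X) : (r • f).comp g = r • f.comp g := ext' fun a d => by
  simp only [comp_apply, smul_apply, mul_assoc]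
  exact (mul_finsum _ _).symm

theorem comp_smul (r : ℂ) (f g : LKer G X) : f.comp (r • g) = r • f.comp g := ext' fun a d => by
  simp only [comp_apply, smul_apply]
  rw [mul_finsum]
  exact finsum_congr fun c => by ring

theorem zero_comp (f : LKer G X) : (0 : LKer G X).comp f = 0 := ext' fun a d => by
  simp [comp_apply]

theorem comp_zero (f : LKer G X) : f.comp (0 : LKer G X) = 0 := ext' fun a d => by
  simp [comp_apply]

theorem comp_assoc (f g h : LKer G X) : (f.comp g).comp h = f.comp (g.comp h) := by
  classical
  refine ext' fun a e => ?_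
  set S := (f.finite_row a).toFinset
  set T := (h.finite_col e).toFinset
  have hS : ∀ φ : X → ℂ, ∑ᶠ c, f a c * φ c = ∑ c ∈ S, f a c * φ c := fun φ =>
    finsum_eq_sum_of_support_subset _ fun c hc =>
      Finset.mem_coe.2 ((Set.Finite.mem_toFinset _).2 (left_ne_zero_of_mul hc))
  have hT : ∀ φ : X → ℂ, ∑ᶠ d, φ d * h d e = ∑ d ∈ T, φ d * h d e := fun φ =>
    finsum_eq_sum_of_support_subset _ fun d hd =>
      Finset.mem_coe.2 ((Set.Finite.mem_toFinset _).2 (right_ne_zero_of_mul hd))
  simp only [comp_apply]
  rw [hT, hS]
  simp only [hS, hT, Finset.sum_mul, Finset.mul_sum]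
  rw [Finset.sum_comm]
  exact Finset.sum_congr rfl fun c _ => Finset.sum_congr rfl fun d _ => mul_assoc _ _ _

instance instRing : Ring (LKer G X) :=
  { instAddCommGroup with
    mul := comp
    one := one G X
    mul_assoc := comp_assoc
    one_mul := one_comp
    mul_one := comp_one
    left_distrib := comp_add
    right_distrib := add_comp
    zero_mul := zero_comp
    mul_zero := comp_zero }

theorem mul_def (f g : LKer G X) : f * g = f.comp g := rfl

theorem one_def : (1 : LKer G X) = one G X := rfl

instance instAlgebra : Algebra ℂ (LKer G X) := Algebra.ofModule smul_comp comp_smul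

theorem sum_apply {ι : Type*} (s : Finset ι) (f : ι → LKer G X) (a c : X) :
    (∑ i ∈ s, f i) a c = ∑ i ∈ s, f i a c := by
  classical
  induction s using Finset.induction_on with
  | empty => simp
  | insert i s hi ih => rw [Finset.sum_insert hi, Finset.sum_insert hi, add_apply, ih]

theorem transpose_add (f g : LKer G X) : (f + g).transpose = f.transpose + g.transpose := rfl

theorem transpose_smul (r : ℂ) (f : LKer G X) : (r • f).transpose = r • f.transpose := rfl

theorem transpose_sub (f g : LKer G X) : (f - g).transpose = f.transpose - g.transpose :=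
  ext' fun a c => by
    show (f - g) c a = _
    rw [sub_apply, sub_apply]
    rfl

theorem transpose_mul (f g : LKer G X) : (f * g).transpose = g.transpose * f.transpose :=
  transpose_comp f g

theorem transpose_pow (f : LKer G X) : ∀ n : ℕ, (f ^ n).transpose = f.transpose ^ n
  | 0 => transpose_one
  | n + 1 => by rw [pow_succ, transpose_mul, transpose_pow f n, pow_succ']

/-- All entries are real. -/
def IsReal (f : LKer G X) : Prop := ∀ a c, conj (f a c) = f a c

theorem isReal_one : IsReal (1 : LKer G X) := fun a c => by
  by_cases h : a = c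
  · subst h; rw [one_def, one_apply_self, map_one]
  · rw [one_def, one_apply_ne h, map_zero]

theorem IsReal.add {f g : LKer G X} (hf : IsReal f) (hg : IsReal g) : IsReal (f + g) :=
  fun a c => by rw [add_apply, map_add, hf, hg]

theorem IsReal.smul {f : LKer G X} (hf : IsReal f) {r : ℂ} (hr : conj r = r) : IsReal (r • f) :=
  fun a c => by rw [smul_apply, map_mul, hr, hf]

theorem IsReal.sub {f g : LKer G X} (hf : IsReal f) (hg : IsReal g) : IsReal (f - g) :=
  fun a c => by rw [sub_apply, map_sub, hf, hg]

theorem IsReal.mul {f g : LKer G X} (hf : IsReal f) (hg : IsReal g) : IsReal (f * g) :=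
  fun a d => by
  rw [mul_def, comp_apply, map_finsum (starRingEnd ℂ) (finite_support_mul f a _)]
  exact finsum_congr fun c => by rw [map_mul, hf, hg]

theorem IsReal.pow {f : LKer G X} (hf : IsReal f) : ∀ n : ℕ, IsReal (f ^ n)
  | 0 => isReal_one
  | n + 1 => by rw [pow_succ]; exact (hf.pow n).mul hf

theorem IsReal.conj_apply_symm {f : LKer G X} (hf : IsReal f) (hs : f.transpose = f) (a c : X) :
    conj (f c a) = f a c := by
  rw [hf]
  exact congrArg (fun k : LKer G X => k a c) hs

section Carried

variable {G' X' : Type*} [Group G'] [MulAction G' X'] (Ψ : X ≃ X')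

/-- `Ψ` carries `f` to `f'`. -/
def Carries (f : LKer G X) (f' : LKer G' X') : Prop := ∀ a c, f' (Ψ a) (Ψ c) = f a c

variable {Ψ}

theorem carries_one : Carries Ψ (1 : LKer G X) (1 : LKer G' X') := fun a c => by
  by_cases h : a = c
  · subst h; rw [one_def, one_def, one_apply_self, one_apply_self]
  · rw [one_def, one_def, one_apply_ne h, one_apply_ne (Ψ.injective.ne h)]

theorem Carries.add {f g : LKer G X} {f' g' : LKer G' X'} (hf : Carries Ψ f f')
    (hg : Carries Ψ g g') : Carries Ψ (f + g) (f' + g') := fun a c => by
  rw [add_apply, add_apply, hf, hg]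

theorem Carries.sub {f g : LKer G X} {f' g' : LKer G' X'} (hf : Carries Ψ f f')
    (hg : Carries Ψ g g') : Carries Ψ (f - g) (f' - g') := fun a c => by
  rw [sub_apply, sub_apply, hf, hg]

theorem Carries.smul {f : LKer G X} {f' : LKer G' X'} (hf : Carries Ψ f f') (r : ℂ) :
    Carries Ψ (r • f) (r • f') := fun a c => by
  rw [smul_apply, smul_apply, hf]

theorem Carries.mul {f g : LKer G X} {f' g' : LKer G' X'} (hf : Carries Ψ f f')
    (hg : Carries Ψ g g') : Carries Ψ (f * g) (f' * g') := fun a d => by
  rw [mul_def, mul_def, comp_apply, comp_apply, ← finsum_comp_equiv Ψ]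
  exact finsum_congr fun c => by rw [hf, hg]

theorem Carries.pow {f : LKer G X} {f' : LKer G' X'} (hf : Carries Ψ f f') :
    ∀ n : ℕ, Carries Ψ (f ^ n) (f' ^ n)
  | 0 => carries_one
  | n + 1 => by rw [pow_succ, pow_succ]; exact (hf.pow n).mul hf

end Carried

end LKer

end Fermat.Agent.LT.Descent
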