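import Fermat.Agent.LT.Descent.TestPair
import Fermat.Agent.LT.Descent.TensorEventually
import Fermat.Agent.LT.Descent.NoNorm
import Fermat.Agent.LT.Tame.PlaceInstances
import Fermat.Agent.LT.Tame.SplitPull
import Fermat.Agent.LT.Inert.HeckeMul

/-!
# Locally matched test pairs

A pair of families of local matrices is matched at a place when it is trivial at a tame one, a
base change at an inert one and a product of three at a split one; matched pairs transfer classes,
and the property passes to compositions.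
-/

set_option autoImplicit false

noncomputable section

namespace Fermat.Agent.LT.Descent

open IsDedekindDomain IsDedekindDomain.HeightOneSpectrum NumberField Matrix IsLocalRing Polynomial
open Fermat.Agent.LT.Adelic Fermat.Agent.LT.Tame Fermat.Agent.LT.Geom Fermat.Agent.LT.Inert
open Fermat.Agent.LT.Descent.Places
open scoped MatrixGroups

variable {K : Type*} [Field K] [NumberField K] {K' : Type*} [Field K'] [NumberField K']
  [Algebra K K'] {Φ : Frame K Unit} {Φ' : Frame K' (Fin 3)} {tw : CubicTwist Φ Φ'}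

namespace DescentData

variable (D : DescentData tw)

theorem mem_lev'_tame_iff {v : HeightOneSpectrum (𝓞 K)} {w : HeightOneSpectrum (𝓞 K')}
    (h : IsAbove v w) : w ∈ D.lev'.tame ↔ v ∈ D.lev.tame := by
  constructor
  · rintro ⟨v', hv', hw⟩
    rwa [isAbove_unique h hw]
  · exact fun hv => ⟨v, hv, h⟩

theorem mem_lev'_aux_iff {v : HeightOneSpectrum (𝓞 K)} {w : HeightOneSpectrum (𝓞 K')}
    (h : IsAbove v w) : w ∈ D.lev'.aux ↔ v ∈ D.lev.aux := by
  constructor
  · rintro ⟨v', hv', hw⟩
    rwa [isAbove_unique h hw]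
  · exact fun hv => ⟨v, hv, h⟩

/-- Over a split place the levels are the level below. -/
theorem isSplitLevel {v : HeightOneSpectrum (𝓞 K)} (h : IsSplit tw.σ v) :
    SplitPlace.IsSplitLevel tw.σ v D.lev.loc D.lev'.loc :=
  have ht : v ∉ D.lev.tame := fun hv => not_isSplit_of_mem_tamePlaces D.gen hv h
  SplitPlace.isSplitLevel_loc D.lev D.lev' rfl (fun _ => ht)
    (fun _ Q _ => mt (D.mem_lev'_tame_iff Q.above).1 ht) fun _ Q => D.mem_lev'_aux_iff Q.above

/-- At an inert place both levels are maximal. -/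
theorem loc_inert {v : HeightOneSpectrum (𝓞 K)} {w : HeightOneSpectrum (𝓞 K')}
    (h : IsInert tw.σ v) (hw : IsAbove v w) :
    D.lev.loc v = localFull K v ∧ D.lev'.loc w = localFull K' w := by
  have h3 : (3 : 𝓞 K) ∉ v.asIdeal := fun h' => h.not_isSplit (D.three_split v h')
  have ht : v ∉ D.lev.tame := fun hv => not_isInert_of_mem_tamePlaces D.gen hv h
  have ha : v ∉ D.lev.aux := fun hv => h.not_isSplit (Set.mem_singleton_iff.1 hv ▸ D.u_split)
  refine ⟨D.lev.loc_of_good h3 ht ha, D.lev'.loc_of_good (fun h' => h3 ((hw 3).1 ?_))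
    (mt (D.mem_lev'_tame_iff hw).1 ht) (mt (D.mem_lev'_aux_iff hw).1 ha)⟩
  rwa [map_ofNat]

/-- The matrices are the identity at `v` and over it. -/
def IsTrivialAt (k : KerFamily D.lev.loc) (k' : KerFamily D.lev'.loc)
    (v : HeightOneSpectrum (𝓞 K)) : Prop :=
  k.ker v = 1 ∧ ∀ w, IsAbove v w → k'.ker w = 1

/-- The matrices correspond at `v`. -/
structure IsMatchedAt (k : KerFamily D.lev.loc) (k' : KerFamily D.lev'.loc)
    (v : HeightOneSpectrum (𝓞 K)) : Prop where
  tame : v ∈ tamePlaces tw.σ → D.IsTrivialAt k k' v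
  inert : IsInert tw.σ v → ∀ w (P : InertPlace tw.σ v w),
    ∃ (hH₀ : IsUnimodularLevel (v.adicCompletionIntegers K)
        ((D.lev.loc v).map ProjGenLinGroup.mk))
      (hH : IsUnimodularLevel (w.adicCompletionIntegers K')
        ((D.lev'.loc w).map ProjGenLinGroup.mk))
      (p : ℂ[X]),
      k.ker v = radKer P.cubic.baseData hH₀ (heckePoly (resCard (v.adicCompletionIntegers K))
        (p.comp (X ^ 3 - C (3 * resCard (v.adicCompletionIntegers K) : ℂ) * X))) ∧
      k'.ker w = radKer P.cubic.treeData hH (heckePoly (resCard (w.adicCompletionIntegers K')) p)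
  split : ∀ h : IsSplit tw.σ v, ∃ (w : HeightOneSpectrum (𝓞 K')) (P : SplitPlace tw.σ v w),
    k.ker v = P.pullKer (D.isSplitLevel h) (k'.ker w) *
      (P.next.pullKer (D.isSplitLevel h) (k'.ker _) *
        P.next.next.pullKer (D.isSplitLevel h) (k'.ker _))

/-- The matrices correspond at every place. -/
def IsLocallyMatched (k : KerFamily D.lev.loc) (k' : KerFamily D.lev'.loc) : Prop :=
  ∀ v, D.IsMatchedAt k k' v

variable {D} {k m : KerFamily D.lev.loc} {k' m' : KerFamily D.lev'.loc}

/-- Trivial matrices correspond. -/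
theorem IsTrivialAt.isMatchedAt {v : HeightOneSpectrum (𝓞 K)} (h : D.IsTrivialAt k k' v) :
    D.IsMatchedAt k k' v where
  tame _ := h
  inert hi w P := by
    obtain ⟨l, l'⟩ := D.loc_inert hi P.above
    refine ⟨isUnimodularLevel_of_eq l, isUnimodularLevel_of_eq l', 1, ?_, ?_⟩
    · rw [Polynomial.one_comp, heckePoly_one, radKer_single_zero]
      exact h.1
    · rw [heckePoly_one, radKer_single_zero]
      exact h.2 w P.above
  split hs := by
    obtain ⟨w, hw⟩ := exists_isAbove (K' := K') v
    have P : SplitPlace tw.σ v w := ⟨D.gen.order_three, D.gen.fixed, hw, hs w hw⟩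
    refine ⟨w, P, ?_⟩
    rw [h.1, h.2 _ hw, h.2 _ P.next.above, h.2 _ P.next.next.above, P.pullKer_one,
      P.next.pullKer_one, P.next.next.pullKer_one, one_mul, one_mul]

theorem isLocallyMatched_one :
    D.IsLocallyMatched (KerFamily.one D.lev.loc) (KerFamily.one D.lev'.loc) :=
  fun _ => IsTrivialAt.isMatchedAt ⟨rfl, fun _ _ => rfl⟩

variable (D) in
/-- All matrices of the two families over a split place commute with each other below. -/
def CommutesAt (k' m' : KerFamily D.lev'.loc) (v : HeightOneSpectrum (𝓞 K)) : Prop :=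
  ∀ h : IsSplit tw.σ v,
    {l | ∃ (w : HeightOneSpectrum (𝓞 K')) (P : SplitPlace tw.σ v w),
      l = P.pullKer (D.isSplitLevel h) (k'.ker w) ∨
        l = P.pullKer (D.isSplitLevel h) (m'.ker w)}.Pairwise Commute

theorem mul_mul_mul_comm3 {M : Type*} [Monoid M] {a₀ a₁ a₂ b₀ b₁ b₂ : M} (h₁ : Commute b₀ a₁)
    (h₂ : Commute b₀ a₂) (h₃ : Commute b₁ a₂) :
    a₀ * b₀ * (a₁ * b₁ * (a₂ * b₂)) = a₀ * (a₁ * a₂) * (b₀ * (b₁ * b₂)) := by
  calc a₀ * b₀ * (a₁ * b₁ * (a₂ * b₂))
      = a₀ * (b₀ * a₁) * (b₁ * a₂) * b₂ := by simp only [mul_assoc]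
    _ = a₀ * a₁ * (b₀ * a₂) * b₁ * b₂ := by rw [h₁.eq, h₃.eq]; simp only [mul_assoc]
    _ = a₀ * (a₁ * a₂) * (b₀ * (b₁ * b₂)) := by rw [h₂.eq]; simp only [mul_assoc]

/-- **Compositions of matched pairs are matched.** -/
theorem IsMatchedAt.comp {v : HeightOneSpectrum (𝓞 K)} (hk : D.IsMatchedAt k k' v)
    (hm : D.IsMatchedAt m m' v)
    (hc : D.IsTrivialAt k k' v ∨ D.IsTrivialAt m m' v ∨ D.CommutesAt k' m' v) :
    D.IsMatchedAt (k.comp m) (k'.comp m') v where
  tame ht := by
    refine ⟨?_, fun w hw => ?_⟩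
    · show k.ker v * m.ker v = 1
      rw [(hk.tame ht).1, (hm.tame ht).1, one_mul]
    · show k'.ker w * m'.ker w = 1
      rw [(hk.tame ht).2 w hw, (hm.tame ht).2 w hw, one_mul]
  inert hi w P := by
    obtain ⟨hH₀, hH, p, e, e'⟩ := hk.inert hi w P
    obtain ⟨_, _, q, f, f'⟩ := hm.inert hi w P
    refine ⟨hH₀, hH, p * q, ?_, ?_⟩
    · show k.ker v * m.ker v = _
      rw [e, f, Polynomial.mul_comp, radKer_heckePoly_mul]
    · show k'.ker w * m'.ker w = _
      rw [e', f', radKer_heckePoly_mul]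
  split h := by
    obtain ⟨w, P, e⟩ := hk.split h
    obtain ⟨w₀, P₀, f⟩ := hm.split h
    rcases hc with hc | hc | hc
    · refine ⟨w₀, P₀, ?_⟩
      show k.ker v * m.ker v = P₀.pullKer _ (k'.ker _ * m'.ker _) *
        (P₀.next.pullKer _ (k'.ker _ * m'.ker _) * P₀.next.next.pullKer _ (k'.ker _ * m'.ker _))
      rw [hc.1, hc.2 _ P₀.above, hc.2 _ P₀.next.above, hc.2 _ P₀.next.next.above, one_mul, one_mul,
        one_mul, one_mul, f]
    · refine ⟨w, P, ?_⟩
      show k.ker v * m.ker v = P.pullKer _ (k'.ker _ * m'.ker _) *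
        (P.next.pullKer _ (k'.ker _ * m'.ker _) * P.next.next.pullKer _ (k'.ker _ * m'.ker _))
      rw [hc.1, hc.2 _ P.above, hc.2 _ P.next.above, hc.2 _ P.next.next.above, mul_one, mul_one,
        mul_one, mul_one, e]
    · refine ⟨w, P, ?_⟩
      set hS := D.isSplitLevel h
      have hcm : ∀ {a b : LKer PGL(2, v.adicCompletion K) (LocY D.lev.loc v)},
          (∃ (u : HeightOneSpectrum (𝓞 K')) (Q : SplitPlace tw.σ v u),
            a = Q.pullKer hS (k'.ker u) ∨ a = Q.pullKer hS (m'.ker u)) →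
          (∃ (u : HeightOneSpectrum (𝓞 K')) (Q : SplitPlace tw.σ v u),
            b = Q.pullKer hS (k'.ker u) ∨ b = Q.pullKer hS (m'.ker u)) → Commute a b :=
        fun {a b} ha hb => by
          rcases eq_or_ne a b with rfl | hab
          · exact Commute.refl a
          · exact hc h ha hb hab
      have key : ∀ (u : HeightOneSpectrum (𝓞 K')) (Q : SplitPlace tw.σ v u), u = w →
          Q.pullKer hS (m'.ker u) = P.pullKer hS (m'.ker w) := by
        rintro u Q rfl
        rfl
      have hrot : m.ker v = P.pullKer hS (m'.ker w) *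
          (P.next.pullKer hS (m'.ker _) * P.next.next.pullKer hS (m'.ker _)) := by
        rw [f]
        rcases eq_or_eq_of_isAbove D.gen P.above P₀.above with h0 | h0 | h0 <;> subst h0
        · rfl
        · rw [key _ P₀.next.next (placePerm_cube D.gen w)]
          rw [← mul_assoc]
          exact ((hcm ⟨_, P, Or.inr rfl⟩ ⟨_, P.next, Or.inr rfl⟩).mul_right
            (hcm ⟨_, P, Or.inr rfl⟩ ⟨_, P.next.next, Or.inr rfl⟩)).eq.symm
        · rw [key _ P₀.next (placePerm_cube D.gen w),
            show P₀.next.next.pullKer hS (m'.ker _) = P.next.pullKer hS (m'.ker _) from ?_]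
          · exact ((hcm ⟨_, P.next.next, Or.inr rfl⟩ ⟨_, P, Or.inr rfl⟩).mul_right
              (hcm ⟨_, P.next.next, Or.inr rfl⟩ ⟨_, P.next, Or.inr rfl⟩)).eq.trans (mul_assoc _ _ _)
          · have key' : ∀ (u : HeightOneSpectrum (𝓞 K')) (Q : SplitPlace tw.σ v u),
                u = placePerm tw.σ.toRingEquiv w →
                  Q.pullKer hS (m'.ker u) = P.next.pullKer hS (m'.ker _) := by
              rintro u Q rfl
              rfl
            exact key' _ P₀.next.next (congrArg _ (placePerm_cube D.gen w))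
      show k.ker v * m.ker v = P.pullKer hS (k'.ker _ * m'.ker _) *
        (P.next.pullKer hS (k'.ker _ * m'.ker _) * P.next.next.pullKer hS (k'.ker _ * m'.ker _))
      rw [e, hrot, SplitPlace.pullKer_mul, SplitPlace.pullKer_mul, SplitPlace.pullKer_mul,
        mul_mul_mul_comm3 (hcm ⟨_, P, Or.inr rfl⟩ ⟨_, P.next, Or.inl rfl⟩)
          (hcm ⟨_, P, Or.inr rfl⟩ ⟨_, P.next.next, Or.inl rfl⟩)
          (hcm ⟨_, P.next, Or.inr rfl⟩ ⟨_, P.next.next, Or.inl rfl⟩)]

theorem IsLocallyMatched.comp (hk : D.IsLocallyMatched k k') (hm : D.IsLocallyMatched m m')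
    (hc : ∀ v, IsSplit tw.σ v →
      D.IsTrivialAt k k' v ∨ D.IsTrivialAt m m' v ∨ D.CommutesAt k' m' v) :
    D.IsLocallyMatched (k.comp m) (k'.comp m') := fun v => by
  by_cases h : IsSplit tw.σ v
  · exact (hk v).comp (hm v) (hc v h)
  · exact (hk v).comp (hm v) (Or.inr (Or.inr fun h' => absurd h' h))

/-- **Locally matched pairs transfer classes.** -/
theorem IsLocallyMatched.transfers {t : D.TestPair} (hk : D.IsLocallyMatched t.fam t.fam') :
    TransfersClasses tw D.sigmaY t.ker t.ker' := by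
  obtain ⟨ζ, hζ⟩ := D.exists_cubeRoot
  have hzeta : ζ ^ 2 + ζ + 1 = 0 := by
    have h0 : (ζ - 1) * (ζ ^ 2 + ζ + 1) = 0 := by linear_combination hζ.pow_eq_one
    exact (mul_eq_zero.1 h0).resolve_left (sub_ne_zero.2 (hζ.ne_one (by norm_num)))
  have htameLevel : ∀ {v : HeightOneSpectrum (𝓞 K)}, v ∈ tamePlaces tw.σ →
      (D.lev.loc v).map ProjGenLinGroup.mk =
        Tame.levelOf (v.adicCompletion K) (Tame.torus (D.a v)) := fun {v} hv => by
    rw [D.lev.loc_of_tame hv.1 hv, map_torusLevel]
    rfl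
  refine ⟨fun c hc he δ hN => ?_, fun c hc he hno => ?_⟩
  · have h1 : classRep c hc ≠ 1 := fun h => by
      have h' := congrArg classInv h
      rw [classInv_classRep, ← map_one (ProjGenLinGroup.mk (n := Fin 2) (R := K)), classInv_mk] at h'
      refine he.2.1 (h'.trans ?_)
      norm_num [matInv, Matrix.trace_fin_two]
    refine matchesAt_of_places tw D.isLocal D.isLocal' D.stable t.fam t.fam' hc hN fun v => ?_
    have hπ := isPlaceCover_placeUnder D.gen
    have hsplit : IsSplit tw.σ v → MatchesAtPlace hπ tw.σ D.stable t.fam t.fam'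
        (classRep c hc) δ v := fun h => by
      obtain ⟨w, P, e⟩ := (hk v).split h
      exact P.matchesAtPlace hπ D.stable (D.isSplitLevel h)
        (fun u => placeUnder_eq_iff_orbit D.gen P.above u) e
        (fun _ _ => rfl) (fun _ _ => rfl) (fun _ _ => rfl) hN
    by_cases hv3 : (3 : 𝓞 K) ∈ v.asIdeal
    · exact hsplit (D.three_split v hv3)
    obtain ⟨w, hw⟩ := exists_isAbove (K' := K') v
    rcases trichotomy D.gen v hv3 with h | h | h
    · have P := tamePlace D.gen h hw
      refine P.matchesAtPlace hπ D.stable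
        (fun u => placeUnder_eq_iff_fixed D.gen hw P.placePerm_eq u) (D.a_spec v h)
        (D.absNorm_mod_three hv3) (htameLevel h) ?_ ((hk v).tame h).1 (((hk v).tame h).2 w hw)
        (by rw [classInv_classRep]; exact hc) (by rw [classInv_classRep]; exact he.2.1) hN
      rw [D.lev'.loc_of_tame P.three_notMem' ⟨v, h, hw⟩, map_torusLevel,
        show D.lev'.a w = D.a' w from rfl, D.a'_eq v h w P]
    · have P := inertPlace_of_isInert D.gen h hw
      obtain ⟨hH₀, hH, p, e, e'⟩ := (hk v).inert h w P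
      exact P.matchesAtPlace hπ D.stable
        (fibre_iff_of_isInert hπ D.gen h (placeUnder_eq_iff.2 hw)) hH₀ hH
        (isBaseChange_heckePoly P.resCard_cube p) e e' h1 (by rw [classInv_classRep]; exact hc) hN
    · exact hsplit h
  · obtain ⟨v, w, hw, hcase, hloc⟩ :=
      exists_tame_or_inert_not_isLocalNorm D.gen hzeta D.three_split hc he.2.2 hno
    refine vanishesAt_of_local D.isLocal t.fam c hc v ?_
    rcases hcase with h | h
    · exact tame_vanishesAtPlace (tamePlace D.gen h hw) (D.a_spec v h)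
        (D.absNorm_mod_three h.1) (htameLevel h) ((hk v).tame h).1 hloc
    · have P := inertPlace_of_isInert D.gen h hw
      obtain ⟨hH₀, _, p, e, -⟩ := (hk v).inert h w P
      exact P.vanishesAtPlace hH₀ (isBaseChange_heckePoly P.resCard_cube p) e
        (by rw [classInv_classRep]; exact hc)
        (twNorm_ne_of_not_isLocalNorm tw.σ hloc (Tame.continuous_completionEquiv _ _) P.aut_coe
          P.emb_coe)

end DescentData

end Fermat.Agent.LT.Descent

end
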