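import Fermat.Agent.LT.Descent.TestOperator
import Fermat.Agent.LT.Tame.SpaceAut

/-!
# The twist on cusp classes

A bijection of `Yf U'` over the generator moves points upstairs; the composition with it preserves
the quotient integral of invariant functions and the cusp condition, hence gives an isometry
`twistOp` of the cusp space, intertwining test operators with twisted data.
-/

set_option autoImplicit false

noncomputable section

namespace Fermat.Agent.LT.Descent

open Fermat.Agent.LT.Adelic Fermat.Agent.LT.Geom Fermat.Agent.LT.Spectral MeasureTheory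
  NumberField IsDedekindDomain Filter Matrix
open scoped MatrixGroups ENNReal Topology InnerProductSpace

variable {K K' : Type*} [Field K] [NumberField K] [Field K'] [NumberField K'] [Algebra K K']
  {Φ : Frame K Unit} {Φ' : Frame K' (Fin 3)} {U' : Subgroup (GfK K')}
  {tw : CubicTwist Φ Φ'} {σf : Yf U' → Yf U'}

theorem invariant_comp_twistPt {α : Type*} (h : IsTwistMap tw σf) {φ : Space Φ' U' → α}
    (hinv : ∀ (g : PGL(2, K')) x, φ (g • x) = φ x) (g : PGL(2, K')) (x : Space Φ' U') :
    φ (twistPt σf (g • x)) = φ (twistPt σf x) := by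
  rw [twistPt_smul h, hinv]

theorem twistPt_cube (h3 : ∀ y, σf (σf (σf y)) = y) (x : Space Φ' U') :
    twistPt σf (twistPt σf (twistPt σf x)) = x := by
  have e : ∀ i : Fin 3, i + 1 + 1 + 1 = i := by decide
  calc twistPt σf (twistPt σf (twistPt σf x))
      = Space.mk (fun i => x.pt (i + 1 + 1 + 1)) (σf (σf (σf x.fin))) := rfl
    _ = x := by simp only [e, h3]; exact Space.mk_pt_fin x

/-- The cyclic shift of coordinates. -/
def coordShift (α : Type*) [MeasurableSpace α] : (Fin 3 → α) ≃ᵐ (Fin 3 → α) :=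
  MeasurableEquiv.arrowCongr' (Equiv.addRight (1 : Fin 3)).symm (MeasurableEquiv.refl α)

theorem coordShift_apply {α : Type*} [MeasurableSpace α] (z : Fin 3 → α) (i : Fin 3) :
    coordShift α z i = z (i + 1) := rfl

theorem measurePreserving_coordShift {α : Type*} [MeasureSpace α]
    [SigmaFinite (volume : Measure α)] :
    MeasurePreserving (coordShift α) (volume : Measure (Fin 3 → α)) volume :=
  measurePreserving_arrowCongr' (fun _ => volume) (fun _ => volume)
    (Equiv.addRight (1 : Fin 3)).symm (MeasurableEquiv.refl α) (fun _ => MeasurePreserving.id _)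

theorem slice_comp_twistPt {α : Type*} (φ : Space Φ' U' → α) (σ' : Yf U' → Yf U') (y : Yf U')
    (z : Fin 3 → ℂ) (r : Fin 3 → ℝ) :
    slice (fun x => φ (twistPt σ' x)) y (z, r)
      = slice φ (σ' y) (coordShift ℂ z, coordShift ℝ r) := rfl

theorem setAverage_coordShift {R : ℝ} (hR : 0 ≤ R) (g : (Fin 3 → ℂ) → ℂ) :
    ⨍ z in Metric.closedBall (0 : Fin 3 → ℂ) R, g (coordShift ℂ z)
      = ⨍ z in Metric.closedBall (0 : Fin 3 → ℂ) R, g z := by
  have hpre : coordShift ℂ ⁻¹' Metric.closedBall (0 : Fin 3 → ℂ) R = Metric.closedBall 0 R := by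
    ext z
    simp only [Set.mem_preimage, mem_closedBall_zero_iff, pi_norm_le_iff_of_nonneg hR,
      coordShift_apply]
    exact ⟨fun hz i => by simpa using hz (i - 1), fun hz i => hz (i + 1)⟩
  rw [setAverage_eq, setAverage_eq]
  conv_lhs => rw [← hpre, measurePreserving_coordShift.setIntegral_preimage_emb
    (coordShift ℂ).measurableEmbedding g, hpre]

variable [Countable (Yf U')]

theorem measurePreserving_twistPt (hb : Function.Bijective σf) :
    MeasurePreserving (twistPt (Φ' := Φ') σf) (Space.measure Φ' U') (Space.measure Φ' U') :=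
  Tame.measurePreserving_twistPt (Equiv.ofBijective σf hb)

theorem measurable_twistPt : Measurable (twistPt (Φ' := Φ') σf) :=
  Tame.measurable_twistPt σf

variable {D : QuotData Φ' U'}

/-- The twist preserves the quotient integral of invariant functions. -/
theorem lintegral_twistPt_quot (h : IsTwistMap tw σf) (hb : Function.Bijective σf)
    {f : Space Φ' U' → ℝ≥0∞} (hf : Measurable f) (hinv : ∀ (g : PGL(2, K')) x, f (g • x) = f x) :
    ∫⁻ x, f (twistPt σf x) ∂D.ν = ∫⁻ x, f x ∂D.ν := by
  have hT := measurePreserving_twistPt (Φ' := Φ') hb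
  have hG : Measurable fun x => D.w x * f x := D.isWeight.1.mul hf
  rw [lintegral_withDensity_eq_lintegral_mul _ D.isWeight.1 (g := fun x => f (twistPt σf x))
      (hf.comp hT.measurable), lintegral_withDensity_eq_lintegral_mul _ D.isWeight.1 hf]
  simp only [Pi.mul_apply]
  rw [← hT.lintegral_comp hG,
    ← lintegral_weight_mul_tsum (G := PGL(2, K')) D.isWeight (F := fun x => D.w (twistPt σf x) *
      f (twistPt σf x)) (hG.comp hT.measurable)]
  refine lintegral_congr_ae ((hT.quasiMeasurePreserving.ae D.isWeight.2).mono fun x hx => ?_)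
  simp only [twistPt_smul h, hinv]
  rw [show (∑' g, D.w (pglSigma tw.σ g • twistPt σf x) * f (twistPt σf x)) = _ from
    (pglSigma tw.σ).toEquiv.tsum_eq fun g => D.w (g • twistPt σf x) * f (twistPt σf x),
    ENNReal.tsum_mul_right, hx, one_mul]

theorem eLpNorm_comp_twistPt (h : IsTwistMap tw σf) (hb : Function.Bijective σf)
    {φ : Space Φ' U' → ℂ} (hφ : Measurable φ) (hinv : ∀ (g : PGL(2, K')) x, φ (g • x) = φ x) :
    eLpNorm (fun x => φ (twistPt σf x)) 2 D.ν = eLpNorm φ 2 D.ν := by
  rw [eLpNorm_eq_lintegral_rpow_enorm_toReal (by norm_num) ENNReal.ofNat_ne_top,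
    eLpNorm_eq_lintegral_rpow_enorm_toReal (by norm_num) ENNReal.ofNat_ne_top,
    lintegral_twistPt_quot h hb (f := fun x => ‖φ x‖ₑ ^ ENNReal.toReal 2)
      (hφ.enorm.pow_const _) fun g x => by rw [hinv]]

theorem memLp_comp_twistPt (h : IsTwistMap tw σf) (hb : Function.Bijective σf)
    {φ : Space Φ' U' → ℂ} (hφ : Measurable φ) (hinv : ∀ (g : PGL(2, K')) x, φ (g • x) = φ x)
    (h2 : MemLp φ 2 D.ν) : MemLp (fun x => φ (twistPt σf x)) 2 D.ν :=
  ⟨(hφ.comp measurable_twistPt).aestronglyMeasurable,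
    (eLpNorm_comp_twistPt h hb hφ hinv).trans_lt h2.eLpNorm_lt_top⟩

/-- Invariant functions agreeing on the quotient agree there after the twist. -/
theorem ae_eq_comp_twistPt (hb : Function.Bijective σf) {φ ψ : Space Φ' U' → ℂ}
    (hφi : ∀ (g : PGL(2, K')) x, φ (g • x) = φ x) (hψi : ∀ (g : PGL(2, K')) x, ψ (g • x) = ψ x)
    (he : φ =ᵐ[D.ν] ψ) :
    (fun x => φ (twistPt σf x)) =ᵐ[D.ν] fun x => ψ (twistPt σf x) :=
  quotMeasure_absolutelyContinuous.ae_le ((measurePreserving_twistPt hb).quasiMeasurePreserving.ae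
    (ae_of_ae_quotMeasure (G := PGL(2, K')) D.isWeight (fun g x hx => by rwa [hφi, hψi] at hx) he))

/-- The twist preserves the cusp condition. -/
theorem isCuspidalFn_twist (h : IsTwistMap tw σf) (hb : Function.Bijective σf)
    {φ : Space Φ' U' → ℂ} (hφ : Measurable φ) (hinv : ∀ (g : PGL(2, K')) x, φ (g • x) = φ x)
    (h2 : MemLp φ 2 D.ν) (hc : IsCuspidalFn φ) : IsCuspidalFn fun x => φ (twistPt σf x) := by
  intro y d hd
  obtain ⟨d', hd'⟩ := exists_period D.level (σf y)
  filter_upwards [ae_integrableOn_slice (hφ.comp measurable_twistPt)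
      (invariant_comp_twistPt h hinv) (memLp_comp_twistPt h hb hφ hinv h2) y hd.ne_zero,
    (measurePreserving_coordShift (α := ℝ)).quasiMeasurePreserving.ae (hc (σf y) d' hd'),
    (measurePreserving_coordShift (α := ℝ)).quasiMeasurePreserving.ae
      (ae_integrableOn_slice hφ hinv h2 (σf y) hd'.ne_zero)] with r hi h0 hi' hpos
  have hpos' : ∀ i, 0 < coordShift ℝ r i := fun i => hpos (i + 1)
  refine (setIntegral_eq_zero_iff_tendsto_mean (hφ.comp measurable_twistPt)
    (invariant_comp_twistPt h hinv) hd (hi hpos)).mpr ?_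
  refine ((setIntegral_eq_zero_iff_tendsto_mean hφ hinv hd' (hi' hpos')).mp
    (h0 hpos')).congr' ((eventually_ge_atTop 0).mono fun R hR => ?_)
  exact (setAverage_coordShift hR fun z => slice φ (σf y) (z, coordShift ℝ r)).symm

variable (D)

/-- The twist of a cusp class, by any invariant representative. -/
theorem exists_twist (h : IsTwistMap tw σf) (hb : Function.Bijective σf) (e : cuspClasses D) :
    ∃ e' : cuspClasses D, ∀ φ : Space Φ' U' → ℂ, (∀ (g : PGL(2, K')) x, φ (g • x) = φ x) →
      (e : Lp ℂ 2 D.ν) =ᵐ[D.ν] φ →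
        (e' : Lp ℂ 2 D.ν) =ᵐ[D.ν] fun x => φ (twistPt σf x) := by
  obtain ⟨φ₀, hm, hi, hc, he⟩ := e.2
  have h2 := (Lp.memLp (e : Lp ℂ 2 D.ν)).ae_eq he
  have h2' := memLp_comp_twistPt h hb hm hi h2
  refine ⟨⟨h2'.toLp _, ⟨_, hm.comp measurable_twistPt, invariant_comp_twistPt h hi,
    isCuspidalFn_twist h hb hm hi h2 hc, h2'.coeFn_toLp⟩⟩, fun φ hφi hφ => ?_⟩
  exact h2'.coeFn_toLp.trans (ae_eq_comp_twistPt hb hi hφi (he.symm.trans hφ))

/-- The linear map underlying `twistOp`. -/
def twistLin (h : IsTwistMap tw σf) (hb : Function.Bijective σf) :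
    cuspClasses D →ₗ[ℂ] cuspClasses D where
  toFun e := (exists_twist D h hb e).choose
  map_add' a b := by
    obtain ⟨φ, -, hφ, -, ha⟩ := a.2
    obtain ⟨ψ, -, hψ, -, hb'⟩ := b.2
    refine Subtype.ext (Lp.ext (((exists_twist D h hb (a + b)).choose_spec (φ + ψ)
      (fun g x => by simp only [Pi.add_apply, hφ, hψ])
      ((Lp.coeFn_add _ _).trans (ha.add hb'))).trans ?_))
    exact (((exists_twist D h hb a).choose_spec φ hφ ha).add
      ((exists_twist D h hb b).choose_spec ψ hψ hb')).symm.trans (Lp.coeFn_add _ _).symm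
  map_smul' c a := by
    obtain ⟨φ, -, hφ, -, ha⟩ := a.2
    refine Subtype.ext (Lp.ext (((exists_twist D h hb (c • a)).choose_spec (c • φ)
      (fun g x => by simp only [Pi.smul_apply, hφ])
      ((Lp.coeFn_smul _ _).trans (ha.const_smul c))).trans ?_))
    exact (((exists_twist D h hb a).choose_spec φ hφ ha).const_smul c).symm.trans
      (Lp.coeFn_smul _ _).symm

theorem norm_twistLin (h : IsTwistMap tw σf) (hb : Function.Bijective σf) (e : cuspClasses D) :
    ‖twistLin D h hb e‖ = ‖e‖ := by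
  obtain ⟨φ, hm, hi, -, he⟩ := e.2
  show ‖(twistLin D h hb e : Lp ℂ 2 D.ν)‖ = ‖(e : Lp ℂ 2 D.ν)‖
  rw [Lp.norm_def, Lp.norm_def]
  exact congrArg ENNReal.toReal
    ((eLpNorm_congr_ae ((exists_twist D h hb e).choose_spec φ hi he)).trans
      ((eLpNorm_comp_twistPt h hb hm hi).trans (eLpNorm_congr_ae he.symm)))

variable {D}

/-- **The twist on cusp classes.** -/
def twistOp (D : QuotData Φ' U') (tw : CubicTwist Φ Φ') (σf : Yf U' → Yf U')
    (h : IsTwistMap tw σf) (hb : Function.Bijective σf) :
    cuspClasses D →L[ℂ] cuspClasses D :=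
  (twistLin D h hb).mkContinuous 1 fun e => by rw [norm_twistLin D h hb e, one_mul]

theorem norm_twistOp (h : IsTwistMap tw σf) (hb : Function.Bijective σf) (e : cuspClasses D) :
    ‖twistOp D tw σf h hb e‖ = ‖e‖ :=
  norm_twistLin D h hb e

theorem inner_twistOp (h : IsTwistMap tw σf) (hb : Function.Bijective σf) (a b : cuspClasses D) :
    ⟪twistOp D tw σf h hb a, twistOp D tw σf h hb b⟫_ℂ = ⟪a, b⟫_ℂ :=
  ({ toLinearMap := twistLin D h hb, norm_map' := norm_twistLin D h hb } :
    cuspClasses D →ₗᵢ[ℂ] cuspClasses D).inner_map_map a b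

theorem coeFn_twistOp (h : IsTwistMap tw σf) (hb : Function.Bijective σf) {e : cuspClasses D}
    {φ : Space Φ' U' → ℂ} (hinv : ∀ (g : PGL(2, K')) x, φ (g • x) = φ x)
    (he : (e : Lp ℂ 2 D.ν) =ᵐ[D.ν] φ) :
    (twistOp D tw σf h hb e : Lp ℂ 2 D.ν) =ᵐ[D.ν] fun x => φ (twistPt σf x) :=
  (exists_twist D h hb e).choose_spec φ hinv he

/-- The twist has order three with the bijection. -/
theorem twistOp_cube (h : IsTwistMap tw σf) (hb : Function.Bijective σf)
    (h3 : ∀ y, σf (σf (σf y)) = y) :
    twistOp D tw σf h hb * twistOp D tw σf h hb * twistOp D tw σf h hb = 1 := by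
  refine ContinuousLinearMap.ext fun e => Subtype.ext (Lp.ext ?_)
  obtain ⟨φ, -, hi, -, he⟩ := e.2
  have h1 := coeFn_twistOp h hb hi he
  have h2 := coeFn_twistOp h hb (invariant_comp_twistPt h hi) h1
  have hi1 := invariant_comp_twistPt h (φ := φ) hi
  have hi2 := invariant_comp_twistPt h (φ := fun x => φ (twistPt σf x)) hi1
  refine (coeFn_twistOp h hb (φ := fun x => φ (twistPt σf (twistPt σf x))) hi2 h2).trans ?_
  exact EventuallyEq.trans (Eventually.of_forall fun x => congrArg φ (twistPt_cube h3 x)) he.symm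

omit [Countable (Yf U')] in
theorem testKernel_twistPt (k : Fin 3 → PPKer) {f f' : HKer U'}
    (hf : ∀ y z, f' y z = f (σf y) (σf z)) (x y : Space Φ' U') :
    testKernel k f (twistPt σf x) (twistPt σf y) = testKernel (fun i => k (i - 1)) f' x y := by
  simp only [testKernel, twistPt, Space.fin_mk, Space.pt_mk, hf]
  congr 1
  rw [← Equiv.prod_comp (Equiv.addRight (1 : Fin 3)) fun i => k (i - 1) (x.pt i) (y.pt i)]
  simp

theorem testOp_twistPt (hb : Function.Bijective σf) (k : Fin 3 → PPKer) {f f' : HKer U'}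
    (hf : ∀ y z, f' y z = f (σf y) (σf z)) {φ : Space Φ' U' → ℂ} (hφ : Measurable φ)
    (x : Space Φ' U') :
    testOp k f φ (twistPt σf x)
      = testOp (fun i => k (i - 1)) f' (fun y => φ (twistPt σf y)) x := by
  have hT := measurePreserving_twistPt (Φ' := Φ') hb
  have hm : Measurable fun y => testKernel k f (twistPt σf x) y * φ y :=
    (measurable_testKernel_comp k f (a := fun _ => twistPt σf x) measurable_const
      measurable_id).mul hφ
  simp only [testOp, ← testKernel_twistPt k hf]
  conv_lhs => rw [← hT.map_eq, integral_map hT.measurable.aemeasurable hm.aestronglyMeasurable]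

/-- The twist intertwines test operators with twisted data. -/
theorem twistOp_comp_cuspOp (h : IsTwistMap tw σf) (hb : Function.Bijective σf)
    (k : Fin 3 → PPKer) {f f' : HKer U'} (hf : ∀ y z, f' y z = f (σf y) (σf z)) :
    (twistOp D tw σf h hb).comp (cuspOp D k f)
      = (cuspOp D (fun i => k (i - 1)) f').comp (twistOp D tw σf h hb) := by
  refine ContinuousLinearMap.ext fun e => Subtype.ext (Lp.ext ?_)
  obtain ⟨φ, hm, hi, -, he⟩ := e.2
  have hi' : ∀ (g : PGL(2, K')) x, testOp k f φ (g • x) = testOp k f φ x :=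
    (isInvariant_iff_pgl _).mp (isInvariant_testOp k f ((isInvariant_iff_pgl φ).mpr hi))
  refine (coeFn_twistOp h hb hi' (coeFn_cuspOp k f hm hi he)).trans
    (EventuallyEq.trans ?_ (coeFn_cuspOp _ _ (hm.comp measurable_twistPt)
      (invariant_comp_twistPt h hi) (coeFn_twistOp h hb hi he)).symm)
  exact Eventually.of_forall fun x => testOp_twistPt hb k hf hm x

theorem commute_twistOp_cuspOp (h : IsTwistMap tw σf) (hb : Function.Bijective σf)
    {k : Fin 3 → PPKer} (hk : ∀ i p q, k (i - 1) p q = k i p q) {f : HKer U'}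
    (hf : ∀ y z, f (σf y) (σf z) = f y z) :
    Commute (twistOp D tw σf h hb) (cuspOp D k f) := by
  show (twistOp D tw σf h hb).comp (cuspOp D k f) = (cuspOp D k f).comp (twistOp D tw σf h hb)
  rw [twistOp_comp_cuspOp h hb k (f' := f) fun y z => (hf y z).symm]
  rw [cuspOp_congr (k := fun i => k (i - 1)) (k' := k) hk fun _ _ => rfl]

end Fermat.Agent.LT.Descent

end
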