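import Fermat.Agent.LT.Descent.ArchFamily
import Fermat.Agent.LT.Descent.Regular
import Fermat.Agent.LT.Descent.Trace
import Fermat.Agent.LT.Descent.Transfer
import Fermat.Agent.LT.Descent.TwistClasses

/-!
# The base pair, the twist and the archimedean atoms

The compact operators on the two sides, the twist of the cusp space upstairs, the pairs varying one
archimedean kernel, and finite combinations of pairs.
-/

set_option autoImplicit false

noncomputable section

namespace Fermat.Agent.LT.Descent

open Fermat.Agent.LT.Adelic Fermat.Agent.LT.Tame Fermat.Agent.LT.Spectral Fermat.Agent.LT.Geom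
open Fermat.Agent.LT.Descent.Places
open MeasureTheory Filter NumberField IsDedekindDomain Matrix
open scoped MatrixGroups ComplexConjugate InnerProductSpace

variable {K : Type*} [Field K] [NumberField K] {K' : Type*} [Field K'] [NumberField K']
  [Algebra K K'] {Φ : Frame K Unit} {Φ' : Frame K' (Fin 3)} {tw : CubicTwist Φ Φ'}

/-- A real continuous profile with compact support. -/
abbrev RealProfile : Type := {k : ℝ → ℝ // Continuous k ∧ HasCompactSupport k}

/-- The kernel of a real profile. -/
def RealProfile.toKer (k : RealProfile) : PPKer := realKer k.1 k.2.1 k.2.2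

theorem RealProfile.conjKer_toKer (k : RealProfile) : (RealProfile.toKer k).conjKer = k.toKer :=
  conjKer_realKer _ _ _

namespace DescentData

variable (D : DescentData tw)

theorem bijective_sigmaY : Function.Bijective D.sigmaY :=
  yfAut_bijective _ (fun x => D.gen.order_three x) _

theorem sigmaY_cube (y : Yf (productLevel D.lev'.loc)) : D.sigmaY (D.sigmaY (D.sigmaY y)) = y :=
  yfAut_cube _ (fun x => D.gen.order_three x) _ y

/-! ### The twist -/

/-- The twist of points. -/
def twistMap : Space Φ' (productLevel D.lev'.loc) → Space Φ' (productLevel D.lev'.loc) :=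
  twistPt D.sigmaY

/-- The inverse twist of points. -/
def untwistMap (x : Space Φ' (productLevel D.lev'.loc)) : Space Φ' (productLevel D.lev'.loc) :=
  D.twistMap (D.twistMap x)

theorem untwistMap_twistMap (x : Space Φ' (productLevel D.lev'.loc)) :
    D.untwistMap (D.twistMap x) = x := twistPt_cube D.sigmaY_cube x

theorem twistMap_untwistMap (x : Space Φ' (productLevel D.lev'.loc)) :
    D.twistMap (D.untwistMap x) = x := twistPt_cube D.sigmaY_cube x

theorem measurePreserving_twistMap :
    MeasurePreserving D.twistMap (Space.measure Φ' (productLevel D.lev'.loc))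
      (Space.measure Φ' (productLevel D.lev'.loc)) :=
  measurePreserving_twistPt D.bijective_sigmaY

theorem measurable_untwistMap : Measurable D.untwistMap :=
  measurable_twistPt.comp measurable_twistPt

/-- One step of the twist on classes. -/
def twistOne : cuspClasses D.quot' →L[ℂ] cuspClasses D.quot' :=
  twistOp D.quot' tw D.sigmaY D.isTwistMap_sigmaY D.bijective_sigmaY

/-- The twist on classes: composition with the inverse twist of points. -/
def twist : cuspClasses D.quot' →L[ℂ] cuspClasses D.quot' := D.twistOne * D.twistOne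

theorem untwistMap_invariant {α : Type*} {φ : Space Φ' (productLevel D.lev'.loc) → α}
    (hinv : ∀ (g : PGL(2, K')) x, φ (g • x) = φ x) (g : PGL(2, K'))
    (x : Space Φ' (productLevel D.lev'.loc)) : φ (D.untwistMap (g • x)) = φ (D.untwistMap x) :=
  invariant_comp_twistPt D.isTwistMap_sigmaY (φ := fun y => φ (D.twistMap y))
    (invariant_comp_twistPt D.isTwistMap_sigmaY hinv) g x

theorem coeFn_twist (e : cuspClasses D.quot') (φ : Space Φ' (productLevel D.lev'.loc) → ℂ)
    (hinv : ∀ (g : PGL(2, K')) x, φ (g • x) = φ x) (he : (e : Lp ℂ 2 D.quot'.ν) =ᵐ[D.quot'.ν] φ) :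
    (D.twist e : Lp ℂ 2 D.quot'.ν) =ᵐ[D.quot'.ν] fun x => φ (D.untwistMap x) :=
  coeFn_twistOp D.isTwistMap_sigmaY D.bijective_sigmaY
    (φ := fun x => φ (twistPt D.sigmaY x)) (invariant_comp_twistPt D.isTwistMap_sigmaY hinv)
    (coeFn_twistOp D.isTwistMap_sigmaY D.bijective_sigmaY hinv he)

/-- The twist intertwines test operators with data twisted twice. -/
theorem twist_mul_cuspOp (k : Fin 3 → PPKer) {f f' : HKer (productLevel D.lev'.loc)}
    (hf : ∀ y z, f' y z = f (D.sigmaY (D.sigmaY y)) (D.sigmaY (D.sigmaY z))) :
    D.twist * cuspOp D.quot' k f = cuspOp D.quot' (fun i => k (i + 1)) f' * D.twist := by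
  let f₁ : HKer (productLevel D.lev'.loc) :=
    { toFun := fun y z => f (D.sigmaY y) (D.sigmaY z)
      smul' := fun γ y z => by
        show f (D.sigmaY (γ • y)) (D.sigmaY (γ • z)) = f (D.sigmaY y) (D.sigmaY z)
        rw [show D.sigmaY (γ • y) = gfAut tw.σ.toRingEquiv γ • D.sigmaY y from yfAut_smul _ _ γ y,
          show D.sigmaY (γ • z) = gfAut tw.σ.toRingEquiv γ • D.sigmaY z from yfAut_smul _ _ γ z,
          f.smul']
      finite_row := fun y => (f.finite_row (D.sigmaY y)).preimage D.bijective_sigmaY.1.injOn
      finite_col := fun z => (f.finite_col (D.sigmaY z)).preimage D.bijective_sigmaY.1.injOn }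
  have h1 := twistOp_comp_cuspOp (D := D.quot') D.isTwistMap_sigmaY D.bijective_sigmaY k
    (f := f) (f' := f₁) fun _ _ => rfl
  have h2 := twistOp_comp_cuspOp (D := D.quot') D.isTwistMap_sigmaY D.bijective_sigmaY
    (fun i => k (i - 1)) (f := f₁) (f' := f') hf
  have e : (fun i : Fin 3 => k (i - 1 - 1)) = fun i => k (i + 1) := by
    funext i
    exact congrArg k ((by decide : ∀ j : Fin 3, j - 1 - 1 = j + 1) i)
  rw [twist, mul_assoc, show D.twistOne * cuspOp D.quot' k f = _ from h1,
    ← ContinuousLinearMap.mul_def, ← mul_assoc,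
    show D.twistOne * cuspOp D.quot' (fun i => k (i - 1)) f₁ = _ from h2, e,
    ← ContinuousLinearMap.mul_def, mul_assoc]
  rfl

/-! ### The base pair -/

/-- The base pair: the base kernel at each place and trivial finite parts. -/
def base : D.TestPair where
  arch := comp3 fun _ => baseKer
  arch' _ := baseKer
  fam := KerFamily.one _
  fam' := KerFamily.one _

theorem isMatched_base : D.base.IsMatched where
  composite := fun _ _ => rfl
  transfers := IsLocallyMatched.transfers (t := D.base) isLocallyMatched_one

/-- The operator of the base kernel downstairs. -/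
def baseRoot : cuspClasses D.quot →L[ℂ] cuspClasses D.quot :=
  cuspOp D.quot (fun _ => baseKer) (HKer.id _)

theorem ker_base : D.base.ker = HKer.id (productLevel D.lev.loc) := KerFamily.toHKer_one D.isLocal

theorem ker'_base : D.base.ker' = HKer.id (productLevel D.lev'.loc) :=
  KerFamily.toHKer_one D.isLocal'

theorem op_base : D.base.op = D.baseRoot * (D.baseRoot * D.baseRoot) := by
  show _ = D.baseRoot.comp (D.baseRoot.comp D.baseRoot)
  rw [TestPair.op, baseRoot, cuspOp_comp, cuspOp_comp, ker_base]
  refine cuspOp_congr (fun _ _ _ => rfl) fun y z => ?_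
  rw [HKer.id_comp_apply, HKer.id_comp_apply]

theorem op'_base : D.base.op' = cuspOp D.quot' (fun _ => baseKer) (HKer.id _) := by
  rw [TestPair.op', ker'_base]
  rfl

theorem conj_id {L : Type*} [Field L] [NumberField L] {U : Subgroup (GfK L)} (y z : Yf U) :
    conj (HKer.id U z y) = HKer.id U y z := by
  by_cases h : y = z
  · subst h; simp [HKer.id]
  · simp [HKer.id, h, Ne.symm h]

theorem conj_baseKer (p q : HSpace) : conj (baseKer p q) = baseKer p q :=
  congrArg (fun k : PPKer => k p q) conjKer_baseKer

theorem isSelfAdjoint_baseRoot : IsSelfAdjoint D.baseRoot :=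
  isSelfAdjoint_cuspOp (fun _ => conj_baseKer) conj_id

theorem isSelfAdjoint_op_base : IsSelfAdjoint D.base.op := by
  have h := ContinuousLinearMap.isSelfAdjoint_iff'.1 D.isSelfAdjoint_baseRoot
  rw [op_base, ContinuousLinearMap.isSelfAdjoint_iff']
  show (D.baseRoot.comp (D.baseRoot.comp D.baseRoot)).adjoint = _
  rw [ContinuousLinearMap.adjoint_comp, ContinuousLinearMap.adjoint_comp, h]
  rfl

theorem isSelfAdjoint_op'_base : IsSelfAdjoint D.base.op' :=
  D.op'_base ▸ isSelfAdjoint_cuspOp (fun _ => conj_baseKer) conj_id

theorem hasCuspBound_baseRoot :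
    HasCuspBound D.quot (fun _ => baseKer) (HKer.id (productLevel D.lev.loc)) :=
  hasCuspBound_of_lip isLipKernel_baseKer _

theorem hasCuspBound_op'_base :
    HasCuspBound D.quot' (fun _ => baseKer) (HKer.id (productLevel D.lev'.loc)) :=
  hasCuspBound_of_lip isLipKernel_baseKer _

theorem isCompactOperator_op_base : IsCompactOperator D.base.op := by
  rw [op_base]
  exact D.hasCuspBound_baseRoot.isCompactOperator.comp_clm (D.baseRoot * D.baseRoot)

theorem isCompactOperator_op'_base : IsCompactOperator D.base.op' := by
  rw [op'_base]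
  exact D.hasCuspBound_op'_base.isCompactOperator

theorem exists_summable_op_base :
    ∃ (s : Set (cuspClasses D.quot)) (b : HilbertBasis s ℂ (cuspClasses D.quot)),
      Summable fun k => ‖D.base.op (b k)‖ ^ 2 := by
  obtain ⟨s, b, hs, -⟩ := exists_countable_hilbertBasis (cuspClasses D.quot)
  refine ⟨s, b, Summable.of_nonneg_of_le (fun _ => sq_nonneg _) (fun k => ?_)
    ((D.hasCuspBound_baseRoot.summable_norm_sq b).mul_left ((‖D.baseRoot‖ * ‖D.baseRoot‖) ^ 2))⟩
  rw [op_base, ← mul_pow]
  refine pow_le_pow_left₀ (norm_nonneg _) ?_ 2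
  calc ‖D.baseRoot (D.baseRoot (D.baseRoot (b k)))‖
      ≤ ‖D.baseRoot‖ * (‖D.baseRoot‖ * ‖D.baseRoot (b k)‖) :=
        (D.baseRoot.le_opNorm _).trans
          (mul_le_mul_of_nonneg_left (D.baseRoot.le_opNorm _) (norm_nonneg D.baseRoot))
    _ = _ := (mul_assoc _ _ _).symm

theorem exists_summable_op'_base :
    ∃ (s : Set (cuspClasses D.quot')) (b : HilbertBasis s ℂ (cuspClasses D.quot')),
      Summable fun k => ‖D.base.op' (b k)‖ ^ 2 := by
  obtain ⟨s, b, hs, -⟩ := exists_countable_hilbertBasis (cuspClasses D.quot')
  exact ⟨s, b, (D.hasCuspBound_op'_base.summable_norm_sq b).congr fun k => by rw [op'_base]⟩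

/-- The twist commutes with the base operator. -/
theorem commute_twist_base : Commute D.twist D.base.op' := by
  show D.twist * D.base.op' = D.base.op' * D.twist
  rw [op'_base, D.twist_mul_cuspOp (fun _ => baseKer) (f := HKer.id _) (f' := HKer.id _)]
  intro y z
  classical
  show (if y = z then (1 : ℂ) else 0) = if D.sigmaY (D.sigmaY y) = D.sigmaY (D.sigmaY z) then 1 else 0
  exact if_congr (D.bijective_sigmaY.1.comp D.bijective_sigmaY.1).eq_iff.symm rfl rfl

/-! ### Varying one archimedean kernel -/

/-- The pair with a profile composed into the kernel at the place `i`. -/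
def archAtom (i : Fin 3) (k : RealProfile) : D.TestPair where
  arch := PPKer.comp (PPKer.comp k.toKer baseKer) (PPKer.comp baseKer baseKer)
  arch' := baseAt i (PPKer.comp k.toKer baseKer)
  fam := KerFamily.one _
  fam' := KerFamily.one _

theorem isMatched_archAtom (i : Fin 3) (k : RealProfile) : (D.archAtom i k).IsMatched where
  composite := isComposite3_baseAt i _
  transfers := IsLocallyMatched.transfers (t := D.archAtom i k) isLocallyMatched_one

/-! ### Combinations of pairs -/

/-- The operator downstairs of a combination. -/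
def sumOp (l : List (ℂ × D.TestPair)) : cuspClasses D.quot →L[ℂ] cuspClasses D.quot :=
  (l.map fun p => p.1 • p.2.op).sum

/-- The operator upstairs of a combination. -/
def sumOp' (l : List (ℂ × D.TestPair)) : cuspClasses D.quot' →L[ℂ] cuspClasses D.quot' :=
  (l.map fun p => p.1 • p.2.op').sum

/-- A combination with cuspidal images on both sides, tested on bounded invariant functions with
continuous slices. -/
structure IsCuspidalSum (l : List (ℂ × D.TestPair)) : Prop where
  down : ∀ φ : Space Φ (productLevel D.lev.loc) → ℂ, IsInvariant φ →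
    (∀ y, Continuous fun τ : Unit → HSpace => φ (Space.mk τ y)) → (∃ C : ℝ, ∀ x, ‖φ x‖ ≤ C) →
      HasZeroMean fun x => (l.map fun p => p.1 * testOp (fun _ => p.2.arch) p.2.ker φ x).sum
  up : ∀ φ : Space Φ' (productLevel D.lev'.loc) → ℂ, IsInvariant φ →
    (∀ y, Continuous fun τ : Fin 3 → HSpace => φ (Space.mk τ y)) → (∃ C : ℝ, ∀ x, ‖φ x‖ ≤ C) →
      HasZeroMean fun x => (l.map fun p => p.1 * testOp p.2.arch' p.2.ker' φ x).sum

end DescentData

end Fermat.Agent.LT.Descent

end
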