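import Fermat.Agent.LT.Descent.AtomsGood
import Fermat.Agent.LT.Descent.Base
import Fermat.Agent.LT.Descent.KirillovModel

/-!
# The twist of the Hecke matrices upstairs

The generator carries the normalised Hecke matrix at `w` to the one at `σ⁻¹ w`, and products of
such matrices along a word to the corresponding products.
-/

set_option autoImplicit false
set_option linter.unusedSectionVars false

noncomputable section

namespace Fermat.Agent.LT.Descent

open IsDedekindDomain IsDedekindDomain.HeightOneSpectrum NumberField Matrix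
open Fermat.Agent.LT.Adelic Fermat.Agent.LT.Tame Fermat.Agent.LT.Aleph
open Fermat.Agent.LT.Descent.Places
open scoped MatrixGroups

section Aut

variable {L : Type*} [Field L] [NumberField L] (σ : L ≃+* L) (hord : ∀ x, σ (σ (σ x)) = x)
  {U : Subgroup (GfK L)} (hU : IsStableLevel σ U)

theorem mem_nbrs_gfAut {D : GfK L} {y z : Yf U} (h : z ∈ nbrs D y) :
    yfAut σ hU z ∈ nbrs (gfAut σ D) (yfAut σ hU y) := by
  obtain ⟨g, rfl, u, hu, rfl⟩ := h
  exact ⟨gfAut σ g, rfl, gfAut σ u, hU u hu, by rw [yfAut_mk, map_mul, map_mul]⟩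

include hord in
theorem mem_nbrs_gfAut_iff (D : GfK L) (y z : Yf U) :
    yfAut σ hU z ∈ nbrs (gfAut σ D) (yfAut σ hU y) ↔ z ∈ nbrs D y := by
  refine ⟨fun h => ?_, mem_nbrs_gfAut σ hU⟩
  have h' := mem_nbrs_gfAut σ hU (mem_nbrs_gfAut σ hU h)
  rwa [yfAut_cube σ hord hU, yfAut_cube σ hord hU, gfAut_cube σ hord] at h'

theorem gfAut_heckeMatrix (ϖ : (FiniteAdeleRing (𝓞 L) L)ˣ) :
    gfAut σ (heckeMatrix L ϖ) = heckeMatrix L (Units.map (adeleAut σ).toMonoidHom ϖ) := by
  refine Units.ext (Matrix.ext fun i j => ?_)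
  fin_cases i <;> fin_cases j <;> simp [gfAut, gfHom, heckeMatrix, diag2, adeleAut]

/-- The image of a uniformiser at `σ⁻¹ w` is one at `w`. -/
theorem isUniformiserAt_adeleAut {w : HeightOneSpectrum (𝓞 L)}
    {ϖ : (FiniteAdeleRing (𝓞 L) L)ˣ} (h : IsUniformiserAt (placePerm σ w) ϖ) :
    IsUniformiserAt w (Units.map (adeleAut σ).toMonoidHom ϖ) := by
  refine ⟨?_, fun u hu => ?_⟩
  · show Valued.v (completionEquiv σ (valuation_apply_placePerm σ w)
      ((ϖ : FiniteAdeleRing (𝓞 L) L) (placePerm σ w))) = _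
    rw [valued_completionEquiv, h.1]
  · show completionEquiv σ (valuation_apply_placePerm σ u)
      ((ϖ : FiniteAdeleRing (𝓞 L) L) (placePerm σ u)) = _
    rw [h.2 _ fun e => hu ((placePerm σ).injective e), map_one]

end Aut

variable {K : Type*} [Field K] [NumberField K] {K' : Type*} [Field K'] [NumberField K']
  [Algebra K K'] {Φ : Frame K Unit} {Φ' : Frame K' (Fin 3)} {tw : CubicTwist Φ Φ'}

namespace DescentData

variable (D : DescentData tw)

theorem absNorm_placePerm_of_above {v : HeightOneSpectrum (𝓞 K)} {w : HeightOneSpectrum (𝓞 K')}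
    (hv : v ∈ D.good) (hw : IsAbove v w) :
    Ideal.absNorm (placePerm tw.σ.toRingEquiv w).asIdeal = Ideal.absNorm w.asIdeal := by
  rcases D.isInert_or_isSplit hv.1 with h | h
  · rw [h.unique D.gen hw (isAbove_placePerm hw)]
  · rw [h.absNorm D.gen hw, h.absNorm D.gen (isAbove_placePerm hw)]

/-- **The twist of the matrix at `w` is the matrix at `σ⁻¹ w`.** -/
theorem goodT'_toHKer_sigmaY {v : HeightOneSpectrum (𝓞 K)} {w : HeightOneSpectrum (𝓞 K')}
    (hv : v ∈ D.good) (hw : IsAbove v w) (y z : Yf (productLevel D.lev'.loc)) :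
    ((D.goodT' (placePerm tw.σ.toRingEquiv w)).toHKer (isLocalLevel_loc D.lev')) y z =
      ((D.goodT' w).toHKer (isLocalLevel_loc D.lev')) (D.sigmaY y) (D.sigmaY z) := by
  classical
  obtain ⟨ϖ, hϖ⟩ := exists_uniformiser (placePerm tw.σ.toRingEquiv w)
  rw [D.goodT'_toHKer hv (isAbove_placePerm hw) hϖ,
    D.goodT'_toHKer hv hw (isUniformiserAt_adeleAut _ hϖ), D.absNorm_placePerm_of_above hv hw]
  show _ * (if z ∈ nbrs (heckeMatrix K' ϖ) y then (1 : ℂ) else 0) = _ *
    (if D.sigmaY z ∈ nbrs (heckeMatrix K' (Units.map (adeleAut _).toMonoidHom ϖ)) (D.sigmaY y)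
      then (1 : ℂ) else 0)
  rw [← gfAut_heckeMatrix]
  simp only [sigmaY, mem_nbrs_gfAut_iff tw.σ.toRingEquiv (fun x => D.gen.order_three x)]

end DescentData

section Words

variable {L : Type*} [Field L] [NumberField L]
  {V : ∀ v : HeightOneSpectrum (𝓞 L), Subgroup (GL (Fin 2) (v.adicCompletion L))} {A B : Type*}

/-- The family of a word. -/
def wordFam (gen : A → KerFamily V) : List (A ⊕ B) → KerFamily V
  | [] => KerFamily.one V
  | Sum.inl a :: l => (gen a).comp (wordFam gen l)
  | Sum.inr _ :: l => wordFam gen l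

end Words

namespace DescentData

variable {D : DescentData tw} {A B : Type*}

/-- Words in corresponding atoms correspond. -/
theorem isGoodMatched_wordFam {gen : A → KerFamily D.lev.loc} {gen' : A → KerFamily D.lev'.loc}
    (h : ∀ a, D.IsGoodMatched (gen a) (gen' a)) :
    ∀ l : List (A ⊕ B), D.IsGoodMatched (wordFam gen l) (wordFam gen' l)
  | [] => isGoodMatched_one
  | Sum.inl a :: l => (h a).comp (isGoodMatched_wordFam h l)
  | Sum.inr _ :: l => isGoodMatched_wordFam h l

/-- The twist of a word. -/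
theorem wordFam_toHKer_sigmaY {gen gen₁ : A → KerFamily D.lev'.loc}
    (h : ∀ a y z, ((gen₁ a).toHKer D.isLocal') y z =
      ((gen a).toHKer D.isLocal') (D.sigmaY y) (D.sigmaY z)) :
    ∀ (l : List (A ⊕ B)) y z, ((wordFam gen₁ l).toHKer D.isLocal') y z =
      ((wordFam gen l).toHKer D.isLocal') (D.sigmaY y) (D.sigmaY z)
  | [], y, z => by
    classical
    simp only [wordFam, KerFamily.toHKer_one]
    show (if y = z then (1 : ℂ) else 0) = if D.sigmaY y = D.sigmaY z then 1 else 0
    exact if_congr D.bijective_sigmaY.1.eq_iff.symm rfl rfl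
  | Sum.inl a :: l, y, z => by
    simp only [wordFam, KerFamily.toHKer_comp]
    show ∑ᶠ u, _ * _ = ∑ᶠ u, _ * _
    simp only [h a, wordFam_toHKer_sigmaY h l]
    exact finsum_comp_equiv (Equiv.ofBijective _ D.bijective_sigmaY)
      (f := fun u => ((gen a).toHKer D.isLocal') (D.sigmaY y) u *
        ((wordFam gen l).toHKer D.isLocal') u (D.sigmaY z))
  | Sum.inr _ :: l, y, z => wordFam_toHKer_sigmaY h l y z

end DescentData

end Fermat.Agent.LT.Descent

end
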