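import Fermat.Agent.LT.Descent.TensorPlace
import Fermat.Agent.LT.Descent.Places.Generic

/-!
# The map to the places below, and conditions holding at almost all places

The canonical `IsPlaceCover` of a cubic cyclic extension, its fibres, and the facts used at almost
all places: levels maximal, elements integral, nonzero scalars units.
-/

set_option autoImplicit false
set_option linter.unusedSectionVars false

noncomputable section

namespace Fermat.Agent.LT.Descent

open IsDedekindDomain IsDedekindDomain.HeightOneSpectrum Matrix NumberField Filter Function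
open Fermat.Agent.LT.Adelic Fermat.Agent.LT.Tame Fermat.Agent.LT.Aleph Fermat.Agent.LT.Geom
open scoped MatrixGroups

variable {K K' : Type*} [Field K] [NumberField K] [Field K'] [NumberField K'] [Algebra K K']

variable (K) in
/-- The place below. -/
def placeUnder (w : HeightOneSpectrum (𝓞 K')) : HeightOneSpectrum (𝓞 K) :=
  (Places.exists_below (K := K) w).choose

theorem placeUnder_eq_iff {v : HeightOneSpectrum (𝓞 K)} {w : HeightOneSpectrum (𝓞 K')} :
    placeUnder K w = v ↔ Places.IsAbove v w :=
  ⟨fun h => h ▸ (Places.exists_below (K := K) w).choose_spec,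
    fun h => Places.isAbove_unique (Places.exists_below (K := K) w).choose_spec h⟩

variable {σ : K' ≃ₐ[K] K'} (hgen : Places.IsCubicGen σ)
include hgen

/-- The fibre is the orbit of any of its points. -/
theorem placeUnder_eq_iff_orbit {v : HeightOneSpectrum (𝓞 K)} {w : HeightOneSpectrum (𝓞 K')}
    (hw : Places.IsAbove v w) (u : HeightOneSpectrum (𝓞 K')) :
    placeUnder K u = v ↔ u = w ∨ u = placePerm σ.toRingEquiv w ∨
      u = placePerm σ.toRingEquiv (placePerm σ.toRingEquiv w) := by
  rw [placeUnder_eq_iff]
  refine ⟨Places.eq_or_eq_of_isAbove hgen hw, ?_⟩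
  rintro (rfl | rfl | rfl)
  exacts [hw, Places.isAbove_placePerm hw, Places.isAbove_placePerm (Places.isAbove_placePerm hw)]

/-- A fixed place is the whole fibre. -/
theorem placeUnder_eq_iff_fixed {v : HeightOneSpectrum (𝓞 K)} {w : HeightOneSpectrum (𝓞 K')}
    (hw : Places.IsAbove v w) (hfix : placePerm σ.toRingEquiv w = w)
    (u : HeightOneSpectrum (𝓞 K')) : placeUnder K u = v ↔ u = w := by
  rw [placeUnder_eq_iff_orbit hgen hw, hfix, hfix, or_self, or_self]

/-- **The place below gives a cover with finite fibres.** -/
theorem isPlaceCover_placeUnder : IsPlaceCover (placeUnder K (K' := K')) where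
  above w r := placeUnder_eq_iff.1 rfl r
  finite v := by
    obtain ⟨w, hw⟩ := Places.exists_isAbove (K' := K') v
    refine (((Set.finite_singleton (placePerm σ.toRingEquiv (placePerm σ.toRingEquiv w))).insert
      (placePerm σ.toRingEquiv w)).insert w).subset fun u hu => ?_
    exact (placeUnder_eq_iff_orbit hgen hw u).1 hu

omit hgen

section Eventually

variable {L : Type*} [Field L] [NumberField L]
  {U : ∀ v : HeightOneSpectrum (𝓞 L), Subgroup (GL (Fin 2) (v.adicCompletion L))}

/-- Almost every local level is maximal. -/
theorem IsLocalLevel.eventually_eq (hU : IsLocalLevel U) :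
    ∀ᶠ v in cofinite, U v = localFull L v :=
  hU.full.mono fun v hv => le_antisymm (hU.le v) hv

/-- A global element is in almost every local level, up to centre. -/
theorem IsLocalLevel.eventually_mem (hU : IsLocalLevel U) (g : PGL(2, L)) :
    ∀ᶠ v in cofinite,
      pglMap (algebraMap L (v.adicCompletion L)) g ∈ (U v).map ProjGenLinGroup.mk := by
  induction g using ProjGenLinGroup.induction_on with
  | mk g =>
    refine ((eventually_isIntLocal (toGf L g)).and hU.full).mono fun v hv => ?_
    rw [← localPGL_toGf]
    exact Subgroup.mem_map_of_mem _ (hv.2 hv.1)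

/-- A global matrix is integral at almost every place. -/
theorem eventually_isIntLocal_map (g : GL (Fin 2) L) :
    ∀ᶠ v : HeightOneSpectrum (𝓞 L) in cofinite,
      IsIntLocal (GeneralLinearGroup.map (algebraMap L (v.adicCompletion L)) g) := by
  refine (eventually_isIntLocal (toGf L g)).mono fun v hv => ?_
  have : localGL L v (toGf L g) = GeneralLinearGroup.map (algebraMap L (v.adicCompletion L)) g :=
    Units.ext (Matrix.ext fun _ _ => rfl)
  rwa [← this]

/-- A nonzero scalar is a unit at almost every place. -/
theorem eventually_valued_eq_one {x : L} (hx : x ≠ 0) :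
    ∀ᶠ v : HeightOneSpectrum (𝓞 L) in cofinite,
      Valued.v (algebraMap L (v.adicCompletion L) x) = 1 := by
  have h : ∀ y : L, ∀ᶠ v : HeightOneSpectrum (𝓞 L) in cofinite,
      Valued.v (algebraMap L (v.adicCompletion L) y) ≤ 1 := fun y =>
    (algebraMap L (FiniteAdeleRing (𝓞 L) L) y).2
  refine ((h x).and (h x⁻¹)).mono fun v hv => le_antisymm hv.1 ?_
  have h2 := hv.2
  rwa [map_inv₀, map_inv₀, inv_le_one₀ (zero_lt_iff.2 ((Valuation.ne_zero_iff _).2
    ((map_ne_zero (algebraMap L (v.adicCompletion L))).2 hx)))] at h2

end Eventually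

end Fermat.Agent.LT.Descent

end
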