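import Fermat.Agent.LT.Descent.TensorProd
import Fermat.Agent.LT.Descent.Action
import Fermat.Agent.LT.Tame.AdelicLevel

/-!
# Matrices on `Yf` from local matrices

For a product level the finite part of the space is the restricted product of the local coset
spaces, and a family of local invariant matrices, almost all the identity, gives an invariant
matrix. Composition and transposition are componentwise.
-/

set_option autoImplicit false

noncomputable section

namespace Fermat.Agent.LT.Descent

open IsDedekindDomain IsDedekindDomain.HeightOneSpectrum Matrix NumberField Filter Function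
open Fermat.Agent.LT.Adelic Fermat.Agent.LT.Tame Fermat.Agent.LT.Aleph Fermat.Agent.LT.Geom
open scoped MatrixGroups

/-- An invariant matrix on a `G`-set with finite rows and columns. -/
structure LKer (G X : Type*) [Group G] [MulAction G X] where
  /-- the matrix -/
  toFun : X → X → ℂ
  smul' : ∀ (g : G) (a c : X), toFun (g • a) (g • c) = toFun a c
  finite_row : ∀ a, (support (toFun a)).Finite
  finite_col : ∀ c, (support fun a => toFun a c).Finite

namespace LKer

variable {G X : Type*} [Group G] [MulAction G X]

instance : CoeFun (LKer G X) fun _ => X → X → ℂ := ⟨LKer.toFun⟩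

theorem ext' {f g : LKer G X} (h : ∀ a c, f a c = g a c) : f = g := by
  cases f; cases g; congr; funext a c; exact h a c

variable (G X) in
/-- The identity. -/
def one : LKer G X where
  toFun := by classical exact fun a c => if a = c then 1 else 0
  smul' g a c := by
    classical
    exact if_congr (MulAction.injective g).eq_iff rfl rfl
  finite_row a := (Set.finite_singleton a).subset fun c hc => by
    by_contra h; exact hc (if_neg (Ne.symm h))
  finite_col c := (Set.finite_singleton c).subset fun a ha => by
    by_contra h; exact ha (if_neg h)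

theorem one_apply_self (a : X) : (one G X) a a = 1 := if_pos rfl

theorem one_apply_ne {a c : X} (h : a ≠ c) : (one G X) a c = 0 := if_neg h

/-- Composition. -/
def comp (f g : LKer G X) : LKer G X where
  toFun a d := ∑ᶠ c, f a c * g c d
  smul' γ a d := by
    rw [← finsum_comp_equiv (MulAction.toPerm γ : Equiv.Perm X)]
    simp only [MulAction.toPerm_apply, f.smul', g.smul']
  finite_row a := by
    refine ((f.finite_row a).biUnion fun c _ => g.finite_row c).subset fun d hd => ?_
    obtain ⟨c, hc⟩ := not_forall.mp fun h => hd (finsum_eq_zero_of_forall_eq_zero h)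
    exact Set.mem_biUnion (left_ne_zero_of_mul hc) (right_ne_zero_of_mul hc)
  finite_col d := by
    refine ((g.finite_col d).biUnion fun c _ => f.finite_col c).subset fun a ha => ?_
    obtain ⟨c, hc⟩ := not_forall.mp fun h => ha (finsum_eq_zero_of_forall_eq_zero h)
    exact Set.mem_biUnion (right_ne_zero_of_mul hc) (left_ne_zero_of_mul hc)

theorem one_comp (f : LKer G X) : (one G X).comp f = f := ext' fun a d => by
  show ∑ᶠ c, one G X a c * f c d = f a d
  rw [finsum_eq_single _ a fun c hc => by rw [one_apply_ne (Ne.symm hc), zero_mul],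
    one_apply_self, one_mul]

theorem comp_one (f : LKer G X) : f.comp (one G X) = f := ext' fun a d => by
  show ∑ᶠ c, f a c * one G X c d = f a d
  rw [finsum_eq_single _ d fun c hc => by rw [one_apply_ne hc, mul_zero],
    one_apply_self, mul_one]

/-- The transpose. -/
def transpose (f : LKer G X) : LKer G X where
  toFun a c := f c a
  smul' g a c := f.smul' g c a
  finite_row := f.finite_col
  finite_col := f.finite_row

theorem transpose_one : (one G X).transpose = one G X := ext' fun a c => by
  by_cases h : a = c
  · subst h; rfl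
  · exact (one_apply_ne (G := G) (Ne.symm h)).trans (one_apply_ne (G := G) h).symm

theorem transpose_comp (f g : LKer G X) : (f.comp g).transpose = g.transpose.comp f.transpose :=
  ext' fun _ _ => finsum_congr fun _ => mul_comm _ _

/-- On a transitive set it is enough to give the rows and columns at one point. -/
def ofBase [MulAction.IsPretransitive G X] (k : X → X → ℂ)
    (hk : ∀ (g : G) (a c : X), k (g • a) (g • c) = k a c) (b : X)
    (hr : (support (k b)).Finite) (hc : (support fun a => k a b).Finite) : LKer G X where
  toFun := k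
  smul' := hk
  finite_row a := by
    obtain ⟨g, rfl⟩ := MulAction.exists_smul_eq G b a
    refine (hr.image (g • ·)).subset fun c h => ⟨g⁻¹ • c, ?_, smul_inv_smul g c⟩
    rwa [mem_support, ← hk g, smul_inv_smul]
  finite_col c := by
    obtain ⟨g, rfl⟩ := MulAction.exists_smul_eq G b c
    refine (hc.image (g • ·)).subset fun a h => ⟨g⁻¹ • a, ?_, smul_inv_smul g a⟩
    rwa [mem_support, ← hk g, smul_inv_smul]

end LKer

section CosetNbrs

variable {G : Type*} [Group G] {H : Subgroup G}

/-- The neighbours of a coset for the double coset of `d`. -/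
def cosetNbrs (d : G) (a : G ⧸ H) : Set (G ⧸ H) :=
  {c | ∃ x : G, (x : G ⧸ H) = a ∧ ∃ u ∈ H, ((x * u * d : G) : G ⧸ H) = c}

theorem cosetNbrs_mk (d x : G) :
    cosetNbrs d (x : G ⧸ H) = (fun u => ((x * u * d : G) : G ⧸ H)) '' (H : Set G) := by
  ext c
  constructor
  · rintro ⟨x', hx', u, hu, rfl⟩
    refine ⟨x⁻¹ * x' * u, mul_mem (QuotientGroup.eq.1 hx'.symm) hu, ?_⟩
    show ((x * (x⁻¹ * x' * u) * d : G) : G ⧸ H) = _
    congr 1
    group
  · rintro ⟨u, hu, rfl⟩
    exact ⟨x, rfl, u, hu, rfl⟩

theorem mem_cosetNbrs_inv {d : G} {a c : G ⧸ H} (h : c ∈ cosetNbrs d a) :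
    a ∈ cosetNbrs d⁻¹ c := by
  obtain ⟨x, rfl, u, hu, rfl⟩ := h
  refine ⟨_, rfl, 1, one_mem H, QuotientGroup.eq.2 ?_⟩
  rw [mul_one, mul_inv_cancel_right, _root_.mul_inv_rev, inv_mul_cancel_right]
  exact inv_mem hu

theorem mem_cosetNbrs_inv_iff {d : G} {a c : G ⧸ H} :
    a ∈ cosetNbrs d⁻¹ c ↔ c ∈ cosetNbrs d a :=
  ⟨fun h => inv_inv d ▸ mem_cosetNbrs_inv h, mem_cosetNbrs_inv⟩

theorem smul_mem_cosetNbrs_iff {d : G} (g : G) {a c : G ⧸ H} :
    g • c ∈ cosetNbrs d (g • a) ↔ c ∈ cosetNbrs d a := by
  have key : ∀ (g : G) (a c : G ⧸ H), c ∈ cosetNbrs d a → g • c ∈ cosetNbrs d (g • a) := by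
    rintro g _ _ ⟨x, rfl, u, hu, rfl⟩
    refine ⟨g * x, rfl, u, hu, ?_⟩
    rw [MulAction.Quotient.smul_coe, smul_eq_mul]
    congr 1
    group
  exact ⟨fun h => by simpa using key g⁻¹ _ _ h, key g a c⟩

theorem cosetNbrs_of_mem {d : G} (hd : d ∈ H) (a : G ⧸ H) : cosetNbrs d a = {a} := by
  induction a using QuotientGroup.induction_on with
  | _ x =>
    rw [cosetNbrs_mk]
    ext c
    constructor
    · rintro ⟨u, hu, rfl⟩
      refine Set.mem_singleton_iff.2 (QuotientGroup.eq.2 ?_)
      rw [show (x * u * d)⁻¹ * x = d⁻¹ * u⁻¹ by group]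
      exact mul_mem (inv_mem hd) (inv_mem hu)
    · rintro rfl
      refine ⟨1, one_mem H, QuotientGroup.eq.2 ?_⟩
      rw [show (x * 1 * d)⁻¹ * x = d⁻¹ by group]
      exact inv_mem hd

/-- The matrix of a double coset with finitely many neighbours. -/
def LKer.ofNbrs (d : G) (h : ∀ a : G ⧸ H, (cosetNbrs d a).Finite)
    (h' : ∀ a : G ⧸ H, (cosetNbrs d⁻¹ a).Finite) : LKer G (G ⧸ H) where
  toFun a c := (cosetNbrs d a).indicator 1 c
  smul' g a c := by
    classical
    simp only [Set.indicator_apply, smul_mem_cosetNbrs_iff, Pi.one_apply]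
  finite_row a := (h a).subset Set.support_indicator_subset
  finite_col c := (h' c).subset fun _ ha =>
    mem_cosetNbrs_inv (Set.mem_of_indicator_ne_zero ha)

theorem LKer.ofNbrs_apply (d : G) (h : ∀ a : G ⧸ H, (cosetNbrs d a).Finite)
    (h' : ∀ a : G ⧸ H, (cosetNbrs d⁻¹ a).Finite) (a c : G ⧸ H) :
    (LKer.ofNbrs d h h') a c = (cosetNbrs d a).indicator 1 c := rfl

end CosetNbrs

variable {K : Type*} [Field K] [NumberField K]
  (V : ∀ v : HeightOneSpectrum (𝓞 K), Subgroup (GL (Fin 2) (v.adicCompletion K)))

/-- The local coset space at `v`. -/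
abbrev LocY (v : HeightOneSpectrum (𝓞 K)) : Type _ :=
  PGL(2, v.adicCompletion K) ⧸ (V v).map ProjGenLinGroup.mk

/-- The base point of the local coset space. -/
def basePt (v : HeightOneSpectrum (𝓞 K)) : LocY V v :=
  ((1 : PGL(2, v.adicCompletion K)) : LocY V v)

theorem localPGL_mem_of_mem_levelZ {g : GfK K} (hg : g ∈ levelZ (productLevel V))
    (v : HeightOneSpectrum (𝓞 K)) : localPGL v g ∈ (V v).map ProjGenLinGroup.mk := by
  obtain ⟨u, hu, z, ⟨c, rfl⟩, rfl⟩ := mem_levelZ.1 hg
  rw [map_mul, localPGL_scalarHom, mul_one]
  exact Subgroup.mem_map_of_mem _ ((mem_productLevel V).1 hu v)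

/-- The component at `v` of a point of `Yf`. -/
def locY (v : HeightOneSpectrum (𝓞 K)) : Yf (productLevel V) → LocY V v :=
  Quotient.lift (fun g : GfK K => (localPGL v g : LocY V v)) fun g h hgh => by
    refine QuotientGroup.eq.2 ?_
    rw [← map_inv, ← map_mul]
    exact localPGL_mem_of_mem_levelZ V (QuotientGroup.leftRel_apply.1 hgh) v

@[simp] theorem locY_mk (v : HeightOneSpectrum (𝓞 K)) (g : GfK K) :
    locY V v (g : Yf (productLevel V)) = (localPGL v g : LocY V v) := rfl

theorem locY_smul (v : HeightOneSpectrum (𝓞 K)) (g : GfK K) (y : Yf (productLevel V)) :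
    locY V v (g • y) = localPGL v g • locY V v y := by
  induction y using QuotientGroup.induction_on with
  | _ h =>
    rw [MulAction.Quotient.smul_coe, smul_eq_mul, locY_mk, locY_mk, map_mul,
      MulAction.Quotient.smul_coe, smul_eq_mul]

theorem localPGL_toGf (v : HeightOneSpectrum (𝓞 K)) (g : GL (Fin 2) K) :
    localPGL v (toGf K g) =
      pglMap (algebraMap K (v.adicCompletion K)) (ProjGenLinGroup.mk g) :=
  congrArg ProjGenLinGroup.mk (Units.ext (Matrix.ext fun _ _ => rfl))

/-- The global action is componentwise. -/
theorem locY_pgl_smul (v : HeightOneSpectrum (𝓞 K)) (g : PGL(2, K))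
    (y : Yf (productLevel V)) :
    locY V v (g • y) = pglMap (algebraMap K (v.adicCompletion K)) g • locY V v y := by
  induction g using ProjGenLinGroup.induction_on with
  | mk g => rw [pgl_smul_yf, locY_smul, localPGL_toGf]

/-- Local levels inside the maximal compacts, equal to them at almost all places. -/
structure IsLocalLevel : Prop where
  le : ∀ v, V v ≤ localFull K v
  full : ∀ᶠ v in cofinite, localFull K v ≤ V v

variable {V}

/-- **`Yf` of a product level is the restricted product of the local coset spaces.** -/
theorem IsLocalLevel.isRestrictedProd (hV : IsLocalLevel V) :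
    IsRestrictedProd (fun y v => locY V v y) (basePt V) where
  injective a c h := by
    induction a using QuotientGroup.induction_on with | _ g =>
    induction c using QuotientGroup.induction_on with | _ g' =>
    exact (yf_eq_iff hV.le).2 fun v => congrFun h v
  eventually_base y := by
    induction y using QuotientGroup.induction_on with | _ g =>
    exact (toRestricted hV.le hV.full (g : Yf (productLevel V))).2
  exists_of_eventually x hx := by
    obtain ⟨y, hy⟩ := (toRestricted_bijective hV.le hV.full).2 ⟨x, hx⟩
    refine ⟨y, funext fun v => ?_⟩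
    rw [← show (toRestricted hV.le hV.full y).1 v = x v from congrFun (congrArg Subtype.val hy) v]
    induction y using QuotientGroup.induction_on with | _ g => rfl

/-- An element of `GL₂(𝔸_f)` fixes almost all base points. -/
theorem IsLocalLevel.eventually_smul_basePt (hV : IsLocalLevel V) (g : GfK K) :
    ∀ᶠ v in cofinite, localPGL v g • basePt V v = basePt V v := by
  refine ((eventually_isIntLocal g).and hV.full).mono fun v hv => ?_
  rw [basePt, MulAction.Quotient.smul_coe, smul_eq_mul, mul_one, QuotientGroup.eq, mul_one]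
  exact inv_mem (Subgroup.mem_map_of_mem _ (hv.2 hv.1))

theorem IsLocalLevel.eventually_pgl_smul_basePt (hV : IsLocalLevel V) (g : PGL(2, K)) :
    ∀ᶠ v in cofinite,
      pglMap (algebraMap K (v.adicCompletion K)) g • basePt V v = basePt V v := by
  induction g using ProjGenLinGroup.induction_on with
  | mk g =>
    exact (hV.eventually_smul_basePt (toGf K g)).mono fun v hv => by rwa [← localPGL_toGf]

theorem HKer.ext' {U : Subgroup (GfK K)} {f g : HKer U} (h : ∀ y z, f y z = g y z) : f = g := by
  cases f; cases g; congr; funext y z; exact h y z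

variable (V) in
/-- Local matrices, almost all the identity. -/
structure KerFamily where
  /-- the local matrix -/
  ker : ∀ v, LKer PGL(2, v.adicCompletion K) (LocY V v)
  eventually_one : ∀ᶠ v in cofinite, ker v = LKer.one _ _

namespace KerFamily

theorem ext' {k l : KerFamily V} (h : ∀ v, k.ker v = l.ker v) : k = l := by
  cases k; cases l; congr; exact funext h

variable (V) in
/-- The identity family. -/
def one : KerFamily V := ⟨fun _ => LKer.one _ _, Eventually.of_forall fun _ => rfl⟩

/-- Componentwise composition. -/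
def comp (k l : KerFamily V) : KerFamily V :=
  ⟨fun v => (k.ker v).comp (l.ker v), (k.eventually_one.and l.eventually_one).mono fun _ hv => by
    rw [hv.1, hv.2, LKer.one_comp]⟩

/-- Componentwise transposition. -/
def transpose (k : KerFamily V) : KerFamily V :=
  ⟨fun v => (k.ker v).transpose, k.eventually_one.mono fun _ hv => by
    rw [hv, LKer.transpose_one]⟩

open scoped Classical in
/-- One matrix at one place. -/
def single (v : HeightOneSpectrum (𝓞 K)) (f : LKer PGL(2, v.adicCompletion K) (LocY V v)) :
    KerFamily V :=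
  ⟨update (fun w => LKer.one PGL(2, w.adicCompletion K) (LocY V w)) v f,
    (eventually_cofinite_ne v).mono fun _ hw => update_of_ne hw ..⟩

theorem single_ker_self (v : HeightOneSpectrum (𝓞 K))
    (f : LKer PGL(2, v.adicCompletion K) (LocY V v)) : (single v f).ker v = f := by
  classical
  show update (fun w => LKer.one PGL(2, w.adicCompletion K) (LocY V w)) v f v = _
  exact update_self ..

theorem single_ker_ne {v w : HeightOneSpectrum (𝓞 K)} (h : w ≠ v)
    (f : LKer PGL(2, v.adicCompletion K) (LocY V v)) : (single v f).ker w = LKer.one _ _ := by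
  classical
  show update (fun w => LKer.one PGL(2, w.adicCompletion K) (LocY V w)) v f w = _
  exact update_of_ne h ..

theorem single_comp_single_same (v : HeightOneSpectrum (𝓞 K))
    (f g : LKer PGL(2, v.adicCompletion K) (LocY V v)) :
    (single v f).comp (single v g) = single v (f.comp g) := ext' fun w => by
  show ((single v f).ker w).comp ((single v g).ker w) = _
  rcases eq_or_ne w v with rfl | h
  · simp only [single_ker_self]
  · simp only [single_ker_ne h, LKer.one_comp]

/-- **Matrices at distinct places commute.** -/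
theorem single_comp_comm {v w : HeightOneSpectrum (𝓞 K)} (h : v ≠ w)
    (f : LKer PGL(2, v.adicCompletion K) (LocY V v))
    (g : LKer PGL(2, w.adicCompletion K) (LocY V w)) :
    (single v f).comp (single w g) = (single w g).comp (single v f) := ext' fun x => by
  show ((single v f).ker x).comp ((single w g).ker x) =
    ((single w g).ker x).comp ((single v f).ker x)
  rcases eq_or_ne x v with rfl | hx
  · rw [single_ker_ne h, LKer.comp_one, LKer.one_comp]
  · rw [single_ker_ne hx, LKer.comp_one, LKer.one_comp]

theorem eventually_apply_base (k : KerFamily V) :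
    ∀ᶠ v in cofinite, k.ker v (basePt V v) (basePt V v) = 1 :=
  k.eventually_one.mono fun v hv => by rw [hv, LKer.one_apply_self]

theorem eventually_eq_one (hV : IsLocalLevel V) (k : KerFamily V) (y z : Yf (productLevel V)) :
    ∀ᶠ v in cofinite, k.ker v (locY V v y) (locY V v z) = 1 :=
  (((hV.isRestrictedProd.eventually_base y).and (hV.isRestrictedProd.eventually_base z)).and
    k.eventually_apply_base).mono fun v hv => by rw [hv.1.1, hv.1.2, hv.2]

theorem hasFiniteMulSupport (hV : IsLocalLevel V) (k : KerFamily V) (y z : Yf (productLevel V)) :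
    HasFiniteMulSupport fun v => k.ker v (locY V v y) (locY V v z) :=
  eventually_cofinite.1 (eventually_eq_one hV k y z)

theorem ne_zero_of_finprod (hV : IsLocalLevel V) (k : KerFamily V) {y z : Yf (productLevel V)}
    (h : ∏ᶠ v, k.ker v (locY V v y) (locY V v z) ≠ 0) (v : HeightOneSpectrum (𝓞 K)) :
    k.ker v (locY V v y) (locY V v z) ≠ 0 :=
  fun h0 => h (finprod_eq_zero _ v h0 (hasFiniteMulSupport hV k y z))

theorem eventually_support_row (hV : IsLocalLevel V) (k : KerFamily V)
    (y : Yf (productLevel V)) :
    ∀ᶠ v in cofinite, support (k.ker v (locY V v y)) ⊆ {basePt V v} :=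
  ((hV.isRestrictedProd.eventually_base y).and k.eventually_one).mono fun v hv c hc => by
    by_contra h
    rw [mem_support, hv.1, hv.2, LKer.one_apply_ne (Ne.symm h)] at hc
    exact hc rfl

/-- **The matrix on `Yf` of a family of local matrices.** -/
def toHKer (hV : IsLocalLevel V) (k : KerFamily V) : HKer (productLevel V) where
  toFun y z := ∏ᶠ v, k.ker v (locY V v y) (locY V v z)
  smul' g y z := finprod_congr fun v => by rw [locY_smul, locY_smul, LKer.smul']
  finite_row y := (hV.isRestrictedProd.finite_setOf
    (A := fun v => support (k.ker v (locY V v y))) (fun v => (k.ker v).finite_row _)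
    (eventually_support_row hV k y)).subset fun _ hz v => ne_zero_of_finprod hV k hz v
  finite_col z := (hV.isRestrictedProd.finite_setOf
    (A := fun v => support ((k.transpose).ker v (locY V v z))) (fun v => (k.ker v).finite_col _)
    (eventually_support_row hV k.transpose z)).subset fun _ hy v => ne_zero_of_finprod hV k hy v

theorem toHKer_apply (hV : IsLocalLevel V) (k : KerFamily V) (y z : Yf (productLevel V)) :
    (k.toHKer hV) y z = ∏ᶠ v, k.ker v (locY V v y) (locY V v z) := rfl

/-- The diagonal function of a global element is a product of local ones. -/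
theorem toHKer_apply_smul (hV : IsLocalLevel V) (k : KerFamily V) (g : PGL(2, K))
    (y : Yf (productLevel V)) :
    (k.toHKer hV) y (g • y) = ∏ᶠ v, k.ker v (locY V v y)
      (pglMap (algebraMap K (v.adicCompletion K)) g • locY V v y) :=
  finprod_congr fun v => by rw [locY_pgl_smul]

theorem eventually_diag_base (hV : IsLocalLevel V) (k : KerFamily V) (g : PGL(2, K)) :
    ∀ᶠ v in cofinite, k.ker v (basePt V v)
      (pglMap (algebraMap K (v.adicCompletion K)) g • basePt V v) = 1 :=
  (k.eventually_apply_base.and (hV.eventually_pgl_smul_basePt g)).mono fun v hv => by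
    rw [hv.2, hv.1]

theorem toHKer_transpose_apply (hV : IsLocalLevel V) (k : KerFamily V)
    (y z : Yf (productLevel V)) : (k.transpose.toHKer hV) y z = (k.toHKer hV) z y := rfl

theorem toHKer_eq_mul (hV : IsLocalLevel V) (k : KerFamily V) (v : HeightOneSpectrum (𝓞 K))
    (y z : Yf (productLevel V)) :
    (k.toHKer hV) y z = k.ker v (locY V v y) (locY V v z) *
      ∏ᶠ (w) (_ : w ≠ v), k.ker w (locY V w y) (locY V w z) :=
  (mul_finprod_cond_ne v (hasFiniteMulSupport hV k y z)).symm

/-- **Composition is componentwise.** -/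
theorem toHKer_comp (hV : IsLocalLevel V) (k l : KerFamily V) :
    (k.comp l).toHKer hV = (k.toHKer hV).comp (l.toHKer hV) := HKer.ext' fun y z => by
  show ∏ᶠ v, (∑ᶠ a, k.ker v (locY V v y) a * l.ker v a (locY V v z)) = ∑ᶠ w,
    (∏ᶠ v, k.ker v (locY V v y) (locY V v w)) * ∏ᶠ v, l.ker v (locY V v w) (locY V v z)
  rw [← hV.isRestrictedProd.finsum_finprod
    (fun v a => k.ker v (locY V v y) a * l.ker v a (locY V v z))
    (fun v => ((k.ker v).finite_row _).subset fun a ha => left_ne_zero_of_mul ha)]
  · exact finsum_congr fun w =>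
      finprod_mul_distrib (hasFiniteMulSupport hV k y w) (hasFiniteMulSupport hV l w z)
  · refine (((hV.isRestrictedProd.eventually_base y).and (hV.isRestrictedProd.eventually_base z)).and
      (k.eventually_one.and l.eventually_one)).mono fun v hv => ?_
    rw [hv.1.1, hv.1.2, hv.2.1, hv.2.2]
    refine ⟨?_, fun a ha => ?_⟩ <;> simp only
    · rw [LKer.one_apply_self, one_mul]
    · rw [LKer.one_apply_ne (Ne.symm ha), zero_mul]

theorem toHKer_one (hV : IsLocalLevel V) : (one V).toHKer hV = HKer.id (productLevel V) :=
  HKer.ext' fun y z => by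
    classical
    show ∏ᶠ v, LKer.one PGL(2, v.adicCompletion K) (LocY V v) (locY V v y) (locY V v z) =
      if y = z then (1 : ℂ) else 0
    split_ifs with h
    · exact finprod_eq_one_of_forall_eq_one fun v => by rw [h, LKer.one_apply_self]
    · obtain ⟨v, hv⟩ := not_forall.1 fun h' => h (hV.isRestrictedProd.injective (funext h'))
      exact finprod_eq_zero _ v (LKer.one_apply_ne hv) (hasFiniteMulSupport hV (one V) y z)

/-- Families commuting placewise give commuting matrices. -/
theorem toHKer_comp_comm (hV : IsLocalLevel V) (k l : KerFamily V)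
    (h : ∀ v, (k.ker v).comp (l.ker v) = (l.ker v).comp (k.ker v)) :
    (k.toHKer hV).comp (l.toHKer hV) = (l.toHKer hV).comp (k.toHKer hV) := by
  rw [← toHKer_comp, ← toHKer_comp]
  exact congrArg (toHKer hV) (ext' h)

/-- A matrix at one place is supported on pairs agreeing elsewhere. -/
theorem toHKer_single_apply (hV : IsLocalLevel V) (v : HeightOneSpectrum (𝓞 K))
    (f : LKer PGL(2, v.adicCompletion K) (LocY V v)) (y z : Yf (productLevel V))
    (h : ∀ w, w ≠ v → locY V w y = locY V w z) :
    ((single v f).toHKer hV) y z = f (locY V v y) (locY V v z) := by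
  rw [toHKer_apply, finprod_eq_single _ v fun w hw => ?_, single_ker_self]
  rw [single_ker_ne hw, h w hw, LKer.one_apply_self]

theorem toHKer_single_apply_of_ne (hV : IsLocalLevel V) {v w : HeightOneSpectrum (𝓞 K)}
    (f : LKer PGL(2, v.adicCompletion K) (LocY V v)) {y z : Yf (productLevel V)} (hw : w ≠ v)
    (h : locY V w y ≠ locY V w z) : ((single v f).toHKer hV) y z = 0 :=
  finprod_eq_zero _ w (by rw [single_ker_ne hw, LKer.one_apply_ne h])
    (hasFiniteMulSupport hV (single v f) y z)

end KerFamily

section Nbrs

/-- **Neighbours are computed place by place.** -/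
theorem mem_nbrs_iff (hV : IsLocalLevel V) (D : GfK K) (y z : Yf (productLevel V)) :
    z ∈ nbrs D y ↔ ∀ v, locY V v z ∈ cosetNbrs (localPGL v D) (locY V v y) := by
  induction y using QuotientGroup.induction_on with | _ g =>
  simp only [nbrs_mk, locY_mk, cosetNbrs_mk]
  constructor
  · rintro ⟨u, hu, rfl⟩ v
    exact ⟨localPGL v u, Subgroup.mem_map_of_mem _ ((mem_productLevel V).1 hu v), by
      simp only [locY_mk, map_mul]⟩
  · intro h
    have key : ∀ v, ∃ γ ∈ V v,
        ((localPGL v g * ProjGenLinGroup.mk γ * localPGL v D : PGL(2, v.adicCompletion K)) :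
          LocY V v) = locY V v z := fun v => by
      obtain ⟨_, ⟨γ, hγ, rfl⟩, hz⟩ := h v
      exact ⟨γ, hγ, hz⟩
    choose γ hγ hz using key
    refine ⟨gfOfFamily K γ (Eventually.of_forall fun v => hV.le v (hγ v)),
      (mem_productLevel V).2 fun v => by rw [localGL_gfOfFamily]; exact hγ v,
      hV.isRestrictedProd.injective (funext fun v => ?_)⟩
    rw [← hz v]
    simp only [locY_mk, map_mul]
    congr 3

theorem finite_cosetNbrs_localPGL (hV : IsLocalLevel V) (hU : IsLevel (productLevel V))
    (D : GfK K) (v : HeightOneSpectrum (𝓞 K)) (a : LocY V v) :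
    (cosetNbrs (localPGL v D) a).Finite := by
  classical
  obtain ⟨y, hy⟩ := hV.isRestrictedProd.exists_of_eventually (update (basePt V) v a)
    ((eventually_cofinite_ne v).mono fun w hw => update_of_ne hw ..)
  have hyv : locY V v y = a := (congrFun hy v).trans (update_self ..)
  refine ((finite_nbrs hU D y).image (locY V v)).subset fun c hc => ?_
  induction y using QuotientGroup.induction_on with | _ g =>
  rw [← hyv, locY_mk, cosetNbrs_mk] at hc
  obtain ⟨_, ⟨γ, hγ, rfl⟩, rfl⟩ := hc
  let fam : ∀ w : HeightOneSpectrum (𝓞 K), GL (Fin 2) (w.adicCompletion K) :=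
    update (fun _ => 1) v γ
  have hfam : ∀ w, fam w ∈ V w := fun w => by
    rcases eq_or_ne w v with rfl | h
    · rwa [show fam w = γ from update_self ..]
    · rw [show fam w = 1 from update_of_ne h ..]
      exact one_mem _
  refine ⟨((g * gfOfFamily K fam (Eventually.of_forall fun w => hV.le w (hfam w)) * D : GfK K) :
      Yf (productLevel V)), ?_, ?_⟩
  · rw [nbrs_mk]
    exact ⟨_, (mem_productLevel V).2 fun w => by rw [localGL_gfOfFamily]; exact hfam w, rfl⟩
  · simp only [locY_mk, map_mul]
    congr 3
    show ProjGenLinGroup.mk (localGL K v _) = ProjGenLinGroup.mk γ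
    rw [localGL_gfOfFamily, show fam v = γ from update_self ..]

/-- The local matrices of a double coset. -/
def KerFamily.ofDoubleCoset (hV : IsLocalLevel V) (hU : IsLevel (productLevel V)) (D : GfK K) :
    KerFamily V where
  ker v := LKer.ofNbrs (localPGL v D) (finite_cosetNbrs_localPGL hV hU D v) fun a => by
    rw [← map_inv]
    exact finite_cosetNbrs_localPGL hV hU D⁻¹ v a
  eventually_one := ((eventually_isIntLocal D).and hV.full).mono fun v hv => LKer.ext' fun a c => by
    rw [LKer.ofNbrs_apply, cosetNbrs_of_mem (show localPGL v D ∈ (V v).map ProjGenLinGroup.mk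
        from Subgroup.mem_map_of_mem _ (hv.2 hv.1))]
    by_cases h : a = c
    · subst h
      rw [Set.indicator_of_mem (Set.mem_singleton a), LKer.one_apply_self]
      rfl
    · rw [Set.indicator_of_notMem (by rwa [Set.mem_singleton_iff, eq_comm]), LKer.one_apply_ne h]

/-- **The Hecke matrix of a double coset is the product of the local ones.** -/
theorem ofDoubleCoset_eq_toHKer (hV : IsLocalLevel V) (hU : IsLevel (productLevel V))
    (D : GfK K) :
    HKer.ofDoubleCoset hU D = (KerFamily.ofDoubleCoset hV hU D).toHKer hV :=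
  HKer.ext' fun y z => by
    classical
    show (if z ∈ nbrs D y then (1 : ℂ) else 0) = ∏ᶠ v,
      (cosetNbrs (localPGL v D) (locY V v y)).indicator 1 (locY V v z)
    split_ifs with h
    · exact (finprod_eq_one_of_forall_eq_one fun v =>
        Set.indicator_of_mem ((mem_nbrs_iff hV D y z).1 h v) _).symm
    · obtain ⟨v, hv⟩ := not_forall.1 fun h' => h ((mem_nbrs_iff hV D y z).2 h')
      exact (finprod_eq_zero _ v (Set.indicator_of_notMem hv _)
        (KerFamily.hasFiniteMulSupport hV (KerFamily.ofDoubleCoset hV hU D) y z)).symm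

end Nbrs

end Fermat.Agent.LT.Descent

end
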