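import Fermat.Agent.LT.Descent.IwahoriBig
import Fermat.Agent.LT.Descent.Tensor

/-!
# The Iwahori operators as local matrices

The kernels `t`, `w` and `Uⁿ` as matrices on the local coset space at a place with Iwahori level,
with their relations; on spherical functions `(t + 1) w` is the sum over the neighbouring
vertices.
-/

set_option autoImplicit false
set_option linter.unusedSectionVars false

noncomputable section

namespace Fermat.Agent.LT.Descent

open IsDedekindDomain IsDedekindDomain.HeightOneSpectrum Matrix NumberField Function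
open Fermat.Agent.LT.Adelic Fermat.Agent.LT.Aleph Fermat.Agent.LT.Tame
open scoped MatrixGroups

section BiInvariant

variable {G : Type*} [Group G] {J : Subgroup G}

/-- The local matrix of a bi-invariant function with finite supports. -/
def LKer.ofBiInvariant (f : G → ℂ) (hf : IsBiInvariant J f) (hs : HasFiniteSupportMod hf)
    (hsi : (support fun a : G ⧸ J => cosetKernel hf a ((1 : G) : G ⧸ J)).Finite) :
    LKer G (G ⧸ J) :=
  LKer.ofBase (cosetKernel hf) (fun g a c => cosetKernel_smul hf g a c) ((1 : G) : G ⧸ J) hs hsi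

theorem LKer.ofBiInvariant_apply (f : G → ℂ) (hf : IsBiInvariant J f) (hs : HasFiniteSupportMod hf)
    (hsi : (support fun a : G ⧸ J => cosetKernel hf a ((1 : G) : G ⧸ J)).Finite) (x y : G) :
    (LKer.ofBiInvariant f hf hs hsi) (x : G ⧸ J) (y : G ⧸ J) = f (x⁻¹ * y) := cosetKernel_mk hf x y

theorem LKer.ofBiInvariant_comp {f g : G → ℂ} (hf : IsBiInvariant J f) (hs : HasFiniteSupportMod hf)
    (hsi : (support fun a : G ⧸ J => cosetKernel hf a ((1 : G) : G ⧸ J)).Finite)
    (hg : IsBiInvariant J g) (hs' : HasFiniteSupportMod hg)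
    (hsi' : (support fun a : G ⧸ J => cosetKernel hg a ((1 : G) : G ⧸ J)).Finite) (x y : G) :
    ((LKer.ofBiInvariant f hf hs hsi).comp (LKer.ofBiInvariant g hg hs' hsi'))
      (x : G ⧸ J) (y : G ⧸ J) = heckeConv hf hg (x⁻¹ * y) :=
  sum_cosetKernel_mul hf hg x y

theorem LKer.one_apply_mk (x y : G) :
    (LKer.one G (G ⧸ J)) (x : G ⧸ J) (y : G ⧸ J) = iwOne J (x⁻¹ * y) := by
  by_cases h : (x : G ⧸ J) = (y : G ⧸ J)
  · rw [h, LKer.one_apply_self, iwOne, Set.indicator_of_mem (QuotientGroup.eq.1 h), Pi.one_apply]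
  · rw [LKer.one_apply_ne h, iwOne, Set.indicator_of_notMem (fun h' => h (QuotientGroup.eq.2 h'))]

theorem finite_support_col {f : G → ℂ} (hf : IsBiInvariant J f) (hs : HasFiniteSupportMod hf)
    (hinv : ∀ g, f g⁻¹ = f g) :
    (support fun a : G ⧸ J => cosetKernel hf a ((1 : G) : G ⧸ J)).Finite := by
  refine hs.subset fun a ha => ?_
  induction a using QuotientGroup.induction_on with
  | _ z =>
    rw [mem_support, cosetKernel_mk, mul_one, hinv] at ha
    rwa [mem_support, cosetKernel_one_left]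

end BiInvariant

variable {K : Type*} [Field K] [NumberField K] {v : HeightOneSpectrum (𝓞 K)}
  {J : Subgroup PGL(2, v.adicCompletion K)}

theorem isBiInvariant_iwT' (hJ : J = pglIwahori v) : IsBiInvariant J (iwT (pglFull v) J) :=
  isBiInvariant_iwT (hJ ▸ pglIwahori_le v)

theorem finiteSupport_iwT' (hJ : J = pglIwahori v) :
    HasFiniteSupportMod (isBiInvariant_iwT' hJ) := by
  subst hJ
  exact hasFiniteSupportMod_iwT (pglIwahori_le v) (finite_lvlCosets v)

/-- `t` as a local matrix. -/
def iwTKer (hJ : J = pglIwahori v) :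
    LKer PGL(2, v.adicCompletion K) (PGL(2, v.adicCompletion K) ⧸ J) :=
  LKer.ofBiInvariant _ (isBiInvariant_iwT' hJ) (finiteSupport_iwT' hJ)
    (finite_support_col _ (finiteSupport_iwT' hJ) iwT_inv)

variable {ϖ : (v.adicCompletion K)ˣ}

theorem atkin_normalises' (hJ : J = pglIwahori v)
    (hϖ : Valued.v (ϖ : v.adicCompletion K) = WithZero.exp (-1 : ℤ)) :
    ∀ k ∈ J, (atkin ϖ)⁻¹ * k * atkin ϖ ∈ J := by
  subst hJ
  exact atkin_normalises hϖ

/-- `w` as a local matrix. -/
def iwWKer (hJ : J = pglIwahori v)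
    (hϖ : Valued.v (ϖ : v.adicCompletion K) = WithZero.exp (-1 : ℤ)) :
    LKer PGL(2, v.adicCompletion K) (PGL(2, v.adicCompletion K) ⧸ J) :=
  LKer.ofBiInvariant _ (isBiInvariant_iwW (atkin_normalises' hJ hϖ))
    (hasFiniteSupportMod_iwW (atkin_normalises' hJ hϖ))
    (finite_support_col _ (hasFiniteSupportMod_iwW (atkin_normalises' hJ hϖ))
      (iwW_inv (atkin_normalises' hJ hϖ) (hJ ▸ atkin_sq_mem ϖ)))

theorem isBiInvariant_iwUPow' (hJ : J = pglIwahori v)
    (hϖ : Valued.v (ϖ : v.adicCompletion K) = WithZero.exp (-1 : ℤ)) (n : ℕ) :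
    IsBiInvariant J (iwUPow ϖ n) := hJ ▸ isBiInvariant_iwUPow hϖ n

theorem finiteSupport_iwUPow' (hJ : J = pglIwahori v)
    (hϖ : Valued.v (ϖ : v.adicCompletion K) = WithZero.exp (-1 : ℤ)) (n : ℕ) :
    HasFiniteSupportMod (isBiInvariant_iwUPow' hJ hϖ n) := by
  subst hJ
  exact hasFiniteSupportMod_iwUPow hϖ n

/-- The rows at the base point of a composite of symmetric kernels bound its columns. -/
theorem finite_col_iwUPow (hJ : J = pglIwahori v)
    (hϖ : Valued.v (ϖ : v.adicCompletion K) = WithZero.exp (-1 : ℤ)) (n : ℕ) :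
    (support fun a : PGL(2, v.adicCompletion K) ⧸ J =>
      cosetKernel (isBiInvariant_iwUPow' hJ hϖ n) a ((1 : PGL(2, v.adicCompletion K)) :
        PGL(2, v.adicCompletion K) ⧸ J)).Finite := by
  subst hJ
  have h1 : ∀ a c, cosetKernel (isBiInvariant_iwUPow hϖ 1) a c =
      ((iwTKer rfl).comp (iwWKer rfl hϖ)) a c := fun a c => by
    induction a using QuotientGroup.induction_on with
    | _ x =>
      induction c using QuotientGroup.induction_on with
      | _ y =>
        refine (cosetKernel_mk _ x y).trans ?_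
        rw [iwTKer, iwWKer, LKer.ofBiInvariant_comp, ← iwT_mul_iwW_eq hϖ]
  induction n with
  | zero =>
    refine (Set.finite_singleton (((1 : PGL(2, v.adicCompletion K))) :
      PGL(2, v.adicCompletion K) ⧸ pglIwahori v)).subset fun a ha => ?_
    induction a using QuotientGroup.induction_on with
    | _ z =>
      rw [mem_support, cosetKernel_mk, iwUPow_zero, iwOne] at ha
      exact QuotientGroup.eq.2 (Set.mem_of_indicator_ne_zero ha)
  | succ n ih =>
    refine (ih.biUnion fun c _ => ((iwTKer rfl).comp (iwWKer rfl hϖ)).finite_col c).subset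
      fun a ha => ?_
    induction a using QuotientGroup.induction_on with
    | _ z =>
      rw [mem_support, cosetKernel_mk, mul_one, add_comm, ← iwUPow_mul hϖ 1 n] at ha
      rw [← mul_one z⁻¹, ← sum_cosetKernel_mul] at ha
      obtain ⟨c, hc⟩ := not_forall.mp fun h => ha (finsum_eq_zero_of_forall_eq_zero h)
      refine Set.mem_biUnion (right_ne_zero_of_mul hc) ?_
      show ((iwTKer rfl).comp (iwWKer rfl hϖ)) _ c ≠ 0
      rw [← h1]
      exact left_ne_zero_of_mul hc

/-- `Uⁿ` as a local matrix. -/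
def iwUKer (hJ : J = pglIwahori v)
    (hϖ : Valued.v (ϖ : v.adicCompletion K) = WithZero.exp (-1 : ℤ)) (n : ℕ) :
    LKer PGL(2, v.adicCompletion K) (PGL(2, v.adicCompletion K) ⧸ J) :=
  LKer.ofBiInvariant _ (isBiInvariant_iwUPow' hJ hϖ n) (finiteSupport_iwUPow' hJ hϖ n)
    (finite_col_iwUPow hJ hϖ n)

theorem iwUKer_apply (hJ : J = pglIwahori v)
    (hϖ : Valued.v (ϖ : v.adicCompletion K) = WithZero.exp (-1 : ℤ)) (n : ℕ)
    (x y : PGL(2, v.adicCompletion K)) :
    (iwUKer hJ hϖ n) (x : PGL(2, v.adicCompletion K) ⧸ J) (y : PGL(2, v.adicCompletion K) ⧸ J) =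
      iwUPow ϖ n (x⁻¹ * y) := LKer.ofBiInvariant_apply _ _ _ _ x y

/-- **`t² = (q - 1) t + q`.** -/
theorem iwTKer_comp_self (hJ : J = pglIwahori v)
    (a c : PGL(2, v.adicCompletion K) ⧸ J) :
    ((iwTKer hJ).comp (iwTKer hJ)) a c = ((Ideal.absNorm v.asIdeal : ℂ) - 1) * (iwTKer hJ) a c +
      (Ideal.absNorm v.asIdeal : ℂ) *
        (LKer.one PGL(2, v.adicCompletion K) (PGL(2, v.adicCompletion K) ⧸ J)) a c := by
  subst hJ
  induction a using QuotientGroup.induction_on with
  | _ x =>
    induction c using QuotientGroup.induction_on with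
    | _ y =>
      rw [LKer.one_apply_mk, iwTKer, LKer.ofBiInvariant_comp, LKer.ofBiInvariant_apply]
      exact iwT_mul_iwT (pglIwahori_le v) (finite_lvlCosets v) (ncard_lvlCosets v) _

/-- **`w² = 1`.** -/
theorem iwWKer_comp_self (hJ : J = pglIwahori v)
    (hϖ : Valued.v (ϖ : v.adicCompletion K) = WithZero.exp (-1 : ℤ)) :
    (iwWKer hJ hϖ).comp (iwWKer hJ hϖ) = LKer.one _ _ := by
  subst hJ
  refine LKer.ext' fun a c => ?_
  induction a using QuotientGroup.induction_on with
  | _ x =>
    induction c using QuotientGroup.induction_on with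
    | _ y =>
      rw [LKer.one_apply_mk, iwWKer, LKer.ofBiInvariant_comp,
        iwW_mul_iwW (atkin_normalises hϖ) (atkin_sq_mem ϖ)]

/-- **`t w = U`.** -/
theorem iwTKer_comp_iwWKer (hJ : J = pglIwahori v)
    (hϖ : Valued.v (ϖ : v.adicCompletion K) = WithZero.exp (-1 : ℤ)) :
    (iwTKer hJ).comp (iwWKer hJ hϖ) = iwUKer hJ hϖ 1 := by
  subst hJ
  refine LKer.ext' fun a c => ?_
  induction a using QuotientGroup.induction_on with
  | _ x =>
    induction c using QuotientGroup.induction_on with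
    | _ y =>
      rw [iwTKer, iwWKer, iwUKer, LKer.ofBiInvariant_comp, LKer.ofBiInvariant_apply,
        iwT_mul_iwW_eq hϖ]

/-- **`Uⁿ Uᵐ = Uⁿ⁺ᵐ`.** -/
theorem iwUKer_comp (hJ : J = pglIwahori v)
    (hϖ : Valued.v (ϖ : v.adicCompletion K) = WithZero.exp (-1 : ℤ)) (n m : ℕ) :
    (iwUKer hJ hϖ n).comp (iwUKer hJ hϖ m) = iwUKer hJ hϖ (n + m) := by
  subst hJ
  refine LKer.ext' fun a c => ?_
  induction a using QuotientGroup.induction_on with
  | _ x =>
    induction c using QuotientGroup.induction_on with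
    | _ y =>
      rw [iwUKer, iwUKer, iwUKer, LKer.ofBiInvariant_comp, LKer.ofBiInvariant_apply,
        iwUPow_mul hϖ]

theorem iwUKer_zero (hJ : J = pglIwahori v)
    (hϖ : Valued.v (ϖ : v.adicCompletion K) = WithZero.exp (-1 : ℤ)) :
    iwUKer hJ hϖ 0 = LKer.one _ _ := by
  subst hJ
  refine LKer.ext' fun a c => ?_
  induction a using QuotientGroup.induction_on with
  | _ x =>
    induction c using QuotientGroup.induction_on with
    | _ y => rw [LKer.one_apply_mk, iwUKer_apply, iwUPow_zero]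

theorem iwTKer_transpose (hJ : J = pglIwahori v) : (iwTKer hJ).transpose = iwTKer hJ := by
  refine LKer.ext' fun a c => ?_
  induction a using QuotientGroup.induction_on with
  | _ x =>
    induction c using QuotientGroup.induction_on with
    | _ y =>
      show (iwTKer hJ) (y : PGL(2, v.adicCompletion K) ⧸ J) (x : PGL(2, v.adicCompletion K) ⧸ J) = _
      rw [iwTKer, LKer.ofBiInvariant_apply, LKer.ofBiInvariant_apply, ← iwT_inv, _root_.mul_inv_rev,
        inv_inv]

theorem iwWKer_transpose (hJ : J = pglIwahori v)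
    (hϖ : Valued.v (ϖ : v.adicCompletion K) = WithZero.exp (-1 : ℤ)) :
    (iwWKer hJ hϖ).transpose = iwWKer hJ hϖ := by
  refine LKer.ext' fun a c => ?_
  induction a using QuotientGroup.induction_on with
  | _ x =>
    induction c using QuotientGroup.induction_on with
    | _ y =>
      show (iwWKer hJ hϖ) (y : PGL(2, v.adicCompletion K) ⧸ J)
        (x : PGL(2, v.adicCompletion K) ⧸ J) = _
      rw [iwWKer, LKer.ofBiInvariant_apply, LKer.ofBiInvariant_apply,
        ← iwW_inv (atkin_normalises' hJ hϖ) (hJ ▸ atkin_sq_mem ϖ), _root_.mul_inv_rev, inv_inv]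

end Fermat.Agent.LT.Descent
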