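import Fermat.Agent.LT.Tame.AdelicLevel
import Fermat.Agent.LT.Tame.Completion
import Fermat.Agent.LT.Boundary.Defs

/-!
# The levels of the descent

At a place over `3` the level is `K(3^m) · diag(O^×, 1)`, at a tame ramified place the preimage of
a nonsplit torus, at an auxiliary place the Iwahori group, and `GL₂(O)` elsewhere.
-/

set_option autoImplicit false

noncomputable section

namespace Fermat.Agent.LT.Descent

open IsDedekindDomain IsDedekindDomain.HeightOneSpectrum Matrix NumberField IsLocalRing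
open Fermat.Agent.LT.Adelic Fermat.Agent.LT.Aleph Fermat.Agent.LT.Tame
open scoped MatrixGroups

variable {K : Type*} [Field K] [NumberField K]

/-- `GL₂(O) → GL₂(K_v)`. -/
def intGL (v : HeightOneSpectrum (𝓞 K)) :
    GL (Fin 2) (v.adicCompletionIntegers K) →* GL (Fin 2) (v.adicCompletion K) :=
  GeneralLinearGroup.map (algebraMap (v.adicCompletionIntegers K) (v.adicCompletion K))

theorem intGL_apply (v : HeightOneSpectrum (𝓞 K)) (M : GL (Fin 2) (v.adicCompletionIntegers K))
    (i j : Fin 2) :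
    (intGL v M : Matrix (Fin 2) (Fin 2) (v.adicCompletion K)) i j =
      ((M : Matrix (Fin 2) (Fin 2) (v.adicCompletionIntegers K)) i j : v.adicCompletion K) := rfl

theorem isIntLocal_intGL {v : HeightOneSpectrum (𝓞 K)}
    (M : GL (Fin 2) (v.adicCompletionIntegers K)) : IsIntLocal (intGL v M) := fun i j => by
  rw [← map_inv, intGL_apply, intGL_apply]
  exact ⟨((M : Matrix (Fin 2) (Fin 2) (v.adicCompletionIntegers K)) i j).2,
    (((M⁻¹ : GL (Fin 2) (v.adicCompletionIntegers K)) :
      Matrix (Fin 2) (Fin 2) (v.adicCompletionIntegers K)) i j).2⟩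

theorem exists_intGL_eq {v : HeightOneSpectrum (𝓞 K)} {γ : GL (Fin 2) (v.adicCompletion K)}
    (h : IsIntLocal γ) : ∃ M, intGL v M = γ := by
  have hinj : Function.Injective fun M : Matrix (Fin 2) (Fin 2) (v.adicCompletionIntegers K) =>
      M.map (algebraMap (v.adicCompletionIntegers K) (v.adicCompletion K)) :=
    Matrix.map_injective Subtype.val_injective
  refine ⟨⟨Matrix.of fun i j => ⟨_, (h i j).1⟩, Matrix.of fun i j => ⟨_, (h i j).2⟩,
    hinj ?_, hinj ?_⟩, Units.ext (Matrix.ext fun i j => rfl)⟩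
  · simp only [Matrix.map_mul, Matrix.map_one _ (map_zero _) (map_one _)]
    exact γ.mul_inv
  · simp only [Matrix.map_mul, Matrix.map_one _ (map_zero _) (map_one _)]
    exact γ.inv_mul

/-- The congruence conditions of `K(3^m) · diag(O^×, 1)`. -/
def IsJMat (v : HeightOneSpectrum (𝓞 K)) (b : WithZero (Multiplicative ℤ))
    (A : Matrix (Fin 2) (Fin 2) (v.adicCompletion K)) : Prop :=
  Valued.v (A 0 1) ≤ b ∧ Valued.v (A 1 0) ≤ b ∧ Valued.v (A 1 1 - 1) ≤ b

theorem isJMat_one (v : HeightOneSpectrum (𝓞 K)) (b : WithZero (Multiplicative ℤ)) :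
    IsJMat v b 1 := by
  simp [IsJMat]

theorem IsJMat.mul {v : HeightOneSpectrum (𝓞 K)} {b : WithZero (Multiplicative ℤ)}
    {A B : Matrix (Fin 2) (Fin 2) (v.adicCompletion K)} (hA : IsJMat v b A) (hB : IsJMat v b B)
    (hAi : ∀ i j, Valued.v (A i j) ≤ 1) (hBi : ∀ i j, Valued.v (B i j) ≤ 1) :
    IsJMat v b (A * B) := by
  have hm : ∀ {x y : v.adicCompletion K}, Valued.v x ≤ 1 → Valued.v y ≤ b →
      Valued.v (x * y) ≤ b := fun {x y} hx hy => by
    rw [map_mul]; exact (mul_le_mul' hx hy).trans (one_mul b).le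
  simp only [IsJMat, Matrix.mul_apply, Fin.sum_univ_two]
  refine ⟨le_trans (Valuation.map_add _ _ _) (max_le (hm (hAi 0 0) hB.1) ?_),
    le_trans (Valuation.map_add _ _ _) (max_le ?_ (hm (hAi 1 1) hB.2.1)), ?_⟩
  · rw [mul_comm]; exact hm (hBi 1 1) hA.1
  · rw [mul_comm]; exact hm (hBi 0 0) hA.2.1
  · rw [show A 1 0 * B 0 1 + A 1 1 * B 1 1 - 1 =
      (A 1 0 * B 0 1 + A 1 1 * (B 1 1 - 1)) + (A 1 1 - 1) by ring]
    exact le_trans (Valuation.map_add _ _ _) (max_le (le_trans (Valuation.map_add _ _ _)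
      (max_le (hm (hAi 1 0) hB.1) (hm (hAi 1 1) hB.2.2))) hA.2.2)

/-- `K(b) · diag(O^×, 1)`. -/
def jLevel (v : HeightOneSpectrum (𝓞 K)) (b : WithZero (Multiplicative ℤ)) :
    Subgroup (GL (Fin 2) (v.adicCompletion K)) where
  carrier := {γ | IsIntLocal γ ∧ IsJMat v b γ.1 ∧ IsJMat v b (γ⁻¹).1}
  one_mem' := ⟨isIntLocal_one, isJMat_one v b, by rw [inv_one]; exact isJMat_one v b⟩
  inv_mem' h := ⟨h.1.inv, h.2.2, by rw [inv_inv]; exact h.2.1⟩
  mul_mem' {x y} hx hy := by
    refine ⟨hx.1.mul hy.1, ?_, ?_⟩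
    · rw [Units.val_mul]
      exact hx.2.1.mul hy.2.1 (fun i j => (hx.1 i j).1) fun i j => (hy.1 i j).1
    · rw [_root_.mul_inv_rev, Units.val_mul]
      exact hy.2.2.mul hx.2.2 (fun i j => (hy.1 i j).2) fun i j => (hx.1 i j).2

theorem mem_jLevel {v : HeightOneSpectrum (𝓞 K)} {b : WithZero (Multiplicative ℤ)}
    {γ : GL (Fin 2) (v.adicCompletion K)} :
    γ ∈ jLevel v b ↔ IsIntLocal γ ∧ IsJMat v b γ.1 ∧ IsJMat v b (γ⁻¹).1 := Iff.rfl

/-- Lower left entries in the maximal ideal. -/
def iwahori (v : HeightOneSpectrum (𝓞 K)) : Subgroup (GL (Fin 2) (v.adicCompletion K)) where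
  carrier := {γ | IsIntLocal γ ∧ Valued.v (γ.1 1 0) < 1 ∧ Valued.v ((γ⁻¹).1 1 0) < 1}
  one_mem' := ⟨isIntLocal_one, by simp, by rw [inv_one]; simp⟩
  inv_mem' h := ⟨h.1.inv, h.2.2, by rw [inv_inv]; exact h.2.1⟩
  mul_mem' {x y} hx hy := by
    have key : ∀ {A B : Matrix (Fin 2) (Fin 2) (v.adicCompletion K)},
        Valued.v (A 1 0) < 1 → Valued.v (B 1 0) < 1 → Valued.v (A 1 1) ≤ 1 →
        Valued.v (B 0 0) ≤ 1 → Valued.v ((A * B) 1 0) < 1 := by
      intro A B h1 h2 h3 h4
      rw [Matrix.mul_apply, Fin.sum_univ_two]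
      refine lt_of_le_of_lt (Valuation.map_add _ _ _) (max_lt ?_ ?_) <;> rw [map_mul]
      · exact lt_of_le_of_lt ((mul_le_mul' le_rfl h4).trans (mul_one _).le) h1
      · exact lt_of_le_of_lt ((mul_le_mul' h3 le_rfl).trans (one_mul _).le) h2
    refine ⟨hx.1.mul hy.1, ?_, ?_⟩
    · rw [Units.val_mul]; exact key hx.2.1 hy.2.1 (hx.1 1 1).1 (hy.1 0 0).1
    · rw [_root_.mul_inv_rev, Units.val_mul]
      exact key hy.2.2 hx.2.2 (hy.1 1 1).2 (hx.1 0 0).2

theorem mem_iwahori {v : HeightOneSpectrum (𝓞 K)} {γ : GL (Fin 2) (v.adicCompletion K)} :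
    γ ∈ iwahori v ↔
      IsIntLocal γ ∧ Valued.v (γ.1 1 0) < 1 ∧ Valued.v ((γ⁻¹).1 1 0) < 1 := Iff.rfl

/-- The preimage of the torus attached to `a`. -/
def torusLevel (v : HeightOneSpectrum (𝓞 K)) (a : ResidueField (v.adicCompletionIntegers K)) :
    Subgroup (GL (Fin 2) (v.adicCompletion K)) :=
  ((Tame.torus a).comap (GeneralLinearGroup.map (residue _))).map (intGL v)

theorem map_torusLevel (v : HeightOneSpectrum (𝓞 K))
    (a : ResidueField (v.adicCompletionIntegers K)) :
    (torusLevel v a).map ProjGenLinGroup.mk =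
      Tame.levelOf (v.adicCompletion K) (Tame.torus a) := by
  rw [torusLevel, Subgroup.map_map]
  rfl

variable (K) in
/-- The local data of a descent level. -/
structure LevelData where
  /-- exponent of the places over `3` -/
  m : ℕ
  /-- the tame places -/
  tame : Set (HeightOneSpectrum (𝓞 K))
  tame_finite : tame.Finite
  /-- the auxiliary places with Iwahori level -/
  aux : Set (HeightOneSpectrum (𝓞 K))
  aux_finite : aux.Finite
  /-- parameter of the torus -/
  a : ∀ v : HeightOneSpectrum (𝓞 K), ResidueField (v.adicCompletionIntegers K)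
  a_spec : ∀ v ∈ tame, ∀ t, t ^ 2 - t ≠ a v

namespace LevelData

variable (D : LevelData K)

open Classical in
/-- The local levels. -/
def loc (v : HeightOneSpectrum (𝓞 K)) : Subgroup (GL (Fin 2) (v.adicCompletion K)) :=
  if (3 : 𝓞 K) ∈ v.asIdeal then jLevel v (v.intValuation ((3 : 𝓞 K) ^ D.m))
  else if v ∈ D.tame then torusLevel v (D.a v)
  else if v ∈ D.aux then iwahori v
  else localFull K v

/-- The level. -/
def level : Subgroup (GfK K) := productLevel D.loc

theorem loc_le (v : HeightOneSpectrum (𝓞 K)) : D.loc v ≤ localFull K v := by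
  unfold loc
  split_ifs
  · exact fun γ h => h.1
  · rintro _ ⟨M, -, rfl⟩; exact isIntLocal_intGL M
  · exact fun γ h => h.1
  · exact le_rfl

theorem loc_of_three {v : HeightOneSpectrum (𝓞 K)} (h3 : (3 : 𝓞 K) ∈ v.asIdeal) :
    D.loc v = jLevel v (v.intValuation ((3 : 𝓞 K) ^ D.m)) := if_pos h3

theorem loc_of_tame {v : HeightOneSpectrum (𝓞 K)} (h3 : (3 : 𝓞 K) ∉ v.asIdeal) (h : v ∈ D.tame) :
    D.loc v = torusLevel v (D.a v) := by
  rw [loc, if_neg h3, if_pos h]

theorem loc_of_aux {v : HeightOneSpectrum (𝓞 K)} (h3 : (3 : 𝓞 K) ∉ v.asIdeal) (ht : v ∉ D.tame)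
    (h : v ∈ D.aux) : D.loc v = iwahori v := by
  rw [loc, if_neg h3, if_neg ht, if_pos h]

theorem loc_of_good {v : HeightOneSpectrum (𝓞 K)} (h3 : (3 : 𝓞 K) ∉ v.asIdeal) (ht : v ∉ D.tame)
    (h : v ∉ D.aux) : D.loc v = localFull K v := by
  rw [loc, if_neg h3, if_neg ht, if_neg h]

theorem finite_three : {v : HeightOneSpectrum (𝓞 K) | (3 : 𝓞 K) ∈ v.asIdeal}.Finite :=
  (Ideal.finite_factors (R := 𝓞 K) (I := Ideal.span {(3 : 𝓞 K)}) (by simp)).subset fun v hv =>
    (Ideal.dvd_iff_le).2 ((Ideal.span_singleton_le_iff_mem _).2 hv)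

theorem eventually_full : ∀ᶠ v in Filter.cofinite, localFull K v ≤ D.loc v := by
  have hs : ((finite_three (K := K)).toFinset ∪ D.tame_finite.toFinset ∪
      D.aux_finite.toFinset : Set (HeightOneSpectrum (𝓞 K))).Finite := Set.toFinite _
  filter_upwards [hs.compl_mem_cofinite] with v hv
  simp only [Set.mem_compl_iff, Set.mem_union, Set.Finite.coe_toFinset, Set.mem_ofPred_eq,
    not_or] at hv
  rw [D.loc_of_good hv.1.1 hv.1.2 hv.2]

open Classical in
/-- A modulus killing the level: `3 ^ m` times the norms of the tame and auxiliary places. -/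
def modulus : ℕ :=
  3 ^ D.m * ∏ v ∈ D.tame_finite.toFinset ∪ D.aux_finite.toFinset, Ideal.absNorm v.asIdeal

theorem modulus_ne_zero : D.modulus ≠ 0 :=
  mul_ne_zero (by positivity) (Finset.prod_ne_zero_iff.2 fun v _ => by
    rw [Ne, Ideal.absNorm_eq_zero_iff]; exact v.ne_bot)

theorem principalLevel_le : principalLevel K (D.modulus : 𝓞 K) ≤ D.level := by
  classical
  refine principalLevel_le_productLevel fun v γ hint hcong => ?_
  have hA : ∀ i j, Valued.v (((γ : Matrix (Fin 2) (Fin 2) (v.adicCompletion K)) - 1) i j) ≤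
      v.intValuation (D.modulus : 𝓞 K) := hcong
  have hdvd : v ∈ D.tame ∪ D.aux → v.intValuation (D.modulus : 𝓞 K) < 1 := fun h => by
    rw [v.intValuation_lt_one_iff_mem, modulus, Nat.cast_mul, Nat.cast_prod]
    refine v.asIdeal.mul_mem_left _ (Ideal.prod_mem v.asIdeal (i := v) ?_ (Ideal.absNorm_mem _))
    simpa using h
  by_cases h3 : (3 : 𝓞 K) ∈ v.asIdeal
  · rw [D.loc_of_three h3, mem_jLevel]
    have hb : v.intValuation (D.modulus : 𝓞 K) ≤ v.intValuation ((3 : 𝓞 K) ^ D.m) := by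
      rw [modulus, Nat.cast_mul, Nat.cast_pow, map_mul, Nat.cast_ofNat]
      exact (mul_le_mul' le_rfl (v.intValuation_le_one _)).trans (mul_one _).le
    have hinv : ∀ i j, Valued.v ((((γ⁻¹ : GL (Fin 2) (v.adicCompletion K)) :
        Matrix (Fin 2) (Fin 2) (v.adicCompletion K)) - 1) i j) ≤
        v.intValuation ((3 : 𝓞 K) ^ D.m) := fun i j => by
      have e : (((γ⁻¹ : GL (Fin 2) (v.adicCompletion K)) :
          Matrix (Fin 2) (Fin 2) (v.adicCompletion K)) - 1) =
          -((((γ⁻¹ : GL (Fin 2) (v.adicCompletion K)) : Matrix (Fin 2) (Fin 2) _)) *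
            ((γ : Matrix (Fin 2) (Fin 2) (v.adicCompletion K)) - 1)) := by
        rw [mul_sub, Units.inv_mul, mul_one, neg_sub]
      rw [e, Matrix.neg_apply, Valuation.map_neg, Matrix.mul_apply]
      refine Valuation.map_sum_le _ fun k _ => ?_
      rw [map_mul]
      exact (mul_le_mul' (hint i k).2 ((hA k j).trans hb)).trans (one_mul _).le
    refine ⟨hint, ?_, ?_⟩
    · exact ⟨by simpa using (hA 0 1).trans hb, by simpa using (hA 1 0).trans hb,
        by simpa using (hA 1 1).trans hb⟩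
    · exact ⟨by simpa using hinv 0 1, by simpa using hinv 1 0, by simpa using hinv 1 1⟩
  by_cases ht : v ∈ D.tame
  · rw [D.loc_of_tame h3 ht]
    obtain ⟨M, rfl⟩ := exists_intGL_eq hint
    refine ⟨M, ?_, rfl⟩
    have h1 : GeneralLinearGroup.map (residue (v.adicCompletionIntegers K)) M = 1 := by
      refine Units.ext (Matrix.ext fun i j => ?_)
      have hlt := lt_of_le_of_lt (hA i j) (hdvd (Or.inl ht))
      have hx : ((M : Matrix (Fin 2) (Fin 2) (v.adicCompletionIntegers K)) - 1) i j ∈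
          maximalIdeal (v.adicCompletionIntegers K) := by
        rw [CFT.Kummer.kl_mem_maximal_iff]
        refine lt_of_le_of_lt (le_of_eq ?_) hlt
        congr 1
        rw [Matrix.sub_apply, Matrix.sub_apply, intGL_apply, Matrix.one_apply, Matrix.one_apply]
        split <;> simp
      have h0 := (residue_eq_zero_iff _).2 hx
      rw [Matrix.sub_apply, map_sub, sub_eq_zero] at h0
      refine h0.trans ?_
      rw [Units.val_one, Matrix.one_apply, Matrix.one_apply]
      split <;> simp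
    rw [SetLike.mem_coe, Subgroup.mem_comap, h1]
    exact one_mem _
  by_cases ha : v ∈ D.aux
  · rw [D.loc_of_aux h3 ht ha, mem_iwahori]
    have h10 : Valued.v ((γ : Matrix (Fin 2) (Fin 2) (v.adicCompletion K)) 1 0) < 1 := by
      simpa using lt_of_le_of_lt (hA 1 0) (hdvd (Or.inr ha))
    refine ⟨hint, h10, ?_⟩
    rw [Matrix.coe_units_inv, Matrix.inv_def, Matrix.smul_apply, Matrix.adjugate_fin_two]
    simp only [Matrix.cons_val', Matrix.cons_val_one, Matrix.cons_val_zero, Matrix.of_apply,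
      Matrix.empty_val', Matrix.cons_val_fin_one, smul_eq_mul]
    rw [map_mul, Valuation.map_neg]
    refine lt_of_le_of_lt ((mul_le_mul' ?_ le_rfl).trans (one_mul _).le) h10
    have hd : ((γ : Matrix (Fin 2) (Fin 2) (v.adicCompletion K)).det)⁻¹ =
        ((γ⁻¹ : GL (Fin 2) (v.adicCompletion K)) : Matrix (Fin 2) (Fin 2) _).det := by
      refine inv_eq_of_mul_eq_one_right ?_
      rw [← Matrix.det_mul, Units.mul_inv, Matrix.det_one]
    rw [Ring.inverse_eq_inv', hd, Matrix.det_fin_two]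
    refine le_trans (Valuation.map_sub _ _ _) (max_le ?_ ?_) <;> rw [map_mul] <;>
      exact mul_le_one' (hint _ _).2 (hint _ _).2
  · rw [D.loc_of_good h3 ht ha]
    exact hint

theorem level_le : D.level ≤ principalLevel K (1 : 𝓞 K) := productLevel_le D.loc_le

theorem isLevel : IsLevel D.level :=
  ⟨(D.modulus : 𝓞 K), Nat.cast_ne_zero.2 D.modulus_ne_zero, D.principalLevel_le, D.level_le⟩

/-- The unit diagonal matrix. -/
def unitDiag {R : Type*} [CommRing R] (c : Rˣ) : GL (Fin 2) R := diag2 c 1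

theorem exists_det_loc (v : HeightOneSpectrum (𝓞 K)) (c : (v.adicCompletion K)ˣ)
    (hc : Valued.v (c : v.adicCompletion K) = 1) :
    ∃ γ ∈ D.loc v, GeneralLinearGroup.det γ = c := by
  have hdet : ∀ {R : Type _} [CommRing R] (d : Rˣ),
      GeneralLinearGroup.det (diag2 d (1 : Rˣ)) = d := fun {R} _ d => by
    ext; simp [diag2, Matrix.det_fin_two]
  have hci : Valued.v ((c⁻¹ : (v.adicCompletion K)ˣ) : v.adicCompletion K) = 1 := by
    rw [Units.val_inv_eq_inv_val, map_inv₀, hc, inv_one]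
  have hint : IsIntLocal (diag2 c 1 : GL (Fin 2) (v.adicCompletion K)) := fun i j => by
    constructor <;> fin_cases i <;> fin_cases j <;> simp [diag2, hc]
  by_cases h3 : (3 : 𝓞 K) ∈ v.asIdeal
  · rw [D.loc_of_three h3]
    exact ⟨_, ⟨hint, by simp [IsJMat], by simp [IsJMat, diag2]⟩, hdet c⟩
  by_cases ht : v ∈ D.tame
  · rw [D.loc_of_tame h3 ht]
    have := Tame.finite_residueField v
    let c₀ : (v.adicCompletionIntegers K)ˣ :=
      ⟨⟨c, hc.le⟩, ⟨((c⁻¹ : (v.adicCompletion K)ˣ) : v.adicCompletion K), hci.le⟩,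
        Subtype.ext c.mul_inv, Subtype.ext c.inv_mul⟩
    obtain ⟨g, hg, hgd⟩ := Tame.exists_torus_det_eq (a := D.a v) (D.a_spec v ht)
      (Units.map (residue (v.adicCompletionIntegers K) : _ →* _) c₀)
    obtain ⟨M₀, hM₀⟩ : ∃ M : GL (Fin 2) (v.adicCompletionIntegers K),
        GeneralLinearGroup.map (residue (v.adicCompletionIntegers K)) M = g := by
      choose f hf using fun i j => residue_surjective
        ((g : Matrix (Fin 2) (Fin 2) (ResidueField (v.adicCompletionIntegers K))) i j)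
      have hd : IsUnit (Matrix.of f).det := isUnit_of_map_unit (residue _) _ (by
        rw [RingHom.map_det, show (residue _).mapMatrix (Matrix.of f) =
          (g : Matrix (Fin 2) (Fin 2) (ResidueField (v.adicCompletionIntegers K))) from
            Matrix.ext hf]
        exact (Matrix.isUnit_iff_isUnit_det _).1 g.isUnit)
      exact ⟨GeneralLinearGroup.mk'' _ hd, Units.ext (Matrix.ext hf)⟩
    set e : (v.adicCompletionIntegers K)ˣ := (GeneralLinearGroup.det M₀)⁻¹ * c₀ with he
    refine ⟨intGL v (M₀ * diag2 e 1), ⟨M₀ * diag2 e 1, ?_, rfl⟩, ?_⟩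
    · rw [SetLike.mem_coe, Subgroup.mem_comap, map_mul, hM₀]
      refine Subgroup.mul_mem _ hg ?_
      have h1 : residue (v.adicCompletionIntegers K) (e : v.adicCompletionIntegers K) = 1 := by
        have hd : residue (v.adicCompletionIntegers K)
            (GeneralLinearGroup.det M₀ : v.adicCompletionIntegers K) =
            residue (v.adicCompletionIntegers K) (c₀ : v.adicCompletionIntegers K) := by
          rw [GeneralLinearGroup.val_det_apply, RingHom.map_det]
          exact (congrArg (fun y : GL (Fin 2) (ResidueField (v.adicCompletionIntegers K)) =>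
            (y : Matrix (Fin 2) (Fin 2) (ResidueField (v.adicCompletionIntegers K))).det)
            hM₀).trans hgd
        rw [he, Units.val_mul, map_mul, ← hd, ← map_mul, Units.inv_mul, map_one]
      convert one_mem (Tame.torus (D.a v))
      ext i j
      fin_cases i <;> fin_cases j <;> simp [diag2, h1]
    · rw [intGL, GeneralLinearGroup.map_det, map_mul, hdet, he, mul_inv_cancel_left]
      ext
      rfl
  by_cases ha : v ∈ D.aux
  · rw [D.loc_of_aux h3 ht ha]
    exact ⟨_, ⟨hint, by simp, by simp [diag2]⟩, hdet c⟩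
  · rw [D.loc_of_good h3 ht ha]
    exact ⟨_, hint, hdet c⟩

theorem hasFullDet : HasFullDet D.level := fun u hu hu' =>
  exists_det_eq D.loc_le D.exists_det_loc u hu hu'

end LevelData

end Fermat.Agent.LT.Descent
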