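import Fermat.Agent.LT.Descent.IwahoriKernel
import Fermat.Agent.LT.Descent.Levels
import Fermat.Agent.LT.Aleph.HeckeCoset

/-!
# The Iwahori relations at a place

In `PGL₂(K_v)` with `H` the image of `GL₂(O_v)` and `J` that of the Iwahori group: `J` has
`N v + 1` cosets in `H`; `ω = [[0, -1], [ϖ, 0]]` normalises `J`; `t * w` is the indicator of
`E₁`, and `Eₙ * E₁ = Eₙ₊₁` where `Eₙ = ⋃_b n(b) diag(ϖⁿ, 1) J`.
-/

set_option autoImplicit false
set_option linter.unusedSectionVars false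

noncomputable section

namespace Fermat.Agent.LT.Descent

open IsDedekindDomain IsDedekindDomain.HeightOneSpectrum Matrix NumberField
open Fermat.Agent.LT.Adelic Fermat.Agent.LT.Aleph Fermat.Agent.LT.Tame
open scoped MatrixGroups

variable {K : Type*} [Field K] [NumberField K] (v : HeightOneSpectrum (𝓞 K))

local notation "Kv" => v.adicCompletion K

/-- The image of `GL₂(O_v)`. -/
def pglFull : Subgroup PGL(2, Kv) := (localFull K v).map ProjGenLinGroup.mk

/-- The image of the Iwahori group. -/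
def pglIwahori : Subgroup PGL(2, Kv) := (iwahori v).map ProjGenLinGroup.mk

theorem pglIwahori_le : pglIwahori v ≤ pglFull v :=
  Subgroup.map_mono fun _ h => h.1

variable {v}

theorem mem_iwahori_of {γ : GL (Fin 2) Kv}
    (hint : ∀ i j, Valued.v ((γ : Matrix (Fin 2) (Fin 2) Kv) i j) ≤ 1)
    (hdet : Valued.v (γ : Matrix (Fin 2) (Fin 2) Kv).det = 1)
    (h10 : Valued.v ((γ : Matrix (Fin 2) (Fin 2) Kv) 1 0) < 1) : γ ∈ iwahori v := by
  refine ⟨isIntLocal_of_det hint hdet, h10, ?_⟩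
  rw [Matrix.coe_units_inv, Matrix.inv_def, Matrix.smul_apply, smul_eq_mul, map_mul,
    Ring.inverse_eq_inv', map_inv₀, hdet, inv_one, one_mul, Matrix.adjugate_fin_two]
  simpa using h10

theorem mk_mem_pglIwahori_of {γ : GL (Fin 2) Kv}
    (hint : ∀ i j, Valued.v ((γ : Matrix (Fin 2) (Fin 2) Kv) i j) ≤ 1)
    (hdet : Valued.v (γ : Matrix (Fin 2) (Fin 2) Kv).det = 1)
    (h10 : Valued.v ((γ : Matrix (Fin 2) (Fin 2) Kv) 1 0) < 1) :
    ProjGenLinGroup.mk γ ∈ pglIwahori v :=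
  Subgroup.mem_map_of_mem _ (mem_iwahori_of hint hdet h10)

theorem coe_scalar_mul (c : Kvˣ) (γ : GL (Fin 2) Kv) (i j : Fin 2) :
    ((γ * GeneralLinearGroup.scalar (Fin 2) c : GL (Fin 2) Kv) : Matrix (Fin 2) (Fin 2) Kv) i j =
      (c : Kv) * (γ : Matrix (Fin 2) (Fin 2) Kv) i j := by
  fin_cases i <;> fin_cases j <;>
    simp [GeneralLinearGroup.scalar, Matrix.mul_apply, mul_comm]

/-- An integral representative of an element of `J` lies in the Iwahori group. -/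
theorem lt_one_of_mk_mem {γ : GL (Fin 2) Kv} (hγ : IsIntLocal γ)
    (h : ProjGenLinGroup.mk γ ∈ pglIwahori v) :
    Valued.v ((γ : Matrix (Fin 2) (Fin 2) Kv) 1 0) < 1 := by
  obtain ⟨δ, hδ, hδg⟩ := Subgroup.mem_map.1 h
  obtain ⟨c, hc⟩ := ProjGenLinGroup.mk_eq_mk_iff.1 hδg
  have hdetδ := hδ.1.valued_det
  have hdet := hγ.valued_det
  have hγe : ∀ i j, (γ : Matrix (Fin 2) (Fin 2) Kv) i j =
      (c : Kv) * (δ : Matrix (Fin 2) (Fin 2) Kv) i j := fun i j => by
    rw [← coe_scalar_mul, hc]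
  have hd : (γ : Matrix (Fin 2) (Fin 2) Kv).det =
      (c : Kv) ^ 2 * (δ : Matrix (Fin 2) (Fin 2) Kv).det := by
    rw [Matrix.det_fin_two, Matrix.det_fin_two, hγe, hγe, hγe, hγe]; ring
  rw [hd, map_mul, hdetδ, mul_one, map_pow] at hdet
  have hc1 : Valued.v (c : Kv) = 1 := by
    rcases lt_trichotomy (Valued.v (c : Kv)) 1 with h1 | h1 | h1
    · exact absurd hdet (pow_lt_one₀ zero_le h1 two_ne_zero).ne
    · exact h1
    · exact absurd hdet (one_lt_pow₀ h1 two_ne_zero).ne'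
  rw [hγe, map_mul, hc1, one_mul]
  exact hδ.2.1

theorem mem_pglIwahori_of_mul {g h : PGL(2, Kv)} (hg : g ∈ pglIwahori v) :
    g * h ∈ pglIwahori v ↔ h ∈ pglIwahori v := (pglIwahori v).mul_mem_cancel_left hg

/-! ### The Atkin-Lehner element -/

/-- `[[0, -1], [ϖ, 0]]`. -/
def atkinMat (ϖ : Kvˣ) : GL (Fin 2) Kv := weyl * diag2 ϖ 1

/-- The Atkin-Lehner element in `PGL₂`. -/
def atkin (ϖ : Kvˣ) : PGL(2, Kv) := ProjGenLinGroup.mk (atkinMat ϖ)

theorem coe_atkinMat (ϖ : Kvˣ) :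
    ((atkinMat ϖ : GL (Fin 2) Kv) : Matrix (Fin 2) (Fin 2) Kv) = !![0, -1; (ϖ : Kv), 0] := by
  rw [atkinMat, Units.val_mul, coe_weyl, coe_diag2, Matrix.mul_fin_two]
  simp

theorem atkinMat_sq (ϖ : Kvˣ) :
    atkinMat ϖ * atkinMat ϖ = GeneralLinearGroup.scalar (Fin 2) (-ϖ) := by
  refine Units.ext ?_
  rw [Units.val_mul, coe_atkinMat, Matrix.mul_fin_two]
  ext i j
  fin_cases i <;> fin_cases j <;> simp [GeneralLinearGroup.scalar]

theorem atkin_sq (ϖ : Kvˣ) : atkin ϖ * atkin ϖ = 1 := by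
  rw [atkin, ← map_mul, atkinMat_sq, ProjGenLinGroup.mk_scalar]

theorem atkin_sq_mem (ϖ : Kvˣ) : atkin ϖ * atkin ϖ ∈ pglIwahori v := by
  rw [atkin_sq]; exact one_mem _

theorem atkin_inv (ϖ : Kvˣ) : (atkin ϖ)⁻¹ = atkin ϖ := inv_eq_of_mul_eq_one_right (atkin_sq ϖ)

theorem valued_pi_lt {ϖ : Kvˣ} (hϖ : Valued.v (ϖ : Kv) = WithZero.exp (-1 : ℤ)) :
    Valued.v (ϖ : Kv) < 1 := by
  rw [hϖ, ← WithZero.exp_zero, WithZero.exp_lt_exp]; omega

/-- `ω` normalises `J`. -/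
theorem atkin_normalises {ϖ : Kvˣ} (hϖ : Valued.v (ϖ : Kv) = WithZero.exp (-1 : ℤ)) (k : PGL(2, Kv)) (hk : k ∈ pglIwahori v) :
    (atkin ϖ)⁻¹ * k * atkin ϖ ∈ pglIwahori v := by
  obtain ⟨γ, hγ, rfl⟩ := Subgroup.mem_map.1 hk
  rw [atkin, ← map_inv, ← map_mul, ← map_mul]
  have hϖ0 := ϖ.ne_zero
  set M := (γ : Matrix (Fin 2) (Fin 2) Kv) with hM
  have e : (((atkinMat ϖ)⁻¹ * γ * atkinMat ϖ : GL (Fin 2) Kv) : Matrix (Fin 2) (Fin 2) Kv) =
      !![M 1 1, -((ϖ : Kv)⁻¹ * M 1 0); -((ϖ : Kv) * M 0 1), M 0 0] := by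
    rw [Units.val_mul, Units.val_mul, coe_atkinMat, ← hM,
      show (((atkinMat ϖ)⁻¹ : GL (Fin 2) Kv) : Matrix (Fin 2) (Fin 2) Kv) =
        !![((ϖ⁻¹ : Kvˣ) : Kv), 0; 0, ((1⁻¹ : Kvˣ) : Kv)] * !![0, 1; -1, 0] from rfl]
    refine Matrix.ext fun i j => ?_
    fin_cases i <;> fin_cases j <;> simp [Matrix.mul_apply, Fin.sum_univ_two, Matrix.vecMul, dotProduct] <;> field_simp
  refine mk_mem_pglIwahori_of (fun i j => ?_) ?_ ?_ <;> rw [e]
  · have h10 : Valued.v ((ϖ : Kv)⁻¹ * M 1 0) ≤ 1 := by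
      rw [map_mul, map_inv₀, hϖ, ← WithZero.exp_neg, neg_neg]
      calc WithZero.exp (1 : ℤ) * Valued.v (M 1 0)
          ≤ WithZero.exp (1 : ℤ) * WithZero.exp (-1 : ℤ) :=
            mul_le_mul_of_nonneg_left (le_exp_neg_one_of_lt_one hγ.2.1) zero_le
        _ = 1 := by rw [← WithZero.exp_add, add_neg_cancel, WithZero.exp_zero]
    have h01 : Valued.v ((ϖ : Kv) * M 0 1) ≤ 1 := by
      rw [map_mul]; exact mul_le_one' (valued_pi_lt hϖ).le (hγ.1 0 1).1
    fin_cases i <;> fin_cases j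
    · simpa using (hγ.1 1 1).1
    · simpa using h10
    · simpa using h01
    · simpa using (hγ.1 0 0).1
  · rw [Matrix.det_fin_two_of, show M 1 1 * M 0 0 - -((ϖ : Kv)⁻¹ * M 1 0) * -((ϖ : Kv) * M 0 1) =
      M.det by rw [Matrix.det_fin_two]; field_simp]
    exact hγ.1.valued_det
  · simp only [Matrix.cons_val', Matrix.cons_val_one, Matrix.cons_val_zero, Matrix.of_apply,
      Matrix.empty_val', Matrix.cons_val_fin_one, Valuation.map_neg, map_mul]
    exact lt_of_le_of_lt ((mul_le_mul' le_rfl (hγ.1 0 1).1).trans (mul_one _).le) (valued_pi_lt hϖ)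

/-! ### The cosets -/

/-- The cosets of the Iwahori group. -/
def iwRep (v : HeightOneSpectrum (𝓞 K)) : Option (𝓞 K ⧸ v.asIdeal) → GL (Fin 2) (v.adicCompletion K)
  | some r => unipotent (repParam r) * weyl
  | none => 1

theorem coe_iwRep_some (r : 𝓞 K ⧸ v.asIdeal) :
    ((iwRep v (some r) : GL (Fin 2) Kv) : Matrix (Fin 2) (Fin 2) Kv) =
      !![repParam r, -1; 1, 0] := by
  rw [iwRep, Units.val_mul, coe_unipotent, coe_weyl, Matrix.mul_fin_two]
  simp

theorem isIntLocal_iwRep (o : Option (𝓞 K ⧸ v.asIdeal)) : IsIntLocal (iwRep v o) := by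
  cases o with
  | none => exact isIntLocal_one
  | some r => exact (isIntLocal_unipotent (valued_repParam_le r)).mul isIntLocal_weyl

theorem exists_iwRep {γ : GL (Fin 2) Kv} (hγ : IsIntLocal γ) :
    ∃ o, ((iwRep v o)⁻¹ * γ) ∈ iwahori v := by
  rcases lt_or_eq_of_le (hγ 1 0).1 with hc | hc
  · exact ⟨none, by rw [iwRep, inv_one, one_mul]; exact mem_iwahori_of (fun i j => (hγ i j).1) hγ.valued_det hc⟩
  · set M := (γ : Matrix (Fin 2) (Fin 2) Kv) with hM
    obtain ⟨r₀, hr₀⟩ := exists_int_sub_le v (x := M 0 0 * (M 1 0)⁻¹)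
      (by rw [map_mul, map_inv₀, hc, inv_one, mul_one]; exact (hγ 0 0).1) 1
    refine ⟨some (Ideal.Quotient.mk _ r₀), ?_⟩
    set t := repParam (K := K) (Ideal.Quotient.mk v.asIdeal r₀) with ht
    have hrr : Valued.v (algebraMap K Kv (algebraMap (𝓞 K) K r₀) - t) < 1 := by
      rw [ht, repParam, ← map_sub, ← map_sub, valued_intMap, intValuation_lt_one_iff_mem]
      exact Ideal.Quotient.eq.mp (Ideal.Quotient.mk_out _).symm
    have hc0 : M 1 0 ≠ 0 := fun h0 => by rw [h0, map_zero] at hc; exact zero_ne_one hc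
    have hkey : Valued.v (M 0 0 - t * M 1 0) < 1 := by
      have e : M 0 0 - t * M 1 0 = (M 0 0 * (M 1 0)⁻¹ -
          algebraMap K Kv (algebraMap (𝓞 K) K r₀) +
          (algebraMap K Kv (algebraMap (𝓞 K) K r₀) - t)) * M 1 0 := by
        field_simp; ring
      rw [e, map_mul, hc, mul_one]
      refine lt_of_le_of_lt (Valuation.map_add _ _ _) (max_lt ?_ hrr)
      refine lt_of_le_of_lt hr₀ ?_
      rw [← WithZero.exp_zero, WithZero.exp_lt_exp]; norm_num
    have hI : IsIntLocal ((iwRep v (some (Ideal.Quotient.mk v.asIdeal r₀)))⁻¹ * γ) :=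
      (isIntLocal_iwRep _).inv.mul hγ
    refine mem_iwahori_of (fun i j => (hI i j).1) hI.valued_det ?_
    rw [iwRep, _root_.mul_inv_rev, Units.val_mul, Units.val_mul, ← hM, ← ht,
      show ((weyl⁻¹ : GL (Fin 2) Kv) : Matrix (Fin 2) (Fin 2) Kv) = !![0, 1; -1, 0] from rfl,
      show (((unipotent t)⁻¹ : GL (Fin 2) Kv) : Matrix (Fin 2) (Fin 2) Kv) = !![1, -t; 0, 1] from rfl]
    simp [Matrix.mul_apply, Fin.sum_univ_two]
    rwa [← Valuation.map_neg, neg_add, neg_neg, ← sub_eq_add_neg]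

theorem iwRep_inj {o o' : Option (𝓞 K ⧸ v.asIdeal)}
    (h : ((iwRep v o)⁻¹ * iwRep v o') ∈ iwahori v) : o = o' := by
  have some_none : ∀ r, (iwRep v (some r))⁻¹ * iwRep v none ∉ iwahori v := by
    intro r hi
    have := hi.2.2
    rw [iwRep, iwRep, mul_one, inv_inv] at this
    simp [Matrix.mul_apply, Fin.sum_univ_two] at this
  rcases o with _ | r <;> rcases o' with _ | r'
  · rfl
  · exact absurd (by simpa [_root_.mul_inv_rev] using (iwahori v).inv_mem h) (some_none r')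
  · exact absurd h (some_none r)
  · have := h.2.1
    rw [iwRep, iwRep, _root_.mul_inv_rev, Units.val_mul, Units.val_mul, Units.val_mul,
      show ((weyl⁻¹ : GL (Fin 2) Kv) : Matrix (Fin 2) (Fin 2) Kv) = !![0, 1; -1, 0] from rfl,
      show (((unipotent (repParam r))⁻¹ : GL (Fin 2) Kv) : Matrix (Fin 2) (Fin 2) Kv) =
        !![1, -repParam r; 0, 1] from rfl, coe_unipotent, coe_weyl] at this
    simp [Matrix.mul_apply, Fin.sum_univ_two] at this
    rw [neg_add_eq_sub, repParam, repParam, ← map_sub, ← map_sub, valued_intMap,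
      intValuation_lt_one_iff_mem] at this
    rw [← Ideal.Quotient.mk_out r, ← Ideal.Quotient.mk_out r']
    exact congrArg _ (Ideal.Quotient.eq.mpr this)

theorem lvlCosets_eq_range (v : HeightOneSpectrum (𝓞 K)) :
    lvlCosets (pglFull v) (pglIwahori v) =
      Set.range fun o => ((ProjGenLinGroup.mk (iwRep v o) : PGL(2, v.adicCompletion K)) :
        PGL(2, v.adicCompletion K) ⧸ pglIwahori v) := by
  ext c
  constructor
  · rintro ⟨g, hg, rfl⟩
    obtain ⟨γ, hγ, rfl⟩ := Subgroup.mem_map.1 hg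
    obtain ⟨o, ho⟩ := exists_iwRep hγ
    exact ⟨o, QuotientGroup.eq.2 (by rw [← map_inv, ← map_mul]; exact Subgroup.mem_map_of_mem _ ho)⟩
  · rintro ⟨o, rfl⟩
    exact ⟨_, Subgroup.mem_map_of_mem _ (isIntLocal_iwRep o), rfl⟩

theorem iwRep_coset_injective (v : HeightOneSpectrum (𝓞 K)) :
    Function.Injective fun o => ((ProjGenLinGroup.mk (iwRep v o) : PGL(2, v.adicCompletion K)) :
        PGL(2, v.adicCompletion K) ⧸ pglIwahori v) := fun o o' he => by
  have h := QuotientGroup.eq.1 he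
  rw [← map_inv, ← map_mul] at h
  have hint : IsIntLocal ((iwRep v o)⁻¹ * iwRep v o') :=
    (isIntLocal_iwRep o).inv.mul (isIntLocal_iwRep o')
  exact iwRep_inj (mem_iwahori_of (fun i j => (hint i j).1) hint.valued_det (lt_one_of_mk_mem hint h))

instance finite_residueQuot (v : HeightOneSpectrum (𝓞 K)) : Finite (𝓞 K ⧸ v.asIdeal) :=
  Ideal.finiteQuotientOfFreeOfNeBot _ v.ne_bot

theorem finite_lvlCosets (v : HeightOneSpectrum (𝓞 K)) :
    (lvlCosets (pglFull v) (pglIwahori v)).Finite := by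
  rw [lvlCosets_eq_range]; exact Set.finite_range _

/-- `J` has `N v + 1` cosets in `H`. -/
theorem ncard_lvlCosets (v : HeightOneSpectrum (𝓞 K)) :
    (lvlCosets (pglFull v) (pglIwahori v)).ncard = Ideal.absNorm v.asIdeal + 1 := by
  rw [lvlCosets_eq_range, Set.ncard_range_of_injective (iwRep_coset_injective v), Finite.card_option,
    Ideal.absNorm_apply, Submodule.cardQuot_apply]

end Fermat.Agent.LT.Descent
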