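import Fermat.Agent.LT.Adelic.Measure
import Fermat.Agent.LT.Adelic.Projective
import Mathlib.MeasureTheory.Integral.Bochner.Basic

/-!
# Test functions for the cubic descent

A test function is a finite invariant matrix on the discrete set `Yf U` times one invariant
point-pair kernel at each infinite place. `HasFibreMatch` is the form in which the local matchings
are consumed: orbital integrals are never needed, only equal fibre sums over a common equivariant
quotient.
-/

set_option autoImplicit false

noncomputable section

namespace Fermat.Agent.LT.Descent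

open Fermat.Agent.LT.Adelic MeasureTheory NumberField IsDedekindDomain
open scoped MatrixGroups

/-- An invariant point-pair kernel on hyperbolic three space, of bounded range. -/
structure PPKer where
  /-- the kernel -/
  toFun : HSpace → HSpace → ℂ
  smul' : ∀ (g : GL (Fin 2) ℂ) (p q : HSpace), toFun (g • p) (g • q) = toFun p q
  continuous' : Continuous fun x : HSpace × HSpace => toFun x.1 x.2
  bounded' : ∃ T : ℝ, ∀ p q, T < HSpace.coshDist p q → toFun p q = 0

namespace PPKer

instance : CoeFun PPKer fun _ => HSpace → HSpace → ℂ := ⟨PPKer.toFun⟩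

/-- The kernel of a function of the hyperbolic cosine of the distance. -/
def ofProfile (k : ℝ → ℂ) (hk : Continuous k) (hc : HasCompactSupport k) : PPKer where
  toFun p q := k (HSpace.coshDist p q)
  smul' g p q := by rw [HSpace.coshDist_smul]
  continuous' := by
    refine hk.comp ?_
    have hz := HSpace.continuous_z
    have hr := HSpace.continuous_r
    unfold HSpace.coshDist
    refine Continuous.div ?_ ?_ fun x => ?_
    · fun_prop
    · fun_prop
    · exact (mul_pos (mul_pos two_pos x.1.r_pos) x.2.r_pos).ne'
  bounded' := by
    obtain ⟨T, hT⟩ := hc.isCompact.bddAbove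
    refine ⟨T, fun p q h => ?_⟩
    by_contra hne
    exact absurd (hT (subset_tsupport _ (Function.mem_support.mpr hne))) (not_le.mpr h)

end PPKer

variable {K : Type*} [Field K] [NumberField K] {ι : Type*}

/-- An invariant matrix on `Yf U` with finitely many nonzero entries in each row and column. -/
structure HKer (U : Subgroup (GfK K)) where
  /-- the matrix -/
  toFun : Yf U → Yf U → ℂ
  smul' : ∀ (g : GfK K) (y y' : Yf U), toFun (g • y) (g • y') = toFun y y'
  finite_row : ∀ y, (Function.support (toFun y)).Finite
  finite_col : ∀ y', (Function.support fun y => toFun y y').Finite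

namespace HKer

variable {U : Subgroup (GfK K)}

instance : CoeFun (HKer U) fun _ => Yf U → Yf U → ℂ := ⟨HKer.toFun⟩

/-- Composition of matrices. -/
def comp (f g : HKer U) : HKer U where
  toFun y z := ∑ᶠ w, f y w * g w z
  smul' γ y z := by
    rw [← finsum_comp_equiv (MulAction.toPerm γ : Equiv.Perm (Yf U))]
    simp only [MulAction.toPerm_apply, f.smul', g.smul']
  finite_row y := by
    refine ((f.finite_row y).biUnion fun w _ => g.finite_row w).subset fun z hz => ?_
    obtain ⟨w, hw⟩ := not_forall.mp fun h => hz (finsum_eq_zero_of_forall_eq_zero h)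
    exact Set.mem_biUnion (left_ne_zero_of_mul hw) (right_ne_zero_of_mul hw)
  finite_col z := by
    refine ((g.finite_col z).biUnion fun w _ => f.finite_col w).subset fun y hy => ?_
    obtain ⟨w, hw⟩ := not_forall.mp fun h => hy (finsum_eq_zero_of_forall_eq_zero h)
    exact Set.mem_biUnion (right_ne_zero_of_mul hw) (left_ne_zero_of_mul hw)

/-- The identity matrix. -/
def id (U : Subgroup (GfK K)) : HKer U where
  toFun := by classical exact fun y z => if y = z then 1 else 0
  smul' γ y z := by
    classical
    show (if γ • y = γ • z then (1 : ℂ) else 0) = if y = z then 1 else 0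
    exact if_congr (MulAction.injective γ).eq_iff rfl rfl
  finite_row y := (Set.finite_singleton y).subset fun z hz => by
    by_contra h; exact hz (if_neg (Ne.symm h))
  finite_col z := (Set.finite_singleton z).subset fun y hy => by
    by_contra h; exact hy (if_neg h)

/-- The matrix of `heckeOp D`. -/
def ofDoubleCoset (hU : IsLevel U) (D : GfK K) : HKer U where
  toFun := by classical exact fun y z => if z ∈ nbrs D y then 1 else 0
  smul' γ y z := by
    have h : γ • z ∈ nbrs D (γ • y) ↔ z ∈ nbrs D y := by
      rw [nbrs_smul]
      exact ⟨fun ⟨w, hw, he⟩ => smul_left_cancel γ he ▸ hw, fun hz => ⟨z, hz, rfl⟩⟩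
    classical
    show (if γ • z ∈ nbrs D (γ • y) then (1 : ℂ) else 0) = if z ∈ nbrs D y then 1 else 0
    exact if_congr h rfl rfl
  finite_row y := (finite_nbrs hU D y).subset fun z hz => by
    by_contra h; exact hz (if_neg h)
  finite_col z := by
    refine (finite_nbrs hU D⁻¹ z).subset fun y hy => ?_
    have hz : z ∈ nbrs D y := by by_contra h; exact hy (if_neg h)
    obtain ⟨g, rfl, u, hu, rfl⟩ := hz
    rw [nbrs_mk]
    exact ⟨1, one_mem U, QuotientGroup.eq.mpr (le_levelZ U (by simpa [mul_assoc] using inv_mem hu))⟩

end HKer

variable {Φ : Frame K ι} {U : Subgroup (GfK K)} [Fintype ι]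

/-- The kernel of a test function on the space. -/
def testKernel (k : ι → PPKer) (f : HKer U) (x x' : Space Φ U) : ℂ :=
  f x.fin x'.fin * ∏ i, k i (x.pt i) (x'.pt i)

theorem testKernel_smul (k : ι → PPKer) (f : HKer U) (γ : GL (Fin 2) K) (x x' : Space Φ U) :
    testKernel k f (γ • x) (γ • x') = testKernel k f x x' := by
  show f.toFun (toGf K γ • x.fin) (toGf K γ • x'.fin) *
    ∏ i, (k i).toFun (Φ.toInf i γ • x.pt i) (Φ.toInf i γ • x'.pt i) = _
  simp only [HKer.smul', PPKer.smul']
  rfl

theorem testKernel_pglSmul (k : ι → PPKer) (f : HKer U) (γ : PGL(2, K)) (x x' : Space Φ U) :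
    testKernel k f (γ • x) (γ • x') = testKernel k f x x' := by
  induction γ using Matrix.ProjGenLinGroup.induction_on with
  | mk g => exact testKernel_smul k f g x x'

/-- The operator of a test function, on all functions. -/
def testOp (k : ι → PPKer) (f : HKer U) (φ : Space Φ U → ℂ) (x : Space Φ U) : ℂ :=
  ∫ x', testKernel k f x x' * φ x' ∂Space.measure Φ U

/-- A cubic extension of the base with an automorphism permuting the frame cyclically. -/
structure CubicTwist {K K' : Type*} [Field K] [Field K'] [NumberField K] [NumberField K']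
    [Algebra K K'] (Φ : Frame K Unit) (Φ' : Frame K' (Fin 3)) where
  /-- the generator -/
  σ : K' ≃ₐ[K] K'
  order_three : ∀ x, σ (σ (σ x)) = x
  fixed : ∀ x, σ x = x → x ∈ Set.range (algebraMap K K')
  emb_base : ∀ i, (Φ'.emb i).comp (algebraMap K K') = Φ.emb ()
  emb_twist : ∀ i x, Φ'.emb i (σ x) = Φ'.emb (i + 1) x

section Match

/-- `f` and `f'` have the same fibre sums along equivariant partial maps to `Y` defined on their
supports. The target is `Y` itself so that a weight on the base pulls back to both sides. -/
def HasFibreMatch (T : Type*) [Group T] {Y : Type*} [MulAction T Y] {Y' : Type*}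
    [MulAction T Y'] (f : Y → ℂ) (f' : Y' → ℂ) : Prop :=
  ∃ (p : Y → Option Y) (p' : Y' → Option Y),
    (∀ (t : T) y, p (t • y) = (p y).map (t • ·)) ∧
    (∀ (t : T) y, p' (t • y) = (p' y).map (t • ·)) ∧
    (∀ y, f y ≠ 0 → (p y).isSome) ∧ (∀ y, f' y ≠ 0 → (p' y).isSome) ∧
    (∀ m, (Function.support f ∩ {y | p y = some m}).Finite) ∧
    (∀ m, (Function.support f' ∩ {y | p' y = some m}).Finite) ∧
    ∀ m, ∑ᶠ y ∈ {y | p y = some m}, f y = ∑ᶠ y ∈ {y | p' y = some m}, f' y

end Match

end Fermat.Agent.LT.Descent
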