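import Fermat.Agent.LT.Descent.IwahoriAlgebra
import Fermat.Agent.LT.Descent.IwahoriTensor
import Fermat.Agent.LT.Descent.LKerLinear
import Fermat.Agent.LT.Descent.Support.Families
import Fermat.Agent.LT.Tame.SplitLevels

/-!
# The test matrices at a place with Iwahori level

`X` and `Uⁿ` in the algebra of local matrices: they do not depend on the uniformiser, commute,
have real entries, `X` is symmetric, their products have big support, and the isomorphism of
completions at a split place carries them to each other.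
-/

set_option autoImplicit false
set_option linter.unusedSectionVars false

noncomputable section

namespace Fermat.Agent.LT.Descent

open IsDedekindDomain IsDedekindDomain.HeightOneSpectrum Matrix NumberField Function ComplexConjugate
open Fermat.Agent.LT.Adelic Fermat.Agent.LT.Aleph Fermat.Agent.LT.Tame Fermat.Agent.LT.Geom
open scoped MatrixGroups

variable {K : Type*} [Field K] [NumberField K]

theorem exists_localUnif (v : HeightOneSpectrum (𝓞 K)) :
    ∃ ϖ : (v.adicCompletion K)ˣ,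
      Valued.v (ϖ : v.adicCompletion K) = WithZero.exp (-1 : ℤ) := by
  obtain ⟨π, hπ⟩ := v.valuation_exists_uniformizer K
  have hv : Valued.v (π : v.adicCompletion K) = WithZero.exp (-1 : ℤ) := by
    rw [adicCompletion.valued_coe, hπ]
  exact ⟨Units.mk0 _ fun h => WithZero.exp_ne_zero (by rw [← hv, h, map_zero]), hv⟩

/-- A uniformiser of the completion. -/
def localUnif (v : HeightOneSpectrum (𝓞 K)) : (v.adicCompletion K)ˣ := (exists_localUnif v).choose

theorem valued_localUnif (v : HeightOneSpectrum (𝓞 K)) :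
    Valued.v (localUnif v : v.adicCompletion K) = WithZero.exp (-1 : ℤ) :=
  (exists_localUnif v).choose_spec

variable {v : HeightOneSpectrum (𝓞 K)} {J : Subgroup PGL(2, v.adicCompletion K)}
  (hJ : J = pglIwahori v)

/-- `w` for the chosen uniformiser. -/
def iwWAt : LKer PGL(2, v.adicCompletion K) (PGL(2, v.adicCompletion K) ⧸ J) :=
  iwWKer hJ (valued_localUnif v)

/-- `X = tw + wt - (q-1)w`. -/
def iwXAt : LKer PGL(2, v.adicCompletion K) (PGL(2, v.adicCompletion K) ⧸ J) :=
  iwahoriX (Ideal.absNorm v.asIdeal : ℂ) (iwTKer hJ) (iwWAt hJ)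

/-- `Uⁿ`. -/
def iwUAt (n : ℕ) : LKer PGL(2, v.adicCompletion K) (PGL(2, v.adicCompletion K) ⧸ J) :=
  iwUKer hJ (valued_localUnif v) n

theorem iwWKer_eq {ϖ : (v.adicCompletion K)ˣ}
    (hϖ : Valued.v (ϖ : v.adicCompletion K) = WithZero.exp (-1 : ℤ)) :
    iwWKer hJ hϖ = iwWAt hJ := by
  subst hJ
  refine LKer.ext' fun a c => ?_
  induction a using QuotientGroup.induction_on with
  | _ x =>
    induction c using QuotientGroup.induction_on with
    | _ y =>
      rw [iwWAt, iwWKer, iwWKer, LKer.ofBiInvariant_apply, LKer.ofBiInvariant_apply]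
      set ρ := localUnif v
      have hj : (atkin ρ)⁻¹ * atkin ϖ ∈ pglIwahori v := by
        rw [atkin, atkin, ← map_inv, ← map_mul]
        have e : (atkinMat ρ)⁻¹ * atkinMat ϖ = diag2 (ρ⁻¹ * ϖ) 1 := by
          rw [inv_mul_eq_iff_eq_mul]
          refine Units.ext ?_
          rw [Units.val_mul, coe_atkinMat, coe_atkinMat, coe_diag2, Matrix.mul_fin_two]
          simp
        rw [e]
        have hu : Valued.v ((ρ⁻¹ * ϖ : (v.adicCompletion K)ˣ) : v.adicCompletion K) = 1 := by
          rw [Units.val_mul, Units.val_inv_eq_inv_val, map_mul, map_inv₀, valued_localUnif, hϖ,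
            inv_mul_cancel₀ WithZero.exp_ne_zero]
        rw [Units.val_mul, Units.val_inv_eq_inv_val, map_mul, map_inv₀] at hu
        refine mk_mem_pglIwahori_of (fun i j => ?_) ?_ ?_
        · rw [coe_diag2]; fin_cases i <;> fin_cases j <;> simp [hu]
        · rw [coe_diag2, Matrix.det_fin_two_of]; simp [hu]
        · rw [coe_diag2]; simp
      refine indicator_one_eq_iff (?_ : (atkin ϖ)⁻¹ * (x⁻¹ * y) ∈ pglIwahori v ↔
        (atkin ρ)⁻¹ * (x⁻¹ * y) ∈ pglIwahori v)
      rw [← (pglIwahori v).mul_mem_cancel_left hj (y := (atkin ϖ)⁻¹ * (x⁻¹ * y)),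
        mul_assoc ((atkin ρ)⁻¹) (atkin ϖ), mul_inv_cancel_left]

/-- **The relations of `t` and `w` in the algebra.** -/
theorem isIwahoriPair_at :
    IsIwahoriPair (Ideal.absNorm v.asIdeal : ℂ) (iwTKer hJ) (iwWAt hJ) where
  sq_t := LKer.ext' fun a c => by
    rw [LKer.mul_def, iwTKer_comp_self hJ a c]
    rfl
  sq_w := iwWKer_comp_self hJ (valued_localUnif v)

theorem absNorm_ne_zero' : (Ideal.absNorm v.asIdeal : ℂ) ≠ 0 :=
  Nat.cast_ne_zero.2 fun h => v.ne_bot (Ideal.absNorm_eq_zero_iff.1 h)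

theorem iwUAt_one : iwUAt hJ 1 = iwTKer hJ * iwWAt hJ :=
  (iwTKer_comp_iwWKer hJ (valued_localUnif v)).symm

theorem iwUAt_zero : iwUAt hJ 0 = 1 := iwUKer_zero hJ (valued_localUnif v)

/-- `Uⁿ Uᵐ = Uⁿ⁺ᵐ`. -/
theorem iwUAt_mul (n m : ℕ) : iwUAt hJ n * iwUAt hJ m = iwUAt hJ (n + m) :=
  iwUKer_comp hJ (valued_localUnif v) n m

theorem iwUAt_eq_pow : ∀ n : ℕ, iwUAt hJ n = (iwTKer hJ * iwWAt hJ) ^ n
  | 0 => by rw [iwUAt_zero, pow_zero]
  | n + 1 => by rw [← iwUAt_mul hJ n 1, iwUAt_eq_pow n, iwUAt_one, pow_succ]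

theorem commute_iwXAt_iwUAt (n : ℕ) : Commute (iwXAt hJ) (iwUAt hJ n) := by
  rw [iwUAt_eq_pow]
  exact ((isIwahoriPair_at hJ).commute_iwahoriX_t.mul_right
    (isIwahoriPair_at hJ).commute_iwahoriX_w).pow_right n

theorem commute_iwUAt (n m : ℕ) : Commute (iwUAt hJ n) (iwUAt hJ m) := by
  rw [Commute, SemiconjBy, iwUAt_mul, iwUAt_mul, add_comm]

/-- **`Xʲ Uⁿ` is a combination of powers of `U`.** -/
theorem iwXAt_pow_mul_iwUAt {j n : ℕ} (hjn : j ≤ n) :
    iwXAt hJ ^ j * iwUAt hJ n = ∑ k ∈ Finset.range (j + 1),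
      ((j.choose k : ℂ) * (Ideal.absNorm v.asIdeal : ℂ) ^ (j - k)) • iwUAt hJ (n + 2 * k - j) := by
  simp only [iwUAt_eq_pow]
  exact (isIwahoriPair_at hJ).pow_iwahoriX_mul_pow absNorm_ne_zero' hjn

/-! ### Real entries and symmetry -/

theorem isReal_ofBiInvariant {G : Type*} [Group G] {H : Subgroup G} {f : G → ℂ}
    (hf : IsBiInvariant H f) (hs : HasFiniteSupportMod hf)
    (hsi : (support fun a : G ⧸ H => cosetKernel hf a ((1 : G) : G ⧸ H)).Finite)
    (hr : ∀ g, conj (f g) = f g) : (LKer.ofBiInvariant f hf hs hsi).IsReal := fun a c => by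
  induction a using QuotientGroup.induction_on with
  | _ x =>
    induction c using QuotientGroup.induction_on with
    | _ y => rw [LKer.ofBiInvariant_apply, hr]

theorem conj_indicator_one {α : Type*} (s : Set α) (x : α) :
    conj (s.indicator (1 : α → ℂ) x) = s.indicator 1 x := by
  by_cases h : x ∈ s <;> simp [h]

theorem isReal_iwTKer : (iwTKer hJ).IsReal := by
  rw [iwTKer]
  exact isReal_ofBiInvariant _ _ _ fun g => conj_indicator_one _ g

theorem isReal_iwWAt : (iwWAt hJ).IsReal := by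
  rw [iwWAt, iwWKer]
  exact isReal_ofBiInvariant _ _ _ fun g => conj_indicator_one _ g

theorem isReal_iwUAt (n : ℕ) : (iwUAt hJ n).IsReal := by
  rw [iwUAt, iwUKer]
  exact isReal_ofBiInvariant _ _ _ fun g => conj_indicator_one _ g

theorem isReal_iwXAt : (iwXAt hJ).IsReal :=
  (((isReal_iwTKer hJ).mul (isReal_iwWAt hJ)).add ((isReal_iwWAt hJ).mul (isReal_iwTKer hJ))).sub
    ((isReal_iwWAt hJ).smul (by simp))

/-- `X` is symmetric. -/
theorem transpose_iwXAt : (iwXAt hJ).transpose = iwXAt hJ := by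
  rw [iwXAt, iwahoriX, LKer.transpose_sub, LKer.transpose_add, LKer.transpose_smul,
    LKer.transpose_mul, LKer.transpose_mul, iwTKer_transpose,
    show (iwWAt hJ).transpose = iwWAt hJ from iwWKer_transpose hJ _]
  abel

/-! ### Supports -/

section Support

variable {V : ∀ v : HeightOneSpectrum (𝓞 K), Subgroup (GL (Fin 2) (v.adicCompletion K))}

theorem LKer.SuppIn.add {f g : LKer PGL(2, v.adicCompletion K) (LocY V v)}
    {Q : Matrix (Fin 2) (Fin 2) (v.adicCompletion K) → Prop} (hf : f.SuppIn Q) (hg : g.SuppIn Q) :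
    (f + g).SuppIn Q := fun γ hγ => by
  rw [LKer.add_apply] at hγ
  by_cases h : f (basePt V v)
      ((ProjGenLinGroup.mk γ : PGL(2, v.adicCompletion K)) : LocY V v) = 0
  · exact hg γ (by rwa [h, zero_add] at hγ)
  · exact hf γ h

theorem LKer.SuppIn.smul {f : LKer PGL(2, v.adicCompletion K) (LocY V v)}
    {Q : Matrix (Fin 2) (Fin 2) (v.adicCompletion K) → Prop} (hf : f.SuppIn Q) (r : ℂ) :
    (r • f).SuppIn Q := fun γ hγ => hf γ (right_ne_zero_of_mul hγ)

theorem LKer.suppIn_sum {ι : Type*} (s : Finset ι)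
    (f : ι → LKer PGL(2, v.adicCompletion K) (LocY V v))
    {Q : Matrix (Fin 2) (Fin 2) (v.adicCompletion K) → Prop} (h : ∀ i ∈ s, (f i).SuppIn Q) :
    (∑ i ∈ s, f i).SuppIn Q := fun γ hγ => by
  rw [LKer.sum_apply] at hγ
  obtain ⟨i, hi, hne⟩ := Finset.exists_ne_zero_of_sum_ne_zero hγ
  exact h i hi γ hne

variable (hV : (V v).map ProjGenLinGroup.mk = pglIwahori v)

theorem suppIn_iwUAt {n : ℕ} (hn : n ≠ 0) :
    LKer.SuppIn (V := V) (iwUAt hV n) (IwBig Valued.v (WithZero.exp (-(n : ℤ)))) := by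
  intro γ hγ
  refine iwBig_of_iwUPow_ne_zero (valued_localUnif v) hn ?_
  rw [basePt, iwUAt, iwUKer_apply, inv_one, one_mul] at hγ
  exact hγ

/-- **Big support of `Xʲ Uⁿ`.** -/
theorem suppIn_iwXAt_pow_mul_iwUAt {j n : ℕ} (hjn : j < n) :
    LKer.SuppIn (V := V) (iwXAt hV ^ j * iwUAt hV n)
      fun M => ∃ e ∈ Set.Icc ((n : ℤ) - j) (n + j), IwBig Valued.v (WithZero.exp (-e)) M := by
  rw [iwXAt_pow_mul_iwUAt hV hjn.le]
  refine LKer.suppIn_sum _ _ fun k hk => (LKer.SuppIn.mono ?_ fun M hM =>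
    ⟨((n + 2 * k - j : ℕ) : ℤ), ?_, hM⟩)
  · exact (suppIn_iwUAt hV (by omega)).smul _
  · have := Finset.mem_range.1 hk
    simp only [Set.mem_Icc]
    omega

end Support

/-! ### Transport at a split place -/

theorem indicator_one_eq_iff₂ {α β : Type*} {s : Set α} {t : Set β} {x : α} {y : β}
    (h : x ∈ s ↔ y ∈ t) :
    Set.indicator s (1 : α → ℂ) x = Set.indicator t (1 : β → ℂ) y := by
  by_cases hx : x ∈ s
  · rw [Set.indicator_of_mem hx, Set.indicator_of_mem (h.1 hx)]; rfl
  · rw [Set.indicator_of_notMem hx, Set.indicator_of_notMem (hx ∘ h.2)]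

section Transport

variable {K' : Type*} [Field K'] [NumberField K'] [Algebra K K'] {σ : K' ≃ₐ[K] K'}
  {w : HeightOneSpectrum (𝓞 K')}
  {V : ∀ u : HeightOneSpectrum (𝓞 K), Subgroup (GL (Fin 2) (u.adicCompletion K))}
  {V' : ∀ u : HeightOneSpectrum (𝓞 K'), Subgroup (GL (Fin 2) (u.adicCompletion K'))}
  (P : SplitPlace σ v w)

theorem valued_emb_eq {x : v.adicCompletion K} (hx : Valued.v x = WithZero.exp (-1 : ℤ)) :
    Valued.v (P.emb x) = WithZero.exp (-1 : ℤ) := by
  have hlt : Valued.v (P.emb x) < 1 := (P.isIntegralMap_emb.lt_one_iff x).2 (by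
    rw [hx, ← WithZero.exp_zero, WithZero.exp_lt_exp]; omega)
  refine le_antisymm (le_exp_neg_one_of_lt_one hlt) ?_
  obtain ⟨y, hy⟩ := P.emb_surjective (localUnif w : w.adicCompletion K')
  rw [← valued_localUnif w, ← hy, P.isIntegralMap_emb.le_iff, hx]
  refine le_exp_neg_one_of_lt_one ((P.isIntegralMap_emb.lt_one_iff y).1 ?_)
  rw [hy, valued_localUnif, ← WithZero.exp_zero, WithZero.exp_lt_exp]
  omega

theorem map_pglFull : (pglFull v).map P.pglEquiv'.toMonoidHom = pglFull w := by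
  have hmap : (localFull K v).map (GeneralLinearGroup.map P.emb) = localFull K' w := by
    refine le_antisymm (Subgroup.map_le_iff_le_comap.2 fun γ hγ =>
      (P.isIntegralMap_emb.isIntLocal_iff γ).2 hγ) fun γ hγ => ?_
    have hback : GeneralLinearGroup.map P.emb
        (GeneralLinearGroup.map P.embEquiv.symm.toRingHom γ) = γ :=
      Units.ext (Matrix.ext fun i j => P.embEquiv.apply_symm_apply _)
    refine ⟨_, (P.isIntegralMap_emb.isIntLocal_iff _).1 ?_, hback⟩
    rw [hback]; exact hγ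
  rw [pglFull, pglFull, Subgroup.map_map, ← hmap, Subgroup.map_map]
  rfl

variable (hL : SplitPlace.IsSplitLevel σ v V V') (hV : (V v).map ProjGenLinGroup.mk = pglIwahori v)
  (hV' : (V' w).map ProjGenLinGroup.mk = pglIwahori w)

theorem carries_iwTKer :
    LKer.Carries (P.locEquiv hL) (iwTKer hV) (iwTKer hV') := fun a c => by
  induction a using QuotientGroup.induction_on with
  | _ x =>
    induction c using QuotientGroup.induction_on with
    | _ y =>
      rw [SplitPlace.locEquiv_mk, SplitPlace.locEquiv_mk, iwTKer, iwTKer,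
        LKer.ofBiInvariant_apply, LKer.ofBiInvariant_apply, ← map_inv, ← map_mul]
      unfold iwT
      refine indicator_one_eq_iff₂ ?_
      simp only [Set.mem_sdiff, SetLike.mem_coe]
      rw [← map_pglFull P, hL w P, ← P.pglEquiv'_apply]
      exact and_congr (Subgroup.mem_map_iff_mem P.pglEquiv'.injective)
        (not_congr (Subgroup.mem_map_iff_mem P.pglEquiv'.injective))

theorem carries_iwWAt : LKer.Carries (P.locEquiv hL) (iwWAt hV) (iwWAt hV') := fun a c => by
  set ϖ' := Units.map (P.emb : _ →* w.adicCompletion K') (localUnif v) with hϖ'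
  have hval : Valued.v (ϖ' : w.adicCompletion K') = WithZero.exp (-1 : ℤ) :=
    valued_emb_eq P (valued_localUnif v)
  have he : atkin ϖ' = pglMap P.emb (atkin (localUnif v)) := by
    rw [atkin, atkin, pglMap_mk]
    refine congrArg _ (Units.ext (Matrix.ext fun i j => ?_))
    rw [coe_atkinMat]
    show _ = P.emb ((atkinMat (localUnif v) : GL (Fin 2) (v.adicCompletion K)).1 i j)
    rw [coe_atkinMat]
    fin_cases i <;> fin_cases j <;> simp [hϖ']
  rw [← iwWKer_eq hV' hval]
  induction a using QuotientGroup.induction_on with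
  | _ x =>
    induction c using QuotientGroup.induction_on with
    | _ y =>
      rw [SplitPlace.locEquiv_mk, SplitPlace.locEquiv_mk, iwWAt, iwWKer, iwWKer,
        LKer.ofBiInvariant_apply, LKer.ofBiInvariant_apply, ← map_inv, ← map_mul]
      unfold iwW
      refine indicator_one_eq_iff₂ (s := {g | (atkin ϖ')⁻¹ * g ∈ (V' w).map ProjGenLinGroup.mk})
        (t := {g | (atkin (localUnif v))⁻¹ * g ∈ (V v).map ProjGenLinGroup.mk}) ?_
      show (atkin ϖ')⁻¹ * pglMap P.emb (x⁻¹ * y) ∈ (V' w).map ProjGenLinGroup.mk ↔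
        (atkin (localUnif v))⁻¹ * (x⁻¹ * y) ∈ (V v).map ProjGenLinGroup.mk
      rw [he, ← map_inv, ← map_mul, hL w P, ← P.pglEquiv'_apply]
      exact Subgroup.mem_map_iff_mem P.pglEquiv'.injective

theorem carries_iwUAt (n : ℕ) :
    LKer.Carries (P.locEquiv hL) (iwUAt hV n) (iwUAt hV' n) := by
  rw [iwUAt_eq_pow, iwUAt_eq_pow]
  exact ((carries_iwTKer P hL hV hV').mul (carries_iwWAt P hL hV hV')).pow n

theorem carries_iwXAt (hq : Ideal.absNorm w.asIdeal = Ideal.absNorm v.asIdeal) :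
    LKer.Carries (P.locEquiv hL) (iwXAt hV) (iwXAt hV') := by
  rw [iwXAt, iwXAt, iwahoriX, iwahoriX, hq]
  exact (((carries_iwTKer P hL hV hV').mul (carries_iwWAt P hL hV hV')).add
    ((carries_iwWAt P hL hV hV').mul (carries_iwTKer P hL hV hV'))).sub
    ((carries_iwWAt P hL hV hV').smul _)

end Transport

end Fermat.Agent.LT.Descent
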