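import Fermat.Agent.LT.Descent.PPKer
import Fermat.Agent.LT.Boundary.Defs
import Mathlib.MeasureTheory.Function.LocallyIntegrable

/-!
# Test operators on functions with locally integrable slices

`testOp k f = kerMap f ∘ archOp k`; the two factors commute and compose factorwise.  An
eigenfunction of one test operator with nonzero eigenvalue has continuous slices, and is spherical
and a Hecke eigenfunction as soon as the composed eigen equations hold.
-/

set_option autoImplicit false

noncomputable section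

open MeasureTheory Filter Topology

namespace Fermat.Agent.LT.Descent

open Fermat.Agent.LT.Adelic NumberField IsDedekindDomain
open scoped MatrixGroups

variable {K : Type*} [Field K] [NumberField K] {ι : Type*} [Fintype ι] {Φ : Frame K ι}
  {U : Subgroup (GfK K)}

/-- Measurable, with locally integrable slices. -/
structure SliceInt (φ : Space Φ U → ℂ) : Prop where
  measurable : Measurable φ
  slice : ∀ y : Yf U, LocallyIntegrable (fun τ : ι → HSpace => φ (Space.mk τ y))
    (Measure.pi fun _ : ι => HSpace.measure)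

theorem SliceInt.of_continuous [Countable (Yf U)] {φ : Space Φ U → ℂ}
    (h : ∀ y : Yf U, Continuous fun τ : ι → HSpace => φ (Space.mk τ y)) : SliceInt φ :=
  ⟨Space.measurable_iff.mpr fun y => (h y).measurable, fun y => (h y).locallyIntegrable⟩

/-- The operator of a matrix on the finite coordinate. -/
def kerMap (f : HKer U) (φ : Space Φ U → ℂ) (x : Space Φ U) : ℂ :=
  ∑ᶠ w, f x.fin w * φ (Space.mk x.pt w)

/-- The operator of kernels on the infinite coordinates. -/
def archOp (k : ι → PPKer) (φ : Space Φ U → ℂ) (x : Space Φ U) : ℂ :=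
  ∫ τ : ι → HSpace, (∏ i, k i (x.pt i) (τ i)) * φ (Space.mk τ x.fin)
    ∂(Measure.pi fun _ : ι => HSpace.measure)

omit [Fintype ι] in
theorem kerMap_eq_sum (f : HKer U) (φ : Space Φ U → ℂ) (τ : ι → HSpace) (y : Yf U) :
    kerMap f φ (Space.mk τ y) =
      ∑ w ∈ (f.finite_row y).toFinset, f y w * φ (Space.mk τ w) :=
  finsum_eq_sum_of_support_subset _ fun _ hw =>
    (f.finite_row y).mem_toFinset.mpr (left_ne_zero_of_mul hw)

omit [Fintype ι] in
theorem kerMap_smul (f : HKer U) (c : ℂ) (φ : Space Φ U → ℂ) :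
    kerMap f (c • φ) = c • kerMap f φ := by
  funext x
  simp only [kerMap, Pi.smul_apply, smul_eq_mul, mul_finsum]
  exact finsum_congr fun w => by ring

omit [Fintype ι] in
theorem kerMap_id (φ : Space Φ U → ℂ) : kerMap (HKer.id U) φ = φ := by
  funext x
  classical
  rw [kerMap, finsum_eq_single _ x.fin fun w hw => ?_]
  · simp [HKer.id]
  · simp [HKer.id, Ne.symm hw]

omit [Fintype ι] in
theorem kerMap_comp (f g : HKer U) (φ : Space Φ U → ℂ) :
    kerMap (f.comp g) φ = kerMap f (kerMap g φ) := by
  classical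
  funext x
  set S := (f.finite_row x.fin).toFinset
  set T := S.biUnion fun w => (g.finite_row w).toFinset
  have hS : ∀ w, f x.fin w ≠ 0 → w ∈ S := fun w h => (f.finite_row _).mem_toFinset.mpr h
  have hfg : ∀ z, (f.comp g) x.fin z = ∑ w ∈ S, f x.fin w * g w z := fun z =>
    finsum_eq_sum_of_support_subset _ fun w hw => hS w (left_ne_zero_of_mul hw)
  have hT : ∀ w ∈ S, ∀ z, g w z ≠ 0 → z ∈ T := fun w hw z h =>
    Finset.mem_biUnion.mpr ⟨w, hw, (g.finite_row w).mem_toFinset.mpr h⟩
  have hL : kerMap (f.comp g) φ x = ∑ z ∈ T, (f.comp g) x.fin z * φ (Space.mk x.pt z) := by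
    refine finsum_eq_sum_of_support_subset _ fun z hz => ?_
    have h := left_ne_zero_of_mul hz
    rw [hfg] at h
    obtain ⟨w, hw, hne⟩ := Finset.exists_ne_zero_of_sum_ne_zero h
    exact hT w hw z (right_ne_zero_of_mul hne)
  rw [hL, kerMap, finsum_eq_sum_of_support_subset _ (s := S) fun w hw =>
    hS w (left_ne_zero_of_mul hw)]
  simp only [hfg, Finset.sum_mul]
  rw [Finset.sum_comm]
  refine Finset.sum_congr rfl fun w hw => ?_
  rw [kerMap, Space.pt_mk, Space.fin_mk, finsum_eq_sum_of_support_subset _ (s := T) fun z hz =>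
    hT w hw z (left_ne_zero_of_mul hz), Finset.mul_sum]
  exact Finset.sum_congr rfl fun z _ => by ring

omit [Fintype ι] in
theorem heckeOp_eq_kerMap (hU : IsLevel U) (D : GfK K) (φ : Space Φ U → ℂ) :
    heckeOp D φ = kerMap (HKer.ofDoubleCoset hU D) φ := by
  classical
  funext x
  rw [heckeOp, kerMap, finsum_mem_def]
  refine finsum_congr fun w => ?_
  by_cases h : w ∈ nbrs D x.fin <;> simp [HKer.ofDoubleCoset, h]

theorem exists_compact_pi (k : ι → PPKer) {C : Set (ι → HSpace)} (hC : IsCompact C) :
    ∃ D : Set (ι → HSpace), IsCompact D ∧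
      ∀ p ∈ C, ∀ τ, ∏ i, k i (p i) (τ i) ≠ 0 → τ ∈ D := by
  choose D hD hk using fun i => (k i).exists_compact_image (hC.image (continuous_apply i))
  exact ⟨Set.univ.pi D, isCompact_univ_pi hD, fun p hp τ h i _ =>
    hk i (p i) ⟨p, hp, rfl⟩ (τ i) (Finset.prod_ne_zero_iff.mp h i (Finset.mem_univ i))⟩

theorem exists_bound_pi (k : ι → PPKer) :
    ∃ B : ℝ, ∀ p τ : ι → HSpace, ‖∏ i, k i (p i) (τ i)‖ ≤ B := by
  choose B hB using fun i => (k i).exists_bound
  exact ⟨∏ i, B i, fun p τ => by
    rw [norm_prod]; exact Finset.prod_le_prod (fun i _ => norm_nonneg _) fun i _ => hB i _ _⟩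

theorem SliceInt.integrable {φ : Space Φ U → ℂ} (hφ : SliceInt φ) (k : ι → PPKer)
    (p : ι → HSpace) (w : Yf U) :
    Integrable (fun τ : ι → HSpace => (∏ i, k i (p i) (τ i)) * φ (Space.mk τ w))
      (Measure.pi fun _ : ι => HSpace.measure) := by
  obtain ⟨D, hD, hk⟩ := exists_compact_pi k (isCompact_singleton (x := p))
  exact (hφ.slice w).integrable_smul_left_of_hasCompactSupport
    ((continuous_prod_kernel k).comp (Continuous.prodMk_right p))
    (HasCompactSupport.of_support_subset_isCompact hD fun τ h => hk p rfl τ h)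

/-- The test operator is a finite sum of slice integrals. -/
theorem testOp_eq_sum [Countable (Yf U)] (k : ι → PPKer) (f : HKer U) {φ : Space Φ U → ℂ}
    (hφ : SliceInt φ) (x : Space Φ U) :
    testOp k f φ x = ∑ᶠ w, f x.fin w * ∫ τ : ι → HSpace,
      (∏ i, k i (x.pt i) (τ i)) * φ (Space.mk τ w) ∂(Measure.pi fun _ : ι => HSpace.measure) := by
  rw [testOp, (integral_space_eq_sum (g := fun z => testKernel k f x z * φ z)
    (f.finite_row x.fin).toFinset (fun z hz => (f.finite_row x.fin).mem_toFinset.mpr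
      (left_ne_zero_of_mul (left_ne_zero_of_mul hz)))
    ((measurable_testKernel_comp k f (a := fun _ => x) measurable_const measurable_id).mul
      hφ.measurable) fun w _ => ?_).2,
    finsum_eq_sum_of_support_subset _ (s := (f.finite_row x.fin).toFinset) fun w hw =>
      (f.finite_row x.fin).mem_toFinset.mpr (left_ne_zero_of_mul hw)]
  · simp only [testKernel, Space.pt_mk, Space.fin_mk, mul_assoc, integral_const_mul]
  · simp only [testKernel, Space.pt_mk, Space.fin_mk, mul_assoc]
    exact (hφ.integrable k x.pt w).const_mul _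

theorem testOp_eq_kerMap [Countable (Yf U)] (k : ι → PPKer) (f : HKer U) {φ : Space Φ U → ℂ}
    (hφ : SliceInt φ) : testOp k f φ = kerMap f (archOp k φ) :=
  funext fun x => testOp_eq_sum k f hφ x

theorem testOp_id [Countable (Yf U)] (k : ι → PPKer) {φ : Space Φ U → ℂ} (hφ : SliceInt φ) :
    testOp k (HKer.id U) φ = archOp k φ := by
  rw [testOp_eq_kerMap k _ hφ, kerMap_id]

theorem continuous_archOp (k : ι → PPKer) {φ : Space Φ U → ℂ} (hφ : SliceInt φ) (y : Yf U) :
    Continuous fun p : ι → HSpace => archOp k φ (Space.mk p y) := by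
  refine continuous_iff_continuousAt.mpr fun p₀ => ?_
  obtain ⟨C, hC, hC₀⟩ := exists_compact_mem_nhds p₀
  obtain ⟨D, hD, hk⟩ := exists_compact_pi k hC
  obtain ⟨B, hB⟩ := exists_bound_pi k
  refine continuousAt_of_dominated
    (bound := D.indicator fun τ => B * ‖φ (Space.mk τ y)‖) (.of_forall fun p => ?_)
    (Filter.eventually_of_mem hC₀ fun p hp => .of_forall fun τ => ?_)
    ((integrable_indicator_iff hD.measurableSet).mpr
      ((((hφ.slice y).integrableOn_isCompact hD).norm).const_mul B))
    (.of_forall fun τ => ?_)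
  · exact (hφ.integrable k p y).aestronglyMeasurable
  · simp only [Space.pt_mk, Space.fin_mk]
    by_cases hτ : τ ∈ D
    · rw [Set.indicator_of_mem hτ, norm_mul]
      exact mul_le_mul_of_nonneg_right (hB _ _) (norm_nonneg _)
    · rw [show ∏ i, k i (p i) (τ i) = 0 by by_contra h; exact hτ (hk p hp τ h), zero_mul,
        norm_zero, Set.indicator_of_notMem hτ]
  · exact ((continuous_prod_kernel k).comp (Continuous.prodMk_left τ)).continuousAt.mul
      continuousAt_const

omit [Fintype ι] in
theorem continuous_kerMap (f : HKer U) {φ : Space Φ U → ℂ}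
    (hφ : ∀ y : Yf U, Continuous fun τ : ι → HSpace => φ (Space.mk τ y)) (y : Yf U) :
    Continuous fun τ : ι → HSpace => kerMap f φ (Space.mk τ y) := by
  simp only [kerMap_eq_sum]
  exact continuous_finsetSum _ fun w _ => continuous_const.mul (hφ w)

variable [Countable (Yf U)]

theorem SliceInt.kerMap {φ : Space Φ U → ℂ} (hφ : SliceInt φ) (f : HKer U) :
    SliceInt (Descent.kerMap f φ) := by
  refine ⟨Space.measurable_iff.mpr fun y => ?_, fun y => ?_⟩ <;> simp only [kerMap_eq_sum]
  · exact Finset.measurable_sum _ fun w _ =>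
      (hφ.measurable.comp (Space.measurable_mk w)).const_mul _
  · exact locallyIntegrable_finsetSum _ fun w _ => (hφ.slice w).smul (f y w)

theorem SliceInt.archOp {φ : Space Φ U → ℂ} (hφ : SliceInt φ) (k : ι → PPKer) :
    SliceInt (Descent.archOp k φ) :=
  .of_continuous (continuous_archOp k hφ)

/-- The test operator has continuous slices. -/
theorem continuous_testOp (k : ι → PPKer) (f : HKer U) {φ : Space Φ U → ℂ} (hφ : SliceInt φ)
    (y : Yf U) : Continuous fun τ : ι → HSpace => testOp k f φ (Space.mk τ y) := by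
  rw [testOp_eq_kerMap k f hφ]
  exact continuous_kerMap f (continuous_archOp k hφ) y

theorem SliceInt.testOp {φ : Space Φ U → ℂ} (hφ : SliceInt φ) (k : ι → PPKer) (f : HKer U) :
    SliceInt (Descent.testOp k f φ) :=
  .of_continuous (continuous_testOp k f hφ)

omit [Countable (Yf U)] in
theorem archOp_kerMap (k : ι → PPKer) (f : HKer U) {φ : Space Φ U → ℂ} (hφ : SliceInt φ) :
    archOp k (kerMap f φ) = kerMap f (archOp k φ) := by
  funext x
  rw [← Space.mk_pt_fin x, kerMap_eq_sum]
  simp only [archOp, Space.pt_mk, Space.fin_mk, kerMap_eq_sum, Finset.mul_sum, ← mul_assoc,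
    mul_comm _ (f x.fin _), ← integral_const_mul]
  refine integral_finsetSum _ fun w _ => ?_
  simp only [mul_assoc]
  exact (hφ.integrable k x.pt w).const_mul _

omit [Countable (Yf U)] in
theorem archOp_archOp (k k' : ι → PPKer) {φ : Space Φ U → ℂ} (hφ : SliceInt φ) :
    archOp k (archOp k' φ) = archOp (fun i => PPKer.comp (k i) (k' i)) φ := by
  funext x
  simp only [archOp, Space.pt_mk, Space.fin_mk, ← integral_const_mul]
  obtain ⟨C, hC, hk⟩ := exists_compact_pi k (isCompact_singleton (x := x.pt))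
  obtain ⟨D, hD, hk'⟩ := exists_compact_pi k' hC
  obtain ⟨B, hB⟩ := exists_bound_pi k'
  have hint : Integrable (Function.uncurry fun τ σ : ι → HSpace =>
      (∏ i, k i (x.pt i) (τ i)) * ((∏ i, k' i (τ i) (σ i)) * φ (Space.mk σ x.fin)))
      ((Measure.pi fun _ : ι => HSpace.measure).prod (Measure.pi fun _ : ι => HSpace.measure)) := by
    have h1 : Integrable (fun τ : ι → HSpace => ‖∏ i, k i (x.pt i) (τ i)‖ * B)
        (Measure.pi fun _ : ι => HSpace.measure) :=
      ((Integrable.fintype_prod fun i => (k i).integrable (x.pt i)).norm).mul_const B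
    have h2 : Integrable (D.indicator fun σ => ‖φ (Space.mk σ x.fin)‖)
        (Measure.pi fun _ : ι => HSpace.measure) :=
      (integrable_indicator_iff hD.measurableSet).mpr
        ((hφ.slice x.fin).integrableOn_isCompact hD).norm
    refine (h1.mul_prod h2).mono' ?_ (.of_forall fun z => ?_)
    · exact ((((continuous_prod_kernel k).comp (Continuous.prodMk_right x.pt)).measurable.comp
        measurable_fst).mul ((continuous_prod_kernel k').measurable.mul
        ((hφ.measurable.comp (Space.measurable_mk x.fin)).comp measurable_snd))).aestronglyMeasurable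
    · simp only [Function.uncurry, norm_mul]
      by_cases h0 : ∏ i, k i (x.pt i) (z.1 i) = 0
      · simp [h0]
      by_cases hσ : z.2 ∈ D
      · rw [Set.indicator_of_mem hσ, mul_assoc]
        exact mul_le_mul_of_nonneg_left (mul_le_mul_of_nonneg_right (hB _ _) (norm_nonneg _))
          (norm_nonneg _)
      · rw [show ∏ i, k' i (z.1 i) (z.2 i) = 0 by
          by_contra h; exact hσ (hk' _ (hk _ rfl _ h0) _ h)]
        simp [Set.indicator_of_notMem hσ]
  rw [integral_integral_swap hint]
  refine integral_congr_ae (.of_forall fun σ => ?_)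
  simp only [← mul_assoc, ← Finset.prod_mul_distrib, integral_mul_const]
  rw [integral_fintype_prod_eq_prod (fun i t => k i (x.pt i) t * k' i t (σ i))]
  rfl

/-- Test operators compose factorwise. -/
theorem testOp_comp (k k' : ι → PPKer) (f f' : HKer U) {φ : Space Φ U → ℂ} (hφ : SliceInt φ) :
    testOp k f (testOp k' f' φ) = testOp (fun i => PPKer.comp (k i) (k' i)) (f.comp f') φ := by
  rw [testOp_eq_kerMap k f (hφ.testOp k' f'), testOp_eq_kerMap k' f' hφ,
    testOp_eq_kerMap _ _ hφ, archOp_kerMap k f' (hφ.archOp k'), archOp_archOp k k' hφ, kerMap_comp]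

theorem testOp_comp_right (k : ι → PPKer) (f g : HKer U) {φ : Space Φ U → ℂ} (hφ : SliceInt φ) :
    testOp k (f.comp g) φ = kerMap f (testOp k g φ) := by
  rw [testOp_eq_kerMap k _ hφ, testOp_eq_kerMap k g hφ, kerMap_comp]

theorem testOp_kerMap (k : ι → PPKer) (f g : HKer U) {φ : Space Φ U → ℂ} (hφ : SliceInt φ) :
    testOp k f (kerMap g φ) = testOp k (f.comp g) φ := by
  rw [testOp_eq_kerMap k _ hφ, testOp_eq_kerMap k f (hφ.kerMap g), archOp_kerMap k g hφ,
    kerMap_comp]

/-- The test operator preserves invariance. -/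
theorem isInvariant_testOp (k : ι → PPKer) (f : HKer U) {φ : Space Φ U → ℂ} (hφ : IsInvariant φ) :
    IsInvariant (testOp k f φ) := by
  intro γ x
  rw [testOp, ← (measurePreserving_smul γ (Space.measure Φ U)).integral_comp
    (measurableEmbedding_const_smul γ)]
  simp only [testKernel_smul, hφ γ]
  rfl

variable [DecidableEq ι]

omit [Countable (Yf U)] in
theorem pointPairOp_archOp {k₀ : ℝ → ℂ} (hk₀ : Continuous k₀) (hc : HasCompactSupport k₀)
    (ks : ι → PPKer) (i : ι) {φ : Space Φ U → ℂ} (hφ : SliceInt φ) :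
    pointPairOp k₀ i (archOp ks φ) =
      archOp (Function.update ks i (PPKer.comp (PPKer.ofProfile k₀ hk₀ hc) (ks i))) φ := by
  funext x
  set q : HSpace → ι → HSpace := Function.update x.pt i with hq
  have hqc : Continuous q := continuous_const.update i continuous_id
  set κ := PPKer.ofProfile k₀ hk₀ hc
  simp only [pointPairOp, archOp, Space.update, Space.pt_mk, Space.fin_mk, ← integral_const_mul,
    ← hq]
  obtain ⟨D, hD, hk'⟩ := exists_compact_pi ks ((κ.hasCompactSupport (x.pt i)).isCompact.image hqc)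
  obtain ⟨B, hB⟩ := exists_bound_pi ks
  have hint : Integrable (Function.uncurry fun (σ : HSpace) (τ : ι → HSpace) =>
      k₀ (HSpace.coshDist (x.pt i) σ) * ((∏ j, ks j (q σ j) (τ j)) * φ (Space.mk τ x.fin)))
      (HSpace.measure.prod (Measure.pi fun _ : ι => HSpace.measure)) := by
    have h2 : Integrable (D.indicator fun σ => ‖φ (Space.mk σ x.fin)‖)
        (Measure.pi fun _ : ι => HSpace.measure) :=
      (integrable_indicator_iff hD.measurableSet).mpr
        ((hφ.slice x.fin).integrableOn_isCompact hD).norm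
    refine (((κ.integrable (x.pt i)).norm.mul_const B).mul_prod h2).mono' ?_
      (.of_forall fun z => ?_)
    · exact (((κ.continuous_right (x.pt i)).measurable.comp measurable_fst).mul
        (((continuous_prod_kernel ks).measurable.comp
          ((hqc.measurable.comp measurable_fst).prodMk measurable_snd)).mul
        ((hφ.measurable.comp (Space.measurable_mk x.fin)).comp measurable_snd))).aestronglyMeasurable
    · simp only [Function.uncurry, norm_mul]
      show ‖κ (x.pt i) z.1‖ * _ ≤ _
      by_cases h0 : κ (x.pt i) z.1 = 0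
      · simp [h0]
      by_cases hσ : z.2 ∈ D
      · rw [Set.indicator_of_mem hσ, mul_assoc]
        exact mul_le_mul_of_nonneg_left (mul_le_mul_of_nonneg_right (hB _ _) (norm_nonneg _))
          (norm_nonneg _)
      · rw [show ∏ j, ks j (q z.1 j) (z.2 j) = 0 by
          by_contra h; exact hσ (hk' _ ⟨z.1, subset_tsupport _ h0, rfl⟩ _ h)]
        simp [Set.indicator_of_notMem hσ]
  rw [integral_integral_swap hint]
  refine integral_congr_ae (.of_forall fun τ => ?_)
  have hsplit : ∀ σ, k₀ (HSpace.coshDist (x.pt i) σ) * ∏ j, ks j (q σ j) (τ j) =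
      (κ (x.pt i) σ * ks i σ (τ i)) * ∏ j ∈ Finset.univ.erase i, ks j (x.pt j) (τ j) := by
    intro σ
    rw [← Finset.mul_prod_erase _ _ (Finset.mem_univ i), hq, Function.update_self, ← mul_assoc]
    refine congrArg₂ _ rfl (Finset.prod_congr rfl fun j hj => ?_)
    rw [Function.update_of_ne (Finset.ne_of_mem_erase hj)]
  simp only [← mul_assoc, hsplit, integral_mul_const]
  rw [← Finset.mul_prod_erase _ _ (Finset.mem_univ i), Function.update_self, PPKer.comp_apply]
  refine congrArg₂ _ (congrArg₂ _ rfl (Finset.prod_congr rfl fun j hj => ?_)) rfl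
  rw [Function.update_of_ne (Finset.ne_of_mem_erase hj)]

/-- A point-pair operator composed with a test operator. -/
theorem pointPairOp_testOp {k₀ : ℝ → ℂ} (hk₀ : Continuous k₀) (hc : HasCompactSupport k₀)
    (ks : ι → PPKer) (i : ι) (f : HKer U) {φ : Space Φ U → ℂ} (hφ : SliceInt φ) :
    pointPairOp k₀ i (testOp ks f φ) =
      testOp (Function.update ks i (PPKer.comp (PPKer.ofProfile k₀ hk₀ hc) (ks i))) f φ := by
  rw [testOp_eq_kerMap ks f hφ, testOp_eq_kerMap _ f hφ, ← archOp_kerMap ks f hφ,
    ← archOp_kerMap _ f hφ, pointPairOp_archOp hk₀ hc ks i (hφ.kerMap f)]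

variable {ks : ι → PPKer} {μ : ℂ} {φ : Space Φ U → ℂ}

omit [DecidableEq ι] in
/-- An eigenfunction with nonzero eigenvalue has continuous slices. -/
theorem continuous_of_testOp_eq {f : HKer U} (hφ : SliceInt φ) (hμ : μ ≠ 0)
    (h : testOp ks f φ = μ • φ) (y : Yf U) :
    Continuous fun τ : ι → HSpace => φ (Space.mk τ y) := by
  have e : (fun τ : ι → HSpace => φ (Space.mk τ y)) =
      fun τ => μ⁻¹ * testOp ks f φ (Space.mk τ y) := funext fun τ => by
    rw [h, Pi.smul_apply, smul_eq_mul, inv_mul_cancel_left₀ hμ]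
  rw [e]
  exact continuous_const.mul (continuous_testOp ks f hφ y)

/-- Regularity: the composed eigen equations make `φ` spherical. -/
theorem isSphericalEigen_of_testOp (hφ : SliceInt φ) (hμ : μ ≠ 0)
    (h : testOp ks (HKer.id U) φ = μ • φ)
    (hk : ∀ (k₀ : ℝ → ℂ) (hk₀ : Continuous k₀) (hc : HasCompactSupport k₀) (i : ι),
      testOp (Function.update ks i (PPKer.comp (PPKer.ofProfile k₀ hk₀ hc) (ks i))) (HKer.id U) φ =
        (PPKer.hat (PPKer.ofProfile k₀ hk₀ hc) 0 * μ) • φ) :
    IsSphericalEigen φ 0 := by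
  intro k₀ hk₀ hc i x
  have h1 := congrFun (pointPairOp_testOp hk₀ hc ks i (HKer.id U) hφ) x
  rw [h, hk, PPKer.hat_ofProfile] at h1
  simp only [pointPairOp, Pi.smul_apply, smul_eq_mul, mul_left_comm _ μ, integral_const_mul] at h1
  refine mul_left_cancel₀ hμ ?_
  rw [show μ * pointPairOp k₀ i φ x = sphTransform k₀ 0 * μ * φ x from h1]
  ring

omit [DecidableEq ι] in
/-- The composed eigen equation makes `φ` an eigenfunction of the matrix. -/
theorem kerMap_eq_of_testOp {f : HKer U} {c : ℂ} (hφ : SliceInt φ) (hμ : μ ≠ 0)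
    (h : testOp ks (HKer.id U) φ = μ • φ) (hf : testOp ks f φ = (c * μ) • φ) :
    kerMap f φ = c • φ := by
  have h1 : μ • kerMap f φ = μ • (c • φ) := by
    rw [smul_smul, mul_comm μ c, ← kerMap_smul, ← h, ← hf, testOp_id ks hφ,
      testOp_eq_kerMap ks f hφ]
  exact smul_right_injective _ hμ h1

omit [DecidableEq ι] in
theorem isHeckeEigenAt_of_testOp (hU : IsLevel U) {v : HeightOneSpectrum (𝓞 K)} {a : ℂ}
    (hφ : SliceInt φ) (hμ : μ ≠ 0) (h : testOp ks (HKer.id U) φ = μ • φ)
    (hv : ∀ ϖ, IsUniformiserAt v ϖ →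
      testOp ks (HKer.ofDoubleCoset hU (heckeMatrix K ϖ)) φ =
        ((Real.sqrt (Ideal.absNorm v.asIdeal) : ℂ) * a * μ) • φ) :
    IsHeckeEigenAt φ v a := fun ϖ hϖ => by
  rw [heckeOp_eq_kerMap hU]
  exact kerMap_eq_of_testOp hφ hμ h (hv ϖ hϖ)

end Fermat.Agent.LT.Descent

end
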