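import Fermat.Agent.LT.Descent.IwahoriHecke
import Fermat.Agent.LT.Descent.IwahoriAtoms
import Fermat.Agent.LT.Descent.Local
import Fermat.Agent.LT.RankinSelberg.Neighbours

/-!
# Functions on `Space` along one local coordinate

A family with one local matrix acts on a function on `Space` through its restriction to the local
coset space at that place.  At a place with Iwahori level, `t φ = q φ` gives invariance under the
maximal compact there, and then `X φ` is the sum over the neighbouring points.
-/

set_option autoImplicit false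
set_option linter.unusedSectionVars false

noncomputable section

namespace Fermat.Agent.LT.Descent

open IsDedekindDomain IsDedekindDomain.HeightOneSpectrum Matrix NumberField Filter Function
open Fermat.Agent.LT.Adelic Fermat.Agent.LT.Aleph Fermat.Agent.LT.Tame
open scoped MatrixGroups

section Linear

variable {G X : Type*} [Group G] [MulAction G X]

theorem lkerApply_add_left (k l : LKer G X) (f : X → ℂ) (a : X) :
    lkerApply (k + l) f a = lkerApply k f a + lkerApply l f a := by
  simp only [lkerApply, LKer.add_apply, add_mul]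
  exact finsum_add_distrib (LKer.finite_support_mul k a f) (LKer.finite_support_mul l a f)

theorem lkerApply_sub_left (k l : LKer G X) (f : X → ℂ) (a : X) :
    lkerApply (k - l) f a = lkerApply k f a - lkerApply l f a := by
  simp only [lkerApply, LKer.sub_apply, sub_mul]
  exact finsum_sub_distrib (LKer.finite_support_mul k a f) (LKer.finite_support_mul l a f)

theorem lkerApply_smul_left (r : ℂ) (k : LKer G X) (f : X → ℂ) (a : X) :
    lkerApply (r • k) f a = r * lkerApply k f a := by
  simp only [lkerApply, LKer.smul_apply, mul_assoc]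
  exact (mul_finsum _ _).symm

theorem lkerApply_mul_const (k : LKer G X) (f : X → ℂ) (r : ℂ) (a : X) :
    lkerApply k (fun c => r * f c) a = r * lkerApply k f a := by
  simp only [lkerApply, mul_left_comm _ r]
  exact (mul_finsum _ _).symm

end Linear

variable {K : Type*} [Field K] [NumberField K]
  {V : ∀ v : HeightOneSpectrum (𝓞 K), Subgroup (GL (Fin 2) (v.adicCompletion K))}

theorem exists_setLocY (hV : IsLocalLevel V) (v : HeightOneSpectrum (𝓞 K))
    (y : Yf (productLevel V)) (c : LocY V v) :
    ∃ z, locY V v z = c ∧ ∀ u, u ≠ v → locY V u z = locY V u y := by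
  classical
  obtain ⟨z, hz⟩ := hV.isRestrictedProd.exists_of_eventually (update (fun u => locY V u y) v c)
    (((hV.isRestrictedProd.eventually_base y).and (eventually_cofinite_ne v)).mono fun u hu => by
      rw [update_of_ne hu.2]; exact hu.1)
  exact ⟨z, (congrFun hz v).trans (update_self ..),
    fun u hu => (congrFun hz u).trans (update_of_ne hu ..)⟩

/-- The point with one coordinate replaced. -/
def setLocY (hV : IsLocalLevel V) (v : HeightOneSpectrum (𝓞 K)) (y : Yf (productLevel V))
    (c : LocY V v) : Yf (productLevel V) := (exists_setLocY hV v y c).choose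

theorem locY_setLocY_self (hV : IsLocalLevel V) (v : HeightOneSpectrum (𝓞 K))
    (y : Yf (productLevel V)) (c : LocY V v) : locY V v (setLocY hV v y c) = c :=
  (exists_setLocY hV v y c).choose_spec.1

theorem locY_setLocY_of_ne (hV : IsLocalLevel V) {v u : HeightOneSpectrum (𝓞 K)} (h : u ≠ v)
    (y : Yf (productLevel V)) (c : LocY V v) : locY V u (setLocY hV v y c) = locY V u y :=
  (exists_setLocY hV v y c).choose_spec.2 u h

theorem setLocY_eq (hV : IsLocalLevel V) {v : HeightOneSpectrum (𝓞 K)}
    {y z : Yf (productLevel V)} {c : LocY V v} (h : locY V v z = c)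
    (h' : ∀ u, u ≠ v → locY V u z = locY V u y) : setLocY hV v y c = z :=
  hV.isRestrictedProd.injective (funext fun u => by
    rcases eq_or_ne u v with rfl | hu
    · rw [locY_setLocY_self, h]
    · rw [locY_setLocY_of_ne hV hu, h' u hu])

theorem setLocY_setLocY (hV : IsLocalLevel V) (v : HeightOneSpectrum (𝓞 K))
    (y : Yf (productLevel V)) (a c : LocY V v) :
    setLocY hV v (setLocY hV v y a) c = setLocY hV v y c :=
  setLocY_eq hV (locY_setLocY_self hV v y c) fun u hu => by
    rw [locY_setLocY_of_ne hV hu, locY_setLocY_of_ne hV hu]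

/-- Right translation at `v` moves only that coordinate. -/
theorem setLocY_mk_mul (hV : IsLocalLevel V) (v : HeightOneSpectrum (𝓞 K)) (g h : GfK K)
    (hh : ∀ u, u ≠ v → localGL K u h = 1) :
    setLocY hV v (g : Yf (productLevel V))
        ((localPGL v g * localPGL v h : PGL(2, v.adicCompletion K)) : LocY V v) =
      ((g * h : GfK K) : Yf (productLevel V)) :=
  setLocY_eq hV (by rw [locY_mk, map_mul]) fun u hu => by
    rw [locY_mk, locY_mk, map_mul,
      show localPGL u h = 1 by rw [localPGL, MonoidHom.comp_apply, hh u hu, map_one], mul_one]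

variable {ι : Type*} {Φ : Frame K ι}

/-- The function of one coordinate. -/
def locSlice (hV : IsLocalLevel V) (v : HeightOneSpectrum (𝓞 K))
    (φ : Space Φ (productLevel V) → ℂ) (τ : ι → HSpace) (y : Yf (productLevel V))
    (c : LocY V v) : ℂ :=
  φ (Space.mk τ (setLocY hV v y c))

/-- **One local matrix acts along its coordinate.** -/
theorem kerMap_single_slice (hV : IsLocalLevel V) (v : HeightOneSpectrum (𝓞 K))
    (k : LKer PGL(2, v.adicCompletion K) (LocY V v)) (φ : Space Φ (productLevel V) → ℂ)
    (τ : ι → HSpace) (y : Yf (productLevel V)) :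
    kerMap ((KerFamily.single v k).toHKer hV) φ (Space.mk τ y) =
      lkerApply k (locSlice hV v φ τ y) (locY V v y) := by
  have hval : ∀ c, ((KerFamily.single v k).toHKer hV) y (setLocY hV v y c) =
      k (locY V v y) c := fun c => by
    rw [KerFamily.toHKer_eq_mul hV _ v, KerFamily.single_ker_self, locY_setLocY_self]
    convert mul_one (k (locY V v y) c) using 2
    refine finprod_eq_one_of_forall_eq_one fun u => ?_
    classical
    rw [finprod_eq_if]
    split_ifs with hu
    · rw [KerFamily.single_ker_ne hu, locY_setLocY_of_ne hV hu, LKer.one_apply_self]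
    · rfl
  have hinj : Injective (setLocY hV v y) := fun c c' h => by
    have := congrArg (locY V v) h
    rwa [locY_setLocY_self, locY_setLocY_self] at this
  rw [kerMap, Space.fin_mk, Space.pt_mk, lkerApply, ← finsum_mem_univ (f := fun z =>
    ((KerFamily.single v k).toHKer hV) y z * φ (Space.mk τ z)),
    finsum_mem_inter_support_eq' _ Set.univ (Set.range (setLocY hV v y)) fun z hz =>
      iff_of_true trivial ⟨locY V v z, setLocY_eq hV rfl fun u hu => ?_⟩,
    finsum_mem_range hinj]
  · exact finsum_congr fun c => by rw [hval]; rfl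
  · by_contra hne
    refine KerFamily.ne_zero_of_finprod hV _ (left_ne_zero_of_mul hz) u ?_
    rw [KerFamily.single_ker_ne hu]
    exact LKer.one_apply_ne (Ne.symm hne)

/-- An eigen equation for one local matrix, along the coordinate. -/
theorem lkerApply_locSlice_eq (hV : IsLocalLevel V) {v : HeightOneSpectrum (𝓞 K)}
    {k : LKer PGL(2, v.adicCompletion K) (LocY V v)} {φ : Space Φ (productLevel V) → ℂ} {c : ℂ}
    (h : kerMap ((KerFamily.single v k).toHKer hV) φ = c • φ) (τ : ι → HSpace)
    (y : Yf (productLevel V)) (a : LocY V v) :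
    lkerApply k (locSlice hV v φ τ y) a = c * locSlice hV v φ τ y a := by
  have h1 := congrFun h (Space.mk τ (setLocY hV v y a))
  rw [kerMap_single_slice, Pi.smul_apply, smul_eq_mul, locY_setLocY_self] at h1
  rwa [show locSlice hV v φ τ (setLocY hV v y a) = locSlice hV v φ τ y from
    funext fun b => by simp only [locSlice, setLocY_setLocY]] at h1

section Spherical

variable {v : HeightOneSpectrum (𝓞 K)}

/-- **`t φ = q φ` gives invariance under the maximal compact at `v`.** -/
theorem apply_mk_mul_of_iwT (hV : IsLocalLevel V)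
    (hJ : (V v).map ProjGenLinGroup.mk = pglIwahori v) {φ : Space Φ (productLevel V) → ℂ}
    (ht : kerMap ((KerFamily.single v (iwTKer hJ)).toHKer hV) φ =
      (Ideal.absNorm v.asIdeal : ℂ) • φ) (τ : ι → HSpace) (g h : GfK K)
    (hh : ∀ u, u ≠ v → localGL K u h = 1) (hv : localPGL v h ∈ pglFull v) :
    φ (Space.mk τ ((g * h : GfK K) : Yf (productLevel V))) =
      φ (Space.mk τ (g : Yf (productLevel V))) := by
  have h1 := (forall_lkerApply_iwTKer_eq_iff hJ _).1
    (lkerApply_locSlice_eq hV ht τ (g : Yf (productLevel V))) (localPGL v g) _ hv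
  rwa [locSlice, locSlice, setLocY_mk_mul hV v g h hh,
    setLocY_eq hV (z := (g : Yf (productLevel V))) (locY_mk V v g) fun _ _ => rfl] at h1

/-- The neighbour `n(x) diag(ϖ, 1)` at `v` for invariant functions. -/
theorem apply_nbr_some {ϖ : (FiniteAdeleRing (𝓞 K) K)ˣ} (hϖ : IsUniformiserAt v ϖ) {f : LocY V v → ℂ}
    (hinv : ∀ (x : PGL(2, v.adicCompletion K)), ∀ h ∈ pglFull v,
      f ((x * h : PGL(2, v.adicCompletion K)) : LocY V v) = f (x : LocY V v))
    (x : PGL(2, v.adicCompletion K)) (r : 𝓞 K ⧸ v.asIdeal) :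
    f ((x * localPGL v (RankinSelberg.nbrMatrix v ϖ (some r)) : PGL(2, v.adicCompletion K)) :
        LocY V v) =
      f ((x * bigRep (Units.map (RankinSelberg.evalAt v).toMonoidHom ϖ) 1 (repParam (-r)) :
        PGL(2, v.adicCompletion K)) : LocY V v) := by
  set ϖ' : (v.adicCompletion K)ˣ :=
    Units.map (RankinSelberg.evalAt v).toMonoidHom ϖ with hϖ'
  have hval : Valued.v (ϖ' : v.adicCompletion K) = WithZero.exp (-1 : ℤ) := hϖ.1
  have e : localPGL v (RankinSelberg.nbrMatrix v ϖ (some r)) =
      bigRep ϖ' 1 (RankinSelberg.localShift ϖ r.out v) := by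
    rw [localPGL, MonoidHom.comp_apply, bigRep]
    refine congrArg _ (Units.ext ?_)
    rw [coe_bigMat, pow_one,
      show localGL K v (RankinSelberg.nbrMatrix v ϖ (some r)) =
        RankinSelberg.compAt v (RankinSelberg.nbrMatrix v ϖ (some r)) from rfl,
      RankinSelberg.nbrMatrix, heckeMatrix, map_mul, Units.val_mul,
      RankinSelberg.compAt_unipotent, RankinSelberg.compAt_diag2, Matrix.mul_fin_two]
    simp [hϖ', coe_apply_one, RankinSelberg.evalAt]
  have hb : Valued.v (RankinSelberg.localShift ϖ r.out v - repParam (-r)) < 1 := by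
    have e1 : RankinSelberg.localShift ϖ r.out v - repParam (-r) =
        (ϖ : FiniteAdeleRing (𝓞 K) K) v *
          algebraMap K (v.adicCompletion K) (algebraMap (𝓞 K) K r.out) -
          algebraMap K (v.adicCompletion K) (algebraMap (𝓞 K) K (r.out + (-r).out)) := by
      rw [RankinSelberg.localShift, coe_apply_mul, coe_apply_sub, coe_apply_one,
        RankinSelberg.algebraMap_int_apply, repParam, map_add, map_add]
      ring
    have h1 : Valued.v ((ϖ : FiniteAdeleRing (𝓞 K) K) v *
        algebraMap K (v.adicCompletion K) (algebraMap (𝓞 K) K r.out)) < 1 := by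
      rw [map_mul, valued_intMap]
      refine lt_of_le_of_lt ((mul_le_mul' le_rfl (v.intValuation_le_one _)).trans (mul_one _).le) ?_
      rw [hϖ.1, ← WithZero.exp_zero, WithZero.exp_lt_exp]
      omega
    have h2 : Valued.v (algebraMap K (v.adicCompletion K)
        (algebraMap (𝓞 K) K (r.out + (-r).out))) < 1 := by
      rw [valued_intMap, intValuation_lt_one_iff_mem, ← Ideal.Quotient.eq_zero_iff_mem,
        map_add, Ideal.Quotient.mk_out, Ideal.Quotient.mk_out, add_neg_cancel]
    rw [e1]
    exact lt_of_le_of_lt (Valuation.map_sub _ _ _) (max_lt h1 h2)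
  have hk := pglIwahori_le v (bigRep_congr (ϖ := ϖ') (n := 1) (b := repParam (-r))
    (b' := RankinSelberg.localShift ϖ r.out v) (by
      rw [pow_one, hval]; exact le_exp_neg_one_of_lt_one hb))
  rw [e, ← hinv (x * bigRep ϖ' 1 (repParam (-r))) _ hk, mul_assoc, mul_inv_cancel_left]

/-- **On a function fixed by `t` the matrix `X` is the sum over the neighbours.** -/
theorem kerMap_iwX_eq_sum (hV : IsLocalLevel V)
    (hJ : (V v).map ProjGenLinGroup.mk = pglIwahori v) {φ : Space Φ (productLevel V) → ℂ}
    (ht : kerMap ((KerFamily.single v (iwTKer hJ)).toHKer hV) φ =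
      (Ideal.absNorm v.asIdeal : ℂ) • φ)
    {ϖ : (FiniteAdeleRing (𝓞 K) K)ˣ} (hϖ : IsUniformiserAt v ϖ) (τ : ι → HSpace) (g : GfK K) :
    kerMap ((KerFamily.single v (iwXAt hJ)).toHKer hV) φ
        (Space.mk τ (g : Yf (productLevel V))) =
      ∑ᶠ o, φ (Space.mk τ ((g * RankinSelberg.nbrMatrix v ϖ o : GfK K) : Yf (productLevel V))) := by
  have := Fintype.ofFinite (𝓞 K ⧸ v.asIdeal)
  set ϖ' : (v.adicCompletion K)ˣ :=
    Units.map (RankinSelberg.evalAt v).toMonoidHom ϖ with hϖ'
  have hval : Valued.v (ϖ' : v.adicCompletion K) = WithZero.exp (-1 : ℤ) := hϖ.1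
  set f := locSlice hV v φ τ (g : Yf (productLevel V)) with hf
  set x := localPGL v g with hx
  have hq : ∀ a, lkerApply (iwTKer hJ) f a = (Ideal.absNorm v.asIdeal : ℂ) * f a :=
    lkerApply_locSlice_eq hV ht τ _
  have hinv := (forall_lkerApply_iwTKer_eq_iff hJ f).1 hq
  have key : ∀ o, φ (Space.mk τ ((g * RankinSelberg.nbrMatrix v ϖ o : GfK K) :
      Yf (productLevel V))) = f ((x * localPGL v (RankinSelberg.nbrMatrix v ϖ o) :
        PGL(2, v.adicCompletion K)) : LocY V v) := fun o => by
    rw [hf, locSlice, hx, setLocY_mk_mul hV v g _ fun u hu =>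
      RankinSelberg.compAt_nbrMatrix_of_ne hϖ hu o]
  have hX' : lkerApply (iwXAt hJ) f (x : LocY V v) = lkerApply (iwTKer hJ) (lkerApply (iwWKer hJ hval) f) x +
      lkerApply (iwWKer hJ hval) f x := by
    rw [iwXAt, iwahoriX,
      ← iwWKer_eq hJ hval, LKer.mul_def, LKer.mul_def, lkerApply_sub_left, lkerApply_add_left,
      lkerApply_smul_left, lkerApply_comp, lkerApply_comp,
      funext hq, lkerApply_mul_const]
    ring
  rw [kerMap_single_slice, locY_mk, ← hx, ← hf, hX', lkerApply_add_one_w hJ hval f hinv,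
    finsum_eq_sum_of_fintype, Fintype.sum_option, add_comm]
  congr 1
  · rw [key]
    congr 3
    symm
    rw [localPGL, MonoidHom.comp_apply]
    refine congrArg _ (Units.ext ?_)
    rw [show localGL K v (RankinSelberg.nbrMatrix v ϖ none) =
        RankinSelberg.compAt v (RankinSelberg.nbrMatrix v ϖ none) from rfl,
      RankinSelberg.nbrMatrix, RankinSelberg.compAt_diag2, coe_diag2]
    simp [hϖ', coe_apply_one, RankinSelberg.evalAt]
  · symm
    refine Fintype.sum_equiv (Equiv.neg _) _ _ fun r => ?_
    rw [key, Equiv.neg_apply]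
    exact apply_nbr_some hϖ hinv x r

/-- A function invariant under the maximal compact at `v` is fixed by `t` up to `q`. -/
theorem kerMap_iwT_of_invariant (hV : IsLocalLevel V)
    (hJ : (V v).map ProjGenLinGroup.mk = pglIwahori v) {φ : Space Φ (productLevel V) → ℂ}
    (hinv : ∀ (τ : ι → HSpace) (g h : GfK K), (∀ u, u ≠ v → localGL K u h = 1) →
      IsIntLocal (localGL K v h) →
        φ (Space.mk τ ((g * h : GfK K) : Yf (productLevel V))) =
          φ (Space.mk τ (g : Yf (productLevel V)))) :
    kerMap ((KerFamily.single v (iwTKer hJ)).toHKer hV) φ =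
      (Ideal.absNorm v.asIdeal : ℂ) • φ := by
  classical
  funext p
  rw [← Space.mk_pt_fin p, kerMap_single_slice, Pi.smul_apply, smul_eq_mul]
  refine ((forall_lkerApply_iwTKer_eq_iff hJ _).2 (fun x k hk => ?_) _).trans ?_
  swap
  · rw [locSlice, setLocY_eq hV (z := p.fin) rfl fun _ _ => rfl]
  obtain ⟨g, hg⟩ := QuotientGroup.mk_surjective
    (setLocY hV v p.fin (x : LocY V v))
  have hx : x⁻¹ * localPGL v g ∈ (V v).map ProjGenLinGroup.mk := by
    refine QuotientGroup.eq.1 ?_
    rw [← locY_mk V v g, hg, locY_setLocY_self]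
  obtain ⟨γ, hγ, hγ'⟩ := Subgroup.mem_map.1 (show (localPGL v g)⁻¹ * (x * k) ∈ pglFull v by
    have h1 := (pglFull v).mul_mem ((pglFull v).inv_mem (Subgroup.map_mono (hV.le v) hx)) hk
    rwa [_root_.mul_inv_rev, inv_inv, mul_assoc] at h1)
  set h := gfOfLocal K (Function.update (fun u => (1 : GL (Fin 2) (u.adicCompletion K))) v γ)
    fun u => by
      rcases eq_or_ne u v with rfl | hu
      · rw [update_self]; exact hγ
      · rw [update_of_ne hu]; exact isIntLocal_one
  have hh : ∀ u, u ≠ v → localGL K u h = 1 := fun u hu => by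
    rw [localGL_gfOfLocal, update_of_ne hu]
  have hhv : localGL K v h = γ := by rw [localGL_gfOfLocal, update_self]
  have h2 := setLocY_mk_mul hV v g h hh
  rw [show localPGL v g * localPGL v h = x * k by
    rw [localPGL, MonoidHom.comp_apply, MonoidHom.comp_apply, hhv, hγ']
    exact mul_inv_cancel_left _ _, hg, setLocY_setLocY] at h2
  rw [locSlice, locSlice, h2, ← hg]
  exact hinv p.pt g h hh (hhv ▸ hγ)

/-- An eigen equation for `X` gives the Hecke sum. -/
theorem sum_nbrMatrix_of_iwX (hV : IsLocalLevel V)
    (hJ : (V v).map ProjGenLinGroup.mk = pglIwahori v) {φ : Space Φ (productLevel V) → ℂ} {c : ℂ}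
    (ht : kerMap ((KerFamily.single v (iwTKer hJ)).toHKer hV) φ =
      (Ideal.absNorm v.asIdeal : ℂ) • φ)
    (hX : kerMap ((KerFamily.single v (iwXAt hJ)).toHKer hV) φ = c • φ)
    {ϖ : (FiniteAdeleRing (𝓞 K) K)ˣ} (hϖ : IsUniformiserAt v ϖ) (τ : ι → HSpace) (g : GfK K) :
    ∑ᶠ o, φ (Space.mk τ ((g * RankinSelberg.nbrMatrix v ϖ o : GfK K) : Yf (productLevel V))) =
      c * φ (Space.mk τ (g : Yf (productLevel V))) := by
  rw [← kerMap_iwX_eq_sum hV hJ ht hϖ, hX]
  rfl

end Spherical

end Fermat.Agent.LT.Descent

end
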