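/-
The exact conductor of the finite additive character: an idele generating the inverse different.
-/
import Fermat.Agent.LT.Whittaker.Psi
import Fermat.Agent.LT.Descent.KirillovModel
import Mathlib.RingTheory.DedekindDomain.Different

set_option autoImplicit false

noncomputable section

namespace Fermat.Agent.LT.Descent

open IsDedekindDomain NumberField
open Fermat.Agent.LT.Adelic

variable {K : Type*} [Field K] [NumberField K]

/-- The inverse different, by traces. -/
def TraceIntegral (y : K) : Prop :=
  ∀ o : 𝓞 K, ∃ n : ℤ, Algebra.trace ℚ K (y * algebraMap (𝓞 K) K o) = n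

theorem traceIntegral_algebraMap (r : 𝓞 K) : TraceIntegral (algebraMap (𝓞 K) K r) := fun o =>
  exists_trace_eq_int_of_mem_intAdele fun w => by
    rw [valued_algebraMap, map_mul]
    exact mul_le_one' (w.valuation_le_one r) (w.valuation_le_one o)

/-- The inverse different has bounded denominators. -/
theorem exists_denominator_traceIntegral :
    ∃ d : 𝓞 K, d ≠ 0 ∧ ∀ (y : K), TraceIntegral y → ∀ v : HeightOneSpectrum (𝓞 K),
      v.intValuation d * v.valuation K y ≤ 1 := by
  set I : FractionalIdeal (nonZeroDivisors (𝓞 K)) K :=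
    FractionalIdeal.dual ℤ ℚ (1 : FractionalIdeal (nonZeroDivisors (𝓞 K)) K)
  refine ⟨I.den, nonZeroDivisors.ne_zero I.den.2, fun y hy v => ?_⟩
  have hmem : y ∈ I := by
    rw [← FractionalIdeal.mem_coe, FractionalIdeal.coe_dual_one, Submodule.mem_traceDual]
    intro b hb
    obtain ⟨o, rfl⟩ := Submodule.mem_one.1 hb
    obtain ⟨n, hn⟩ := hy o
    exact ⟨n, by rw [Algebra.traceForm_apply, hn]; simp⟩
  have h2 : (I.den : 𝓞 K) • y ∈ Submodule.map (Algebra.linearMap (𝓞 K) K) I.num := by
    rw [← I.den_mul_self_eq_num]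
    exact Submodule.smul_mem_pointwise_smul y I.den _ hmem
  obtain ⟨r, -, hr⟩ := h2
  rw [← HeightOneSpectrum.valuation_of_algebraMap (K := K), ← map_mul, ← Algebra.smul_def, ← hr]
  exact v.valuation_le_one r

variable (K) in
/-- **An idele with the exact conductor of a character** agreeing with `exp (-2πi Tr)` on `K` and
trivial on the integral adeles. -/
theorem exists_conductor_idele (χ : AddChar (FiniteAdeleRing (𝓞 K) K) ℂ)
    (hK : ∀ x : K, χ (algebraMap K _ x) = Poisson.eC (-((Algebra.trace ℚ K x : ℚ) : ℝ)))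
    (hint : ∀ t ∈ intAdele (𝓞 K) K, χ t = 1) :
    ∃ δ : (FiniteAdeleRing (𝓞 K) K)ˣ,
      (∀ x ∈ intAdele (𝓞 K) K, χ ((δ : FiniteAdeleRing (𝓞 K) K) * x) = 1) ∧
      ∀ v : HeightOneSpectrum (𝓞 K), ∃ s : FiniteAdeleRing (𝓞 K) K, (∀ w ≠ v, s w = 0) ∧
        Valued.v (s v) ≤ WithZero.exp (1 : ℤ) ∧ χ ((δ : FiniteAdeleRing (𝓞 K) K) * s) ≠ 1 := by
  classical
  obtain ⟨D, hD0, hD⟩ := exists_denominator_traceIntegral (K := K)
  have hone : TraceIntegral (1 : K) := by simpa using traceIntegral_algebraMap (K := K) 1
  -- the largest value on the inverse different at each place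
  have hmax : ∀ v : HeightOneSpectrum (𝓞 K), ∃ (d : ℕ) (y : K), TraceIntegral y ∧
      v.valuation K y = WithZero.exp (d : ℤ) ∧
      ∀ z : K, TraceIntegral z → v.valuation K z ≤ WithZero.exp (d : ℤ) := by
    intro v
    set P := fun d : ℕ => ∃ y : K, TraceIntegral y ∧ v.valuation K y = WithZero.exp (d : ℤ)
    set B := (-WithZero.log (v.intValuation D)).toNat
    have hB : ∀ z : K, TraceIntegral z → v.valuation K z ≤ WithZero.exp (B : ℤ) := by
      intro z hz
      rcases eq_or_ne (v.valuation K z) 0 with h0 | h0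
      · rw [h0]; exact zero_le
      have h := hD z hz v
      have hD' := v.intValuation_ne_zero D hD0
      rw [← WithZero.exp_log hD', ← WithZero.exp_log h0, ← WithZero.exp_add, ← WithZero.exp_zero,
        WithZero.exp_le_exp] at h
      rw [← WithZero.exp_log h0, WithZero.exp_le_exp]
      omega
    have hP0 : P 0 := ⟨1, hone, by simp⟩
    obtain ⟨y, hy, hyd⟩ := Nat.findGreatest_spec (P := P) (Nat.zero_le B) hP0
    refine ⟨_, y, hy, hyd, fun z hz => ?_⟩
    rcases eq_or_ne (v.valuation K z) 0 with h0 | h0
    · rw [h0]; exact zero_le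
    have hzB := hB z hz
    rw [← WithZero.exp_log h0, WithZero.exp_le_exp] at hzB ⊢
    rcases lt_or_ge (WithZero.log (v.valuation K z)) 0 with hneg | hpos
    · omega
    · have := Nat.le_findGreatest (P := P) (m := (WithZero.log (v.valuation K z)).toNat) (n := B)
        (by omega) ⟨z, hz, by
          conv_lhs => rw [← WithZero.exp_log h0]
          congr 1; omega⟩
      omega
  choose d y hy hyd hdmax using hmax
  have hd0 : ∀ v : HeightOneSpectrum (𝓞 K), v.intValuation D = 1 → d v = 0 := fun v hv => by
    have h := hD _ (hy v) v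
    rw [hv, one_mul, hyd, ← WithZero.exp_zero, WithZero.exp_le_exp] at h
    omega
  choose π hπ using fun v : HeightOneSpectrum (𝓞 K) => v.valuation_exists_uniformizer K
  have hval : ∀ v : HeightOneSpectrum (𝓞 K),
      Valued.v (((π v)⁻¹ ^ (d v) : K) : v.adicCompletion K) = WithZero.exp (d v : ℤ) := fun v => by
    rw [HeightOneSpectrum.adicCompletion.valued_coe, map_pow, map_inv₀, hπ, ← WithZero.exp_neg,
      ← WithZero.exp_nsmul]
    simp
  have hcof : ∀ᶠ v : HeightOneSpectrum (𝓞 K) in Filter.cofinite, d v = 0 := by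
    refine (finite_primes_dvd hD0).subset fun v hv => ?_
    by_contra h
    exact hv (hd0 v (le_antisymm (v.intValuation_le_one D) (not_lt.1 h)))
  let δ₀ : FiniteAdeleRing (𝓞 K) K :=
    ⟨fun v => (((π v)⁻¹ ^ (d v) : K) : v.adicCompletion K), hcof.mono fun v hv => by
      show Valued.v (((π v)⁻¹ ^ (d v) : K) : v.adicCompletion K) ≤ 1
      rw [hval, hv]; simp⟩
  have hδv : ∀ v, Valued.v (δ₀ v) = WithZero.exp (d v : ℤ) := hval
  have hunit : IsUnit δ₀ := isUnit_of_forall
    (fun v h => by have := hδv v; rw [h, map_zero] at this; exact WithZero.exp_ne_zero this.symm)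
    (hcof.mono fun v hv => by rw [hδv, hv]; simp)
  have hball : ∀ v (t : FiniteAdeleRing (𝓞 K) K), (∀ w ≠ v, t w = 0) →
      Valued.v (t v) ≤ WithZero.exp (d v : ℤ) → χ t = 1 := by
    intro v t ht0 htv
    set Y : FiniteAdeleRing (𝓞 K) K := algebraMap K _ (y v) with hY
    have hYv : Valued.v (Y v) = WithZero.exp (d v : ℤ) := by rw [hY, valued_algebraMap, hyd]
    have hY0 : Y v ≠ 0 := fun h => by
      rw [h, map_zero] at hYv; exact WithZero.exp_ne_zero hYv.symm
    obtain ⟨u, hu0, huv⟩ := exists_single v (t v / Y v)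
    have hu : u ∈ intAdele (𝓞 K) K := fun w => by
      by_cases hw : w = v
      · subst hw
        rw [huv, map_div₀, hYv]
        exact div_le_one_of_le₀ htv zero_le
      · rw [hu0 w hw, map_zero]; exact zero_le
    obtain ⟨r, hr⟩ := exists_int_memMul hu hD0
    have hdiff : t - Y * algebraMap (𝓞 K) _ r ∈ intAdele (𝓞 K) K := by
      intro w
      have e : t - Y * algebraMap (𝓞 K) _ r = Y * (u - algebraMap (𝓞 K) _ r) := by
        refine FiniteAdeleRing.ext K fun z => ?_
        simp only [coe_apply_sub, coe_apply_mul]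
        by_cases hz : z = v
        · subst hz; rw [huv]; field_simp
        · rw [ht0 z hz, hu0 z hz]; ring
      rw [e, coe_apply_mul, map_mul, hY, valued_algebraMap, mul_comm]
      exact (mul_le_mul' (hr w) le_rfl).trans (hD _ (hy v) w)
    rw [← sub_add_cancel t (Y * algebraMap (𝓞 K) _ r), AddChar.map_add_eq_mul, hint _ hdiff, one_mul,
      show Y * algebraMap (𝓞 K) (FiniteAdeleRing (𝓞 K) K) r
        = algebraMap K _ (y v * algebraMap (𝓞 K) K r) by
        rw [map_mul, ← IsScalarTower.algebraMap_apply], hK]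
    obtain ⟨n, hn⟩ := hy v r
    rw [hn]
    exact Complex.exp_eq_one_iff.mpr ⟨-n, by push_cast; ring⟩
  refine ⟨hunit.unit, fun x hx => ?_, fun v => ?_⟩
  · rw [IsUnit.unit_spec]
    -- split off the finitely many places where the conductor is nontrivial
    set F := (finite_primes_dvd hD0).toFinset
    choose c hc0 hcv using fun w : HeightOneSpectrum (𝓞 K) => exists_single w ((δ₀ * x) w)
    have hcoord : ∀ (G : Finset (HeightOneSpectrum (𝓞 K))) (w : HeightOneSpectrum (𝓞 K)),
        (∑ z ∈ G, c z) w = if w ∈ G then (δ₀ * x) w else 0 := by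
      intro G w
      induction G using Finset.induction_on with
      | empty => simp [coe_apply_zero]
      | @insert z G hz ih =>
        rw [Finset.sum_insert hz, coe_apply_add, ih]
        by_cases hw : w = z
        · subst hw; simp [hz, hcv]
        · simp [hw, hc0 z w hw]
    have hrest : δ₀ * x - ∑ z ∈ F, c z ∈ intAdele (𝓞 K) K := fun w => by
      rw [coe_apply_sub, hcoord]
      by_cases hw : w ∈ F
      · rw [if_pos hw, sub_self, map_zero]; exact zero_le
      · rw [if_neg hw, sub_zero, coe_apply_mul, map_mul, hδv]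
        rw [hd0 w (le_antisymm (w.intValuation_le_one D)
          (not_lt.1 fun h => hw ((Set.Finite.mem_toFinset _).2 h)))]
        simpa using hx w
    rw [← sub_add_cancel (δ₀ * x) (∑ z ∈ F, c z), AddChar.map_add_eq_mul, hint _ hrest, one_mul]
    refine Finset.sum_induction c (fun t => χ t = 1) (fun s t hs ht => ?_) χ.map_zero_eq_one
      fun z _ => hball z _ (hc0 z) ?_
    · rw [AddChar.map_add_eq_mul, hs, ht, one_mul]
    rw [hcv, coe_apply_mul, map_mul, hδv]
    exact mul_le_of_le_one_right' (hx z)
  · by_contra hno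
    push Not at hno
    -- a global element just outside the inverse different at `v` only
    obtain ⟨b, hb0, hbv⟩ := exists_single v (((π v)⁻¹ ^ (d v + 1) : K) : v.adicCompletion K)
    have hbval : Valued.v (b v) = WithZero.exp ((d v : ℤ) + 1) := by
      rw [hbv, HeightOneSpectrum.adicCompletion.valued_coe, map_pow, map_inv₀, hπ, ← WithZero.exp_neg,
        ← WithZero.exp_nsmul]
      simp
    obtain ⟨x, hx⟩ := exists_sub_mem_intAdele b
    have hxv : v.valuation K x = WithZero.exp ((d v : ℤ) + 1) := by
      have h := hx v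
      rw [coe_apply_sub] at h
      rw [← hbval, ← valued_algebraMap]
      rw [show (algebraMap K (FiniteAdeleRing (𝓞 K) K) x) v
        = b v + -(b v - (algebraMap K (FiniteAdeleRing (𝓞 K) K) x) v) by ring]
      refine Valuation.map_add_eq_of_lt_left _ ?_
      rw [Valuation.map_neg, hbval]
      exact h.trans_lt (by rw [← WithZero.exp_zero, WithZero.exp_lt_exp]; omega)
    have hxT : TraceIntegral x := by
      intro o
      set z := x * algebraMap (𝓞 K) K o
      obtain ⟨c, hc0, hcv⟩ := exists_single v ((algebraMap K (FiniteAdeleRing (𝓞 K) K) z) v)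
      have hrest : algebraMap K _ z - c ∈ intAdele (𝓞 K) K := fun w => by
        rw [coe_apply_sub]
        by_cases hw : w = v
        · subst hw; rw [hcv, sub_self, map_zero]; exact zero_le
        · rw [hc0 w hw, sub_zero, valued_algebraMap, map_mul]
          refine mul_le_one' ?_ (w.valuation_le_one o)
          have h := hx w
          rw [coe_apply_sub, hb0 w hw, zero_sub, Valuation.map_neg, valued_algebraMap] at h
          exact h
      obtain ⟨s, hs0, hsv⟩ := exists_single v (c v / δ₀ v)
      have hδ0 : δ₀ v ≠ 0 := (FiniteAdeleRing.isUnit_iff.1 hunit).1 v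
      have hs := hno s hs0 (by
        rw [hsv, map_div₀, hcv, valued_algebraMap, hδv, div_le_iff₀ (WithZero.zero_lt_coe _),
          map_mul, hxv, ← WithZero.exp_add, add_comm (1 : ℤ)]
        exact mul_le_of_le_one_right' (v.valuation_le_one o))
      rw [IsUnit.unit_spec, show δ₀ * s = c from FiniteAdeleRing.ext K fun w => by
        rw [coe_apply_mul]
        by_cases hw : w = v
        · subst hw; rw [hsv, mul_div_cancel₀ _ hδ0]
        · rw [hs0 w hw, hc0 w hw, mul_zero]] at hs
      have h1 : χ (algebraMap K _ z) = 1 := by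
        rw [← sub_add_cancel (algebraMap K (FiniteAdeleRing (𝓞 K) K) z) c, AddChar.map_add_eq_mul,
          hint _ hrest, hs, one_mul]
      rw [hK, Poisson.eC, Complex.exp_eq_one_iff] at h1
      obtain ⟨n, hn⟩ := h1
      refine ⟨-n, ?_⟩
      have hne : (2 : ℂ) * Real.pi * Complex.I ≠ 0 := by simp [Real.pi_ne_zero]
      rw [mul_comm (n : ℂ)] at hn
      have h2 := mul_left_cancel₀ hne hn
      have h3 : ((Algebra.trace ℚ K z : ℚ) : ℝ) = ((-n : ℤ) : ℝ) := by
        have := congrArg Complex.re h2
        simp at this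
        push_cast; linarith
      exact_mod_cast h3
    have h := hdmax v x hxT
    rw [hxv, WithZero.exp_le_exp] at h
    omega

end Fermat.Agent.LT.Descent
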