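/-
The coefficient map of the forms with a fixed system outside `S`, from the Whittaker expansion.
-/
import Fermat.Agent.LT.Adelic.Whittaker
import Fermat.Agent.LT.Descent.Codifferent

set_option autoImplicit false

noncomputable section

namespace Fermat.Agent.LT.Descent

open IsDedekindDomain NumberField Matrix
open Fermat.Agent.LT.Adelic
open Fermat.Agent.LT.RankinSelberg (nbrMatrix)

variable {K : Type*} [Field K] [NumberField K] {ι : Type*} [Fintype ι] {Φ : Frame K ι}

theorem isLevel_principalLevel {n : 𝓞 K} (hn : n ≠ 0) : IsLevel (principalLevel K n) :=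
  ⟨n, hn, le_rfl, principalLevel_mono (one_dvd n)⟩

variable (K) in
/-- The base coordinate of full level. -/
def baseCoord : Yf (principalLevel K (1 : 𝓞 K)) :=
  ((1 : GfK K) : Yf (principalLevel K (1 : 𝓞 K)))

/-- The slice of a function at a finite coordinate. -/
def formSlice (ψ : (ι → HSpace) → GfK K → ℂ) (g : GfK K) :
    Space Φ (principalLevel K (1 : 𝓞 K)) → ℂ := fun x => ψ x.pt g

@[simp] theorem formSlice_mk (ψ : (ι → HSpace) → GfK K → ℂ) (g : GfK K) (τ : ι → HSpace)
    (y : Yf (principalLevel K (1 : 𝓞 K))) : formSlice (Φ := Φ) ψ g (Space.mk τ y) = ψ τ g := rfl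

variable (Φ) in
/-- The Whittaker coefficients of a function on `(H³)^ι × GL₂(𝔸_f)`. -/
def formCoeff (ψ : (ι → HSpace) → GfK K → ℂ) (g : GfK K) : K → ℂ :=
  whitCoeff (formSlice (Φ := Φ) ψ g) (baseCoord K)

/-- An expansion only depends on the function of the coordinates in `(H³)^ι`. -/
theorem isWhittakerAt_congr {U U' : Subgroup (GfK K)} {f : Space Φ U → ℂ} {f' : Space Φ U' → ℂ}
    {y : Yf U} {y' : Yf U'} {c : K → ℂ} (h : IsWhittakerAt f y c)
    (e : ∀ τ, f (Space.mk τ y) = f' (Space.mk τ y')) : IsWhittakerAt f' y' c :=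
  ⟨h.zero, h.support, fun τ => e τ ▸ h.hasSum τ⟩

theorem isWhittakerAt_zero {U : Subgroup (GfK K)} {f : Space Φ U → ℂ} {y : Yf U}
    (hf : ∀ τ, f (Space.mk τ y) = 0) : IsWhittakerAt f y 0 where
  zero := rfl
  support := ⟨1, one_ne_zero, fun α h => absurd rfl h⟩
  hasSum τ := by simp [hf, hasSum_zero]

theorem isWhittakerAt_finsetSum {U : Subgroup (GfK K)} {κ : Type*} (s : Finset κ)
    (f : κ → Space Φ U → ℂ) {y : Yf U} (c : κ → K → ℂ) (h : ∀ o ∈ s, IsWhittakerAt (f o) y (c o)) :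
    IsWhittakerAt (∑ o ∈ s, f o) y (∑ o ∈ s, c o) := by
  classical
  induction s using Finset.induction_on with
  | empty => simpa using isWhittakerAt_zero (f := (0 : Space Φ U → ℂ)) (fun _ => rfl)
  | @insert o s ho ih =>
    rw [Finset.sum_insert ho, Finset.sum_insert ho]
    exact (h o (Finset.mem_insert_self o s)).add
      (ih fun o' ho' => h o' (Finset.mem_insert_of_mem ho'))

variable [DecidableEq ι] {S : Set (HeightOneSpectrum (𝓞 K))} {a : HeightOneSpectrum (𝓞 K) → ℂ}
  {ψ ψ' : (ι → HSpace) → GfK K → ℂ} {U : Subgroup (GfK K)}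

theorem IsSForm.isInvariant_toSpace (h : IsSForm Φ S a ψ)
    (hfix : ∀ τ g, ∀ u ∈ U, ψ τ (g * u) = ψ τ g) :
    IsInvariant (toSpace (Φ := Φ) (U := U) ψ) := by
  rcases eq_or_ne ψ 0 with rfl | hψ
  · exact fun γ x => rfl
  · exact (isCuspEigen_toSpace h hψ hfix).invariant

theorem IsSForm.isWhittakerAt_toSpace (h : IsSForm Φ S a ψ) (hU : IsLevel U)
    (hfix : ∀ τ g, ∀ u ∈ U, ψ τ (g * u) = ψ τ g) (y : Yf U) :
    IsWhittakerAt (toSpace (Φ := Φ) (U := U) ψ) y (whitCoeff (toSpace (Φ := Φ) (U := U) ψ) y) := by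
  rcases eq_or_ne ψ 0 with rfl | hψ
  · have h0 : IsWhittakerAt (toSpace (Φ := Φ) (U := U) (0 : (ι → HSpace) → GfK K → ℂ)) y 0 :=
      isWhittakerAt_zero fun _ => rfl
    rw [h0.whitCoeff_eq]
    exact h0
  · exact (isCuspEigen_toSpace h hψ hfix).isWhittakerAt hU y

theorem IsSForm.whitCoeff_toSpace (h : IsSForm Φ S a ψ) (hU : IsLevel U)
    (hfix : ∀ τ g, ∀ u ∈ U, ψ τ (g * u) = ψ τ g) (g : GfK K) :
    whitCoeff (toSpace (Φ := Φ) (U := U) ψ) (g : Yf U) = formCoeff Φ ψ g :=
  ((isWhittakerAt_congr (f' := formSlice (Φ := Φ) ψ g) (y' := baseCoord K)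
    (h.isWhittakerAt_toSpace hU hfix (g : Yf U)) fun τ => by
      rw [toSpace_mk h hfix, formSlice_mk]).whitCoeff_eq).symm

/-- Every form has an expansion at every finite coordinate. -/
theorem IsSForm.isWhittakerAt_formCoeff (h : IsSForm Φ S a ψ) (g : GfK K) :
    IsWhittakerAt (formSlice (Φ := Φ) ψ g) (baseCoord K) (formCoeff Φ ψ g) := by
  obtain ⟨n, hn, hfix⟩ := h.smooth
  rw [← h.whitCoeff_toSpace (isLevel_principalLevel hn.1) hfix g]
  exact isWhittakerAt_congr (h.isWhittakerAt_toSpace (isLevel_principalLevel hn.1) hfix _)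
    fun τ => by rw [toSpace_mk h hfix, formSlice_mk]

/-- The expansion of a form. -/
theorem IsSForm.hasSum_formCoeff (h : IsSForm Φ S a ψ) (τ : ι → HSpace) (g : GfK K) :
    HasSum (fun α => formCoeff Φ ψ g α * whit Φ α τ) (ψ τ g) :=
  (h.isWhittakerAt_formCoeff g).hasSum τ

variable (Φ S a) in
/-- The coefficient map. -/
def formCoeffMap : sForms Φ S a →ₗ[ℂ] GfK K → K → ℂ where
  toFun φ := formCoeff Φ φ.1
  map_add' φ φ' := funext fun g =>
    (((φ.2.isWhittakerAt_formCoeff g).add (φ'.2.isWhittakerAt_formCoeff g)).whitCoeff_eq)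
  map_smul' c φ := funext fun g => ((φ.2.isWhittakerAt_formCoeff g).smul c).whitCoeff_eq

theorem formCoeffMap_apply (φ : sForms Φ S a) :
    formCoeffMap Φ S a φ = formCoeff Φ φ.1 := rfl

theorem IsSForm.formCoeff_unipotent (h : IsSForm Φ S a ψ) (t : FiniteAdeleRing (𝓞 K) K)
    (g : GfK K) (α : K) :
    formCoeff Φ ψ (unipotent t * g) α =
      psiF (algebraMap K (FiniteAdeleRing (𝓞 K) K) α * t) * formCoeff Φ ψ g α := by
  obtain ⟨n, hn, hfix⟩ := h.smooth
  have hU := isLevel_principalLevel (K := K) hn.1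
  rw [← h.whitCoeff_toSpace hU hfix, ← h.whitCoeff_toSpace hU hfix]
  exact whitCoeff_unipotent hU (h.isInvariant_toSpace hfix)
    (fun y => h.isWhittakerAt_toSpace hU hfix y) t (g : Yf (principalLevel K n)) α

theorem IsSForm.formCoeff_diag (h : IsSForm Φ S a ψ) (b : Kˣ) (g : GfK K) (α : K) :
    formCoeff Φ ψ (toGf K (diag2 b 1) * g) α * ∏ i, (‖Φ.emb i (b : K)‖ : ℂ) =
      formCoeff Φ ψ g (α * b) := by
  obtain ⟨n, hn, hfix⟩ := h.smooth
  have hU := isLevel_principalLevel (K := K) hn.1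
  rw [← h.whitCoeff_toSpace hU hfix, ← h.whitCoeff_toSpace hU hfix, ← Complex.ofReal_prod]
  exact whitCoeff_diag (h.isInvariant_toSpace hfix)
    (fun y => h.isWhittakerAt_toSpace hU hfix y) b (g : Yf (principalLevel K n)) α

theorem IsSForm.formCoeff_hecke (h : IsSForm Φ S a ψ) {v : HeightOneSpectrum (𝓞 K)} (hv : v ∉ S)
    {ϖ : (FiniteAdeleRing (𝓞 K) K)ˣ} (hϖ : IsUniformiserAt v ϖ) (g : GfK K) (α : K) :
    ∑ᶠ o, formCoeff Φ ψ (g * nbrMatrix v ϖ o) α =
      (Real.sqrt (Ideal.absNorm v.asIdeal) : ℂ) * a v * formCoeff Φ ψ g α := by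
  have := finite_nbrIndex v
  have := Fintype.ofFinite (Option (𝓞 K ⧸ v.asIdeal))
  have h1 := isWhittakerAt_finsetSum Finset.univ
    (fun o => formSlice (Φ := Φ) ψ (g * nbrMatrix v ϖ o))
    (fun o => formCoeff Φ ψ (g * nbrMatrix v ϖ o))
    fun o _ => h.isWhittakerAt_formCoeff _
  have h2 := (h.isWhittakerAt_formCoeff g).smul
    ((Real.sqrt (Ideal.absNorm v.asIdeal) : ℂ) * a v)
  have e := congrFun (h1.unique (isWhittakerAt_congr h2 fun τ => by
    have h3 := h.hecke v hv ϖ hϖ τ g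
    rw [finsum_eq_sum_of_fintype] at h3
    simp only [Pi.smul_apply, Finset.sum_apply, formSlice_mk, smul_eq_mul]
    exact h3.symm)) α
  rw [finsum_eq_sum_of_fintype]
  simpa only [Finset.sum_apply, Pi.smul_apply, smul_eq_mul] using e

variable (K) in
theorem exists_conductor_psiF :
    ∃ δ : (FiniteAdeleRing (𝓞 K) K)ˣ,
      (∀ x ∈ intAdele (𝓞 K) K, psiF ((δ : FiniteAdeleRing (𝓞 K) K) * x) = 1) ∧
      ∀ v : HeightOneSpectrum (𝓞 K), ∃ s : FiniteAdeleRing (𝓞 K) K, (∀ w ≠ v, s w = 0) ∧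
        Valued.v (s v) ≤ WithZero.exp (1 : ℤ) ∧
          psiF ((δ : FiniteAdeleRing (𝓞 K) K) * s) ≠ 1 :=
  exists_conductor_idele K psiF psiF_algebraMap fun _ => psiF_of_mem_intAdele

variable (K) in
/-- The idele generating the inverse different. -/
def conductorIdele : (FiniteAdeleRing (𝓞 K) K)ˣ := (exists_conductor_psiF K).choose

variable (Φ S a) in
/-- **The coefficient data of the forms.** -/
def coeffData : CoeffData Φ S a where
  coeff := formCoeffMap Φ S a
  psi := psiF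
  delta := conductorIdele K
  psi_int := (exists_conductor_psiF K).choose_spec.1
  psi_exact := (exists_conductor_psiF K).choose_spec.2
  coeff_translate _ _ _ _ _ := rfl
  coeff_invariant φ g u h α := by
    have e : formSlice (Φ := Φ) φ.1 (g * u) = formSlice φ.1 g := funext fun x => h x.pt g
    simp only [formCoeffMap_apply, formCoeff, e]
  coeff_unipotent φ := φ.2.formCoeff_unipotent
  coeff_diag φ := φ.2.formCoeff_diag
  coeff_zero φ g := (φ.2.isWhittakerAt_formCoeff g).zero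
  coeff_ext φ g h τ := by
    have h1 : HasSum (fun α : K => formCoeff Φ φ.1 g α * whit Φ α τ) 0 := by
      convert hasSum_zero using 1
      funext α
      rw [show formCoeff Φ φ.1 g α = 0 from h α, zero_mul]
    exact (φ.2.hasSum_formCoeff τ g).unique h1
  coeff_hecke φ := fun v hv ϖ hϖ => φ.2.formCoeff_hecke hv hϖ

theorem coeffData_psi : (coeffData Φ S a).psi = psiF := rfl

theorem coeffData_delta : (coeffData Φ S a).delta = conductorIdele K := rfl

/-- The expansion in terms of the coefficient data. -/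
theorem hasSum_coeffData (φ : sForms Φ S a) (τ : ι → HSpace) (g : GfK K) :
    HasSum (fun α => (coeffData Φ S a).coeff φ g α * whit Φ α τ) (φ.1 τ g) :=
  φ.2.hasSum_formCoeff τ g

end Fermat.Agent.LT.Descent
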