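import Fermat.Agent.LT.Descent.CuspBound
import Fermat.Agent.LT.Spectral.RowCompact

/-!
# Bounded point functionals, compactness and decay

Test operators with a Lipschitz factor have bounded point functionals on the cusp space: they are
Hilbert–Schmidt there, so compact, with finite-dimensional eigenspaces for nonzero eigenvalues.
-/

set_option autoImplicit false

noncomputable section

namespace Fermat.Agent.LT.Descent

open Fermat.Agent.LT.Adelic Fermat.Agent.LT.Spectral MeasureTheory NumberField IsDedekindDomain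
  Filter Matrix
open scoped MatrixGroups ENNReal NNReal ComplexConjugate InnerProductSpace

variable {K : Type*} [Field K] [NumberField K] {ι : Type*} [Fintype ι] {Φ : Frame K ι}
  {U : Subgroup (GfK K)}

omit [Fintype ι] in
theorem InStrip.r_le_zpow {Y : Set (Yf U)} {c C : ℝ} {x : Space Φ U} (hc : 0 < c)
    (hx : InStrip Y c C x) {a : ℤ} (ha : a ≤ 0) (j : ι) : (x.pt j).r ^ a ≤ c ^ a := by
  obtain ⟨m, rfl⟩ := Int.exists_eq_neg_ofNat ha
  rw [_root_.zpow_neg, _root_.zpow_neg, zpow_natCast, zpow_natCast]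
  exact inv_anti₀ (pow_pos hc m) (pow_le_pow_left₀ hc.le (hx.2.1 j) m)

variable [Countable (Yf U)]

/-- A test operator preserves bounds by powers of the height. -/
theorem exists_testOp_growth (k : ι → PPKer) (f : HKer U) {Y : Set (Yf U)} (hY : Y.Finite)
    {c C : ℝ} (hc : 0 < c) (hC : 1 ≤ C) :
    ∃ (Y' : Set (Yf U)) (c' C' M : ℝ), Y'.Finite ∧ 0 < c' ∧ 1 ≤ C' ∧ 0 ≤ M ∧
      ∀ φ : Space Φ U → ℂ, SliceInt φ → ∀ (a : ℤ) (G : ℝ), 0 ≤ G →
        (∀ x, InStrip Y' c' C' x → ∀ l, ‖φ x‖ ≤ G * (x.pt l).r ^ a) →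
        ∀ x, InStrip Y c C x → ∀ j,
          ‖testOp k f φ x‖ ≤ M * C' ^ a.natAbs * G * (x.pt j).r ^ a := by
  choose T hT1 hT using fun i => (k i).exists_window
  set T₀ : ℝ := 1 + ∑ i, T i with hT₀
  have hsum : 0 ≤ ∑ i, T i := Finset.sum_nonneg fun i _ => zero_le_one.trans (hT1 i)
  have hT₀1 : 1 ≤ T₀ := le_add_of_nonneg_right hsum
  have hTi : ∀ i, T i ≤ T₀ := fun i =>
    (Finset.single_le_sum (f := T) (fun l _ => zero_le_one.trans (hT1 l))
      (Finset.mem_univ i)).trans (le_add_of_nonneg_left zero_le_one)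
  set C' := 4 * T₀ ^ 2 * C with hC'
  have hC'T : 2 * T₀ ≤ C' := by
    rw [hC']
    nlinarith [mul_nonneg (sub_nonneg.mpr hT₀1) (sub_nonneg.mpr hC)]
  have hC'1 : 1 ≤ C' := by linarith
  obtain ⟨M, hM⟩ := exists_schurBound (Φ := Φ) k f
  refine ⟨⋃ y ∈ Y, Function.support (f y), c / (2 * T₀), C', M,
    hY.biUnion fun y _ => f.finite_row y, by positivity, hC'1, M.2, ?_⟩
  intro φ hφ a G hG hgr x hx j
  obtain ⟨hxY, hxc, hxb⟩ := hx
  set P := C' ^ a.natAbs * G * (x.pt j).r ^ a with hP
  have hP0 : 0 ≤ P :=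
    mul_nonneg (mul_nonneg (pow_nonneg (by linarith) _) hG) (zpow_nonneg (x.pt j).r_pos.le _)
  have hmk : Measurable fun z => testKernel k f x z :=
    measurable_testKernel_comp k f (a := fun _ => x) measurable_const measurable_id
  have hpt : ∀ z, ‖testKernel k f x z * φ z‖ ≤ ‖testKernel k f x z‖ * P := by
    intro z
    rw [norm_mul]
    by_cases h : testKernel k f x z = 0
    · simp [h]
    refine mul_le_mul_of_nonneg_left ?_ (norm_nonneg _)
    have hfin : f x.fin z.fin ≠ 0 := left_ne_zero_of_mul h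
    have hki : ∀ i, k i (x.pt i) (z.pt i) ≠ 0 := fun i =>
      Finset.prod_ne_zero_iff.mp (right_ne_zero_of_mul h) i (Finset.mem_univ i)
    have hlo : ∀ i, (x.pt i).r / (2 * T₀) ≤ (z.pt i).r := fun i =>
      le_trans (div_le_div_of_nonneg_left (x.pt i).r_pos.le
        (by have := hT1 i; positivity) (by linarith [hTi i])) (hT i _ _ (hki i)).1
    have hhi : ∀ i, (z.pt i).r ≤ 2 * T₀ * (x.pt i).r := fun i =>
      (hT i _ _ (hki i)).2.1.trans
        (mul_le_mul_of_nonneg_right (by linarith [hTi i]) (x.pt i).r_pos.le)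
    have hstrip : InStrip (⋃ y ∈ Y, Function.support (f y)) (c / (2 * T₀)) C' z := by
      refine ⟨Set.mem_biUnion hxY hfin, fun i => ?_, fun i l => ?_⟩
      · exact (div_le_div_of_nonneg_right (hxc i) (by positivity)).trans (hlo i)
      · calc (z.pt i).r ≤ 2 * T₀ * (x.pt i).r := hhi i
          _ ≤ 2 * T₀ * (C * (x.pt l).r) :=
              mul_le_mul_of_nonneg_left (hxb i l) (by positivity)
          _ = C' * ((x.pt l).r / (2 * T₀)) := by rw [hC']; field_simp; ring
          _ ≤ C' * (z.pt l).r := mul_le_mul_of_nonneg_left (hlo l) (by linarith)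
    refine (hgr z hstrip j).trans ?_
    rw [hP, mul_comm (C' ^ a.natAbs) G, mul_assoc G]
    refine mul_le_mul_of_nonneg_left ?_ hG
    have hp' : 0 < (z.pt j).r := (z.pt j).r_pos
    have hq1 : (z.pt j).r ≤ C' * (x.pt j).r :=
      (hhi j).trans (mul_le_mul_of_nonneg_right hC'T (x.pt j).r_pos.le)
    have hq2 : (x.pt j).r ≤ C' * (z.pt j).r := by
      have h3 := hlo j
      rw [div_le_iff₀ (by positivity)] at h3
      nlinarith
    rcases Int.natAbs_eq a with ha | ha <;> rw [ha] <;>
      simp only [Int.natAbs_neg, Int.natAbs_natCast, _root_.zpow_neg, zpow_natCast]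
    · rw [← mul_pow]
      exact pow_le_pow_left₀ hp'.le hq1 _
    · rw [← inv_pow, ← inv_pow, ← mul_pow]
      refine pow_le_pow_left₀ (inv_nonneg.mpr hp'.le) ?_ _
      rw [← div_eq_mul_inv, inv_eq_one_div, div_le_div_iff₀ hp' (x.pt j).r_pos, one_mul]
      exact hq2
  have hrow : ∫⁻ z, ‖testKernel k f x z‖ₑ ∂Space.measure Φ U ≤ M := hM.row x
  have hint : Integrable (fun z => testKernel k f x z) (Space.measure Φ U) :=
    ⟨hmk.aestronglyMeasurable, hrow.trans_lt ENNReal.coe_lt_top⟩
  calc ‖testOp k f φ x‖ ≤ ∫ z, ‖testKernel k f x z‖ * P ∂Space.measure Φ U :=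
        norm_integral_le_of_norm_le (hint.norm.mul_const P) (Eventually.of_forall hpt)
    _ ≤ (M : ℝ) * P := by
        rw [integral_mul_const]
        refine mul_le_mul_of_nonneg_right ?_ hP0
        rw [integral_norm_eq_lintegral_enorm hmk.aestronglyMeasurable, ← ENNReal.coe_toReal M]
        exact ENNReal.toReal_mono ENNReal.coe_ne_top hrow
    _ = _ := by rw [hP]; ring

variable (D : QuotData Φ U)

/-- The operator maps square integrable cuspidal functions to functions of size `r ^ (n - 1)`. -/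
def HasCuspBound (k : ι → PPKer) (f : HKer U) : Prop :=
  ∀ (Y : Set (Yf U)) (c C : ℝ), Y.Finite → 0 < c → 1 ≤ C → ∃ M : ℝ, 0 ≤ M ∧
    ∀ φ : Space Φ U → ℂ, Measurable φ → (∀ (g : PGL(2, K)) x, φ (g • x) = φ x) →
      MemLp φ 2 D.ν → IsCuspidalFn φ → ∀ x, InStrip Y c C x → ∀ j,
        ‖testOp k f φ x‖
          ≤ M * (eLpNorm φ 2 D.ν).toReal * (x.pt j).r ^ ((Fintype.card ι : ℤ) - 1)

variable {D}

theorem norm_testOp_le_sum (k : ι → PPKer) (f : HKer U) {φ : Space Φ U → ℂ} (hφ : SliceInt φ)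
    (x : Space Φ U) :
    ‖testOp k f φ x‖ ≤ ∑ w ∈ (f.finite_row x.fin).toFinset,
      ‖f x.fin w‖ * ‖slice (archOp k φ) w (piCoords x.pt)‖ := by
  rw [testOp_eq_kerMap k f hφ]
  conv_lhs => rw [← Space.mk_pt_fin x, kerMap_eq_sum]
  refine (norm_sum_le _ _).trans (le_of_eq (Finset.sum_congr rfl fun w _ => ?_))
  rw [norm_mul, slice, ptOf_piCoords]

theorem hasCuspBound_of_lip {k : ι → PPKer} (hk : IsLipKernel k) (f : HKer U) :
    HasCuspBound D k f := by
  classical
  intro Y c C hY hc hC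
  choose M c' C' hM0 _ _ hM using fun w => exists_norm_archOp_le hk D w hc hC
  refine ⟨∑ y ∈ hY.toFinset, ∑ w ∈ (f.finite_row y).toFinset, ‖f y w‖ * M w,
    Finset.sum_nonneg fun y _ => Finset.sum_nonneg fun w _ => mul_nonneg (norm_nonneg _) (hM0 w),
    fun φ hm hinv h2 hcusp x hx j => ?_⟩
  refine (norm_testOp_le_sum k f (sliceInt_of_memLp hm hinv h2) x).trans ?_
  set E := (eLpNorm φ 2 D.ν).toReal
  set R := (x.pt j).r ^ ((Fintype.card ι : ℤ) - 1)
  have hR : 0 ≤ R := zpow_nonneg (x.pt j).r_pos.le _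
  calc ∑ w ∈ (f.finite_row x.fin).toFinset, ‖f x.fin w‖ * ‖slice (archOp k φ) w (piCoords x.pt)‖
      ≤ ∑ w ∈ (f.finite_row x.fin).toFinset, ‖f x.fin w‖ * M w * (E * R) := by
        refine Finset.sum_le_sum fun w _ => ?_
        rw [mul_assoc]
        refine mul_le_mul_of_nonneg_left
          (((hM w φ hm hinv h2 hcusp _ _ hx.2.1 hx.2.2 j).1).trans (le_of_eq ?_)) (norm_nonneg _)
        show M w * R * E = _
        ring
    _ ≤ _ := by
        rw [← Finset.sum_mul, mul_assoc]
        refine mul_le_mul_of_nonneg_right ?_ (mul_nonneg ENNReal.toReal_nonneg hR)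
        exact Finset.single_le_sum
          (f := fun y => ∑ w ∈ (f.finite_row y).toFinset, ‖f y w‖ * M w)
          (fun y _ => Finset.sum_nonneg fun w _ => mul_nonneg (norm_nonneg _) (hM0 w))
          (hY.mem_toFinset.mpr hx.1)

omit [Countable (Yf U)] in
theorem HasCuspBound.congr {k k' : ι → PPKer} {f f' : HKer U} (h : HasCuspBound D k f)
    (hk : ∀ i p q, k i p q = k' i p q) (hf : ∀ y z, f y z = f' y z) : HasCuspBound D k' f' := by
  intro Y c C hY hc hC
  obtain ⟨M, hM0, hM⟩ := h Y c C hY hc hC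
  refine ⟨M, hM0, fun φ hm hinv h2 hcusp x hx j => ?_⟩
  rw [← testOp_congr hk hf]
  exact hM φ hm hinv h2 hcusp x hx j

/-- Following with any test operator keeps the cusp bound. -/
theorem HasCuspBound.comp_left {k : ι → PPKer} {f : HKer U} (h : HasCuspBound D k f)
    (k' : ι → PPKer) (f' : HKer U) :
    HasCuspBound D (fun i => PPKer.comp (k' i) (k i)) (f'.comp f) := by
  intro Y c C hY hc hC
  obtain ⟨Y', c', C', N, hY', hc', hC', hN0, hN⟩ := exists_testOp_growth k' f' hY hc hC
  obtain ⟨M, hM0, hM⟩ := h Y' c' C' hY' hc' hC'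
  set a : ℤ := (Fintype.card ι : ℤ) - 1
  refine ⟨N * C' ^ a.natAbs * M, mul_nonneg (mul_nonneg hN0 (pow_nonneg (by linarith) _)) hM0,
    fun φ hm hinv h2 hcusp x hx j => ?_⟩
  have hs := sliceInt_of_memLp hm hinv h2
  rw [← testOp_comp k' k f' f hs]
  exact (hN _ (hs.testOp k f) a (M * (eLpNorm φ 2 D.ν).toReal)
    (mul_nonneg hM0 ENNReal.toReal_nonneg) (fun z hz l => hM φ hm hinv h2 hcusp z hz l) x hx j).trans
    (le_of_eq (by ring))

theorem toReal_eLpNorm_testOp_le (k : ι → PPKer) (f : HKer U) {φ : Space Φ U → ℂ}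
    (hm : Measurable φ) (hinv : ∀ (g : PGL(2, K)) x, φ (g • x) = φ x) (h2 : MemLp φ 2 D.ν) :
    (eLpNorm (testOp k f φ) 2 D.ν).toReal
      ≤ ‖testCLM D k f‖ * (eLpNorm φ 2 D.ν).toReal := by
  have h := (testCLM D k f).le_opNorm (h2.toLp φ)
  rwa [Lp.norm_toLp, Lp.norm_def,
    eLpNorm_congr_ae (coeFn_testCLM k f hm hinv h2.coeFn_toLp)] at h

/-- Preceding with any test operator keeps the cusp bound. -/
theorem HasCuspBound.comp_right {k : ι → PPKer} {f : HKer U} (h : HasCuspBound D k f)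
    (k' : ι → PPKer) (f' : HKer U) :
    HasCuspBound D (fun i => PPKer.comp (k i) (k' i)) (f.comp f') := by
  intro Y c C hY hc hC
  obtain ⟨M, hM0, hM⟩ := h Y c C hY hc hC
  refine ⟨M * ‖testCLM D k' f'‖, mul_nonneg hM0 (norm_nonneg _),
    fun φ hm hinv h2 hcusp x hx j => ?_⟩
  have hs := sliceInt_of_memLp hm hinv h2
  rw [← testOp_comp k k' f f' hs]
  refine (hM _ (hs.testOp k' f').measurable
    ((isInvariant_iff_pgl _).mp (isInvariant_testOp k' f' ((isInvariant_iff_pgl φ).mpr hinv)))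
    (memLp_testOp k' f' hm hinv h2) (isCuspidalFn_testOp k' f' hm hinv h2 hcusp) x hx j).trans ?_
  refine mul_le_mul_of_nonneg_right ?_ (zpow_nonneg (x.pt j).r_pos.le _)
  rw [mul_assoc M]
  exact mul_le_mul_of_nonneg_left (toReal_eLpNorm_testOp_le k' f' hm hinv h2) hM0

/-- A Lipschitz operator lowers the growth of a cuspidal function by one. -/
theorem hasGrowth_testOp {k : ι → PPKer} (hk : IsLipKernel k) (f : HKer U) {φ : Space Φ U → ℂ}
    (hm : Measurable φ) (hinv : ∀ (g : PGL(2, K)) x, φ (g • x) = φ x) (h2 : MemLp φ 2 D.ν)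
    (hcusp : IsCuspidalFn φ) {a : ℤ} (hgr : HasGrowth φ a) :
    HasGrowth (testOp k f φ) (a - 1) := by
  classical
  intro Y c C hY hc hC
  choose M c' C' hM0 hc' hC' hM using fun w => exists_norm_archOp_le hk D w hc hC
  choose G hG0 hG using fun w => hgr {w} (c' w) (C' w) (Set.finite_singleton w) (hc' w) (hC' w)
  set B : Yf U → ℝ := fun w => M w * C' w ^ a.natAbs * G w with hB
  have hB0 : ∀ w, 0 ≤ B w := fun w =>
    mul_nonneg (mul_nonneg (hM0 w) (pow_nonneg (zero_le_one.trans (hC' w)) _)) (hG0 w)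
  refine ⟨∑ y ∈ hY.toFinset, ∑ w ∈ (f.finite_row y).toFinset, ‖f y w‖ * B w,
    Finset.sum_nonneg fun y _ => Finset.sum_nonneg fun w _ => mul_nonneg (norm_nonneg _) (hB0 w),
    fun x hx j => ?_⟩
  refine (norm_testOp_le_sum k f (sliceInt_of_memLp hm hinv h2) x).trans ?_
  calc ∑ w ∈ (f.finite_row x.fin).toFinset, ‖f x.fin w‖ * ‖slice (archOp k φ) w (piCoords x.pt)‖
      ≤ ∑ w ∈ (f.finite_row x.fin).toFinset, ‖f x.fin w‖ * B w * (x.pt j).r ^ (a - 1) := by
        refine Finset.sum_le_sum fun w _ => ?_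
        rw [mul_assoc]
        exact mul_le_mul_of_nonneg_left ((hM w φ hm hinv h2 hcusp _ _ hx.2.1 hx.2.2 j).2 a (G w)
          (hG0 w) (hG w)) (norm_nonneg _)
    _ ≤ _ := by
        rw [← Finset.sum_mul]
        refine mul_le_mul_of_nonneg_right ?_ (zpow_nonneg (x.pt j).r_pos.le _)
        exact Finset.single_le_sum
          (f := fun y => ∑ w ∈ (f.finite_row y).toFinset, ‖f y w‖ * B w)
          (fun y _ => Finset.sum_nonneg fun w _ => mul_nonneg (norm_nonneg _) (hB0 w))
          (hY.mem_toFinset.mpr hx.1)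

/-- The cusp bound gives square integrable bounded point functionals. -/
theorem HasCuspBound.hasPointBound {k : ι → PPKer} {f : HKer U} (h : HasCuspBound D k f) :
    ∃ C : Space Φ U → ℝ,
      HasPointBound (cuspClasses D) (perKer PGL(2, K) (testKernel k f)) C := by
  have : Nonempty ι := (Reduction.isFrame_of_frame Φ).placeEquiv.nonempty
  set C₁ := max 1 D.C with hC₁
  obtain ⟨M, hM0, hM⟩ := h D.Y0 D.c C₁ D.finite D.c_pos (le_max_left _ _)
  set n := Fintype.card ι with hn
  have hn0 : (0 : ℝ) < n := Nat.cast_pos.mpr Fintype.card_pos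
  set e : ℝ := 2 * ((n : ℝ) - 1) / n with he
  set Cfun : Space Φ U → ℝ := fun x => M * ∏ i, (x.pt i).r ^ (((n : ℝ) - 1) / n) with hCfun
  have hCm : Measurable Cfun := measurable_const.mul (Finset.measurable_prod _ fun i _ =>
    (((measurable_snd.comp HSpace.measurableEmbedding_coords.measurable).comp
      (measurable_pi_apply i)).comp Space.measurable_pt).pow_const _)
  refine ⟨Cfun, measurable_perKer (measurable_testKernel k f), ⟨hCm.aestronglyMeasurable, ?_⟩,
    Eventually.of_forall fun x e' he' => ?_, ?_⟩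
  · -- the bound is square integrable
    rw [eLpNorm_eq_lintegral_rpow_enorm_toReal (by norm_num) ENNReal.ofNat_ne_top]
    simp only [ENNReal.toReal_ofNat]
    refine ENNReal.rpow_lt_top_of_nonneg (by norm_num) ?_
    rw [lintegral_withDensity_eq_lintegral_mul _ D.isWeight.1 (hCm.enorm.pow_const _)]
    refine ne_top_of_le_ne_top (ENNReal.mul_ne_top (ENNReal.ofReal_ne_top (r := M ^ 2))
      (lintegral_box_rpow_lt_top (Φ := Φ) D.finite (C := D.C) (R := D.R) D.c_pos (e := e)
        (by rw [he, div_lt_iff₀ hn0]; linarith)).ne) ?_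
    rw [← lintegral_const_mul' _ _ ENNReal.ofReal_ne_top,
      ← lintegral_indicator (measurableSet_boxSet _ _ _ _)]
    refine lintegral_mono fun x => ?_
    show D.w x * ‖Cfun x‖ₑ ^ (2 : ℝ) ≤ _
    by_cases hx : x ∈ boxSet Φ D.Y0 D.c D.C D.R
    · rw [Set.indicator_of_mem hx]
      refine (mul_le_mul_left (D.le_one x) _).trans (le_of_eq ?_)
      rw [one_mul, Real.enorm_eq_ofReal (mul_nonneg hM0 (Finset.prod_nonneg fun i _ =>
        Real.rpow_nonneg (x.pt i).r_pos.le _)), ENNReal.rpow_two,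
        ← ENNReal.ofReal_pow (mul_nonneg hM0 (Finset.prod_nonneg fun i _ =>
        Real.rpow_nonneg (x.pt i).r_pos.le _)), mul_pow, ENNReal.ofReal_mul (sq_nonneg M),
        ← Finset.prod_pow, ENNReal.ofReal_prod_of_nonneg fun i _ => sq_nonneg _]
      congr 1
      refine Finset.prod_congr rfl fun i _ => ?_
      rw [← Real.rpow_natCast, ← Real.rpow_mul (x.pt i).r_pos.le, he]
      congr 2
      push_cast
      ring
    · rw [D.supp x hx, zero_mul]
      exact zero_le
  · -- integrability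
    obtain ⟨φ, hm, hinv, -, hae⟩ := he'
    have h2 : MemLp φ 2 D.ν := (Lp.memLp e').ae_eq hae
    have hi := integrable_testKernel_mul k f (sliceInt_of_memLp hm hinv h2) x
    refine Integrable.congr ?_ (hae.mono fun y hy => congrArg (_ * ·) hy.symm)
    have hkm : Measurable fun y => testKernel k f x y :=
      measurable_testKernel_comp k f (a := fun _ => x) measurable_const measurable_id
    refine ⟨((measurable_perKer (measurable_testKernel k f)).comp
      (measurable_const.prodMk measurable_id) |>.mul hm).aestronglyMeasurable, ?_⟩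
    rw [HasFiniteIntegral, lintegral_withDensity_eq_lintegral_mul _ D.isWeight.1
      (g := fun y => ‖perKer PGL(2, K) (testKernel k f) x y * φ y‖ₑ)
      (((measurable_perKer (measurable_testKernel k f)).comp
        (measurable_const.prodMk measurable_id)).mul hm).enorm]
    refine lt_of_le_of_lt (lintegral_mono fun y => ?_)
      ((Geom.lintegral_weight_mul_tsum (G := PGL(2, K)) D.isWeight
        (hkm.mul hm).enorm).trans_lt hi.hasFiniteIntegral)
    refine mul_le_mul_right ?_ _
    show ‖(∑' g : PGL(2, K), testKernel k f x (g • y)) * φ y‖ₑ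
      ≤ ∑' g : PGL(2, K), ‖testKernel k f x (g • y) * φ (g • y)‖ₑ
    simp only [hinv, enorm_mul, ENNReal.tsum_mul_right]
    exact mul_le_mul_left enorm_tsum_le_tsum_enorm _
  · -- the bound
    filter_upwards [D.ae_mem_box] with x hx e' he'
    obtain ⟨φ, hm, hinv, hcusp, hae⟩ := he'
    have h2 : MemLp φ 2 D.ν := (Lp.memLp e').ae_eq hae
    rw [integral_congr_ae (hae.mono fun y hy => congrArg (perKer PGL(2, K) (testKernel k f) x y * ·)
      hy), integral_perKer_testKernel_mul k f (sliceInt_of_memLp hm hinv h2) hinv, Lp.norm_def,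
      eLpNorm_congr_ae hae]
    have hstrip : InStrip D.Y0 D.c C₁ x := ⟨hx.1, hx.2.1, fun i l =>
      (hx.2.2.1 i l).trans (mul_le_mul_of_nonneg_right (le_max_right _ _) (x.pt l).r_pos.le)⟩
    obtain ⟨j, -, hj⟩ := Finset.exists_min_image Finset.univ (fun i => (x.pt i).r) Finset.univ_nonempty
    refine (hM φ hm hinv h2 hcusp x hstrip j).trans ?_
    rw [hCfun, mul_right_comm M]
    refine mul_le_mul_of_nonneg_right (mul_le_mul_of_nonneg_left ?_ hM0) ENNReal.toReal_nonneg
    have hr := (x.pt j).r_pos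
    calc (x.pt j).r ^ ((n : ℤ) - 1) = ∏ _i : ι, (x.pt j).r ^ (((n : ℝ) - 1) / n) := by
          rw [Finset.prod_const, Finset.card_univ, ← Real.rpow_natCast, ← Real.rpow_mul hr.le,
            ← Real.rpow_intCast]
          congr 1
          push_cast
          field_simp
          rw [hn]
          ring
      _ ≤ _ := Finset.prod_le_prod (fun i _ => Real.rpow_nonneg hr.le _) fun i _ =>
          Real.rpow_le_rpow hr.le (hj i (Finset.mem_univ i))
            (div_nonneg (sub_nonneg.mpr (Nat.one_le_cast.mpr Fintype.card_pos)) hn0.le)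

theorem exists_hasPointBound {k : ι → PPKer} (hk : IsLipKernel k) (f : HKer U) :
    ∃ C : Space Φ U → ℝ,
      HasPointBound (cuspClasses D) (perKer PGL(2, K) (testKernel k f)) C :=
  (hasCuspBound_of_lip hk f).hasPointBound

/-- The rows of the operator on the cusp space. -/
theorem HasCuspBound.exists_rows {k : ι → PPKer} {f : HKer U} (h : HasCuspBound D k f) :
    ∃ s : Lp (cuspClasses D) 2 D.ν, ∀ e : cuspClasses D,
      rowOp s e = (cuspOp D k f e : Lp ℂ 2 D.ν) := by
  obtain ⟨C, hC⟩ := h.hasPointBound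
  obtain ⟨s, hs⟩ := exists_kernel_rows hC
  refine ⟨s, fun e => Lp.ext ((hs e).trans ?_)⟩
  exact (coeFn_kerCLM _ _).symm

/-- Such operators are compact on the cusp space. -/
theorem HasCuspBound.isCompactOperator {k : ι → PPKer} {f : HKer U} (h : HasCuspBound D k f) :
    IsCompactOperator (cuspOp D k f) := by
  obtain ⟨s, hs⟩ := h.exists_rows
  have h1 := (isCompactOperator_rowOp s).codRestrict
    (fun e => hs e ▸ (cuspOp D k f e).2) isClosed_cuspClasses
  refine (iff_of_eq (congrArg IsCompactOperator (funext fun e => Subtype.ext ?_))).mp h1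
  exact hs e

/-- Eigenspaces of nonzero eigenvalues are finite-dimensional. -/
theorem HasCuspBound.finiteDimensional_eigen {k : ι → PPKer} {f : HKer U} (h : HasCuspBound D k f)
    {c : ℂ} (hc : c ≠ 0) (V : Submodule ℂ (cuspClasses D))
    (hV : ∀ e ∈ V, cuspOp D k f e = c • e) : FiniteDimensional ℂ V := by
  obtain ⟨s, hs⟩ := h.exists_rows
  refine Spectral.finiteDimensional_eigen s (cuspClasses D).subtypeₗᵢ hc V fun e he => ?_
  rw [hs e, hV e he]
  rfl

end Fermat.Agent.LT.Descent

end
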