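/-
The coefficient map of the forms is a Kirillov model; irreducibility of the vectors of a level.
-/
import Fermat.Agent.LT.Descent.KirillovModel

set_option autoImplicit false

noncomputable section

namespace Fermat.Agent.LT.Descent

open IsDedekindDomain NumberField Matrix
open Fermat.Agent.LT.Adelic Fermat.Agent.LT.Aleph
open Fermat.Agent.LT.RankinSelberg (IsKirillovModel sum_addChar_reps le_exp_neg_one_of_lt_one)

variable {K : Type*} [Field K] [NumberField K] {ι : Type*} [Fintype ι] [DecidableEq ι]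
  {Φ : Frame K ι} {S : Set (HeightOneSpectrum (𝓞 K))} {a : HeightOneSpectrum (𝓞 K) → ℂ}

/-- An element of value `≤ exp 1` divided by one of value `> c⁻¹` has value `≤ c`. -/
theorem div_le_of_one_lt_mul {x y c : WithZero (Multiplicative ℤ)} (hy : y ≤ WithZero.exp (1 : ℤ))
    (h : 1 < x * c) : y / x ≤ c := by
  have hx : x ≠ 0 := fun h0 => by rw [h0, zero_mul] at h; exact absurd h (not_lt.2 zero_le)
  have hc : c ≠ 0 := fun h0 => by rw [h0, mul_zero] at h; exact absurd h (not_lt.2 zero_le)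
  refine ((div_le_div_iff_of_pos_right (zero_lt_iff.2 hx)).2 hy).trans ?_
  rw [← WithZero.exp_log hx, ← WithZero.exp_log hc, ← WithZero.exp_add, ← WithZero.exp_zero,
    WithZero.exp_lt_exp] at h
  rw [← WithZero.exp_log hx, ← WithZero.exp_log hc, ← WithZero.exp_sub, WithZero.exp_le_exp]
  omega

/-- Powers of an element supported at `S` get below any nonzero bound. -/
theorem exists_pow_le (hS : S.Finite) {n₀ : 𝓞 K} (hn₀ : ∀ v ∈ S, v.intValuation n₀ < 1)
    (c : HeightOneSpectrum (𝓞 K) → WithZero (Multiplicative ℤ)) (hc : ∀ v ∈ S, c v ≠ 0) :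
    ∃ k₀ : ℕ, ∀ k, k₀ ≤ k → ∀ v ∈ S, v.intValuation (n₀ ^ k) ≤ c v := by
  have key : ∀ v ∈ S, ∃ k : ℕ, ∀ k' ≥ k, v.intValuation (n₀ ^ k') ≤ c v := by
    intro v hv
    refine ⟨(-WithZero.log (c v)).toNat, fun k' hk' => ?_⟩
    rw [map_pow]
    refine (pow_le_pow_left' (le_exp_neg_one_of_lt_one (hn₀ v hv)) k').trans ?_
    conv_rhs => rw [← WithZero.exp_log (hc v hv)]
    rw [← WithZero.exp_nsmul, WithZero.exp_le_exp]
    simp only [smul_neg, nsmul_eq_mul, mul_one]
    omega
  choose! k hk using key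
  exact ⟨hS.toFinset.sup k, fun k' hk' v hv =>
    hk v hv _ ((Finset.le_sup (hS.mem_toFinset.2 hv)).trans hk')⟩

/-- Congruence levels compare by valuations. -/
theorem principalLevel_le_of_intValuation {m n : 𝓞 K}
    (h : ∀ v : HeightOneSpectrum (𝓞 K), v.intValuation m ≤ v.intValuation n) :
    principalLevel K m ≤ principalLevel K n := fun _ hg =>
  ⟨fun i j v => ((mem_principalLevel.1 hg).1 i j v).trans (h v),
    fun i j v => ((mem_principalLevel.1 hg).2 i j v).trans (h v)⟩

variable (S) in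
/-- Supported adeles bounded by `f` at `S`. -/
def adeleBall (f : HeightOneSpectrum (𝓞 K) → WithZero (Multiplicative ℤ)) :
    AddSubgroup (FiniteAdeleRing (𝓞 K) K) where
  carrier := {x | (∀ v ∉ S, x v = 0) ∧ ∀ v ∈ S, Valued.v (x v) ≤ f v}
  zero_mem' := ⟨fun v _ => coe_apply_zero v, fun v _ => by rw [coe_apply_zero, map_zero]; exact zero_le⟩
  add_mem' := fun hx hy => ⟨fun v hv => by rw [coe_apply_add, hx.1 v hv, hy.1 v hv, add_zero],
    fun v hv => by
      rw [coe_apply_add]
      exact (Valuation.map_add _ _ _).trans (max_le (hx.2 v hv) (hy.2 v hv))⟩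
  neg_mem' := fun hx => ⟨fun v hv => by rw [coe_apply_neg, hx.1 v hv, neg_zero],
    fun v hv => by rw [coe_apply_neg, Valuation.map_neg]; exact hx.2 v hv⟩

/-- A ball modulo a smaller one is finite. -/
theorem finite_adeleBall_quotient {n₀ : 𝓞 K} (hn₀ : n₀ ≠ 0)
    {f g : HeightOneSpectrum (𝓞 K) → WithZero (Multiplicative ℤ)}
    {e : FiniteAdeleRing (𝓞 K) K} {j : ℕ}
    (hf : ∀ v ∈ S, Valued.v (e v) * f v ≤ 1)
    (hj : ∀ v ∈ S, v.intValuation (n₀ ^ j) ≤ Valued.v (e v) * g v)
    (he : ∀ v ∈ S, Valued.v (e v) ≠ 0) :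
    Finite (adeleBall S f ⧸ (adeleBall S g).addSubgroupOf (adeleBall S f)) := by
  classical
  have hne : n₀ ^ j ≠ 0 := pow_ne_zero _ hn₀
  have hfinq : Finite (𝓞 K ⧸ Ideal.span ({n₀ ^ j} : Set (𝓞 K))) :=
    Ring.HasFiniteQuotients.finiteQuotient (by simpa using hne)
  have hint : ∀ x : adeleBall S f, e * (x : FiniteAdeleRing (𝓞 K) K) ∈ intAdele (𝓞 K) K := by
    rintro ⟨x, hx⟩ v
    rw [coe_apply_mul, map_mul]
    by_cases hv : v ∈ S
    · exact (mul_le_mul' le_rfl (hx.2 v hv)).trans (hf v hv)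
    · rw [hx.1 v hv, map_zero, mul_zero]; exact zero_le
  choose r hr using fun x => exists_int_memMul (hint x) hne
  refine Finite.of_injective (fun q => Ideal.Quotient.mk (Ideal.span {n₀ ^ j}) (r q.out))
    fun q q' h => ?_
  rw [← QuotientAddGroup.out_eq' q, ← QuotientAddGroup.out_eq' q', QuotientAddGroup.eq,
    AddSubgroup.mem_addSubgroupOf]
  refine ⟨fun v hv => ?_, fun v hv => ?_⟩
  · exact ((adeleBall S f).add_mem ((adeleBall S f).neg_mem q.out.2) q'.out.2).1 v hv
  · have h1 := ((hr q.out).sub (hr q'.out)) v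
    obtain ⟨c, hc⟩ := Ideal.mem_span_singleton'.1 (Ideal.Quotient.eq.1 h)
    have h2 := MemMul.add (n := n₀ ^ j) ((hr q'.out).sub (hr q.out))
      (a := e * (q'.out : FiniteAdeleRing (𝓞 K) K) - algebraMap _ _ (r q'.out) -
        (e * (q.out : FiniteAdeleRing (𝓞 K) K) - algebraMap _ _ (r q.out)))
      (b := algebraMap (𝓞 K) _ (-c) * algebraMap (𝓞 K) _ (n₀ ^ j))
      (MemMul.int_mul (algebraMap_mem_intAdele _) (memMul_algebraMap _)) v
    have e1 : e * (q'.out : FiniteAdeleRing (𝓞 K) K) - algebraMap _ _ (r q'.out) -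
        (e * (q.out : FiniteAdeleRing (𝓞 K) K) - algebraMap _ _ (r q.out)) +
        algebraMap (𝓞 K) _ (-c) * algebraMap (𝓞 K) _ (n₀ ^ j)
        = e * (((-q.out + q'.out : adeleBall S f) : FiniteAdeleRing (𝓞 K) K)) := by
      rw [← map_mul, neg_mul, hc, map_neg, map_sub, AddSubgroup.coe_add, AddSubgroup.coe_neg]
      ring
    replace h2 := le_trans (le_of_eq (congrArg (fun z : FiniteAdeleRing (𝓞 K) K => Valued.v (z v)) e1).symm) h2
    rw [coe_apply_mul, map_mul] at h2
    exact (mul_le_mul_iff_of_pos_left (zero_lt_iff.2 (he v hv))).1 (h2.trans (hj v hv))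

variable (S) in
/-- The congruence subgroups of the supported ideles. -/
def torusCongr (n₀ : 𝓞 K) (m : ℕ) : Subgroup (ideleSupported S) :=
  (principalLevel K (n₀ ^ m)).comap ((gfSupported S).subtype.comp (torusHom (S := S)))

theorem torusCongr_antitone (n₀ : 𝓞 K) : Antitone (torusCongr S n₀) := fun _ _ h =>
  Subgroup.comap_mono (principalLevel_mono (pow_dvd_pow n₀ h))

theorem finiteIndex_torusCongr {n₀ : 𝓞 K} (hn₀ : n₀ ≠ 0) (n m : ℕ) :
    ((torusCongr S n₀ m).subgroupOf (torusCongr S n₀ n)).FiniteIndex :=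
  finiteIndex_comap_principalLevel
    (((gfSupported S).subtype.comp (torusHom (S := S))).comp (torusCongr S n₀ n).subtype)
    (fun j => principalLevel_mono (one_dvd _) j.2) (pow_ne_zero m hn₀)

theorem mem_torusCongr_iff {n₀ : 𝓞 K} {m : ℕ} (hlt : ∀ v ∈ S, v.intValuation (n₀ ^ m) < 1)
    (u : ideleSupported S) :
    u ∈ torusCongr S n₀ m ↔ ∀ v ∈ S,
      Valued.v ((u.1 : FiniteAdeleRing (𝓞 K) K) v - 1) ≤ v.intValuation (n₀ ^ m) := by
  constructor
  · intro h v _
    have := (mem_principalLevel.1 h).1 0 0 v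
    rw [Matrix.sub_apply, coe_apply_sub] at this
    simpa [torusHom, coe_apply_one] using this
  · intro h
    have hinv : ((torusHom u : gfSupported S) : GfK K)⁻¹ = diag2 (u.1)⁻¹ 1 :=
      inv_eq_of_mul_eq_one_right (by
        show diag2 u.1 1 * diag2 (u.1)⁻¹ 1 = 1
        rw [diag2_mul_diag2, mul_inv_cancel, one_mul]
        apply GL.ext_fin_two; ext i j; fin_cases i <;> fin_cases j <;> simp)
    have key : ∀ v, Valued.v ((u.1 : FiniteAdeleRing (𝓞 K) K) v - 1) ≤ v.intValuation (n₀ ^ m) ∧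
        Valued.v (((u.1⁻¹ : (FiniteAdeleRing (𝓞 K) K)ˣ) : FiniteAdeleRing (𝓞 K) K) v - 1) ≤
          v.intValuation (n₀ ^ m) := by
      intro v
      rw [inv_apply]
      by_cases hv : v ∈ S
      · refine ⟨h v hv, ?_⟩
        set z := (u.1 : FiniteAdeleRing (𝓞 K) K) v
        have hz1 : Valued.v z = 1 := by
          have h1 : Valued.v (1 + (z - 1)) = 1 :=
            Valuation.map_one_add_of_lt _ ((h v hv).trans_lt (hlt v hv))
          rwa [add_sub_cancel] at h1
        have hz : z ≠ 0 := idele_ne_zero u.1 v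
        rw [show z⁻¹ - 1 = -((z - 1) / z) by field_simp; ring, Valuation.map_neg, map_div₀, hz1,
          div_one]
        exact h v hv
      · rw [u.2 v hv, inv_one, sub_self, map_zero]; exact ⟨zero_le, zero_le⟩
    refine mem_principalLevel.2 ⟨fun i j v => ?_, fun i j v => ?_⟩
    · rw [Matrix.sub_apply, coe_apply_sub]
      fin_cases i <;> fin_cases j <;>
        simp [torusHom, coe_apply_one, coe_apply_zero, -map_pow] <;> exact (key v).1
    · rw [show ((gfSupported S).subtype.comp (torusHom (S := S))) u = (torusHom u : gfSupported S).1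
        from rfl, hinv, Matrix.sub_apply, coe_apply_sub]
      fin_cases i <;> fin_cases j <;>
        simp [coe_apply_one, coe_apply_zero, -map_pow] <;> exact (key v).2

namespace CoeffData

variable (D : CoeffData Φ S a)

/-- The modulation character. -/
def modChar (x : adeleSupported S) (t : ideleSupported S) : ℂ :=
  D.psi ((D.delta : FiniteAdeleRing (𝓞 K) K) * ((t.1 : FiniteAdeleRing (𝓞 K) K) * x.1))

/-- **The coefficient map is a Kirillov model.** -/
theorem isKirillovModel (hS : S.Finite) {n₀ : 𝓞 K} (hn₀ : SupportedIn S n₀)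
    (hlt : ∀ v ∈ S, v.intValuation n₀ < 1) :
    IsKirillovModel D.kirillov (fun t => translateRep Φ S a hS (torusHom t))
      (fun x => translateRep Φ S a hS (unipElt x)) D.modChar (torusCongr S n₀) where
  injective := D.kirillov_injective hS
  translate t φ x := by
    show D.torusCoeff _ _ = D.torusCoeff _ _
    rw [torusCoeff, torusCoeff, D.coeff_translate,
      show ((torusHom t : gfSupported S) : GfK K) = diag2 t.1 1 from rfl, diag2_mul_diag2, one_mul]
    rw [mul_right_comm x.1 D.delta t.1]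
    rfl
  modulate x φ t := by
    show D.torusCoeff _ _ = D.modChar x t * D.torusCoeff _ _
    rw [torusCoeff, torusCoeff, D.coeff_translate,
      show ((unipElt x : gfSupported S) : GfK K) = unipotent x.1 * 1 from (mul_one _).symm,
      D.torusCoeff_mul_unipotent, mul_one]
    rfl
  invariant φ := by
    obtain ⟨n, hn, hinv⟩ := φ.2.smooth
    obtain ⟨k, hk⟩ := exists_pow_le hS hlt (fun v => v.intValuation n)
      fun v _ => v.intValuation_ne_zero n hn.1
    refine ⟨k, fun m hm x u hu => ?_⟩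
    have hmem : diag2 u.1 1 ∈ principalLevel K n := by
      refine principalLevel_le_of_intValuation (fun v => ?_) hu
      by_cases hv : v ∈ S
      · exact hk m hm v hv
      · rw [hn.2 v hv]; exact v.intValuation_le_one _
    have h := D.coeff_invariant φ (diag2 (x.1 * D.delta) 1) _ (fun τ g' => hinv τ g' _ hmem) 1
    rw [diag2_mul_diag2, one_mul] at h
    show D.torusCoeff φ _ = D.torusCoeff φ _
    rw [torusCoeff, torusCoeff, ← h, Subgroup.coe_mul, mul_right_comm x.1 u.1 D.delta]
  separate φ a₀ := by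
    classical
    obtain ⟨n, hn, hinv⟩ := φ.2.smooth
    obtain ⟨k₁, hk₁⟩ := exists_pow_le hS hlt (fun v => v.intValuation n)
      fun v _ => v.intValuation_ne_zero n hn.1
    set A₀ := fun v => Valued.v ((a₀.1 : FiniteAdeleRing (𝓞 K) K) v) with hA₀
    have hA₀0 : ∀ v, A₀ v ≠ 0 := fun v => (Valuation.ne_zero_iff _).2 (idele_ne_zero a₀.1 v)
    obtain ⟨k₂, hk₂⟩ := exists_pow_le hS hlt (fun v => (A₀ v)⁻¹) fun v _ => inv_ne_zero (hA₀0 v)
    set k := max k₁ k₂ with hkdef
    set N := fun (i : ℕ) (v : HeightOneSpectrum (𝓞 K)) => v.intValuation (n₀ ^ i) with hN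
    have hN0 : ∀ i v, N i v ≠ 0 := fun i v => v.intValuation_ne_zero _ (pow_ne_zero _ hn₀.1)
    -- the support
    have hsupp : ∀ x : ideleSupported S, D.kirillov φ x ≠ 0 → ∀ v ∈ S,
        Valued.v ((x.1 : FiniteAdeleRing (𝓞 K) K) v) * N k v ≤ 1 := by
      intro x hx v hv
      by_contra hlt'
      rw [not_le] at hlt'
      obtain ⟨s, hs0, hsv, hs1⟩ := D.psi_exact v
      obtain ⟨t, ht0, htv⟩ := exists_single v (s v / (x.1 : FiniteAdeleRing (𝓞 K) K) v)
      have hxt : (x.1 : FiniteAdeleRing (𝓞 K) K) * t = s := FiniteAdeleRing.ext K fun w => by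
        rw [coe_apply_mul]
        by_cases hw : w = v
        · subst hw; rw [htv, mul_div_cancel₀ _ (idele_ne_zero x.1 w)]
        · rw [ht0 w hw, hs0 w hw, mul_zero]
      have htn : ∀ w, Valued.v (t w) ≤ w.intValuation n := fun w => by
        by_cases hw : w = v
        · subst hw
          rw [htv, map_div₀]
          exact (div_le_of_one_lt_mul hsv hlt').trans (hk₁ k (le_max_left _ _) w hv)
        · rw [ht0 w hw, map_zero]; exact zero_le
      have hmem : unipotent t ∈ principalLevel K n := mem_principalLevel.2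
        ⟨fun i j w => by
          fin_cases i <;> fin_cases j <;>
            simp [Matrix.sub_apply, coe_apply_sub, coe_apply_one, coe_apply_zero, htn],
        fun i j w => by
          rw [show (unipotent t : GfK K)⁻¹ = unipotent (-t) from inv_eq_of_mul_eq_one_right (by
            apply GL.ext_fin_two; ext i j; fin_cases i <;> fin_cases j <;> simp)]
          fin_cases i <;> fin_cases j <;>
            simp [Matrix.sub_apply, coe_apply_sub, coe_apply_one, coe_apply_zero, coe_apply_neg, htn]⟩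
      have h1 := D.coeff_invariant φ (diag2 (x.1 * D.delta) 1) _ (fun τ g' => hinv τ g' _ hmem) 1
      have h2 := D.torusCoeff_mul_unipotent φ x.1 t 1
      simp only [mul_one, hxt, h1] at h2
      exact hs1 (mul_right_cancel₀ hx (h2.symm.trans (one_mul _).symm))
    obtain ⟨m₁, hm₁⟩ := exists_pow_le hS hlt (fun v => (A₀ v * N k v)⁻¹)
      fun v _ => inv_ne_zero (mul_ne_zero (hA₀0 v) (hN0 k v))
    refine ⟨max m₁ 1, fun m hm => ?_⟩
    have hlt_m : ∀ v ∈ S, v.intValuation (n₀ ^ m) < 1 := fun v hv => by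
      rw [map_pow]
      exact pow_lt_one₀ zero_le (hlt v hv) (by have := le_max_right m₁ 1; omega)
    set fT := fun v => (A₀ v * N m v)⁻¹ with hfT
    set f0 := N k with hf0
    have h0T : adeleBall S f0 ≤ adeleBall S fT := fun x hx => ⟨hx.1, fun v hv => by
      refine (hx.2 v hv).trans ?_
      have := hm₁ m ((le_max_left _ _).trans hm) v hv
      rw [le_inv_comm₀ (zero_lt_iff.2 (hN0 m v))
        (zero_lt_iff.2 (mul_ne_zero (hA₀0 v) (hN0 k v)))] at this
      show f0 v ≤ fT v
      rw [hfT, le_inv_comm₀ (zero_lt_iff.2 (hN0 k v))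
        (zero_lt_iff.2 (mul_ne_zero (hA₀0 v) (hN0 m v)))]
      calc A₀ v * N m v ≤ A₀ v * (A₀ v * N k v)⁻¹ :=
            mul_le_mul' le_rfl (hm₁ m ((le_max_left _ _).trans hm) v hv)
        _ = (N k v)⁻¹ := by rw [_root_.mul_inv_rev, mul_comm (N k v)⁻¹, ← mul_assoc,
            mul_inv_cancel₀ (hA₀0 v), one_mul]⟩
    let e : FiniteAdeleRing (𝓞 K) K :=
      (a₀.1 : FiniteAdeleRing (𝓞 K) K) * algebraMap (𝓞 K) _ (n₀ ^ m)
    have he : ∀ v, Valued.v (e v) = A₀ v * N m v := fun v => by
      rw [coe_apply_mul, map_mul, RankinSelberg.valued_int_apply]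
    obtain ⟨j, hj⟩ := exists_pow_le hS hlt (fun v => A₀ v * N m v * f0 v)
      fun v _ => mul_ne_zero (mul_ne_zero (hA₀0 v) (hN0 m v)) (hN0 k v)
    have := finite_adeleBall_quotient (S := S) (f := fT) (g := f0) (e := e) hn₀.1
      (fun v _ => by rw [he, hfT, mul_inv_cancel₀ (mul_ne_zero (hA₀0 v) (hN0 m v))])
      (fun v hv => by rw [he]; exact hj j le_rfl v hv)
      (fun v _ => by rw [he]; exact mul_ne_zero (hA₀0 v) (hN0 m v))
    have := Fintype.ofFinite (adeleBall S fT ⧸ (adeleBall S f0).addSubgroupOf (adeleBall S fT))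
    set Q := adeleBall S fT ⧸ (adeleBall S f0).addSubgroupOf (adeleBall S fT)
    let pt : Q → adeleSupported S := fun q => ⟨(q.out : FiniteAdeleRing (𝓞 K) K), q.out.2.1⟩
    refine ⟨∑ q : Q, Finsupp.single (pt q) ((Fintype.card Q : ℂ)⁻¹ *
      D.psi ((D.delta : FiniteAdeleRing (𝓞 K) K) *
        (-((a₀.1 : FiniteAdeleRing (𝓞 K) K)) * (pt q).1))), fun x hx => ?_⟩
    rw [← Finsupp.sum_finsetSum_index (fun _ => zero_mul _) (fun _ _ _ => add_mul _ _ _)]
    rw [Finset.sum_congr rfl fun q _ => Finsupp.sum_single_index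
      (h := fun y r => r * D.modChar y x) (zero_mul _)]
    set d := (x.1 : FiniteAdeleRing (𝓞 K) K) - (a₀.1 : FiniteAdeleRing (𝓞 K) K) with hd
    let χ : AddChar (FiniteAdeleRing (𝓞 K) K) ℂ :=
      D.psi.compAddMonoidHom (AddMonoidHom.mulLeft ((D.delta : FiniteAdeleRing (𝓞 K) K) * d))
    have hχ : ∀ y, χ y = D.psi ((D.delta : FiniteAdeleRing (𝓞 K) K) * (d * y)) := fun y => by
      simp [χ, mul_assoc]
    have hterm : ∀ q : Q, (Fintype.card Q : ℂ)⁻¹ *
        D.psi ((D.delta : FiniteAdeleRing (𝓞 K) K) *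
          (-((a₀.1 : FiniteAdeleRing (𝓞 K) K)) * (pt q).1)) * D.modChar (pt q) x =
        (Fintype.card Q : ℂ)⁻¹ * χ (q.out : FiniteAdeleRing (𝓞 K) K) := fun q => by
      rw [mul_assoc, modChar, ← AddChar.map_add_eq_mul, hχ]
      congr 2
      rw [hd]; ring
    rw [Finset.sum_congr rfl fun q _ => hterm q, ← Finset.mul_sum]
    have hsmall : ∀ y ∈ adeleBall S f0, χ y = 1 := fun y hy => by
      rw [hχ]
      refine D.psi_int _ fun v => ?_
      rw [coe_apply_mul, map_mul]
      by_cases hv : v ∈ S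
      · refine le_trans (mul_le_mul' (le_refl (Valued.v (d v))) (hy.2 v hv)) ?_
        rw [hd, coe_apply_sub]
        refine (mul_le_mul' (Valuation.map_sub _ _ _) le_rfl).trans ?_
        rw [max_mul]
        refine max_le (hsupp x hx v hv) ?_
        have := hk₂ k (le_max_right _ _) v hv
        exact (mul_le_mul' le_rfl this).trans (le_of_eq (mul_inv_cancel₀ (hA₀0 v)))
      · rw [hy.1 v hv, map_zero, mul_zero]; exact zero_le
    rw [sum_addChar_reps (adeleBall S fT) (adeleBall S f0) χ hsmall]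
    have hiff : (∀ y ∈ adeleBall S fT, χ y = 1) ↔ a₀⁻¹ * x ∈ torusCongr S n₀ m := by
      rw [mem_torusCongr_iff hlt_m]
      have hval : ∀ v, Valued.v (((a₀⁻¹ * x).1 : (FiniteAdeleRing (𝓞 K) K)ˣ).1 v - 1) =
          Valued.v (d v) / A₀ v := fun v => by
        rw [Subgroup.coe_mul, Subgroup.coe_inv, Units.val_mul, coe_apply_mul, inv_apply, hd,
          coe_apply_sub, ← map_div₀, sub_div, div_self (idele_ne_zero a₀.1 v), mul_comm,
          div_eq_mul_inv]
      constructor
      · intro h v hv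
        rw [hval, div_le_iff₀ (zero_lt_iff.2 (hA₀0 v))]
        by_contra hgt
        rw [not_le] at hgt
        obtain ⟨s, hs0, hsv, hs1⟩ := D.psi_exact v
        obtain ⟨t, ht0, htv⟩ := exists_single v (s v / d v)
        have hd0 : d v ≠ 0 := fun h0 => by
          rw [h0, map_zero] at hgt; exact absurd hgt (not_lt.2 zero_le)
        have hmem : t ∈ adeleBall S fT := ⟨fun w hw => ht0 w fun e => hw (e ▸ hv), fun w hw => by
          by_cases hwv : w = v
          · subst hwv
            rw [htv, map_div₀]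
            refine div_le_of_one_lt_mul hsv ?_
            rw [hfT, ← div_eq_mul_inv, one_lt_div₀ (zero_lt_iff.2 (mul_ne_zero (hA₀0 w) (hN0 m w))),
              mul_comm]
            exact hgt
          · rw [ht0 w hwv, map_zero]; exact zero_le⟩
        refine hs1 ?_
        rw [← h t hmem, hχ]
        congr 1
        congr 1
        refine FiniteAdeleRing.ext K fun w => ?_
        rw [coe_apply_mul]
        by_cases hwv : w = v
        · subst hwv; rw [htv, mul_div_cancel₀ _ hd0]
        · rw [ht0 w hwv, hs0 w hwv, mul_zero]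
      · intro h y hy
        rw [hχ]
        refine D.psi_int _ fun v => ?_
        rw [coe_apply_mul, map_mul]
        by_cases hv : v ∈ S
        · have h1 := h v hv
          rw [hval, div_le_iff₀ (zero_lt_iff.2 (hA₀0 v))] at h1
          refine (mul_le_mul' h1 (hy.2 v hv)).trans (le_of_eq ?_)
          rw [hfT, mul_comm (v.intValuation _) (A₀ v)]
          exact mul_inv_cancel₀ (mul_ne_zero (hA₀0 v) (hN0 m v))
        · rw [hy.1 v hv, map_zero, mul_zero]; exact zero_le
    by_cases hmem : a₀⁻¹ * x ∈ torusCongr S n₀ m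
    · rw [Set.indicator_of_mem (show a₀⁻¹ * x ∈ (torusCongr S n₀ m : Set _) from hmem),
        Pi.one_apply, if_pos (hiff.2 hmem)]
      exact inv_mul_cancel₀ (Nat.cast_ne_zero.2 Fintype.card_ne_zero)
    · rw [Set.indicator_of_notMem (show a₀⁻¹ * x ∉ (torusCongr S n₀ m : Set _) from hmem),
        if_neg (fun h => hmem (hiff.1 h)), mul_zero]

/-- **Irreducibility of the forms of a level** under compressed translations, given stable
complements at deeper levels. -/
theorem eq_of_stable (hS : S.Finite) {U : Subgroup (GfK K)} {e : sForms Φ S a →ₗ[ℂ] sForms Φ S a}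
    (he : IsLevelProj (translateRep Φ S a hS) e (fixedVectors (translateRep Φ S a hS) (supLevel S U)))
    (hdeep : ∀ v, ∃ (e' : sForms Φ S a →ₗ[ℂ] sForms Φ S a)
      (VJ' : Submodule ℂ (sForms Φ S a)), IsLevelProj (translateRep Φ S a hS) e' VJ' ∧
      fixedVectors (translateRep Φ S a hS) (supLevel S U) ≤ VJ' ∧ v ∈ VJ' ∧
      ∀ Q ≤ VJ', IsStableOn (translateRep Φ S a hS) e' Set.univ Q →
        ∃ Q' ≤ VJ', IsStableOn (translateRep Φ S a hS) e' Set.univ Q' ∧ Q ⊓ Q' = ⊥ ∧ Q ⊔ Q' = VJ')
    (D : CoeffData Φ S a) {N : Submodule ℂ (sForms Φ S a)}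
    (hle : N ≤ fixedVectors (translateRep Φ S a hS) (supLevel S U)) (hN0 : N ≠ ⊥)
    (hN : IsStableOn (translateRep Φ S a hS) e Set.univ N) :
    N = fixedVectors (translateRep Φ S a hS) (supLevel S U) := by
  obtain ⟨n₀, hn₀, hlt⟩ := exists_supportedIn (S := S) hS
  exact eq_of_isStableOn (D.isKirillovModel hS hn₀ hlt) (torusCongr_antitone n₀)
    (fun n m _ => finiteIndex_torusCongr hn₀.1 n m) (fun t => ⟨_, rfl⟩) (fun x => ⟨_, rfl⟩)
    he hdeep hle hN0 hN

end CoeffData

end Fermat.Agent.LT.Descent
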