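/-
An eigenspace with nonzero eigenvalue of a kernel with a square integrable row bound is finite
dimensional.
-/
import Fermat.Agent.LT.Spectral.Trace
import Mathlib.Analysis.InnerProductSpace.PiL2

set_option autoImplicit false

noncomputable section

namespace Fermat.Agent.LT.Descent

open MeasureTheory Filter
open Fermat.Agent.LT.Spectral
open scoped ENNReal InnerProductSpace

variable {X : Type*} [MeasurableSpace X] {ν : Measure X} {E W : Submodule ℂ (Lp ℂ 2 ν)}
  {K : X → X → ℂ} {C : X → ℝ} {μ : ℂ}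

theorem integral_norm_sq_coeFn (f : Lp ℂ 2 ν) :
    Integrable (fun x => ‖f x‖ ^ 2) ν ∧ ∫ x, ‖f x‖ ^ 2 ∂ν = ‖f‖ ^ 2 := by
  have h := Lp.memLp f
  refine ⟨h.integrable_norm_pow two_ne_zero, ?_⟩
  have h1 := inner_self_eq_norm_sq_to_K (𝕜 := ℂ) f
  rw [L2.inner_def] at h1
  simp only [inner_self_eq_norm_sq_to_K] at h1
  have h2 : ((∫ x, ‖f x‖ ^ 2 ∂ν : ℝ) : ℂ) = ((‖f‖ ^ 2 : ℝ) : ℂ) := by
    rw [← integral_complex_ofReal]
    push_cast
    simpa using h1
  exact_mod_cast h2

/-- **Finite dimension from a row bound.** -/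
theorem finiteDimensional_of_hasPointBound (hK : HasPointBound E K C) (hle : W ≤ E) (hμ : μ ≠ 0)
    (heig : ∀ e ∈ W, ∀ᵐ x ∂ν, ∫ y, K x y * e y ∂ν = μ * e x) : FiniteDimensional ℂ W := by
  classical
  have hI : Integrable (fun x => C x ^ 2) ν := hK.memLp.integrable_sq
  set B : ℝ := (∫ x, C x ^ 2 ∂ν) / ‖μ‖ ^ 2 with hB
  have hμ' : 0 < ‖μ‖ ^ 2 := by positivity
  -- the size of an orthonormal family
  have key : ∀ (m : ℕ) (e : Fin m → Lp ℂ 2 ν), Orthonormal ℂ e → (∀ j, e j ∈ W) → (m : ℝ) ≤ B := by
    intro m e he hW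
    set S : X → ℝ := fun x => ∑ j, ‖e j x‖ ^ 2
    have hSint : Integrable S ν := integrable_finsetSum _ fun j _ => (integral_norm_sq_coeFn (e j)).1
    have hS1 : ∫ x, S x ∂ν = m := by
      rw [integral_finsetSum _ fun j _ => (integral_norm_sq_coeFn (e j)).1]
      simp [(integral_norm_sq_coeFn _).2, he.1]
    have hae : ∀ᵐ x ∂ν, ‖μ‖ ^ 2 * S x ≤ C x ^ 2 := by
      filter_upwards [hK.bound, hK.integrable, eventually_all.2 fun j => heig (e j) (hW j)]
        with x hb hint heq
      set c : Fin m → ℂ := fun j => starRingEnd ℂ (e j x)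
      set v : Lp ℂ 2 ν := ∑ j, c j • e j
      have hv : v ∈ E := hle (W.sum_mem fun j _ => W.smul_mem _ (hW j))
      have hvae : (v : X → ℂ) =ᵐ[ν] fun y => ∑ j, c j * e j y := by
        have h0 : ∀ s : Finset (Fin m), ((∑ j ∈ s, c j • e j : Lp ℂ 2 ν) : X → ℂ) =ᵐ[ν]
            fun y => ∑ j ∈ s, c j * e j y := by
          intro s
          induction s using Finset.induction_on with
          | empty => simp only [Finset.sum_empty]; exact Lp.coeFn_zero ℂ 2 ν
          | @insert a s has ih =>
            rw [Finset.sum_insert has]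
            filter_upwards [Lp.coeFn_add (c a • e a) (∑ j ∈ s, c j • e j), ih,
              Lp.coeFn_smul (c a) (e a)] with y h1 h2 h3
            rw [h1, Pi.add_apply, h2, h3, Pi.smul_apply, smul_eq_mul, Finset.sum_insert has]
        exact h0 Finset.univ
      have hval : ∫ y, K x y * v y ∂ν = μ * (S x : ℂ) := by
        rw [integral_congr_ae (hvae.mono fun y hy => show K x y * v y =
          ∑ j, c j * (K x y * e j y) by
            rw [hy, Finset.mul_sum]
            exact Finset.sum_congr rfl fun j _ => by ring),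
          integral_finsetSum _ fun j _ => (hint (e j) (hle (hW j))).const_mul _]
        simp only [integral_const_mul, heq, S, c]
        push_cast
        rw [Finset.mul_sum]
        refine Finset.sum_congr rfl fun j _ => ?_
        rw [← Complex.conj_mul']
        ring
      have hnorm : ‖v‖ ^ 2 = S x := by
        have h := inner_self_eq_norm_sq_to_K (𝕜 := ℂ) v
        rw [he.inner_sum] at h
        have h2 : ((S x : ℝ) : ℂ) = ((‖v‖ ^ 2 : ℝ) : ℂ) := by
          push_cast [S]
          refine Eq.trans ?_ h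
          exact Finset.sum_congr rfl fun j _ => by
            simp [c, Complex.mul_conj']
        exact (Complex.ofReal_inj.1 h2).symm
      have h2 := hb v hv
      rw [hval, norm_mul, Complex.norm_real,
        Real.norm_of_nonneg (Finset.sum_nonneg fun j _ => sq_nonneg _ : 0 ≤ S x)] at h2
      change ‖μ‖ * S x ≤ _ at h2
      rw [← hnorm] at h2
      rcases (norm_nonneg v).eq_or_lt with h0 | h0
      · rw [← hnorm, ← h0]; simp [sq_nonneg]
      · rw [show ‖μ‖ * ‖v‖ ^ 2 = (‖μ‖ * ‖v‖) * ‖v‖ by ring] at h2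
        have h3 := le_of_mul_le_mul_right h2 h0
        rw [← hnorm, ← mul_pow]
        exact pow_le_pow_left₀ (by positivity) h3 2
    have h := integral_mono_ae (hSint.const_mul _) hI hae
    rw [integral_const_mul, hS1] at h
    rw [hB, le_div_iff₀ hμ', mul_comm]
    exact h
  by_contra hW
  obtain ⟨m, hm⟩ := exists_nat_gt B
  have hrank : (m : Cardinal) ≤ Module.rank ℂ W :=
    Cardinal.natCast_le_aleph0.trans (not_lt.1 fun h => hW (Module.rank_lt_aleph0_iff.1 h))
  obtain ⟨v, hv⟩ := Module.le_rank_iff.1 hrank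
  set W' : Submodule ℂ W := Submodule.span ℂ (Set.range v)
  have hfr : Module.finrank ℂ W' = m := by
    rw [finrank_span_eq_card hv, Fintype.card_fin]
  have : FiniteDimensional ℂ W' := FiniteDimensional.span_of_finite ℂ (Set.finite_range v)
  let b := (stdOrthonormalBasis ℂ W').reindex (finCongr hfr)
  have hle' := key m (fun j => ((b j : W) : Lp ℂ 2 ν)) ?_ fun j => (b j : W).2
  · exact absurd hle' (not_le.2 hm)
  · exact (b.orthonormal.comp_linearIsometry W'.subtypeₗᵢ).comp_linearIsometry W.subtypeₗᵢ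

end Fermat.Agent.LT.Descent
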