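/-
Spherical functions are eigenfunctions of the operators of products of profiles; a usable profile.
-/
import Fermat.Agent.LT.Descent.SForm
import Fermat.Agent.LT.Descent.Local

set_option autoImplicit false

noncomputable section

namespace Fermat.Agent.LT.Descent

open MeasureTheory NumberField IsDedekindDomain Filter
open Fermat.Agent.LT.Adelic
open scoped Topology ENNReal

theorem isOpenPosMeasure_hspace : HSpace.measure.IsOpenPosMeasure := by
  refine ⟨fun s hs hne h0 => ?_⟩
  have hs' : IsOpen (HSpace.coords '' s) := HSpace.isOpenEmbedding_coords.isOpenMap s hs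
  rw [HSpace.measure_apply_set hs.measurableSet, lintegral_eq_zero_iff (f := HSpace.dens)
    (Measurable.ennreal_ofReal (measurable_snd.pow_const 3).inv)] at h0
  have hfalse : ∀ᵐ x ∂(volume : Measure (ℂ × ℝ)).restrict (HSpace.coords '' s), False := by
    filter_upwards [h0, ae_restrict_mem hs'.measurableSet] with x hx hmem
    obtain ⟨p, -, rfl⟩ := hmem
    have hp : ENNReal.ofReal (((HSpace.coords p).2 ^ 3)⁻¹) = 0 := hx
    exact (ENNReal.ofReal_pos.2 (inv_pos.2 (pow_pos p.r_pos 3))).ne' hp
  rw [ae_iff, show {a : ℂ × ℝ | ¬False} = Set.univ from Set.eq_univ_of_forall fun _ => id,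
    Measure.restrict_apply_univ] at hfalse
  exact hs'.measure_ne_zero volume (hne.image _) hfalse

/-- A real profile with nonzero transform. -/
theorem exists_profile :
    ∃ k : ℝ → ℝ, LipschitzWith 1 k ∧ HasCompactSupport k ∧
      sphTransform (fun u => (k u : ℂ)) 0 ≠ 0 := by
  set k : ℝ → ℝ := fun u => max 0 (2 - |u|) with hk
  have hlip : LipschitzWith 1 k :=
    LipschitzWith.of_le_add fun x y => by
      have h1 : |y| ≤ |x| + dist x y := by
        have := abs_sub_abs_le_abs_sub y x
        rw [abs_sub_comm] at this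
        rw [Real.dist_eq]; linarith
      have hd : 0 ≤ dist x y := dist_nonneg
      simp only [hk, max_le_iff]
      exact ⟨by positivity, by have := le_max_right (0 : ℝ) (2 - |y|); linarith⟩
  have hc : HasCompactSupport k :=
    HasCompactSupport.of_support_subset_isCompact (isCompact_Icc (a := -2) (b := 2)) fun u hu => by
      by_contra h
      rw [Set.mem_Icc, ← abs_le, not_le] at h
      exact hu (max_eq_left (by linarith))
  refine ⟨k, hlip, hc, ?_⟩
  have hck : Continuous fun u => (k u : ℂ) := Complex.continuous_ofReal.comp hlip.continuous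
  have hcc : HasCompactSupport fun u => (k u : ℂ) := hc.comp_left Complex.ofReal_zero
  set F : HSpace → ℝ := fun τ => k (HSpace.coshDist HSpace.base τ) * τ.r with hF
  have hFc : Continuous F :=
    (hlip.continuous.comp (Arch.continuous_coshDist HSpace.base)).mul HSpace.continuous_r
  have hFs : HasCompactSupport F := by
    refine HasCompactSupport.mul_right ?_
    have h := (PPKer.ofProfile _ hck hcc).hasCompactSupport HSpace.base
    refine h.mono' (fun τ hτ => ?_)
    refine subset_tsupport _ ?_
    simpa [PPKer.ofProfile] using hτ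
  have hpos : 0 < ∫ τ, F τ ∂HSpace.measure := by
    have := isOpenPosMeasure_hspace
    have : IsFiniteMeasureOnCompacts HSpace.measure :=
      ⟨fun C hC => HSpace.measure_lt_top_of_isCompact hC⟩
    refine Continuous.integral_pos_of_hasCompactSupport_nonneg_nonzero hFc hFs
      (fun τ => mul_nonneg (le_max_left _ _) τ.r_pos.le) (x := HSpace.base) ?_
    simp only [hF]
    norm_num [HSpace.coshDist, HSpace.base, hk]
  intro h0
  rw [sphTransform] at h0
  simp only [add_zero, Complex.cpow_one] at h0
  have : ((∫ τ, F τ ∂HSpace.measure : ℝ) : ℂ) = 0 := by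
    rw [← integral_complex_ofReal, ← h0]
    exact integral_congr_ae (Eventually.of_forall fun τ => by simp [hF])
  exact hpos.ne' (Complex.ofReal_eq_zero.1 this)

/-- Eigen in each coordinate gives eigen for the product. -/
theorem integral_prod_ppker_fin (n : ℕ) (k : Fin n → PPKer) (h : Fin n → ℂ)
    (g : (Fin n → HSpace) → ℂ) (hg : Continuous g) (hb : ∃ C, ∀ τ, ‖g τ‖ ≤ C)
    (he : ∀ i τ, ∫ q, k i (τ i) q * g (Function.update τ i q) ∂HSpace.measure = h i * g τ)
    (p : Fin n → HSpace) :
    ∫ τ : Fin n → HSpace, (∏ i, k i (p i) (τ i)) * g τ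
      ∂(Measure.pi fun _ : Fin n => HSpace.measure) = (∏ i, h i) * g p := by
  induction n with
  | zero => simp [Subsingleton.elim _ p, measureReal_def]
  | succ n ih =>
    obtain ⟨C, hC⟩ := hb
    let E := MeasurableEquiv.piFinSuccAbove (fun _ : Fin (n + 1) => HSpace) 0
    let G : HSpace × (Fin n → HSpace) → ℂ := fun x =>
      k 0 (p 0) x.1 * ((∏ i, k i.succ (p i.succ) (x.2 i)) * g (Fin.cons x.1 x.2))
    have hE : (fun τ : Fin (n + 1) → HSpace => (∏ i, k i (p i) (τ i)) * g τ) = G ∘ E := by
      funext τ
      have e1 : E τ = (τ 0, fun i : Fin n => τ i.succ) := by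
        refine Prod.ext rfl (funext fun i => ?_)
        simp only [E, MeasurableEquiv.piFinSuccAbove_apply]
        rfl
      simp only [Function.comp_apply, e1, G]
      rw [Fin.prod_univ_succ, mul_assoc,
        show (Fin.cons (τ 0) fun i : Fin n => τ i.succ) = τ from Fin.cons_self_tail τ]
    have hcons : Continuous fun x : HSpace × (Fin n → HSpace) =>
        (Fin.cons x.1 x.2 : Fin (n + 1) → HSpace) :=
      continuous_pi fun i => i.cases (by simpa using continuous_fst)
        fun i => by simpa using (continuous_apply i).comp' continuous_snd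
    have hint : Integrable G
        (HSpace.measure.prod (Measure.pi fun _ : Fin n => HSpace.measure)) := by
      have h1 := ((k 0).integrable (p 0)).mul_prod
        (Integrable.fintype_prod (f := fun i q => k (Fin.succ i) (p i.succ) q)
          fun i => (k i.succ).integrable (p i.succ))
      have h2 := h1.mul_bdd (hg.comp hcons).aestronglyMeasurable
        (Eventually.of_forall fun x => hC (Fin.cons x.1 x.2))
      simpa [G, mul_assoc] using h2
    rw [hE, Function.comp_def,
      (measurePreserving_piFinSuccAbove (fun _ : Fin (n + 1) => HSpace.measure) 0).integral_comp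
        E.measurableEmbedding, integral_prod G hint]
    have hinner : ∀ q, ∫ σ : Fin n → HSpace, G (q, σ) ∂(Measure.pi fun _ : Fin n => HSpace.measure)
        = k 0 (p 0) q * ((∏ i : Fin n, h i.succ) * g (Fin.cons q fun i => p i.succ)) := by
      intro q
      simp only [G]
      rw [integral_const_mul, ih (fun i => k i.succ) (fun i => h i.succ)
        (fun σ => g (Fin.cons q σ)) (hg.comp (hcons.comp (Continuous.prodMk_right q)))
        ⟨C, fun σ => hC _⟩ (fun i σ => ?_) (fun i => p i.succ)]
      have := he i.succ (Fin.cons q σ)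
      simp only [Fin.cons_succ, ← Fin.cons_update] at this
      exact this
    simp only [hinner, mul_left_comm _ (∏ i : Fin n, h i.succ)]
    rw [integral_const_mul, Fin.prod_univ_succ]
    have h0 := he 0 p
    have hu : ∀ q, Function.update p 0 q = Fin.cons q fun i => p i.succ := fun q => by
      conv_lhs => rw [← Fin.cons_self_tail p, Fin.update_cons_zero]
      rfl
    simp only [hu] at h0
    rw [h0]
    ring

variable {ι : Type*} [Fintype ι] [DecidableEq ι]

/-- Eigen in each coordinate gives eigen for the product, any finite index type. -/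
theorem integral_prod_ppker (k : ι → PPKer) (h : ι → ℂ) (g : (ι → HSpace) → ℂ) (hg : Continuous g)
    (hb : ∃ C, ∀ τ, ‖g τ‖ ≤ C)
    (he : ∀ i τ, ∫ q, k i (τ i) q * g (Function.update τ i q) ∂HSpace.measure = h i * g τ)
    (p : ι → HSpace) :
    ∫ τ : ι → HSpace, (∏ i, k i (p i) (τ i)) * g τ ∂(Measure.pi fun _ : ι => HSpace.measure) =
      (∏ i, h i) * g p := by
  let e := (Fintype.equivFin ι).symm
  have hT : ∀ (σ : Fin (Fintype.card ι) → HSpace) (i : ι),
      MeasurableEquiv.piCongrLeft (fun _ : ι => HSpace) e σ i = σ (e.symm i) := fun σ i => by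
    obtain ⟨j, rfl⟩ := e.surjective i
    rw [MeasurableEquiv.piCongrLeft_apply_apply, e.symm_apply_apply]
  rw [← (measurePreserving_piCongrLeft (fun _ : ι => HSpace.measure) e).integral_comp
    (MeasurableEquiv.measurableEmbedding _)]
  have e1 : ∀ σ : Fin (Fintype.card ι) → HSpace,
      (∏ i, k i (p i) (MeasurableEquiv.piCongrLeft (fun _ : ι => HSpace) e σ i)) *
        g (MeasurableEquiv.piCongrLeft (fun _ : ι => HSpace) e σ) =
      (∏ j, k (e j) (p (e j)) (σ j)) * g (fun i => σ (e.symm i)) := fun σ => by
    rw [← e.prod_comp, show MeasurableEquiv.piCongrLeft (fun _ : ι => HSpace) e σ =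
      fun i => σ (e.symm i) from funext (hT σ)]
    simp
  simp only [e1]
  rw [integral_prod_ppker_fin _ (fun j => k (e j)) (fun j => h (e j))
    (fun σ => g fun i => σ (e.symm i))
    (hg.comp (continuous_pi fun i => continuous_apply _)) ⟨hb.choose, fun σ => hb.choose_spec _⟩
    (fun j σ => ?_) (fun j => p (e j)), e.prod_comp h]
  · simp
  · have hj := he (e j) (fun i => σ (e.symm i))
    simp only [e.symm_apply_apply] at hj
    rw [← hj]
    refine integral_congr_ae (Eventually.of_forall fun q => ?_)
    simp only
    congr 2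
    funext i
    rcases eq_or_ne i (e j) with rfl | hi
    · simp
    · rw [Function.update_of_ne hi, Function.update_of_ne fun hc => hi (e.symm_apply_eq.1 hc)]

variable {K : Type*} [Field K] [NumberField K] {Φ : Frame K ι} {U : Subgroup (GfK K)}

/-- A bounded continuous spherical function is an eigenfunction of products of profiles. -/
theorem archOp_eq_of_isSphericalEigen {φ : Space Φ U → ℂ} (hs : IsSphericalEigen φ 0)
    (hb : ∃ C : ℝ, ∀ x, ‖φ x‖ ≤ C)
    (hc : ∀ y : Yf U, Continuous fun τ : ι → HSpace => φ (Space.mk τ y))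
    (k₀ : ι → ℝ → ℂ) (hk : ∀ i, Continuous (k₀ i)) (hks : ∀ i, HasCompactSupport (k₀ i)) :
    archOp (fun i => PPKer.ofProfile (k₀ i) (hk i) (hks i)) φ =
      (∏ i, sphTransform (k₀ i) 0) • φ := by
  funext x
  rw [archOp, Pi.smul_apply, smul_eq_mul]
  conv_rhs => rw [← Space.mk_pt_fin x]
  exact integral_prod_ppker (fun i => PPKer.ofProfile (k₀ i) (hk i) (hks i))
    (fun i => sphTransform (k₀ i) 0)
    (fun τ => φ (Space.mk τ x.fin)) (hc x.fin) ⟨hb.choose, fun τ => hb.choose_spec _⟩
    (fun i τ => hs (k₀ i) (hk i) (hks i) i (Space.mk τ x.fin)) x.pt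

end Fermat.Agent.LT.Descent
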