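import Fermat.Agent.LT.Descent.Local
import Fermat.Agent.LT.Spectral.CuspMean
import Fermat.Agent.LT.Spectral.InvOperator

/-!
# Test operators on cusp classes

`testOp k f` gives a bounded operator of `L²` of the quotient measure, preserving the cusp space;
`cuspOp` is the resulting operator there, with composition and adjoint computed on the test data.
-/

set_option autoImplicit false

noncomputable section

namespace Fermat.Agent.LT.Descent

open Fermat.Agent.LT.Adelic Fermat.Agent.LT.Spectral MeasureTheory NumberField IsDedekindDomain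
  Filter Matrix
open scoped MatrixGroups ENNReal NNReal ComplexConjugate InnerProductSpace

namespace HKer

variable {K : Type*} [Field K] [NumberField K] {U : Subgroup (GfK K)}

/-- The conjugate transpose. -/
def adj (f : HKer U) : HKer U where
  toFun y z := conj (f z y)
  smul' γ y z := congrArg conj (f.smul' γ z y)
  finite_row y := (f.finite_col y).subset fun z hz => by
    simpa only [Function.mem_support, map_ne_zero] using hz
  finite_col z := (f.finite_row z).subset fun y hy => by
    simpa only [Function.mem_support, map_ne_zero] using hy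

theorem adj_apply (f : HKer U) (y z : Yf U) : f.adj y z = conj (f z y) := rfl

/-- The row sums of absolute values do not depend on the row. -/
theorem exists_rowSum_le (f : HKer U) : ∃ M : ℝ≥0, ∀ y, ∑' z, ‖f y z‖ₑ ≤ M := by
  classical
  set y₀ : Yf U := ((1 : GfK K) : Yf U)
  have hfin : ∑' z, ‖f y₀ z‖ₑ ≠ ⊤ := by
    rw [tsum_eq_sum (s := (f.finite_row y₀).toFinset) fun z hz => by simpa using hz]
    exact (ENNReal.sum_lt_top.mpr fun z _ => enorm_lt_top).ne
  refine ⟨(∑' z, ‖f y₀ z‖ₑ).toNNReal, fun y => ?_⟩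
  rw [ENNReal.coe_toNNReal hfin]
  induction y using QuotientGroup.induction_on with
  | _ g =>
    rw [← (MulAction.toPerm g : Equiv.Perm (Yf U)).tsum_eq fun z => ‖f (g : Yf U) z‖ₑ]
    refine le_of_eq (tsum_congr fun z => ?_)
    rw [← f.smul' g y₀ z]
    congr 2
    show ((g : GfK K) : Yf U) = g • ((1 : GfK K) : Yf U)
    rw [MulAction.Quotient.smul_coe, smul_eq_mul, mul_one]

end HKer

variable {K : Type*} [Field K] [NumberField K] {ι : Type*} [Fintype ι] {Φ : Frame K ι}
  {U : Subgroup (GfK K)}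

theorem conj_testKernel (k : ι → PPKer) (f : HKer U) (x y : Space Φ U) :
    conj (testKernel k f y x) = testKernel (fun i => (k i).conjKer) f.adj x y := by
  simp only [testKernel, map_mul, map_prod, HKer.adj_apply, PPKer.conjKer_apply]
  congr 1
  exact Finset.prod_congr rfl fun i _ => congrArg conj ((k i).symm _ _)

theorem testKernel_congr {k k' : ι → PPKer} {f f' : HKer U} (hk : ∀ i p q, k i p q = k' i p q)
    (hf : ∀ y z, f y z = f' y z) :
    (testKernel (Φ := Φ) k f) = testKernel k' f' := by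
  funext x y
  simp only [testKernel, hk, hf]

theorem testOp_congr {k k' : ι → PPKer} {f f' : HKer U} (hk : ∀ i p q, k i p q = k' i p q)
    (hf : ∀ y z, f y z = f' y z) :
    (testOp k f : (Space Φ U → ℂ) → Space Φ U → ℂ) = testOp k' f' := by
  funext φ x
  simp only [testOp, testKernel_congr hk hf]

variable [Countable (Yf U)]

theorem lintegral_enorm_testKernel (k : ι → PPKer) (f : HKer U) (x : Space Φ U) :
    ∫⁻ y, ‖testKernel k f x y‖ₑ ∂Space.measure Φ U
      = (∑' z, ‖f x.fin z‖ₑ) * ∏ i, (k i).l1 := by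
  rw [Space.lintegral_measure, ← ENNReal.tsum_mul_right]
  · refine tsum_congr fun z => ?_
    have hp : ∀ τ : ι → HSpace, ‖∏ i, k i (x.pt i) (τ i)‖ₑ = ∏ i, ‖k i (x.pt i) (τ i)‖ₑ :=
      fun τ => by simp [enorm_eq_nnnorm, nnnorm_prod]
    simp only [testKernel, Space.fin_mk, Space.pt_mk, enorm_mul, hp]
    rw [lintegral_const_mul _ (f := fun τ : ι → HSpace => ∏ i, ‖k i (x.pt i) (τ i)‖ₑ)
        (Finset.measurable_prod _ fun i _ =>
        ((k i).continuous_right (x.pt i)).measurable.enorm.comp (measurable_pi_apply i)),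
      lintegral_pi_prod (fun _ : ι => HSpace.measure) (f := fun i q => ‖k i (x.pt i) q‖ₑ)
        fun i => ((k i).continuous_right (x.pt i)).measurable.enorm]
    simp only [PPKer.lintegral_enorm]
  · exact (measurable_testKernel_comp k f (a := fun _ => x) measurable_const measurable_id).enorm

/-- Test kernels are Schur bounded. -/
theorem exists_schurBound (k : ι → PPKer) (f : HKer U) :
    ∃ M : ℝ≥0, SchurBound (Space.measure Φ U) (testKernel k f) M := by
  obtain ⟨M₁, h₁⟩ := f.exists_rowSum_le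
  obtain ⟨M₂, h₂⟩ := f.adj.exists_rowSum_le
  have hfin : ∀ (k : ι → PPKer), ∏ i, (k i).l1 ≠ ⊤ := fun k =>
    (ENNReal.prod_lt_top fun i _ => (k i).l1_lt_top).ne
  obtain ⟨A, hA⟩ : ∃ A : ℝ≥0, (A : ℝ≥0∞) = ∏ i, (k i).l1 :=
    ⟨_, ENNReal.coe_toNNReal (hfin k)⟩
  obtain ⟨B, hB⟩ : ∃ B : ℝ≥0, (B : ℝ≥0∞) = ∏ i, (k i).conjKer.l1 :=
    ⟨_, ENNReal.coe_toNNReal (hfin fun i => (k i).conjKer)⟩
  refine ⟨M₁ * A + M₂ * B, measurable_testKernel k f, fun x => ?_, fun y => ?_⟩
  · rw [lintegral_enorm_testKernel, ← hA, ENNReal.coe_add, ENNReal.coe_mul, ENNReal.coe_mul]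
    exact le_add_right (mul_le_mul_left (h₁ _) _)
  · rw [lintegral_congr fun x => (RCLike.enorm_conj (testKernel k f x y)).symm]
    simp only [conj_testKernel]
    rw [lintegral_enorm_testKernel, ← hB, ENNReal.coe_add, ENNReal.coe_mul, ENNReal.coe_mul]
    exact le_add_left (mul_le_mul_left (h₂ _) _)

theorem exists_box_of_isCompact {C : Set (ι → HSpace)} (hC : IsCompact C) (_hne : C.Nonempty) :
    ∃ c b R : ℝ, 0 < c ∧ ∀ τ ∈ C, ∀ i, c ≤ (τ i).r ∧ (τ i).r ≤ b ∧ ‖(τ i).z‖ ≤ R := by
  have hr : Continuous fun τ : ι → HSpace => fun i => ((τ i).r)⁻¹ := continuous_pi fun i =>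
    (HSpace.continuous_r.comp (continuous_apply i)).inv₀ fun τ => (τ i).r_pos.ne'
  obtain ⟨a, ha⟩ := (hC.image hr).isBounded.subset_closedBall 0
  obtain ⟨b, hb⟩ := (hC.image (f := fun τ : ι → HSpace => fun i => (τ i).r)
    (continuous_pi fun i => HSpace.continuous_r.comp (continuous_apply i))).isBounded.subset_closedBall 0
  obtain ⟨R, hR⟩ := (hC.image (f := fun τ : ι → HSpace => fun i => (τ i).z)
    (continuous_pi fun i => HSpace.continuous_z.comp (continuous_apply i))).isBounded.subset_closedBall 0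
  refine ⟨(max a 1)⁻¹, b, R, inv_pos.mpr (lt_max_of_lt_right one_pos), fun τ hτ i => ⟨?_, ?_, ?_⟩⟩
  · have h := (norm_le_pi_norm (fun j => ((τ j).r)⁻¹) i).trans
      (mem_closedBall_zero_iff.mp (ha ⟨τ, hτ, rfl⟩))
    rw [norm_inv, Real.norm_of_nonneg (τ i).r_pos.le] at h
    exact inv_le_of_inv_le₀ (τ i).r_pos (h.trans (le_max_left _ _))
  · exact ((le_abs_self _).trans (norm_le_pi_norm (fun j => (τ j).r) i)).trans
      (mem_closedBall_zero_iff.mp (hb ⟨τ, hτ, rfl⟩))
  · exact (norm_le_pi_norm (fun j => (τ j).z) i).trans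
      (mem_closedBall_zero_iff.mp (hR ⟨τ, hτ, rfl⟩))

variable {D : QuotData Φ U}

/-- Square integrable invariant functions have locally integrable slices. -/
theorem sliceInt_of_memLp {φ : Space Φ U → ℂ} (hφ : Measurable φ)
    (hinv : ∀ (g : PGL(2, K)) x, φ (g • x) = φ x) (h2 : MemLp φ 2 D.ν) : SliceInt φ := by
  refine ⟨hφ, fun y => (locallyIntegrable_iff).mpr fun C hC => ?_⟩
  rcases C.eq_empty_or_nonempty with rfl | hne
  · exact integrableOn_empty
  obtain ⟨c, b, R, hc, hbox⟩ := exists_box_of_isCompact hC hne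
  obtain ⟨M, hM⟩ := lintegral_box_le_quot (Φ := Φ) D.level D.isWeight
    (Set.finite_singleton y) (C := b / c) (R := R) hc
  have hm : Measurable fun τ : ι → HSpace => φ (Space.mk τ y) :=
    hφ.comp (Space.measurable_mk y)
  refine ⟨hm.aestronglyMeasurable, ?_⟩
  have hfin : ∫⁻ τ in C, ‖φ (Space.mk τ y)‖ₑ ^ 2 ∂(Measure.pi fun _ : ι => HSpace.measure) ≠ ⊤ := by
    refine ne_top_of_le_ne_top (ENNReal.mul_ne_top (ENNReal.natCast_ne_top M) ?_)
      (le_trans ?_ (hM (fun x => ‖φ x‖ₑ ^ 2) (hφ.enorm.pow_const 2)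
        fun g x => by rw [hinv]))
    · have h := h2.eLpNorm_lt_top
      rw [eLpNorm_eq_lintegral_rpow_enorm_toReal (by norm_num) ENNReal.ofNat_ne_top] at h
      simp only [ENNReal.toReal_ofNat, ENNReal.rpow_two] at h
      exact ((ENNReal.rpow_lt_top_iff_of_pos (by norm_num)).mp h).ne
    · rw [← lintegral_indicator (measurableSet_boxSet _ _ _ _), Space.lintegral_measure
        ((hφ.enorm.pow_const 2).indicator (measurableSet_boxSet _ _ _ _))]
      refine le_trans ?_ (ENNReal.le_tsum y)
      rw [← lintegral_indicator hC.measurableSet]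
      refine lintegral_mono fun τ => Set.indicator_apply_le' (fun hτ => ?_) fun _ => zero_le
      refine le_of_eq (Set.indicator_of_mem (show Space.mk (Φ := Φ) τ y ∈ boxSet Φ {y} c (b / c) R
        from ⟨rfl, fun i => (hbox τ hτ i).1, fun i j => ?_, fun i => (hbox τ hτ i).2.2⟩)
        (fun x => ‖φ x‖ₑ ^ 2)).symm
      calc (τ i).r ≤ b := (hbox τ hτ i).2.1
        _ = b / c * c := (div_mul_cancel₀ b hc.ne').symm
        _ ≤ b / c * (τ j).r := mul_le_mul_of_nonneg_left (hbox τ hτ j).1
            (div_nonneg ((τ i).r_pos.le.trans (hbox τ hτ i).2.1) hc.le)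
  rw [HasFiniteIntegral]
  refine lt_of_le_of_lt (lintegral_mono (g := fun τ => 1 + ‖φ (Space.mk τ y)‖ₑ ^ 2) fun τ => ?_) ?_
  · rcases le_total ‖φ (Space.mk τ y)‖ₑ 1 with h | h
    · exact h.trans le_self_add
    · exact le_trans (le_self_pow h two_ne_zero) le_add_self
  · rw [lintegral_add_left measurable_const, lintegral_one, Measure.restrict_apply_univ]
    exact ENNReal.add_lt_top.mpr ⟨hC.measure_lt_top, hfin.lt_top⟩

theorem integrable_testKernel_mul (k : ι → PPKer) (f : HKer U) {φ : Space Φ U → ℂ}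
    (hφ : SliceInt φ) (x : Space Φ U) :
    Integrable (fun y => testKernel k f x y * φ y) (Space.measure Φ U) := by
  refine (integral_space_eq_sum (g := fun z => testKernel k f x z * φ z)
    (f.finite_row x.fin).toFinset (fun z hz => (f.finite_row x.fin).mem_toFinset.mpr
      (left_ne_zero_of_mul (left_ne_zero_of_mul hz)))
    ((measurable_testKernel_comp k f (a := fun _ => x) measurable_const measurable_id).mul
      hφ.measurable) fun w _ => ?_).1
  simp only [testKernel, Space.pt_mk, Space.fin_mk, mul_assoc]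
  exact (hφ.integrable k x.pt w).const_mul _

/-- The periodised kernel computes the test operator on invariant functions. -/
theorem integral_perKer_testKernel_mul (k : ι → PPKer) (f : HKer U) {φ : Space Φ U → ℂ}
    (hφ : SliceInt φ) (hinv : ∀ (g : PGL(2, K)) x, φ (g • x) = φ x) (x : Space Φ U) :
    ∫ y, perKer PGL(2, K) (testKernel k f) x y * φ y ∂D.ν = testOp k f φ x :=
  integral_periodize_mul D.isWeight
    (measurable_testKernel_comp k f (a := fun _ => x) measurable_const measurable_id)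
    hφ.measurable hinv (integrable_testKernel_mul k f hφ x)

variable (D) in
theorem exists_schurBound_perKer (k : ι → PPKer) (f : HKer U) :
    ∃ M : ℝ≥0, SchurBound D.ν (perKer PGL(2, K) (testKernel k f)) M :=
  (exists_schurBound k f).imp fun _ h => h.perKer D.isWeight (testKernel_pglSmul k f)

variable (D) in
/-- The operator of a test function on the square integrable classes. -/
def testCLM (k : ι → PPKer) (f : HKer U) : Lp ℂ 2 D.ν →L[ℂ] Lp ℂ 2 D.ν :=
  kerCLM (exists_schurBound_perKer D k f).choose_spec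

theorem coeFn_testCLM (k : ι → PPKer) (f : HKer U) {e : Lp ℂ 2 D.ν} {φ : Space Φ U → ℂ}
    (hφ : Measurable φ) (hinv : ∀ (g : PGL(2, K)) x, φ (g • x) = φ x) (he : e =ᵐ[D.ν] φ) :
    testCLM D k f e =ᵐ[D.ν] testOp k f φ := by
  refine (coeFn_kerCLM _ e).trans (Eventually.of_forall fun x => ?_)
  show ∫ y, perKer PGL(2, K) (testKernel k f) x y * e y ∂D.ν = _
  rw [integral_congr_ae (he.mono fun y hy => by rw [hy])]
  exact integral_perKer_testKernel_mul k f
    (sliceInt_of_memLp hφ hinv ((Lp.memLp e).ae_eq he)) hinv x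

/-- Test operators preserve square integrability. -/
theorem memLp_testOp (k : ι → PPKer) (f : HKer U) {φ : Space Φ U → ℂ}
    (hφ : Measurable φ) (hinv : ∀ (g : PGL(2, K)) x, φ (g • x) = φ x) (h2 : MemLp φ 2 D.ν) :
    MemLp (testOp k f φ) 2 D.ν :=
  (Lp.memLp (testCLM D k f (h2.toLp φ))).ae_eq (coeFn_testCLM k f hφ hinv h2.coeFn_toLp)

omit [Countable (Yf U)] [Fintype ι] in
theorem shift_ptOf (z : ι → ℂ) (τ : ι → HSpace) :
    (fun i => unipotent (z i) • τ i) = ptOf (z + (piCoords τ).1, (piCoords τ).2) := by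
  funext i
  obtain ⟨h1, h2⟩ := HSpace.unipotent_smul (z i) (τ i)
  refine HSpace.ext ?_ ?_
  · rw [h1]
    exact add_comm _ _
  · rw [h2, ptOf_r (p := (z + (piCoords τ).1, (piCoords τ).2)) fun j => (τ j).r_pos]
    rfl

omit [Countable (Yf U)] in
/-- Almost every height gives almost every point. -/
theorem ae_of_ae_heights {P : (ι → ℝ) → Prop}
    (h : ∀ᵐ r : ι → ℝ, (∀ i, 0 < r i) → P r) :
    ∀ᵐ τ ∂(Measure.pi fun _ : ι => HSpace.measure), P (piCoords τ).2 := by
  obtain ⟨N, hN, hNm, hN0⟩ := exists_measurable_superset_of_null (ae_iff.mp h)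
  have hF : Measurable fun p : (ι → ℂ) × (ι → ℝ) => N.indicator (1 : (ι → ℝ) → ℝ≥0∞) p.2 :=
    (measurable_one.indicator hNm).comp measurable_snd
  have h1 := lintegral_pi_hspace hF
  have h2 : ∫⁻ p in posCone ι, hypDensity' p * N.indicator (1 : (ι → ℝ) → ℝ≥0∞) p.2
      ∂(volume.prod volume) = 0 := by
    refine lintegral_eq_zero_of_ae_eq_zero (ae_restrict_of_ae ?_)
    filter_upwards [Measure.quasiMeasurePreserving_snd.ae
      (measure_eq_zero_iff_ae_notMem.mp hN0)] with p hp
    simp [hp]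
  rw [h2, lintegral_eq_zero_iff (f := fun τ : ι → HSpace =>
    N.indicator (1 : (ι → ℝ) → ℝ≥0∞) (piCoords τ).2) (hF.comp measurable_piCoords)] at h1
  filter_upwards [h1] with τ hτ
  by_contra hc
  have hmem : (piCoords τ).2 ∈ N := hN fun hP => hc (hP fun i => (τ i).r_pos)
  simp [Set.indicator_of_mem hmem] at hτ

omit [Countable (Yf U)] in
/-- The operator at infinity preserves the vanishing of constant terms, at every height. -/
theorem setIntegral_archOp_eq_zero (k : ι → PPKer) {φ : Space Φ U → ℂ} (hφ : SliceInt φ)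
    (hinv : ∀ (g : PGL(2, K)) x, φ (g • x) = φ x) (hcusp : IsCuspidalFn φ) {y : Yf U} {d : 𝓞 K}
    (hd : IsPeriod U d y) (r : ι → ℝ) :
    ∫ z in fundDom Φ d hd.ne_zero, slice (archOp k φ) y (z, r) = 0 := by
  set μ : Measure (ι → HSpace) := Measure.pi fun _ : ι => HSpace.measure
  set B := fundDom Φ d hd.ne_zero
  set p₀ : ι → HSpace := ptOf ((0 : ι → ℂ), r) with hp₀
  let sh : (ι → ℂ) → (ι → HSpace) → ι → HSpace := fun z τ i => unipotent (z i) • τ i
  have hsh : ∀ z, MeasurePreserving (sh z) μ μ := fun z =>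
    measurePreserving_pi _ _ fun i => HSpace.measurePreserving_const_smul _
  have hshe : ∀ z, MeasurableEmbedding (sh z) := fun z =>
    (MeasurableEquiv.piCongrRight fun i : ι =>
      MeasurableEquiv.smul (unipotent (z i) : GL (Fin 2) ℂ)).measurableEmbedding
  have hkey : ∀ z, slice (archOp k φ) y (z, r)
      = ∫ τ, (∏ i, k i (p₀ i) (τ i)) * φ (Space.mk (sh z τ) y) ∂μ := by
    intro z
    simp only [slice, archOp, Space.pt_mk, Space.fin_mk]
    rw [← (hsh z).integral_comp (hshe z)]
    refine integral_congr_ae (Eventually.of_forall fun τ => ?_)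
    simp only
    congr 1
    refine Finset.prod_congr rfl fun i _ => ?_
    have hp : ptOf (z, r) i = unipotent (z i) • p₀ i := by
      obtain ⟨h1, h2⟩ := HSpace.unipotent_smul (z i) (p₀ i)
      refine HSpace.ext ?_ h2.symm
      rw [h1]
      simp [hp₀, ptOf]
    rw [hp, (k i).smul']
  simp only [hkey]
  -- joint integrability
  obtain ⟨D₀, hD₀⟩ := exists_fundDom_subset_closedBall (Φ := Φ) hd.ne_zero
  obtain ⟨C, hC, hk⟩ := exists_compact_pi k (isCompact_singleton (x := p₀))
  obtain ⟨B₀, hB₀⟩ := exists_bound_pi k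
  have hshc : Continuous fun q : (ι → ℂ) × (ι → HSpace) => sh q.1 q.2 := by
    refine continuous_pi fun i => HSpace.continuous_iff_coords.mpr ?_
    have he : (fun q : (ι → ℂ) × (ι → HSpace) => (sh q.1 q.2 i).coords)
        = fun q => ((q.2 i).z + q.1 i, (q.2 i).r) := funext fun q =>
      Prod.ext (HSpace.unipotent_smul (q.1 i) (q.2 i)).1 (HSpace.unipotent_smul (q.1 i) (q.2 i)).2
    show Continuous fun q : (ι → ℂ) × (ι → HSpace) => (sh q.1 q.2 i).coords
    rw [he]
    exact ((HSpace.continuous_z.comp ((continuous_apply i).comp continuous_snd)).add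
      ((continuous_apply i).comp continuous_fst)).prodMk
      (HSpace.continuous_r.comp ((continuous_apply i).comp continuous_snd))
  have hC' : IsCompact ((fun q : (ι → ℂ) × (ι → HSpace) => sh q.1 q.2) ''
      (Metric.closedBall 0 D₀ ×ˢ C)) := ((isCompact_closedBall _ _).prod hC).image hshc
  set C' := (fun q : (ι → ℂ) × (ι → HSpace) => sh q.1 q.2) '' (Metric.closedBall 0 D₀ ×ˢ C)
  have hφC : Integrable (C'.indicator fun τ => B₀ * ‖φ (Space.mk τ y)‖) μ :=
    (integrable_indicator_iff hC'.measurableSet).mpr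
      (((hφ.slice y).integrableOn_isCompact hC').norm.const_mul B₀)
  have hbd : ∀ z ∈ Metric.closedBall (0 : ι → ℂ) D₀, ∀ τ,
      ‖(∏ i, k i (p₀ i) (τ i)) * φ (Space.mk (sh z τ) y)‖
        ≤ C'.indicator (fun σ => B₀ * ‖φ (Space.mk σ y)‖) (sh z τ) := by
    intro z hz τ
    by_cases h0 : ∏ i, k i (p₀ i) (τ i) = 0
    · rw [h0, zero_mul, norm_zero]
      exact Set.indicator_nonneg (fun σ _ => mul_nonneg
        ((norm_nonneg _).trans (hB₀ p₀ p₀)) (norm_nonneg _)) _
    · rw [Set.indicator_of_mem (show sh z τ ∈ C' from ⟨(z, τ), ⟨hz, hk p₀ rfl τ h0⟩, rfl⟩),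
        norm_mul]
      exact mul_le_mul_of_nonneg_right (hB₀ _ _) (norm_nonneg _)
  have : IsFiniteMeasure (volume.restrict B) :=
    ⟨by rw [Measure.restrict_apply_univ]; exact (measure_mono hD₀).trans_lt measure_closedBall_lt_top⟩
  have hm : Measurable fun q : (ι → ℂ) × (ι → HSpace) =>
      (∏ i, k i (p₀ i) (q.2 i)) * φ (Space.mk (sh q.1 q.2) y) :=
    (((continuous_prod_kernel k).comp (Continuous.prodMk_right p₀)).measurable.comp
      measurable_snd).mul ((hφ.measurable.comp (Space.measurable_mk y)).comp hshc.measurable)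
  have hint : Integrable (Function.uncurry fun (z : ι → ℂ) (τ : ι → HSpace) =>
      (∏ i, k i (p₀ i) (τ i)) * φ (Space.mk (sh z τ) y)) ((volume.restrict B).prod μ) := by
    refine (integrable_prod_iff hm.aestronglyMeasurable).mpr ⟨?_, ?_⟩
    · filter_upwards [ae_restrict_mem (measurableSet_fundDom hd.ne_zero)] with z hz
      exact ((hsh z).integrable_comp_emb (hshe z)).mpr hφC |>.mono'
        (hm.comp (measurable_const.prodMk measurable_id)).aestronglyMeasurable
        (Eventually.of_forall fun τ => hbd z (hD₀ hz) τ)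
    · refine (integrable_const (∫ σ, C'.indicator (fun σ => B₀ * ‖φ (Space.mk σ y)‖) σ ∂μ)).mono'
        hm.norm.stronglyMeasurable.integral_prod_right'.aestronglyMeasurable ?_
      filter_upwards [ae_restrict_mem (measurableSet_fundDom hd.ne_zero)] with z hz
      rw [Real.norm_of_nonneg (integral_nonneg fun τ => norm_nonneg _), ← (hsh z).integral_comp
        (hshe z) (fun σ => C'.indicator (fun σ => B₀ * ‖φ (Space.mk σ y)‖) σ)]
      exact integral_mono_of_nonneg (Eventually.of_forall fun τ => norm_nonneg _)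
        (((hsh z).integrable_comp_emb (hshe z)).mpr hφC)
        (Eventually.of_forall fun τ => hbd z (hD₀ hz) τ)
  rw [integral_integral_swap hint]
  refine integral_eq_zero_of_ae ?_
  filter_upwards [ae_of_ae_heights (hcusp y d hd)] with τ hτ
  show ∫ z in B, (∏ i, k i (p₀ i) (τ i)) * φ (Space.mk (sh z τ) y) = 0
  rw [integral_const_mul]
  refine mul_eq_zero_of_right _ ?_
  have hper : ∀ (v : periodLattice Φ d hd.ne_zero) (z : ι → ℂ),
      slice φ y ((v : ι → ℂ) + z, (piCoords τ).2) = slice φ y (z, (piCoords τ).2) := fun v z =>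
    slice_periodic (fun g x => (isInvariant_iff_pgl φ).mpr hinv g x) hd v z _
  rw [← hτ, ← setIntegral_fundDom_add hd.ne_zero (f := fun z => slice φ y (z, (piCoords τ).2)) hper
    (piCoords τ).1]
  refine integral_congr_ae (Eventually.of_forall fun z => ?_)
  simp only [slice, sh, shift_ptOf, add_comm (piCoords τ).1 z]

/-- Test operators preserve cuspidality. -/
theorem isCuspidalFn_testOp (k : ι → PPKer) (f : HKer U) {φ : Space Φ U → ℂ}
    (hφ : Measurable φ) (hinv : ∀ (g : PGL(2, K)) x, φ (g • x) = φ x) (h2 : MemLp φ 2 D.ν)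
    (hcusp : IsCuspidalFn φ) : IsCuspidalFn (testOp k f φ) := by
  classical
  have hs := sliceInt_of_memLp hφ hinv h2
  have hinv' := (isInvariant_iff_pgl _).mp
    (isInvariant_testOp k f ((isInvariant_iff_pgl φ).mpr hinv))
  refine isCuspidalFn_of_exists_period (hs.testOp k f).measurable hinv'
    (memLp_testOp k f hφ hinv h2) fun y => ?_
  obtain ⟨d, -, hd⟩ := exists_common_period D.level (insert y (f.finite_row y).toFinset)
  refine ⟨d, hd y (Finset.mem_insert_self _ _), Eventually.of_forall fun r hr => ?_⟩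
  rw [testOp_eq_kerMap k f hs]
  simp only [slice, kerMap_eq_sum]
  obtain ⟨D₀, hD₀⟩ := exists_fundDom_subset_closedBall (Φ := Φ) (hd y (Finset.mem_insert_self _ _)).ne_zero
  rw [integral_finsetSum _ fun w _ => ?_]
  · refine Finset.sum_eq_zero fun w hw => ?_
    rw [integral_const_mul]
    exact mul_eq_zero_of_right _
      (setIntegral_archOp_eq_zero k hs hinv hcusp (hd w (Finset.mem_insert_of_mem hw)) r)
  · have hc : Continuous fun z : ι → ℂ => f y w * archOp k φ (Space.mk (ptOf (z, r)) w) :=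
      continuous_const.mul ((continuous_archOp k hs w).comp_continuousOn continuousOn_ptOf
        |>.comp_continuous (Continuous.prodMk_left r) fun _ => hr)
    exact (hc.continuousOn.integrableOn_compact (isCompact_closedBall 0 D₀)).mono_set hD₀

theorem testCLM_mem_cuspClasses (k : ι → PPKer) (f : HKer U) {e : Lp ℂ 2 D.ν}
    (he : e ∈ cuspClasses D) : testCLM D k f e ∈ cuspClasses D := by
  obtain ⟨φ, hm, hi, hc, hae⟩ := he
  have h2 : MemLp φ 2 D.ν := (Lp.memLp e).ae_eq hae
  exact ⟨testOp k f φ, ((sliceInt_of_memLp hm hi h2).testOp k f).measurable,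
    (isInvariant_iff_pgl _).mp (isInvariant_testOp k f ((isInvariant_iff_pgl φ).mpr hi)),
    isCuspidalFn_testOp k f hm hi h2 hc, coeFn_testCLM k f hm hi hae⟩

variable (D) in
/-- The operator of a test function on the cusp space. -/
def cuspOp (k : ι → PPKer) (f : HKer U) : cuspClasses D →L[ℂ] cuspClasses D :=
  ((testCLM D k f).comp (cuspClasses D).subtypeL).codRestrict (cuspClasses D)
    fun e => testCLM_mem_cuspClasses k f e.2

theorem coe_cuspOp (k : ι → PPKer) (f : HKer U) (e : cuspClasses D) :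
    (cuspOp D k f e : Lp ℂ 2 D.ν) = testCLM D k f e := rfl

theorem coeFn_cuspOp (k : ι → PPKer) (f : HKer U) {e : cuspClasses D} {φ : Space Φ U → ℂ}
    (hφ : Measurable φ) (hinv : ∀ (g : PGL(2, K)) x, φ (g • x) = φ x)
    (he : (e : Lp ℂ 2 D.ν) =ᵐ[D.ν] φ) : (cuspOp D k f e : Lp ℂ 2 D.ν) =ᵐ[D.ν] testOp k f φ :=
  coeFn_testCLM k f hφ hinv he

theorem cuspOp_congr {k k' : ι → PPKer} {f f' : HKer U} (hk : ∀ i p q, k i p q = k' i p q)
    (hf : ∀ y z, f y z = f' y z) : cuspOp D k f = cuspOp D k' f' := by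
  refine ContinuousLinearMap.ext fun e => Subtype.ext (Lp.ext ?_)
  obtain ⟨φ, hm, hi, -, hae⟩ := e.2
  refine (coeFn_cuspOp k f hm hi hae).trans ?_
  rw [testOp_congr hk hf]
  exact (coeFn_cuspOp k' f' hm hi hae).symm

/-- Composition. -/
theorem cuspOp_comp (k k' : ι → PPKer) (f f' : HKer U) :
    (cuspOp D k f).comp (cuspOp D k' f')
      = cuspOp D (fun i => PPKer.comp (k i) (k' i)) (f.comp f') := by
  refine ContinuousLinearMap.ext fun e => Subtype.ext (Lp.ext ?_)
  obtain ⟨φ, hm, hi, -, hae⟩ := e.2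
  have hs := sliceInt_of_memLp hm hi ((Lp.memLp (e : Lp ℂ 2 D.ν)).ae_eq hae)
  refine ((coeFn_cuspOp k f (hs.testOp k' f').measurable
    ((isInvariant_iff_pgl _).mp (isInvariant_testOp k' f' ((isInvariant_iff_pgl φ).mpr hi)))
    (coeFn_cuspOp k' f' hm hi hae)).trans ?_)
  rw [testOp_comp k k' f f' hs]
  exact (coeFn_cuspOp _ _ hm hi hae).symm

/-- Commutation. -/
theorem cuspOp_commute (k k' : ι → PPKer) {f f' : HKer U}
    (hf : ∀ y z, (f.comp f') y z = (f'.comp f) y z) :
    Commute (cuspOp D k f) (cuspOp D k' f') := by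
  show (cuspOp D k f).comp (cuspOp D k' f') = (cuspOp D k' f').comp (cuspOp D k f)
  rw [cuspOp_comp, cuspOp_comp]
  exact cuspOp_congr (fun i => PPKer.comp_comm _ _) hf

/-- The adjoint. -/
theorem adjoint_cuspOp (k : ι → PPKer) (f : HKer U) :
    (cuspOp D k f).adjoint = cuspOp D (fun i => (k i).conjKer) f.adj := by
  refine ((ContinuousLinearMap.eq_adjoint_iff _ _).mpr fun a b => ?_).symm
  obtain ⟨M, hM⟩ := exists_schurBound_perKer D k f
  have e1 : testCLM D k f (b : Lp ℂ 2 D.ν) = kerCLM hM b :=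
    Lp.ext ((coeFn_kerCLM _ _).trans (coeFn_kerCLM hM _).symm)
  have e2 : testCLM D (fun i => (k i).conjKer) f.adj (a : Lp ℂ 2 D.ν) = kerCLM hM.adj a := by
    refine Lp.ext ((coeFn_kerCLM _ _).trans ((coeFn_kerCLM hM.adj _).trans
      (Eventually.of_forall fun x => ?_)).symm)
    refine integral_congr_ae (Eventually.of_forall fun y => ?_)
    refine congrArg (· * _) ?_
    simp only [adjKer, perKer, Complex.conj_tsum]
    rw [← (Equiv.inv PGL(2, K)).tsum_eq fun g => conj (testKernel k f y (g • x))]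
    refine tsum_congr fun g => ?_
    simp only [Equiv.inv_apply]
    rw [← testKernel_pglSmul k f g y (g⁻¹ • x), smul_inv_smul]
    exact conj_testKernel k f x (g • y)
  rw [Submodule.coe_inner, Submodule.coe_inner, coe_cuspOp, coe_cuspOp, e1, e2]
  exact inner_kerCLM_left hM _ _

theorem isSelfAdjoint_cuspOp {k : ι → PPKer} {f : HKer U}
    (hk : ∀ i p q, conj (k i p q) = k i p q) (hf : ∀ y z, conj (f z y) = f y z) :
    IsSelfAdjoint (cuspOp D k f) := by
  rw [ContinuousLinearMap.isSelfAdjoint_iff', adjoint_cuspOp]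
  exact cuspOp_congr hk hf

end Fermat.Agent.LT.Descent

end
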