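/-
The forms of a level inside the cusp space: finite dimension, adjoints, stable complements.
-/
import Fermat.Agent.LT.Descent.LevelVectors
import Fermat.Agent.LT.Descent.SFormLevels
import Fermat.Agent.LT.Descent.SphericalArch
import Fermat.Agent.LT.Descent.TestOperator
import Fermat.Agent.LT.Descent.PointBoundFinite

set_option autoImplicit false

noncomputable section

namespace Fermat.Agent.LT.Descent

open MeasureTheory NumberField IsDedekindDomain Filter Matrix
open Fermat.Agent.LT.Adelic Fermat.Agent.LT.Spectral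
open scoped MatrixGroups ENNReal ComplexConjugate InnerProductSpace

variable {K : Type*} [Field K] [NumberField K] {ι : Type*} [Fintype ι] [DecidableEq ι]
  {Φ : Frame K ι} {S : Set (HeightOneSpectrum (𝓞 K))} {a : HeightOneSpectrum (𝓞 K) → ℂ}
  {U : Subgroup (GfK K)} {n : 𝓞 K}

theorem mem_nbrs_inv_iff (D : GfK K) (y z : Yf U) : z ∈ nbrs D y ↔ y ∈ nbrs D⁻¹ z := by
  have key : ∀ (D : GfK K) (y z : Yf U), z ∈ nbrs D y → y ∈ nbrs D⁻¹ z := by
    rintro D y z ⟨g, rfl, u, hu, rfl⟩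
    rw [nbrs_mk]
    exact ⟨1, one_mem U, QuotientGroup.eq.mpr (le_levelZ U (by simpa [mul_assoc] using hu))⟩
  exact ⟨key D y z, fun h => inv_inv D ▸ key D⁻¹ z y h⟩

/-- The transpose of a double coset is the inverse double coset. -/
theorem adj_ofDoubleCoset (hU : IsLevel U) (D : GfK K) (y z : Yf U) :
    (HKer.ofDoubleCoset hU D).adj y z = HKer.ofDoubleCoset hU D⁻¹ y z := by
  classical
  rw [HKer.adj_apply]
  show conj (if y ∈ nbrs D z then (1 : ℂ) else 0) = if z ∈ nbrs D⁻¹ y then 1 else 0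
  simp only [mem_nbrs_inv_iff D z y]
  split <;> simp

/-- A form of a level supported in `S` fixed by the `S`-part of `U` is fixed by `U`. -/
theorem invariant_of_mem_fixedVectors (hS : S.Finite) (hn : SupportedIn S n)
    (hnU : principalLevel K n ≤ U) (hU1 : U ≤ principalLevel K (1 : 𝓞 K)) {ψ : sForms Φ S a}
    (hψ : ψ ∈ fixedVectors (translateRep Φ S a hS) (supLevel S U)) :
    ∀ τ g, ∀ u ∈ U, ψ.1 τ (g * u) = ψ.1 τ g := by
  intro τ g u hu
  obtain ⟨m, hm, hinv⟩ := ψ.2.smooth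
  have hnm : SupportedIn S (n * m) := ⟨mul_ne_zero hn.1 hm.1, fun v hv => by
    rw [map_mul, hn.2 v hv, hm.2 v hv, one_mul]⟩
  obtain ⟨s, r, hr, rfl, -⟩ := exists_split_mem hnm
    ((principalLevel_mono (dvd_mul_right n m)).trans hnU) hU1 hu
  rw [← mul_assoc, hinv τ _ r (principalLevel_mono (dvd_mul_left m n) hr)]
  exact congrArg (fun φ : sForms Φ S a => φ.1 τ g) (hψ s.1 s.2)

variable [Countable (Yf U)] {D : QuotData Φ U}

/-- Invariant bounded cusp forms of a level, as functions on the space. -/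
theorem toSpace_props (hS : S.Finite) (hn : SupportedIn S n) (hnU : principalLevel K n ≤ U)
    (hU1 : U ≤ principalLevel K (1 : 𝓞 K)) {ψ : sForms Φ S a}
    (hψ : ψ ∈ fixedVectors (translateRep Φ S a hS) (supLevel S U)) :
    Measurable (toSpace (Φ := Φ) (U := U) ψ.1) ∧
      (∀ (g : PGL(2, K)) x, toSpace (Φ := Φ) (U := U) ψ.1 (g • x) = toSpace ψ.1 x) ∧
      MemLp (toSpace (Φ := Φ) (U := U) ψ.1) 2 D.ν ∧
      IsCuspidalFn (toSpace (Φ := Φ) (U := U) ψ.1) := by
  have hfix := invariant_of_mem_fixedVectors hS hn hnU hU1 hψ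
  have hm : Measurable (toSpace (Φ := Φ) (U := U) ψ.1) :=
    Space.measurable_iff.mpr fun y => (ψ.2.continuous (Quotient.out y)).measurable
  have hi : ∀ (g : PGL(2, K)) x, toSpace (Φ := Φ) (U := U) ψ.1 (g • x) = toSpace ψ.1 x := by
    refine (isInvariant_iff_pgl _).mp fun γ x => ?_
    obtain ⟨g, hg⟩ := QuotientGroup.mk_surjective x.fin
    rw [← Space.mk_pt_fin x, Space.smul_mk, ← hg,
      show toGf K γ • (g : Yf U) = ((toGf K γ * g : GfK K) : Yf U) from rfl,
      toSpace_mk ψ.2 hfix, toSpace_mk ψ.2 hfix, ψ.2.invariant]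
  obtain ⟨C, hC⟩ := ψ.2.bounded
  have h2 : MemLp (toSpace (Φ := Φ) (U := U) ψ.1) 2 D.ν :=
    MemLp.of_bound hm.aestronglyMeasurable C (Eventually.of_forall fun x => hC _ _)
  exact ⟨hm, hi, h2, isCuspidalFn_of_hasZeroMean hm hi h2 fun y r hr =>
    ψ.2.cuspidal (Quotient.out y) r hr⟩

variable (D)

/-- The forms of a level as cusp classes. -/
def levelMap (hS : S.Finite) (hn : SupportedIn S n) (hnU : principalLevel K n ≤ U)
    (hU1 : U ≤ principalLevel K (1 : 𝓞 K)) :
    fixedVectors (translateRep Φ S a hS) (supLevel S U) →ₗ[ℂ] cuspClasses D where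
  toFun ψ := ⟨(toSpace_props (D := D) hS hn hnU hU1 ψ.2).2.2.1.toLp _,
    toSpace (Φ := Φ) (U := U) ψ.1.1, (toSpace_props (D := D) hS hn hnU hU1 ψ.2).1,
    (toSpace_props (D := D) hS hn hnU hU1 ψ.2).2.1, (toSpace_props (D := D) hS hn hnU hU1 ψ.2).2.2.2,
    MemLp.coeFn_toLp _⟩
  map_add' ψ ψ' := Subtype.ext (MemLp.toLp_add (toSpace_props (D := D) hS hn hnU hU1 ψ.2).2.2.1
    (toSpace_props (D := D) hS hn hnU hU1 ψ'.2).2.2.1)
  map_smul' c ψ := Subtype.ext (MemLp.toLp_const_smul c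
    (toSpace_props (D := D) hS hn hnU hU1 ψ.2).2.2.1)

variable {D} (hS : S.Finite) (hn : SupportedIn S n) (hnU : principalLevel K n ≤ U)
  (hU1 : U ≤ principalLevel K (1 : 𝓞 K))

theorem coeFn_levelMap (ψ : fixedVectors (translateRep Φ S a hS) (supLevel S U)) :
    ((levelMap D hS hn hnU hU1 ψ : cuspClasses D) : Lp ℂ 2 D.ν) =ᵐ[D.ν]
      toSpace (Φ := Φ) (U := U) ψ.1.1 :=
  MemLp.coeFn_toLp (toSpace_props (D := D) hS hn hnU hU1 ψ.2).2.2.1

theorem levelMap_injective : Function.Injective (levelMap D hS hn hnU hU1 :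
    fixedVectors (translateRep Φ S a hS) (supLevel S U) → cuspClasses D) := by
  rw [injective_iff_map_eq_zero]
  intro ψ hψ
  have h1 := coeFn_levelMap (D := D) hS hn hnU hU1 ψ
  rw [hψ] at h1
  have h2 : toSpace (Φ := Φ) (U := U) ψ.1.1 =ᵐ[Space.measure Φ U] 0 :=
    invariant_rep_unique D.isWeight (toSpace_props (D := D) hS hn hnU hU1 ψ.2).2.1 (fun _ _ => rfl)
      (h1.symm.trans (Lp.coeFn_zero _ _ _))
  have := isOpenPosMeasure_hspace
  have h3 : ∀ y : Yf U, ∀ τ, toSpace (Φ := Φ) (U := U) ψ.1.1 (Space.mk τ y) = 0 := by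
    intro y
    have hle : (Measure.pi fun _ : ι => HSpace.measure).map (fun τ => Space.mk (Φ := Φ) τ y) ≤
        Space.measure Φ U := by
      rw [Space.measure]
      exact Measure.le_sum (fun y : Yf U =>
        (Measure.pi fun _ : ι => HSpace.measure).map fun τ => Space.mk (Φ := Φ) τ y) y
    have h := ae_of_ae_map (Space.measurable_mk y).aemeasurable (ae_mono hle h2)
    exact fun τ => congrFun ((Continuous.ae_eq_iff_eq (Measure.pi fun _ : ι => HSpace.measure)
      (ψ.1.2.continuous (Quotient.out y)) (continuous_const (y := (0 : ℂ)))).1 h) τ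
  refine Subtype.ext (Subtype.ext (funext fun τ => funext fun g => ?_))
  rw [← toSpace_mk (Φ := Φ) (U := U) ψ.1.2 (invariant_of_mem_fixedVectors hS hn hnU hU1 ψ.2) τ g]
  exact h3 _ τ

variable {k₀ : ℝ → ℝ} (hk : Continuous k₀) (hks : HasCompactSupport k₀)

/-- The kernels of a real profile. -/
def profKer : PPKer :=
  PPKer.ofProfile (fun u => (k₀ u : ℂ)) (Complex.continuous_ofReal.comp hk)
    (hks.comp_left Complex.ofReal_zero)

/-- **The test operator of a double coset is the compressed translation.** -/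
theorem cuspOp_levelMap {e : sForms Φ S a →ₗ[ℂ] sForms Φ S a}
    (hproj : IsLevelProj (translateRep Φ S a hS) e
      (fixedVectors (translateRep Φ S a hS) (supLevel S U)))
    (he : ∀ v H, IsStab (translateRep Φ S a hS) (supLevel S U) H v →
      e v = avgOver (translateRep Φ S a hS) (supLevel S U) H v)
    (g : gfSupported S) (ψ : fixedVectors (translateRep Φ S a hS) (supLevel S U)) :
    cuspOp D (fun _ : ι => profKer hk hks) (HKer.ofDoubleCoset D.level (g : GfK K))
        (levelMap D hS hn hnU hU1 ψ) =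
      ((∏ _i : ι, sphTransform (fun u => (k₀ u : ℂ)) 0) *
          ((nbrs (g : GfK K) ((1 : GfK K) : Yf U)).ncard : ℂ)) •
        levelMap D hS hn hnU hU1 (levelOp hproj g ψ) := by
  have hfix := invariant_of_mem_fixedVectors hS hn hnU hU1 ψ.2
  obtain ⟨hm, hi, h2, -⟩ := toSpace_props (D := D) hS hn hnU hU1 ψ.2
  refine Subtype.ext (Lp.ext ?_)
  refine (coeFn_cuspOp _ _ hm hi (coeFn_levelMap hS hn hnU hU1 ψ)).trans ?_
  refine EventuallyEq.trans (EventuallyEq.of_eq ?_) ((Lp.coeFn_smul _ _).trans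
    ((coeFn_levelMap hS hn hnU hU1 _).const_smul _)).symm
  rw [testOp_eq_kerMap _ _ (sliceInt_of_memLp hm hi h2)]
  have harch : archOp (fun _ : ι => profKer hk hks) (toSpace (Φ := Φ) (U := U) ψ.1.1) =
      (∏ _i : ι, sphTransform (fun u => (k₀ u : ℂ)) 0) • toSpace (Φ := Φ) (U := U) ψ.1.1 :=
    archOp_eq_of_isSphericalEigen (φ := toSpace (Φ := Φ) (U := U) ψ.1.1)
      (fun k hk hc i x => ψ.1.2.spherical k hk hc i x.pt (Quotient.out x.fin))
      (ψ.1.2.bounded.imp fun _ hC x => hC _ _) (fun y => ψ.1.2.continuous (Quotient.out y))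
      (fun _ u => (k₀ u : ℂ)) (fun _ => Complex.continuous_ofReal.comp hk)
      (fun _ => hks.comp_left Complex.ofReal_zero)
  rw [harch, kerMap_smul, ← heckeOp_eq_kerMap D.level, heckeOp_toSpace hS hn hnU hU1 he g hfix,
    smul_smul, coe_levelOp]

omit [Countable (Yf U)] in
theorem ncard_nbrs_ne_zero (hU : IsLevel U) (g : GfK K) :
    ((nbrs g ((1 : GfK K) : Yf U)).ncard : ℂ) ≠ 0 := by
  rw [Nat.cast_ne_zero, Ne, Set.ncard_eq_zero (finite_nbrs hU g _), nbrs_mk,
    Set.image_eq_empty]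
  exact Set.nonempty_iff_ne_empty.1 ⟨1, one_mem U⟩

/-- **Compressed translations by `g` and `g⁻¹` are adjoint up to scalars.** -/
theorem inner_levelOp_eq_zero {e : sForms Φ S a →ₗ[ℂ] sForms Φ S a}
    (hproj : IsLevelProj (translateRep Φ S a hS) e
      (fixedVectors (translateRep Φ S a hS) (supLevel S U)))
    (he : ∀ v H, IsStab (translateRep Φ S a hS) (supLevel S U) H v →
      e v = avgOver (translateRep Φ S a hS) (supLevel S U) H v)
    (g : gfSupported S) (φ ψ : fixedVectors (translateRep Φ S a hS) (supLevel S U))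
    (h : ⟪levelMap D hS hn hnU hU1 (levelOp hproj g⁻¹ φ), levelMap D hS hn hnU hU1 ψ⟫_ℂ = 0) :
    ⟪levelMap D hS hn hnU hU1 φ, levelMap D hS hn hnU hU1 (levelOp hproj g ψ)⟫_ℂ = 0 := by
  obtain ⟨k₀, hlip, hks, hμ⟩ := exists_profile
  have hμ' : (∏ _i : ι, sphTransform (fun u => (k₀ u : ℂ)) 0) ≠ 0 :=
    Finset.prod_ne_zero_iff.2 fun _ _ => hμ
  have hadj : (cuspOp D (fun _ : ι => profKer hlip.continuous hks)
      (HKer.ofDoubleCoset D.level (g : GfK K))).adjoint =
      cuspOp D (fun _ : ι => profKer hlip.continuous hks)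
        (HKer.ofDoubleCoset D.level ((g⁻¹ : gfSupported S) : GfK K)) := by
    rw [adjoint_cuspOp]
    exact cuspOp_congr (fun _ p q => PPKer.conjKer_ofProfile_ofReal k₀ _ _ p q) fun y z => by
      rw [Subgroup.coe_inv]; exact adj_ofDoubleCoset D.level _ y z
  have h1 := ContinuousLinearMap.adjoint_inner_left
    (cuspOp D (fun _ : ι => profKer hlip.continuous hks)
      (HKer.ofDoubleCoset D.level (g : GfK K)))
    (levelMap D hS hn hnU hU1 ψ) (levelMap D hS hn hnU hU1 φ)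
  rw [hadj, cuspOp_levelMap hS hn hnU hU1 hlip.continuous hks hproj he g⁻¹ φ,
    cuspOp_levelMap hS hn hnU hU1 hlip.continuous hks hproj he g ψ] at h1
  simp only [Submodule.coe_inner, Submodule.coe_smul, inner_smul_left, inner_smul_right] at h1
  rw [← Submodule.coe_inner, h, mul_zero, eq_comm, ← Submodule.coe_inner] at h1
  exact (mul_eq_zero.1 h1).resolve_left (mul_ne_zero hμ' (ncard_nbrs_ne_zero D.level _))

/-- Orthogonal complements pulled back along an injective map. -/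
theorem exists_orth_complement {V E : Type*} [AddCommGroup V] [Module ℂ V]
    [NormedAddCommGroup E] [InnerProductSpace ℂ E] {VJ : Submodule ℂ V} [FiniteDimensional ℂ VJ]
    {L : VJ →ₗ[ℂ] E} (hL : Function.Injective L) {Q : Submodule ℂ V} (hQ : Q ≤ VJ) :
    ∃ Q' ≤ VJ, Q ⊓ Q' = ⊥ ∧ Q ⊔ Q' = VJ ∧
      ∀ ψ : VJ, (ψ : V) ∈ Q' ↔ ∀ φ : VJ, (φ : V) ∈ Q → ⟪L φ, L ψ⟫_ℂ = 0 := by
  set Ql : Submodule ℂ E := (Q.comap VJ.subtype).map L
  have : FiniteDimensional ℂ Ql := Module.Finite.map _ _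
  have hmem : ∀ ψ : VJ, ψ ∈ Qlᗮ.comap L ↔ ∀ φ : VJ, (φ : V) ∈ Q → ⟪L φ, L ψ⟫_ℂ = 0 := by
    intro ψ
    rw [Submodule.mem_comap, Submodule.mem_orthogonal]
    exact ⟨fun h φ hφ => h _ ⟨φ, hφ, rfl⟩, by rintro h _ ⟨φ, hφ, rfl⟩; exact h φ hφ⟩
  refine ⟨(Qlᗮ.comap L).map VJ.subtype, Submodule.map_subtype_le _ _, ?_, ?_, fun ψ => ?_⟩
  · refine (Submodule.eq_bot_iff _).2 ?_
    rintro x ⟨hx, ψ, hψ, rfl⟩
    have h0 : L ψ = 0 := inner_self_eq_zero (𝕜 := ℂ) |>.1 ((hmem ψ).1 hψ ψ hx)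
    rw [hL (h0.trans (map_zero L).symm), map_zero]
  · refine le_antisymm (sup_le hQ (Submodule.map_subtype_le _ _)) fun v hv => ?_
    obtain ⟨q, hq, hqv⟩ := Ql.starProjection_apply_mem (L ⟨v, hv⟩)
    refine Submodule.mem_sup.2 ⟨q.1, hq, ((⟨v, hv⟩ : VJ) - q).1,
      ⟨(⟨v, hv⟩ : VJ) - q, ?_, rfl⟩, by simp⟩
    show L (⟨v, hv⟩ - q) ∈ Qlᗮ
    rw [map_sub, hqv]
    exact Ql.sub_starProjection_mem_orthogonal _
  · rw [← hmem]
    exact ⟨fun ⟨x, hx, e⟩ => Subtype.val_injective e ▸ hx, fun h => ⟨ψ, h, rfl⟩⟩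

/-- **Stable complements at a finite-dimensional level.** -/
theorem exists_stable_complement (D : QuotData Φ U) {e : sForms Φ S a →ₗ[ℂ] sForms Φ S a}
    (hproj : IsLevelProj (translateRep Φ S a hS) e
      (fixedVectors (translateRep Φ S a hS) (supLevel S U)))
    (he : ∀ v H, IsStab (translateRep Φ S a hS) (supLevel S U) H v →
      e v = avgOver (translateRep Φ S a hS) (supLevel S U) H v)
    [FiniteDimensional ℂ (fixedVectors (translateRep Φ S a hS) (supLevel S U))]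
    {Q : Submodule ℂ (sForms Φ S a)}
    (hQ : Q ≤ fixedVectors (translateRep Φ S a hS) (supLevel S U))
    (hQst : IsStableOn (translateRep Φ S a hS) e Set.univ Q) (hn : SupportedIn S n)
    (hnU : principalLevel K n ≤ U) (hU1 : U ≤ principalLevel K (1 : 𝓞 K)) :
    ∃ Q' ≤ fixedVectors (translateRep Φ S a hS) (supLevel S U),
      IsStableOn (translateRep Φ S a hS) e Set.univ Q' ∧ Q ⊓ Q' = ⊥ ∧
        Q ⊔ Q' = fixedVectors (translateRep Φ S a hS) (supLevel S U) := by
  obtain ⟨Q', hle, hdisj, hsup, hiff⟩ :=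
    exists_orth_complement (levelMap_injective (D := D) hS hn hnU hU1) hQ
  refine ⟨Q', hle, fun g _ x hx => ?_, hdisj, hsup⟩
  have hψ := (hiff ⟨x, hle hx⟩).1 hx
  exact (hiff (levelOp hproj g ⟨x, hle hx⟩)).2 fun φ hφ =>
    inner_levelOp_eq_zero hS hn hnU hU1 hproj he g φ ⟨x, hle hx⟩
      (hψ (levelOp hproj g⁻¹ φ) (hQst g⁻¹ trivial φ.1 hφ))

/-- **Finite dimension from a row bound of one profile.** -/
theorem finiteDimensional_level (D : QuotData Φ U) {C : Space Φ U → ℝ} (hμ : sphTransform (fun u => (k₀ u : ℂ)) 0 ≠ 0)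
    (hC : HasPointBound (cuspClasses D)
      (perKer PGL(2, K) (testKernel (fun _ : ι => profKer hk hks) (HKer.id U))) C)
    (hn : SupportedIn S n) (hnU : principalLevel K n ≤ U)
    (hU1 : U ≤ principalLevel K (1 : 𝓞 K)) :
    FiniteDimensional ℂ (fixedVectors (translateRep Φ S a hS) (supLevel S U)) := by
  set L := levelMap D hS hn hnU hU1 (a := a)
  set L' := (cuspClasses D).subtype.comp L
  have hfd : FiniteDimensional ℂ (LinearMap.range L') := by
    refine finiteDimensional_of_hasPointBound (E := cuspClasses D) hC ?_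
      (μ := ∏ _i : ι, sphTransform (fun u => (k₀ u : ℂ)) 0)
      (Finset.prod_ne_zero_iff.2 fun _ _ => hμ) ?_
    · rintro _ ⟨ψ, rfl⟩; exact (L ψ).2
    rintro _ ⟨ψ, rfl⟩
    obtain ⟨hm, hi, h2, -⟩ := toSpace_props (D := D) hS hn hnU hU1 ψ.2
    have hae : ((L ψ : cuspClasses D) : Lp ℂ 2 D.ν) =ᵐ[D.ν] toSpace (Φ := Φ) (U := U) ψ.1.1 :=
      coeFn_levelMap hS hn hnU hU1 ψ
    filter_upwards [hae] with x hx
    show ∫ y, _ * ((L ψ : cuspClasses D) : Lp ℂ 2 D.ν) y ∂D.ν = _ * _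
    rw [integral_congr_ae (hae.mono fun y hy => congrArg (_ * ·) hy),
      integral_perKer_testKernel_mul _ _ (sliceInt_of_memLp hm hi h2) hi,
      testOp_id _ (sliceInt_of_memLp hm hi h2)]
    show _ = _ * ((L ψ : cuspClasses D) : Lp ℂ 2 D.ν) x
    rw [hx]
    exact congrFun (archOp_eq_of_isSphericalEigen (φ := toSpace (Φ := Φ) (U := U) ψ.1.1)
      (fun k hk hc i x => ψ.1.2.spherical k hk hc i x.pt (Quotient.out x.fin))
      (ψ.1.2.bounded.imp fun _ hC x => hC _ _) (fun y => ψ.1.2.continuous (Quotient.out y))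
      (fun _ u => (k₀ u : ℂ)) (fun _ => Complex.continuous_ofReal.comp hk)
      (fun _ => hks.comp_left Complex.ofReal_zero)) x
  exact Module.Finite.of_injective L'.rangeRestrict
    fun x y h => levelMap_injective (D := D) hS hn hnU hU1 (Subtype.ext
      (congrArg (fun z : LinearMap.range L' => (z : Lp ℂ 2 D.ν)) h))

end Fermat.Agent.LT.Descent
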