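/-
Every level is finite dimensional and irreducible under its compressed translations.
-/
import Fermat.Agent.LT.Descent.LevelSpace
import Fermat.Agent.LT.Descent.CuspGrowth
import Fermat.Agent.LT.Descent.CoeffFromWhittaker
import Fermat.Agent.LT.Descent.KirillovSeparation

set_option autoImplicit false

noncomputable section

namespace Fermat.Agent.LT.Descent

open MeasureTheory NumberField IsDedekindDomain
open Fermat.Agent.LT.Adelic Fermat.Agent.LT.Spectral

variable {K : Type*} [Field K] [NumberField K] {ι : Type*} [Fintype ι] [DecidableEq ι]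
  {Φ : Frame K ι} {S : Set (HeightOneSpectrum (𝓞 K))} {a : HeightOneSpectrum (𝓞 K) → ℂ}
  {U : Subgroup (GfK K)} {n : 𝓞 K}

/-- **The forms of a level are finite dimensional.** -/
theorem finiteDimensional_fixedVectors (hS : S.Finite) (hn : SupportedIn S n)
    (hnU : principalLevel K n ≤ U) (hU1 : U ≤ principalLevel K (1 : 𝓞 K)) :
    FiniteDimensional ℂ (fixedVectors (translateRep Φ S a hS) (supLevel S U)) := by
  have hU : IsLevel U := ⟨n, hn.1, hnU, hU1⟩
  have := countable_yf hU
  obtain ⟨D⟩ := nonempty_quotData (Φ := Φ) hU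
  obtain ⟨k₀, hlip, hks, hμ⟩ := exists_profile
  have hL : LipschitzWith 1 fun u => (k₀ u : ℂ) := by
    simpa [Function.comp_def] using Complex.isometry_ofReal.lipschitz.comp hlip
  have hk : IsLipKernel fun _ : ι => profKer hlip.continuous hks :=
    isLipKernel_ofProfile hL (hks.comp_left Complex.ofReal_zero)
  obtain ⟨C, hC⟩ := exists_hasPointBound (D := D) hk (HKer.id U)
  exact finiteDimensional_level hS hlip.continuous hks D hμ hC hn hnU hU1

/-- **The forms of a level are irreducible.** -/
theorem eq_of_isStableOn_level (hS : S.Finite) (hn : SupportedIn S n)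
    (hnU : principalLevel K n ≤ U)
    {e : sForms Φ S a →ₗ[ℂ] sForms Φ S a}
    (he : IsLevelProj (translateRep Φ S a hS) e
      (fixedVectors (translateRep Φ S a hS) (supLevel S U)))
    {N : Submodule ℂ (sForms Φ S a)}
    (hle : N ≤ fixedVectors (translateRep Φ S a hS) (supLevel S U)) (hN0 : N ≠ ⊥)
    (hN : IsStableOn (translateRep Φ S a hS) e Set.univ N) :
    N = fixedVectors (translateRep Φ S a hS) (supLevel S U) := by
  refine CoeffData.eq_of_stable hS he (fun v => ?_) (coeffData Φ S a) hle hN0 hN
  obtain ⟨m, hm, hinv⟩ := v.2.smooth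
  have hnm : SupportedIn S (n * m) := ⟨mul_ne_zero hn.1 hm.1, fun w hw => by
    rw [map_mul, hn.2 w hw, hm.2 w hw, one_mul]⟩
  set U' := principalLevel K (n * m)
  have hU'1 : U' ≤ principalLevel K (1 : 𝓞 K) := principalLevel_mono (one_dvd _)
  obtain ⟨e', hproj, he'⟩ :=
    exists_isLevelProj_translateRep (Φ := Φ) (a := a) hS hnm le_rfl hU'1
  have hU' : IsLevel U' := ⟨n * m, hnm.1, le_rfl, hU'1⟩
  have := countable_yf hU'
  obtain ⟨D⟩ := nonempty_quotData (Φ := Φ) hU'
  have := finiteDimensional_fixedVectors (Φ := Φ) (a := a) hS hnm le_rfl hU'1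
  refine ⟨e', _, hproj, fixedVectors_anti _ _ ?_, fun j hj => ?_, fun Q hQ hQst =>
    exists_stable_complement hS D hproj he' hQ hQst hnm le_rfl hU'1⟩
  · exact Subgroup.comap_mono ((principalLevel_mono (dvd_mul_right n m)).trans hnU)
  · exact Subtype.ext (funext fun τ => funext fun g =>
      hinv τ g _ (principalLevel_mono (dvd_mul_left m n) hj))

end Fermat.Agent.LT.Descent
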