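import Fermat.Agent.LT.Aleph.LocalAdele

/-!
# The Cartan decomposition at one place
-/

set_option autoImplicit false

noncomputable section

namespace Fermat.Agent.LT.Descent

open IsDedekindDomain IsDedekindDomain.HeightOneSpectrum Matrix
open Fermat.Agent.LT.Adelic Fermat.Agent.LT.Aleph
open scoped NumberField

variable {K : Type*} [Field K] [NumberField K] {v : HeightOneSpectrum (𝓞 K)}

/-- A swap or the identity, bringing the index `i` to `0`. -/
def toFirst (i : Fin 2) : GL (Fin 2) (v.adicCompletion K) := if i = 0 then 1 else swapUnip 0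

theorem isIntLocal_toFirst (i : Fin 2) : IsIntLocal (toFirst (v := v) i) := by
  unfold toFirst
  split
  · exact isIntLocal_one
  · exact isIntLocal_swapUnip (by rw [map_zero]; exact zero_le)

theorem isIntLocal_unip {t : v.adicCompletion K} (ht : Valued.v t ≤ 1) :
    IsIntLocal (unipotent t : GL (Fin 2) (v.adicCompletion K)) := by
  intro i j
  fin_cases i <;> fin_cases j <;> simp [unipotent, ht]

theorem isIntLocal_diag {u : (v.adicCompletion K)ˣ} (hu : Valued.v (u : v.adicCompletion K) = 1) :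
    IsIntLocal (diag2 u 1 : GL (Fin 2) (v.adicCompletion K)) := by
  intro i j
  fin_cases i <;> fin_cases j <;> simp [diag2, hu]

theorem toFirst_mul_apply (N : GL (Fin 2) (v.adicCompletion K)) (i j p q : Fin 2) :
    ((toFirst i * N * toFirst j : GL (Fin 2) (v.adicCompletion K)) :
      Matrix (Fin 2) (Fin 2) (v.adicCompletion K)) p q =
      (N : Matrix (Fin 2) (Fin 2) (v.adicCompletion K)) (if i = 0 then p else 1 - p)
        (if j = 0 then q else 1 - q) := by
  fin_cases i <;> fin_cases j <;> fin_cases p <;> fin_cases q <;>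
    simp [toFirst, swapUnip, Matrix.mul_apply, Fin.sum_univ_two, Matrix.vecMul, dotProduct]

/-- **Cartan decomposition.** -/
theorem exists_cartan (v : HeightOneSpectrum (𝓞 K)) {π : (v.adicCompletion K)ˣ}
    (hπ : Valued.v (π : v.adicCompletion K) = WithZero.exp (-1 : ℤ))
    (γ : GL (Fin 2) (v.adicCompletion K)) :
    ∃ (c : (v.adicCompletion K)ˣ) (m : ℕ) (k₁ k₂ : GL (Fin 2) (v.adicCompletion K)),
      IsIntLocal k₁ ∧ IsIntLocal k₂ ∧ γ = diag2 c c * k₁ * diag2 (π ^ m) 1 * k₂ := by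
  classical
  set G := (γ : Matrix (Fin 2) (Fin 2) (v.adicCompletion K)) with hG
  obtain ⟨⟨i, j⟩, -, hmax⟩ := Finset.exists_max_image (Finset.univ : Finset (Fin 2 × Fin 2))
    (fun p => Valued.v (G p.1 p.2)) Finset.univ_nonempty
  have hc : G i j ≠ 0 := fun h0 => γ.isUnit.ne_zero (Matrix.ext fun p q => by
    have := hmax (p, q) (Finset.mem_univ _)
    rw [h0, map_zero, le_zero_iff, map_eq_zero] at this
    exact this)
  set c : (v.adicCompletion K)ˣ := Units.mk0 _ hc
  have hle : ∀ p q, Valued.v ((G i j)⁻¹ * G p q) ≤ 1 := fun p q => by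
    rw [map_mul, map_inv₀, inv_mul_le_one₀ (zero_lt_iff.2 ((Valuation.ne_zero_iff _).2 hc))]
    exact hmax (p, q) (Finset.mem_univ _)
  set M : GL (Fin 2) (v.adicCompletion K) := toFirst i * (diag2 c⁻¹ c⁻¹ * γ) * toFirst j with hM
  have hsc : ∀ p q, ((diag2 c⁻¹ c⁻¹ * γ : GL (Fin 2) (v.adicCompletion K)) :
      Matrix (Fin 2) (Fin 2) (v.adicCompletion K)) p q = (G i j)⁻¹ * G p q := fun p q => by
    rw [Units.val_mul, ← hG, Matrix.mul_apply, Fin.sum_univ_two]
    fin_cases p <;> simp [c]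
  have hent : ∀ p q, (M : Matrix (Fin 2) (Fin 2) (v.adicCompletion K)) p q =
      (G i j)⁻¹ * G (if i = 0 then p else 1 - p) (if j = 0 then q else 1 - q) := fun p q => by
    rw [← hsc, hM, toFirst_mul_apply]
  have hM00 : (M : Matrix (Fin 2) (Fin 2) (v.adicCompletion K)) 0 0 = 1 := by
    rw [hent]
    have hk : ∀ k : Fin 2, (if k = 0 then (0 : Fin 2) else 1 - 0) = k := by decide
    rw [hk, hk, inv_mul_cancel₀ hc]
  have hMle : ∀ p q, Valued.v ((M : Matrix (Fin 2) (Fin 2) (v.adicCompletion K)) p q) ≤ 1 :=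
    fun p q => hent p q ▸ hle _ _
  set Mm := (M : Matrix (Fin 2) (Fin 2) (v.adicCompletion K)) with hMm
  set δ := Mm 1 1 - Mm 1 0 * Mm 0 1 with hδ
  have hδ0 : δ ≠ 0 := fun h0 => (Matrix.GeneralLinearGroup.det M).ne_zero (by
    rw [Matrix.GeneralLinearGroup.val_det_apply, ← hMm, Matrix.det_fin_two, hM00, one_mul, mul_comm]
    exact h0)
  have hδle : Valued.v δ ≤ 1 := (Valuation.map_sub _ _ _).trans (max_le (hMle 1 1) (by
    rw [map_mul]; exact mul_le_one' (hMle 1 0) (hMle 0 1)))
  obtain ⟨m, hm⟩ : ∃ m : ℕ, Valued.v δ = WithZero.exp (-(m : ℤ)) := by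
    have hv0 : Valued.v δ ≠ 0 := (Valuation.ne_zero_iff _).2 hδ0
    refine ⟨(-WithZero.log (Valued.v δ)).toNat, ?_⟩
    conv_lhs => rw [← WithZero.exp_log hv0]
    rw [← WithZero.exp_log hv0, ← WithZero.exp_zero, WithZero.exp_le_exp] at hδle
    congr 1
    omega
  set u : (v.adicCompletion K)ˣ := (π ^ m)⁻¹ * Units.mk0 δ hδ0
  have hu : Valued.v (u : v.adicCompletion K) = 1 := by
    rw [Units.val_mul, Units.val_inv_eq_inv_val, map_mul, map_inv₀, Units.val_pow_eq_pow_val,
      map_pow, hπ, Units.val_mk0, hm, ← WithZero.exp_nsmul, ← WithZero.exp_neg, ← WithZero.exp_add,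
      ← WithZero.exp_zero]
    congr 1
    simp
  have hw : IsIntLocal (swapUnip (0 : v.adicCompletion K)) :=
    isIntLocal_swapUnip (by rw [map_zero]; exact zero_le)
  refine ⟨c, m, toFirst i * lowerUnip (Mm 1 0) * swapUnip 0,
    diag2 u 1 * swapUnip 0 * unipotent (Mm 0 1) * toFirst j,
    ((isIntLocal_toFirst i).mul (isIntLocal_lowerUnip (hMle 1 0))).mul hw,
    (((isIntLocal_diag hu).mul hw).mul (isIntLocal_unip (hMle 0 1))).mul (isIntLocal_toFirst j), ?_⟩
  have e : lowerUnip (Mm 1 0) * swapUnip 0 * diag2 (π ^ m * u) 1 * swapUnip 0 *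
      unipotent (Mm 0 1) = M := by
    refine Units.ext (Matrix.ext fun p q => ?_)
    rw [show π ^ m * u = Units.mk0 δ hδ0 from mul_inv_cancel_left _ _]
    fin_cases p <;> fin_cases q <;>
      simp [lowerUnip, swapUnip, Matrix.mul_apply, Fin.sum_univ_two, hM00, hδ, ← hMm]
  have hinv : ∀ k : Fin 2, toFirst (v := v) k * toFirst k = 1 := fun k => by
    refine Units.ext (Matrix.ext fun p q => ?_)
    fin_cases k <;> fin_cases p <;> fin_cases q <;>
      simp [toFirst, swapUnip, Matrix.mul_apply, Fin.sum_univ_two]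
  have hd : ∀ x y : (v.adicCompletion K)ˣ,
      (diag2 x 1 : GL (Fin 2) (v.adicCompletion K)) * diag2 y 1 = diag2 (x * y) 1 := fun x y => by
    refine Units.ext (Matrix.ext fun p q => ?_)
    fin_cases p <;> fin_cases q <;> simp
  have hcc : (diag2 c c : GL (Fin 2) (v.adicCompletion K)) * diag2 c⁻¹ c⁻¹ = 1 := by
    refine Units.ext (Matrix.ext fun p q => ?_)
    fin_cases p <;> fin_cases q <;> simp
  have key : diag2 c c * (toFirst i * M * toFirst j) = γ := by
    rw [hM, show toFirst i * (toFirst i * (diag2 c⁻¹ c⁻¹ * γ) * toFirst j) * toFirst j =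
      (toFirst i * toFirst i) * (diag2 c⁻¹ c⁻¹ * γ) * (toFirst j * toFirst j) by
        simp only [mul_assoc], hinv, hinv, one_mul, mul_one, ← mul_assoc, hcc, one_mul]
  rw [← key, ← e, ← hd]
  simp only [mul_assoc]

end Fermat.Agent.LT.Descent

end
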