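/-
The level projection as the mean over an orbit of vectors.
-/
import Fermat.Agent.LT.Descent.Averaging

set_option autoImplicit false

noncomputable section

namespace Fermat.Agent.LT.Descent

variable {G V : Type*} [Group G] [AddCommGroup V] [Module ℂ V] {R : G →* (V →ₗ[ℂ] V)}
  {J : Subgroup G} {e : V →ₗ[ℂ] V}

theorem finite_range_of_isStab {H : Subgroup J} {v : V} (hv : IsStab R J H v) :
    (Set.range fun j : J => R (j : G) v).Finite := by
  have := hv.1
  refine (Set.finite_range fun q : J ⧸ H => R ((q.out : J) : G) v).subset ?_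
  rintro _ ⟨j, rfl⟩
  exact ⟨(j : J ⧸ H), apply_out_of_isStab hv j⟩

/-- The average is the mean over the distinct translates. -/
theorem levelProj_eq_orbit (he : ∀ v H, IsStab R J H v → e v = avgOver R J H v) {v : V}
    {H : Subgroup J} (hv : IsStab R J H v) :
    e v = ((finite_range_of_isStab hv).toFinset.card : ℂ)⁻¹ •
      ∑ w ∈ (finite_range_of_isStab hv).toFinset, w := by
  classical
  let A : Subgroup J :=
    { carrier := {j | R (j : G) v = v}
      one_mem' := by simp
      mul_mem' := fun {a b} ha hb => by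
        simp only [Set.mem_ofPred_eq] at ha hb ⊢
        rw [Subgroup.coe_mul, map_mul, Module.End.mul_apply, hb, ha]
      inv_mem' := fun {a} ha => by
        simp only [Set.mem_ofPred_eq] at ha ⊢
        conv_lhs => rw [← ha]
        rw [← Module.End.mul_apply, ← map_mul, Subgroup.coe_inv, inv_mul_cancel, map_one]
        rfl }
  have hA : A.FiniteIndex :=
    haveI := hv.1
    Subgroup.finiteIndex_of_le (H := H) fun h hh => hv.2 h hh
  have hAv : IsStab R J A v := ⟨hA, fun h hh => hh⟩
  have := Fintype.ofFinite (J ⧸ A)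
  have hinj : Function.Injective fun q : J ⧸ A => R ((q.out : J) : G) v := by
    intro p q hpq
    induction p using QuotientGroup.induction_on with
    | _ x =>
      induction q using QuotientGroup.induction_on with
      | _ y =>
        simp only [apply_out_of_isStab hAv] at hpq
        refine QuotientGroup.eq.2 ?_
        show R ((x⁻¹ * y : J) : G) v = v
        rw [Subgroup.coe_mul, map_mul, Module.End.mul_apply, ← hpq, ← Module.End.mul_apply,
          ← map_mul, Subgroup.coe_inv, inv_mul_cancel, map_one]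
        rfl
  have himage : (finite_range_of_isStab hv).toFinset =
      (Finset.univ : Finset (J ⧸ A)).image fun q => R ((q.out : J) : G) v := by
    ext w
    simp only [Set.Finite.mem_toFinset, Set.mem_range, Finset.mem_image, Finset.mem_univ, true_and]
    exact ⟨fun ⟨j, hj⟩ => ⟨(j : J ⧸ A), (apply_out_of_isStab hAv j).trans hj⟩,
      fun ⟨q, hq⟩ => ⟨q.out, hq⟩⟩
  rw [he v A hAv, avgOver_eq hA, himage, Finset.card_image_of_injective _ hinj, Finset.card_univ,
    Finset.sum_image fun a _ b _ h => hinj h]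

/-- The projection absorbs translations of the level. -/
theorem levelProj_left (he : ∀ v H, IsStab R J H v → e v = avgOver R J H v)
    (hsm : ∀ v, ∃ H : Subgroup J, IsStab R J H v) {j : G} (hj : j ∈ J) (v : V) :
    e (R j v) = e v := by
  obtain ⟨H, hH⟩ := hsm v
  obtain ⟨H', hH'⟩ := hsm (R j v)
  have hset : (finite_range_of_isStab hH').toFinset = (finite_range_of_isStab hH).toFinset := by
    ext w
    simp only [Set.Finite.mem_toFinset, Set.mem_range]
    constructor
    · rintro ⟨i, rfl⟩
      exact ⟨i * ⟨j, hj⟩, by rw [Subgroup.coe_mul, map_mul]; rfl⟩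
    · rintro ⟨i, rfl⟩
      exact ⟨i * ⟨j, hj⟩⁻¹, by
        rw [← Module.End.mul_apply, ← map_mul, Subgroup.coe_mul, Subgroup.coe_inv,
          inv_mul_cancel_right]⟩
  rw [levelProj_eq_orbit he hH', levelProj_eq_orbit he hH, hset]

/-- The smaller level averages the same when it moves the vector as much. -/
theorem levelProj_eq_of_cover {J₀ : Subgroup G} {e₀ : V →ₗ[ℂ] V} (hle : J ≤ J₀)
    (he : ∀ v H, IsStab R J H v → e v = avgOver R J H v)
    (he₀ : ∀ v H, IsStab R J₀ H v → e₀ v = avgOver R J₀ H v) {v : V} {H : Subgroup J}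
    {H₀ : Subgroup J₀} (hv : IsStab R J H v) (hv₀ : IsStab R J₀ H₀ v)
    (hcover : ∀ k ∈ J₀, ∃ j ∈ J, R k v = R j v) : e v = e₀ v := by
  have hset : (finite_range_of_isStab hv).toFinset = (finite_range_of_isStab hv₀).toFinset := by
    ext w
    simp only [Set.Finite.mem_toFinset, Set.mem_range]
    constructor
    · rintro ⟨i, rfl⟩
      exact ⟨⟨i, hle i.2⟩, rfl⟩
    · rintro ⟨k, rfl⟩
      obtain ⟨j, hj, hkj⟩ := hcover k k.2
      exact ⟨⟨j, hj⟩, hkj.symm⟩
  rw [levelProj_eq_orbit he hv, levelProj_eq_orbit he₀ hv₀, hset]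

/-- Compressed translations multiply when the level splits between them. -/
theorem levelProj_mul_of_split (he : ∀ v H, IsStab R J H v → e v = avgOver R J H v)
    (hsm : ∀ v, ∃ H : Subgroup J, IsStab R J H v) {x y : G} {v : V} (hv : v ∈ fixedVectors R J)
    (hsplit : ∀ j ∈ J, ∃ j₁ ∈ J, ∃ j₂ ∈ J, x * j * y = j₁ * (x * y) * j₂) :
    e (R x (e (R y v))) = e (R (x * y) v) := by
  obtain ⟨H, hH⟩ := hsm (R y v)
  have := hH.1
  have := Fintype.ofFinite (J ⧸ H)
  have hterm : ∀ j : J, e (R x (R (j : G) (R y v))) = e (R (x * y) v) := fun j => by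
    obtain ⟨j₁, hj₁, j₂, hj₂, h⟩ := hsplit j j.2
    rw [show R x (R (j : G) (R y v)) = R (x * j * y) v by rw [map_mul, map_mul]; rfl, h, map_mul,
      map_mul,
      Module.End.mul_apply, Module.End.mul_apply, hv j₂ hj₂, levelProj_left he hsm hj₁]
  rw [he _ H hH, avgOver_eq hH.1, map_smul, map_sum, map_smul, map_sum,
    Finset.sum_congr rfl fun q _ => hterm q.out, Finset.sum_const, Finset.card_univ,
    ← Nat.cast_smul_eq_nsmul ℂ, smul_smul, inv_mul_cancel₀ (Nat.cast_ne_zero.2 Fintype.card_ne_zero),
    one_smul]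

end Fermat.Agent.LT.Descent
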