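/-
The torus levels at the tame places: the forms of a torus level are spherical there, eigen for
every double coset, so the level is irreducible under the remaining places.
-/
import Fermat.Agent.LT.Descent.OrbitAverage
import Fermat.Agent.LT.Descent.SFormLevels
import Fermat.Agent.LT.Descent.LevelVectors
import Fermat.Agent.LT.Descent.CartanLocal
import Fermat.Agent.LT.Aleph.HeckeCoset
import Fermat.Agent.LT.Tame.AdelicLevel

set_option autoImplicit false

noncomputable section

namespace Fermat.Agent.LT.Descent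

open IsDedekindDomain NumberField Matrix Filter
open Fermat.Agent.LT.Adelic Fermat.Agent.LT.Aleph Fermat.Agent.LT.Tame
open Fermat.Agent.LT.RankinSelberg (nbrMatrix localShift valued_localShift_le localShift_apply_of_ne
  compAt_nbrMatrix_of_ne)

variable {K : Type*} [Field K] [NumberField K] {S : Set (HeightOneSpectrum (𝓞 K))}

open Classical in
theorem eventually_isIntLocal_update (v : HeightOneSpectrum (𝓞 K))
    (γ : GL (Fin 2) (v.adicCompletion K)) : ∀ᶠ w in cofinite, IsIntLocal
      (Function.update (fun w : HeightOneSpectrum (𝓞 K) => (1 : GL (Fin 2) (w.adicCompletion K)))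
        v γ w) := by
  refine (Set.finite_singleton v).eventually_cofinite_notMem.mono fun w hw => ?_
  rw [Function.update_of_ne (by simpa using hw)]
  exact isIntLocal_one

open Classical in
/-- The element with one local component. -/
def gfAt {v : HeightOneSpectrum (𝓞 K)} (hv : v ∈ S) :
    GL (Fin 2) (v.adicCompletion K) →* gfSupported S where
  toFun γ := ⟨gfOfFamily K
      (Function.update (fun w : HeightOneSpectrum (𝓞 K) => (1 : GL (Fin 2) (w.adicCompletion K))) v γ)
      (eventually_isIntLocal_update v γ),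
    fun w hw => by
      rw [localGL_gfOfFamily, Function.update_of_ne (by rintro rfl; exact hw hv)]⟩
  map_one' := Subtype.ext (Aleph.gf_ext fun w => by
    simp only [Subgroup.coe_one, map_one, localGL_gfOfFamily]
    by_cases h : w = v
    · subst h; rw [Function.update_self]
    · rw [Function.update_of_ne h])
  map_mul' a b := Subtype.ext (Aleph.gf_ext fun w => by
    simp only [Subgroup.coe_mul, map_mul, localGL_gfOfFamily]
    by_cases h : w = v
    · subst h; simp only [Function.update_self]
    · simp only [Function.update_of_ne h, one_mul])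

theorem localGL_gfAt_self {v : HeightOneSpectrum (𝓞 K)} (hv : v ∈ S)
    (γ : GL (Fin 2) (v.adicCompletion K)) : localGL K v (gfAt hv γ : GfK K) = γ := by
  classical
  show localGL K v (gfOfFamily K _ (eventually_isIntLocal_update v γ)) = γ
  rw [localGL_gfOfFamily, Function.update_self]

theorem localGL_gfAt_ne {v w : HeightOneSpectrum (𝓞 K)} (hv : v ∈ S) (h : w ≠ v)
    (γ : GL (Fin 2) (v.adicCompletion K)) : localGL K w (gfAt hv γ : GfK K) = 1 := by
  classical
  show localGL K w (gfOfFamily K _ (eventually_isIntLocal_update v γ)) = 1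
  rw [localGL_gfOfFamily, Function.update_of_ne h]

/-- The part of an element over a set of places. -/
theorem exists_part (A : Set (HeightOneSpectrum (𝓞 K))) (x : gfSupported S) :
    ∃ xA : gfSupported S, (∀ v ∈ A, localGL K v (xA : GfK K) = localGL K v (x : GfK K)) ∧
      ∀ v ∉ A, localGL K v (xA : GfK K) = 1 := by
  classical
  refine ⟨⟨gfOfFamily K (fun v => if v ∈ A then localGL K v (x : GfK K) else 1)
    ((eventually_isIntLocal (x : GfK K)).mono fun v hv => ?_), fun v hv => ?_⟩, fun v hv => ?_,
    fun v hv => ?_⟩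
  · split
    · exact hv
    · exact isIntLocal_one
  · rw [localGL_gfOfFamily, x.2 v hv]; simp
  · rw [localGL_gfOfFamily, if_pos hv]
  · rw [localGL_gfOfFamily, if_neg hv]

variable {P : Set (HeightOneSpectrum (𝓞 K))}
  {V : ∀ v : HeightOneSpectrum (𝓞 K), Subgroup (GL (Fin 2) (v.adicCompletion K))}

open Classical in
variable (P V) in
/-- The levels made full at `P`. -/
def fullAt : ∀ v : HeightOneSpectrum (𝓞 K), Subgroup (GL (Fin 2) (v.adicCompletion K)) :=
  fun v => if v ∈ P then localFull K v else V v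

theorem fullAt_of_mem {v : HeightOneSpectrum (𝓞 K)} (h : v ∈ P) :
    fullAt P V v = localFull K v := if_pos h

theorem fullAt_of_notMem {v : HeightOneSpectrum (𝓞 K)} (h : v ∉ P) : fullAt P V v = V v :=
  if_neg h

theorem fullAt_le (hV : ∀ v, V v ≤ localFull K v) (v : HeightOneSpectrum (𝓞 K)) :
    fullAt P V v ≤ localFull K v := by
  by_cases h : v ∈ P
  · rw [fullAt_of_mem h]
  · rw [fullAt_of_notMem h]; exact hV v

theorem le_fullAt (hV : ∀ v, V v ≤ localFull K v) (v : HeightOneSpectrum (𝓞 K)) :
    V v ≤ fullAt P V v := by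
  by_cases h : v ∈ P
  · rw [fullAt_of_mem h]; exact hV v
  · rw [fullAt_of_notMem h]

theorem supLevel_le_fullAt (hV : ∀ v, V v ≤ localFull K v) :
    supLevel S (productLevel V) ≤ supLevel S (productLevel (fullAt P V)) := fun _ hx =>
  mem_supLevel.2 ((mem_productLevel _).2 fun v =>
    le_fullAt hV v ((mem_productLevel _).1 (mem_supLevel.1 hx) v))

variable {ι : Type*} [Fintype ι] [DecidableEq ι] {Φ : Frame K ι}
  {a : HeightOneSpectrum (𝓞 K) → ℂ} (hS : S.Finite)

/-- Scalars act trivially. -/
theorem translateRep_gfAt_scalar {v : HeightOneSpectrum (𝓞 K)} (hv : v ∈ S)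
    (c : (v.adicCompletion K)ˣ) (ψ : sForms Φ S a) : translateRep Φ S a hS (gfAt hv (diag2 c c)) ψ = ψ := by
  set u := GeneralLinearGroup.det (gfAt hv (diag2 c 1) : GfK K)
  have he : (gfAt hv (diag2 c c) : GfK K) = scalarHom (𝓞 K) K u := by
    refine Aleph.gf_ext fun w => ?_
    have hu : (u : FiniteAdeleRing (𝓞 K) K) w =
        (localGL K w (gfAt hv (diag2 c 1) : GfK K) :
          Matrix (Fin 2) (Fin 2) (w.adicCompletion K)).det := by
      rw [GeneralLinearGroup.val_det_apply]
      exact RingHom.map_det (evalAt K w) (gfAt hv (diag2 c 1) : GfK K).val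
    have hs : ∀ i j, (localGL K w (scalarHom (𝓞 K) K u) :
        Matrix (Fin 2) (Fin 2) (w.adicCompletion K)) i j =
        if i = j then (u : FiniteAdeleRing (𝓞 K) K) w else 0 := fun i j => by
      rw [localGL_apply]
      fin_cases i <;> fin_cases j <;> simp [scalarHom, coe_apply_zero]
    refine Units.ext (Matrix.ext fun i j => ?_)
    rw [hs, hu]
    by_cases hw : w = v
    · subst hw
      rw [localGL_gfAt_self, localGL_gfAt_self]
      fin_cases i <;> fin_cases j <;> simp [Matrix.det_fin_two]
    · rw [localGL_gfAt_ne hv hw, localGL_gfAt_ne hv hw]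
      fin_cases i <;> fin_cases j <;> simp
  exact Subtype.ext (funext fun τ => funext fun g => ψ.2.center τ g _ ⟨u, he.symm⟩)

variable {e e₀ : sForms Φ S a →ₗ[ℂ] sForms Φ S a} {n : 𝓞 K} (hV : ∀ v, V v ≤ localFull K v)
  (he : ∀ v H, IsStab (translateRep Φ S a hS) (supLevel S (productLevel V)) H v →
    e v = avgOver (translateRep Φ S a hS) (supLevel S (productLevel V)) H v)
  (he₀ : ∀ v H, IsStab (translateRep Φ S a hS) (supLevel S (productLevel (fullAt P V))) H v →
    e₀ v = avgOver (translateRep Φ S a hS) (supLevel S (productLevel (fullAt P V))) H v)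

include hV he in
/-- Elements at disjoint sets of places multiply. -/
theorem levelProj_mul_of_disjoint (A : Set (HeightOneSpectrum (𝓞 K))) {x y : gfSupported S}
    (hx : ∀ v ∉ A, localGL K v (x : GfK K) = 1) (hy : ∀ v ∈ A, localGL K v (y : GfK K) = 1)
    {ψ : sForms Φ S a} (hψ : ψ ∈ fixedVectors (translateRep Φ S a hS) (supLevel S (productLevel V))) :
    e (translateRep Φ S a hS x (e (translateRep Φ S a hS y ψ))) = e (translateRep Φ S a hS (x * y) ψ) := by
  refine levelProj_mul_of_split he
    (exists_isStab_translateRep hS (productLevel_le hV)) hψ fun j hj => ?_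
  have hj' := (mem_productLevel _).1 (mem_supLevel.1 hj)
  obtain ⟨jA, hjA, hjA'⟩ := exists_part A j
  obtain ⟨jB, hjB, hjB'⟩ := exists_part Aᶜ j
  refine ⟨jB, mem_supLevel.2 ((mem_productLevel _).2 fun v => ?_), jA,
    mem_supLevel.2 ((mem_productLevel _).2 fun v => ?_), Subtype.ext (Aleph.gf_ext fun v => ?_)⟩
  · by_cases hv : v ∈ A
    · rw [hjB' v (not_not.2 hv)]; exact one_mem _
    · rw [hjB v hv]; exact hj' v
  · by_cases hv : v ∈ A
    · rw [hjA v hv]; exact hj' v
    · rw [hjA' v hv]; exact one_mem _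
  · simp only [Subgroup.coe_mul, map_mul]
    by_cases hv : v ∈ A
    · rw [hjB' v (not_not.2 hv), hjA v hv, hy v hv, one_mul, mul_one, mul_one]
    · rw [hjB v hv, hjA' v hv, hx v hv, mul_one, one_mul, one_mul]

variable (htrans : ∀ v ∈ P, ∀ g k : GL (Fin 2) (v.adicCompletion K), IsIntLocal k →
    ∃ j ∈ V v, IsIntLocal ((j * g)⁻¹ * (k * g)))
  (hPS : P ⊆ S)

include hV he he₀ htrans hPS in
/-- **The torus orbits are the spherical orbits.** -/
theorem levelProj_eq_full {ψ : sForms Φ S a}
    (hψ : ψ ∈ fixedVectors (translateRep Φ S a hS) (supLevel S (productLevel (fullAt P V)))) (g : gfSupported S) :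
    e (translateRep Φ S a hS g ψ) = e₀ (translateRep Φ S a hS g ψ) := by
  classical
  obtain ⟨H, hH⟩ := exists_isStab_translateRep hS (productLevel_le hV) (translateRep Φ S a hS g ψ)
  obtain ⟨H₀, hH₀⟩ := exists_isStab_translateRep hS
    (productLevel_le (fullAt_le (P := P) hV)) (translateRep Φ S a hS g ψ)
  refine levelProj_eq_of_cover (supLevel_le_fullAt hV) he he₀ hH hH₀ fun k hk => ?_
  have hk' := (mem_productLevel _).1 (mem_supLevel.1 hk)
  have hloc : ∀ v, ∃ j ∈ V v, (j * localGL K v (g : GfK K))⁻¹ *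
      (localGL K v (k : GfK K) * localGL K v (g : GfK K)) ∈ fullAt P V v ∧
      (v ∉ P → j = localGL K v (k : GfK K)) := fun v => by
    by_cases hv : v ∈ P
    · have hkv := hk' v
      rw [fullAt_of_mem hv] at hkv
      obtain ⟨j, hj, hji⟩ := htrans v hv (localGL K v (g : GfK K)) _ hkv
      exact ⟨j, hj, by rw [fullAt_of_mem hv]; exact hji, fun h => absurd hv h⟩
    · refine ⟨_, by rw [← fullAt_of_notMem (V := V) hv]; exact hk' v, ?_, fun _ => rfl⟩
      rw [inv_mul_cancel]; exact one_mem _
  choose j hj hji hjk using hloc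
  set j' : gfSupported S := ⟨gfOfFamily K j (Eventually.of_forall fun v => hV v (hj v)),
    fun v hv => by
      rw [localGL_gfOfFamily, hjk v fun h => hv (hPS h)]
      exact k.2 v hv⟩
  refine ⟨j', mem_supLevel.2 ((mem_productLevel _).2 fun v => by
    rw [show localGL K v (j' : GfK K) = j v from
      localGL_gfOfFamily j (Eventually.of_forall fun v => hV v (hj v)) v]; exact hj v), ?_⟩
  have hu : (j' * g)⁻¹ * (k * g) ∈ supLevel S (productLevel (fullAt P V)) :=
    mem_supLevel.2 ((mem_productLevel _).2 fun v => by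
      simp only [Subgroup.coe_mul, Subgroup.coe_inv, map_mul, map_inv]
      rw [show localGL K v (j' : GfK K) = j v from
      localGL_gfOfFamily j (Eventually.of_forall fun v => hV v (hj v)) v]
      exact hji v)
  calc translateRep Φ S a hS k (translateRep Φ S a hS g ψ) = translateRep Φ S a hS (j' * g) (translateRep Φ S a hS ((j' * g)⁻¹ * (k * g)) ψ) := by
        rw [← Module.End.mul_apply, ← map_mul, ← Module.End.mul_apply, ← map_mul,
          mul_inv_cancel_left]
    _ = translateRep Φ S a hS j' (translateRep Φ S a hS g ψ) := by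
        rw [hψ _ hu, map_mul, Module.End.mul_apply]

include hV he₀ in
/-- **A spherical eigenvector at `v` is eigen for every double coset at `v`.** -/
theorem exists_levelProj_gfAt_eq {φ : sForms Φ S a}
    (hφ : φ ∈ fixedVectors (translateRep Φ S a hS) (supLevel S (productLevel (fullAt P V))))
    {v : HeightOneSpectrum (𝓞 K)} (hvP : v ∈ P) (hv : v ∈ S)
    {ϖ : (FiniteAdeleRing (𝓞 K) K)ˣ} (hϖ : IsUniformiserAt v ϖ) {c : ℂ}
    (hc : ∀ τ g, ∑ᶠ o, φ.1 τ (g * nbrMatrix v ϖ o) = c * φ.1 τ g)
    (γ : GL (Fin 2) (v.adicCompletion K)) :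
    ∃ d : ℂ, e₀ (translateRep Φ S a hS (gfAt hv γ) φ) = d • φ := by
  classical
  have hsm := exists_isStab_translateRep (Φ := Φ) (a := a) hS
    (productLevel_le (fullAt_le (P := P) hV))
  have hint : ∀ k, IsIntLocal k → gfAt hv k ∈ supLevel S (productLevel (fullAt P V)) := fun k hk =>
    mem_supLevel.2 ((mem_productLevel _).2 fun w => by
      by_cases hw : w = v
      · subst hw; rw [localGL_gfAt_self, fullAt_of_mem hvP]; exact hk
      · rw [localGL_gfAt_ne hv hw]; exact one_mem _)
  set f : GL (Fin 2) (v.adicCompletion K) → sForms Φ S a := fun x => e₀ (translateRep Φ S a hS (gfAt hv x) φ) with hf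
  have hfl : ∀ k x, IsIntLocal k → f (k * x) = f x := fun k x hk => by
    simp only [hf, map_mul, Module.End.mul_apply]
    exact levelProj_left he₀ hsm (hint k hk) _
  have hfr : ∀ x k, IsIntLocal k → f (x * k) = f x := fun x k hk => by
    simp only [hf, map_mul, Module.End.mul_apply]
    rw [hφ _ (hint k hk)]
  have hfs : ∀ (s : (v.adicCompletion K)ˣ) x, f (diag2 s s * x) = f x := fun s x => by
    simp only [hf, map_mul, Module.End.mul_apply]
    rw [translateRep_gfAt_scalar hS hv]
  have hπ0 : (ϖ : FiniteAdeleRing (𝓞 K) K) v ≠ 0 := fun h => by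
    have := hϖ.1; rw [h, map_zero] at this; exact WithZero.exp_ne_zero this.symm
  set π : (v.adicCompletion K)ˣ := Units.mk0 _ hπ0
  have hπ : Valued.v (π : v.adicCompletion K) = WithZero.exp (-1 : ℤ) := hϖ.1
  set dk : ℕ → GL (Fin 2) (v.adicCompletion K) := fun m => diag2 (π ^ m) 1
  have hnbr : ∀ o, ∃ γo : GL (Fin 2) (v.adicCompletion K),
      (gfAt hv γo : GfK K) = nbrMatrix v ϖ o ∧
      match o with
      | none => γo = diag2 1 π
      | some q => ∃ t : v.adicCompletion K, Valued.v t ≤ 1 ∧ γo = unipotent t * diag2 π 1 := by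
    intro o
    refine ⟨localGL K v (nbrMatrix v ϖ o), Aleph.gf_ext fun w => ?_, ?_⟩
    · by_cases hw : w = v
      · subst hw; rw [localGL_gfAt_self]
      · rw [localGL_gfAt_ne hv hw]
        exact (compAt_nbrMatrix_of_ne hϖ hw o).symm
    · rcases o with _ | q
      · apply Units.ext; ext i j
        rw [localGL_apply]
        fin_cases i <;> fin_cases j <;>
          simp [nbrMatrix, π, coe_apply_one, coe_apply_zero]
      · refine ⟨localShift ϖ q.out v, valued_localShift_le hϖ _, ?_⟩
        apply Units.ext; ext i j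
        rw [localGL_apply]
        fin_cases i <;> fin_cases j <;>
          simp [nbrMatrix, heckeMatrix, π, Matrix.mul_apply, Fin.sum_univ_two, coe_apply_one,
            coe_apply_zero]
  choose γo hγo hγform using hnbr
  have := finite_nbrIndex v
  have : Finite (𝓞 K ⧸ v.asIdeal) := Ring.HasFiniteQuotients.finiteQuotient v.ne_bot
  have := Fintype.ofFinite (𝓞 K ⧸ v.asIdeal)
  have hsum : ∑ o, translateRep Φ S a hS (gfAt hv (γo o)) φ = c • φ := by
    refine Subtype.ext (funext fun τ => funext fun g => ?_)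
    simp only [AddSubmonoidClass.coe_finsetSum, Finset.sum_apply, SetLike.val_smul, Pi.smul_apply,
      smul_eq_mul, translateRep_apply, hγo]
    rw [← hc τ g, finsum_eq_sum_of_fintype]
  have hrec : ∀ m, ∑ o, f (dk m * γo o) = c • f (dk m) := fun m => by
    simp only [hf, map_mul, Module.End.mul_apply]
    rw [← map_sum, ← map_sum, hsum, map_smul, map_smul]
  have hsome : ∀ m q, f (dk m * γo (some q)) = f (dk (m + 1)) := fun m q => by
    obtain ⟨t, ht, he'⟩ := hγform (some q)
    have e1 : dk m * γo (some q) =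
        unipotent ((π : v.adicCompletion K) ^ m * t) * dk (m + 1) := by
      rw [he']
      apply Units.ext
      ext i j; fin_cases i <;> fin_cases j <;>
        simp [dk, Matrix.mul_apply, Fin.sum_univ_two, pow_succ]
    rw [e1, hfl _ _ (Aleph.isIntLocal_unipotent ?_)]
    rw [map_mul, map_pow, hπ]
    exact mul_le_one' (pow_le_one' (by rw [← WithZero.exp_zero, WithZero.exp_le_exp]; norm_num) m) ht
  have hnone : ∀ m, f (dk (m + 1) * γo none) = f (dk m) := fun m => by
    rw [show γo none = diag2 1 π from hγform none, show dk (m + 1) * diag2 1 π =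
      diag2 π π * dk m by
        apply Units.ext
        ext i j; fin_cases i <;> fin_cases j <;>
          simp [dk, Matrix.mul_apply, Fin.sum_univ_two, pow_succ, mul_comm], hfs]
  have hnone0 : f (dk 0 * γo none) = f (dk 1) := by
    rw [show γo none = diag2 1 π from hγform none, show dk 0 * diag2 1 π =
      weyl * dk 1 * (weyl : GL (Fin 2) (v.adicCompletion K))⁻¹ by
        rw [eq_mul_inv_iff_mul_eq]
        apply Units.ext
        ext i j; fin_cases i <;> fin_cases j <;>
          simp [dk, Matrix.mul_apply, Fin.sum_univ_two], hfr _ _ Aleph.isIntLocal_weyl.inv,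
      hfl _ _ Aleph.isIntLocal_weyl]
  set q : ℂ := (Fintype.card (𝓞 K ⧸ v.asIdeal) : ℂ)
  have hq : q ≠ 0 := Nat.cast_ne_zero.2 Fintype.card_ne_zero
  have hφe : f (dk 0) = φ := by
    simp only [hf, dk, pow_zero, show (diag2 (1 : (v.adicCompletion K)ˣ) 1) = 1 by
      apply Units.ext; ext i j; fin_cases i <;> fin_cases j <;> simp, map_one,
      Module.End.one_apply]
    have hstab : IsStab (translateRep Φ S a hS) (supLevel S (productLevel (fullAt P V))) ⊤ φ :=
      ⟨inferInstance, fun h _ => hφ h h.2⟩
    have := Fintype.ofFinite (supLevel S (productLevel (fullAt P V)) ⧸ (⊤ : Subgroup _))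
    rw [he₀ φ ⊤ hstab, avgOver_eq hstab.1, Finset.sum_congr rfl fun q _ => hφ _ q.out.2,
      Finset.sum_const, Finset.card_univ, ← Nat.cast_smul_eq_nsmul ℂ, smul_smul,
      inv_mul_cancel₀ (Nat.cast_ne_zero.2 Fintype.card_ne_zero), one_smul]
  have hm : ∀ m, ∃ d : ℂ, f (dk m) = d • φ := by
    intro m
    induction m using Nat.strong_induction_on with
    | _ m ih =>
      match m with
      | 0 => exact ⟨1, by rw [hφe, one_smul]⟩
      | 1 =>
        have h := hrec 0
        rw [Fintype.sum_option, hnone0, Finset.sum_congr rfl fun q _ => hsome 0 q, Finset.sum_const,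
          Finset.card_univ, ← Nat.cast_smul_eq_nsmul ℂ, hφe] at h
        change f (dk 1) + q • f (dk 1) = _ at h
        have h1 : (1 + q) ≠ 0 := by
          show (1 : ℂ) + (Fintype.card (𝓞 K ⧸ v.asIdeal) : ℂ) ≠ 0
          exact_mod_cast Nat.succ_ne_zero _ ∘ (fun h => by rw [Nat.succ_eq_one_add]; exact h)
        refine ⟨(1 + q)⁻¹ * c, ?_⟩
        rw [mul_smul, ← h, show f (dk 1) + q • f (dk 1) = (1 + q) • f (dk 1) by
          rw [add_smul, one_smul], smul_smul, inv_mul_cancel₀ h1, one_smul]
      | m + 2 =>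
        obtain ⟨d₀, h₀⟩ := ih m (by omega)
        obtain ⟨d₁, h₁⟩ := ih (m + 1) (by omega)
        have h := hrec (m + 1)
        rw [Fintype.sum_option, hnone, Finset.sum_congr rfl fun q _ => hsome (m + 1) q,
          Finset.sum_const, Finset.card_univ, ← Nat.cast_smul_eq_nsmul ℂ, h₀, h₁] at h
        change d₀ • φ + q • f (dk (m + 2)) = _ at h
        refine ⟨q⁻¹ * (c * d₁ - d₀), ?_⟩
        rw [mul_smul, sub_smul, mul_smul, ← h, add_sub_cancel_left, smul_smul, inv_mul_cancel₀ hq,
          one_smul]
  obtain ⟨s, m, k₁, k₂, hk₁, hk₂, rfl⟩ := exists_cartan v hπ γ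
  obtain ⟨d, hd⟩ := hm m
  refine ⟨d, ?_⟩
  show f (diag2 s s * k₁ * dk m * k₂) = _
  rw [hfr _ _ hk₂, mul_assoc, hfs, hfl _ _ hk₁, hd]

variable {φ : sForms Φ S a}
  (hφ : φ ∈ fixedVectors (translateRep Φ S a hS) (supLevel S (productLevel (fullAt P V))))
  (heig : ∀ v ∈ P, ∃ (ϖ : (FiniteAdeleRing (𝓞 K) K)ˣ) (c : ℂ), IsUniformiserAt v ϖ ∧
    ∀ τ g, ∑ᶠ o, φ.1 τ (g * nbrMatrix v ϖ o) = c * φ.1 τ g)

include hV he he₀ htrans hPS hφ heig in
/-- **Eigen for every double coset at `P`.** -/
theorem exists_levelProj_eq_smul {t : gfSupported S}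
    (ht : ∀ v ∉ P, localGL K v (t : GfK K) = 1) : ∃ d : ℂ, e (translateRep Φ S a hS t φ) = d • φ := by
  classical
  have hφV : φ ∈ fixedVectors (translateRep Φ S a hS) (supLevel S (productLevel V)) :=
    fixedVectors_anti _ _ (supLevel_le_fullAt hV) hφ
  have main : ∀ (A : Finset (HeightOneSpectrum (𝓞 K))), (∀ v ∈ A, v ∈ P) →
      ∀ t : gfSupported S, (∀ v ∉ A, localGL K v (t : GfK K) = 1) →
        ∃ d : ℂ, e (translateRep Φ S a hS t φ) = d • φ := by
    intro A
    induction A using Finset.induction_on with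
    | empty =>
      intro _ t ht
      have h1 : t = 1 := Subtype.ext (Aleph.gf_ext fun v => by
        rw [Subgroup.coe_one, map_one]; exact ht v (Finset.notMem_empty v))
      refine ⟨1, ?_⟩
      rw [h1, map_one, Module.End.one_apply, one_smul]
      have hstab : IsStab (translateRep Φ S a hS) (supLevel S (productLevel V)) ⊤ φ :=
        ⟨inferInstance, fun h _ => hφV h h.2⟩
      have := Fintype.ofFinite (supLevel S (productLevel V) ⧸ (⊤ : Subgroup _))
      rw [he φ ⊤ hstab, avgOver_eq hstab.1, Finset.sum_congr rfl fun q _ => hφV _ q.out.2,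
        Finset.sum_const, Finset.card_univ, ← Nat.cast_smul_eq_nsmul ℂ, smul_smul,
        inv_mul_cancel₀ (Nat.cast_ne_zero.2 Fintype.card_ne_zero), one_smul]
    | @insert v A hvA ih =>
      intro hA t ht
      have hvP := hA v (Finset.mem_insert_self v A)
      obtain ⟨y, hy, hy'⟩ := exists_part {w | w ≠ v} t
      set x := gfAt (hPS hvP) (localGL K v (t : GfK K))
      have hxy : t = x * y := Subtype.ext (Aleph.gf_ext fun w => by
        rw [Subgroup.coe_mul, map_mul]
        by_cases hw : w = v
        · subst hw; rw [localGL_gfAt_self, hy' w (by simp), mul_one]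
        · rw [localGL_gfAt_ne _ hw, hy w hw, one_mul])
      obtain ⟨d₂, hd₂⟩ := ih (fun w hw => hA w (Finset.mem_insert_of_mem hw)) y fun w hw => by
        by_cases hwv : w = v
        · exact hy' w (by simp [hwv])
        · rw [hy w hwv]; exact ht w (by simp [hwv, hw])
      obtain ⟨ϖ, c, hϖ, hc⟩ := heig v hvP
      obtain ⟨d₁, hd₁⟩ := exists_levelProj_gfAt_eq hS hV he₀ hφ hvP (hPS hvP) hϖ hc
        (localGL K v (t : GfK K))
      refine ⟨d₂ * d₁, ?_⟩
      rw [hxy, ← levelProj_mul_of_disjoint hS hV he {v} (fun w hw => localGL_gfAt_ne _ hw _)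
        (fun w hw => hy' w (by simp [Set.mem_singleton_iff.1 hw])) hφV, hd₂, map_smul, map_smul,
        levelProj_eq_full hS hV he he₀ htrans hPS hφ, hd₁, smul_smul]
  have hfin := hS.subset hPS
  exact main hfin.toFinset (fun v hv => hfin.mem_toFinset.1 hv) t fun v hv =>
    ht v fun h => hv (hfin.mem_toFinset.2 h)

end Fermat.Agent.LT.Descent
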