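import Fermat.Agent.LT.Descent.Setting
import Fermat.Agent.LT.Adelic.HypMeasure
import Mathlib.MeasureTheory.Integral.Prod
import Mathlib.MeasureTheory.Integral.Pi
import Mathlib.Topology.Compactness.LocallyCompact
import Mathlib.Analysis.SpecialFunctions.Pow.Continuity

/-!
# The algebra of invariant point-pair kernels

Everything is moved to the base point by `(p, q) ↦ rel p q`; two points are exchanged by a
trace-zero element, so the kernels are symmetric and composition is commutative.
-/

set_option autoImplicit false

noncomputable section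

open Matrix Complex ComplexConjugate MeasureTheory
open scoped ENNReal

namespace Fermat.Agent.LT.Adelic.HSpace

/-- The affine motion carrying the base point to `p`, applied to `q`. -/
def act (p q : HSpace) : HSpace := ⟨p.z + p.r * q.z, p.r * q.r, mul_pos p.r_pos q.r_pos⟩

/-- The coordinates of `q` seen from `p`. -/
def rel (p q : HSpace) : HSpace := ⟨(q.z - p.z) / p.r, q.r / p.r, div_pos q.r_pos p.r_pos⟩

/-- The affine motion carrying the base point to `p`. -/
def toPt (p : HSpace) : GL (Fin 2) ℂ :=
  Adelic.unipotent p.z * diag2 (Units.mk0 (p.r : ℂ) (ofReal_ne_zero.mpr p.r_pos.ne')) 1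

set_option linter.unnecessarySeqFocus false in
theorem act_rel (p q : HSpace) : act p (rel p q) = q := by
  have := p.r_pos
  have hp : (p.r : ℂ) ≠ 0 := ofReal_ne_zero.mpr this.ne'
  refine HSpace.ext ?_ ?_ <;> simp [act, rel] <;> field_simp <;> ring

theorem rel_act (p q : HSpace) : rel p (act p q) = q := by
  have := p.r_pos
  have hp : (p.r : ℂ) ≠ 0 := ofReal_ne_zero.mpr this.ne'
  refine HSpace.ext ?_ ?_ <;> simp [act, rel] <;> field_simp

theorem act_base (p : HSpace) : act p base = p := by
  refine HSpace.ext ?_ ?_ <;> simp [act, base]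

theorem rel_base_left (q : HSpace) : rel base q = q := by
  refine HSpace.ext ?_ ?_ <;> simp [rel, base]

theorem smul_toPt (p q : HSpace) : toPt p • q = act p q := by
  rw [toPt, mul_smul]
  refine HSpace.ext ?_ ?_
  · simp [smul_z, smul_r, denSq, act]
    ring
  · simp [smul_z, smul_r, denSq, act, absDet, det_fin_two, abs_of_pos p.r_pos]

theorem toPt_smul_base (p : HSpace) : toPt p • base = p := by rw [smul_toPt, act_base]

theorem toPt_smul_rel (p q : HSpace) : toPt p • rel p q = q := by rw [smul_toPt, act_rel]

/-- A trace-zero element exchanging the base point and `q`. -/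
theorem exists_swap_base (q : HSpace) :
    ∃ g : GL (Fin 2) ℂ, g • base = q ∧ g • q = base := by
  obtain ⟨α, β, h0, htr⟩ : ∃ α β : ℂ, α * conj α + β * conj β ≠ 0 ∧
      (q.r : ℂ) * α + conj α - q.z * conj β = 0 := by
    by_cases hz : q.z = 0
    · exact ⟨0, 1, by simp, by simp [hz]⟩
    · have hc : conj q.z ≠ 0 := fun h => hz (by simpa using congrArg conj h)
      refine ⟨I, -(I * ((q.r : ℂ) - 1)) / conj q.z, fun h => ?_, ?_⟩
      · have : ((normSq I + normSq (-(I * ((q.r : ℂ) - 1)) / conj q.z) : ℝ) : ℂ) = 0 := by
          rw [ofReal_add, ← Complex.mul_conj, ← Complex.mul_conj]; exact h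
        have h1 := normSq_nonneg (-(I * ((q.r : ℂ) - 1)) / conj q.z)
        have h2 : normSq I = 1 := normSq_I
        have h3 := ofReal_eq_zero.mp this
        linarith
      · simp only [map_div₀, map_neg, map_mul, map_sub, conj_ofReal, conj_I, conj_conj, map_one]
        field_simp
        ring
  let M : Matrix (Fin 2) (Fin 2) ℂ := !![α, β; -conj β, conj α]
  have hM : M.det ≠ 0 := by
    simp only [M, det_fin_two_of]; convert h0 using 1; ring
  let u : GL (Fin 2) ℂ := GeneralLinearGroup.mkOfDetNeZero M hM
  have hu : u • base = base := by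
    have hcoe : (u : Matrix (Fin 2) (Fin 2) ℂ) = M := rfl
    have hden : denSq u base = normSq β + normSq α := by
      simp [denSq, hcoe, M, base, normSq_conj]; ring
    have hpos : 0 < normSq β + normSq α := hden ▸ denSq_pos u base
    refine HSpace.ext ?_ ?_
    · rw [smul_z, hden]
      simp [hcoe, M, base]
      exact Or.inl (by ring)
    · rw [smul_r, hden]
      have hdet : M.det = ((normSq β + normSq α : ℝ) : ℂ) := by
        simp [M, det_fin_two_of, ← Complex.mul_conj]; ring
      simp only [absDet, hcoe, hdet, Complex.norm_real, Real.norm_of_nonneg hpos.le, base, mul_one]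
      exact div_self hpos.ne'
  refine ⟨toPt q * u, by rw [mul_smul, hu, toPt_smul_base], ?_⟩
  obtain ⟨g, hg⟩ : ∃ g, g = toPt q * u := ⟨_, rfl⟩
  have hcm : (g : Matrix (Fin 2) (Fin 2) ℂ) =
      !![(q.r : ℂ) * α + q.z * (-conj β), (q.r : ℂ) * β + q.z * conj α; -conj β, conj α] := by
    rw [hg]
    ext i j
    fin_cases i <;> fin_cases j <;>
      simp [toPt, u, M, GeneralLinearGroup.mkOfDetNeZero, Matrix.mul_apply, Fin.sum_univ_two]
  have hsq : g * g = diag2 (Units.mk0 (-(g : Matrix (Fin 2) (Fin 2) ℂ).det)
      (neg_ne_zero.mpr (Matrix.isUnits_det_units g).ne_zero))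
      (Units.mk0 (-(g : Matrix (Fin 2) (Fin 2) ℂ).det)
      (neg_ne_zero.mpr (Matrix.isUnits_det_units g).ne_zero)) := by
    refine Units.ext ?_
    ext i j
    fin_cases i <;> fin_cases j <;> simp [hcm, det_fin_two_of, Matrix.mul_apply, Fin.sum_univ_two]
    · linear_combination ((q.r : ℂ) * α + q.z * (-conj β)) * htr
    · linear_combination ((q.r : ℂ) * β + q.z * conj α) * htr
    · linear_combination (-conj β) * htr
    · linear_combination (conj α) * htr
  rw [← hg]
  have h1 : g • base = q := by rw [hg, mul_smul, hu, toPt_smul_base]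
  calc g • q = (g * g) • base := by rw [mul_smul, h1]
    _ = base := by rw [hsq, smul_diag2_self]

theorem exists_swap (p q : HSpace) : ∃ g : GL (Fin 2) ℂ, g • p = q ∧ g • q = p := by
  obtain ⟨g, h1, h2⟩ := exists_swap_base (rel p q)
  have hinv : (toPt p)⁻¹ • p = base := by rw [inv_smul_eq_iff, toPt_smul_base]
  have hinv' : (toPt p)⁻¹ • q = rel p q := by rw [inv_smul_eq_iff, toPt_smul_rel]
  exact ⟨toPt p * g * (toPt p)⁻¹, by rw [mul_smul, mul_smul, hinv, h1, toPt_smul_rel],
    by rw [mul_smul, mul_smul, hinv', h2, toPt_smul_base]⟩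

theorem continuous_rel : Continuous fun x : HSpace × HSpace => rel x.1 x.2 := by
  refine continuous_iff_coords.mpr (Continuous.prodMk ?_ ?_)
  · exact ((continuous_z.comp continuous_snd).sub (continuous_z.comp continuous_fst)).div
      (continuous_ofReal.comp (continuous_r.comp continuous_fst))
      fun x => ofReal_ne_zero.mpr x.1.r_pos.ne'
  · exact (continuous_r.comp continuous_snd).div (continuous_r.comp continuous_fst)
      fun x => x.1.r_pos.ne'

theorem continuous_act : Continuous fun x : HSpace × HSpace => act x.1 x.2 := by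
  have := continuous_z
  have := continuous_r
  refine continuous_iff_coords.mpr (Continuous.prodMk ?_ ?_) <;> simp only [act] <;> fun_prop

theorem continuous_coshDist : Continuous fun x : HSpace × HSpace => coshDist x.1 x.2 := by
  have := continuous_z
  have := continuous_r
  unfold coshDist
  refine Continuous.div ?_ ?_ fun x => ?_
  · fun_prop
  · fun_prop
  · exact (mul_pos (mul_pos two_pos x.1.r_pos) x.2.r_pos).ne'

instance instT2Space : T2Space HSpace := isOpenEmbedding_coords.isEmbedding.t2Space

instance instLocallyCompactSpace : LocallyCompactSpace HSpace :=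
  isOpenEmbedding_coords.locallyCompactSpace

/-- The window of a bound on the distance. -/
theorem window_of_coshDist_le {p q : HSpace} {T : ℝ} (hT : 1 ≤ T) (h : coshDist p q ≤ T) :
    p.r / (2 * T) ≤ q.r ∧ q.r ≤ 2 * T * p.r ∧ ‖p.z - q.z‖ ≤ 2 * T * p.r := by
  have hp := p.r_pos
  have hq := q.r_pos
  rw [coshDist, div_le_iff₀ (by positivity)] at h
  have hn := normSq_nonneg (p.z - q.z)
  have h1 : q.r ≤ 2 * T * p.r := le_of_mul_le_mul_right (by nlinarith) hq
  have h2 : p.r ≤ 2 * T * q.r := le_of_mul_le_mul_right (by nlinarith) hp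
  refine ⟨by rw [div_le_iff₀ (by positivity)]; linarith, h1, ?_⟩
  have h3 : ‖p.z - q.z‖ ^ 2 ≤ (2 * T * p.r) ^ 2 := by
    rw [← Complex.normSq_eq_norm_sq]; nlinarith
  exact (pow_le_pow_iff_left₀ (norm_nonneg _) (by positivity) two_ne_zero).mp h3

theorem isCompact_coshDist_le (T : ℝ) : IsCompact {q : HSpace | coshDist base q ≤ T} := by
  set T' := max T 1 with hT'
  have h1 : (1 : ℝ) ≤ T' := le_max_right _ _
  let B : Set (ℂ × ℝ) := Metric.closedBall 0 (2 * T') ×ˢ Set.Icc (1 / (2 * T')) (2 * T')
  have hB : B ⊆ Set.range coords := by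
    rw [range_coords]
    exact fun x hx => lt_of_lt_of_le (by positivity) hx.2.1
  have hc : IsCompact (coords ⁻¹' B) :=
    isOpenEmbedding_coords.isEmbedding.isInducing.isCompact_preimage'
      ((isCompact_closedBall 0 _).prod isCompact_Icc) hB
  refine hc.of_isClosed_subset
    (isClosed_le (continuous_coshDist.comp (Continuous.prodMk_right base)) continuous_const)
    fun q hq => ?_
  obtain ⟨a, b, c⟩ := window_of_coshDist_le h1 (le_trans hq (le_max_left T 1))
  simp only [base, mul_one, zero_sub, norm_neg] at a b c
  exact ⟨mem_closedBall_zero_iff.mpr c, a, b⟩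

theorem measure_lt_top_of_isCompact {C : Set HSpace} (hC : IsCompact C) : measure C < ⊤ := by
  rw [measure_apply_set hC.measurableSet]
  have hK : IsCompact (coords '' C) := hC.image continuous_coords
  obtain ⟨b, hb⟩ := (hC.image (f := fun q : HSpace => (q.r ^ 3)⁻¹)
    ((continuous_r.pow 3).inv₀ fun q => pow_ne_zero 3 q.r_pos.ne')).bddAbove
  refine lt_of_le_of_lt (setLIntegral_mono measurable_const (g := fun _ => ENNReal.ofReal b) ?_) ?_
  · rintro _ ⟨q, hq, rfl⟩
    exact ENNReal.ofReal_le_ofReal (hb ⟨q, hq, rfl⟩)
  · rw [setLIntegral_const]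
    exact ENNReal.mul_lt_top ENNReal.ofReal_lt_top hK.measure_lt_top

instance instIsFiniteMeasureOnCompacts : IsFiniteMeasureOnCompacts measure :=
  ⟨fun _ hC => measure_lt_top_of_isCompact hC⟩

end Fermat.Agent.LT.Adelic.HSpace

namespace Fermat.Agent.LT.Descent

open Fermat.Agent.LT.Adelic NumberField IsDedekindDomain
open scoped MatrixGroups

namespace PPKer

theorem symm (k : PPKer) (p q : HSpace) : k p q = k q p := by
  obtain ⟨g, h1, h2⟩ := HSpace.exists_swap p q
  rw [← k.smul' g p q, h1, h2]

theorem apply_eq_rel (k : PPKer) (p q : HSpace) : k p q = k HSpace.base (HSpace.rel p q) := by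
  conv_lhs => rw [← HSpace.toPt_smul_base p, ← HSpace.toPt_smul_rel p q]
  exact k.smul' _ _ _

theorem continuous_right (k : PPKer) (p : HSpace) : Continuous fun q => k p q :=
  k.continuous'.comp (Continuous.prodMk_right p)

/-- The compact range of a kernel at the base point. -/
theorem exists_compact (k : PPKer) :
    ∃ D : Set HSpace, IsCompact D ∧ ∀ p q, k p q ≠ 0 → HSpace.rel p q ∈ D := by
  obtain ⟨T, hT⟩ := k.bounded'
  refine ⟨_, HSpace.isCompact_coshDist_le T, fun p q h => ?_⟩
  by_contra hlt
  exact h ((k.apply_eq_rel p q).trans (hT _ _ (not_le.mp hlt)))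

theorem hasCompactSupport (k : PPKer) (p : HSpace) : HasCompactSupport fun q => k p q := by
  obtain ⟨D, hD, hk⟩ := k.exists_compact
  refine HasCompactSupport.of_support_subset_isCompact
    (hD.image (HSpace.continuous_act.comp (Continuous.prodMk_right p))) fun q hq =>
      ⟨HSpace.rel p q, hk p q hq, HSpace.act_rel p q⟩

theorem exists_bound (k : PPKer) : ∃ B : ℝ, ∀ p q, ‖k p q‖ ≤ B := by
  obtain ⟨B, hB⟩ := (k.continuous_right HSpace.base).bounded_above_of_compact_support
    (k.hasCompactSupport HSpace.base)
  exact ⟨B, fun p q => k.apply_eq_rel p q ▸ hB _⟩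

/-- Points in a compact set see only a compact set. -/
theorem exists_compact_image (k : PPKer) {C : Set HSpace} (hC : IsCompact C) :
    ∃ D : Set HSpace, IsCompact D ∧ ∀ p ∈ C, ∀ q, k p q ≠ 0 → q ∈ D := by
  obtain ⟨D, hD, hk⟩ := k.exists_compact
  exact ⟨_, (hC.prod hD).image HSpace.continuous_act, fun p hp q h =>
    ⟨(p, HSpace.rel p q), ⟨hp, hk p q h⟩, HSpace.act_rel p q⟩⟩

theorem exists_window (k : PPKer) : ∃ T : ℝ, 1 ≤ T ∧ ∀ p q, k p q ≠ 0 →
    p.r / (2 * T) ≤ q.r ∧ q.r ≤ 2 * T * p.r ∧ ‖p.z - q.z‖ ≤ 2 * T * p.r ∧
      HSpace.coshDist p q ≤ T := by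
  obtain ⟨T, hT⟩ := k.bounded'
  refine ⟨max T 1, le_max_right _ _, fun p q h => ?_⟩
  have hle : HSpace.coshDist p q ≤ max T 1 :=
    le_max_of_le_left (not_lt.mp fun hlt => h (hT p q hlt))
  obtain ⟨a, b, c⟩ := HSpace.window_of_coshDist_le (le_max_right _ _) hle
  exact ⟨a, b, c, hle⟩

theorem integrable (k : PPKer) (p : HSpace) : Integrable (fun q => k p q) HSpace.measure :=
  (k.continuous_right p).integrable_of_hasCompactSupport (k.hasCompactSupport p)

/-- The integral of the absolute value. -/
def l1 (k : PPKer) : ℝ≥0∞ := ∫⁻ q, ‖k HSpace.base q‖ₑ ∂HSpace.measure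

theorem lintegral_enorm (k : PPKer) (p : HSpace) :
    ∫⁻ q, ‖k p q‖ₑ ∂HSpace.measure = k.l1 := by
  rw [← (HSpace.measurePreserving_const_smul (HSpace.toPt p)).lintegral_comp_emb
    (measurableEmbedding_const_smul _), l1]
  refine lintegral_congr fun q => ?_
  rw [← k.smul' (HSpace.toPt p) HSpace.base q, HSpace.toPt_smul_base]

theorem l1_lt_top (k : PPKer) : k.l1 < ⊤ := (k.integrable HSpace.base).hasFiniteIntegral

/-- Composition at the base point. -/
theorem continuous_integral_base (k k' : PPKer) :
    Continuous fun q => ∫ x, k HSpace.base x * k' x q ∂HSpace.measure := by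
  obtain ⟨B, hB⟩ := k'.exists_bound
  refine continuous_of_dominated (bound := fun x => ‖k HSpace.base x‖ * B) (fun q => ?_)
    (fun q => .of_forall fun x => ?_) ((k.integrable _).norm.mul_const B) (.of_forall fun x => ?_)
  · exact ((k.continuous_right _).mul
      (k'.continuous'.comp (Continuous.prodMk_left q))).aestronglyMeasurable
  · rw [norm_mul]; exact mul_le_mul_of_nonneg_left (hB _ _) (norm_nonneg _)
  · exact continuous_const.mul (k'.continuous_right x)

theorem integral_smul_pair (k k' : PPKer) (g : GL (Fin 2) ℂ) (p q : HSpace) :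
    ∫ x, k (g • p) x * k' x (g • q) ∂HSpace.measure = ∫ x, k p x * k' x q ∂HSpace.measure := by
  rw [← (HSpace.measurePreserving_const_smul g).integral_comp (measurableEmbedding_const_smul g)]
  simp only [k.smul', k'.smul']

theorem integral_eq_rel (k k' : PPKer) (p q : HSpace) :
    ∫ x, k p x * k' x q ∂HSpace.measure =
      ∫ x, k HSpace.base x * k' x (HSpace.rel p q) ∂HSpace.measure := by
  conv_lhs => rw [← HSpace.toPt_smul_base p, ← HSpace.toPt_smul_rel p q]
  rw [integral_smul_pair]

/-- Composition of kernels. -/
def comp (k k' : PPKer) : PPKer where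
  toFun p q := ∫ x, k p x * k' x q ∂HSpace.measure
  smul' g p q := integral_smul_pair k k' g p q
  continuous' := by
    exact ((continuous_integral_base k k').comp HSpace.continuous_rel).congr fun x =>
      (integral_eq_rel k k' x.1 x.2).symm
  bounded' := by
    obtain ⟨D, hD, hk⟩ := k.exists_compact
    obtain ⟨D', hD', hk'⟩ := k'.exists_compact_image hD
    obtain ⟨T, hT⟩ := (hD'.image
      (HSpace.continuous_coshDist.comp (Continuous.prodMk_right HSpace.base))).bddAbove
    refine ⟨T, fun p q hpq => ?_⟩
    rw [integral_eq_rel]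
    refine integral_eq_zero_of_ae (.of_forall fun x => ?_)
    by_contra h
    obtain ⟨hx, hx'⟩ := mul_ne_zero_iff.mp h
    have h1 : x ∈ D := HSpace.rel_base_left x ▸ hk _ _ hx
    have h2 := hT ⟨_, hk' x h1 _ hx', rfl⟩
    simp only [Function.comp_apply] at h2
    have h3 : HSpace.coshDist HSpace.base (HSpace.rel p q) = HSpace.coshDist p q := by
      conv_rhs => rw [← HSpace.toPt_smul_base p, ← HSpace.toPt_smul_rel p q]
      rw [HSpace.coshDist_smul]
    linarith

theorem comp_apply (k k' : PPKer) (p q : HSpace) :
    comp k k' p q = ∫ x, k p x * k' x q ∂HSpace.measure := rfl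

theorem comp_comm (k k' : PPKer) (p q : HSpace) : comp k k' p q = comp k' k p q := by
  rw [(comp k k').symm p q, comp_apply, comp_apply]
  congr 1 with x
  rw [k.symm, k'.symm x, mul_comm]

theorem comp_assoc (k k' k'' : PPKer) (p q : HSpace) :
    comp (comp k k') k'' p q = comp k (comp k' k'') p q := by
  simp only [comp_apply, ← integral_mul_const, ← integral_const_mul]
  have hcont : Continuous (Function.uncurry fun y x => k p x * k' x y * k'' y q) := by
    have := k.continuous_right p
    have := k'.continuous'
    have h3 : Continuous fun y => k'' y q := k''.continuous'.comp (Continuous.prodMk_left q)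
    exact ((this.comp (continuous_snd.prodMk continuous_fst)) |> fun h =>
      ((k.continuous_right p).comp continuous_snd).mul h).mul (h3.comp continuous_fst)
  have hint : Integrable (Function.uncurry fun y x => k p x * k' x y * k'' y q)
      (HSpace.measure.prod HSpace.measure) := by
    refine hcont.integrable_of_hasCompactSupport
      (HasCompactSupport.of_support_subset_isCompact
        ((k''.hasCompactSupport q).isCompact.prod (k.hasCompactSupport p).isCompact) ?_)
    rintro ⟨y, x⟩ h
    simp only [Function.mem_support, Function.uncurry, mul_ne_zero_iff] at h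
    exact ⟨subset_tsupport _ (by simpa [Function.mem_support, k''.symm q] using h.2),
      subset_tsupport _ h.1.1⟩
  rw [integral_integral_swap hint]
  refine integral_congr_ae (.of_forall fun x => ?_)
  simp only [mul_assoc]

/-- The conjugate kernel. -/
def conjKer (k : PPKer) : PPKer where
  toFun p q := conj (k p q)
  smul' g p q := congrArg conj (k.smul' g p q)
  continuous' := continuous_conj.comp k.continuous'
  bounded' := k.bounded'.imp fun T h p q hpq => by rw [h p q hpq, map_zero]

theorem conjKer_apply (k : PPKer) (p q : HSpace) : conjKer k p q = conj (k p q) := rfl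

theorem conjKer_ofProfile_ofReal (k : ℝ → ℝ) (hk : Continuous fun u => (k u : ℂ))
    (hc : HasCompactSupport fun u => (k u : ℂ)) (p q : HSpace) :
    conjKer (ofProfile _ hk hc) p q = ofProfile _ hk hc p q := by
  rw [conjKer_apply]; exact conj_ofReal _

/-- The spherical transform. -/
def hat (k : PPKer) (s : ℂ) : ℂ :=
  ∫ τ, k HSpace.base τ * (τ.r : ℂ) ^ (1 + s) ∂HSpace.measure

theorem hat_ofProfile (k : ℝ → ℂ) (hk : Continuous k) (hc : HasCompactSupport k) (s : ℂ) :
    hat (ofProfile k hk hc) s = sphTransform k s := rfl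

theorem continuous_cpow_r (s : ℂ) : Continuous fun τ : HSpace => (τ.r : ℂ) ^ s :=
  (continuous_ofReal.comp HSpace.continuous_r).cpow continuous_const
    fun τ => Or.inl (by simpa using τ.r_pos)

theorem hat_comp (k k' : PPKer) (s : ℂ) : hat (comp k k') s = hat k s * hat k' s := by
  simp only [hat, comp_apply, ← integral_mul_const]
  have hcont : Continuous (Function.uncurry fun (τ x : HSpace) =>
      k HSpace.base x * k' x τ * (τ.r : ℂ) ^ (1 + s)) :=
    (((k.continuous_right _).comp continuous_snd).mul
      (k'.continuous'.comp (continuous_snd.prodMk continuous_fst))).mul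
      ((continuous_cpow_r _).comp continuous_fst)
  obtain ⟨D, hD, hk'⟩ := k'.exists_compact_image (k.hasCompactSupport HSpace.base).isCompact
  have hint : Integrable (Function.uncurry fun (τ x : HSpace) =>
      k HSpace.base x * k' x τ * (τ.r : ℂ) ^ (1 + s)) (HSpace.measure.prod HSpace.measure) := by
    refine hcont.integrable_of_hasCompactSupport (HasCompactSupport.of_support_subset_isCompact
      (hD.prod (k.hasCompactSupport HSpace.base).isCompact) ?_)
    rintro ⟨τ, x⟩ h
    simp only [Function.mem_support, Function.uncurry, mul_ne_zero_iff] at h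
    exact ⟨hk' x (subset_tsupport _ h.1.1) τ h.1.2, subset_tsupport _ h.1.1⟩
  rw [integral_integral_swap hint]
  refine integral_congr_ae (.of_forall fun x => ?_)
  simp only [mul_assoc]
  rw [integral_const_mul, ← (HSpace.measurePreserving_const_smul (HSpace.toPt x)).integral_comp
    (measurableEmbedding_const_smul _)]
  congr 1
  rw [← integral_const_mul]
  refine integral_congr_ae (.of_forall fun τ => ?_)
  simp only
  rw [k'.apply_eq_rel x, HSpace.smul_toPt, HSpace.rel_act,
    show (HSpace.act x τ).r = x.r * τ.r from rfl, ofReal_mul,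
    mul_cpow_ofReal_nonneg x.r_pos.le τ.r_pos.le]
  ring

end PPKer

variable {K : Type*} [Field K] [NumberField K] {ι : Type*} [Fintype ι] {Φ : Frame K ι}
  {U : Subgroup (GfK K)}

omit [Fintype ι] in
theorem measurable_space_fin {β : Type*} [MeasurableSpace β] (g : Yf U → β) :
    Measurable fun x : Space Φ U => g x.fin := fun s _ => Space.measurableSet_fin (g ⁻¹' s)

/-- The integral over the space of a function supported over finitely many finite coordinates. -/
theorem integral_space_eq_sum [Countable (Yf U)] {g : Space Φ U → ℂ} (S : Finset (Yf U))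
    (hS : ∀ x, g x ≠ 0 → x.fin ∈ S) (hm : Measurable g)
    (hint : ∀ w ∈ S, Integrable (fun τ : ι → HSpace => g (Space.mk τ w))
      (Measure.pi fun _ : ι => HSpace.measure)) :
    Integrable g (Space.measure Φ U) ∧ ∫ x, g x ∂Space.measure Φ U =
      ∑ w ∈ S, ∫ τ : ι → HSpace, g (Space.mk τ w) ∂(Measure.pi fun _ : ι => HSpace.measure) := by
  have hzero : ∀ w ∉ S, ∀ τ : ι → HSpace, g (Space.mk τ w) = 0 := fun w hw τ => by
    by_contra h
    exact hw (hS _ h)
  have hi : ∀ w, Integrable (fun τ : ι → HSpace => g (Space.mk τ w))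
      (Measure.pi fun _ : ι => HSpace.measure) := fun w => by
    by_cases hw : w ∈ S
    · exact hint w hw
    · simp [hzero w hw]
  have hint' : Integrable g (Space.measure Φ U) := by
    refine ⟨hm.aestronglyMeasurable, ?_⟩
    rw [HasFiniteIntegral, Space.lintegral_measure hm.enorm,
      tsum_eq_sum (s := S) fun w hw => by simp [hzero w hw]]
    exact ENNReal.sum_lt_top.mpr fun w hw => (hint w hw).hasFiniteIntegral
  refine ⟨hint', ?_⟩
  rw [Space.measure, integral_sum_measure hint',
    tsum_congr fun w => integral_map (Space.measurable_mk w).aemeasurable hm.aestronglyMeasurable,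
    tsum_eq_sum (s := S) fun w hw => by simp [hzero w hw]]

theorem continuous_prod_kernel (k : ι → PPKer) :
    Continuous fun x : (ι → HSpace) × (ι → HSpace) => ∏ i, k i (x.1 i) (x.2 i) :=
  continuous_finsetProd _ fun i _ => (k i).continuous'.comp
    (f := fun x : (ι → HSpace) × (ι → HSpace) => (x.1 i, x.2 i))
    (((continuous_apply i).comp continuous_fst).prodMk ((continuous_apply i).comp continuous_snd))

theorem measurable_testKernel_comp [Countable (Yf U)] (k : ι → PPKer) (f : HKer U) {Z : Type*}
    [MeasurableSpace Z] {a b : Z → Space Φ U} (ha : Measurable a) (hb : Measurable b) :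
    Measurable fun z => testKernel k f (a z) (b z) := by
  let : MeasurableSpace (Yf U) := ⊤
  have hfin : Measurable (Space.fin : Space Φ U → Yf U) := measurable_space_fin id
  have h1 : Measurable fun p : Yf U × Yf U => f p.1 p.2 := measurable_of_countable _
  exact (h1.comp ((hfin.comp ha).prodMk (hfin.comp hb))).mul
    ((continuous_prod_kernel k).measurable.comp
      ((Space.measurable_pt.comp ha).prodMk (Space.measurable_pt.comp hb)))

theorem measurable_testKernel [Countable (Yf U)] (k : ι → PPKer) (f : HKer U) :
    Measurable (Function.uncurry (testKernel (Φ := Φ) k f)) :=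
  measurable_testKernel_comp k f measurable_fst measurable_snd

/-- Test kernels compose factorwise. -/
theorem testKernel_comp [Countable (Yf U)] (k k' : ι → PPKer) (f f' : HKer U)
    (x y : Space Φ U) :
    ∫ z, testKernel k f x z * testKernel k' f' z y ∂Space.measure Φ U =
      testKernel (fun i => PPKer.comp (k i) (k' i)) (f.comp f') x y := by
  classical
  let S := (f.finite_row x.fin).toFinset
  have hint : ∀ i, Integrable (fun t : HSpace => k i (x.pt i) t * k' i t (y.pt i))
      HSpace.measure := fun i =>
    (((k i).continuous_right _).mul ((k' i).continuous'.comp (Continuous.prodMk_left _))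
      ).integrable_of_hasCompactSupport (((k i).hasCompactSupport _).mul_right)
  have hslice : ∀ (w : Yf U) (τ : ι → HSpace),
      testKernel k f x (Space.mk τ w) * testKernel k' f' (Space.mk τ w) y =
        f x.fin w * f' w y.fin * ∏ i, (k i (x.pt i) (τ i) * k' i (τ i) (y.pt i)) := fun w τ => by
    simp only [testKernel, Space.pt_mk, Space.fin_mk, Finset.prod_mul_distrib]
    ring
  have hm : Measurable fun z : Space Φ U => testKernel k f x z * testKernel k' f' z y :=
    (measurable_testKernel_comp k f (a := fun _ => x) measurable_const measurable_id).mul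
      (measurable_testKernel_comp k' f' (b := fun _ => y) measurable_id measurable_const)
  rw [(integral_space_eq_sum (g := fun z => testKernel k f x z * testKernel k' f' z y) S
    (fun z hz => (f.finite_row x.fin).mem_toFinset.mpr
    (left_ne_zero_of_mul (left_ne_zero_of_mul hz))) hm fun w _ => ?_).2]
  · simp only [hslice, integral_const_mul,
      integral_fintype_prod_eq_prod (fun i t => k i (x.pt i) t * k' i t (y.pt i))]
    show _ = (∑ᶠ w, f x.fin w * f' w y.fin) * ∏ i, PPKer.comp (k i) (k' i) (x.pt i) (y.pt i)
    rw [finsum_eq_sum_of_support_subset _ (s := S) fun w hw =>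
      (f.finite_row x.fin).mem_toFinset.mpr (left_ne_zero_of_mul hw), Finset.sum_mul]
    rfl
  · simp only [hslice]
    exact (Integrable.fintype_prod hint).const_mul _

end Fermat.Agent.LT.Descent

end
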