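/-
Support of the geometric sides: for test functions with a high power at the split place only
finitely many elliptic invariants occur and the diagonal sums have finite mass.
-/
import Fermat.Agent.LT.Descent.Support.Classes
import Fermat.Agent.LT.Descent.Support.Local
import Fermat.Agent.LT.Descent.Support.Sum
import Fermat.Agent.LT.Descent.Action
import Fermat.Agent.LT.Tame.SpaceAut
import Fermat.Agent.LT.Geom.TwistedClasses
import Mathlib.NumberTheory.RamificationInertia.Valuation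
import Mathlib.RingTheory.Ideal.Norm.AbsNorm

set_option autoImplicit false

noncomputable section

open Matrix NumberField IsDedekindDomain IsDedekindDomain.HeightOneSpectrum MeasureTheory
open scoped MatrixGroups ENNReal

namespace Fermat.Agent.LT.Descent

open Fermat.Agent.LT.Adelic Fermat.Agent.LT.Reduction Fermat.Agent.LT.Geom Fermat.Agent.LT.Aleph
open Fermat.Agent.LT.Tame Fermat.Agent.LT.Spectral

theorem isSquare_disc_of_upper {K : Type*} [Field K] {M : Matrix (Fin 2) (Fin 2) K}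
    (h : M 1 0 = 0) (hd : M.det ≠ 0) : IsSquare (matInv M ^ 2 - 4 * matInv M) := by
  rw [det_fin_two, h, mul_zero, sub_zero] at hd
  obtain ⟨ha, hd⟩ := mul_ne_zero_iff.mp hd
  refine ⟨(M 0 0 + M 1 1) * (M 0 0 - M 1 1) / (M 0 0 * M 1 1), ?_⟩
  rw [matInv, Matrix.trace_fin_two, det_fin_two, h, mul_zero, sub_zero]
  field_simp
  ring

section Plain

variable {K : Type*} [Field K] [NumberField K] {ι : Type*} [Fintype ι] {Φ : Frame K ι}
  {U : Subgroup (GfK K)}

omit [NumberField K] [Fintype ι] in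
theorem matInv_toInf (i : ι) (g : GL (Fin 2) K) :
    matInv ((Φ.toInf i g : GL (Fin 2) ℂ) : Matrix (Fin 2) (Fin 2) ℂ) =
      Φ.emb i (matInv (g : Matrix (Fin 2) (Fin 2) K)) :=
  matInv_map (Φ.emb i) _

/-- The invariant of a matrix with nonzero diagonal kernel. -/
theorem invBound_of_testKernel_ne_zero {k : ι → PPKer} {f : HKer U} {T : ℝ}
    {u : HeightOneSpectrum (𝓞 K)} {a b : 𝓞 K} (hb : b ≠ 0) {P : Set ℤ}
    (hk : ∀ i p q, k i p q ≠ 0 → HSpace.coshDist p q ≤ T) (hf : IsBigOn f {u} a b P)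
    (g : GL (Fin 2) K) (x : Space Φ U) (hne : testKernel k f x (g • x) ≠ 0) :
    ∃ n ∈ P, InvBound Φ.emb (a * a * b) (4 * T) u n (matInv (g : Matrix (Fin 2) (Fin 2) K)) := by
  obtain ⟨τ, y, rfl⟩ : ∃ τ y, x = Space.mk τ y := ⟨x.pt, x.fin, (Space.mk_pt_fin x).symm⟩
  induction y using QuotientGroup.induction_on with
  | _ g₀ =>
    have hfin : f ((1 : GfK K) : Yf U) ((g₀⁻¹ * toGf K g * g₀ : GfK K) : Yf U) ≠ 0 := by
      rw [mul_assoc, ← HKer.apply_mk]
      exact left_ne_zero_of_mul hne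
    obtain ⟨n, hn, hpole⟩ := hf.pole _ hfin u (Set.mem_singleton u)
    refine ⟨n, hn, ⟨fun v hv => ?_, ?_, fun i => ?_⟩⟩
    · have h := (hf.away _ hfin v hv).matInv_le (intValuation_ne_zero v b hb)
      rwa [matInv_localGL_conj, ← map_mul, ← map_mul] at h
    · have h := hpole.matInv_eq
      rwa [matInv_localGL_conj, ← WithZero.exp_neg, neg_neg] at h
    · rw [← matInv_toInf]
      exact norm_matInv_le_of_coshDist (hk i _ _
        (Finset.prod_ne_zero_iff.mp (right_ne_zero_of_mul hne) i (Finset.mem_univ i)))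

variable (Φ) in
/-- **Support on the base.** For exponents above `n0` at `u` only finitely many elliptic regular
invariants occur; `n0` depends only on the bounds away from `u` and at infinity. -/
theorem exists_support_classes (u : HeightOneSpectrum (𝓞 K)) {a b : 𝓞 K} (ha : a ≠ 0)
    (hb : b ≠ 0) (T : ℝ) :
    ∃ n0 : ℕ, ∀ (U : Subgroup (GfK K)) (k : ι → PPKer) (f : HKer U) (P : Set ℤ),
      (∀ i p q, k i p q ≠ 0 → HSpace.coshDist p q ≤ T) → IsBigOn f {u} a b P → P.Finite →
      (∀ n ∈ P, (n0 : ℤ) < n) →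
      ∃ C : Finset K, (∀ c ∈ C, c ≠ 0 ∧ c ≠ 4 ∧ ¬ IsSquare (c ^ 2 - 4 * c)) ∧
        ∀ (γ : PGL(2, K)) (x : Space Φ U), testKernel k f x (γ • x) ≠ 0 → classInv γ ∈ C := by
  classical
  have hF := isFrame_of_frame Φ
  have hB : a * a * b ≠ 0 := mul_ne_zero (mul_ne_zero ha ha) hb
  obtain ⟨n0, hn0⟩ := exists_elliptic_bound hF hB (4 * T) u
  refine ⟨n0, fun U k f P hk hf hP hPn => ?_⟩
  have hpos : ∀ n ∈ P, ((n.toNat : ℕ) : ℤ) = n := fun n hn =>
    Int.toNat_of_nonneg ((Int.natCast_nonneg n0).trans (hPn n hn).le)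
  have hfin : {c : K | ∃ n ∈ P, InvBound Φ.emb (a * a * b) (4 * T) u n c}.Finite :=
    (hP.biUnion fun n _ => finite_invBound hF hB (4 * T) u n.toNat).subset
      fun c ⟨n, hn, hc⟩ => Set.mem_biUnion hn (show InvBound _ _ _ _ _ c from (hpos n hn).symm ▸ hc)
  refine ⟨hfin.toFinset, fun c hc => ?_, fun γ x hne => ?_⟩
  · obtain ⟨n, hn, hc⟩ := hfin.mem_toFinset.mp hc
    exact hn0 n c (hPn n hn) hc
  · induction γ using ProjGenLinGroup.induction_on with | mk g => ?_
    exact hfin.mem_toFinset.mpr (invBound_of_testKernel_ne_zero hb hk hf g x hne)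

/-- **Finite mass on the base.** -/
theorem lintegral_support_ne_top (hU : IsLevel U) {w : Space Φ U → ℝ≥0∞}
    (hw : IsWeight PGL(2, K) (Space.measure Φ U) w) {k : ι → PPKer} {f : HKer U} (C : Finset K)
    (hC : ∀ c ∈ C, ¬ IsSquare (c ^ 2 - 4 * c))
    (hsupp : ∀ (γ : PGL(2, K)) (x : Space Φ U), testKernel k f x (γ • x) ≠ 0 → classInv γ ∈ C) :
    ∫⁻ x, w x * ∑' γ : PGL(2, K), ‖testKernel k f x (γ • x)‖ₑ ∂Space.measure Φ U ≠ ⊤ := by
  refine lintegral_diag_ne_top hU hw k f (fun x => x) measurable_id (fun g => g) (fun _ _ => rfl)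
    (fun Y0 c C R hY0 => ⟨Y0, hY0, fun x hx => hx⟩) fun g x hne h10 => ?_
  exact hC _ (hsupp _ x hne) (isSquare_disc_of_upper h10 (Matrix.isUnits_det_units g).ne_zero)

end Plain

section Twisted

variable {K K' : Type*} [Field K] [NumberField K] [Field K'] [NumberField K'] [Algebra K K']
  {Φ : Frame K Unit} {Φ' : Frame K' (Fin 3)} (tw : CubicTwist Φ Φ') {U' : Subgroup (GfK K')}

/-- The norm of a matrix. -/
def matNorm (δ : GL (Fin 2) K') : GL (Fin 2) K' :=
  δ * GeneralLinearGroup.map tw.σ.toRingEquiv.toRingHom δ *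
    GeneralLinearGroup.map tw.σ.toRingEquiv.toRingHom
      (GeneralLinearGroup.map tw.σ.toRingEquiv.toRingHom δ)

theorem twNorm_mk (δ : GL (Fin 2) K') :
    Geom.twNorm (pglSigma tw.σ) (ProjGenLinGroup.mk δ : PGL(2, K')) =
      ProjGenLinGroup.mk (matNorm tw δ) := by
  simp [Geom.twNorm, matNorm, pglEquiv_apply]

theorem twNorm_mk_classInv (δ : GL (Fin 2) K') :
    classInv (Geom.twNorm (pglSigma tw.σ) (ProjGenLinGroup.mk δ : PGL(2, K'))) =
      matInv (matNorm tw δ : Matrix (Fin 2) (Fin 2) K') := by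
  rw [twNorm_mk, classInv_mk]

theorem matNorm_upper {δ : GL (Fin 2) K'} (h : (δ : Matrix (Fin 2) (Fin 2) K') 1 0 = 0) :
    (matNorm tw δ : Matrix (Fin 2) (Fin 2) K') 1 0 = 0 := by
  simp [matNorm, Matrix.mul_apply, Fin.sum_univ_two, h]

/-- The invariant of a norm with nonzero twisted diagonal kernel. -/
theorem invBound_of_twisted_ne_zero {k : Fin 3 → PPKer} {f : HKer U'} {T : ℝ}
    {u : HeightOneSpectrum (𝓞 K)} {S : Set (HeightOneSpectrum (𝓞 K'))}
    (hS : ∀ v ∈ S, placePerm tw.σ.toRingEquiv v ∈ S)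
    (hSu : ∀ w ∈ S, w.asIdeal.LiesOver u.asIdeal)
    (hu1 : ∃ w ∈ S, ∀ x : K, w.valuation K' (algebraMap K K' x) = u.valuation K x)
    {σf : Yf U' → Yf U'}
    (hσf : ∀ g : GfK K', σf (g : Yf U') = ((gfAut tw.σ.toRingEquiv g : GfK K') : Yf U'))
    {a b : 𝓞 K'} (hb : b ≠ 0) {B : 𝓞 K}
    (hB : ∀ w : HeightOneSpectrum (𝓞 K'), w.intValuation (algebraMap (𝓞 K) (𝓞 K') B) ≤
      w.intValuation ((a * RingOfIntegers.mapRingEquiv tw.σ.toRingEquiv a *
        RingOfIntegers.mapRingEquiv tw.σ.toRingEquiv (RingOfIntegers.mapRingEquiv tw.σ.toRingEquiv a))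
        ^ 2 * (b * RingOfIntegers.mapRingEquiv tw.σ.toRingEquiv b *
        RingOfIntegers.mapRingEquiv tw.σ.toRingEquiv (RingOfIntegers.mapRingEquiv tw.σ.toRingEquiv b))))
    {P : Set ℤ} (hk : ∀ i p q, k i p q ≠ 0 → HSpace.coshDist p q ≤ T) (hf : IsBigOn f S a b P)
    (δ : GL (Fin 2) K') (x : Space Φ' U')
    (hne : testKernel k f x (δ • twistPt σf x) ≠ 0) :
    ∃ n ∈ Set.image2 (· + ·) (Set.image2 (· + ·) P P) P, ∃ c : K,
      algebraMap K K' c = matInv (matNorm tw δ : Matrix (Fin 2) (Fin 2) K') ∧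
        InvBound Φ.emb B (16 * T ^ 3) u n c := by
  set σ := tw.σ.toRingEquiv with hσdef
  have hord : ∀ z, σ (σ (σ z)) = z := tw.order_three
  obtain ⟨c, hc⟩ := exists_classInv_twNorm tw.σ tw.fixed tw.order_three
    (ProjGenLinGroup.mk δ : PGL(2, K'))
  rw [twNorm_mk_classInv] at hc
  obtain ⟨τ, y, rfl⟩ : ∃ τ y, x = Space.mk τ y := ⟨x.pt, x.fin, (Space.mk_pt_fin x).symm⟩
  induction y using QuotientGroup.induction_on with
  | _ g =>
    set M := g⁻¹ * toGf K' δ * gfAut σ g with hM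
    have hM1 : f ((1 : GfK K') : Yf U') (M : Yf U') ≠ 0 := by
      have h : f (g : Yf U') ((toGf K' δ * gfAut σ g : GfK K') : Yf U') ≠ 0 := by
        have := left_ne_zero_of_mul hne
        rwa [show (δ • twistPt (Φ' := Φ') σf (Space.mk τ (g : Yf U'))).fin =
          toGf K' δ • σf (g : Yf U') from rfl, hσf] at this
      rw [hM, mul_assoc, ← HKer.apply_mk]
      exact h
    have hN : M * gfAut σ M * gfAut σ (gfAut σ M) = g⁻¹ * toGf K' (matNorm tw δ) * g := by
      simp only [hM, matNorm, map_mul, map_inv, gfAut_toGf, gfAut_cube σ hord, ← hσdef]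
      group
    have hloc : ∀ (v : HeightOneSpectrum (𝓞 K')) (M' : GfK K'),
        (localGL K' v (gfAut σ M') : Matrix (Fin 2) (Fin 2) (v.adicCompletion K')) =
          (localGL K' (placePerm σ v) M' :
            Matrix (Fin 2) (Fin 2) ((placePerm σ v).adicCompletion K')).map
            (completionEquiv σ (valuation_apply_placePerm σ v)).toRingHom := fun v M' => by
      rw [gfAut, localGL_gfHom]; rfl
    have hint : ∀ (v : HeightOneSpectrum (𝓞 K')) (z : 𝓞 K'),
        (placePerm σ v).intValuation z = v.intValuation (RingOfIntegers.mapRingEquiv σ z) := by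
      intro v z
      rw [← valuation_of_algebraMap (K := K'), ← valuation_apply_placePerm σ v,
        ← valuation_of_algebraMap (K := K')]
      rfl
    have hnotS : ∀ v ∉ S, placePerm σ v ∉ S := fun v hv h => hv (by
      have h2 := hS _ (hS _ h)
      have hπ : placePerm σ (placePerm σ (placePerm σ v)) = v := by
        refine HeightOneSpectrum.ext (Ideal.ext fun r => ?_)
        rw [mem_placePerm, mem_placePerm, mem_placePerm,
          show RingOfIntegers.mapRingEquiv σ (RingOfIntegers.mapRingEquiv σ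
            (RingOfIntegers.mapRingEquiv σ r)) = r from RingOfIntegers.ext (hord _)]
      rwa [hπ] at h2)
    have hsigma0 : ∀ z : 𝓞 K', z ≠ 0 → RingOfIntegers.mapRingEquiv σ z ≠ 0 := fun z hz h =>
      hz ((RingOfIntegers.mapRingEquiv σ).injective (h.trans (map_zero _).symm))
    have hfac : ∀ v : HeightOneSpectrum (𝓞 K'),
        (localGL K' v (g⁻¹ * toGf K' (matNorm tw δ) * g) :
          Matrix (Fin 2) (Fin 2) (v.adicCompletion K')) =
          (localGL K' v M : Matrix (Fin 2) (Fin 2) (v.adicCompletion K')) *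
            (localGL K' v (gfAut σ M) : Matrix (Fin 2) (Fin 2) (v.adicCompletion K')) *
            (localGL K' v (gfAut σ (gfAut σ M)) : Matrix (Fin 2) (Fin 2) (v.adicCompletion K')) :=
      fun v => by
        rw [← hN, map_mul (localGL K' v), map_mul (localGL K' v), Units.val_mul, Units.val_mul]
    set σO := RingOfIntegers.mapRingEquiv σ with hσO
    have haway : ∀ v ∉ S, v.intValuation ((a * σO a * σO (σO a)) ^ 2 * (b * σO b * σO (σO b))) *
        v.valuation K' (algebraMap K K' c) ≤ 1 := by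
      intro v hv
      have h1 := hf.away M hM1 v hv
      have h2 := (hf.away M hM1 _ (hnotS v hv)).map
        (completionEquiv σ (valuation_apply_placePerm σ v)).toRingHom
        (fun z => valued_completionEquiv σ (valuation_apply_placePerm σ v) z)
      have h3 := ((hf.away M hM1 _ (hnotS _ (hnotS v hv))).map
        (completionEquiv σ (valuation_apply_placePerm σ (placePerm σ v))).toRingHom
        (fun z => valued_completionEquiv σ (valuation_apply_placePerm σ (placePerm σ v)) z)).map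
        (completionEquiv σ (valuation_apply_placePerm σ v)).toRingHom
        (fun z => valued_completionEquiv σ (valuation_apply_placePerm σ v) z)
      rw [← hloc] at h2
      rw [← hloc (placePerm σ v), ← hloc v] at h3
      rw [hint v, hint v] at h2
      rw [hint (placePerm σ v), hint v, hint (placePerm σ v), hint v] at h3
      have h := (h1.mul h2).mul h3
      rw [← hfac v] at h
      have hb3 : v.intValuation b * v.intValuation (σO b) * v.intValuation (σO (σO b)) ≠ 0 :=
        mul_ne_zero (mul_ne_zero (intValuation_ne_zero v b hb)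
          (intValuation_ne_zero v _ (hsigma0 b hb)))
          (intValuation_ne_zero v _ (hsigma0 _ (hsigma0 b hb)))
      have := h.matInv_le hb3
      rw [matInv_localGL_conj, ← hc] at this
      rw [sq]
      simp only [map_mul]
      exact this
    have hpole : ∀ v ∈ S, ∃ n ∈ Set.image2 (· + ·) (Set.image2 (· + ·) P P) P,
        v.valuation K' (algebraMap K K' c) = WithZero.exp n := by
      intro v hv
      obtain ⟨n1, hn1, k1⟩ := hf.pole M hM1 v hv
      obtain ⟨n2, hn2, k2⟩ := hf.pole M hM1 _ (hS v hv)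
      obtain ⟨n3, hn3, k3⟩ := hf.pole M hM1 _ (hS _ (hS v hv))
      have k2' := k2.map (completionEquiv σ (valuation_apply_placePerm σ v)).toRingHom
        (fun z => valued_completionEquiv σ (valuation_apply_placePerm σ v) z)
      have k3' := (k3.map (completionEquiv σ (valuation_apply_placePerm σ (placePerm σ v))).toRingHom
        (fun z => valued_completionEquiv σ (valuation_apply_placePerm σ (placePerm σ v)) z)).map
        (completionEquiv σ (valuation_apply_placePerm σ v)).toRingHom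
        (fun z => valued_completionEquiv σ (valuation_apply_placePerm σ v) z)
      rw [← hloc] at k2'
      rw [← hloc (placePerm σ v), ← hloc v] at k3'
      have h := (k1.mul k2').mul k3'
      rw [← hfac v] at h
      have := h.matInv_eq
      rw [matInv_localGL_conj, ← hc, ← WithZero.exp_add, ← WithZero.exp_add, ← WithZero.exp_neg]
        at this
      refine ⟨n1 + n2 + n3, Set.mem_image2_of_mem (Set.mem_image2_of_mem hn1 hn2) hn3, ?_⟩
      rw [this]
      congr 1
      ring
    obtain ⟨w, hw, hwu⟩ := hu1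
    obtain ⟨n, hn, hwn⟩ := hpole w hw
    refine ⟨n, hn, c, hc, ⟨fun v hv => ?_, by rw [← hwu]; exact hwn, fun i => ?_⟩⟩
    · obtain ⟨Q, hQ, hQv⟩ := Ideal.exists_maximal_ideal_liesOver_of_isIntegral (S := 𝓞 K') v.asIdeal
      let w' : HeightOneSpectrum (𝓞 K') :=
        ⟨Q, hQ.isPrime, Ideal.ne_bot_of_liesOver_of_ne_bot v.ne_bot Q⟩
      have : w'.asIdeal.LiesOver v.asIdeal := hQv
      have hw' : w' ∉ S := fun h => hv (by
        refine HeightOneSpectrum.ext ?_
        rw [(hSu w' h).over, (inferInstance : w'.asIdeal.LiesOver v.asIdeal).over])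
      have h := (mul_le_mul_left (hB w') _).trans (haway w' hw')
      rw [← intValuation_liesOver v w', ← valuation_liesOver K' v w', ← mul_pow] at h
      exact (pow_le_one_iff_of_nonneg zero_le (Ideal.IsDedekindDomain.ramificationIdx'_ne_zero_of_liesOver
        w'.asIdeal v.ne_bot)).mp h
    · obtain rfl : i = () := Subsingleton.elim _ _
      have hnear : ∀ j : Fin 3, HSpace.coshDist (τ j) (Φ'.toInf j δ • τ (j + 1)) ≤ T := fun j =>
        hk j _ _ (Finset.prod_ne_zero_iff.mp (right_ne_zero_of_mul hne) j (Finset.mem_univ j))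
      have e : Φ.emb () c = Φ'.emb 0 (algebraMap K K' c) :=
        (congrFun (congrArg DFunLike.coe (tw.emb_base 0)) c).symm
      have e2 : Φ'.toInf 0 (matNorm tw δ) = Φ'.toInf 0 δ * Φ'.toInf 1 δ * Φ'.toInf 2 δ := by
        rw [matNorm, map_mul, map_mul]
        refine congrArg₂ (· * ·) (congrArg₂ (· * ·) rfl ?_) ?_ <;>
          refine Units.ext (Matrix.ext fun p q => ?_)
        · exact tw.emb_twist 0 _
        · exact (tw.emb_twist 0 _).trans (tw.emb_twist 1 _)
      rw [e, hc, ← matInv_toInf, e2]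
      exact norm_matInv_le_of_chain (hnear 0) (hnear 1) (hnear 2)

variable (Φ) in
/-- **Support upstairs.** For exponents above `n0` at the places over `u` only finitely many
elliptic regular invariants of norms occur. -/
theorem exists_twisted_support_classes {u : HeightOneSpectrum (𝓞 K)}
    {S : Set (HeightOneSpectrum (𝓞 K'))} (hS : ∀ v ∈ S, placePerm tw.σ.toRingEquiv v ∈ S)
    (hSu : ∀ w ∈ S, w.asIdeal.LiesOver u.asIdeal)
    (hu1 : ∃ w ∈ S, ∀ x : K, w.valuation K' (algebraMap K K' x) = u.valuation K x)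
    {a b : 𝓞 K'} (ha : a ≠ 0) (hb : b ≠ 0) (T : ℝ) :
    ∃ n0 : ℕ, ∀ (U' : Subgroup (GfK K')) (σf : Yf U' → Yf U'),
      (∀ g : GfK K', σf (g : Yf U') = ((gfAut tw.σ.toRingEquiv g : GfK K') : Yf U')) →
      ∀ (k : Fin 3 → PPKer) (f : HKer U') (P : Set ℤ),
      (∀ i p q, k i p q ≠ 0 → HSpace.coshDist p q ≤ T) → IsBigOn f S a b P → P.Finite →
      (∀ n ∈ P, (n0 : ℤ) < n) →
      ∃ C : Finset K, (∀ c ∈ C, c ≠ 0 ∧ c ≠ 4 ∧ ¬ IsSquare (c ^ 2 - 4 * c)) ∧
        ∀ (γ : PGL(2, K')) (x : Space Φ' U'), testKernel k f x (γ • twistPt σf x) ≠ 0 →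
          ∃ c ∈ C, classInv (Geom.twNorm (pglSigma tw.σ) γ) = algebraMap K K' c := by
  classical
  have hF := isFrame_of_frame Φ
  set σO := RingOfIntegers.mapRingEquiv tw.σ.toRingEquiv
  have h0 : ∀ z : 𝓞 K', z ≠ 0 → σO z ≠ 0 := fun z hz h =>
    hz (σO.injective (h.trans (map_zero _).symm))
  set A : 𝓞 K' := (a * σO a * σO (σO a)) ^ 2 * (b * σO b * σO (σO b)) with hA
  have hA0 : A ≠ 0 := mul_ne_zero (pow_ne_zero _ (mul_ne_zero (mul_ne_zero ha (h0 a ha)) (h0 _ (h0 a ha))))
    (mul_ne_zero (mul_ne_zero hb (h0 b hb)) (h0 _ (h0 b hb)))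
  set B : 𝓞 K := (Ideal.absNorm (Ideal.span {A}) : 𝓞 K) with hBdef
  have hB : B ≠ 0 := by
    rw [hBdef, Nat.cast_ne_zero, ne_eq, Ideal.absNorm_eq_zero_iff, Ideal.span_singleton_eq_bot]
    exact hA0
  have hBle : ∀ w : HeightOneSpectrum (𝓞 K'),
      w.intValuation (algebraMap (𝓞 K) (𝓞 K') B) ≤ w.intValuation A := by
    intro w
    obtain ⟨e, he⟩ := Ideal.mem_span_singleton'.mp (Ideal.absNorm_mem (Ideal.span {A}))
    rw [hBdef, map_natCast, ← he, map_mul]
    exact mul_le_of_le_one_left' (intValuation_le_one w e)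
  obtain ⟨n0, hn0⟩ := exists_elliptic_bound hF hB (16 * T ^ 3) u
  refine ⟨n0, fun U' σf hσf k f P hk hf hP hPn => ?_⟩
  set P' := Set.image2 (· + ·) (Set.image2 (· + ·) P P) P with hP'
  have hP'n : ∀ n ∈ P', (n0 : ℤ) < n := by
    rintro _ ⟨_, ⟨n1, h1, n2, h2, rfl⟩, n3, h3, rfl⟩
    have := hPn n1 h1; have := hPn n2 h2; have := hPn n3 h3
    linarith [Int.natCast_nonneg n0]
  have hfin : {c : K | ∃ n ∈ P', InvBound Φ.emb B (16 * T ^ 3) u n c}.Finite :=
    (((hP.image2 _ hP).image2 _ hP).biUnion fun n _ => finite_invBound hF hB (16 * T ^ 3) u n.toNat).subset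
      fun c ⟨n, hn, hc⟩ => Set.mem_biUnion hn (show InvBound _ _ _ _ _ c from
        (Int.toNat_of_nonneg ((Int.natCast_nonneg n0).trans (hP'n n hn).le)).symm ▸ hc)
  refine ⟨hfin.toFinset, fun c hc => ?_, fun γ x hne => ?_⟩
  · obtain ⟨n, hn, hc⟩ := hfin.mem_toFinset.mp hc
    exact hn0 n c (hP'n n hn) hc
  · induction γ using ProjGenLinGroup.induction_on with | mk δ => ?_
    obtain ⟨n, hn, c, hc, hbound⟩ :=
      invBound_of_twisted_ne_zero tw hS hSu hu1 hσf hb hBle hk hf δ x hne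
    exact ⟨c, hfin.mem_toFinset.mpr ⟨n, hn, hbound⟩, by rw [twNorm_mk_classInv, hc]⟩

/-- **Finite mass upstairs.** -/
theorem lintegral_twisted_support_ne_top (hU : IsLevel U') {σf : Yf U' → Yf U'}
    (hσf : IsTwistMap tw σf) {w : Space Φ' U' → ℝ≥0∞}
    (hw : IsWeight PGL(2, K') (Space.measure Φ' U') w) {k : Fin 3 → PPKer} {f : HKer U'}
    (C : Finset K) (hC : ∀ c ∈ C, ¬ IsSquare (c ^ 2 - 4 * c))
    (hsupp : ∀ (γ : PGL(2, K')) (x : Space Φ' U'), testKernel k f x (γ • twistPt σf x) ≠ 0 →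
      ∃ c ∈ C, classInv (Geom.twNorm (pglSigma tw.σ) γ) = algebraMap K K' c) :
    ∫⁻ x, w x * ∑' γ : PGL(2, K'), ‖testKernel k f x (γ • twistPt σf x)‖ₑ ∂Space.measure Φ' U' ≠ ⊤ := by
  have := countable_yf hU
  refine lintegral_diag_ne_top hU hw k f (twistPt σf) (measurable_twistPt σf) (pglSigma tw.σ)
    (fun g x => twistPt_smul hσf g x)
    (fun Y0 c C R hY0 => ⟨σf '' Y0, hY0.image σf, fun x hx => ⟨Set.mem_image_of_mem _ hx.1,
      fun i => hx.2.1 _, fun i j => hx.2.2.1 _ _, fun i => hx.2.2.2 _⟩⟩) fun g x hne h10 => ?_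
  obtain ⟨c, hc, he⟩ := hsupp _ x hne
  rw [twNorm_mk_classInv] at he
  refine not_isSquare_algebraMap tw.σ tw.fixed tw.order_three (hC c hc) ?_
  have h := isSquare_disc_of_upper (matNorm_upper tw h10)
    (Matrix.isUnits_det_units (matNorm tw g)).ne_zero
  rw [he] at h
  simpa only [map_sub, map_pow, map_mul, map_ofNat] using h

end Twisted

end Fermat.Agent.LT.Descent
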