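import Fermat.Agent.LT.Descent.Geometric
import Fermat.Agent.LT.Descent.Support
import Fermat.Agent.LT.Spectral.QuotData

/-!
# The trace identity of the descent

For test functions with a high power at the split place the two diagonal integrals agree as soon
as the finite parts match class by class: the supports give finitely many elliptic invariants and
finite mass, and the unfolded sums are compared orbit by orbit.
-/

set_option autoImplicit false

noncomputable section

namespace Fermat.Agent.LT.Descent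

open Fermat.Agent.LT.Adelic Fermat.Agent.LT.Geom Fermat.Agent.LT.Spectral MeasureTheory Matrix
  NumberField IsDedekindDomain
open scoped MatrixGroups ENNReal

variable {K K' : Type*} [Field K] [NumberField K] [Field K'] [NumberField K'] [Algebra K K']
  {Φ : Frame K Unit} {Φ' : Frame K' (Fin 3)} {U : Subgroup (GfK K)} {U' : Subgroup (GfK K')}

/-- An elliptic regular invariant. -/
def IsEllipticInv (c : K) : Prop := c ≠ 0 ∧ c ≠ 4 ∧ ¬ IsSquare (c ^ 2 - 4 * c)

/-- The finite parts match at every elliptic invariant: norms match, the others vanish. -/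
structure TransfersClasses (tw : CubicTwist Φ Φ') (σf : Yf U' → Yf U') (f : HKer U)
    (f' : HKer U') : Prop where
  matches_norm : ∀ (c : K) (hc : c ≠ 0), IsEllipticInv c → ∀ δ : PGL(2, K'),
    twNorm (pglSigma tw.σ) δ = pglMap (algebraMap K K') (classRep c hc) →
      MatchesAt σf f f' c hc δ
  vanishes : ∀ (c : K) (hc : c ≠ 0), IsEllipticInv c →
    (∀ δ, twNorm (pglSigma tw.σ) δ ≠ pglMap (algebraMap K K') (classRep c hc)) →
      VanishesAt f c hc

/-- The two diagonal integrals agree once the supports are finite and elliptic. -/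
theorem integral_perKer_diag_eq_twisted (tw : CubicTwist Φ Φ') {σf : Yf U' → Yf U'}
    (hσf : IsTwistMap tw σf) [Countable (Yf U)] [Countable (Yf U')]
    (D : QuotData Φ U) (D' : QuotData Φ' U') {k : Unit → PPKer} {k' : Fin 3 → PPKer}
    (hk : IsComposite3 (k ()) k') {f : HKer U} {f' : HKer U'}
    (htr : TransfersClasses tw σf f f') (C C' : Finset K)
    (hC : ∀ c ∈ C, c ≠ 0 ∧ c ≠ 4 ∧ ¬ IsSquare (c ^ 2 - 4 * c))
    (hC' : ∀ c ∈ C', c ≠ 0 ∧ c ≠ 4 ∧ ¬ IsSquare (c ^ 2 - 4 * c))
    (hs : ∀ (γ : PGL(2, K)) (x : Space Φ U), testKernel k f x (γ • x) ≠ 0 → classInv γ ∈ C)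
    (hs' : ∀ (γ : PGL(2, K')) (x : Space Φ' U'), testKernel k' f' x (γ • twistPt σf x) ≠ 0 →
      ∃ c ∈ C', classInv (twNorm (pglSigma tw.σ) γ) = algebraMap K K' c) :
    ∫ x, perKer PGL(2, K) (testKernel k f) x x ∂D.ν =
      ∫ x, perKer PGL(2, K') (testKernel k' f') x (twistPt σf x) ∂D'.ν := by
  classical
  have hCU : ∀ c ∈ C ∪ C', c ≠ 0 ∧ c ≠ 4 ∧ ¬ IsSquare (c ^ 2 - 4 * c) := fun c hc =>
    (Finset.mem_union.mp hc).elim (hC c) (hC' c)
  exact geometric_eq tw hσf hk D.isWeight D'.isWeight (C ∪ C') hCU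
    (fun γ x h => Finset.mem_union_left _ (hs γ x h))
    (fun γ x h => by
      obtain ⟨c, hc, he⟩ := hs' γ x h
      exact ⟨c, Finset.mem_union_right _ hc, he.symm⟩)
    (lintegral_support_ne_top D.level D.isWeight C (fun c h => (hC c h).2.2) hs)
    (lintegral_twisted_support_ne_top tw D'.level hσf D'.isWeight C' (fun c h => (hC' c h).2.2) hs')
    (fun c h hc => htr.matches_norm c hc (hCU c h))
    (fun c h hc => htr.vanishes c hc (hCU c h))

/-- **The trace identity.** Given the bounds away from `u` and at infinity, for all exponents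
above `n0` at `u` the plain and the twisted diagonal integrals of matching test functions agree. -/
theorem exists_trace_identity (tw : CubicTwist Φ Φ') {u : HeightOneSpectrum (𝓞 K)}
    {S : Set (HeightOneSpectrum (𝓞 K'))} (hS : ∀ v ∈ S, Tame.placePerm tw.σ.toRingEquiv v ∈ S)
    (hSu : ∀ w ∈ S, w.asIdeal.LiesOver u.asIdeal)
    (hu1 : ∃ w ∈ S, ∀ x : K, w.valuation K' (algebraMap K K' x) = u.valuation K x)
    {a b : 𝓞 K} (ha : a ≠ 0) (hb : b ≠ 0) {a' b' : 𝓞 K'} (ha' : a' ≠ 0) (hb' : b' ≠ 0) (T : ℝ) :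
    ∃ n0 : ℕ, ∀ (U : Subgroup (GfK K)) (U' : Subgroup (GfK K'))
      [Countable (Yf U)] [Countable (Yf U')] (D : QuotData Φ U) (D' : QuotData Φ' U')
      (σf : Yf U' → Yf U'), IsTwistMap tw σf →
      (∀ g : GfK K', σf (g : Yf U') = ((Tame.gfAut tw.σ.toRingEquiv g : GfK K') : Yf U')) →
      ∀ (k : Unit → PPKer) (k' : Fin 3 → PPKer) (f : HKer U) (f' : HKer U') (P P' : Set ℤ),
      IsComposite3 (k ()) k' →
      (∀ i p q, k i p q ≠ 0 → HSpace.coshDist p q ≤ T) →
      (∀ i p q, k' i p q ≠ 0 → HSpace.coshDist p q ≤ T) →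
      IsBigOn f {u} a b P → IsBigOn f' S a' b' P' → P.Finite → P'.Finite →
      (∀ n ∈ P, (n0 : ℤ) < n) → (∀ n ∈ P', (n0 : ℤ) < n) →
      TransfersClasses tw σf f f' →
      ∫ x, perKer PGL(2, K) (testKernel k f) x x ∂D.ν =
        ∫ x, perKer PGL(2, K') (testKernel k' f') x (twistPt σf x) ∂D'.ν := by
  obtain ⟨n1, h1⟩ := exists_support_classes Φ u ha hb T
  obtain ⟨n2, h2⟩ := exists_twisted_support_classes Φ tw hS hSu hu1 ha' hb' T
  refine ⟨max n1 n2, fun U U' _ _ D D' σf hσf hmk k k' f f' P P' hk hkT hkT' hf hf' hP hP' hn hn' htr =>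
    ?_⟩
  obtain ⟨C, hC, hs⟩ := h1 U k f P hkT hf hP fun n h =>
    lt_of_le_of_lt (by exact_mod_cast le_max_left n1 n2) (hn n h)
  obtain ⟨C', hC', hs'⟩ := h2 U' σf hmk k' f' P' hkT' hf' hP' fun n h =>
    lt_of_le_of_lt (by exact_mod_cast le_max_right n1 n2) (hn' n h)
  exact integral_perKer_diag_eq_twisted tw hσf D D' hk htr C C' hC hC' hs hs'

end Fermat.Agent.LT.Descent

end
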