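import Fermat.Agent.LT.Descent.Setup
import Fermat.Agent.LT.Descent.TestOperator
import Fermat.Agent.LT.Descent.TraceIdentity
import Fermat.Agent.LT.Descent.TensorCover
import Fermat.Agent.LT.Tame.SplitLevels
import Fermat.Agent.LT.Tame.SpaceAut

/-!
# Pairs of test operators on the two sides of the descent

For fixed descent data a test pair consists of one archimedean kernel and one family of local
matrices downstairs, three kernels and a family upstairs; both give operators on cusp classes.
-/

set_option autoImplicit false

noncomputable section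

namespace Fermat.Agent.LT.Descent

open Fermat.Agent.LT.Adelic Fermat.Agent.LT.Tame Fermat.Agent.LT.Spectral
open Fermat.Agent.LT.Descent.Places
open NumberField IsDedekindDomain IsLocalRing Matrix
open scoped MatrixGroups

variable {K : Type*} [Field K] [NumberField K] {K' : Type*} [Field K'] [NumberField K']
  [Algebra K K'] {Φ : Frame K Unit} {Φ' : Frame K' (Fin 3)} {tw : CubicTwist Φ Φ'}

namespace DescentData

variable (D : DescentData tw)

include D in
theorem isTamePlace_next {v : HeightOneSpectrum (𝓞 K)} {w : HeightOneSpectrum (𝓞 K')}
    (P : TamePlace tw.σ v w) : placePerm tw.σ.toRingEquiv w = w := by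
  by_contra hne
  exact not_isSplit_of_mem_tamePlaces D.gen ⟨P.three_notMem, w, P.above, P.residue_trivial⟩
    fun w' hw' hfix => hne (by rwa [unique_of_fixed D.gen hw' hfix P.above])

include D in
theorem placePerm_mem_placesAbove_iff (T : Set (HeightOneSpectrum (𝓞 K)))
    (w : HeightOneSpectrum (𝓞 K')) :
    placePerm tw.σ.toRingEquiv w ∈ placesAbove T ↔ w ∈ placesAbove (K' := K') T := by
  constructor
  · rintro ⟨v, hv, h⟩
    refine ⟨v, hv, ?_⟩
    have := isAbove_placePerm (σ := tw.σ) (isAbove_placePerm (σ := tw.σ) h)
    rwa [placePerm_cube D.gen] at this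
  · rintro ⟨v, hv, h⟩
    exact ⟨v, hv, isAbove_placePerm h⟩

/-- The twist carries the levels upstairs to each other. -/
theorem stable (w : HeightOneSpectrum (𝓞 K')) :
    ∀ g ∈ D.lev'.loc (placePerm tw.σ.toRingEquiv w), GeneralLinearGroup.map
      (completionEquiv tw.σ.toRingEquiv
        (valuation_apply_placePerm tw.σ.toRingEquiv w)).toRingHom g ∈ D.lev'.loc w := by
  intro g hg
  refine map_completionEquiv_mem_loc tw.σ.toRingEquiv D.lev'
    (D.placePerm_mem_placesAbove_iff _) (D.placePerm_mem_placesAbove_iff _) (fun u hu => ?_) w g hg
  obtain ⟨v, hv, huv⟩ := hu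
  set τ := tw.σ.toRingEquiv
  have P := tamePlace D.gen hv huv
  have P' : TamePlace tw.σ v (placePerm τ u) := tamePlace D.gen hv (isAbove_placePerm huv)
  show D.a' u = ResidueField.map _ (D.a' _)
  rw [D.a'_eq v hv u P, D.a'_eq v hv _ P', ResidueField.map_map]
  congr 1
  refine ResidueField.map.congr_simp _ _ ?_
  refine RingHom.ext fun x => Subtype.ext ?_
  show P.emb x = completionEquiv τ (valuation_apply_placePerm τ u) (P'.emb x)
  refine congrFun (DenseRange.equalizer (HeightOneSpectrum.denseRange_algebraMap K v)
    (continuous_completionEmb _ _ _ _)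
    ((continuous_completionEquiv _ _).comp (continuous_completionEmb _ _ _ _))
    (funext fun a => ?_)) (x : v.adicCompletion K)
  show P.emb a = completionEquiv τ (valuation_apply_placePerm τ u) (P'.emb a)
  rw [P.emb_coe, P'.emb_coe, completionEquiv_coe]
  rw [show τ (algebraMap K K' a) = algebraMap K K' a from tw.σ.commutes a]

theorem isLocal : IsLocalLevel D.lev.loc := isLocalLevel_loc D.lev

theorem isLocal' : IsLocalLevel D.lev'.loc := isLocalLevel_loc D.lev'

instance countableYf : Countable (Yf (productLevel D.lev.loc)) := countable_yf D.lev.isLevel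

instance countableYf' : Countable (Yf (productLevel D.lev'.loc)) := countable_yf D.lev'.isLevel

/-- The quotient downstairs. -/
def quot : QuotData Φ (productLevel D.lev.loc) := (nonempty_quotData D.lev.isLevel).some

/-- The quotient upstairs. -/
def quot' : QuotData Φ' (productLevel D.lev'.loc) := (nonempty_quotData D.lev'.isLevel).some

/-- The generator on the finite coordinates upstairs. -/
def sigmaY : Yf (productLevel D.lev'.loc) → Yf (productLevel D.lev'.loc) :=
  yfAut tw.σ.toRingEquiv (isStableLevel_productLevel _ D.stable)

theorem isTwistMap_sigmaY : IsTwistMap tw D.sigmaY := isTwistMap_yfAut tw _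

/-- A test operator on each side. -/
structure TestPair where
  /-- the kernel at the place of `K` -/
  arch : PPKer
  /-- the kernels at the three places of `K'` -/
  arch' : Fin 3 → PPKer
  /-- the local matrices downstairs -/
  fam : KerFamily D.lev.loc
  /-- the local matrices upstairs -/
  fam' : KerFamily D.lev'.loc

namespace TestPair

variable {D}

/-- The finite part downstairs. -/
abbrev ker (t : D.TestPair) : HKer (productLevel D.lev.loc) := t.fam.toHKer D.isLocal

/-- The finite part upstairs. -/
abbrev ker' (t : D.TestPair) : HKer (productLevel D.lev'.loc) := t.fam'.toHKer D.isLocal'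

/-- The operator downstairs. -/
def op (t : D.TestPair) : cuspClasses D.quot →L[ℂ] cuspClasses D.quot :=
  cuspOp D.quot (fun _ => t.arch) t.ker

/-- The operator upstairs. -/
def op' (t : D.TestPair) : cuspClasses D.quot' →L[ℂ] cuspClasses D.quot' :=
  cuspOp D.quot' t.arch' t.ker'

/-- Composition. -/
def comp (t s : D.TestPair) : D.TestPair where
  arch := PPKer.comp t.arch s.arch
  arch' i := PPKer.comp (t.arch' i) (s.arch' i)
  fam := t.fam.comp s.fam
  fam' := t.fam'.comp s.fam'

theorem op_comp (t s : D.TestPair) : (t.comp s).op = t.op * s.op := by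
  show _ = t.op.comp s.op
  rw [op, op, op, cuspOp_comp]
  exact cuspOp_congr (fun _ _ _ => rfl) fun y z => by
    show (t.fam.comp s.fam).toHKer D.isLocal y z = _
    rw [KerFamily.toHKer_comp]

theorem op'_comp (t s : D.TestPair) : (t.comp s).op' = t.op' * s.op' := by
  show _ = t.op'.comp s.op'
  rw [op', op', op', cuspOp_comp]
  exact cuspOp_congr (fun _ _ _ => rfl) fun y z => by
    show (t.fam'.comp s.fam').toHKer D.isLocal' y z = _
    rw [KerFamily.toHKer_comp]

/-- The product of a list of pairs after a given one. -/
def listComp (t : D.TestPair) : List D.TestPair → D.TestPair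
  | [] => t
  | s :: l => s.comp (listComp t l)

theorem op_listComp (t : D.TestPair) : ∀ l : List D.TestPair,
    (listComp t l).op = (l.map op).prod * t.op
  | [] => (one_mul _).symm
  | s :: l => by rw [listComp, op_comp, op_listComp t l, List.map_cons, List.prod_cons, mul_assoc]

theorem op'_listComp (t : D.TestPair) : ∀ l : List D.TestPair,
    (listComp t l).op' = (l.map op').prod * t.op'
  | [] => (one_mul _).symm
  | s :: l => by
    rw [listComp, op'_comp, op'_listComp t l, List.map_cons, List.prod_cons, mul_assoc]

/-- The two sides match. -/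
structure IsMatched (t : D.TestPair) : Prop where
  composite : IsComposite3 t.arch t.arch'
  transfers : TransfersClasses tw D.sigmaY t.ker t.ker'

end TestPair

end DescentData

end Fermat.Agent.LT.Descent

end
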