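/-
The generator of a cubic extension acting on forms upstairs with a stable Hecke system.
-/
import Fermat.Agent.LT.Descent.LevelSpace
import Fermat.Agent.LT.Descent.TwistClasses
import Fermat.Agent.LT.Descent.Support.Local
import Fermat.Agent.LT.Tame.SplitPlace

set_option autoImplicit false

noncomputable section

namespace Fermat.Agent.LT.Descent

open IsDedekindDomain IsDedekindDomain.HeightOneSpectrum NumberField Matrix MeasureTheory Filter
open Fermat.Agent.LT.Adelic Fermat.Agent.LT.Aleph Fermat.Agent.LT.Tame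
open Fermat.Agent.LT.RankinSelberg (nbrMatrix localShift localShift_apply_of_ne
  valued_localShift_le compAt_nbrMatrix_of_ne valued_uniformiser_sub_one valued_int_apply
  le_exp_neg_one_of_lt_one uniformiser_ne_zero hasFullLocal_of_le)
open scoped Topology

variable {K : Type*} [Field K] [NumberField K] {K' : Type*} [Field K'] [NumberField K']
  [Algebra K K'] {Φ : Frame K Unit} {Φ' : Frame K' (Fin 3)} (tw : CubicTwist Φ Φ')
  {S : Set (HeightOneSpectrum (𝓞 K'))} {a : HeightOneSpectrum (𝓞 K') → ℂ}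
  {ψ : (Fin 3 → HSpace) → GfK K' → ℂ}

/-- A function composed with the twist. -/
def twistFn (ψ : (Fin 3 → HSpace) → GfK K' → ℂ) : (Fin 3 → HSpace) → GfK K' → ℂ :=
  fun τ g => ψ (fun i => τ (i + 1)) (gfAut tw.σ.toRingEquiv g)

theorem intValuation_mapRingEquiv (σ : K' ≃+* K') (v : HeightOneSpectrum (𝓞 K')) (r : 𝓞 K') :
    v.intValuation (RingOfIntegers.mapRingEquiv σ r) = (placePerm σ v).intValuation r := by
  have h := valuation_apply_placePerm σ v (algebraMap (𝓞 K') K' r)
  rw [valuation_of_algebraMap,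
    show σ (algebraMap (𝓞 K') K' r) = algebraMap (𝓞 K') K' (RingOfIntegers.mapRingEquiv σ r)
      from rfl, valuation_of_algebraMap] at h
  exact h

theorem toInf_twist (γ : GL (Fin 2) K') (i : Fin 3) :
    Φ'.toInf i (GeneralLinearGroup.map tw.σ.toRingEquiv.toRingHom γ) = Φ'.toInf (i + 1) γ :=
  Units.ext (Matrix.ext fun _ _ => tw.emb_twist i _)

variable {tw} (hSσ : ∀ v, placePerm tw.σ.toRingEquiv v ∈ S ↔ v ∈ S)

include hSσ in
theorem gfAut_mem_gfSupported {x : GfK K'} (hx : x ∈ gfSupported S) :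
    gfAut tw.σ.toRingEquiv x ∈ gfSupported S := fun v hv => by
  rw [gfAut, localGL_gfHom, hx _ fun h => hv ((hSσ v).1 h), map_one]

include hSσ in
theorem gfAut_principalLevel {n : 𝓞 K'} (hn : SupportedIn S n) :
    ∃ m : 𝓞 K', SupportedIn S m ∧ ∀ u ∈ principalLevel K' m,
      gfAut tw.σ.toRingEquiv u ∈ principalLevel K' n := by
  set σ := tw.σ.toRingEquiv
  set m := (RingOfIntegers.mapRingEquiv σ).symm n with hm
  have hval : ∀ v, (placePerm σ v).intValuation m = v.intValuation n := fun v => by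
    rw [← intValuation_mapRingEquiv σ v m, hm, RingEquiv.apply_symm_apply]
  refine ⟨m, ⟨(RingEquiv.map_ne_zero_iff _).2 hn.1, fun u hu => ?_⟩, fun u hu => ?_⟩
  · obtain ⟨v, rfl⟩ := (placePerm σ).surjective u
    rw [hval]
    exact hn.2 v fun h => hu ((hSσ v).2 h)
  have key : ∀ u : GfK K', MatMemMul m
      ((u : Matrix (Fin 2) (Fin 2) (FiniteAdeleRing (𝓞 K') K')) - 1) → MatMemMul n
      ((gfAut σ u : Matrix (Fin 2) (Fin 2) (FiniteAdeleRing (𝓞 K') K')) - 1) := by
    intro u hu i j v
    rw [← hval v]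
    have e : ((gfAut σ u : Matrix (Fin 2) (Fin 2) (FiniteAdeleRing (𝓞 K') K')) - 1) i j v =
        completionEquiv σ (valuation_apply_placePerm σ v)
          (((u : Matrix (Fin 2) (Fin 2) (FiniteAdeleRing (𝓞 K') K')) - 1) i j (placePerm σ v)) := by
      rw [Matrix.sub_apply, Matrix.sub_apply, coe_apply_sub, coe_apply_sub, map_sub]
      congr 1
      rw [Matrix.one_apply]
      split <;> simp [coe_apply_one, coe_apply_zero]
    exact le_of_eq_of_le (by rw [e, valued_completionEquiv]) (hu i j (placePerm σ v))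
  exact mem_principalLevel.2 ⟨key u (mem_principalLevel.1 hu).1,
    by rw [← map_inv]; exact key u⁻¹ (mem_principalLevel.1 hu).2⟩

/-- A uniformiser moved by `σ`. -/
theorem isUniformiserAt_map {v u : HeightOneSpectrum (𝓞 K')}
    (hu : placePerm tw.σ.toRingEquiv u = v) {ϖ : (FiniteAdeleRing (𝓞 K') K')ˣ}
    (hϖ : IsUniformiserAt v ϖ) :
    IsUniformiserAt u (Units.map (adeleAut tw.σ.toRingEquiv).toMonoidHom ϖ) := by
  subst hu
  refine ⟨?_, fun w hw => ?_⟩
  · show Valued.v (completionEquiv _ _ ((ϖ : FiniteAdeleRing (𝓞 K') K') (placePerm _ u))) = _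
    rw [valued_completionEquiv]
    exact hϖ.1
  · show completionEquiv _ _ ((ϖ : FiniteAdeleRing (𝓞 K') K') (placePerm _ w)) = 1
    rw [hϖ.2 _ fun h => hw ((placePerm tw.σ.toRingEquiv).injective h), map_one]

/-- Neighbour shifts only depend on the residue class. -/
theorem IsSForm.apply_nbr_congr (h : IsSForm Φ' S a ψ) {u : HeightOneSpectrum (𝓞 K')} (hu : u ∉ S)
    {ϖ : (FiniteAdeleRing (𝓞 K') K')ˣ} (hϖ : IsUniformiserAt u ϖ) {r r' : 𝓞 K'}
    (hr : r' - r ∈ u.asIdeal) (τ : Fin 3 → HSpace) (g : GfK K') :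
    ψ τ (g * (unipotent (localShift ϖ r') * heckeMatrix K' ϖ)) =
      ψ τ (g * (unipotent (localShift ϖ r) * heckeMatrix K' ϖ)) := by
  obtain ⟨n, hn, hinv⟩ := h.smooth
  set x : FiniteAdeleRing (𝓞 K') K' :=
    ((ϖ⁻¹ : (FiniteAdeleRing (𝓞 K') K')ˣ) : FiniteAdeleRing (𝓞 K') K') * localShift ϖ (r' - r)
  have hsplit : localShift ϖ r' = localShift ϖ r + (ϖ : FiniteAdeleRing (𝓞 K') K') * x := by
    simp only [x, Units.mul_inv_cancel_left, localShift, map_sub]
    ring
  have e : unipotent (localShift ϖ r') * heckeMatrix K' ϖ =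
      unipotent (localShift ϖ r) * heckeMatrix K' ϖ * unipotent x := by
    rw [hsplit]
    refine Units.ext (Matrix.ext fun i j => ?_)
    fin_cases i <;> fin_cases j <;>
      simp [heckeMatrix, Matrix.mul_apply, Fin.sum_univ_two]
    ring
  have hx : unipotent x ∈ principalLevel K' n := by
    have hx1 : ∀ w, Valued.v (x w) ≤ 1 ∧ (w ≠ u → x w = 0) := fun w => by
      by_cases hw : w = u
      · subst hw
        refine ⟨?_, fun h => absurd rfl h⟩
        rw [coe_apply_mul, map_mul, RankinSelberg.inv_uniformiser_apply, map_inv₀, hϖ.1, localShift,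
          coe_apply_mul, map_mul, coe_apply_sub, coe_apply_one, valued_uniformiser_sub_one hϖ,
          one_mul, valued_int_apply]
        refine (mul_le_mul' le_rfl
          (le_exp_neg_one_of_lt_one ((intValuation_lt_one_iff_mem w _).2 hr))).trans ?_
        rw [inv_mul_cancel₀ WithZero.exp_ne_zero]
      · have h0 : x w = 0 := by rw [coe_apply_mul, localShift_apply_of_ne hϖ _ hw, mul_zero]
        exact ⟨by rw [h0, map_zero]; exact zero_le, fun _ => h0⟩
    refine hasFullLocal_of_le (U := principalLevel K' n) le_rfl (hn.2 u hu) _ ?_ fun w hw => ?_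
    · refine RankinSelberg.mem_principalLevel_one_iff.2 fun w => ⟨fun i j => ?_, ?_⟩
      · rw [RankinSelberg.compAt_unipotent]
        fin_cases i <;> fin_cases j <;> simp [(hx1 w).1]
      · rw [RankinSelberg.compAt_unipotent]; simp [Matrix.det_fin_two]
    · refine Units.ext ?_
      rw [RankinSelberg.compAt_unipotent, (hx1 w).2 hw, ← Matrix.one_fin_two, Units.val_one]
  rw [e, ← mul_assoc, hinv τ _ _ hx]

include hSσ in
/-- The twist preserves the Hecke equations of a stable system. -/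
theorem IsSForm.hecke_twist (h : IsSForm Φ' S a ψ)
    (ha : ∀ v ∉ S, a (placePerm tw.σ.toRingEquiv v) = a v) {v : HeightOneSpectrum (𝓞 K')}
    (hv : v ∉ S) {ϖ : (FiniteAdeleRing (𝓞 K') K')ˣ} (hϖ : IsUniformiserAt v ϖ)
    (τ : Fin 3 → HSpace) (g : GfK K') :
    ∑ᶠ o, twistFn tw ψ τ (g * nbrMatrix v ϖ o) =
      (Real.sqrt (Ideal.absNorm v.asIdeal) : ℂ) * a v * twistFn tw ψ τ g := by
  obtain ⟨u, rfl⟩ := (placePerm tw.σ.toRingEquiv).surjective v
  set σ := tw.σ.toRingEquiv
  have huS : u ∉ S := fun h => hv ((hSσ u).2 h)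
  set ϖ' := Units.map (adeleAut σ).toMonoidHom ϖ
  have hϖ' : IsUniformiserAt u ϖ' := isUniformiserAt_map rfl hϖ
  have hmap : u.asIdeal = (placePerm σ u).asIdeal.map
      (RingOfIntegers.mapRingEquiv σ : 𝓞 K' →+* 𝓞 K') := by
    ext r
    rw [Ideal.mem_map_iff_of_surjective ((RingOfIntegers.mapRingEquiv σ : 𝓞 K' ≃+* 𝓞 K') : 𝓞 K' →+* 𝓞 K')
      (RingOfIntegers.mapRingEquiv σ).surjective]
    constructor
    · intro hr
      refine ⟨(RingOfIntegers.mapRingEquiv σ).symm r, (mem_placePerm σ u _).2 ?_,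
        RingEquiv.apply_symm_apply _ r⟩
      rw [RingEquiv.apply_symm_apply]; exact hr
    · rintro ⟨x, hx, rfl⟩
      exact (mem_placePerm σ u x).1 hx
  set e : (𝓞 K' ⧸ (placePerm σ u).asIdeal) ≃+* (𝓞 K' ⧸ u.asIdeal) :=
    Ideal.quotientEquiv _ _ (RingOfIntegers.mapRingEquiv σ) hmap
  have hN : Ideal.absNorm (placePerm σ u).asIdeal = Ideal.absNorm u.asIdeal := by
    rw [Ideal.absNorm_apply, Ideal.absNorm_apply, Submodule.cardQuot_apply,
      Submodule.cardQuot_apply]
    exact Nat.card_congr e.toEquiv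
  have key : ∀ o, twistFn tw ψ τ (g * nbrMatrix (placePerm σ u) ϖ o) =
      ψ (fun i => τ (i + 1)) (gfAut σ g * nbrMatrix u ϖ' (o.map e)) := by
    intro o
    simp only [twistFn, map_mul]
    rcases o with _ | q
    · congr 2
      refine Units.ext (Matrix.ext fun i j => ?_)
      fin_cases i <;> fin_cases j <;> (simp [nbrMatrix, gfAut, gfHom, ϖ', adeleAut]; try rfl)
    · have e1 : gfAut σ (nbrMatrix (placePerm σ u) ϖ (some q)) =
          unipotent (localShift ϖ' (RingOfIntegers.mapRingEquiv σ q.out)) *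
            heckeMatrix K' ϖ' := by
        have hs : adeleAut σ (localShift ϖ q.out) =
            localShift ϖ' (RingOfIntegers.mapRingEquiv σ q.out) := by
          simp only [localShift, map_mul, map_sub, map_one]
          rw [IsScalarTower.algebraMap_apply (𝓞 K') K' (FiniteAdeleRing (𝓞 K') K'), adeleAut,
            adeleHom_algebraMap,
            IsScalarTower.algebraMap_apply (𝓞 K') K' (FiniteAdeleRing (𝓞 K') K')]
          rfl
        rw [← hs]
        refine Units.ext (Matrix.ext fun i j => ?_)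
        fin_cases i <;> fin_cases j <;>
          simp [nbrMatrix, heckeMatrix, gfAut, gfHom, ϖ', adeleAut, Matrix.mul_apply,
            Fin.sum_univ_two]
      rw [e1]
      refine (h.apply_nbr_congr huS hϖ' ?_ _ _)
      rw [← Ideal.Quotient.eq, Ideal.Quotient.mk_out]
      show _ = e q
      conv_rhs => rw [← Ideal.Quotient.mk_out q]
      exact (Ideal.quotientEquiv_mk _ _ _ hmap _).symm
  rw [finsum_congr key, hN, ha u huS]
  refine Eq.trans (finsum_eq_of_bijective (Option.map e) ?_ fun o => rfl)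
    (h.hecke u huS ϖ' hϖ' _ _)
  exact (Equiv.optionCongr e.toEquiv).bijective

include hSσ in
/-- **The twist preserves forms with a stable system.** -/
theorem IsSForm.twist (h : IsSForm Φ' S a ψ)
    (ha : ∀ v ∉ S, a (placePerm tw.σ.toRingEquiv v) = a v) :
    IsSForm Φ' S a (twistFn tw ψ) where
  invariant γ τ g := by
    simp only [twistFn, map_mul, gfAut_toGf]
    rw [show (fun i => Φ'.toInf (i + 1) γ • τ (i + 1)) = fun i =>
      Φ'.toInf i (GeneralLinearGroup.map tw.σ.toRingEquiv.toRingHom γ) • τ (i + 1) from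
      funext fun i => by rw [toInf_twist]]
    exact h.invariant _ _ _
  center τ g z hz := by
    simp only [twistFn, map_mul]
    exact h.center _ _ _ (gfAut_mem_centerGf _ hz)
  smooth := by
    obtain ⟨n, hn, hinv⟩ := h.smooth
    obtain ⟨m, hm, hmn⟩ := gfAut_principalLevel hSσ hn
    exact ⟨m, hm, fun τ g u hu => by simp only [twistFn, map_mul]; exact hinv _ _ _ (hmn u hu)⟩
  continuous g := (h.continuous _).comp (continuous_pi fun i => continuous_apply (i + 1))
  bounded := h.bounded.imp fun _ hC τ g => hC _ _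
  cuspidal g r hr := by
    refine (h.cuspidal (gfAut tw.σ.toRingEquiv g) (fun i => r (i + 1)) fun i => hr (i + 1)).congr'
      ((eventually_ge_atTop 0).mono fun R hR => ?_)
    simp only [twistFn]
    rw [show (Set.univ.pi fun _ : Fin 3 => Metric.closedBall (0 : ℂ) R) =
      Metric.closedBall (0 : Fin 3 → ℂ) R from (closedBall_pi _ hR).symm]
    exact (setAverage_coordShift hR fun z : Fin 3 → ℂ =>
      ψ (fun i => ⟨z i, r (i + 1), hr (i + 1)⟩) (gfAut tw.σ.toRingEquiv g)).symm
  spherical k hk hc i τ g := by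
    have h1 := h.spherical k hk hc (i - 1) (fun j => τ (j + 1)) (gfAut tw.σ.toRingEquiv g)
    simp only [sub_add_cancel] at h1
    refine Eq.trans (integral_congr_ae (Eventually.of_forall fun p => ?_)) h1
    simp only [twistFn]
    congr 2
    funext j
    rcases eq_or_ne (j + 1) i with hj | hj
    · rw [show j = i - 1 from eq_sub_of_add_eq hj, sub_add_cancel, Function.update_self,
        Function.update_self]
    · rw [Function.update_of_ne hj, Function.update_of_ne fun e => hj (by rw [e, sub_add_cancel])]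
  hecke v hv ϖ hϖ τ g := IsSForm.hecke_twist hSσ h ha hv hϖ τ g

variable (tw) in
/-- The twist on forms with a stable system. -/
def twistForm (hSσ : ∀ v, placePerm tw.σ.toRingEquiv v ∈ S ↔ v ∈ S)
    (ha : ∀ v ∉ S, a (placePerm tw.σ.toRingEquiv v) = a v) :
    sForms Φ' S a →ₗ[ℂ] sForms Φ' S a where
  toFun φ := ⟨twistFn tw φ.1, IsSForm.twist hSσ φ.2 ha⟩
  map_add' _ _ := rfl
  map_smul' _ _ := rfl

theorem coe_twistForm (ha : ∀ v ∉ S, a (placePerm tw.σ.toRingEquiv v) = a v)
    (φ : sForms Φ' S a) : (twistForm tw hSσ ha φ).1 = twistFn tw φ.1 := rfl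

theorem twistFn_cube (ψ : (Fin 3 → HSpace) → GfK K' → ℂ) :
    twistFn tw (twistFn tw (twistFn tw ψ)) = ψ := by
  funext τ g
  simp only [twistFn]
  rw [gfAut_cube tw.σ.toRingEquiv tw.order_three g]
  congr 1
  funext i
  congr 1
  revert i; decide

/-- On the space of a level the twist is composition with the twist of points. -/
theorem toSpace_twistFn {U : Subgroup (GfK K')} (hU : IsStableLevel tw.σ.toRingEquiv U)
    (h : IsSForm Φ' S a ψ) (hfix : ∀ τ g, ∀ u ∈ U, ψ τ (g * u) = ψ τ g) (x : Space Φ' U) :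
    toSpace (Φ := Φ') (U := U) (twistFn tw ψ) x =
      toSpace ψ (twistPt (yfAut tw.σ.toRingEquiv hU) x) := by
  obtain ⟨g, hg⟩ := QuotientGroup.mk_surjective x.fin
  obtain ⟨u, hu⟩ := QuotientGroup.mk_out_eq_mul (levelZ U) g
  have hx : twistPt (Φ' := Φ') (yfAut tw.σ.toRingEquiv hU) x =
      Space.mk (fun i => x.pt (i + 1)) ((gfAut tw.σ.toRingEquiv g : GfK K') : Yf U) := by
    show Space.mk _ _ = _
    rw [← hg, yfAut_mk]
  rw [hx, toSpace_mk h hfix]
  obtain ⟨w, hw, z, hz, e⟩ := mem_levelZ.1 u.2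
  show twistFn tw ψ x.pt (Quotient.out x.fin) = _
  rw [← hg, hu, ← e]
  simp only [twistFn, map_mul]
  rw [← mul_assoc, h.center _ _ _ (gfAut_mem_centerGf _ hz), hfix _ _ _ (hU w hw)]

end Fermat.Agent.LT.Descent
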