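/-
The target space of the descent: forms upstairs of the level `J × torus × spherical` with the
system of the data.  It is finite dimensional, nonzero and irreducible under the places over `3`,
so the twist has nonzero trace against a translation supported there.
-/
import Fermat.Agent.LT.Descent.LevelIrreducible
import Fermat.Agent.LT.Descent.TameFactor
import Fermat.Agent.LT.Descent.TwistForm
import Fermat.Agent.LT.Descent.TestPair
import Fermat.Agent.LT.Tame.Cartan

set_option autoImplicit false

noncomputable section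

namespace Fermat.Agent.LT.Descent

open IsDedekindDomain IsDedekindDomain.HeightOneSpectrum NumberField Matrix Filter IsLocalRing
open Fermat.Agent.LT.Adelic Fermat.Agent.LT.Aleph Fermat.Agent.LT.Tame
open Fermat.Agent.LT.Descent.Places
open scoped MatrixGroups

section Modulus

variable {K : Type*} [Field K] [NumberField K] {S : Set (HeightOneSpectrum (𝓞 K))}
  {V : ∀ v : HeightOneSpectrum (𝓞 K), Subgroup (GL (Fin 2) (v.adicCompletion K))}

/-- A level maximal outside `S` contains a congruence subgroup supported in `S`. -/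
theorem exists_supportedIn_le_productLevel (hS : S.Finite)     (hout : ∀ v ∉ S, localFull K v ≤ V v) (hU : IsLevel (productLevel V)) :
    ∃ n, SupportedIn S n ∧ principalLevel K n ≤ productLevel V := by
  classical
  obtain ⟨M, hM, hMU, -⟩ := hU
  obtain ⟨n₀, hn₀, hlt⟩ := exists_supportedIn (S := S) hS
  obtain ⟨k, hk⟩ := exists_pow_intValuation_le hS hlt hM
  refine ⟨n₀ ^ k, ⟨pow_ne_zero _ hn₀.1, fun v hv => by rw [map_pow, hn₀.2 v hv, one_pow]⟩,
    fun g hg => (mem_productLevel V).2 fun v => ?_⟩
  have hint : ∀ w, IsIntLocal (localGL K w g) :=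
    mem_principalLevel_one_iff.1 (principalLevel_mono (one_dvd _) hg)
  by_cases hv : v ∈ S
  · set g' := gfOfLocal K (fun w => if w ∈ S then localGL K w g else 1) fun w => by
      by_cases hw : w ∈ S
      · rw [if_pos hw]; exact hint w
      · rw [if_neg hw]; exact isIntLocal_one
    have hg' : g' ∈ principalLevel K M := by
      have key : ∀ y z : GfK K, MatMemMul (n₀ ^ k)
          ((y : Matrix (Fin 2) (Fin 2) (FiniteAdeleRing (𝓞 K) K)) - 1) →
          (∀ w, localGL K w z = if w ∈ S then localGL K w y else 1) →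
          MatMemMul M ((z : Matrix (Fin 2) (Fin 2) (FiniteAdeleRing (𝓞 K) K)) - 1) := by
        intro y z hy hz i j w
        rw [Matrix.sub_apply, coe_apply_sub, ← localGL_apply, hz w]
        by_cases hw : w ∈ S
        · rw [if_pos hw, localGL_apply, ← coe_apply_sub, ← Matrix.sub_apply]
          exact (hy i j w).trans (hk w hw)
        · rw [if_neg hw, Units.val_one, Matrix.one_apply, Matrix.one_apply]
          split <;> simp [coe_apply_one, coe_apply_zero]
      exact mem_principalLevel.2 ⟨key g g' (mem_principalLevel.1 hg).1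
        fun w => localGL_gfOfLocal _ _ w,
        key g⁻¹ g'⁻¹ (mem_principalLevel.1 hg).2 fun w => by
          rw [map_inv, map_inv, localGL_gfOfLocal]
          by_cases hw : w ∈ S <;> simp [hw]⟩
    have := (mem_productLevel V).1 (hMU hg') v
    rwa [localGL_gfOfLocal, if_pos hv] at this
  · exact hout v hv (hint v)

end Modulus

section Torus

variable {K : Type*} [Field K] [NumberField K] {v : HeightOneSpectrum (𝓞 K)}
  {a : ResidueField (v.adicCompletionIntegers K)}

/-- The torus level has the orbits of the maximal compact on its cosets. -/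
theorem exists_torusLevel_coset_eq (ha : ∀ t, t ^ 2 - t ≠ a)
    (g k : GL (Fin 2) (v.adicCompletion K)) (hk : IsIntLocal k) :
    ∃ j ∈ torusLevel v a, IsIntLocal ((j * g)⁻¹ * (k * g)) := by
  have hdet : ∀ {γ : GL (Fin 2) (v.adicCompletion K)}, IsIntLocal γ →
      Valued.v (γ : Matrix (Fin 2) (Fin 2) (v.adicCompletion K)).det = 1 := fun {γ} hγ =>
    (RankinSelberg.IsIntegralAt.of_both (fun i j => (hγ i j).1) fun i j => (hγ i j).2).2
  obtain ⟨M, hM⟩ := exists_intGL_eq hk
  have hk' : ProjGenLinGroup.mk k ∈ fullLevel (A := v.adicCompletionIntegers K)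
      (v.adicCompletion K) := by
    rw [← hM]; exact toPGL_mem_fullLevel _ M
  obtain ⟨h, hh, hmem⟩ := exists_torus_coset_eq (v.adicCompletion K) ha (ProjGenLinGroup.mk g) _ hk'
  rw [← map_torusLevel] at hh
  obtain ⟨j, hj, rfl⟩ := Subgroup.mem_map.1 hh
  refine ⟨j, hj, ?_⟩
  rw [← map_mul, ← map_mul, ← map_inv, ← map_mul] at hmem
  obtain ⟨N, -, hN⟩ := (mem_levelOf _).1 hmem
  obtain ⟨c, hc⟩ := ProjGenLinGroup.mk_eq_mk_iff.1
    (show ProjGenLinGroup.mk (intGL v N) = ProjGenLinGroup.mk ((j * g)⁻¹ * (k * g)) from hN)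
  have hjint : IsIntLocal j := by
    obtain ⟨P, -, rfl⟩ := hj
    exact isIntLocal_intGL P
  have hc1 : Valued.v (c : v.adicCompletion K) = 1 := by
    have h1 := congrArg (fun x : GL (Fin 2) (v.adicCompletion K) =>
      Valued.v (x : Matrix (Fin 2) (Fin 2) (v.adicCompletion K)).det) hc
    have hg0 : Valued.v (g : Matrix (Fin 2) (Fin 2) (v.adicCompletion K)).det ≠ 0 :=
      (Valuation.ne_zero_iff _).2 ((Matrix.isUnit_iff_isUnit_det _).1 g.isUnit).ne_zero
    have hR : Valued.v ((((j * g)⁻¹ * (k * g) : GL (Fin 2) (v.adicCompletion K))) :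
        Matrix (Fin 2) (Fin 2) (v.adicCompletion K)).det = 1 := by
      have h2 : ((j * g : GL (Fin 2) (v.adicCompletion K)) : Matrix (Fin 2) (Fin 2) (v.adicCompletion K)).det *
          (((j * g)⁻¹ * (k * g) : GL (Fin 2) (v.adicCompletion K)) : Matrix (Fin 2) (Fin 2) (v.adicCompletion K)).det =
          ((k * g : GL (Fin 2) (v.adicCompletion K)) : Matrix (Fin 2) (Fin 2) (v.adicCompletion K)).det := by
        rw [← det_mul, ← Units.val_mul, mul_inv_cancel_left]
      have h3 := congrArg Valued.v h2
      rw [map_mul, Units.val_mul j, Units.val_mul k, det_mul, det_mul, map_mul, map_mul,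
        hdet hjint, hdet hk, one_mul] at h3
      exact (mul_eq_left₀ hg0).1 h3
    replace h1 := h1.trans hR
    simp only [Units.val_mul, det_mul, map_mul, hdet (isIntLocal_intGL N), one_mul] at h1
    simp [GeneralLinearGroup.scalar] at h1
    exact h1
  rw [← hc]
  refine IsIntLocal.mul ?_ ?_ <;> first | exact isIntLocal_intGL N | skip
  intro p q
  rw [← map_inv]
  fin_cases p <;> fin_cases q <;> simp [GeneralLinearGroup.scalar, hc1]

end Torus

namespace DescentData

variable {K : Type*} [Field K] [NumberField K] {K' : Type*} [Field K'] [NumberField K']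
  [Algebra K K'] {Φ : Frame K Unit} {Φ' : Frame K' (Fin 3)} {tw : CubicTwist Φ Φ'}
  (D : DescentData tw)

/-- The forms upstairs with the system of the data. -/
abbrev forms : Submodule ℂ ((Fin 3 → HSpace) → GfK K' → ℂ) :=
  sForms Φ' (bad' (tw := tw)) D.eig

/-- Translations on those forms. -/
abbrev formsRep : gfSupported (bad' (tw := tw)) →* (D.forms →ₗ[ℂ] D.forms) :=
  translateRep Φ' (bad' (tw := tw)) D.eig D.finite_bad'

/-- The group of the target level. -/
abbrev targetGroup : Subgroup (gfSupported (bad' (tw := tw))) :=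
  supLevel (bad' (tw := tw)) D.lev₀'.level

/-- **The target space.** -/
def target : Submodule ℂ D.forms := fixedVectors D.formsRep D.targetGroup

/-- The form of the data. -/
def baseForm : D.forms := ⟨D.ψ, D.isForm⟩

theorem three_notMem_of_mem_placesAbove {w : HeightOneSpectrum (𝓞 K')}
    (h : w ∈ placesAbove (tamePlaces tw.σ)) : w ∉ threePlaces K' := by
  obtain ⟨v, hv, hw⟩ := h
  rw [mem_threePlaces_iff hw]
  exact hv.1

theorem full_outside (w : HeightOneSpectrum (𝓞 K')) (hw : w ∉ bad' (tw := tw)) :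
    localFull K' w ≤ D.lev₀'.loc w := by
  simp only [bad', Set.mem_union, not_or] at hw
  rw [D.lev₀'.loc_of_good hw.1 hw.2 (Set.notMem_empty w)]

theorem exists_modulus : ∃ n, SupportedIn (bad' (tw := tw)) n ∧
    principalLevel K' n ≤ D.lev₀'.level :=
  exists_supportedIn_le_productLevel D.finite_bad' D.full_outside D.lev₀'.isLevel

theorem exists_targetProj : ∃ e, IsLevelProj D.formsRep e D.target ∧
    ∀ φ H, IsStab D.formsRep D.targetGroup H φ → e φ = avgOver D.formsRep D.targetGroup H φ := by
  obtain ⟨n, hn, hnU⟩ := D.exists_modulus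
  exact exists_isLevelProj_translateRep D.finite_bad' hn hnU D.lev₀'.level_le

instance finiteDimensional_target : FiniteDimensional ℂ D.target := by
  obtain ⟨n, hn, hnU⟩ := D.exists_modulus
  exact finiteDimensional_fixedVectors D.finite_bad' hn hnU D.lev₀'.level_le

theorem baseForm_mem_fullAt : D.baseForm ∈ fixedVectors D.formsRep
    (supLevel (bad' (tw := tw))
      (productLevel (fullAt (placesAbove (tamePlaces tw.σ)) D.lev₀'.loc))) := by
  intro h hh
  refine Subtype.ext (funext fun τ => funext fun g => ?_)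
  have hl := (mem_productLevel _).1 (mem_supLevel.1 hh)
  refine D.fixed τ g _ (fun w => fullAt_le D.lev₀'.loc_le w (hl w)) fun w hw => ?_
  have h1 := hl w
  rwa [fullAt_of_notMem fun ht => three_notMem_of_mem_placesAbove ht hw, D.lev₀'.loc_of_three hw]
    at h1

theorem baseForm_mem_target : D.baseForm ∈ D.target :=
  fixedVectors_anti _ _ (supLevel_le_fullAt D.lev₀'.loc_le) D.baseForm_mem_fullAt

theorem baseForm_ne_zero : D.baseForm ≠ 0 := fun h => D.ne_zero (congrArg Subtype.val h)

theorem target_ne_bot : D.target ≠ ⊥ :=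
  (Submodule.ne_bot_iff _).2 ⟨_, D.baseForm_mem_target, D.baseForm_ne_zero⟩

/-- The elements living at the places over `3`. -/
def threePart (_D' : DescentData tw) : Subgroup (gfSupported (bad' (tw := tw))) where
  carrier := {x | ∀ w ∈ placesAbove (tamePlaces tw.σ), localGL K' w (x : GfK K') = 1}
  one_mem' := fun w _ => map_one _
  mul_mem' := fun {x y} hx hy w hw => by rw [Subgroup.coe_mul, map_mul, hx w hw, hy w hw, one_mul]
  inv_mem' := fun {x} hx w hw => by rw [Subgroup.coe_inv, map_inv, hx w hw, inv_one]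

variable {D}

/-- **The target is irreducible under the places over `3`.** -/
theorem eq_of_isStableOn_target {e : D.forms →ₗ[ℂ] D.forms}
    (hJ : IsLevelProj D.formsRep e D.target)
    (he : ∀ φ H, IsStab D.formsRep D.targetGroup H φ → e φ = avgOver D.formsRep D.targetGroup H φ)
    {N : Submodule ℂ D.forms} (hle : N ≤ D.target) (hN0 : N ≠ ⊥)
    (hN : IsStableOn D.formsRep e (D.threePart : Set _) N) : N = D.target := by
  obtain ⟨n, hn, hnU⟩ := D.exists_modulus
  set T := placesAbove (K' := K') (tamePlaces tw.σ)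
  have hV := D.lev₀'.loc_le
  refine eq_of_isStableOn_factor hJ
    (fun N hle hN0 hN => eq_of_isStableOn_level D.finite_bad' hn hnU hJ hle hN0 hN)
    (T := {t | ∀ w ∉ T, localGL K' w (t : GfK K') = 1}) (fun g => ?_) (fun s hs t ht φ hφ => ?_)
    D.baseForm_mem_target D.baseForm_ne_zero (fun t ht => ?_) hle hN0 hN
  · obtain ⟨s, hs, hs'⟩ := exists_part Tᶜ g
    obtain ⟨t, ht, ht'⟩ := exists_part T g
    refine ⟨s, fun w hw => hs' w (not_not.2 hw), t, ht', fun φ hφ => ?_⟩
    rw [show g = s * t from Subtype.ext (Aleph.gf_ext fun w => by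
      rw [Subgroup.coe_mul, map_mul]
      by_cases hw : w ∈ T
      · rw [hs' w (not_not.2 hw), ht w hw, one_mul]
      · rw [hs w hw, ht' w hw, mul_one])]
    exact (levelProj_mul_of_disjoint D.finite_bad' hV he Tᶜ (fun w hw => hs' w hw)
      (fun w hw => ht' w hw) hφ).symm
  · rw [levelProj_mul_of_disjoint D.finite_bad' hV he Tᶜ (fun w hw => hs w (not_not.1 hw))
      (fun w hw => ht w hw) hφ,
      levelProj_mul_of_disjoint D.finite_bad' hV he T ht (fun w hw => hs w hw) hφ,
      show s * t = t * s from Subtype.ext (commute_of_disjoint fun w => by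
        by_cases hw : w ∈ T
        · exact Or.inl (hs w hw)
        · exact Or.inr (ht w hw))]
  · obtain ⟨e₀, he₀⟩ := exists_levelProj (exists_isStab_translateRep (Φ := Φ') (a := D.eig)
      D.finite_bad' (productLevel_le (fullAt_le (P := T) hV)))
    refine exists_levelProj_eq_smul D.finite_bad' hV he he₀ (fun w hw g k hk => ?_)
      Set.subset_union_right D.baseForm_mem_fullAt (fun w hw => ?_) ht
    · rw [D.lev₀'.loc_of_tame (three_notMem_of_mem_placesAbove hw) hw]
      exact exists_torusLevel_coset_eq (D.lev₀'.a_spec w hw) g k hk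
    · obtain ⟨ϖ, hϖ⟩ := exists_uniformiser w
      exact ⟨ϖ, _, hϖ, D.isForm₀.hecke w (three_notMem_of_mem_placesAbove hw) ϖ hϖ⟩

variable (D)

theorem placePerm_mem_bad'_iff (w : HeightOneSpectrum (𝓞 K')) :
    placePerm tw.σ.toRingEquiv w ∈ bad' (tw := tw) ↔ w ∈ bad' (tw := tw) := by
  obtain ⟨v, hv⟩ := exists_below (K := K) w
  rw [mem_bad'_iff hv, mem_bad'_iff (isAbove_placePerm hv)]

include D in
theorem eig_placePerm {w : HeightOneSpectrum (𝓞 K')} (hw : w ∉ bad' (tw := tw)) :
    D.eig (placePerm tw.σ.toRingEquiv w) = D.eig w := by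
  obtain ⟨v, hv⟩ := exists_below (K := K) w
  have hvb : v ∉ bad (tw := tw) := fun h => hw ((mem_bad'_iff hv).2 h)
  rcases D.isInert_or_isSplit hvb with h | h
  · rw [(h w hv).1]
  · exact D.eig_twist v w (fun h3 => hvb (Or.inl h3)) h hv

theorem isStableLevel₀ : IsStableLevel tw.σ.toRingEquiv D.lev₀'.level := by
  refine isStableLevel_productLevel _ fun w γ hγ => ?_
  have heq : ∀ u, ((3 : 𝓞 K') ∈ u.asIdeal ∨ u ∈ placesAbove (tamePlaces tw.σ)) →
      D.lev'.loc u = D.lev₀'.loc u := fun u hu => by
    by_cases h3 : (3 : 𝓞 K') ∈ u.asIdeal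
    · exact (D.lev'.loc_of_three h3).trans (D.lev₀'.loc_of_three h3).symm
    · exact (D.lev'.loc_of_tame h3 (hu.resolve_left h3)).trans
        (D.lev₀'.loc_of_tame h3 (hu.resolve_left h3)).symm
  by_cases hu : (3 : 𝓞 K') ∈ w.asIdeal ∨ w ∈ placesAbove (tamePlaces tw.σ)
  · rw [← heq w hu]
    refine D.stable w γ ?_
    rw [heq _ (hu.imp (fun h => by rwa [mem_placePerm, map_ofNat])
      (D.placePerm_mem_placesAbove_iff _ w).2)]
    exact hγ
  · rw [D.lev₀'.loc_of_good (fun h => hu (Or.inl h)) (fun h => hu (Or.inr h))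
      (Set.notMem_empty w)]
    intro i j
    rw [← map_inv]
    exact ⟨completionEquiv_mem_integers _ (valuation_apply_placePerm tw.σ.toRingEquiv w)
        ((D.lev₀'.loc_le _ hγ : IsIntLocal γ) i j).1,
      completionEquiv_mem_integers _ (valuation_apply_placePerm tw.σ.toRingEquiv w)
        ((D.lev₀'.loc_le _ hγ : IsIntLocal γ) i j).2⟩

/-- The twist on the forms. -/
def formsTwist : D.forms →ₗ[ℂ] D.forms :=
  twistForm tw (fun w => placePerm_mem_bad'_iff w) fun _ hw => D.eig_placePerm hw

theorem coe_formsTwist (φ : D.forms) : (D.formsTwist φ).1 = twistFn tw φ.1 := rfl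

theorem invariant_of_mem_target {φ : D.forms} (hφ : φ ∈ D.target) :
    ∀ τ g, ∀ u ∈ D.lev₀'.level, φ.1 τ (g * u) = φ.1 τ g := by
  obtain ⟨n, hn, hnU⟩ := D.exists_modulus
  exact invariant_of_mem_fixedVectors D.finite_bad' hn hnU D.lev₀'.level_le hφ

theorem formsTwist_mem_target {φ : D.forms} (hφ : φ ∈ D.target) : D.formsTwist φ ∈ D.target :=
  fun u hu => Subtype.ext (funext fun τ => funext fun g => by
    show twistFn tw φ.1 τ (g * (u : GfK K')) = twistFn tw φ.1 τ g
    simp only [twistFn, map_mul]
    exact D.invariant_of_mem_target hφ _ _ _ (D.isStableLevel₀ _ hu))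

/-- The twist on the target. -/
def targetTwist : Module.End ℂ D.target :=
  LinearMap.codRestrict D.target (D.formsTwist ∘ₗ D.target.subtype)
    fun φ => D.formsTwist_mem_target φ.2

theorem coe_targetTwist (φ : D.target) :
    ((D.targetTwist φ : D.target) : D.forms).1 = twistFn tw φ.1.1 := rfl

theorem targetTwist_ne_zero : D.targetTwist ≠ 0 := fun h => D.ne_zero (by
  have h1 := congrArg (fun f : Module.End ℂ D.target =>
    ((f ⟨_, D.baseForm_mem_target⟩ : D.target) : D.forms).1) h
  simp only [coe_targetTwist, LinearMap.zero_apply] at h1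
  rw [← twistFn_cube (tw := tw) D.ψ, show twistFn tw D.ψ = 0 from h1]
  rfl)

theorem targetTwist_cube : D.targetTwist * D.targetTwist * D.targetTwist = 1 :=
  LinearMap.ext fun φ => Subtype.ext (Subtype.ext (twistFn_cube φ.1.1))

theorem targetTwist_sq_ne_zero : D.targetTwist * D.targetTwist ≠ 0 := fun h =>
  D.baseForm_ne_zero (congrArg Subtype.val (show (⟨_, D.baseForm_mem_target⟩ : D.target) = 0 by
    have h1 := LinearMap.congr_fun D.targetTwist_cube ⟨_, D.baseForm_mem_target⟩
    rw [h, zero_mul, LinearMap.zero_apply, Module.End.one_apply] at h1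
    exact h1.symm))

/-- **Every nonzero operator on the target has a nonzero trace against some compressed translation
over `3`.** -/
theorem exists_trace_target_mul_ne_zero {e : D.forms →ₗ[ℂ] D.forms}
    (hJ : IsLevelProj D.formsRep e D.target)
    (he : ∀ φ H, IsStab D.formsRep D.targetGroup H φ → e φ = avgOver D.formsRep D.targetGroup H φ)
    {θ : Module.End ℂ D.target} (hθ : θ ≠ 0) :
    ∃ g ∈ D.threePart, LinearMap.trace ℂ D.target (levelOp hJ g * θ) ≠ 0 := by
  refine exists_trace_levelOp_ne_zero hJ D.threePart (fun g hg => ?_)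
    (fun N hle hN0 hN => eq_of_isStableOn_target hJ he hle hN0 hN) hθ
  classical
  obtain ⟨m, hm, hconj⟩ := exists_conj_le_supported D.finite_bad' (inv_mem g.2)
    D.exists_modulus.choose_spec.1
  set H := (principalLevel K' m).comap
    ((gfSupported (bad' (tw := tw))).subtype.comp D.targetGroup.subtype)
  have hfin : H.FiniteIndex := finiteIndex_comap_principalLevel _
    (fun j => D.lev₀'.level_le j.2) hm.1
  have := Fintype.ofFinite (D.targetGroup ⧸ H)
  have hpart : ∀ j : D.targetGroup, ∃ s ∈ D.threePart, ∃ t ∈ D.targetGroup,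
      (j : gfSupported (bad' (tw := tw))) * g = s * t := fun j => by
    obtain ⟨jA, hjA, hjA'⟩ := exists_part (placesAbove (K' := K') (tamePlaces tw.σ))ᶜ
      (j : gfSupported (bad' (tw := tw)))
    obtain ⟨jB, hjB, hjB'⟩ := exists_part (placesAbove (K' := K') (tamePlaces tw.σ))
      (j : gfSupported (bad' (tw := tw)))
    refine ⟨jA * g, mul_mem (fun w hw => hjA' w (not_not.2 hw)) hg, jB,
      mem_supLevel.2 ((mem_productLevel _).2 fun w => ?_), Subtype.ext (Aleph.gf_ext fun w => ?_)⟩
    · by_cases hw : w ∈ placesAbove (K' := K') (tamePlaces tw.σ)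
      · rw [hjB w hw]; exact (mem_productLevel _).1 j.2 w
      · rw [hjB' w hw]; exact one_mem _
    · simp only [Subgroup.coe_mul, map_mul]
      by_cases hw : w ∈ placesAbove (K' := K') (tamePlaces tw.σ)
      · rw [hjA' w (not_not.2 hw), hjB w hw, hg w hw, mul_one, one_mul, one_mul]
      · rw [hjA w hw, hjB' w hw, mul_one]
  choose s hs t ht hst using hpart
  refine ⟨∑ q : D.targetGroup ⧸ H,
    Finsupp.single (s q.out) ((Fintype.card (D.targetGroup ⧸ H) : ℂ))⁻¹,
    fun x hx => ?_, fun φ hφ => ?_⟩
  · obtain ⟨q, -, hq⟩ := Finset.mem_biUnion.1 (Finsupp.support_finsetSum hx)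
    rw [Finset.mem_singleton.1 (Finsupp.support_single_subset hq)]
    exact hs _
  · have hstab : IsStab D.formsRep D.targetGroup H (D.formsRep g φ) := by
      refine ⟨hfin, fun h hh => Subtype.ext (funext fun τ => funext fun y => ?_)⟩
      show φ.1 τ (y * ((h : gfSupported (bad' (tw := tw))) : GfK K') * (g : GfK K')) =
        φ.1 τ (y * (g : GfK K'))
      have h1 := hconj _ hh
      rw [inv_inv] at h1
      conv_rhs => rw [← D.invariant_of_mem_target hφ τ (y * (g : GfK K')) _
        (D.exists_modulus.choose_spec.2 h1)]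
      simp [mul_assoc]
    rw [he _ H hstab, avgOver_eq hfin, Finset.smul_sum, ← Finsupp.sum_finsetSum_index
      (h := fun x r => r • D.formsRep x φ) (fun _ => zero_smul ℂ _)
      (fun _ _ _ => add_smul _ _ _)]
    refine Finset.sum_congr rfl fun q _ => ?_
    rw [Finsupp.sum_single_index (h := fun x r => r • D.formsRep x φ) (zero_smul ℂ _)]
    congr 1
    rw [← Module.End.mul_apply, ← map_mul, hst, map_mul, Module.End.mul_apply, hφ _ (ht _)]

/-- **A twisted trace on the target is nonzero.** -/
theorem exists_trace_target_ne_zero : ∃ (e : D.forms →ₗ[ℂ] D.forms)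
    (hJ : IsLevelProj D.formsRep e D.target),
    (∀ φ H, IsStab D.formsRep D.targetGroup H φ → e φ = avgOver D.formsRep D.targetGroup H φ) ∧
      ∃ g ∈ D.threePart, LinearMap.trace ℂ D.target
        (levelOp hJ g * (D.targetTwist * D.targetTwist)) ≠ 0 := by
  obtain ⟨e, hJ, he⟩ := D.exists_targetProj
  exact ⟨e, hJ, he, D.exists_trace_target_mul_ne_zero hJ he D.targetTwist_sq_ne_zero⟩

end DescentData

end Fermat.Agent.LT.Descent
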