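import Fermat.Agent.LT.Descent.SForm
import Fermat.Agent.LT.Adelic.Measure
import Mathlib.MeasureTheory.Constructions.Pi
import Mathlib.MeasureTheory.Measure.Haar.InnerProductSpace

/-!
# Independence of the frame

Two frames differ by a permutation of the indices and conjugations; forms transport along it, and a
form for a set of places is one for every larger set.
-/

set_option autoImplicit false

noncomputable section

namespace Fermat.Agent.LT.Descent

open Fermat.Agent.LT.Adelic MeasureTheory NumberField IsDedekindDomain Filter Complex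
open scoped MatrixGroups Topology ComplexConjugate

/-- Conjugation or the identity. -/
def condConj (b : Bool) : ℂ →+* ℂ := if b then starRingEnd ℂ else RingHom.id ℂ

@[simp] theorem condConj_condConj (b : Bool) (z : ℂ) : condConj b (condConj b z) = z := by
  cases b <;> simp [condConj]

theorem norm_condConj (b : Bool) (z : ℂ) : ‖condConj b z‖ = ‖z‖ := by
  cases b <;> simp [condConj]

/-- The measure-preserving equivalence of `ℂ` given by `condConj`. -/
def condConjEquiv (b : Bool) : ℂ ≃ᵐ ℂ :=
  if b then Complex.conjLIE.toHomeomorph.toMeasurableEquiv else MeasurableEquiv.refl ℂ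

@[simp] theorem condConjEquiv_apply (b : Bool) (z : ℂ) : condConjEquiv b z = condConj b z := by
  cases b <;> simp [condConjEquiv, condConj]

theorem measurePreserving_condConjEquiv (b : Bool) :
    MeasurePreserving (condConjEquiv b) := by
  cases b
  · exact MeasurePreserving.id _
  · exact Complex.conjLIE.measurePreserving

/-- The conjugate point. -/
def conjPt (b : Bool) (p : HSpace) : HSpace := ⟨condConj b p.z, p.r, p.r_pos⟩

@[simp] theorem conjPt_conjPt (b : Bool) (p : HSpace) : conjPt b (conjPt b p) = p :=
  HSpace.ext (condConj_condConj b p.z) rfl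

theorem coshDist_conjPt (b : Bool) (p q : HSpace) :
    HSpace.coshDist (conjPt b p) (conjPt b q) = HSpace.coshDist p q := by
  cases b
  · rfl
  · simp [HSpace.coshDist, conjPt, condConj, ← map_sub]

theorem conjPt_smul (b : Bool) (g : GL (Fin 2) ℂ) (p : HSpace) :
    conjPt b (g • p) = Matrix.GeneralLinearGroup.map (condConj b) g • conjPt b p := by
  cases b
  · rw [show Matrix.GeneralLinearGroup.map (condConj false) g = g from
      Units.ext (Matrix.ext fun i j => rfl)]
    rfl
  · have hden : HSpace.denSq (Matrix.GeneralLinearGroup.map (condConj true) g) (conjPt true p) =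
        HSpace.denSq g p := by
      simp [HSpace.denSq, conjPt, condConj, ← map_mul, ← map_add]
    refine HSpace.ext ?_ ?_
    · rw [HSpace.smul_z, hden]
      simp [conjPt, condConj, HSpace.smul_z, map_div₀]
    · rw [HSpace.smul_r, hden]
      simp [conjPt, condConj, HSpace.smul_r, HSpace.absDet, Matrix.det_fin_two, ← map_mul,
        ← map_sub]

theorem continuous_conjPt (b : Bool) : Continuous (conjPt b) := by
  refine HSpace.continuous_iff_coords.mpr ?_
  cases b
  · exact HSpace.continuous_z.prodMk HSpace.continuous_r
  · exact (Complex.continuous_conj.comp HSpace.continuous_z).prodMk HSpace.continuous_r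

/-- `conjPt` as a measurable equivalence. -/
def conjPtEquiv (b : Bool) : HSpace ≃ᵐ HSpace where
  toFun := conjPt b
  invFun := conjPt b
  left_inv := conjPt_conjPt b
  right_inv := conjPt_conjPt b
  measurable_toFun := (continuous_conjPt b).measurable
  measurable_invFun := (continuous_conjPt b).measurable

theorem measurePreserving_conjPtEquiv (b : Bool) :
    MeasurePreserving (conjPtEquiv b) HSpace.measure HSpace.measure := by
  refine ⟨(conjPtEquiv b).measurable, Measure.ext fun s hs => ?_⟩
  rw [Measure.map_apply (conjPtEquiv b).measurable hs,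
    HSpace.measure_apply_set ((conjPtEquiv b).measurable hs), HSpace.measure_apply_set hs]
  have himg : HSpace.coords '' ((conjPtEquiv b) ⁻¹' s) =
      Prod.map (condConjEquiv b) id ⁻¹' (HSpace.coords '' s) := by
    ext x
    simp only [Set.mem_image, Set.mem_preimage]
    constructor
    · rintro ⟨p, hp, rfl⟩
      exact ⟨_, hp, by simp [conjPtEquiv, conjPt, HSpace.coords]⟩
    · rintro ⟨p, hp, hx⟩
      refine ⟨conjPt b p, by simpa [conjPtEquiv] using hp, ?_⟩
      obtain ⟨h1, h2⟩ := Prod.ext_iff.1 hx
      refine Prod.ext ?_ h2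
      simpa [conjPt, HSpace.coords] using congrArg (condConj b) h1
  have hmp : MeasurePreserving (Prod.map (condConjEquiv b) id : ℂ × ℝ → ℂ × ℝ) :=
    (measurePreserving_condConjEquiv b).prod (MeasurePreserving.id _)
  rw [himg]
  exact hmp.setLIntegral_comp_preimage (f := HSpace.dens)
    (HSpace.measurableEmbedding_coords.measurableSet_image.mpr hs)
    (by unfold HSpace.dens; fun_prop)

variable {K : Type*} [Field K] [NumberField K] {ι : Type*}

omit [NumberField K] in
/-- Two frames differ by a permutation and conjugations. -/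
theorem exists_frame_match (Φ Φ₁ : Frame K ι) :
    ∃ (e : ι ≃ ι) (b : ι → Bool), ∀ i, Φ.emb (e i) = (condConj (b i)).comp (Φ₁.emb i) := by
  let e : ι ≃ ι := (Equiv.ofBijective _ Φ₁.bij).trans (Equiv.ofBijective _ Φ.bij).symm
  have he : ∀ i, ∃ b : Bool, Φ.emb (e i) = (condConj b).comp (Φ₁.emb i) := by
    intro i
    have h : InfinitePlace.mk (Φ.emb (e i)) = InfinitePlace.mk (Φ₁.emb i) :=
      (Equiv.ofBijective _ Φ.bij).apply_symm_apply _
    rcases InfinitePlace.mk_eq_iff.1 h with h | h
    · exact ⟨false, h.trans (RingHom.ext fun x => rfl)⟩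
    · refine ⟨true, RingHom.ext fun x => ?_⟩
      have hx : conj (Φ.emb (e i) x) = Φ₁.emb i x := RingHom.congr_fun h x
      simp [condConj, ← hx]
  choose b hb using he
  exact ⟨e, b, hb⟩

variable [Fintype ι] [DecidableEq ι] {Φ : Frame K ι} {S : Set (HeightOneSpectrum (𝓞 K))}
  {a : HeightOneSpectrum (𝓞 K) → ℂ} {ψ : (ι → HSpace) → GfK K → ℂ}

/-- A form for `S` is a form for a larger set. -/
theorem IsSForm.mono (h : IsSForm Φ S a ψ) {S' : Set (HeightOneSpectrum (𝓞 K))} (hS : S ⊆ S') :
    IsSForm Φ S' a ψ where
  invariant := h.invariant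
  center := h.center
  smooth := by
    obtain ⟨n, ⟨hn0, hn⟩, hfix⟩ := h.smooth
    exact ⟨n, ⟨hn0, fun v hv => hn v fun hvS => hv (hS hvS)⟩, hfix⟩
  continuous := h.continuous
  bounded := h.bounded
  cuspidal := h.cuspidal
  spherical := h.spherical
  hecke v hv := h.hecke v fun hvS => hv (hS hvS)

/-- The point of the frame `Φ` attached to a point of a matched frame. -/
def framePt (e : ι ≃ ι) (b : ι → Bool) (τ : ι → HSpace) : ι → HSpace :=
  fun j => conjPt (b (e.symm j)) (τ (e.symm j))

omit [Fintype ι] in
theorem framePt_update (e : ι ≃ ι) (b : ι → Bool) (τ : ι → HSpace) (i : ι) (p : HSpace) :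
    framePt e b (Function.update τ i p) =
      Function.update (framePt e b τ) (e i) (conjPt (b i) p) := by
  funext j
  by_cases hj : j = e i
  · subst hj; simp [framePt]
  · rw [Function.update_of_ne hj]
    simp only [framePt]
    rw [Function.update_of_ne fun h => hj (by rw [← h, e.apply_symm_apply])]

/-- The equivalence of horizontal coordinates. -/
def frameCoord (e : ι ≃ ι) (b : ι → Bool) : (ι → ℂ) ≃ᵐ (ι → ℂ) :=
  (MeasurableEquiv.piCongrRight fun i => condConjEquiv (b i)).trans
    (MeasurableEquiv.piCongrLeft (fun _ => ℂ) e)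

omit [Fintype ι] [DecidableEq ι] in
theorem frameCoord_apply (e : ι ≃ ι) (b : ι → Bool) (z : ι → ℂ) (j : ι) :
    frameCoord e b z j = condConj (b (e.symm j)) (z (e.symm j)) := by
  obtain ⟨i, rfl⟩ := e.surjective j
  simp [frameCoord, MeasurableEquiv.trans_apply, MeasurableEquiv.piCongrLeft_apply_apply,
    MeasurableEquiv.piCongrRight]

omit [DecidableEq ι] in
theorem measurePreserving_frameCoord (e : ι ≃ ι) (b : ι → Bool) :
    MeasurePreserving (frameCoord e b) :=
  (volume_measurePreserving_piCongrLeft (fun _ => ℂ) e).comp
    (volume_preserving_pi fun i => measurePreserving_condConjEquiv (b i))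

/-- Forms do not depend on the frame. -/
theorem IsSForm.reframe (h : IsSForm Φ S a ψ) (Φ₁ : Frame K ι) {e : ι ≃ ι} {b : ι → Bool}
    (he : ∀ i, Φ.emb (e i) = (condConj (b i)).comp (Φ₁.emb i)) :
    IsSForm Φ₁ S a fun τ g => ψ (framePt e b τ) g where
  invariant γ τ g := by
    refine Eq.trans ?_ (h.invariant γ (framePt e b τ) g)
    congr 1
    funext j
    obtain ⟨i, rfl⟩ := e.surjective j
    simp only [framePt, e.symm_apply_apply, conjPt_smul]
    congr 1
    refine Units.ext (Matrix.ext fun x y => ?_)
    exact (RingHom.congr_fun (he i) _).symm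
  center τ g z hz := h.center _ g z hz
  smooth := by
    obtain ⟨n, hn, hfix⟩ := h.smooth
    exact ⟨n, hn, fun τ g u hu => hfix _ g u hu⟩
  continuous g := (h.continuous g).comp
    (continuous_pi fun j => (continuous_conjPt _).comp (continuous_apply (e.symm j)))
  bounded := h.bounded.imp fun _ hC τ g => hC _ g
  cuspidal g r hr := by
    refine (h.cuspidal g (r ∘ e.symm) fun j => hr _).congr fun R => ?_
    have hset : frameCoord e b ⁻¹' Set.univ.pi (fun _ : ι => Metric.closedBall (0 : ℂ) R) =
        Set.univ.pi fun _ : ι => Metric.closedBall (0 : ℂ) R := by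
      ext z
      simp only [Set.mem_preimage, Set.mem_univ_pi, mem_closedBall_zero_iff, frameCoord_apply,
        norm_condConj]
      exact ⟨fun h i => by simpa using h (e i), fun h j => h _⟩
    rw [setAverage_eq, setAverage_eq,
      ← (measurePreserving_frameCoord e b).setIntegral_preimage_emb
        (frameCoord e b).measurableEmbedding, hset]
    congr 1
    refine setIntegral_congr_fun (MeasurableSet.univ_pi fun _ => measurableSet_closedBall)
      fun z _ => ?_
    congr 1
    funext j
    simp [framePt, conjPt, frameCoord_apply]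
  spherical k hk hc i τ g := by
    rw [← h.spherical k hk hc (e i) (framePt e b τ) g,
      ← (measurePreserving_conjPtEquiv (b i)).integral_comp (conjPtEquiv (b i)).measurableEmbedding]
    refine integral_congr_ae (Eventually.of_forall fun p => ?_)
    simp only [framePt_update, conjPtEquiv, MeasurableEquiv.coe_mk, Equiv.coe_fn_mk, conjPt_conjPt]
    rw [show framePt e b τ (e i) = conjPt (b i) (τ i) by simp [framePt]]
    rw [← coshDist_conjPt (b i) (τ i) (conjPt (b i) p), conjPt_conjPt]
  hecke v hv ϖ hϖ τ g := h.hecke v hv ϖ hϖ (framePt e b τ) g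

end Fermat.Agent.LT.Descent

end
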