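import Fermat.Agent.LT.Aleph.Bridge
import Fermat.Agent.LT.Descent.Cuspidal
import Fermat.Agent.LT.Descent.TargetSurj

/-!
# The cuspidal combination of the comparison

The polynomial of the cuspidal operators, realised as a combination of test pairs whose finite
parts are corresponding words in the good atoms.  It has cuspidal images on both sides and acts by
a nonzero scalar on the classes of the target.
-/

set_option autoImplicit false

noncomputable section

namespace Fermat.Agent.LT.Descent

open Fermat.Agent.Galois Fermat.Agent.LT.Adelic Fermat.Agent.LT.Aleph Fermat.Agent.LT.Tame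
open Fermat.Agent.LT.Spectral Fermat.Agent.LT.Descent.Places
open MeasureTheory NumberField IsDedekindDomain Filter WeierstrassCurve
open scoped MatrixGroups

namespace DescentData

variable {K : Type} [Field K] [NumberField K] {K' : Type} [Field K'] [NumberField K']
  [Algebra K K'] {Φ : Frame K Unit} {Φ' : Frame K' (Fin 3)} {tw : CubicTwist Φ Φ'}
  (D : DescentData tw) {V S : Type} (place : S → Fin 3) (len : S → ℝ) {A : ℝ → ℂ}
  (hA : AbelTest A) (v : V → HeightOneSpectrum (𝓞 K))
  (w : V → HeightOneSpectrum (𝓞 K')) (P : MvPolynomial (V ⊕ S) ℂ)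

/-- The combination of a polynomial. -/
def alephList : List (ℂ × D.TestPair) :=
  P.support.toList.map fun e => (P.coeff e, D.alephTerm place len hA v w (wordOf e))

theorem isPlain_alephTerm (h : ∀ i, v i ∈ D.good ∧ IsAbove (v i) (w i)) (l : List (V ⊕ S)) :
    (D.alephTerm place len hA v w l).IsPlain :=
  ⟨fun _ _ => rfl, isGoodMatched_wordFam (fun i => D.isGoodMatched_goodT' (h i).1 (h i).2) l⟩

theorem sum_map_alephList (F : ℂ × D.TestPair → ℂ) :
    ((D.alephList place len hA v w P).map F).sum =
      ∑ e ∈ P.support, F (P.coeff e, D.alephTerm place len hA v w (wordOf e)) := by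
  rw [alephList, List.map_map, ← Finset.sum_map_toList]
  rfl

theorem isCuspidalSum_alephList
    (h' : ∀ φ : Space Φ' (productLevel D.lev'.loc) → ℂ, IsNice φ → HasZeroMean
      (alephOp place len (fun i => (D.goodT' (w i)).toHKer D.isLocal') (fun _ => hA) P φ))
    (h : ∀ φ : Space Φ (productLevel D.lev.loc) → ℂ, IsNice φ → HasZeroMean
      (alephOp3 place len (fun i => (D.goodAtom (v i)).toHKer D.isLocal) (fun _ => hA) P φ)) :
    D.IsCuspidalSum (D.alephList place len hA v w P) := by
  refine ⟨fun φ hinv hc hb => ?_, fun φ hinv hc hb => ?_⟩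
  · have hz := h φ ⟨hinv, fun y => (hc y).measurable, hb⟩
    refine Eq.subst (motive := HasZeroMean) ?_ hz
    funext x
    rw [sum_map_alephList]
    simp only [alephOp3, alephTerm, TestPair.ker, toHKer_wordFam]
  · have hz := h' φ ⟨hinv, fun y => (hc y).measurable, hb⟩
    refine Eq.subst (motive := HasZeroMean) ?_ hz
    funext x
    rw [sum_map_alephList]
    simp only [alephOp, alephTerm, TestPair.ker', toHKer_wordFam]

/-- A regular representative of a class of the target, eigen at the good places. -/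
theorem exists_isCuspEigen_of_mem_targetSpace {e : cuspClasses D.quot'} (he : e ∈ D.targetSpace)
    (h0 : e ≠ 0) :
    ∃ φ, IsRegularRep e φ ∧ IsCuspEigen φ ∧ ∀ x : HeightOneSpectrum (𝓞 K'),
      (∃ u ∈ D.good, IsAbove u x) →
        kerMap ((D.goodT' x).toHKer D.isLocal') φ = D.eig x • φ := by
  obtain ⟨hb, hj⟩ := mem_jointSpace.1 he
  have hμ : (targetMu : ℂ) ≠ 0 := Complex.ofReal_ne_zero.2 targetMu_ne_zero
  have hbase : cuspOp D.quot' (fun _ => baseKer) (HKer.id _) e = (targetMu : ℂ) • e := by
    rwa [op'_base] at hb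
  obtain ⟨φ, hφ, hc⟩ := exists_isCuspEigen (ks := fun _ : Fin 3 => baseKer) isLipKernel_baseKer hμ
    h0 hbase fun k₀ hk₀ hk₀c i hre => by
      have hr : Continuous fun t => (k₀ t).re := Complex.continuous_re.comp hk₀
      have hrc : HasCompactSupport fun t => (k₀ t).re := hk₀c.comp_left Complex.zero_re
      set k : RealProfile := ⟨fun t => (k₀ t).re, hr, hrc⟩
      have hk : k.toKer = PPKer.ofProfile k₀ hk₀ hk₀c :=
        ppker_ext fun p q => Complex.ext rfl (hre _).symm
      obtain ⟨c, hc⟩ := exists_hat_realKer k.1 k.2.1 k.2.2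
      have hkc : PPKer.hat k.toKer 0 = (c : ℂ) := hc
      have h1 : cuspOp D.quot' (baseAt i (PPKer.comp k.toKer baseKer))
          ((KerFamily.one D.lev'.loc).toHKer D.isLocal') e =
          ((targetMu * (PPKer.hat k.toKer 0).re : ℝ) : ℂ) • e := hj (.arch i k)
      rw [toHKer_one', Complex.ofReal_mul, hkc, Complex.ofReal_re, ← hkc, hk, PPKer.hat_ofProfile,
        mul_comm] at h1
      exact h1
  refine ⟨φ, hφ, hc, fun x hx => ?_⟩
  have hxb : x ∉ bad' (tw := tw) := by
    obtain ⟨u, hu, hux⟩ := hx
    exact fun hb => hu.1 ((mem_bad'_iff hux).1 hb)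
  have h1 : cuspOp D.quot' (fun _ => baseKer) ((D.goodT' x).toHKer D.isLocal') e =
      ((targetMu * (D.eig x).re : ℝ) : ℂ) • e := hj (.good ⟨x, hx⟩)
  rw [Complex.ofReal_mul, D.ofReal_eig_re hxb, mul_comm] at h1
  exact kerMap_eq_of_testOp hφ.sliceInt hμ (hφ.eigen _ _ _ hbase) (hφ.eigen _ _ _ h1)

/-- **The scalar of the combination on the classes of the target.** -/
theorem sumOp'_alephList_eq (h : ∀ i, v i ∈ D.good ∧ IsAbove (v i) (w i))
    {e : cuspClasses D.quot'} (he : e ∈ D.targetSpace) :
    D.sumOp' (D.alephList place len hA v w P) e =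
      (MvPolynomial.eval (Sum.elim (fun i => D.eig (w i)) fun _ => 2) P *
        ∏ _i : Fin 3, ∫ t, A t) • e := by
  rcases eq_or_ne e 0 with rfl | h0
  · rw [map_zero, smul_zero]
  obtain ⟨φ, hφ, hc, hT⟩ := D.exists_isCuspEigen_of_mem_targetSpace he h0
  have hn : IsNice φ := isNice_of_isCuspEigen hc
  set g' : V → HKer (productLevel D.lev'.loc) := fun i => (D.goodT' (w i)).toHKer D.isLocal'
  have hgen : ∀ i τ, kerApply (g' i) (fun y => φ (Space.mk τ y)) =
      D.eig (w i) • fun y => φ (Space.mk τ y) := fun i τ =>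
    funext fun y => congrFun (hT (w i) ⟨v i, (h i).1, (h i).2⟩) (Space.mk τ y)
  set c : ((V ⊕ S) →₀ ℕ) → ℂ := fun d =>
    ((wordOf d).map (Sum.elim (fun i => D.eig (w i)) fun _ => (1 : ℂ))).prod *
      ∏ i, ∫ t, wordArch place len (fun _ => A) (wordOf d) i t
  have htest : ∀ (d : (V ⊕ S) →₀ ℕ) (x : Space Φ' (productLevel D.lev'.loc)),
      testOp (fun i => testPP (abelTest_wordArch place len (fun _ => hA) (wordOf d) i))
        (wordKer g' (wordOf d)) φ x = c d * φ x := fun d x =>
    testOp_eigen D.quot'.level _ _ hn hc.spherical _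
      (fun τ y => congrFun (kerApply_wordKer (fun i => hgen i τ) (wordOf d)) y) x
  have hop : ∀ d : (V ⊕ S) →₀ ℕ,
      (D.alephTerm place len hA v w (wordOf d)).op' e = c d • e := fun d => by
    refine Subtype.ext (Lp.ext ?_)
    refine (coeFn_cuspOp _ _ hφ.sliceInt.measurable ((isInvariant_iff_pgl φ).mp hφ.invariant)
      hφ.ae_eq).trans ?_
    refine EventuallyEq.trans (EventuallyEq.of_eq (funext fun x => ?_))
      ((Lp.coeFn_smul _ _).trans (hφ.ae_eq.const_smul (c d))).symm
    simp only [alephTerm, TestPair.ker', toHKer_wordFam D.isLocal', g',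
      htest, Pi.smul_apply, smul_eq_mul]
  have hsum : D.sumOp' (D.alephList place len hA v w P) e =
      (∑ d ∈ P.support, P.coeff d * c d) • e := by
    rw [sumOp', alephList, List.map_map, Finset.sum_map_toList, sum_apply,
      Finset.sum_smul]
    refine Finset.sum_congr rfl fun d _ => ?_
    rw [Function.comp_apply, smul_apply, hop, smul_smul]
  rw [hsum]
  obtain ⟨x, hx⟩ := hc.nonzero
  congr 1
  refine mul_right_cancel₀ hx ?_
  rw [← alephOp_eigen place len D.quot'.level g' (fun _ => hA) P hn hc.spherical hgen x, Finset.sum_mul]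
  simp only [alephOp, htest, mul_assoc]

/-- **The cuspidal combination.** -/
theorem exists_cuspidalSum {K : Type} [Field K] [NumberField K] {K' : Type} [Field K']
    [NumberField K'] [Algebra K K'] {Φ : Frame K Unit} {Φ' : Frame K' (Fin 3)}
    {tw : CubicTwist Φ Φ'} (D : DescentData tw) :
    ∃ (l : List (ℂ × D.TestPair)) (s : ℂ), D.IsCuspidalSum l ∧ (∀ p ∈ l, p.2.IsPlain) ∧ s ≠ 0 ∧
      ∀ e ∈ D.targetSpace, D.sumOp' l e = s • e := by
  classical
  obtain ⟨V, S, place, len, A, hA, v, w, P, hvw, hA0, heval, hup, hdown⟩ := D.exists_alephData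
  refine ⟨D.alephList place len hA v w P,
    MvPolynomial.eval (Sum.elim (fun i => D.eig (w i)) fun _ => 2) P * ∏ _i : Fin 3, ∫ t, A t,
    D.isCuspidalSum_alephList place len hA v w P hup (hdown place), fun p hp => ?_,
    mul_ne_zero heval (Finset.prod_ne_zero_iff.2 fun _ _ => hA0),
    fun e he => D.sumOp'_alephList_eq place len hA v w P hvw he⟩
  obtain ⟨d, -, rfl⟩ := List.mem_map.1 hp
  exact D.isPlain_alephTerm place len hA v w hvw _

end DescentData

end Fermat.Agent.LT.Descent

end
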