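import Fermat.Agent.LT.Descent.ClassAlgebraSeparation
import Fermat.Agent.LT.Descent.SpectralClasses

/-!
# Comparison of two spectral sides

A side is a Hilbert–Schmidt self-adjoint operator `P`, a commuting self-adjoint family `T`, a
sequence `R n` behaving like `P Uⁿ` and an operator `B` permuting the family by `π`.  Equal traces of
`(monomial) R n B P²` for large `n` transfer an invariant class with nonzero trace of `B` from
one side to the other.
-/

set_option autoImplicit false

noncomputable section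

open Module End
open scoped InnerProductSpace

namespace Fermat.Agent.LT.Descent

open Fermat.Agent.LT.Separation

universe u v w

/-- One side of the comparison. -/
structure ClassSide (J : Type v) (E : Type u) [NormedAddCommGroup E] [InnerProductSpace ℂ E]
    [CompleteSpace E] where
  /-- the compact operator -/
  P : E →L[ℂ] E
  /-- the commuting family -/
  T : J → E →L[ℂ] E
  /-- the powers at the auxiliary place -/
  R : ℕ → E →L[ℂ] E
  /-- the operator whose traces are compared -/
  B : E →L[ℂ] E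
  /-- the permutation of the family by `B` -/
  π : Equiv.Perm J
  compact : IsCompactOperator P
  adjP : IsSelfAdjoint P
  adjT : ∀ j, IsSelfAdjoint (T j)
  commT : ∀ j j', Commute (T j) (T j')
  commTP : ∀ j, Commute (T j) P
  hilbertSchmidt : ∃ (s : Set E) (b : HilbertBasis s ℂ E), Summable fun k => ‖P (b k)‖ ^ 2
  R_zero : R 0 = P
  R_succ : ∀ n, R n * R 1 = R (n + 1) * P
  R_P : ∀ n, Commute (R n) P
  R_T : ∀ n j, Commute (R n) (T j)
  R_B : Commute (R 1) B
  B_P : Commute B P
  B_T : ∀ j, B * T j = T (π j) * B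

namespace ClassSide

variable {J : Type v} {E : Type u} [NormedAddCommGroup E] [InnerProductSpace ℂ E] [CompleteSpace E]
  (S : ClassSide J E) {Jc : Type w}

/-- A monomial in the family. -/
def mono (idx : Jc → J) (m : Jc →₀ ℕ) : E →L[ℂ] E :=
  (m.toMultiset.toList.map fun j => S.T (idx j)).prod

/-- The trace of `(monomial) R n B P²` is `I`, in every countable basis. -/
def HasMoment (idx : Jc → J) (m : Jc →₀ ℕ) (n : ℕ) (I : ℂ) : Prop :=
  ∀ (s : Set E) (b : HilbertBasis s ℂ E), Countable s →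
    HasSum (fun k => ⟪b k, (S.mono idx m * S.R n * S.B) (S.P (S.P (b k)))⟫_ℂ) I

/-- On invariant classes the eigenvalues of `R 1 / P` are spectral points. -/
def HasSpectrum (ρ r : ℝ) : Prop :=
  ∀ (m : ℝ) (L : J → ℝ) (v : E) (ω : ℂ), m ≠ 0 → v ≠ 0 → S.P v = (m : ℂ) • v →
    (∀ j, L (S.π j) = L j) → (∀ j, S.T j v = (L j : ℂ) • v) → S.R 1 v = ((m : ℂ) * ω) • v →
      IsSpectralPoint ρ r ω

theorem finiteDimensional_jointSpace {m : ℝ} (hm : m ≠ 0) (L : J → ℝ) :
    FiniteDimensional ℂ (jointSpace S.P S.T (m, L)) :=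
  have := ContinuousLinearMap.finite_dimensional_eigenspace S.compact (m : ℂ)
    (Complex.ofReal_ne_zero.mpr hm)
  Submodule.finiteDimensional_of_le (inf_le_left :
    jointSpace S.P S.T (m, L) ≤ eigenspace (S.P : Module.End ℂ E) (m : ℂ))

/-- The classes. -/
abbrev Cls : Type v := ClassIdx S.P S.T

/-- The space of a class. -/
abbrev space (i : S.Cls) : Submodule ℂ E := jointSpace S.P S.T i.1

theorem isClassDecomp :
    IsClassDecomp S.P S.T S.space (fun i => i.1.1) fun i => i.1.2 :=
  isClassDecomp_jointSpace S.compact S.adjP S.adjT S.commT S.commTP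

instance finiteDimensional_space (i : S.Cls) : FiniteDimensional ℂ (S.space i) :=
  S.finiteDimensional_jointSpace i.2.1 i.1.2

/-- A class carried to itself by the permutation. -/
def IsStable (i : S.Cls) : Prop := ∀ j, i.1.2 (S.π j) = i.1.2 j

theorem mapsTo_of_commute {X : E →L[ℂ] E} (hP : Commute X S.P) (hT : ∀ j, Commute X (S.T j))
    (i : S.Cls) : Set.MapsTo X (S.space i) (S.space i) := by
  intro v hv
  obtain ⟨h1, h2⟩ := mem_jointSpace.1 hv
  have key : ∀ {A : E →L[ℂ] E} {c : ℂ}, Commute X A → A v = c • v → A (X v) = c • X v := by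
    intro A c h ha
    rw [show A (X v) = X (A v) from (congrArg (fun f : E →L[ℂ] E => f v) h.eq).symm, ha, map_smul]
  exact mem_jointSpace.2 ⟨key hP h1, fun j => key (hT j) (h2 j)⟩

theorem mapsTo_B {m : ℝ} {L L' : J → ℝ} (hL : ∀ j, L' (S.π j) = L j) :
    Set.MapsTo S.B (jointSpace S.P S.T (m, L)) (jointSpace S.P S.T (m, L')) := by
  intro v hv
  obtain ⟨h1, h2⟩ := mem_jointSpace.1 hv
  refine mem_jointSpace.2 ⟨?_, fun j => ?_⟩
  · rw [show S.P (S.B v) = S.B (S.P v) from
      (congrArg (fun f : E →L[ℂ] E => f v) S.B_P.eq).symm, h1, map_smul]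
  · obtain ⟨j', rfl⟩ := S.π.surjective j
    rw [show S.T (S.π j') (S.B v) = S.B (S.T j' v) from
      (congrArg (fun f : E →L[ℂ] E => f v) (S.B_T j')).symm, h2, map_smul]
    simp only [hL]

theorem mapsTo_B_of_stable {i : S.Cls} (h : S.IsStable i) :
    Set.MapsTo S.B (S.space i) (S.space i) := S.mapsTo_B h

theorem mapsTo_T (j : J) (i : S.Cls) : Set.MapsTo (S.T j) (S.space i) (S.space i) :=
  S.mapsTo_of_commute (S.commTP j) (S.commT j) i

theorem mapsTo_R (n : ℕ) (i : S.Cls) : Set.MapsTo (S.R n) (S.space i) (S.space i) :=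
  S.mapsTo_of_commute (S.R_P n) (S.R_T n) i

theorem compress_mul (i : S.Cls) (X Y : E →L[ℂ] E) (hY : Set.MapsTo Y (S.space i) (S.space i)) :
    compress S.space (X * Y) i = compress S.space X i * compress S.space Y i := by
  refine LinearMap.ext fun v => ?_
  rw [Module.End.mul_apply, compress_apply, compress_apply,
    coe_compress_of_mem S.space Y (hY v.2)]
  rfl

theorem compress_T (j : J) (i : S.Cls) :
    compress S.space (S.T j) i = (i.1.2 j : ℂ) • 1 := by
  refine LinearMap.ext fun v => Subtype.ext ?_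
  rw [coe_compress_of_mem S.space (S.T j) (S.mapsTo_T j i v.2)]
  exact (mem_jointSpace.1 v.2).2 j

theorem compress_P (i : S.Cls) : compress S.space S.P i = (i.1.1 : ℂ) • 1 := by
  refine LinearMap.ext fun v => Subtype.ext ?_
  rw [coe_compress_of_mem S.space S.P (S.mapsTo_of_commute (Commute.refl _)
    (fun j => (S.commTP j).symm) i v.2)]
  exact (mem_jointSpace.1 v.2).1

theorem compress_mono (idx : Jc → J) (m : Jc →₀ ℕ) (i : S.Cls) :
    compress S.space (S.mono idx m) i =
      eigMonomial (fun (i : S.Cls) j => i.1.2 (idx j)) m i • 1 := by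
  have hprod : ∀ l : List Jc, compress S.space (l.map fun j => S.T (idx j)).prod i =
      ((l.map fun j => ((i.1.2 (idx j) : ℝ) : ℂ)).prod) • (1 : Module.End ℂ (S.space i)) := by
    intro l
    induction l with
    | nil => rw [List.map_nil, List.prod_nil, List.map_nil, List.prod_nil, compress_one, one_smul]
    | cons a l ih =>
      have hmaps : Set.MapsTo (l.map fun j => S.T (idx j)).prod (S.space i) (S.space i) :=
        S.mapsTo_of_commute
          (Commute.list_prod_left _ _ fun X hX => by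
            obtain ⟨j, -, rfl⟩ := List.mem_map.1 hX
            exact S.commTP _)
          (fun j' => Commute.list_prod_left _ _ fun X hX => by
            obtain ⟨j, -, rfl⟩ := List.mem_map.1 hX
            exact S.commT _ _) i
      rw [List.map_cons, List.prod_cons, S.compress_mul i _ _ hmaps, ih, compress_T,
        List.map_cons, List.prod_cons, smul_mul_smul_comm, one_mul]
  rw [mono, hprod]
  congr 1
  rw [← Multiset.prod_coe, ← Multiset.map_coe, Multiset.coe_toList, eigMonomial,
    Finsupp.prod, Finsupp.toMultiset_apply, Finsupp.sum, ← Multiset.coe_mapAddMonoidHom,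
    map_sum, Multiset.prod_sum]
  refine Finset.prod_congr rfl fun j _ => ?_
  simp [Multiset.map_nsmul, Multiset.prod_nsmul]

/-- The normalised operator at the auxiliary place on a class. -/
def U (i : S.Cls) : Module.End ℂ (S.space i) :=
  ((i.1.1 : ℂ))⁻¹ • compress S.space (S.R 1) i

/-- The operator compared on a class. -/
def A (i : S.Cls) : Module.End ℂ (S.space i) :=
  ((i.1.1 : ℂ)) ^ 3 • compress S.space S.B i

theorem commute_U_A {i : S.Cls} (h : S.IsStable i) : Commute (S.U i) (S.A i) := by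
  refine (Commute.smul_left ?_ _).smul_right _
  show compress S.space (S.R 1) i * compress S.space S.B i =
    compress S.space S.B i * compress S.space (S.R 1) i
  rw [← S.compress_mul i _ _ (S.mapsTo_B_of_stable h), ← S.compress_mul i _ _ (S.mapsTo_R 1 i),
    S.R_B.eq]

theorem compress_R (i : S.Cls) (n : ℕ) :
    compress S.space (S.R n) i = (i.1.1 : ℂ) • S.U i ^ n := by
  have hm : (i.1.1 : ℂ) ≠ 0 := Complex.ofReal_ne_zero.mpr i.2.1
  induction n with
  | zero => rw [S.R_zero, compress_P, pow_zero]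
  | succ n ih =>
    have h := congrArg (fun X => compress S.space X i) (S.R_succ n)
    rw [S.compress_mul i _ _ (S.mapsTo_R 1 i), S.compress_mul i _ _ (S.mapsTo_of_commute
      (Commute.refl _) (fun j => (S.commTP j).symm) i), compress_P, ih, mul_smul_comm, mul_one,
      smul_mul_assoc] at h
    have e1 : compress S.space (S.R 1) i = (i.1.1 : ℂ) • S.U i := by
      rw [U, smul_smul, mul_inv_cancel₀ hm, one_smul]
    rw [e1, mul_smul_comm, ← pow_succ] at h
    exact (smul_right_injective _ hm h).symm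

theorem norm_A_le (i : S.Cls) (v : S.space i) :
    ‖S.A i v‖ ≤ |i.1.1| ^ 3 * ‖S.B‖ * ‖v‖ := by
  rw [A, LinearMap.smul_apply, norm_smul, norm_pow, Complex.norm_real, Real.norm_eq_abs, mul_assoc]
  exact mul_le_mul_of_nonneg_left (norm_compress_le S.space S.B i v) (pow_nonneg (abs_nonneg _) 3)

theorem abs_le_norm (j : J) (i : S.Cls) : |i.1.2 j| ≤ ‖S.T j‖ := by
  obtain ⟨v, hv, hv0⟩ := Submodule.exists_mem_ne_zero_of_ne_bot i.2.2
  have h := (S.T j).le_opNorm v
  rw [(mem_jointSpace.1 hv).2 j, norm_smul, Complex.norm_real, Real.norm_eq_abs] at h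
  exact le_of_mul_le_mul_right h (norm_pos_iff.2 hv0)

variable [TopologicalSpace.SeparableSpace E]

theorem summable_bound :
    Summable fun i : S.Cls => (finrank ℂ (S.space i) : ℝ) * (|i.1.1| ^ 3 * ‖S.B‖) := by
  obtain ⟨s, b, hb⟩ := S.hilbertSchmidt
  refine Summable.of_nonneg_of_le (fun i => by positivity) (fun i => ?_)
    ((S.isClassDecomp.summable_finrank_mul_sq S.adjP b hb).mul_right (‖S.P‖ * ‖S.B‖))
  have hμ : |i.1.1| ≤ ‖S.P‖ := by
    obtain ⟨v, hv, hv0⟩ := Submodule.exists_mem_ne_zero_of_ne_bot i.2.2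
    have h := S.P.le_opNorm v
    rw [(mem_jointSpace.1 hv).1, norm_smul, Complex.norm_real, Real.norm_eq_abs] at h
    exact le_of_mul_le_mul_right h (norm_pos_iff.2 hv0)
  have e : |i.1.1| ^ 3 = i.1.1 ^ 2 * |i.1.1| := by rw [pow_succ, sq_abs]
  calc (finrank ℂ (S.space i) : ℝ) * (|i.1.1| ^ 3 * ‖S.B‖)
      = (finrank ℂ (S.space i) : ℝ) * i.1.1 ^ 2 * (|i.1.1| * ‖S.B‖) := by rw [e]; ring
    _ ≤ _ := mul_le_mul_of_nonneg_left (mul_le_mul_of_nonneg_right hμ (norm_nonneg _))
        (by positivity)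

/-- **The moments as sums over the stable classes.** -/
theorem tsum_stable_of_hasMoment (idx : Jc → J) {m : Jc →₀ ℕ} {n : ℕ} {I : ℂ}
    (h : S.HasMoment idx m n I) :
    ∑' i : {i : S.Cls // S.IsStable i},
        eigMonomial (fun (i : {i : S.Cls // S.IsStable i}) j => i.1.1.2 (idx j)) m i *
          LinearMap.trace ℂ (S.space i.1) (S.U i.1 ^ n * S.A i.1) = I := by
  have h1 := S.isClassDecomp.hasSum_trace (S.mono idx m * S.R n * S.B) I h
  refine HasSum.tsum_eq (((Subtype.val_injective.hasSum_iff fun i hi => ?_).2 h1).congr_fun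
    fun i => ?_)
  · have hns : ¬ S.IsStable i := fun hs => hi ⟨⟨i, hs⟩, rfl⟩
    refine mul_eq_zero_of_right _ ?_
    -- the operator carries the class into an orthogonal one
    set L' : J → ℝ := fun j => i.1.2 (S.π.symm j) with hL'
    have hne : i.1 ≠ (i.1.1, L') := fun e => hns fun j => by
      have h2 := congrFun (congrArg Prod.snd e) (S.π j)
      simpa [hL'] using h2
    have hX : ∀ v ∈ S.space i,
        (S.mono idx m * S.R n * S.B) v ∈ jointSpace S.P S.T (i.1.1, L') := by
      intro v hv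
      have hB : S.B v ∈ jointSpace S.P S.T (i.1.1, L') :=
        S.mapsTo_B (L := i.1.2) (fun j => by simp [hL']) hv
      rcases eq_or_ne (S.B v) 0 with h0 | h0
      · rw [mul_apply_eq_comp, h0, map_zero]
        exact Submodule.zero_mem _
      let i' : S.Cls := ⟨(i.1.1, L'), i.2.1, fun hb => h0 (by rwa [hb, Submodule.mem_bot] at hB)⟩
      refine S.mapsTo_of_commute (X := S.mono idx m * S.R n) ?_ (fun j => ?_) i' hB
      · exact (Commute.list_prod_left _ _ fun X hX => by
          obtain ⟨j, -, rfl⟩ := List.mem_map.1 hX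
          exact S.commTP _).mul_left (S.R_P n)
      · exact (Commute.list_prod_left _ _ fun X hX => by
          obtain ⟨j', -, rfl⟩ := List.mem_map.1 hX
          exact S.commT _ _).mul_left (S.R_T n j)
    rw [show compress S.space (S.mono idx m * S.R n * S.B) i = 0 from
      LinearMap.ext fun v => ?_, map_zero]
    rw [compress_apply, LinearMap.zero_apply]
    exact Submodule.orthogonalProjectionOnto_eq_zero_iff.mpr
      ((jointSpace_orthogonal S.adjP S.adjT hne).ge (hX v v.2))
  · obtain ⟨i, hi⟩ := i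
    simp only [Function.comp_apply]
    rw [S.compress_mul i _ _ (S.mapsTo_B_of_stable hi), S.compress_mul i _ _ (S.mapsTo_R n i),
      compress_R, compress_mono, A, mul_smul_comm, map_smul, smul_mul_smul_comm, one_mul,
      smul_mul_assoc, map_smul, smul_eq_mul, smul_eq_mul, eigMonomial, eigMonomial]
    ring

end ClassSide

variable {E : Type u} [NormedAddCommGroup E] [InnerProductSpace ℂ E] [CompleteSpace E]
  [TopologicalSpace.SeparableSpace E]
  {E' : Type u} [NormedAddCommGroup E'] [InnerProductSpace ℂ E'] [CompleteSpace E']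
  [TopologicalSpace.SeparableSpace E']
  {J₁ J₂ : Type v} {J : Type w}

/-- **Comparison.** An invariant class on the second side with nonzero trace of `B` gives an
eigenvector on the first side with the same data. -/
theorem exists_eigenvector_of_moments (S : ClassSide J₁ E) (S' : ClassSide J₂ E') (idx : J → J₁)
    (idx' : J → J₂) {ρ r : ℝ} (hρ : 0 < ρ) (hspec : S.HasSpectrum ρ r)
    (hspec' : S'.HasSpectrum ρ r)
    (hmom : ∀ m : J →₀ ℕ, ∃ n₀ : ℕ, ∀ n, n₀ ≤ n →
      ∃ I, S.HasMoment idx m n I ∧ S'.HasMoment idx' m n I)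
    (jP : J) (hjP : S.T (idx jP) = S.P) (hjP' : S'.T (idx' jP) = S'.P)
    (horb : ∀ j', ∃ (j : J) (k : ℕ), (⇑S'.π)^[k] (idx' j) = j')
    {μ : ℝ} (hμ : μ ≠ 0) (L : J₂ → ℝ) (hL : ∀ j, L (S'.π j) = L j)
    (htr : ∀ h : Set.MapsTo S'.B (jointSpace S'.P S'.T (μ, L)) (jointSpace S'.P S'.T (μ, L)),
      LinearMap.trace ℂ (jointSpace S'.P S'.T (μ, L))
        (LinearMap.restrict (S'.B : E' →ₗ[ℂ] E') h) ≠ 0) :
    ∃ v : E, v ≠ 0 ∧ S.P v = (μ : ℂ) • v ∧ ∀ j, S.T (idx j) v = (L (idx' j) : ℂ) • v := by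
  classical
  have hV0 : jointSpace S'.P S'.T (μ, L) ≠ ⊥ := by
    intro h0
    refine htr (S'.mapsTo_B hL) ?_
    have hsub : Subsingleton (jointSpace S'.P S'.T (μ, L)) := by
      rw [h0]; infer_instance
    rw [Subsingleton.elim (LinearMap.restrict (S'.B : E' →ₗ[ℂ] E') (S'.mapsTo_B hL)) 0, map_zero]
  let i₀ : S'.Cls := ⟨(μ, L), hμ, hV0⟩
  -- the eigenvalue of `P` is read off at `jP`
  have hPval : ∀ {E : Type u} [NormedAddCommGroup E] [InnerProductSpace ℂ E] [CompleteSpace E]
      {J' : Type v} (S : ClassSide J' E) (j : J'), S.T j = S.P → ∀ i : S.Cls, i.1.2 j = i.1.1 := by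
    intro E _ _ _ J' S j hj i
    obtain ⟨v, hv, hv0⟩ := Submodule.exists_mem_ne_zero_of_ne_bot i.2.2
    have h1 := (mem_jointSpace.1 hv).2 j
    rw [hj, (mem_jointSpace.1 hv).1] at h1
    exact_mod_cast (smul_left_injective ℂ hv0 h1).symm
  -- the only stable class with the data of the target
  have huniq : ∀ i : S'.Cls, S'.IsStable i → (∀ j, i.1.2 (idx' j) = L (idx' j)) → i = i₀ := by
    intro i hs hi
    refine Subtype.ext (Prod.ext ?_ (funext fun j' => ?_))
    · rw [← hPval S' (idx' jP) hjP' i, hi, ← hPval S' (idx' jP) hjP' i₀]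
    · obtain ⟨j, k, rfl⟩ := horb j'
      have hit : ∀ (g : J₂ → ℝ), (∀ j, g (S'.π j) = g j) → ∀ k j, g ((⇑S'.π)^[k] j) = g j := by
        intro g hg k
        induction k with
        | zero => exact fun _ => rfl
        | succ k ih => exact fun j => by rw [Function.iterate_succ_apply', hg, ih]
      show i.1.2 _ = L _
      rw [hit _ hs, hit _ hL, hi]
  set B : J → ℝ := fun j => max ‖S.T (idx j)‖ ‖S'.T (idx' j)‖
  have hA : S'.A i₀ = (μ : ℂ) ^ 3 •
      LinearMap.restrict (S'.B : E' →ₗ[ℂ] E') (S'.mapsTo_B hL) := by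
    rw [ClassSide.A]
    congr 1
    exact LinearMap.ext fun v => Subtype.ext (coe_compress_of_mem S'.space S'.B (i := i₀)
      (S'.mapsTo_B hL v.2))
  have htarget : ∑' i : {i : S'.Cls // S'.IsStable i},
      Set.indicator {i : {i : S'.Cls // S'.IsStable i} |
          (fun j => i.1.1.2 (idx' j)) = fun j => L (idx' j)}
        (fun i => LinearMap.trace ℂ (S'.space i.1) (S'.A i.1)) i ≠ 0 := by
    rw [tsum_eq_single (f := Set.indicator {i : {i : S'.Cls // S'.IsStable i} |
        (fun j => i.1.1.2 (idx' j)) = fun j => L (idx' j)}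
        fun i => LinearMap.trace ℂ (S'.space i.1) (S'.A i.1)) ⟨i₀, hL⟩ fun i hi =>
        Set.indicator_apply_eq_zero.2 fun h =>
          absurd (Subtype.ext (huniq i.1 i.2 (congrFun h))) hi,
      Set.indicator_of_mem (by exact rfl)]
    dsimp only
    rw [hA, map_smul, smul_eq_mul]
    exact mul_ne_zero (pow_ne_zero _ (Complex.ofReal_ne_zero.mpr hμ)) (htr _)
  refine (exists_class_ne_zero (R := r)
    (fun i : {i : S'.Cls // S'.IsStable i} => S'.U i.1) (fun i => S'.A i.1)
    (fun i : {i : S.Cls // S.IsStable i} => S.U i.1) (fun i => S.A i.1)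
    (fun i => S'.commute_U_A i.2) (fun i => S.commute_U_A i.2)
    (fun i => |i.1.1.1| ^ 3 * ‖S'.B‖) (fun i => |i.1.1.1| ^ 3 * ‖S.B‖)
    (fun i v => S'.norm_A_le i.1 v) (fun i v => S.norm_A_le i.1 v)
    (S'.summable_bound.comp_injective Subtype.val_injective)
    (S.summable_bound.comp_injective Subtype.val_injective)
    (fun i j => i.1.1.2 (idx' j)) (fun i j => i.1.1.2 (idx j)) B
    (fun i j => (S'.abs_le_norm _ _).trans (le_max_right _ _))
    (fun i j => (S.abs_le_norm _ _).trans (le_max_left _ _)) hρ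
    (fun i ω hω => ?_) (fun i ω hω => ?_) (fun m => ?_) (fun j => L (idx' j)) htarget).elim
    fun i hi => ?_
  rotate_left 3
  · obtain ⟨hi, -, -⟩ := hi
    obtain ⟨v, hv, hv0⟩ := Submodule.exists_mem_ne_zero_of_ne_bot i.1.2.2
    obtain ⟨h1, h2⟩ := mem_jointSpace.1 hv
    refine ⟨v, hv0, ?_, fun j => ?_⟩
    · rw [h1]
      congr 2
      rw [← hPval S (idx jP) hjP i.1]
      exact (congrFun hi jP).trans (hPval S' (idx' jP) hjP' i₀)
    · rw [h2 (idx j), congrFun hi j]
  · obtain ⟨v, hv⟩ := hω.exists_hasEigenvector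
    refine hspec' i.1.1.1 i.1.1.2 v ω i.1.2.1 (fun h => hv.2 (Subtype.ext h))
      (mem_jointSpace.1 v.2).1 i.2 (mem_jointSpace.1 v.2).2 ?_
    have h1 := Module.End.mem_eigenspace_iff.1 hv.1
    rw [ClassSide.U, LinearMap.smul_apply, inv_smul_eq_iff₀
      (Complex.ofReal_ne_zero.mpr i.1.2.1)] at h1
    rw [← coe_compress_of_mem S'.space (S'.R 1) (S'.mapsTo_R 1 i.1 v.2), h1, smul_smul,
      Submodule.coe_smul]
  · obtain ⟨v, hv⟩ := hω.exists_hasEigenvector
    refine hspec i.1.1.1 i.1.1.2 v ω i.1.2.1 (fun h => hv.2 (Subtype.ext h))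
      (mem_jointSpace.1 v.2).1 i.2 (mem_jointSpace.1 v.2).2 ?_
    have h1 := Module.End.mem_eigenspace_iff.1 hv.1
    rw [ClassSide.U, LinearMap.smul_apply, inv_smul_eq_iff₀
      (Complex.ofReal_ne_zero.mpr i.1.2.1)] at h1
    rw [← coe_compress_of_mem S.space (S.R 1) (S.mapsTo_R 1 i.1 v.2), h1, smul_smul,
      Submodule.coe_smul]
  · obtain ⟨n₀, hn⟩ := hmom m
    refine ⟨n₀, fun n h => ?_⟩
    obtain ⟨I, hI, hI'⟩ := hn n h
    rw [S'.tsum_stable_of_hasMoment idx' hI', S.tsum_stable_of_hasMoment idx hI]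

end Fermat.Agent.LT.Descent

end
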