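import Fermat.Agent.LT.Descent.Setup

/-!
# The form descended to the base field
-/

set_option autoImplicit false

noncomputable section

namespace Fermat.Agent.LT.Descent

open Fermat.Agent.LT.Adelic Fermat.Agent.LT.Descent.Places NumberField IsDedekindDomain

variable {K : Type*} [Field K] [NumberField K] {K' : Type*} [Field K'] [NumberField K']
  [Algebra K K'] {Φ : Frame K Unit} {Φ' : Frame K' (Fin 3)} {tw : CubicTwist Φ Φ'}

namespace DescentData

variable (D : DescentData tw)

/-- A cusp eigenform downstairs, maximal at `u`, with real eigenvalues lying below those upstairs. -/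
structure IsDescended (φ : Space Φ D.lev₀.level → ℂ) (a : HeightOneSpectrum (𝓞 K) → ℂ) :
    Prop where
  eigen : IsCuspEigen φ
  hecke : ∀ v ∉ DescentData.bad (tw := tw), IsHeckeEigenAt φ v (a v)
  real : ∀ v ∉ DescentData.bad (tw := tw), (a v).im = 0
  split : ∀ v ∉ DescentData.bad (tw := tw), IsSplit tw.σ v →
    ∀ w, IsAbove v w → a v = D.eig w
  inert : ∀ v ∉ DescentData.bad (tw := tw), IsInert tw.σ v →
    ∀ w, IsAbove v w → a v ^ 3 - 3 * a v = D.eig w

/-- A descended form exists. -/
def HasDescended : Prop := ∃ φ a, D.IsDescended φ a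

end DescentData

end Fermat.Agent.LT.Descent

end
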