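import Fermat.Agent.LT.Descent.Trace
import Fermat.Agent.LT.Descent.TwistClasses

/-!
# The trace identity twisted by the generator

With `Σ e = e ∘ σ` of order three, the trace of `R(h₂) R(h₁) Σ²` on the cusp space upstairs is the
integral of the composite kernel at `(x, σ x)`; `h₂` is invariant under the twist.
-/

set_option autoImplicit false

noncomputable section

namespace Fermat.Agent.LT.Descent

open Fermat.Agent.LT.Adelic Fermat.Agent.LT.Geom Fermat.Agent.LT.Spectral MeasureTheory NumberField IsDedekindDomain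
  Filter Matrix
open scoped MatrixGroups InnerProductSpace

variable {K K' : Type*} [Field K] [NumberField K] [Field K'] [NumberField K'] [Algebra K K']
  {Φ : Frame K Unit} {Φ' : Frame K' (Fin 3)} {U' : Subgroup (GfK K')}
  {tw : CubicTwist Φ Φ'} {σf : Yf U' → Yf U'}

/-- A twist-invariant kernel moves the twist to the other variable. -/
theorem perKer_twistPt_swap (h : IsTwistMap tw σf) (h3 : ∀ y, σf (σf (σf y)) = y)
    {k : Fin 3 → PPKer} {f : HKer U'} (hk : ∀ i p q, k (i - 1) p q = k i p q)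
    (hf : ∀ y z, f (σf y) (σf z) = f y z) (x y : Space Φ' U') :
    perKer PGL(2, K') (testKernel k f) (twistPt σf (twistPt σf y)) x
      = perKer PGL(2, K') (testKernel k f) y (twistPt σf x) :=
  perKer_swap_twist (s' := fun z => twistPt σf (twistPt σf z)) (pglSigma tw.σ).toEquiv
    (twistPt_smul h) (twistPt_cube h3) (fun a b => by
      rw [testKernel_twistPt k (f' := f) (fun y z => (hf y z).symm),
        testKernel_congr (k' := k) hk fun _ _ => rfl]) x y

/-- A combination invariant under the twist moves it to the other variable. -/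
theorem perKer_twistPt_swap_sum (hU : IsLevel U') (h : IsTwistMap tw σf)
    (h3 : ∀ y, σf (σf (σf y)) = y) {α : Type*} [Fintype α] (c : α → ℂ) {k : α → Fin 3 → PPKer}
    {f : α → HKer U'}
    (hsym : ∀ u v, ∑ a, c a * testKernel (k a) (f a) (twistPt σf u) (twistPt (Φ' := Φ') σf v)
      = ∑ a, c a * testKernel (k a) (f a) u v) (x y : Space Φ' U') :
    ∑ a, c a * perKer PGL(2, K') (testKernel (k a) (f a)) (twistPt σf (twistPt σf y)) x
      = ∑ a, c a * perKer PGL(2, K') (testKernel (k a) (f a)) y (twistPt σf x) := by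
  rw [← perKer_sum hU, ← perKer_sum hU]
  exact perKer_swap_twist (s' := fun z => twistPt σf (twistPt σf z)) (pglSigma tw.σ).toEquiv
    (twistPt_smul h) (twistPt_cube h3) hsym x y

/-- Invariance under the twist from a permutation of the terms. -/
theorem sum_testKernel_twistPt {α : Type*} [Fintype α] (c : α → ℂ) {k : α → Fin 3 → PPKer}
    {f : α → HKer U'} (π : Equiv.Perm α) (hc : ∀ a, c (π a) = c a)
    (hk : ∀ a i p q, k (π a) i p q = k a (i - 1) p q)
    (hf : ∀ a y z, f (π a) y z = f a (σf y) (σf z)) (u v : Space Φ' U') :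
    ∑ a, c a * testKernel (k a) (f a) (twistPt σf u) (twistPt σf v)
      = ∑ a, c a * testKernel (k a) (f a) u v := by
  rw [← Equiv.sum_comp π fun a => c a * testKernel (k a) (f a) u v]
  refine Finset.sum_congr rfl fun a _ => ?_
  rw [hc, testKernel_twistPt (k a) (f' := f (π a)) (hf a),
    testKernel_congr (hk a) fun _ _ => rfl]

variable [Countable (Yf U')] {D : QuotData Φ' U'}

theorem coeFn_twistOp_sq (h : IsTwistMap tw σf) (hb : Function.Bijective σf) {e : cuspClasses D}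
    {φ : Space Φ' U' → ℂ} (hi : ∀ (g : PGL(2, K')) x, φ (g • x) = φ x)
    (he : (e : Lp ℂ 2 D.ν) =ᵐ[D.ν] φ) :
    (∀ (g : PGL(2, K')) x, φ (twistPt σf (twistPt σf (g • x)))
        = φ (twistPt σf (twistPt σf x))) ∧
      (twistOp D tw σf h hb (twistOp D tw σf h hb e) : Lp ℂ 2 D.ν)
        =ᵐ[D.ν] fun x => φ (twistPt σf (twistPt σf x)) :=
  ⟨invariant_comp_twistPt h (φ := fun x => φ (twistPt σf x)) (invariant_comp_twistPt h hi),
    coeFn_twistOp h hb (φ := fun x => φ (twistPt σf x)) (invariant_comp_twistPt h hi)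
      (coeFn_twistOp h hb hi he)⟩

/-- **The trace identity twisted by the generator.** -/
theorem hasSum_trace_twistPt {κ : Type*} [Countable κ] (b : HilbertBasis κ ℂ (cuspClasses D))
    (h : IsTwistMap tw σf) (hb : Function.Bijective σf) (h3 : ∀ y, σf (σf (σf y)) = y)
    {k₁ k₂ : Fin 3 → PPKer} {f₁ f₂ : HKer U'} (h₁ : HasCuspBound D k₁ f₁)
    (h₂ : HasCuspBound D (fun i => (k₂ i).conjKer) f₂.adj) (hcol : HasCuspidalColumns D k₂ f₂)
    (hk : ∀ i p q, k₂ (i - 1) p q = k₂ i p q) (hf : ∀ y z, f₂ (σf y) (σf z) = f₂ y z) :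
    HasSum (fun i => ⟪b i, cuspOp D k₂ f₂ (cuspOp D k₁ f₁
        (twistOp D tw σf h hb (twistOp D tw σf h hb (b i))))⟫_ℂ)
      (∫ x, perKer PGL(2, K')
        (testKernel (fun i => PPKer.comp (k₁ i) (k₂ i)) (f₁.comp f₂)) x (twistPt σf x) ∂D.ν) :=
  hasSum_trace_twisted b h₁ h₂ hcol (measurePreserving_twistPt hb)
    (measurable_twistPt.comp measurable_twistPt) (twistPt_cube h3) (twistPt_cube h3)
    (perKer_twistPt_swap h h3 hk hf) ((twistOp D tw σf h hb).comp (twistOp D tw σf h hb))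
    fun _ _ _ hi he => coeFn_twistOp_sq h hb hi he

/-- The same over the classes of a decomposition. -/
theorem IsClassDecomp.hasSum_trace_twistPt {J Λ : Type*}
    {P : cuspClasses D →L[ℂ] cuspClasses D} {A : J → cuspClasses D →L[ℂ] cuspClasses D}
    {V : Λ → Submodule ℂ (cuspClasses D)} [∀ i, FiniteDimensional ℂ (V i)] {μ : Λ → ℝ}
    {lam : Λ → J → ℝ} (hd : IsClassDecomp P A V μ lam) (X : cuspClasses D →L[ℂ] cuspClasses D)
    (h : IsTwistMap tw σf) (hb : Function.Bijective σf) (h3 : ∀ y, σf (σf (σf y)) = y)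
    {k₁ k₂ : Fin 3 → PPKer} {f₁ f₂ : HKer U'} (h₁ : HasCuspBound D k₁ f₁)
    (h₂ : HasCuspBound D (fun i => (k₂ i).conjKer) f₂.adj) (hcol : HasCuspidalColumns D k₂ f₂)
    (hk : ∀ i p q, k₂ (i - 1) p q = k₂ i p q) (hf : ∀ y z, f₂ (σf y) (σf z) = f₂ y z)
    (hX : ∀ e, X (P (P e)) = cuspOp D k₂ f₂ (cuspOp D k₁ f₁
      (twistOp D tw σf h hb (twistOp D tw σf h hb e)))) :
    HasSum (fun i => (μ i : ℂ) ^ 2 * LinearMap.trace ℂ (V i) (compress V X i))
      (∫ x, perKer PGL(2, K')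
        (testKernel (fun i => PPKer.comp (k₁ i) (k₂ i)) (f₁.comp f₂)) x (twistPt σf x) ∂D.ν) :=
  hd.hasSum_trace X _ fun w b hw => by
    simp only [hX]
    exact Descent.hasSum_trace_twistPt b h hb h3 h₁ h₂ hcol hk hf

/-- **The twisted trace identity for combinations.** -/
theorem hasSum_trace_twistPt_sum {κ : Type*} [Countable κ]
    (b : HilbertBasis κ ℂ (cuspClasses D)) {α : Type*} [Fintype α] (c : α → ℂ)
    (h : IsTwistMap tw σf) (hb : Function.Bijective σf) (h3 : ∀ y, σf (σf (σf y)) = y)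
    {k₁ : Fin 3 → PPKer} {f₁ : HKer U'} {k₂ : α → Fin 3 → PPKer} {f₂ : α → HKer U'}
    (h₁ : HasCuspBound D k₁ f₁)
    (h₂ : ∀ a, HasCuspBound D (fun i => (k₂ a i).conjKer) (f₂ a).adj)
    (hcol : HasCuspidalColumnsSum D c k₂ f₂)
    (hsym : ∀ u v, ∑ a, c a * testKernel (k₂ a) (f₂ a) (twistPt σf u) (twistPt (Φ' := Φ') σf v)
      = ∑ a, c a * testKernel (k₂ a) (f₂ a) u v) :
    HasSum (fun i => ⟪b i, (∑ a, c a • cuspOp D (k₂ a) (f₂ a)) (cuspOp D k₁ f₁
        (twistOp D tw σf h hb (twistOp D tw σf h hb (b i))))⟫_ℂ)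
      (∫ x, ∑ a, c a * perKer PGL(2, K')
        (testKernel (fun i => PPKer.comp (k₁ i) (k₂ a i)) (f₁.comp (f₂ a))) x (twistPt σf x) ∂D.ν) :=
  hasSum_trace_twisted_sum b c h₁ h₂ hcol (measurePreserving_twistPt hb)
    (measurable_twistPt.comp measurable_twistPt) (twistPt_cube h3) (twistPt_cube h3)
    (perKer_twistPt_swap_sum D.level h h3 c hsym)
    ((twistOp D tw σf h hb).comp (twistOp D tw σf h hb))
    fun _ _ _ hi he => coeFn_twistOp_sq h hb hi he

/-- The same over the classes of a decomposition. -/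
theorem IsClassDecomp.hasSum_trace_twistPt_sum {J Λ : Type*}
    {P : cuspClasses D →L[ℂ] cuspClasses D} {A : J → cuspClasses D →L[ℂ] cuspClasses D}
    {V : Λ → Submodule ℂ (cuspClasses D)} [∀ i, FiniteDimensional ℂ (V i)] {μ : Λ → ℝ}
    {lam : Λ → J → ℝ} (hd : IsClassDecomp P A V μ lam) (X : cuspClasses D →L[ℂ] cuspClasses D)
    {α : Type*} [Fintype α] (c : α → ℂ)
    (h : IsTwistMap tw σf) (hb : Function.Bijective σf) (h3 : ∀ y, σf (σf (σf y)) = y)
    {k₁ : Fin 3 → PPKer} {f₁ : HKer U'} {k₂ : α → Fin 3 → PPKer} {f₂ : α → HKer U'}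
    (h₁ : HasCuspBound D k₁ f₁)
    (h₂ : ∀ a, HasCuspBound D (fun i => (k₂ a i).conjKer) (f₂ a).adj)
    (hcol : HasCuspidalColumnsSum D c k₂ f₂)
    (hsym : ∀ u v, ∑ a, c a * testKernel (k₂ a) (f₂ a) (twistPt σf u) (twistPt (Φ' := Φ') σf v)
      = ∑ a, c a * testKernel (k₂ a) (f₂ a) u v)
    (hX : ∀ e, X (P (P e)) = (∑ a, c a • cuspOp D (k₂ a) (f₂ a)) (cuspOp D k₁ f₁
      (twistOp D tw σf h hb (twistOp D tw σf h hb e)))) :
    HasSum (fun i => (μ i : ℂ) ^ 2 * LinearMap.trace ℂ (V i) (compress V X i))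
      (∫ x, ∑ a, c a * perKer PGL(2, K')
        (testKernel (fun i => PPKer.comp (k₁ i) (k₂ a i)) (f₁.comp (f₂ a))) x (twistPt σf x) ∂D.ν) :=
  hd.hasSum_trace X _ fun w b hw => by
    simp only [hX]
    exact Descent.hasSum_trace_twistPt_sum b c h hb h3 h₁ h₂ hcol hsym

end Fermat.Agent.LT.Descent

end
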