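import Fermat.Agent.LT.Descent.Base
import Fermat.Agent.LT.Descent.TwistTrace

/-!
# The two diagonals of a test pair

For a matched pair with a high power at the places over `u` the diagonal integrals on the two
quotients agree; these are the integrals that the trace formulas on cusp classes produce.
-/

set_option autoImplicit false

noncomputable section

namespace Fermat.Agent.LT.Descent

open Fermat.Agent.LT.Adelic Fermat.Agent.LT.Spectral Fermat.Agent.LT.Descent.Places
open MeasureTheory NumberField IsDedekindDomain Matrix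
open scoped MatrixGroups

variable {K : Type*} [Field K] [NumberField K] {K' : Type*} [Field K'] [NumberField K']
  [Algebra K K'] {Φ : Frame K Unit} {Φ' : Frame K' (Fin 3)} {tw : CubicTwist Φ Φ'}

/-- A place above lies over the place below. -/
theorem IsAbove.liesOver {v : HeightOneSpectrum (𝓞 K)} {w : HeightOneSpectrum (𝓞 K')}
    (h : IsAbove v w) : w.asIdeal.LiesOver v.asIdeal :=
  ⟨Ideal.ext fun r => (h r).symm⟩

namespace DescentData

variable (D : DescentData tw)

/-- The diagonal integral downstairs. -/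
def TestPair.diag (t : D.TestPair) : ℂ :=
  ∫ x, perKer PGL(2, K) (testKernel (fun _ => t.arch) t.ker) x x ∂D.quot.ν

/-- The twisted diagonal integral upstairs. -/
def TestPair.diag' (t : D.TestPair) : ℂ :=
  ∫ x, perKer PGL(2, K') (testKernel t.arch' t.ker') x (twistPt D.sigmaY x) ∂D.quot'.ν

/-- The exponents at the places over `u` and the bounds elsewhere of a test pair. -/
structure TestPair.IsBounded (t : D.TestPair) (a b : 𝓞 K) (a' b' : 𝓞 K') (T : ℝ) (n : ℕ) :
    Prop where
  range : ∀ p q, t.arch p q ≠ 0 → HSpace.coshDist p q ≤ T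
  range' : ∀ i p q, t.arch' i p q ≠ 0 → HSpace.coshDist p q ≤ T
  big : ∃ P : Set ℤ, P.Finite ∧ (∀ m ∈ P, (n : ℤ) < m) ∧ IsBigOn t.ker {D.u} a b P
  big' : ∃ P : Set ℤ, P.Finite ∧ (∀ m ∈ P, (n : ℤ) < m) ∧
    IsBigOn t.ker' (placesAbove {D.u}) a' b' P

theorem TestPair.IsBounded.mono {t : D.TestPair} {a b : 𝓞 K} {a' b' : 𝓞 K'} {T : ℝ} {m n : ℕ}
    (h : t.IsBounded D a b a' b' T n) (hmn : m ≤ n) : t.IsBounded D a b a' b' T m where
  range := h.range
  range' := h.range'
  big := h.big.imp fun _ hP => ⟨hP.1, fun k hk =>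
    lt_of_le_of_lt (by exact_mod_cast hmn) (hP.2.1 k hk), hP.2.2⟩
  big' := h.big'.imp fun _ hP => ⟨hP.1, fun k hk =>
    lt_of_le_of_lt (by exact_mod_cast hmn) (hP.2.1 k hk), hP.2.2⟩

/-- **The diagonals of matched pairs agree.** -/
theorem exists_diag_eq {a b : 𝓞 K} (ha : a ≠ 0) (hb : b ≠ 0) {a' b' : 𝓞 K'} (ha' : a' ≠ 0)
    (hb' : b' ≠ 0) (T : ℝ) :
    ∃ n0 : ℕ, ∀ t : D.TestPair, t.IsMatched → t.IsBounded D a b a' b' T n0 →
      t.diag D = t.diag' D := by
  obtain ⟨w, hw⟩ := exists_isAbove (K' := K') D.u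
  obtain ⟨n0, h⟩ := exists_trace_identity tw (u := D.u) (S := placesAbove {D.u})
    (fun v hv => (D.placePerm_mem_placesAbove_iff _ v).2 hv)
    (fun x hx => by
      obtain ⟨v, hv, hvx⟩ := hx
      rw [Set.mem_singleton_iff] at hv
      exact hv ▸ IsAbove.liesOver hvx)
    ⟨w, ⟨D.u, rfl, hw⟩, fun x => D.u_split.valuation_algebraMap D.gen hw x⟩ ha hb ha' hb' T
  refine ⟨n0, fun t hm hbd => ?_⟩
  obtain ⟨P, hP, hPn, hbig⟩ := hbd.big
  obtain ⟨P', hP', hPn', hbig'⟩ := hbd.big'
  exact h _ _ D.quot D.quot' D.sigmaY D.isTwistMap_sigmaY (fun _ => rfl) _ _ t.ker t.ker' P P'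
    hm.composite (fun _ => hbd.range) hbd.range' hbig hbig' hP hP' hPn hPn' hm.transfers

namespace TestPair

variable {D}

/-- Both sides of the pair have bounded point functionals. -/
structure HasBound (t : D.TestPair) : Prop where
  bound : HasCuspBound D.quot (fun _ : Unit => t.arch) t.ker
  bound' : HasCuspBound D.quot' t.arch' t.ker'

/-- The pair can be the second factor of a trace: bounded adjoints, cuspidal columns, and it
commutes with the twist upstairs. -/
structure IsTraceFactor (t : D.TestPair) : Prop where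
  adj : HasCuspBound D.quot (fun _ : Unit => t.arch.conjKer) t.ker.adj
  adj' : HasCuspBound D.quot' (fun i => (t.arch' i).conjKer) t.ker'.adj
  col : HasCuspidalColumns D.quot (fun _ : Unit => t.arch) t.ker
  col' : HasCuspidalColumns D.quot' t.arch' t.ker'
  arch_symm : ∀ i p q, t.arch' (i - 1) p q = t.arch' i p q
  ker_symm : ∀ y z, t.ker' (D.sigmaY y) (D.sigmaY z) = t.ker' y z

variable {J Λ : Type*}

/-- **The trace over the classes downstairs.** -/
theorem hasSum_classes (t s : D.TestPair) (h₁ : t.HasBound) (h₂ : s.IsTraceFactor)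
    {P : cuspClasses D.quot →L[ℂ] cuspClasses D.quot}
    {A : J → cuspClasses D.quot →L[ℂ] cuspClasses D.quot}
    {V : Λ → Submodule ℂ (cuspClasses D.quot)} [∀ i, FiniteDimensional ℂ (V i)] {μ : Λ → ℝ}
    {lam : Λ → J → ℝ} (h : IsClassDecomp P A V μ lam)
    (X : cuspClasses D.quot →L[ℂ] cuspClasses D.quot) (hX : ∀ e, X (P (P e)) = s.op (t.op e)) :
    HasSum (fun i => (μ i : ℂ) ^ 2 * LinearMap.trace ℂ (V i) (compress V X i))
      ((t.comp s).diag D) := by
  have hker : (t.comp s).ker = t.ker.comp s.ker := KerFamily.toHKer_comp _ _ _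
  rw [diag, hker]
  refine h.hasSum_trace X _ fun w b hw => ?_
  simp only [hX, op]
  exact hasSum_trace_plain b h₁.bound h₂.adj h₂.col

/-- **The twisted trace over the classes upstairs.** -/
theorem hasSum_classes' (t s : D.TestPair) (h₁ : t.HasBound) (h₂ : s.IsTraceFactor)
    {P : cuspClasses D.quot' →L[ℂ] cuspClasses D.quot'}
    {A : J → cuspClasses D.quot' →L[ℂ] cuspClasses D.quot'}
    {V : Λ → Submodule ℂ (cuspClasses D.quot')} [∀ i, FiniteDimensional ℂ (V i)] {μ : Λ → ℝ}
    {lam : Λ → J → ℝ} (h : IsClassDecomp P A V μ lam)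
    (X : cuspClasses D.quot' →L[ℂ] cuspClasses D.quot')
    (hX : ∀ e, X (P (P e)) = s.op' (t.op' (D.twist e))) :
    HasSum (fun i => (μ i : ℂ) ^ 2 * LinearMap.trace ℂ (V i) (compress V X i))
      ((t.comp s).diag' D) := by
  have hker : (t.comp s).ker' = t.ker'.comp s.ker' := KerFamily.toHKer_comp _ _ _
  rw [diag', hker]
  refine h.hasSum_trace X _ fun w b hw => ?_
  simp only [hX, op', twist, twistOne]
  exact Descent.hasSum_trace_twistPt b D.isTwistMap_sigmaY D.bijective_sigmaY D.sigmaY_cube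
    h₁.bound' h₂.adj' h₂.col' h₂.arch_symm h₂.ker_symm

end TestPair

/-- **Equal traces over the classes** on the two sides, for matched products with a high power at
the places over `u`. -/
theorem exists_tsum_classes_eq {a b : 𝓞 K} (ha : a ≠ 0) (hb : b ≠ 0) {a' b' : 𝓞 K'}
    (ha' : a' ≠ 0) (hb' : b' ≠ 0) (T : ℝ) {J Λ Λ' : Type*}
    {P : cuspClasses D.quot →L[ℂ] cuspClasses D.quot}
    {A : J → cuspClasses D.quot →L[ℂ] cuspClasses D.quot}
    {V : Λ → Submodule ℂ (cuspClasses D.quot)} [∀ i, FiniteDimensional ℂ (V i)] {μ : Λ → ℝ}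
    {lam : Λ → J → ℝ} (h : IsClassDecomp P A V μ lam)
    {P' : cuspClasses D.quot' →L[ℂ] cuspClasses D.quot'}
    {A' : J → cuspClasses D.quot' →L[ℂ] cuspClasses D.quot'}
    {V' : Λ' → Submodule ℂ (cuspClasses D.quot')} [∀ i, FiniteDimensional ℂ (V' i)] {μ' : Λ' → ℝ}
    {lam' : Λ' → J → ℝ} (h' : IsClassDecomp P' A' V' μ' lam') :
    ∃ n0 : ℕ, ∀ t s : D.TestPair, t.HasBound → s.IsTraceFactor → (t.comp s).IsMatched →
      (t.comp s).IsBounded D a b a' b' T n0 →
      ∀ (X : cuspClasses D.quot →L[ℂ] cuspClasses D.quot)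
        (X' : cuspClasses D.quot' →L[ℂ] cuspClasses D.quot'),
        (∀ e, X (P (P e)) = s.op (t.op e)) →
        (∀ e, X' (P' (P' e)) = s.op' (t.op' (D.twist e))) →
        ∑' i, (μ i : ℂ) ^ 2 * LinearMap.trace ℂ (V i) (compress V X i) =
          ∑' i, (μ' i : ℂ) ^ 2 * LinearMap.trace ℂ (V' i) (compress V' X' i) := by
  obtain ⟨n0, hn⟩ := D.exists_diag_eq ha hb ha' hb' T
  refine ⟨n0, fun t s ht hs hm hbd X X' hX hX' => ?_⟩
  rw [(t.hasSum_classes s ht hs h X hX).tsum_eq, (t.hasSum_classes' s ht hs h' X' hX').tsum_eq]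
  exact hn _ hm hbd

end DescentData

end Fermat.Agent.LT.Descent

end
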