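import Fermat.Agent.LT.Descent.Atoms
import Fermat.Agent.LT.Descent.Comparison
import Fermat.Agent.LT.Descent.Descended
import Fermat.Agent.LT.Descent.PairTrace

/-!
# Assembly of the comparison

Sides built from the atoms, equal traces for every composite pair with a high power at `u` and a
nonzero twisted trace on the target classes give a target vector downstairs.
-/

set_option autoImplicit false

noncomputable section

namespace Fermat.Agent.LT.Descent

open Fermat.Agent.LT.Adelic Fermat.Agent.LT.Tame Fermat.Agent.LT.Spectral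
open NumberField IsDedekindDomain Matrix
open scoped MatrixGroups InnerProductSpace

variable {K : Type} [Field K] [NumberField K] {K' : Type} [Field K'] [NumberField K']
  [Algebra K K'] {Φ : Frame K Unit} {Φ' : Frame K' (Fin 3)} {tw : CubicTwist Φ Φ'}

namespace DescentData

variable (D : DescentData tw)

/-- The composite factor of a monomial, a power at `u` and a part over `3`. -/
def monoPair (L : List D.AtomIdx) (n : ℕ) (k : KerFamily D.lev.loc) (k' : KerFamily D.lev'.loc) :
    D.TestPair :=
  (TestPair.listComp (D.upow n) (L.map D.atom)).comp (D.withFam k k')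

/-- **Assembly.** -/
theorem exists_isTargetVector [TopologicalSpace.SeparableSpace (cuspClasses D.quot)]
    [TopologicalSpace.SeparableSpace (cuspClasses D.quot')]
    (l : List (ℂ × D.TestPair)) (k : KerFamily D.lev.loc) (k' : KerFamily D.lev'.loc)
    (S : ClassSide D.AtomIdx (cuspClasses D.quot))
    (S' : ClassSide D.AtomIdx' (cuspClasses D.quot'))
    (hP : S.P = D.base.op) (hT : ∀ j, S.T j = (D.atom j).op) (hR : ∀ n, S.R n = (D.upow n).op)
    (hB : S.B = D.sumOp l * (D.withFam k k').op)
    (hP' : S'.P = D.base.op') (hT' : ∀ j, S'.T j = D.atomOp' j)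
    (hR' : ∀ n, S'.R n = (D.upow n).op')
    (hB' : S'.B = D.sumOp' l * (D.withFam k k').op' * D.twist) (hπ' : S'.π = D.atomPerm)
    (hA : ∀ j, Commute (D.sumOp l) (D.atom j).op) (hAR : ∀ n, Commute (D.sumOp l) (D.upow n).op)
    (hA' : ∀ j, Commute (D.sumOp' l) (D.atom j).op')
    (hAR' : ∀ n, Commute (D.sumOp' l) (D.upow n).op')
    {ρ r : ℝ} (hρ : 0 < ρ) (hspec : S.HasSpectrum ρ r) (hspec' : S'.HasSpectrum ρ r)
    (hmom : ∀ L : List D.AtomIdx, ∃ n₀ : ℕ, ∀ n, n₀ ≤ n → ∃ I : ℂ,
      (∀ (s : Set (cuspClasses D.quot)) (e : HilbertBasis s ℂ (cuspClasses D.quot)), Countable s →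
        HasSum (fun i => ⟪e i, (D.sumOp l * (D.monoPair L n k k').op)
          (D.base.op (D.base.op (e i)))⟫_ℂ) I) ∧
      ∀ (s : Set (cuspClasses D.quot')) (e : HilbertBasis s ℂ (cuspClasses D.quot')), Countable s →
        HasSum (fun i => ⟪e i, (D.sumOp' l * (D.monoPair L n k k').op' * D.twist)
          (D.base.op' (D.base.op' (e i)))⟫_ℂ) I)
    {s : ℂ} (hs : s ≠ 0) (hscal : ∀ e ∈ D.targetSpace, D.sumOp' l e = s • e)
    (htr : ∀ h : Set.MapsTo ((D.withFam k k').op' * D.twist) D.targetSpace D.targetSpace,
      LinearMap.trace ℂ D.targetSpace (LinearMap.restrict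
        (((D.withFam k k').op' * D.twist : cuspClasses D.quot' →L[ℂ] cuspClasses D.quot') :
          cuspClasses D.quot' →ₗ[ℂ] cuspClasses D.quot') h) ≠ 0)
    (hmaps : Set.MapsTo ((D.withFam k k').op' * D.twist) D.targetSpace D.targetSpace) :
    ∃ e, D.IsTargetVector e := by
  have hPfun : S'.T = D.atomOp' := funext hT'
  have hL : ∀ j, D.targetVal (S'.π j) = D.targetVal j := fun j => by
    rw [hπ', D.targetVal_atomPerm]
  refine (exists_eigenvector_of_moments S S' id D.idxUp hρ hspec hspec'
    (fun m => ?_) AtomIdx.base ((hT _).trans hP.symm)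
    (((hT' _).trans (D.atomOp'_idxUp AtomIdx.base)).trans hP'.symm)
    (fun j' => by rw [hπ']; exact D.exists_iterate_idxUp j') targetMu_ne_zero D.targetVal hL ?_).elim
    fun v hv => ?_
  rotate_left 2
  · obtain ⟨hv0, hv1, hv2⟩ := hv
    exact ⟨v, hv0, hP ▸ hv1, fun j => (hT j) ▸ hv2 j⟩
  · -- the moments
    obtain ⟨n₀, hn⟩ := hmom m.toMultiset.toList
    refine ⟨n₀, fun n h => ?_⟩
    obtain ⟨I, hI, hI'⟩ := hn n h
    refine ⟨I, fun t e ht => ?_, fun t e ht => ?_⟩
    · convert hI t e ht using 3 with i
      rw [hP, hB, hR]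
      congr 1
      have hprod : S.mono id m = (m.toMultiset.toList.map fun j => (D.atom j).op).prod := by
        simp only [ClassSide.mono, hT, id]
      rw [hprod, monoPair, TestPair.op_comp, TestPair.op_listComp, List.map_map, ← mul_assoc,
        ← mul_assoc (D.sumOp l), show (TestPair.op ∘ D.atom) = fun j => (D.atom j).op from rfl,
        ((Commute.list_prod_right _ _ fun X hX => by
          obtain ⟨j, -, rfl⟩ := List.mem_map.1 hX
          exact hA j).mul_right (hAR n)).eq]
    · convert hI' t e ht using 3 with i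
      rw [hP', hB', hR']
      congr 1
      have hprod : S'.mono D.idxUp m = (m.toMultiset.toList.map fun j => (D.atom j).op').prod := by
        simp only [ClassSide.mono, hT', atomOp'_idxUp]
      rw [hprod, monoPair, TestPair.op'_comp, TestPair.op'_listComp, List.map_map, ← mul_assoc,
        ← mul_assoc, ← mul_assoc (D.sumOp' l),
        show (TestPair.op' ∘ D.atom) = fun j => (D.atom j).op' from rfl,
        ((Commute.list_prod_right _ _ fun X hX => by
          obtain ⟨j, -, rfl⟩ := List.mem_map.1 hX
          exact hA' j).mul_right (hAR' n)).eq]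
  · rw [hP', hPfun]
    intro h
    have : FiniteDimensional ℂ (jointSpace D.base.op' D.atomOp' (targetMu, D.targetVal)) := by
      have := S'.finiteDimensional_jointSpace targetMu_ne_zero D.targetVal
      rwa [hP', hPfun] at this
    have e : LinearMap.restrict (S'.B : cuspClasses D.quot' →ₗ[ℂ] cuspClasses D.quot') h =
        s • LinearMap.restrict
          (((D.withFam k k').op' * D.twist : cuspClasses D.quot' →L[ℂ] cuspClasses D.quot') :
            cuspClasses D.quot' →ₗ[ℂ] cuspClasses D.quot') hmaps :=
      LinearMap.ext fun v => Subtype.ext (by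
        show S'.B (v : cuspClasses D.quot') = s • ((D.withFam k k').op' * D.twist) v
        rw [hB', mul_assoc, mul_apply_eq_comp]
        exact hscal _ (hmaps v.2))
    intro h0
    rw [e] at h0
    exact mul_ne_zero hs (htr hmaps) ((map_smul (LinearMap.trace ℂ _) s _).symm.trans h0)

end DescentData

end Fermat.Agent.LT.Descent

end
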