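import Fermat.Agent.LT.Descent.Moment.Count
import Fermat.Agent.LT.Descent.CoeffFromWhittaker
import Fermat.Agent.LT.RankinSelberg.PinningPlaces

/-!
# The second moment of the eigenvalues on squarefree products of places

A cusp eigenform over a field with one infinite place has `∑ ∏ |a v|² ≪ X` over finite sets of
places with `∏ N v ≤ X`; with the octahedral cube relation this pins the eigenvalues down.
-/

set_option autoImplicit false

noncomputable section

namespace Fermat.Agent.LT.Descent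

open Fermat.Agent.LT.Adelic Fermat.Agent.LT.RankinSelberg NumberField IsDedekindDomain Matrix
open Fermat.Agent.LT.Descent.Moment

variable {K : Type*} [Field K] [NumberField K] {ι : Type*} [Fintype ι] [DecidableEq ι]
  {Φ : Frame K ι} {U : Subgroup (GfK K)} {φ : Space Φ U → ℂ}
  {S : Set (HeightOneSpectrum (𝓞 K))} {a : HeightOneSpectrum (𝓞 K) → ℂ}

theorem yf_mul_mem_eq {g u : GfK K} (hu : u ∈ U) : ((g * u : GfK K) : Yf U) = (g : Yf U) :=
  QuotientGroup.eq.mpr (by
    rw [_root_.mul_inv_rev, inv_mul_cancel_right]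
    exact le_levelZ U (inv_mem hu))

/-- Finitely many coordinates `diag(t u, 1)` for `t` in a finite set and `u` a unit idele. -/
theorem exists_finite_torus_coords (hU : IsLevel U) {T : Set (FiniteAdeleRing (𝓞 K) K)ˣ}
    (hT : T.Finite) :
    ∃ Y : Set (Yf U), Y.Finite ∧ ∀ t ∈ T, ∀ w : (FiniteAdeleRing (𝓞 K) K)ˣ, IsUnitIdele w →
      ((diag2 (t * w) 1 : GfK K) : Yf U) ∈ Y := by
  obtain ⟨n, hn, hnU, -⟩ := hU
  let q : GfK K → GfK K ⧸ principalLevel K n → Yf U := fun t => Quotient.lift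
    (fun u => ((t * u : GfK K) : Yf U)) fun a b hab => by
      refine QuotientGroup.eq.mpr (le_levelZ U (hnU ?_))
      rw [_root_.mul_inv_rev, mul_assoc, inv_mul_cancel_left]
      exact QuotientGroup.leftRel_apply.mp hab
  refine ⟨⋃ t ∈ T, q (diag2 t 1) '' ((fun g : GfK K => (g : GfK K ⧸ principalLevel K n)) ''
    (principalLevel K (1 : 𝓞 K) : Set (GfK K))),
    hT.biUnion fun t _ => (finite_image_principalLevel hn).image _, fun t ht w hw => ?_⟩
  have hmem : (diag2 w 1 : GfK K) ∈ principalLevel K (1 : 𝓞 K) := by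
    rw [mem_principalLevel_one]
    constructor <;> intro i j <;> fin_cases i <;> fin_cases j <;>
      first
        | exact memMul_zero_right 1
        | exact memMul_one_iff.mpr (one_mem _)
        | exact memMul_one_iff.mpr fun v => (hw v).le
        | exact memMul_one_iff.mpr fun v => (hw.inv v).le
        | exact memMul_one_iff.mpr (by simp [diag2])
  refine Set.mem_biUnion ht ⟨_, ⟨_, hmem, rfl⟩, ?_⟩
  show ((diag2 t 1 * diag2 w 1 : GfK K) : Yf U) = _
  rw [diag2_mul_diag2, one_mul]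

/-- The coefficients of the form of an eigenfunction on a level. -/
theorem formCoeff_of_space (hU : IsLevel U) (hφ : LT.IsCuspEigen φ) (g : GfK K) :
    formCoeff Φ (fun τ g => φ (Space.mk τ (g : Yf U))) g = whitCoeff φ (g : Yf U) :=
  (isWhittakerAt_congr (f' := formSlice (Φ := Φ) (fun τ g => φ (Space.mk τ (g : Yf U))) g)
    (y' := baseCoord K) (hφ.isWhittakerAt hU (g : Yf U)) fun τ => by rw [formSlice_mk]).whitCoeff_eq

/-- The second moment bound along places outside `S`. -/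
theorem exists_squarefreeMomentBound_of_level [Unique ι] (hS : S.Finite) (hU : IsLevel U) {n : 𝓞 K}
    (hn : SupportedIn S n) (hnU : principalLevel K n ≤ U) (hφ : LT.IsCuspEigen φ)
    (heig : ∀ v ∉ S, IsHeckeEigenAt φ v (a v)) {I : Type*} (e : I → HeightOneSpectrum (𝓞 K))
    (he : Function.Injective e) (heS : ∀ i, e i ∉ S) :
    ∃ C, SquarefreeMomentBound (fun i => Ideal.absNorm (e i).asIdeal) (fun i => ‖a (e i)‖ ^ 2) C := by
  classical
  have hU1 : U ≤ principalLevel K (1 : 𝓞 K) := hU.choose_spec.2.2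
  let ψ : sForms Φ S a := ⟨fun τ g => φ (Space.mk τ (g : Yf U)),
    isSForm_of_space hU1 hn hnU hφ.invariant hφ.continuous hφ.bounded hφ.cuspidal hφ.spherical heig⟩
  set D := coeffData Φ S a
  have hall := fun y => hφ.isWhittakerAt hU y
  have hcoef : ∀ (g : GfK K) (α : K), D.coeff ψ g α = whitCoeff φ (g : Yf U) α := fun g α =>
    congrFun (formCoeff_of_space hU hφ g) α
  -- a non-zero value on the supported ideles
  have hψ : ψ ≠ 0 := by
    intro h0
    obtain ⟨x, hx⟩ := hφ.nonzero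
    obtain ⟨g, hg⟩ := QuotientGroup.mk_surjective x.fin
    refine hx ?_
    have h1 : ψ.1 x.pt g = 0 := by rw [h0]; rfl
    rw [← Space.mk_pt_fin x, ← hg]
    exact h1
  obtain ⟨x₀, hx₀, hW0⟩ : ∃ x₀ ∈ ideleSupported S, D.torusCoeff ψ x₀ ≠ 0 := by
    by_contra hno
    push Not at hno
    exact hψ (D.kirillov_injective hS (funext fun x => by
      show D.torusCoeff ψ x.1 = D.torusCoeff 0 x.1
      rw [hno x.1 x.2]
      simp [CoeffData.torusCoeff]))
  choose ϖ hϖ using fun i => exists_uniformiser (e i)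
  set xT : Finset I → (FiniteAdeleRing (𝓞 K) K)ˣ := fun T => x₀ * ∏ i ∈ T, ϖ i with hxT
  have hord : ∀ (T : Finset I) (i : I),
      ordAt (xT T) (e i) = if i ∈ T then 1 else 0 := by
    intro T i
    induction T using Finset.induction_on with
    | empty =>
      simp only [hxT, Finset.prod_empty, mul_one, Finset.notMem_empty, if_false]
      rw [ordAt, hx₀ _ (heS i), map_one, WithZero.log_one, neg_zero]
    | @insert j T hj ih =>
      have hx : xT (insert j T) = xT T * ϖ j := by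
        simp only [hxT, Finset.prod_insert hj]; rw [mul_comm (ϖ j), mul_assoc]
      rw [hx, ordAt_mul, ih, ordAt_uniformiser (hϖ j)]
      rcases eq_or_ne i j with rfl | hij
      · simp [hj]
      · simp [hij, he.ne hij]
  -- the recursion
  have hrec : ∀ T : Finset I, ‖D.torusCoeff ψ (xT T)‖ ^ 2 * ((∏ i ∈ T, Ideal.absNorm (e i).asIdeal : ℕ) : ℝ) =
      (∏ i ∈ T, ‖a (e i)‖ ^ 2) * ‖D.torusCoeff ψ x₀‖ ^ 2 := by
    intro T
    induction T using Finset.induction_on with
    | empty => simp [hxT]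
    | @insert j T hj ih =>
      have hx : xT (insert j T) = xT T * ϖ j := by
        simp only [hxT, Finset.prod_insert hj]; rw [mul_comm (ϖ j), mul_assoc]
      have hval : Valued.v ((xT T : FiniteAdeleRing (𝓞 K) K) (e j)) = 1 := by
        rw [valued_eq_exp_ordAt, hord, if_neg hj, neg_zero, WithZero.exp_zero]
      have h1 : D.torusCoeff ψ (xT T * (ϖ j)⁻¹) = 0 := by
        refine D.torusCoeff_eq_zero ψ (heS j) ?_
        rw [Units.val_mul, coe_apply_mul, map_mul, hval, one_mul, inv_apply, map_inv₀, (hϖ j).1,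
          ← WithZero.exp_neg, ← WithZero.exp_zero, WithZero.exp_lt_exp]
        norm_num
      have h2 := D.torusCoeff_hecke ψ (heS j) (hϖ j) hval.le
      rw [h1, add_zero] at h2
      set q : ℝ := (Ideal.absNorm (e j).asIdeal : ℝ)
      have hq : 0 < q := Nat.cast_pos.mpr (Nat.pos_of_ne_zero fun h =>
        (e j).ne_bot (Ideal.absNorm_eq_zero_iff.mp h))
      have h3 : q * ‖D.torusCoeff ψ (xT T * ϖ j)‖ =
          Real.sqrt q * ‖a (e j)‖ * ‖D.torusCoeff ψ (xT T)‖ := by
        have := congrArg norm h2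
        rw [← Submodule.cardQuot_apply, ← Ideal.absNorm_apply] at this
        simpa [norm_mul, Complex.norm_real, abs_of_nonneg (Real.sqrt_nonneg _), q] using this
      have h4 : q * ‖D.torusCoeff ψ (xT T * ϖ j)‖ ^ 2 =
          ‖a (e j)‖ ^ 2 * ‖D.torusCoeff ψ (xT T)‖ ^ 2 := by
        have h5 := congrArg (· ^ 2) h3
        simp only [mul_pow, Real.sq_sqrt hq.le] at h5
        exact mul_left_cancel₀ hq.ne' (by linear_combination h5)
      rw [hx, Finset.prod_insert hj, Finset.prod_insert hj, Nat.cast_mul,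
        mul_assoc (‖a (e j)‖ ^ 2), ← ih]
      linear_combination ((∏ i ∈ T, Ideal.absNorm (e i).asIdeal : ℕ) : ℝ) * h4
  -- representatives
  obtain ⟨Trep, hTrep, hdec⟩ := exists_finite_idele_reps (𝓞 K) K
  choose t ht α w hw hdecomp using fun T : Finset I => hdec (xT T * D.delta)
  obtain ⟨Y, hY, hYmem⟩ := exists_finite_torus_coords hU hTrep
  set y : Finset I → Yf U := fun T => ((diag2 (t T * w T) 1 : GfK K) : Yf U)
  have hval : ∀ T, D.torusCoeff ψ (xT T) * ((∏ i, ‖Φ.emb i (α T : K)‖ : ℝ) : ℂ) =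
      whitCoeff φ (y T) (α T : K) := by
    intro T
    have h := whitCoeff_diag hφ.invariant hall (α T) (y T) 1
    rw [one_mul] at h
    rw [CoeffData.torusCoeff, hcoef, ← h]
    congr 2
    show _ = ((toGf K (diag2 (α T) 1) * diag2 (t T * w T) 1 : GfK K) : Yf U)
    congr 1
    rw [hdecomp T, mul_assoc]
    apply GL.ext_fin_two
    ext i j; fin_cases i <;> fin_cases j <;> simp [toGf, Matrix.mul_apply, Fin.sum_univ_two]
  set ν₀ := ideleNorm (x₀ * D.delta)
  have hν₀ : 0 < ν₀ := ideleNorm_pos _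
  have hnorm : ∀ T, (∏ i, ‖Φ.emb i (α T : K)‖ ^ 2) * ideleNorm (t T) =
      ν₀ * ((∏ i ∈ T, Ideal.absNorm (e i).asIdeal : ℕ) : ℝ) := by
    intro T
    have h := congrArg ideleNorm (hdecomp T)
    rw [map_mul _ (principalIdele _ * _), ideleNorm_of_isUnitIdele (hw T), mul_one, map_mul _ _ (t T),
      ideleNorm_principalIdele, ← Φ.isFrame.prod_norm_sq] at h
    rw [← h, hxT, mul_right_comm x₀, map_mul, map_prod, Nat.cast_prod,
      Finset.prod_congr rfl fun i _ => ideleNorm_uniformiser (hϖ i)]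
  have hinj : Function.Injective fun T => (t T, y T, (α T : K)) := by
    intro T T' h
    simp only [Prod.mk.injEq] at h
    obtain ⟨h1, -, h3⟩ := h
    ext i
    have hordT : ∀ T, ordAt (xT T * D.delta) (e i) =
        ordAt (principalIdele (α T) * t T : (FiniteAdeleRing (𝓞 K) K)ˣ) (e i) := fun T => by
      rw [hdecomp T, ordAt_mul _ (w T), show ordAt (w T) (e i) = 0 by
        rw [ordAt, hw T, WithZero.log_one, neg_zero], add_zero]
    have hh := hordT T
    rw [Units.ext h3, h1, ← hordT T', ordAt_mul (xT T), ordAt_mul (xT T'), hord, hord] at hh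
    by_cases h4 : i ∈ T <;> by_cases h5 : i ∈ T' <;> simp [h4, h5] at hh ⊢
  obtain ⟨C, hC0, hC⟩ := exists_sum_sq_le_linear hU hφ
  set W0 := ‖D.torusCoeff ψ x₀‖ ^ 2
  have hW0' : 0 < W0 := by positivity
  set R₁ := ∑ s ∈ hTrep.toFinset, ideleNorm s / ν₀
  set R₂ := ∑ s ∈ hTrep.toFinset, ν₀ / ideleNorm s
  have hR₁ : ∀ T, ideleNorm (t T) / ν₀ ≤ R₁ := fun T =>
    Finset.single_le_sum (f := fun s => ideleNorm s / ν₀)
      (fun s _ => (div_pos (ideleNorm_pos s) hν₀).le) (hTrep.mem_toFinset.mpr (ht T))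
  have hR₂ : ∀ T, ν₀ / ideleNorm (t T) ≤ R₂ := fun T =>
    Finset.single_le_sum (f := fun s => ν₀ / ideleNorm s)
      (fun s _ => (div_pos hν₀ (ideleNorm_pos s)).le) (hTrep.mem_toFinset.mpr (ht T))
  have hstep : ∀ T, (∏ i ∈ T, ‖a (e i)‖ ^ 2) * W0 ≤ R₁ * ‖whitCoeff φ (y T) (α T : K)‖ ^ 2 := by
    intro T
    have hprod : 0 ≤ ∏ i, ‖Φ.emb i (α T : K)‖ := Finset.prod_nonneg fun i _ => norm_nonneg _
    rw [← hrec T, ← hval T, norm_mul, mul_pow, Complex.norm_real, Real.norm_of_nonneg hprod,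
      ← Finset.prod_pow, mul_left_comm R₁]
    refine mul_le_mul_of_nonneg_left ?_ (sq_nonneg _)
    calc ((∏ i ∈ T, Ideal.absNorm (e i).asIdeal : ℕ) : ℝ)
        = ideleNorm (t T) / ν₀ * ∏ i, ‖Φ.emb i (α T : K)‖ ^ 2 := by
          rw [div_mul_eq_mul_div, eq_div_iff hν₀.ne', mul_comm _ ν₀, ← hnorm T, mul_comm]
      _ ≤ R₁ * ∏ i, ‖Φ.emb i (α T : K)‖ ^ 2 :=
          mul_le_mul_of_nonneg_right (hR₁ T) (Finset.prod_nonneg fun i _ => sq_nonneg _)
  refine ⟨R₁ * (hTrep.toFinset.card * hY.toFinset.card * C * R₂) / W0, fun 𝒯 X hX hT => ?_⟩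
  rw [div_mul_eq_mul_div, le_div_iff₀ hW0', Finset.sum_mul]
  refine (Finset.sum_le_sum fun T _ => hstep T).trans ?_
  rw [← Finset.mul_sum]
  have hR10 : 0 ≤ R₁ := Finset.sum_nonneg fun s _ => (div_pos (ideleNorm_pos s) hν₀).le
  rw [mul_assoc R₁]
  refine mul_le_mul_of_nonneg_left ?_ hR10
  set A : Finset K := 𝒯.image fun T => (α T : K)
  have hX' : (0 : ℝ) < R₂ * X := by
    refine mul_pos (lt_of_lt_of_le (div_pos hν₀ (ideleNorm_pos _)) (hR₂ ∅)) ?_
    exact_mod_cast hX
  have hA : ∀ β ∈ A, ∏ i, ‖Φ.emb i β‖ ^ 2 ≤ R₂ * X := by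
    intro β hβ
    obtain ⟨T, hT', rfl⟩ := Finset.mem_image.mp hβ
    have hle : ((∏ i ∈ T, Ideal.absNorm (e i).asIdeal : ℕ) : ℝ) ≤ X := by exact_mod_cast hT T hT'
    have hN : 0 < ideleNorm (t T) := ideleNorm_pos _
    calc ∏ i, ‖Φ.emb i (α T : K)‖ ^ 2
        = ν₀ / ideleNorm (t T) * ((∏ i ∈ T, Ideal.absNorm (e i).asIdeal : ℕ) : ℝ) := by
          rw [div_mul_eq_mul_div, eq_div_iff hN.ne', hnorm T]
      _ ≤ R₂ * X := mul_le_mul (hR₂ T) hle (Nat.cast_nonneg _)
          (le_trans (div_pos hν₀ hN).le (hR₂ T))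
  calc ∑ T ∈ 𝒯, ‖whitCoeff φ (y T) (α T : K)‖ ^ 2
      = ∑ p ∈ 𝒯.image (fun T => (t T, y T, (α T : K))), ‖whitCoeff φ p.2.1 p.2.2‖ ^ 2 :=
        (Finset.sum_image (f := fun p : _ × Yf U × K => ‖whitCoeff φ p.2.1 p.2.2‖ ^ 2)
          fun _ _ _ _ h => hinj h).symm
    _ ≤ ∑ p ∈ hTrep.toFinset ×ˢ (hY.toFinset ×ˢ A), ‖whitCoeff φ p.2.1 p.2.2‖ ^ 2 := by
        refine Finset.sum_le_sum_of_subset_of_nonneg ?_ fun _ _ _ => sq_nonneg _
        intro p hp
        obtain ⟨T, hT', rfl⟩ := Finset.mem_image.mp hp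
        simp only [Finset.mem_product, Set.Finite.mem_toFinset]
        exact ⟨ht T, hYmem _ (ht T) _ (hw T), Finset.mem_image_of_mem _ hT'⟩
    _ = hTrep.toFinset.card * ∑ z ∈ hY.toFinset, ∑ β ∈ A, ‖whitCoeff φ z β‖ ^ 2 := by
        simp only [Finset.sum_product, Finset.sum_const, nsmul_eq_mul]
    _ ≤ hTrep.toFinset.card * (hY.toFinset.card * (C * (R₂ * X))) := by
        refine mul_le_mul_of_nonneg_left ?_ (Nat.cast_nonneg _)
        refine (Finset.sum_le_sum fun z _ => hC z A _ hX' hA).trans (le_of_eq ?_)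
        rw [Finset.sum_const, nsmul_eq_mul]
    _ = hTrep.toFinset.card * hY.toFinset.card * C * R₂ * X := by ring

/-- Enlarging `S` to contain the level. -/
theorem exists_supportedIn_superset (hS : S.Finite) (hU : IsLevel U) :
    ∃ (S' : Set (HeightOneSpectrum (𝓞 K))) (n : 𝓞 K), S ⊆ S' ∧ S'.Finite ∧ SupportedIn S' n ∧
      principalLevel K n ≤ U := by
  obtain ⟨n, hn, hnU, -⟩ := hU
  refine ⟨S ∪ {v | v.intValuation n < 1}, n, Set.subset_union_left,
    hS.union (finite_primes_dvd hn), ⟨hn, fun v hv => ?_⟩, hnU⟩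
  exact le_antisymm (v.intValuation_le_one n) (not_lt.mp fun h => hv (Or.inr h))

/-- **Pinning.**  A cusp eigenform over `ℚ(√-3)` with the cube relation has the octahedral traces
as eigenvalues outside a small set of places. -/
theorem exists_smallPlaceSet_of_isCuspEigen {W : WeierstrassCurve ℤ}
    {ρ : Galois.GalQ →* GL (Fin 2) (ZMod 3)} (hρ : IsThreeRep W ρ) {Φ : Frame fieldF Unit}
    {U : Subgroup (GfK fieldF)} {φ : Space Φ U → ℂ} {S : Set (HeightOneSpectrum (𝓞 fieldF))}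
    {a : HeightOneSpectrum (𝓞 fieldF) → ℂ} (hS : S.Finite) (hU : IsLevel U)
    (hφ : LT.IsCuspEigen φ) (heig : ∀ v ∉ S, IsHeckeEigenAt φ v (a v))
    (hquat : ∀ v, v ∉ S → (placeNorm v).Prime → ∀ σ, IsFrobOver fieldF v.asIdeal σ →
      ρ σ ∈ quatSubgroup → a v = octTrace ρ σ)
    (hcube : ∀ v, v ∉ S → (placeNorm v).Prime → ∀ σ, IsFrobOver fieldF v.asIdeal σ →
      ρ σ ∉ quatSubgroup → a v ^ 3 - 3 * a v = octTrace ρ σ ^ 3 - 3 * octTrace ρ σ) :
    ∃ X : Set (HeightOneSpectrum (𝓞 fieldF)), SmallPlaceSet X ∧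
      ∀ v σ, IsFrobOver fieldF v.asIdeal σ → v ∉ X → a v = octTrace ρ σ := by
  obtain ⟨S', n, hSS, hS', hn, hnU⟩ := exists_supportedIn_superset hS hU
  have heig' : ∀ v ∉ S', IsHeckeEigenAt φ v (a v) := fun v hv => heig v fun h => hv (hSS h)
  obtain ⟨C, hC⟩ := exists_squarefreeMomentBound_of_level hS' hU hn hnU hφ heig'
    (Subtype.val : {v : HeightOneSpectrum (𝓞 fieldF) // v ∉ S' ∧ (placeNorm v).Prime} → _)
    Subtype.val_injective fun i => i.2.1
  exact exists_smallPlaceSet_eq_octTrace hρ hS' a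
    (fun v hv => hquat v fun h => hv (hSS h)) (fun v hv => hcube v fun h => hv (hSS h)) hC

end Fermat.Agent.LT.Descent

end
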