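import Fermat.Agent.LT.Descent.Descended
import Fermat.Agent.LT.Descent.Places
import Fermat.Agent.LT.Descent.MomentBound
import Fermat.Agent.LT.Density.Theta

/-!
# The exit of the descent

A descended form gives the output of C2: real eigenvalues bounded by two, the octahedral traces at
the split places and outside a small set of places.
-/

set_option autoImplicit false

noncomputable section

open Fermat.Agent.Galois Fermat.Agent.LT.Adelic Fermat.Agent.LT.Descent.Places
open NumberField IsDedekindDomain WeierstrassCurve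
open scoped MatrixGroups

namespace Fermat.Agent.LT.Descent

theorem abs_le_two_of_cube_sub {x : ℝ} (h : |x ^ 3 - 3 * x| ≤ 2) : |x| ≤ 2 := by
  rw [abs_le] at h ⊢
  constructor
  · by_contra hx
    nlinarith [mul_pos (show 0 < -(x + 2) by linarith) (sq_pos_of_neg (show x - 1 < 0 by linarith))]
  · by_contra hx
    nlinarith [mul_pos (show 0 < x - 2 by linarith) (sq_pos_of_pos (show 0 < x + 1 by linarith))]

variable {W : WeierstrassCurve ℤ} {ρ : GalQ →* GL (Fin 2) (ZMod 3)}

/-- The cube relation for the traces of the octahedral lift. -/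
theorem octTrace_cube {σ : GalQ} (h : Matrix.GeneralLinearGroup.det (ρ σ) = 1) :
    octTrace ρ (σ ^ 3) = octTrace ρ σ ^ 3 - 3 * octTrace ρ σ := by
  have key : ∀ a b c d : ZMod 3, a * d - b * c = 1 → Density.signVal a b c d = 1 := by
    decide +kernel
  have hd : ((octRep (ρ σ) : GL (Fin 2) ℂ) : Matrix (Fin 2) (Fin 2) ℂ).det = 1 := by
    rw [(Density.octRep_trace_det (ρ σ)).2.2,
      show Density.octSign (ρ σ) = 1 from key _ _ _ _ ((Density.det_eq_one_iff _).2 h), Int.cast_one]
  rw [octTrace, octTrace, map_pow, map_pow, pow_succ, sq, Units.val_mul, Units.val_mul]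
  simp only [Matrix.trace_fin_two, Matrix.det_fin_two, Matrix.mul_apply, Fin.sum_univ_two] at hd ⊢
  linear_combination (-3 * ((octRep (ρ σ) : GL (Fin 2) ℂ).1 0 0 +
    (octRep (ρ σ) : GL (Fin 2) ℂ).1 1 1)) * hd

variable [NumberField (fieldF' ρ)]

/-- **The exit of C2.** -/
theorem hasDescentForm_of_hasDescended (hρ : IsThreeRep W ρ) {g : GalQ} (hg : ρ g = unipThree) :
    letI := algFieldF hρ
    ∀ D : DescentData (cubicTwist hρ hg), ((3 : ℤ) ∣ W.Δ → D.m = 0) →
      (∀ w, w ∉ DescentData.bad' (tw := cubicTwist hρ hg) →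
        ∀ τ, IsFrobOver (fieldF' ρ) w.asIdeal τ → D.eig w = octTrace ρ τ) →
      D.HasDescended → HasDescentForm W ρ := by
  letI := algFieldF hρ
  intro D hm heig hD
  classical
  obtain ⟨φ, a, h⟩ := hD
  have hbad : ∀ v, PrimeTo (3 * D.lev₀.modulus) v → v ∉ DescentData.bad (tw := cubicTwist hρ hg) := by
    intro v hv hvb
    refine hv ?_
    rw [Nat.cast_mul]
    rcases hvb with h3 | ht
    · exact Ideal.mul_mem_right _ _ (by exact_mod_cast h3)
    · refine Ideal.mul_mem_left _ _ ?_
      rw [LevelData.modulus, Nat.cast_mul, Nat.cast_prod]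
      refine Ideal.mul_mem_left _ _ (Ideal.prod_mem v.asIdeal (i := v) ?_ (Ideal.absNorm_mem _))
      exact Finset.mem_union_left _ (D.lev₀.tame_finite.mem_toFinset.2 ht)
  have hdet : ∀ {v : HeightOneSpectrum (𝓞 fieldF)} {σ : GalQ}, IsFrobOver fieldF v.asIdeal σ →
      Matrix.GeneralLinearGroup.det (ρ σ) = 1 := fun hσ => (hρ.det _).trans
    (MonoidHom.mem_ker.1 ((mem_fixingSubgroup_fieldF hρ).1 hσ.1))
  -- the eigenvalues at good places
  have hsplit : ∀ v ∉ DescentData.bad (tw := cubicTwist hρ hg), IsSplit (cubicTwist hρ hg).σ v → ∀ σ,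
      IsFrobOver fieldF v.asIdeal σ → ρ σ ∈ quatSubgroup ∧ a v = octTrace ρ σ := by
    intro v hv hs σ hσ
    obtain ⟨hq, hall⟩ := IsSplit.frobenius hρ hg hs hσ
    obtain ⟨w, hw⟩ := exists_isAbove (K' := fieldF' ρ) v
    obtain ⟨τ, hτ, htr⟩ := hall w hw
    refine ⟨hq, ?_⟩
    rw [h.split v hv hs w hw, heig w (fun hb => hv ((DescentData.mem_bad'_iff hw).1 hb)) τ hτ, htr]
  have hinert : ∀ v ∉ DescentData.bad (tw := cubicTwist hρ hg), IsInert (cubicTwist hρ hg).σ v → ∀ σ,
      IsFrobOver fieldF v.asIdeal σ → ρ σ ∉ quatSubgroup ∧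
        a v ^ 3 - 3 * a v = octTrace ρ σ ^ 3 - 3 * octTrace ρ σ := by
    intro v hv hi σ hσ
    obtain ⟨hq, hall⟩ := IsInert.frobenius hρ hg hi hσ
    obtain ⟨w, hw⟩ := exists_isAbove (K' := fieldF' ρ) v
    refine ⟨hq, ?_⟩
    rw [h.inert v hv hi w hw, heig w (fun hb => hv ((DescentData.mem_bad'_iff hw).1 hb)) _ (hall w hw),
      octTrace_cube (hdet hσ)]
  have hbound : ∀ v ∉ DescentData.bad (tw := cubicTwist hρ hg), ‖a v‖ ≤ 2 := by
    intro v hv
    obtain ⟨w, hw⟩ := exists_isAbove (K' := fieldF' ρ) v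
    have hle := D.eig_le w fun hb => hv ((DescentData.mem_bad'_iff hw).1 hb)
    rcases D.isInert_or_isSplit hv with hi | hs
    · rw [← h.inert v hv hi w hw,
        show a v = ((a v).re : ℂ) from Complex.ext rfl (by simpa using h.real v hv)] at hle
      rw [show a v = ((a v).re : ℂ) from Complex.ext rfl (by simpa using h.real v hv),
        Complex.norm_real, Real.norm_eq_abs]
      refine abs_le_two_of_cube_sub ?_
      exact_mod_cast hle
    · exact (h.split v hv hs w hw).symm ▸ hle
  obtain ⟨X, hX, hpin⟩ := exists_smallPlaceSet_of_isCuspEigen hρ D.finite_bad D.lev₀.isLevel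
    h.eigen h.hecke
    (fun v hv _ σ hσ hq => (D.isInert_or_isSplit hv).elim
      (fun hi => absurd hq (hinert v hv hi σ hσ).1) fun hs => (hsplit v hv hs σ hσ).2)
    (fun v hv _ σ hσ hq => (D.isInert_or_isSplit hv).elim
      (fun hi => (hinert v hv hi σ hσ).2) fun hs => absurd (hsplit v hv hs σ hσ).1 hq)
  refine ⟨frameF hρ, D.lev₀.modulus, D.lev₀.level, φ, a, X, D.lev₀.modulus_ne_zero,
    fun h3Δ h3 => ?_, D.lev₀.principalLevel_le, D.lev₀.level_le, D.lev₀.hasFullDet, h.eigen,
    fun v hv => ⟨h.hecke v (hbad v hv), hbound v (hbad v hv), h.real v (hbad v hv)⟩, hX,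
    fun v hv σ hσ hor => ?_⟩
  · rw [LevelData.modulus, show D.lev₀.m = 0 from hm h3Δ, pow_zero, one_mul] at h3
    obtain ⟨v, hv, h3v⟩ := (Nat.prime_three.prime.dvd_finsetProd_iff _).1 h3
    have h3' : (3 : 𝓞 fieldF) ∉ v.asIdeal := by
      simp only [DescentData.lev₀, Set.Finite.toFinset_empty, Finset.union_empty] at hv
      exact ((Set.Finite.mem_toFinset _).1 hv).1
    have := D.absNorm_mod_three h3'
    omega
  · rcases hor with hvX | hq
    · exact hpin v σ hσ hvX
    · exact (D.isInert_or_isSplit (hbad v hv)).elim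
        (fun hi => absurd hq (hinert v (hbad v hv) hi σ hσ).1)
        fun hs => (hsplit v (hbad v hv) hs σ hσ).2

end Fermat.Agent.LT.Descent

end
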