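import Fermat.Agent.LT.Descent.PairMoments

/-!
# The moments of the descent

Upstairs the cuspidal combination need not commute with the twist: it is enough that the base
pair does, the quotient integral of an invariant function being unchanged by the twist. For
matched products with a high power at the places over `u` this gives equal traces of a cuspidal
combination followed by a pair and two base operators.
-/

set_option autoImplicit false

noncomputable section

namespace Fermat.Agent.LT.Descent

open Fermat.Agent.LT.Adelic Fermat.Agent.LT.Geom Fermat.Agent.LT.Spectral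
open Fermat.Agent.LT.Descent.Places
open MeasureTheory Filter NumberField IsDedekindDomain Matrix
open scoped MatrixGroups InnerProductSpace ENNReal ComplexConjugate

section Twist

variable {K K' : Type*} [Field K] [NumberField K] [Field K'] [NumberField K'] [Algebra K K']
  {Φ : Frame K Unit} {Φ' : Frame K' (Fin 3)} {U' : Subgroup (GfK K')}
  {tw : CubicTwist Φ Φ'} {σf : Yf U' → Yf U'} [Countable (Yf U')] {D : QuotData Φ' U'}

/-- The twist preserves the quotient integral of invariant functions. -/
theorem integral_twistPt_quot (h : IsTwistMap tw σf) (hb : Function.Bijective σf)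
    {G : Space Φ' U' → ℂ} (hG : Measurable G)
    (hinv : ∀ (g : PGL(2, K')) x, G (g • x) = G x) :
    ∫ x, G (twistPt σf x) ∂D.ν = ∫ x, G x ∂D.ν := by
  have hGs : Measurable fun x => G (twistPt σf x) := hG.comp measurable_twistPt
  have hmap : D.ν.map (fun x => G (twistPt σf x)) = D.ν.map G := by
    refine Measure.ext fun A hA => ?_
    rw [Measure.map_apply hGs hA, Measure.map_apply hG hA, ← lintegral_indicator_one (hGs hA),
      ← lintegral_indicator_one (hG hA)]
    exact lintegral_twistPt_quot h hb (f := (G ⁻¹' A).indicator 1)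
      (measurable_one.indicator (hG hA)) fun g x => by
        by_cases hx : G x ∈ A
        · have hgx : g • x ∈ G ⁻¹' A := by rw [Set.mem_preimage, hinv]; exact hx
          rw [Set.indicator_of_mem hgx, Set.indicator_of_mem (s := G ⁻¹' A) hx]
          rfl
        · have hgx : g • x ∉ G ⁻¹' A := by rw [Set.mem_preimage, hinv]; exact hx
          rw [Set.indicator_of_notMem hgx, Set.indicator_of_notMem (s := G ⁻¹' A) hx]
  calc ∫ x, G (twistPt σf x) ∂D.ν = ∫ z, z ∂D.ν.map (fun x => G (twistPt σf x)) :=
        (integral_map hGs.aemeasurable (f := fun z : ℂ => z) measurable_id.aestronglyMeasurable).symm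
    _ = ∫ x, G x ∂D.ν := by
        rw [hmap]
        exact integral_map hG.aemeasurable (f := fun z : ℂ => z) measurable_id.aestronglyMeasurable

/-- A first factor commuting with the twist moves it to the other variable of the second. -/
theorem integral_testOp_twistPt (h : IsTwistMap tw σf) (hb : Function.Bijective σf)
    (h3 : ∀ y, σf (σf (σf y)) = y) {k : Fin 3 → PPKer} {f : HKer U'}
    (hk : ∀ i p q, k (i - 1) p q = k i p q) (hf : ∀ y z, f (σf y) (σf z) = f y z)
    {K₂ : Space Φ' U' → Space Φ' U' → ℂ} (hm : Measurable (Function.uncurry K₂))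
    (hleft : ∀ (g : PGL(2, K')) u v, K₂ (g • u) v = K₂ u v)
    (hright : ∀ (g : PGL(2, K')) u v, K₂ u (g • v) = K₂ u v) :
    ∫ x, testOp k f (fun y => K₂ (twistPt σf (twistPt σf y)) x) x ∂D.ν
      = ∫ x, testOp k f (fun y => K₂ y (twistPt σf x)) x ∂D.ν := by
  have hsm : Measurable (twistPt (Φ' := Φ') σf) := measurable_twistPt
  have hGm : Measurable fun x => testOp k f (fun y => K₂ (twistPt σf (twistPt σf y)) x) x :=
    (StronglyMeasurable.integral_prod_right' (f := fun p : Space Φ' U' × Space Φ' U' =>
      testKernel k f p.1 p.2 * K₂ (twistPt σf (twistPt σf p.2)) p.1)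
      ((measurable_testKernel k f).mul (hm.comp
        ((hsm.comp (hsm.comp measurable_snd)).prodMk measurable_fst))).stronglyMeasurable).measurable
  rw [← integral_twistPt_quot h hb hGm fun g x => ?_]
  · refine integral_congr_ae (Eventually.of_forall fun x => ?_)
    show testOp k f (fun y => K₂ (twistPt σf (twistPt σf y)) (twistPt σf x)) (twistPt σf x) = _
    rw [testOp_twistPt hb k (f' := f) (fun y z => (hf y z).symm)
      (φ := fun y => K₂ (twistPt σf (twistPt σf y)) (twistPt σf x))
      (hm.comp ((hsm.comp hsm).prodMk measurable_const)),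
      testOp_congr (k' := k) hk fun _ _ => rfl]
    simp only [twistPt_cube h3]
  · rw [show (fun y => K₂ (twistPt σf (twistPt σf y)) (g • x))
      = fun y => K₂ (twistPt σf (twistPt σf y)) x from funext fun y => hright g _ x]
    exact (isInvariant_iff_pgl _).mp (isInvariant_testOp k f ((isInvariant_iff_pgl _).mpr
      (invariant_comp_twistPt h (φ := fun y => K₂ (twistPt σf y) x)
        (invariant_comp_twistPt h (φ := fun y => K₂ y x) fun g u => hleft g u x)))) g x

/-- **The twisted trace of an arbitrary combination.** Only the first factor has to commute with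
the twist. -/
theorem hasSum_trace_twistPt_comb {κ : Type*} [Countable κ]
    (b : HilbertBasis κ ℂ (cuspClasses D)) {α : Type*} [Fintype α] (c : α → ℂ)
    (h : IsTwistMap tw σf) (hb : Function.Bijective σf) (h3 : ∀ y, σf (σf (σf y)) = y)
    {k₁ : Fin 3 → PPKer} {f₁ : HKer U'} {k₂ : α → Fin 3 → PPKer} {f₂ : α → HKer U'}
    (h₁ : HasCuspBound D k₁ f₁)
    (h₂ : ∀ a, HasCuspBound D (fun i => (k₂ a i).conjKer) (f₂ a).adj)
    (hcol : HasCuspidalColumnsSum D c k₂ f₂)
    (hk : ∀ i p q, k₁ (i - 1) p q = k₁ i p q) (hf : ∀ y z, f₁ (σf y) (σf z) = f₁ y z) :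
    HasSum (fun i => ⟪b i, (∑ a, c a • cuspOp D (k₂ a) (f₂ a)) (cuspOp D k₁ f₁
        (twistOp D tw σf h hb (twistOp D tw σf h hb (b i))))⟫_ℂ)
      (∫ x, ∑ a, c a * perKer PGL(2, K')
        (testKernel (fun i => PPKer.comp (k₁ i) (k₂ a i)) (f₁.comp (f₂ a))) x (twistPt σf x) ∂D.ν) := by
  have hcore := hasSum_trace_twisted_core b c h₁ h₂ hcol (measurePreserving_twistPt hb)
    (measurable_twistPt.comp measurable_twistPt) (twistPt_cube h3) (twistPt_cube h3)
    ((twistOp D tw σf h hb).comp (twistOp D tw σf h hb))
    fun _ _ _ hi he => coeFn_twistOp_sq h hb hi he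
  have hI := integral_testOp_twistPt (D := D) h hb h3 hk hf
    (K₂ := fun u v => ∑ a, c a * perKer PGL(2, K') (testKernel (k₂ a) (f₂ a)) u v)
    (Finset.measurable_sum _ fun a _ =>
      (measurable_perKer (measurable_testKernel (k₂ a) (f₂ a))).const_mul _)
    (fun g u v => by simp only [perKer_testKernel_smul_left])
    (fun g u v => by simp only [perKer_smul_right])
  simp only [Function.comp_apply, ContinuousLinearMap.comp_apply] at hcore
  simp only [testOp_column_sum D] at hI
  rw [← hI]
  exact hcore

end Twist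

theorem sum_map_eq_sum_fin {α M : Type*} [AddCommMonoid M] (l : List α) (F : α → M) :
    (l.map F).sum = ∑ i : Fin l.length, F l[i] :=
  (Fin.sum_univ_fun_getElem l F).symm

variable {K : Type*} [Field K] [NumberField K] {K' : Type*} [Field K'] [NumberField K']
  [Algebra K K'] {Φ : Frame K Unit} {Φ' : Frame K' (Fin 3)} {tw : CubicTwist Φ Φ'}

namespace DescentData

variable (D : DescentData tw)

/-- Adjoints of kernels ending in the base kernel have bounded point functionals. -/
theorem hasCuspBound_adj_end {ι : Type*} [Fintype ι] {L : Type*} [Field L] [NumberField L]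
    {Ψ : Frame L ι} {U : Subgroup (GfK L)} [Countable (Yf U)] {Q : QuotData Ψ U} {kb : ι → PPKer}
    (hb : HasCuspBound Q kb (HKer.id U)) (hconj : ∀ i, (kb i).conjKer = kb i) (ka kc : ι → PPKer)
    (f : HKer U) :
    HasCuspBound Q (fun i => (PPKer.comp (ka i) (PPKer.comp (kc i) (kb i))).conjKer) f :=
  (hb.comp_left (fun i => PPKer.comp (ka i).conjKer (kc i).conjKer) f).congr
    (fun i p q => by
      rw [conjKer_comp_eq, conjKer_comp_eq, hconj, ppker_comp_assoc])
    fun y z => HKer.comp_id_apply f y z

/-- The pairs of a combination, followed by `s` and the base pair. -/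
def endPair (l : List (ℂ × D.TestPair)) (s : D.TestPair) (i : Fin l.length) : D.TestPair :=
  l[i].2.comp (s.comp D.base)

theorem sumOp_mul_end (l : List (ℂ × D.TestPair)) (s : D.TestPair) :
    D.sumOp l * s.op * D.base.op = ∑ i : Fin l.length, l[i].1 • (D.endPair l s i).op := by
  rw [sumOp, sum_map_eq_sum_fin l, Finset.sum_mul, Finset.sum_mul]
  refine Finset.sum_congr rfl fun i _ => ?_
  rw [endPair, TestPair.op_comp, TestPair.op_comp]
  exact ContinuousLinearMap.ext fun _ => rfl

theorem sumOp'_mul_end (l : List (ℂ × D.TestPair)) (s : D.TestPair) :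
    D.sumOp' l * s.op' * D.base.op' = ∑ i : Fin l.length, l[i].1 • (D.endPair l s i).op' := by
  rw [sumOp', sum_map_eq_sum_fin l, Finset.sum_mul, Finset.sum_mul]
  refine Finset.sum_congr rfl fun i _ => ?_
  rw [endPair, TestPair.op'_comp, TestPair.op'_comp]
  exact ContinuousLinearMap.ext fun _ => rfl

set_option maxHeartbeats 1000000 in
/-- The trace downstairs of a cuspidal combination. -/
theorem hasSum_sumOp (l : List (ℂ × D.TestPair)) (s : D.TestPair) (hl : D.IsCuspidalSum l)
    (hint : ∀ i, Integrable (fun x => perKer PGL(2, K)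
      (testKernel (fun _ => (D.base.comp (D.endPair l s i)).arch)
        (D.base.comp (D.endPair l s i)).ker) x x) D.quot.ν)
    (t : Set (cuspClasses D.quot)) (e : HilbertBasis t ℂ (cuspClasses D.quot)) (ht : Countable t) :
    HasSum (fun k => ⟪e k, (D.sumOp l * s.op) (D.base.op (D.base.op (e k)))⟫_ℂ)
      (∑ i : Fin l.length, l[i].1 * (D.base.comp (D.endPair l s i)).diag D) := by
  let c : Fin l.length → ℂ := fun i => l[i].1
  have hbase : HasCuspBound D.quot (fun _ : Unit => D.base.arch) D.base.ker := by
    rw [D.ker_base]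
    exact TestPair.hasCuspBound_arch_base
  have hadj : ∀ i, HasCuspBound D.quot (fun _ : Unit => (D.endPair l s i).arch.conjKer)
      (D.endPair l s i).ker.adj := fun i =>
    hasCuspBound_adj_end (kb := fun _ : Unit => D.base.arch) TestPair.hasCuspBound_arch_base
      (fun _ => by simp only [base, conjKer_comp3, conjKer_baseKer])
      (fun _ => l[i].2.arch) (fun _ => s.arch) _
  have hker : ∀ i, (D.endPair l s i).ker = l[i].2.ker.comp (s.comp D.base).ker := fun i =>
    KerFamily.toHKer_comp _ _ _
  have hcol : HasCuspidalColumnsSum D.quot c (fun i (_ : Unit) => (D.endPair l s i).arch)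
      fun i => (D.endPair l s i).ker := by
    simp only [hker]
    exact hasCuspidalColumnsSum_comp c (ka := fun i _ => l[i].2.arch)
      (fun φ hi hc hB => by simpa only [sum_map_eq_sum_fin] using hl.down φ hi hc hB)
      (fun _ => (s.comp D.base).arch) _
  have h := hasSum_trace_twisted_sum e c hbase hadj hcol (MeasurePreserving.id _) measurable_id
    (fun _ => rfl) (fun _ => rfl) (fun _ _ => rfl) (ContinuousLinearMap.id ℂ _)
    fun _ _ _ hi he => ⟨hi, he⟩
  have hI : (∑ i : Fin l.length, l[i].1 * (D.base.comp (D.endPair l s i)).diag D)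
      = ∫ x, ∑ i, c i * perKer PGL(2, K) (testKernel (fun _ => PPKer.comp D.base.arch
        (D.endPair l s i).arch) (D.base.ker.comp (D.endPair l s i).ker)) x x ∂D.quot.ν := by
    simp only [TestPair.diag, ← integral_const_mul]
    rw [← integral_finsetSum _ fun i _ => (hint i).const_mul _]
    simp only [TestPair.ker, TestPair.comp, KerFamily.toHKer_comp, c]
  rw [hI]
  refine h.congr_fun fun k => ?_
  have e1 : (D.sumOp l * s.op) (D.base.op (D.base.op (e k)))
      = (∑ i : Fin l.length, l[i].1 • (D.endPair l s i).op) (D.base.op (e k)) := by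
    rw [← D.sumOp_mul_end l s]
    simp only [mul_apply_eq_comp]
  rw [e1]
  simp only [TestPair.op, ContinuousLinearMap.id_apply, c]

set_option maxHeartbeats 1000000 in
/-- The twisted trace upstairs of a cuspidal combination. -/
theorem hasSum_sumOp' (l : List (ℂ × D.TestPair)) (s : D.TestPair) (hl : D.IsCuspidalSum l)
    (hint : ∀ i, Integrable (fun x => perKer PGL(2, K')
      (testKernel (D.base.comp (D.endPair l s i)).arch' (D.base.comp (D.endPair l s i)).ker') x
        (twistPt D.sigmaY x)) D.quot'.ν)
    (t : Set (cuspClasses D.quot')) (e : HilbertBasis t ℂ (cuspClasses D.quot'))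
    (ht : Countable t) :
    HasSum (fun k => ⟪e k, (D.sumOp' l * s.op' * D.twist) (D.base.op' (D.base.op' (e k)))⟫_ℂ)
      (∑ i : Fin l.length, l[i].1 * (D.base.comp (D.endPair l s i)).diag' D) := by
  let c : Fin l.length → ℂ := fun i => l[i].1
  have hbase : HasCuspBound D.quot' D.base.arch' D.base.ker' := by
    rw [D.ker'_base]
    exact D.hasCuspBound_op'_base
  have hadj : ∀ i, HasCuspBound D.quot' (fun j => ((D.endPair l s i).arch' j).conjKer)
      (D.endPair l s i).ker'.adj := fun i =>
    hasCuspBound_adj_end (kb := fun _ => baseKer) D.hasCuspBound_op'_base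
      (fun _ => conjKer_baseKer) l[i].2.arch' s.arch' _
  have hker : ∀ i, (D.endPair l s i).ker' = l[i].2.ker'.comp (s.comp D.base).ker' := fun i =>
    KerFamily.toHKer_comp _ _ _
  have hcol : HasCuspidalColumnsSum D.quot' c (fun i => (D.endPair l s i).arch')
      fun i => (D.endPair l s i).ker' := by
    simp only [hker]
    exact hasCuspidalColumnsSum_comp c (ka := fun i => l[i].2.arch')
      (fun φ hi hc hB => by simpa only [sum_map_eq_sum_fin] using hl.up φ hi hc hB)
      (s.comp D.base).arch' _
  have h := hasSum_trace_twistPt_comb e c D.isTwistMap_sigmaY D.bijective_sigmaY D.sigmaY_cube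
    hbase hadj hcol (fun _ _ _ => rfl) (fun y z => by
      classical
      rw [D.ker'_base]
      exact if_congr D.bijective_sigmaY.1.eq_iff rfl rfl)
  have hI : (∑ i : Fin l.length, l[i].1 * (D.base.comp (D.endPair l s i)).diag' D)
      = ∫ x, ∑ i, c i * perKer PGL(2, K') (testKernel (fun j => PPKer.comp (D.base.arch' j)
        ((D.endPair l s i).arch' j)) (D.base.ker'.comp (D.endPair l s i).ker')) x
          (twistPt D.sigmaY x) ∂D.quot'.ν := by
    simp only [TestPair.diag', ← integral_const_mul]
    rw [← integral_finsetSum _ fun i _ => (hint i).const_mul _]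
    simp only [TestPair.ker', TestPair.comp, KerFamily.toHKer_comp, c]
  rw [hI]
  refine h.congr_fun fun k => ?_
  have hc : D.twist (D.base.op' (D.base.op' (e k))) = D.base.op' (D.base.op' (D.twist (e k))) :=
    congrArg (fun f : cuspClasses D.quot' →L[ℂ] cuspClasses D.quot' => f (e k))
      (D.commute_twist_base.mul_right D.commute_twist_base).eq
  have e1 : (D.sumOp' l * s.op' * D.twist) (D.base.op' (D.base.op' (e k)))
      = (∑ i : Fin l.length, l[i].1 • (D.endPair l s i).op') (D.base.op' (D.twist (e k))) := by
    rw [← D.sumOp'_mul_end l s]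
    simp only [mul_apply_eq_comp, hc]
  rw [e1]
  simp only [TestPair.op', c, twist, twistOne, mul_apply_eq_comp]

/-- **The moments**: a cuspidal combination followed by a pair and two base operators has the same
trace on both sides. -/
theorem exists_hasSum_pair {a b : 𝓞 K} (ha : a ≠ 0) (hb : b ≠ 0) {a' b' : 𝓞 K'} (ha' : a' ≠ 0)
    (hb' : b' ≠ 0) (T : ℝ) :
    ∃ n0 : ℕ, ∀ (l : List (ℂ × D.TestPair)) (s : D.TestPair), D.IsCuspidalSum l →
      (∀ p ∈ l, (D.base.comp (p.2.comp (s.comp D.base))).IsMatched ∧
        (D.base.comp (p.2.comp (s.comp D.base))).IsBounded D a b a' b' T n0) →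
      ∃ I : ℂ,
        (∀ (t : Set (cuspClasses D.quot)) (e : HilbertBasis t ℂ (cuspClasses D.quot)), Countable t →
          HasSum (fun k => ⟪e k, (D.sumOp l * s.op) (D.base.op (D.base.op (e k)))⟫_ℂ) I) ∧
        ∀ (t : Set (cuspClasses D.quot')) (e : HilbertBasis t ℂ (cuspClasses D.quot')),
          Countable t → HasSum (fun k =>
            ⟪e k, (D.sumOp' l * s.op' * D.twist) (D.base.op' (D.base.op' (e k)))⟫_ℂ) I := by
  obtain ⟨n1, h1⟩ := D.exists_integrable_diag ha hb ha' hb' T
  obtain ⟨n2, h2⟩ := D.exists_diag_eq ha hb ha' hb' T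
  refine ⟨max n1 n2, fun l s hl hp =>
    ⟨∑ i : Fin l.length, l[i].1 * (D.base.comp (D.endPair l s i)).diag D,
      D.hasSum_sumOp l s hl fun i =>
        (h1 _ ((hp _ (List.getElem_mem i.2)).2.mono D (le_max_left n1 n2))).1, ?_⟩⟩
  rw [Finset.sum_congr rfl fun (i : Fin l.length) _ =>
    congrArg (l[i].1 * ·) (h2 (D.base.comp (D.endPair l s i)) (hp _ (List.getElem_mem i.2)).1
      ((hp _ (List.getElem_mem i.2)).2.mono D (le_max_right n1 n2)))]
  exact D.hasSum_sumOp' l s hl fun i =>
    (h1 _ ((hp _ (List.getElem_mem i.2)).2.mono D (le_max_left n1 n2))).2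

end DescentData

end Fermat.Agent.LT.Descent

end
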