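import Fermat.Agent.LT.Descent.Setup
import Fermat.Agent.LT.Descent.Reframe
import Fermat.Agent.LT.Descent.Places
import Fermat.Agent.LT.RankinSelberg.PinningPlaces
import Fermat.Agent.LT.Density.RayChar

/-!
# The data of the descent from a dihedral form
-/

set_option autoImplicit false

noncomputable section

open Fermat.Agent.Galois Fermat.Agent.LT.Adelic Fermat.Agent.LT.Tame
open Fermat.Agent.LT.Descent.Places
open NumberField IsDedekindDomain IsLocalRing WeierstrassCurve
open scoped MatrixGroups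

namespace Fermat.Agent.LT.Descent

/-- A uniformiser idele at any place. -/
theorem exists_isUniformiserAt {K : Type*} [Field K] [NumberField K]
    (v : HeightOneSpectrum (𝓞 K)) :
    ∃ ϖ : (FiniteAdeleRing (𝓞 K) K)ˣ, IsUniformiserAt v ϖ := by
  classical
  obtain ⟨π, hπ⟩ := v.valuation_exists_uniformizer K
  have hπ0 : π ≠ 0 := by
    rintro rfl
    rw [map_zero] at hπ
    exact WithZero.exp_ne_zero hπ.symm
  have hval : Valued.v (π : v.adicCompletion K) = WithZero.exp (-1 : ℤ) := by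
    rw [HeightOneSpectrum.valuedAdicCompletion_eq_valuation']; exact hπ
  let x : ∀ w : HeightOneSpectrum (𝓞 K), w.adicCompletion K :=
    Function.update (fun _ => 1) v (π : v.adicCompletion K)
  let y : ∀ w : HeightOneSpectrum (𝓞 K), w.adicCompletion K :=
    Function.update (fun _ => 1) v ((π : v.adicCompletion K)⁻¹)
  have hev : ∀ z : v.adicCompletion K, ∀ᶠ w in Filter.cofinite,
      Valued.v (Function.update (fun w : HeightOneSpectrum (𝓞 K) => (1 : w.adicCompletion K)) v z w)
        ≤ 1 := fun z => by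
    filter_upwards [(Set.finite_singleton v).compl_mem_cofinite] with w hw
    rw [Function.update_of_ne hw, map_one]
  have hne : (π : v.adicCompletion K) ≠ 0 := fun h0 => by
    rw [h0, map_zero] at hval
    exact WithZero.exp_ne_zero hval.symm
  have hmul : ∀ w, x w * y w = 1 := fun w => by
    by_cases hw : w = v
    · subst hw
      simp only [x, y, Function.update_self]
      exact mul_inv_cancel₀ hne
    · simp [x, y, Function.update_of_ne hw]
  refine ⟨⟨adeleMk K x (hev _), adeleMk K y (hev _),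
    FiniteAdeleRing.ext K fun w => hmul w,
    FiniteAdeleRing.ext K fun w => (mul_comm _ _).trans (hmul w)⟩, ?_, fun w hw => ?_⟩
  · show Valued.v (x v) = _
    simp only [x, Function.update_self]
    exact hval
  · show x w = 1
    simp [x, Function.update_of_ne hw]

/-- The determinant of an adelic matrix, componentwise. -/
theorem coe_det_apply {K : Type*} [Field K] [NumberField K] (h : GfK K)
    (w : HeightOneSpectrum (𝓞 K)) :
    ((Matrix.GeneralLinearGroup.det h : (FiniteAdeleRing (𝓞 K) K)ˣ) : FiniteAdeleRing (𝓞 K) K) w =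
      Matrix.det (Aleph.localGL K w h).1 := by
  rw [Matrix.GeneralLinearGroup.val_det_apply, ← Aleph.evalAt_apply, RingHom.map_det]
  rfl

/-- Hecke eigenvalues of a nonzero function are unique. -/
theorem IsHeckeEigenAt.unique {K : Type*} [Field K] [NumberField K] {ι : Type*}
    {Φ : Frame K ι} {U : Subgroup (GfK K)} {φ : Space Φ U → ℂ} {v : HeightOneSpectrum (𝓞 K)}
    {a b : ℂ} (ha : IsHeckeEigenAt φ v a) (hb : IsHeckeEigenAt φ v b) (h0 : ∃ x, φ x ≠ 0) :
    a = b := by
  obtain ⟨ϖ, hϖ⟩ := exists_isUniformiserAt v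
  obtain ⟨x, hx⟩ := h0
  have h := congrFun ((ha ϖ hϖ).symm.trans (hb ϖ hϖ)) x
  simp only [Pi.smul_apply, smul_eq_mul] at h
  refine mul_left_cancel₀ ?_ (mul_right_cancel₀ hx h)
  rw [Complex.ofReal_ne_zero, Real.sqrt_ne_zero']
  exact_mod_cast Nat.pos_of_ne_zero fun h => v.ne_bot (Ideal.absNorm_eq_zero_iff.1 h)

/-- An element of the level `K(3^m) · diag(Ô^×, 1)` lies in every level containing both factors. -/
theorem mem_of_jLevel {K : Type*} [Field K] [NumberField K] {U : Subgroup (GfK K)} {m : ℕ}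
    (hmU : principalLevel K ((3 ^ m : ℕ) : 𝓞 K) ≤ U)
    (hdiag : ∀ u : (FiniteAdeleRing (𝓞 K) K)ˣ,
      diag2 u 1 ∈ principalLevel K (1 : 𝓞 K) → diag2 u 1 ∈ U)
    {h : GfK K} (hint : ∀ w, Aleph.localGL K w h ∈ localFull K w)
    (h3 : ∀ w ∈ threePlaces K,
      Aleph.localGL K w h ∈ jLevel w (w.intValuation ((3 : 𝓞 K) ^ m))) : h ∈ U := by
  set d := Matrix.GeneralLinearGroup.det h with hd
  have hdet : ∀ g : GfK K, (∀ w, Aleph.IsIntLocal (Aleph.localGL K w g)) → ∀ w,
      Valued.v (((Matrix.GeneralLinearGroup.det g : (FiniteAdeleRing (𝓞 K) K)ˣ) :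
        FiniteAdeleRing (𝓞 K) K) w) ≤ 1 := by
    intro g hg w
    rw [coe_det_apply, Matrix.det_fin_two]
    exact (Valuation.map_sub _ _ _).trans (max_le
      (by rw [map_mul]; exact mul_le_one' (hg w _ _).1 (hg w _ _).1)
      (by rw [map_mul]; exact mul_le_one' (hg w _ _).1 (hg w _ _).1))
  have hd1 : ∀ w, Valued.v ((d : FiniteAdeleRing (𝓞 K) K) w) ≤ 1 := hdet h hint
  have hd2 : ∀ w, Valued.v (((d⁻¹ : (FiniteAdeleRing (𝓞 K) K)ˣ) :
      FiniteAdeleRing (𝓞 K) K) w) ≤ 1 := fun w => by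
    rw [hd, ← map_inv]
    exact hdet h⁻¹ (fun w => by rw [map_inv]; exact (hint w).inv) w
  have hval : ∀ w i j, (Aleph.localGL K w (diag2 d 1 : GfK K) :
      Matrix (Fin 2) (Fin 2) (w.adicCompletion K)) i j =
        (!![(d : FiniteAdeleRing (𝓞 K) K) w, 0; 0, 1] : Matrix (Fin 2) (Fin 2) _) i j := by
    intro w i j
    rw [Aleph.localGL_apply]
    fin_cases i <;> fin_cases j <;> simp [diag2, coe_apply_one, coe_apply_zero]
  have hval' : ∀ w i j, (Aleph.localGL K w (diag2 d 1 : GfK K)⁻¹ :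
      Matrix (Fin 2) (Fin 2) (w.adicCompletion K)) i j =
        (!![((d⁻¹ : (FiniteAdeleRing (𝓞 K) K)ˣ) : FiniteAdeleRing (𝓞 K) K) w, 0; 0, 1] :
          Matrix (Fin 2) (Fin 2) _) i j := by
    intro w i j
    rw [Aleph.localGL_apply]
    fin_cases i <;> fin_cases j <;> simp [diag2, coe_apply_one, coe_apply_zero]
  have hD : diag2 d 1 ∈ principalLevel K (1 : 𝓞 K) := by
    refine Aleph.mem_principalLevel_one_iff.2 fun w i j => ?_
    rw [← map_inv, hval, hval']
    fin_cases i <;> fin_cases j <;> simp [hd1 w, hd2 w]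
  have hcong : MatMemMul ((3 ^ m : ℕ) : 𝓞 K) ((h : Matrix (Fin 2) (Fin 2) _) -
      ((diag2 d 1 : GfK K) : Matrix (Fin 2) (Fin 2) (FiniteAdeleRing (𝓞 K) K))) := by
    intro i j w
    rw [Matrix.sub_apply, coe_apply_sub, ← Aleph.localGL_apply, ← Aleph.localGL_apply, hval]
    by_cases h3w : w ∈ threePlaces K
    · obtain ⟨-, ⟨j01, j10, j11⟩, -⟩ := mem_jLevel.1 (h3 w h3w)
      have hw3 : w.intValuation ((3 ^ m : ℕ) : 𝓞 K) = w.intValuation ((3 : 𝓞 K) ^ m) := by
        push_cast; rfl
      rw [hw3]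
      fin_cases i <;> fin_cases j
      · show Valued.v ((Aleph.localGL K w h).1 0 0 - (d : FiniteAdeleRing (𝓞 K) K) w) ≤ _
        rw [hd, coe_det_apply, Matrix.det_fin_two]
        set M := (Aleph.localGL K w h).1
        rw [show M 0 0 - (M 0 0 * M 1 1 - M 0 1 * M 1 0) =
          M 0 1 * M 1 0 - M 0 0 * (M 1 1 - 1) by ring]
        refine (Valuation.map_sub _ _ _).trans (max_le ?_ ?_) <;> rw [map_mul]
        · exact (mul_le_mul' j01 (hint w _ _).1).trans (mul_one _).le
        · exact (mul_le_mul' (hint w _ _).1 j11).trans (one_mul _).le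
      · simpa using j01
      · simpa using j10
      · simpa using j11
    · have hone : w.intValuation ((3 ^ m : ℕ) : 𝓞 K) = 1 := by
        have h3' : w.intValuation (3 : 𝓞 K) = 1 := le_antisymm (w.intValuation_le_one _)
          (not_lt.1 fun h => h3w ((w.intValuation_lt_one_iff_mem _).1 h))
        push_cast
        rw [map_pow, h3', one_pow]
      rw [hone]
      refine (Valuation.map_sub _ _ _).trans (max_le (hint w i j).1 ?_)
      fin_cases i <;> fin_cases j <;> simp [hd1 w]
  have key := hmU (inv_mul_mem_of_congr hD (Aleph.mem_principalLevel_one_iff.2 hint) hcong)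
  simpa using mul_mem (hdiag d hD) key

variable {W : WeierstrassCurve ℤ} {ρ : GalQ →* GL (Fin 2) (ZMod 3)} [NumberField (fieldF' ρ)]

open Classical in
/-- The trace of the octahedral lift at some Frobenius. -/
def octEig (ρ : GalQ →* GL (Fin 2) (ZMod 3)) [NumberField (fieldF' ρ)]
    (w : HeightOneSpectrum (𝓞 (fieldF' ρ))) : ℂ :=
  if h : ∃ τ, IsFrobOver (fieldF' ρ) w.asIdeal τ then octTrace ρ h.choose else 0

theorem map_mem_quatSubgroup_of_isFrobOver (hρ : IsThreeRep W ρ)
    {w : HeightOneSpectrum (𝓞 (fieldF' ρ))} {τ : GalQ}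
    (hτ : IsFrobOver (fieldF' ρ) w.asIdeal τ) : ρ τ ∈ quatSubgroup :=
  (fixing_fieldF'_iff hρ τ).1 fun x => (IntermediateField.mem_fixingSubgroup_iff _ _).1 hτ.1 x x.2

omit [NumberField (fieldF' ρ)] in
theorem octTrace_bound {τ : GalQ} (hq : ρ τ ∈ quatSubgroup) :
    (octTrace ρ τ).im = 0 ∧ ‖octTrace ρ τ‖ ≤ 2 := by
  have hdet : Matrix.GeneralLinearGroup.det (ρ τ) = 1 := by
    refine Units.ext ?_
    rw [Matrix.GeneralLinearGroup.val_det_apply, Matrix.det_fin_two, Units.val_one]
    exact (mem_quatSubgroup.1 hq).1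
  obtain ⟨n, hn, hw⟩ := RankinSelberg.exists_int_trace_octRep hdet
  rw [octTrace, hn]
  refine ⟨by simp, ?_⟩
  have h4 : (n : ℝ) ^ 2 ≤ 2 ^ 2 := by
    rw [hw, RankinSelberg.octWeight, if_pos hq]
    split_ifs <;> norm_num
  rw [Complex.norm_intCast]
  exact abs_le_of_sq_le_sq h4 (by norm_num)

/-- **The data of the descent.** -/
theorem exists_descentData (hρ : IsThreeRep W ρ) (hD : HasDihedralForm W ρ) :
    ∃ (g : GalQ) (hg : ρ g = unipThree),
      letI := algFieldF hρ
      ∃ D : DescentData (cubicTwist hρ hg), ((3 : ℤ) ∣ W.Δ → D.m = 0) ∧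
        ∀ w, w ∉ DescentData.bad' (tw := cubicTwist hρ hg) →
          ∀ τ, IsFrobOver (fieldF' ρ) w.asIdeal τ → D.eig w = octTrace ρ τ := by
  classical
  obtain ⟨g, hg⟩ := exists_lift hρ
  letI := algFieldF hρ
  refine ⟨g, hg, ?_⟩
  set tw := cubicTwist hρ hg
  have hgen : IsCubicGen tw.σ := isCubicGen hρ hg
  obtain ⟨Φ₀, m, U, φ, hm, hmU, hU1, hdiag, hφ, heig⟩ := hD
  -- the eigenvalue does not depend on the Frobenius
  have huniq : ∀ w : HeightOneSpectrum (𝓞 (fieldF' ρ)), w ∉ threePlaces (fieldF' ρ) →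
      ∀ τ, IsFrobOver (fieldF' ρ) w.asIdeal τ → octEig ρ w = octTrace ρ τ := by
    intro w hw τ hτ
    rw [octEig, dif_pos ⟨τ, hτ⟩]
    exact IsHeckeEigenAt.unique
      (heig w hw _ (Exists.choose_spec (⟨τ, hτ⟩ : ∃ τ, IsFrobOver (fieldF' ρ) w.asIdeal τ)))
      (heig w hw τ hτ) hφ.nonzero
  -- Frobenius elements exist at the good places upstairs
  have hfrob : ∀ w : HeightOneSpectrum (𝓞 (fieldF' ρ)),
      w ∉ threePlaces (fieldF' ρ) ∪ placesAbove (tamePlaces tw.σ) →
      ∃ τ, IsFrobOver (fieldF' ρ) w.asIdeal τ := by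
    intro w hw
    simp only [Set.mem_union, not_or] at hw
    obtain ⟨v, hv⟩ := exists_below (K := fieldF) w
    obtain ⟨τ, hτ⟩ := Places.exists_isFrobOver v
    rcases Places.isInert_or_isSplit hρ hg (v := v) (fun h => hw.2 ⟨v, h, hv⟩) with h | h
    · exact ⟨τ ^ 3, (IsInert.frobenius hρ hg h hτ).2 w hv⟩
    · obtain ⟨τ', hτ', -⟩ := (IsSplit.frobenius hρ hg h hτ).2 w hv
      exact ⟨τ', hτ'⟩
  -- the form in the frame of the descent
  set S' : Set (HeightOneSpectrum (𝓞 (fieldF' ρ))) :=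
    threePlaces (fieldF' ρ) ∪ placesAbove (tamePlaces tw.σ) with hS'
  have hsupp : SupportedIn S' ((3 ^ m : ℕ) : 𝓞 (fieldF' ρ)) := by
    refine ⟨by exact_mod_cast pow_ne_zero m (by norm_num : (3 : ℕ) ≠ 0), fun w hw => ?_⟩
    have h3 : w.intValuation (3 : 𝓞 (fieldF' ρ)) = 1 :=
      le_antisymm (w.intValuation_le_one _) (not_lt.1 fun h =>
        hw (Or.inl ((w.intValuation_lt_one_iff_mem _).1 h)))
    push_cast
    rw [map_pow, h3, one_pow]
  have hform := isSForm_of_space (Φ := Φ₀) (a := octEig ρ) hU1 hsupp hmU hφ.invariant hφ.continuous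
    hφ.bounded hφ.cuspidal hφ.spherical (S := S') fun w hw => by
      obtain ⟨τ, hτ⟩ := hfrob w hw
      rw [huniq w (fun h => hw (Or.inl h)) τ hτ]
      exact heig w (fun h => hw (Or.inl h)) τ hτ
  obtain ⟨e, b, heb⟩ := exists_frame_match Φ₀ (frameF' hρ hg)
  have hform' := hform.reframe (frameF' hρ hg) heb
  have hsupp₀ : SupportedIn (threePlaces (fieldF' ρ)) ((3 ^ m : ℕ) : 𝓞 (fieldF' ρ)) := by
    refine ⟨hsupp.1, fun w hw => ?_⟩
    have h3 : w.intValuation (3 : 𝓞 (fieldF' ρ)) = 1 :=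
      le_antisymm (w.intValuation_le_one _) (not_lt.1 fun h =>
        hw ((w.intValuation_lt_one_iff_mem _).1 h))
    push_cast
    rw [map_pow, h3, one_pow]
  have hform₀ := isSForm_of_space (Φ := Φ₀) (a := octEig ρ) hU1 hsupp₀ hmU hφ.invariant
    hφ.continuous hφ.bounded hφ.cuspidal hφ.spherical fun w hw => by
      obtain ⟨τ, hτ⟩ := Places.exists_isFrobOver_any w
      rw [huniq w hw τ hτ]
      exact heig w hw τ hτ
  have hform₀' := hform₀.reframe (frameF' hρ hg) heb
  -- the auxiliary place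
  have hfin : (tamePlaces tw.σ).Finite := finite_tamePlaces hgen
  obtain ⟨u, hup, hudvd, hsplit⟩ := exists_split_place hρ hg
    (∏ v ∈ hfin.toFinset, Ideal.absNorm v.asIdeal)
    (Finset.prod_ne_zero_iff.2 fun v _ => by
      rw [Ne, Ideal.absNorm_eq_zero_iff]; exact v.ne_bot)
  have hu3 : (3 : 𝓞 fieldF) ∉ u.asIdeal := by
    intro h3
    have hp3 : Ideal.absNorm u.asIdeal ≠ 3 := fun h => hudvd (by rw [h]; exact dvd_mul_right _ _)
    have hN : (Ideal.absNorm u.asIdeal : 𝓞 fieldF) ∈ u.asIdeal := Ideal.absNorm_mem _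
    have hcop : IsCoprime ((Ideal.absNorm u.asIdeal : ℕ) : ℤ) (3 : ℤ) :=
      Int.isCoprime_iff_gcd_eq_one.2 ((Nat.coprime_primes hup Nat.prime_three).2 hp3)
    obtain ⟨x, y, hxy⟩ := hcop
    refine u.isPrime.ne_top ((Ideal.eq_top_iff_one _).2 ?_)
    have : (x : 𝓞 fieldF) * (Ideal.absNorm u.asIdeal : 𝓞 fieldF) + (y : 𝓞 fieldF) * 3 = 1 := by
      exact_mod_cast congrArg (fun z : ℤ => (z : 𝓞 fieldF)) hxy
    rw [← this]
    exact add_mem (Ideal.mul_mem_left _ _ hN) (Ideal.mul_mem_left _ _ h3)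
  have hut : u ∉ tamePlaces tw.σ := fun h => hudvd (dvd_mul_of_dvd_right
    (Finset.dvd_prod_of_mem _ (hfin.mem_toFinset.2 h)) 3)
  -- torus parameters
  choose a₀ ha₀ using fun v : HeightOneSpectrum (𝓞 fieldF) =>
    haveI := Tame.finite_residueField v
    Tame.exists_not_sq_sub_self (k := ResidueField (v.adicCompletionIntegers fieldF))
  let a' : ∀ w : HeightOneSpectrum (𝓞 (fieldF' ρ)),
      ResidueField (w.adicCompletionIntegers (fieldF' ρ)) := fun w =>
    if h : ∃ v ∈ tamePlaces tw.σ, IsAbove v w then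
      ResidueField.map (tamePlace hgen h.choose_spec.1 h.choose_spec.2).embInt (a₀ h.choose)
    else 0
  obtain ⟨ζ, hζ⟩ := HasEnoughRootsOfUnity.exists_primitiveRoot Qbar 3
  refine ⟨{ gen := hgen
            three_split := fun v h => (isSplit_of_three_mem hρ hg h).1
            exists_cubeRoot := ⟨⟨ζ, RankinSelberg.cyclotomic_zeta_mem_fieldF hζ⟩,
              IsPrimitiveRoot.of_map_of_injective (f := fieldF.val.toRingHom) hζ
                fieldF.val.injective⟩
            m := m
            u := u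
            u_three := hu3
            u_not_tame := hut
            u_split := hsplit
            a := a₀
            a_spec := fun v _ t => ha₀ v t
            a' := a'
            a'_eq := fun v hv w P => by
              have hw : ∃ v' ∈ tamePlaces tw.σ, IsAbove v' w := ⟨v, hv, P.above⟩
              obtain rfl : hw.choose = v := isAbove_unique hw.choose_spec.2 P.above
              exact dif_pos hw
            eig := octEig ρ
            eig_real := fun w hw => ?_
            eig_le := fun w hw => ?_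
            eig_twist := fun v w hv3 hs hw => ?_
            eig_ne_ray := fun M hM η hmul hray T => ?_
            ψ := fun τ g => φ (Space.mk (framePt e b τ) (g : Yf U))
            isForm := hform'
            isForm₀ := hform₀'
            ne_zero := fun h0 => ?_
            fixed := fun τ x h hint h3 => ?_ }, hm, fun w hw τ hτ => huniq w (fun h => hw (Or.inl h)) τ hτ⟩
  · obtain ⟨τ, hτ⟩ := hfrob w hw
    rw [huniq w (fun h => hw (Or.inl h)) τ hτ]
    exact (octTrace_bound (map_mem_quatSubgroup_of_isFrobOver hρ hτ)).1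
  · obtain ⟨τ, hτ⟩ := hfrob w hw
    rw [huniq w (fun h => hw (Or.inl h)) τ hτ]
    exact (octTrace_bound (map_mem_quatSubgroup_of_isFrobOver hρ hτ)).2
  · obtain ⟨τ, hτ⟩ := Places.exists_isFrobOver v
    obtain ⟨τ₁, h1, e1⟩ := (IsSplit.frobenius hρ hg hs hτ).2 w hw
    obtain ⟨τ₂, h2, e2⟩ := (IsSplit.frobenius hρ hg hs hτ).2 _ (isAbove_placePerm hw)
    rw [huniq _ (fun h => hv3 ((mem_threePlaces_iff hw).1 h)) τ₁ h1,
      huniq _ (fun h => hv3 ((mem_threePlaces_iff (isAbove_placePerm hw)).1 h)) τ₂ h2, e1, e2]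
  · have hbfin : S'.Finite := finite_threePlaces.union (finite_placesAbove hgen hfin)
    obtain ⟨w, hwT, hwM, τ, hτ, hne⟩ :=
      Density.exists_octTrace_ne_ray hρ hM η hmul hray (T ∪ hbfin.toFinset)
    simp only [Finset.mem_union, Set.Finite.mem_toFinset, not_or] at hwT
    exact ⟨w, hwT.1, hwM, hwT.2, by rw [huniq w (fun h => hwT.2 (Or.inl h)) τ hτ]; exact hne⟩
  · obtain ⟨x, hx⟩ := hφ.nonzero
    obtain ⟨y, hy⟩ := QuotientGroup.mk_surjective x.fin
    refine hx ?_
    have := congrFun (congrFun h0 (fun i => conjPt (b i) (x.pt (e i)))) y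
    rw [← Space.mk_pt_fin x, ← hy]
    have he : framePt e b (fun i => conjPt (b i) (x.pt (e i))) = x.pt :=
      funext fun j => by simp [framePt]
    simp only [he] at this
    exact this
  · have hmemU : h ∈ U := mem_of_jLevel hmU hdiag hint h3
    show φ (Space.mk _ _) = φ (Space.mk _ _)
    congr 2
    exact QuotientGroup.eq.2 (by
      rw [_root_.mul_inv_rev, inv_mul_cancel_right]
      exact le_levelZ U (inv_mem hmemU))

end Fermat.Agent.LT.Descent

end
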