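import Fermat.Agent.LT.Descent.SForm
import Fermat.Agent.LT.Descent.Levels
import Fermat.Agent.LT.Descent.Places.Generic

/-!
# The data of the cubic descent

Everything the comparison of the two trace formulas uses: the twist, the exponent over `3`, the
auxiliary split place, the torus parameters and the form upstairs with its eigenvalues.
-/

set_option autoImplicit false

noncomputable section

namespace Fermat.Agent.LT.Descent

open Fermat.Agent.LT.Adelic Fermat.Agent.LT.Tame Fermat.Agent.LT.Descent.Places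
open NumberField IsDedekindDomain IsLocalRing
open scoped MatrixGroups

variable {K : Type*} [Field K] [NumberField K] {K' : Type*} [Field K'] [NumberField K']

variable (K) in
/-- The places over `3`. -/
def threePlaces : Set (HeightOneSpectrum (𝓞 K)) := {v | (3 : 𝓞 K) ∈ v.asIdeal}

theorem finite_threePlaces : (threePlaces K).Finite := LevelData.finite_three

variable [Algebra K K']

/-- The places above a set of places. -/
def placesAbove (T : Set (HeightOneSpectrum (𝓞 K))) : Set (HeightOneSpectrum (𝓞 K')) :=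
  {w | ∃ v ∈ T, IsAbove v w}

theorem mem_threePlaces_iff {v : HeightOneSpectrum (𝓞 K)} {w : HeightOneSpectrum (𝓞 K')}
    (h : IsAbove v w) : w ∈ threePlaces K' ↔ v ∈ threePlaces K := by
  have := h 3
  rwa [map_ofNat] at this

theorem finite_placesAbove {σ : K' ≃ₐ[K] K'} (hσ : IsCubicGen σ)
    {T : Set (HeightOneSpectrum (𝓞 K))} (hT : T.Finite) :
    (placesAbove (K' := K') T).Finite := by
  have h : ∀ v : HeightOneSpectrum (𝓞 K),
      {w : HeightOneSpectrum (𝓞 K') | IsAbove v w}.Finite := by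
    intro v
    obtain ⟨w₀, hw₀⟩ := exists_isAbove (K' := K') v
    refine (((Set.finite_singleton (placePerm σ.toRingEquiv (placePerm σ.toRingEquiv w₀))).insert
      (placePerm σ.toRingEquiv w₀)).insert w₀).subset fun w hw => ?_
    rcases eq_or_eq_of_isAbove hσ hw₀ hw with rfl | rfl | rfl <;> simp
  refine (hT.biUnion fun v _ => h v).subset fun w ⟨v, hv, hw⟩ => ?_
  exact Set.mem_biUnion hv hw

/-- The inputs of the descent along `tw`. -/
structure DescentData {Φ : Frame K Unit} {Φ' : Frame K' (Fin 3)} (tw : CubicTwist Φ Φ') where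
  gen : IsCubicGen tw.σ
  three_split : ∀ v : HeightOneSpectrum (𝓞 K), (3 : 𝓞 K) ∈ v.asIdeal → IsSplit tw.σ v
  exists_cubeRoot : ∃ ζ : K, IsPrimitiveRoot ζ 3
  /-- exponent of the level over `3` -/
  m : ℕ
  /-- the auxiliary place -/
  u : HeightOneSpectrum (𝓞 K)
  u_three : (3 : 𝓞 K) ∉ u.asIdeal
  u_not_tame : u ∉ tamePlaces tw.σ
  u_split : IsSplit tw.σ u
  /-- torus parameters -/
  a : ∀ v : HeightOneSpectrum (𝓞 K), ResidueField (v.adicCompletionIntegers K)
  a_spec : ∀ v ∈ tamePlaces tw.σ, ∀ t, t ^ 2 - t ≠ a v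
  /-- torus parameters upstairs -/
  a' : ∀ w : HeightOneSpectrum (𝓞 K'), ResidueField (w.adicCompletionIntegers K')
  a'_eq : ∀ v ∈ tamePlaces tw.σ, ∀ w, ∀ P : TamePlace tw.σ v w,
    a' w = ResidueField.map P.embInt (a v)
  /-- the eigenvalues upstairs -/
  eig : HeightOneSpectrum (𝓞 K') → ℂ
  eig_real : ∀ w, w ∉ threePlaces K' ∪ placesAbove (tamePlaces tw.σ) → (eig w).im = 0
  eig_le : ∀ w, w ∉ threePlaces K' ∪ placesAbove (tamePlaces tw.σ) → ‖eig w‖ ≤ 2
  eig_twist : ∀ v w, v ∉ threePlaces K → IsSplit tw.σ v → IsAbove v w →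
    eig (placePerm tw.σ.toRingEquiv w) = eig w
  eig_ne_ray : ∀ M : ℕ, M ≠ 0 → ∀ η : Ideal (𝓞 K') → ℂ,
    (∀ I J, IsCoprime I (Ideal.span {(M : 𝓞 K')}) → IsCoprime J (Ideal.span {(M : 𝓞 K')}) →
      η (I * J) = η I * η J) →
    (∀ x : 𝓞 K', x ≠ 0 → x - 1 ∈ Ideal.span {(M : 𝓞 K')} → η (Ideal.span {x}) = 1) →
    ∀ T : Finset (HeightOneSpectrum (𝓞 K')), ∃ w ∉ T, (M : 𝓞 K') ∉ w.asIdeal ∧
      w ∉ threePlaces K' ∪ placesAbove (tamePlaces tw.σ) ∧
      eig w ≠ η w.asIdeal + (η w.asIdeal)⁻¹
  /-- the form upstairs -/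
  ψ : (Fin 3 → HSpace) → GfK K' → ℂ
  isForm : IsSForm Φ' (threePlaces K' ∪ placesAbove (tamePlaces tw.σ)) eig ψ
  /-- the eigen equations hold at the tame places too -/
  isForm₀ : IsSForm Φ' (threePlaces K') eig ψ
  ne_zero : ψ ≠ 0
  fixed : ∀ τ g, ∀ h : GfK K', (∀ w, Aleph.localGL K' w h ∈ localFull K' w) →
    (∀ w ∈ threePlaces K', Aleph.localGL K' w h ∈ jLevel w (w.intValuation ((3 : 𝓞 K') ^ m))) →
    ψ τ (g * h) = ψ τ g

namespace DescentData

variable {Φ : Frame K Unit} {Φ' : Frame K' (Fin 3)} {tw : CubicTwist Φ Φ'} (D : DescentData tw)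

/-- The tame places downstairs. -/
abbrev tame : Set (HeightOneSpectrum (𝓞 K)) := tamePlaces tw.σ

/-- The excluded places downstairs. -/
abbrev bad : Set (HeightOneSpectrum (𝓞 K)) := threePlaces K ∪ tamePlaces tw.σ

/-- The excluded places upstairs. -/
abbrev bad' : Set (HeightOneSpectrum (𝓞 K')) :=
  threePlaces K' ∪ placesAbove (tamePlaces tw.σ)

include D in
theorem finite_bad : (bad (tw := tw)).Finite :=
  finite_threePlaces.union (finite_tamePlaces D.gen)

include D in
theorem finite_bad' : (bad' (tw := tw)).Finite :=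
  finite_threePlaces.union (finite_placesAbove D.gen (finite_tamePlaces D.gen))

include D in
theorem isInert_or_isSplit {v : HeightOneSpectrum (𝓞 K)} (hv : v ∉ bad (tw := tw)) :
    IsInert tw.σ v ∨ IsSplit tw.σ v :=
  (trichotomy D.gen v fun h => hv (Or.inl h)).resolve_left fun h => hv (Or.inr h)

include D in
theorem absNorm_mod_three {v : HeightOneSpectrum (𝓞 K)} (hv : (3 : 𝓞 K) ∉ v.asIdeal) :
    Ideal.absNorm v.asIdeal % 3 = 1 := by
  obtain ⟨ζ, hζ⟩ := D.exists_cubeRoot
  exact Places.absNorm_mod_three hζ v hv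

theorem u_not_bad : D.u ∉ bad (tw := tw) := by
  simp only [bad, Set.mem_union, not_or]
  exact ⟨D.u_three, D.u_not_tame⟩

theorem mem_bad'_iff {v : HeightOneSpectrum (𝓞 K)} {w : HeightOneSpectrum (𝓞 K')}
    (h : IsAbove v w) : w ∈ bad' (tw := tw) ↔ v ∈ bad (tw := tw) := by
  simp only [bad', bad, Set.mem_union, mem_threePlaces_iff h]
  refine or_congr Iff.rfl ⟨fun ⟨v', hv', hw⟩ => ?_, fun hv => ⟨v, hv, h⟩⟩
  rwa [isAbove_unique h hw]

theorem a'_spec : ∀ w ∈ placesAbove (tamePlaces tw.σ), ∀ t, t ^ 2 - t ≠ D.a' w := by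
  rintro w ⟨v, hv, hw⟩ t
  rw [D.a'_eq v hv w (tamePlace D.gen hv hw)]
  exact (tamePlace D.gen hv hw).not_sq_sub_self' (D.a_spec v hv) t

/-- The level downstairs with Iwahori structure at `u`. -/
def lev : LevelData K where
  m := D.m
  tame := tamePlaces tw.σ
  tame_finite := finite_tamePlaces D.gen
  aux := {D.u}
  aux_finite := Set.finite_singleton _
  a := D.a
  a_spec := D.a_spec

/-- The level downstairs, maximal at `u`. -/
def lev₀ : LevelData K := { D.lev with aux := ∅, aux_finite := Set.finite_empty }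

/-- The level upstairs with Iwahori structure over `u`. -/
def lev' : LevelData K' where
  m := D.m
  tame := placesAbove (tamePlaces tw.σ)
  tame_finite := finite_placesAbove D.gen (finite_tamePlaces D.gen)
  aux := placesAbove {D.u}
  aux_finite := finite_placesAbove D.gen (Set.finite_singleton _)
  a := D.a'
  a_spec := D.a'_spec

/-- The level upstairs, maximal over `u`. -/
def lev₀' : LevelData K' := { D.lev' with aux := ∅, aux_finite := Set.finite_empty }

theorem fixed_level₀' (τ : Fin 3 → HSpace) (g : GfK K') {h : GfK K'} (hh : h ∈ D.lev₀'.level) :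
    D.ψ τ (g * h) = D.ψ τ g := by
  have hl := (mem_productLevel _).1 hh
  refine D.fixed τ g h (fun w => D.lev₀'.loc_le w (hl w)) fun w hw => ?_
  have := hl w
  rwa [D.lev₀'.loc_of_three hw] at this

end DescentData

end Fermat.Agent.LT.Descent

end
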