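import Fermat.Agent.LT.Descent.IwahoriAlgebra
import Mathlib.LinearAlgebra.Eigenspace.Basic
import Mathlib.LinearAlgebra.PID
import Mathlib.Data.ZMod.Defs
import Mathlib.LinearAlgebra.Trace
import Mathlib.RingTheory.Finiteness.Basic

/-!
# Old forms at three places

On a space where three commuting Iwahori pairs act with the same scalar `x` for `X`, an operator
permuting the pairs cyclically has twice the trace it has on the common spherical vectors.
-/

set_option autoImplicit false
set_option linter.unusedSectionVars false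

noncomputable section

namespace Fermat.Agent.LT.Descent

open Module

section Single

variable {V : Type*} [AddCommGroup V] [Module ℂ V] {q x : ℂ} {t w : End ℂ V}

theorem IsIwahoriPair.spherIdem_apply (h : IsIwahoriPair q t w) (hX : iwahoriX q t w = x • 1)
    (hx : x ^ 2 ≠ (q + 1) ^ 2) (hq : q + 1 ≠ 0) {v : V} (hv : t v = q • v) :
    spherIdem q x t w v = v := by
  have hv' : (t + 1) v = (q + 1) • v := by
    rw [LinearMap.add_apply, hv, End.one_apply, add_smul, one_smul]
  have h2 := congr($(h.spherIdem_mul_add_one hX hx) v)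
  rw [End.mul_apply, hv', map_smul] at h2
  exact (smul_right_inj hq).1 h2

theorem IsIwahoriPair.apply_spherIdem (h : IsIwahoriPair q t w) (v : V) :
    t (spherIdem q x t w v) = q • spherIdem q x t w v :=
  congr($(h.t_mul_spherIdem) v)

/-- **The old space is two copies of the spherical vectors**: `(a, b) ↦ a + w b` is bijective. -/
theorem IsIwahoriPair.bijective_add_w (h : IsIwahoriPair q t w) (hX : iwahoriX q t w = x • 1)
    (hx : x ^ 2 ≠ (q + 1) ^ 2) (hq : q + 1 ≠ 0) :
    Function.Bijective fun p : End.eigenspace t q × End.eigenspace t q =>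
      (p.1 : V) + w (p.2 : V) := by
  have hsum : ∀ v, spherIdem q x t w v + w (spherIdem q x t w (w v)) = v := fun v =>
    congr($(h.spherIdem_add_conj hX hx) v)
  have hfix : ∀ v : End.eigenspace t q, spherIdem q x t w v = v := fun v =>
    h.spherIdem_apply hX hx hq (End.mem_eigenspace_iff.1 v.2)
  have hww : ∀ v, w (w v) = v := fun v => congr($(h.sq_w) v)
  have hkill : ∀ b : End.eigenspace t q, spherIdem q x t w (w b) = 0 := fun b => by
    have h1 := hsum (b : V)
    rw [hfix, add_eq_left] at h1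
    rw [← hww (spherIdem q x t w (w b)), h1, map_zero]
  constructor
  · rintro ⟨a, b⟩ ⟨a', b'⟩ he
    replace he : (a : V) + w (b : V) = (a' : V) + w (b' : V) := he
    have h1 := congrArg (fun v => spherIdem q x t w v) he
    simp only [map_add, hfix, hkill, add_zero] at h1
    have h2 : (w (b : V)) = w (b' : V) := by simpa [h1] using he
    exact Prod.ext (Subtype.ext h1)
      (Subtype.ext (by simpa [hww] using congrArg w h2))
  · intro v
    exact ⟨⟨⟨_, End.mem_eigenspace_iff.2 (h.apply_spherIdem v)⟩,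
      ⟨_, End.mem_eigenspace_iff.2 (h.apply_spherIdem (w v))⟩⟩, hsum v⟩

/-- A nonzero space has spherical vectors. -/
theorem IsIwahoriPair.exists_spherical (h : IsIwahoriPair q t w) (hX : iwahoriX q t w = x • 1)
    (hx : x ^ 2 ≠ (q + 1) ^ 2) [Nontrivial V] : ∃ v : V, v ≠ 0 ∧ t v = q • v := by
  haveI : Nontrivial (End ℂ V) := by
    obtain ⟨v, hv⟩ := exists_ne (0 : V)
    exact ⟨⟨1, 0, fun he => hv (by simpa using congr($he v))⟩⟩
  obtain ⟨v, hv⟩ : ∃ v, spherIdem q x t w v ≠ 0 := by
    by_contra hcon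
    exact h.spherIdem_ne_zero hX hx (LinearMap.ext fun v => by simpa using not_exists_not.1 hcon v)
  exact ⟨_, hv, h.apply_spherIdem v⟩

/-- On a spherical vector the neighbour sum `(t + 1) w` is multiplication by `x`. -/
theorem IsIwahoriPair.add_one_w_apply (h : IsIwahoriPair q t w) (hX : iwahoriX q t w = x • 1)
    {v : V} (hv : t v = q • v) : t (w v) + w v = x • v := by
  have h1 : iwahoriX q t w v = x • v := by rw [hX]; rfl
  rw [← h1, iwahoriX, LinearMap.sub_apply, LinearMap.add_apply, LinearMap.smul_apply,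
    End.mul_apply, End.mul_apply, hv, map_smul]
  module

end Single

section Triple

variable {V : Type*} [AddCommGroup V] [Module ℂ V] [FiniteDimensional ℂ V]

/-- The trace of a shift against the eight products of three complementary idempotents: only
`e₁e₂e₃` and `f₁f₂f₃` contribute. -/
theorem trace_eq_trace_mul_add (A : End ℂ V) (e f : ZMod 3 → End ℂ V)
    (hone : ∀ i, e i + f i = 1) (hee : ∀ i, e i * e i = e i) (hfe : ∀ i, f i * e i = 0)
    (hef : ∀ i, e i * f i = 0) (hc : ∀ i j, Commute (e i) (e j))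
    (hA : ∀ i, A * e i = e (i + 1) * A) :
    LinearMap.trace ℂ V A =
      LinearMap.trace ℂ V (A * (e 0 * e 1 * e 2)) + LinearMap.trace ℂ V (A * (f 0 * f 1 * f 2)) := by
  have hf : ∀ i, f i = 1 - e i := fun i => eq_sub_of_add_eq' (hone i)
  have hcf : ∀ i j, Commute (e i) (f j) := fun i j => by
    rw [hf j]; exact (Commute.one_right _).sub_right (hc i j)
  have kill : ∀ (i : ZMod 3) (P : End ℂ V), e i * P = P → P * e (i + 1) = 0 →
      LinearMap.trace ℂ V (A * P) = 0 := fun i P h1 h2 => by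
    rw [← h1, ← mul_assoc, hA, mul_assoc, LinearMap.trace_mul_comm, mul_assoc, h2, mul_zero,
      map_zero]
  have hfe' : ∀ (i : ZMod 3) (R : End ℂ V), Commute (e i) R → f i * R * e i = 0 := fun i R hR => by
    rw [mul_assoc, ← hR.eq, ← mul_assoc, hfe, zero_mul]
  have hee' : ∀ (i : ZMod 3) (R : End ℂ V), e i * (e i * R) = e i * R := fun i R => by
    rw [← mul_assoc, hee]
  have swap : ∀ (i : ZMod 3) (a R : End ℂ V), Commute (e i) a → e i * (a * R) = a * (e i * R) :=
    fun i a R ha => by rw [← mul_assoc, ha.eq, mul_assoc]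
  have t1 : LinearMap.trace ℂ V (A * (e 0 * e 1 * f 2)) = 0 :=
    kill 1 _ (by rw [mul_assoc, swap 1 _ _ (hc 1 0), hee'])
      (by rw [show (1 : ZMod 3) + 1 = 2 from rfl, mul_assoc, hfe, mul_zero])
  have t2 : LinearMap.trace ℂ V (A * (e 0 * f 1 * e 2)) = 0 :=
    kill 0 _ (by rw [mul_assoc, hee'])
      (by rw [zero_add, mul_assoc (e 0), mul_assoc (e 0), hfe' 1 _ (hc 1 2), mul_zero])
  have t3 : LinearMap.trace ℂ V (A * (e 0 * f 1 * f 2)) = 0 :=
    kill 0 _ (by rw [mul_assoc, hee'])
      (by rw [zero_add, mul_assoc (e 0), mul_assoc (e 0), hfe' 1 _ (hcf 1 2), mul_zero])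
  have t4 : LinearMap.trace ℂ V (A * (f 0 * e 1 * e 2)) = 0 :=
    kill 2 _ (by rw [mul_assoc, swap 2 _ _ (hcf 2 0), swap 2 _ _ (hc 2 1), hee])
      (by rw [show (2 : ZMod 3) + 1 = 0 from rfl, mul_assoc (f 0) (e 1),
        hfe' 0 _ ((hc 0 1).mul_right (hc 0 2))])
  have t5 : LinearMap.trace ℂ V (A * (f 0 * e 1 * f 2)) = 0 :=
    kill 1 _ (by rw [mul_assoc, swap 1 _ _ (hcf 1 0), hee'])
      (by rw [show (1 : ZMod 3) + 1 = 2 from rfl, mul_assoc, hfe, mul_zero])
  have t6 : LinearMap.trace ℂ V (A * (f 0 * f 1 * e 2)) = 0 :=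
    kill 2 _ (by rw [mul_assoc, swap 2 _ _ (hcf 2 0), swap 2 _ _ (hcf 2 1), hee])
      (by rw [show (2 : ZMod 3) + 1 = 0 from rfl, mul_assoc (f 0) (f 1),
        hfe' 0 _ ((hcf 0 1).mul_right (hc 0 2))])
  conv_lhs => rw [← mul_one A, show (1 : End ℂ V) = (e 0 + f 0) * (e 1 + f 1) * (e 2 + f 2) by
    rw [hone, hone, hone, one_mul, one_mul]]
  simp only [add_mul, mul_add, map_add, t1, t2, t3, t4, t5, t6]
  ring

/-- An operator permuting the pairs preserves the common spherical vectors. -/
theorem mapsTo_spherical (q : ℂ) (t : ZMod 3 → End ℂ V) (A : End ℂ V)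
    (hAt : ∀ i, A * t i = t (i + 1) * A) :
    Set.MapsTo A (⨅ i, End.eigenspace (t i) q : Submodule ℂ V)
      (⨅ i, End.eigenspace (t i) q : Submodule ℂ V) := fun v hv => by
  refine (Submodule.mem_iInf _).2 fun i => End.mem_eigenspace_iff.2 ?_
  have h1 := End.mem_eigenspace_iff.1 ((Submodule.mem_iInf _).1 hv (i - 1))
  have h2 := congr($(hAt (i - 1)) v)
  rwa [End.mul_apply, End.mul_apply, h1, map_smul, sub_add_cancel, eq_comm] at h2

/-- **The cyclic trace on the old space is twice the trace on the spherical vectors.** -/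
theorem trace_eq_two_mul_trace_spherical (q x : ℂ) (t w : ZMod 3 → End ℂ V)
    (h : ∀ i, IsIwahoriPair q (t i) (w i)) (hX : ∀ i, iwahoriX q (t i) (w i) = x • 1)
    (hx : x ^ 2 ≠ (q + 1) ^ 2) (hq : q + 1 ≠ 0)
    (htt : ∀ i j, Commute (t i) (t j)) (htw : ∀ i j, i ≠ j → Commute (t i) (w j))
    (hww : ∀ i j, Commute (w i) (w j))
    (A : End ℂ V) (hAt : ∀ i, A * t i = t (i + 1) * A) (hAw : ∀ i, A * w i = w (i + 1) * A)
    (hA0 : Set.MapsTo A (⨅ i, End.eigenspace (t i) q : Submodule ℂ V)
      (⨅ i, End.eigenspace (t i) q : Submodule ℂ V)) :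
    LinearMap.trace ℂ V A = 2 * LinearMap.trace ℂ _ (A.restrict hA0) := by
  classical
  set e : ZMod 3 → End ℂ V := fun i => spherIdem q x (t i) (w i) with he
  set f : ZMod 3 → End ℂ V := fun i => w i * e i * w i with hf
  have hone : ∀ i, e i + f i = 1 := fun i => (h i).spherIdem_add_conj (hX i) hx
  have hee : ∀ i, e i * e i = e i := fun i => (h i).spherIdem_mul_self (hX i) hx
  have hf1 : ∀ i, f i = 1 - e i := fun i => eq_sub_of_add_eq' (hone i)
  have hfe : ∀ i, f i * e i = 0 := fun i => by rw [hf1, sub_mul, one_mul, hee, sub_self]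
  have hef : ∀ i, e i * f i = 0 := fun i => by rw [hf1, mul_sub, mul_one, hee, sub_self]
  have hew : ∀ i j, i ≠ j → Commute (e i) (w j) := fun i j hij =>
    (spherIdem_semiconj q x (htw i j hij).symm.eq ((hww i j).symm.eq)).symm
  have het : ∀ i j, i ≠ j → Commute (e i) (t j) := fun i j hij =>
    (spherIdem_semiconj q x (htt i j).symm.eq (htw j i hij.symm).eq).symm
  have hc : ∀ i j, Commute (e i) (e j) := fun i j => by
    rcases eq_or_ne i j with rfl | hij
    · exact Commute.refl _
    · exact spherIdem_semiconj q x (het i j hij).eq (hew i j hij).eq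
  have hA : ∀ i, A * e i = e (i + 1) * A := fun i => spherIdem_semiconj q x (hAt i) (hAw i)
  rw [trace_eq_trace_mul_add A e f hone hee hfe hef hc hA]
  set W := w 0 * w 1 * w 2 with hW
  have hW' : W = w 1 * w 2 * w 0 := by
    rw [hW, mul_assoc, ((hww 0 1).mul_right (hww 0 2)).eq]
  have hWA : A * W = W * A := by
    conv_rhs => rw [hW']
    rw [hW, ← mul_assoc, ← mul_assoc, hAw, mul_assoc (w (0 + 1)), hAw, ← mul_assoc,
      mul_assoc (w (0 + 1) * w (1 + 1)), hAw, ← mul_assoc,
      show (0 : ZMod 3) + 1 = 1 from rfl, show (1 : ZMod 3) + 1 = 2 from rfl,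
      show (2 : ZMod 3) + 1 = 0 from rfl]
  have hW1 : W * W = 1 := by
    have h01 : w 1 * (w 2 * w 0) = w 2 * w 0 * w 1 := ((hww 1 2).mul_right (hww 1 0)).eq
    calc W * W = w 0 * (w 1 * (w 2 * (w 2 * w 0 * w 1))) := by
          rw [← h01, ← mul_assoc (w 1) (w 2) (w 0), ← hW', hW]
          simp only [mul_assoc]
      _ = w 0 * (w 1 * (w 0 * w 1)) := by rw [mul_assoc (w 2), (h 2).w_mul_w_mul]
      _ = 1 := by rw [← mul_assoc (w 1), (hww 1 0).eq, mul_assoc, (h 1).sq_w, mul_one,
          (h 0).sq_w]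
  have conj : ∀ (u v a b : End ℂ V), Commute a v → Commute b u → Commute u v →
      u * a * u * (v * b * v) = u * v * (a * b) * (u * v) := fun u v a b hav hbu huv => by
    calc u * a * u * (v * b * v) = u * a * (u * v) * b * v := by simp only [mul_assoc]
      _ = u * a * v * (u * b) * v := by rw [huv.eq]; simp only [mul_assoc]
      _ = u * (v * a) * (b * u) * v := by rw [mul_assoc u a v, hav.eq, hbu.eq]
      _ = u * v * (a * b) * (u * v) := by simp only [mul_assoc]
  have hfW : f 0 * f 1 * f 2 = W * (e 0 * e 1 * e 2) * W := by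
    simp only [hf]
    rw [conj _ _ _ _ (hew 0 1 (by decide)) (hew 1 0 (by decide)) (hww 0 1),
      conj _ _ _ _ ((hew 0 2 (by decide)).mul_left (hew 1 2 (by decide)))
        ((hew 2 0 (by decide)).mul_right (hew 2 1 (by decide)))
        ((hww 0 2).mul_left (hww 1 2))]
  have hsame : LinearMap.trace ℂ V (A * (f 0 * f 1 * f 2)) =
      LinearMap.trace ℂ V (A * (e 0 * e 1 * e 2)) := by
    rw [hfW, ← mul_assoc A (W * (e 0 * e 1 * e 2)), ← mul_assoc A W, hWA, mul_assoc W,
      LinearMap.trace_mul_comm, ← mul_assoc, hW1, one_mul]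
  rw [hsame, ← two_mul]
  congr 1
  have hmem : ∀ v, (A * (e 0 * e 1 * e 2)) v ∈ (⨅ i, End.eigenspace (t i) q : Submodule ℂ V) := by
    intro v
    refine hA0 ((Submodule.mem_iInf _).2 fun i => End.mem_eigenspace_iff.2 ?_)
    have hE : t i * (e 0 * e 1 * e 2) = q • (e 0 * e 1 * e 2) := by
      have hte := (h i).t_mul_spherIdem (x := x)
      rcases (by decide : ∀ j : ZMod 3, j = 0 ∨ j = 1 ∨ j = 2) i with rfl | rfl | rfl
      · rw [← mul_assoc, ← mul_assoc, hte, smul_mul_assoc, smul_mul_assoc]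
      · rw [← mul_assoc, ← mul_assoc, ← (het 0 1 (by decide)).eq, mul_assoc (e 0), hte,
          mul_smul_comm, smul_mul_assoc]
      · rw [← mul_assoc, (((het 0 2 (by decide)).mul_left (het 1 2 (by decide)))).symm.eq,
          mul_assoc, hte, mul_smul_comm]
    exact congr($hE v)
  rw [← LinearMap.trace_restrict_eq_of_forall_mem _ _ hmem]
  congr 1
  refine LinearMap.ext fun v => Subtype.ext ?_
  have hv := (Submodule.mem_iInf _).1 v.2
  have hfix : ∀ i, e i (v : V) = v := fun i =>
    (h i).spherIdem_apply (hX i) hx hq (End.mem_eigenspace_iff.1 (hv i))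
  simp [hfix]

end Triple

end Fermat.Agent.LT.Descent
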