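/-
The operators of families with one local matrix: they depend linearly on it, they commute with
families commuting there, and two automorphism steps move them to the conjugate place.
-/
import Fermat.Agent.LT.Descent.TestOperator
import Fermat.Agent.LT.Descent.LKerLinear
import Fermat.Agent.LT.Descent.TensorMatch
import Fermat.Agent.LT.Descent.Regular
import Fermat.Agent.LT.Tame.SplitPlace

set_option autoImplicit false

noncomputable section

namespace Fermat.Agent.LT.Descent

open IsDedekindDomain IsDedekindDomain.HeightOneSpectrum Matrix NumberField MeasureTheory Filter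
open Fermat.Agent.LT.Adelic Fermat.Agent.LT.Tame Fermat.Agent.LT.Spectral
open scoped MatrixGroups

variable {K : Type*} [Field K] [NumberField K]

section Linear

variable {ι : Type*} [Fintype ι] {Φ : Frame K ι} {U : Subgroup (GfK K)} [Countable (Yf U)]
  {D : QuotData Φ U}

omit [Fintype ι] in
theorem kerMap_combination {f f₁ f₂ : HKer U} {c₁ c₂ : ℂ}
    (hf : ∀ y z, f y z = c₁ * f₁ y z + c₂ * f₂ y z) (φ : Space Φ U → ℂ) :
    kerMap f φ = c₁ • kerMap f₁ φ + c₂ • kerMap f₂ φ := by
  funext x
  simp only [kerMap, Pi.add_apply, Pi.smul_apply, smul_eq_mul, mul_finsum, ← mul_assoc]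
  rw [← finsum_add_distrib]
  · exact finsum_congr fun w => by rw [hf, add_mul]
  · exact (f₁.finite_row x.fin).subset fun w hw => right_ne_zero_of_mul (left_ne_zero_of_mul hw)
  · exact (f₂.finite_row x.fin).subset fun w hw => right_ne_zero_of_mul (left_ne_zero_of_mul hw)

/-- **Test operators are linear in the finite part.** -/
theorem cuspOp_combination (k : ι → PPKer) {f f₁ f₂ : HKer U} {c₁ c₂ : ℂ}
    (hf : ∀ y z, f y z = c₁ * f₁ y z + c₂ * f₂ y z) :
    cuspOp D k f = c₁ • cuspOp D k f₁ + c₂ • cuspOp D k f₂ := by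
  refine ContinuousLinearMap.ext fun e => Subtype.ext (Lp.ext ?_)
  obtain ⟨φ, hm, hi, -, hae⟩ := e.2
  have hs := sliceInt_of_memLp hm hi ((Lp.memLp (e : Lp ℂ 2 D.ν)).ae_eq hae)
  refine (coeFn_cuspOp k f hm hi hae).trans (EventuallyEq.trans ?_
    ((Lp.coeFn_add _ _).trans (((Lp.coeFn_smul _ _).trans
      ((coeFn_cuspOp k f₁ hm hi hae).const_smul c₁)).add ((Lp.coeFn_smul _ _).trans
      ((coeFn_cuspOp k f₂ hm hi hae).const_smul c₂)))).symm)
  refine EventuallyEq.of_eq ?_
  rw [testOp_eq_kerMap k f hs, testOp_eq_kerMap k f₁ hs, testOp_eq_kerMap k f₂ hs,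
    kerMap_combination hf]

end Linear

section Single

variable {V : ∀ v : HeightOneSpectrum (𝓞 K), Subgroup (GL (Fin 2) (v.adicCompletion K))}
  (hV : IsLocalLevel V)

theorem toHKer_single_combination (v : HeightOneSpectrum (𝓞 K))
    (c₁ c₂ : ℂ) (l m : LKer PGL(2, v.adicCompletion K) (LocY V v)) (y z : Yf (productLevel V)) :
    (KerFamily.single v (c₁ • l + c₂ • m)).toHKer hV y z =
      c₁ * (KerFamily.single v l).toHKer hV y z + c₂ * (KerFamily.single v m).toHKer hV y z := by
  have h : ∀ n : LKer PGL(2, v.adicCompletion K) (LocY V v),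
      (KerFamily.single v n).toHKer hV y z = n (locY V v y) (locY V v z) *
        ∏ᶠ (w) (_ : w ≠ v), LKer.one _ _ (locY V w y) (locY V w z) := fun n => by
    rw [KerFamily.toHKer_eq_mul hV _ v, KerFamily.single_ker_self]
    congr 1
    exact finprod_congr fun w => finprod_congr fun hw => by rw [KerFamily.single_ker_ne hw]
  rw [h, h, h, LKer.add_apply, LKer.smul_apply, LKer.smul_apply]
  ring

theorem single_one (v : HeightOneSpectrum (𝓞 K)) :
    KerFamily.single v (1 : LKer PGL(2, v.adicCompletion K) (LocY V v)) = KerFamily.one V :=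
  KerFamily.ext' fun w => by
    rcases eq_or_ne w v with rfl | hw
    · rw [KerFamily.single_ker_self]; rfl
    · rw [KerFamily.single_ker_ne hw]; rfl

/-- A family commuting at `v` commutes with a matrix at `v`. -/
theorem single_comp_family (k : KerFamily V) (v : HeightOneSpectrum (𝓞 K))
    (l : LKer PGL(2, v.adicCompletion K) (LocY V v)) (h : Commute (k.ker v) l) :
    (KerFamily.single v l).comp k = k.comp (KerFamily.single v l) := KerFamily.ext' fun w => by
  show ((KerFamily.single v l).ker w).comp (k.ker w) = (k.ker w).comp ((KerFamily.single v l).ker w)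
  rcases eq_or_ne w v with rfl | hw
  · rw [KerFamily.single_ker_self]; exact h.eq.symm
  · rw [KerFamily.single_ker_ne hw, LKer.comp_one, LKer.one_comp]

variable {ι : Type*} [Fintype ι] {Φ : Frame K ι} [Countable (Yf (productLevel V))]
  {D : QuotData Φ (productLevel V)}

/-- The operator of a matrix at one place, as a linear map in it. -/
def singleOp (D : QuotData Φ (productLevel V)) (k : ι → PPKer) (v : HeightOneSpectrum (𝓞 K)) :
    LKer PGL(2, v.adicCompletion K) (LocY V v) →ₗ[ℂ] (cuspClasses D →L[ℂ] cuspClasses D) where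
  toFun l := cuspOp D k ((KerFamily.single v l).toHKer hV)
  map_add' l m := by
    have := cuspOp_combination (D := D) k (toHKer_single_combination hV v 1 1 l m)
    simpa only [one_smul] using this
  map_smul' c l := by
    have := cuspOp_combination (D := D) k (toHKer_single_combination hV v c 0 l l)
    rw [zero_smul ℂ, add_zero] at this
    refine this.trans (ContinuousLinearMap.ext fun e => ?_)
    simp

theorem singleOp_apply (k : ι → PPKer) (v : HeightOneSpectrum (𝓞 K))
    (l : LKer PGL(2, v.adicCompletion K) (LocY V v)) :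
    singleOp hV D k v l = cuspOp D k ((KerFamily.single v l).toHKer hV) := rfl

theorem singleOp_one (k : ι → PPKer) (v : HeightOneSpectrum (𝓞 K)) :
    singleOp hV D k v 1 = cuspOp D k (HKer.id _) := by
  rw [singleOp_apply, single_one, KerFamily.toHKer_one]

/-- **Products at one place.** -/
theorem singleOp_mul (k : ι → PPKer) (v : HeightOneSpectrum (𝓞 K))
    (l m : LKer PGL(2, v.adicCompletion K) (LocY V v)) :
    singleOp hV D k v l * singleOp hV D k v m = cuspOp D k (HKer.id _) * singleOp hV D k v (l * m) := by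
  show (cuspOp D k _).comp (cuspOp D k _) = (cuspOp D k _).comp (cuspOp D k _)
  rw [cuspOp_comp, cuspOp_comp]
  refine cuspOp_congr (fun _ _ _ => rfl) fun y z => ?_
  rw [HKer.id_comp_apply, ← KerFamily.toHKer_comp, KerFamily.single_comp_single_same]
  rfl

theorem commute_singleOp_cuspOp (k k' : ι → PPKer) (v : HeightOneSpectrum (𝓞 K))
    (l : LKer PGL(2, v.adicCompletion K) (LocY V v)) {g : KerFamily V}
    (h : Commute (g.ker v) l) :
    Commute (singleOp hV D k v l) (cuspOp D k' (g.toHKer hV)) :=
  cuspOp_commute k k' fun y z => by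
    rw [← KerFamily.toHKer_comp, ← KerFamily.toHKer_comp, single_comp_family g v l h]

end Single

section Twist

variable {V : ∀ v : HeightOneSpectrum (𝓞 K), Subgroup (GL (Fin 2) (v.adicCompletion K))}
  (hV : IsLocalLevel V) (σ : K ≃+* K)
  (hσ : ∀ w, ∀ g ∈ V (placePerm σ w), GeneralLinearGroup.map
      (completionEquiv σ (valuation_apply_placePerm σ w)).toRingHom g ∈ V w)

/-- The cosets carried two steps. -/
def cosetTwistTwice (w : HeightOneSpectrum (𝓞 K)) (c : LocY V (placePerm σ (placePerm σ w))) :
    LocY V w :=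
  cosetTwist σ hσ w (cosetTwist σ hσ (placePerm σ w) c)

theorem locY_yfAut_twice (w : HeightOneSpectrum (𝓞 K)) (y : Yf (productLevel V)) :
    locY V w (yfAut σ (isStableLevel_productLevel σ hσ)
        (yfAut σ (isStableLevel_productLevel σ hσ) y)) =
      cosetTwistTwice σ hσ w (locY V (placePerm σ (placePerm σ w)) y) := by
  rw [locY_yfAut, locY_yfAut]
  rfl

/-- **Two steps of the automorphism move a matrix to the conjugate place.** -/
theorem toHKer_single_yfAut_twice (h3 : ∀ x, σ (σ (σ x)) = x) (w : HeightOneSpectrum (𝓞 K))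
    (l : LKer PGL(2, w.adicCompletion K) (LocY V w))
    (l' : LKer PGL(2, (placePerm σ (placePerm σ w)).adicCompletion K)
      (LocY V (placePerm σ (placePerm σ w))))
    (h : ∀ a c, l (cosetTwistTwice σ hσ w a) (cosetTwistTwice σ hσ w c) = l' a c)
    (y z : Yf (productLevel V)) :
    (KerFamily.single (placePerm σ (placePerm σ w)) l').toHKer hV y z =
      (KerFamily.single w l).toHKer hV
        (yfAut σ (isStableLevel_productLevel σ hσ) (yfAut σ (isStableLevel_productLevel σ hσ) y))
        (yfAut σ (isStableLevel_productLevel σ hσ)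
          (yfAut σ (isStableLevel_productLevel σ hσ) z)) := by
  set τ := yfAut σ (isStableLevel_productLevel σ hσ) with hτ
  have hcube : ∀ x : Yf (productLevel V), τ (τ (τ x)) = x := yfAut_cube σ h3 _
  by_cases hag : ∀ x, x ≠ placePerm σ (placePerm σ w) → locY V x y = locY V x z
  · rw [KerFamily.toHKer_single_apply hV _ _ _ _ hag,
      KerFamily.toHKer_single_apply hV _ _ _ _ fun x hx => ?_, locY_yfAut_twice σ hσ w y,
      locY_yfAut_twice σ hσ w z, h]
    rw [locY_yfAut_twice σ hσ x y, locY_yfAut_twice σ hσ x z,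
      hag _ fun he => hx ((placePerm σ).injective ((placePerm σ).injective he))]
  · obtain ⟨x, hx, hne⟩ : ∃ x, x ≠ placePerm σ (placePerm σ w) ∧ locY V x y ≠ locY V x z := by
      simpa only [not_forall, exists_prop] using hag
    rw [KerFamily.toHKer_single_apply_of_ne hV _ hx hne]
    refine (KerFamily.toHKer_single_apply_of_ne hV _ (w := placePerm σ x)
      (fun he => hx ?_) fun he => hne ?_).symm
    · rw [← he, Tame.placePerm_cube σ h3]
    · rw [← hcube y, ← hcube z, hτ, locY_yfAut σ hσ x, locY_yfAut σ hσ x]
      exact congrArg _ he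

end Twist

end Fermat.Agent.LT.Descent

end
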