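import Fermat.Agent.LT.Descent.Atoms
import Fermat.Agent.LT.Descent.Comparison

/-!
# The spectral constraint at the auxiliary place

On a joint eigenspace of the base operator and of `X` the operators of `U` at the places over the
auxiliary place, divided by the eigenvalue, satisfy `U² - xU + q = 0` with a bounded real `x`.
Hence the eigenvalues of `U³`, and of the product of the three operators, are spectral points.
-/

set_option autoImplicit false

noncomputable section

namespace Fermat.Agent.LT.Descent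

open Fermat.Agent.LT.Adelic Fermat.Agent.LT.Tame Fermat.Agent.LT.Spectral
open Fermat.Agent.LT.Descent.Places
open MeasureTheory NumberField IsDedekindDomain Matrix
open scoped MatrixGroups InnerProductSpace

section Kernel

variable {K : Type*} [Field K] [NumberField K] {ι : Type*} [Fintype ι] {Φ : Frame K ι}
  {U : Subgroup (GfK K)}

omit [Fintype ι] in
theorem kerMap_lin {f g h : HKer U} {a b : ℂ} (hh : ∀ y z, h y z = a * f y z + b * g y z)
    (φ : Space Φ U → ℂ) : kerMap h φ = a • kerMap f φ + b • kerMap g φ := by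
  funext x
  have hfin : ∀ (F : HKer U) (c : ℂ),
      (Function.support fun w => c * (F x.fin w * φ (Space.mk x.pt w))).Finite := fun F c =>
    (F.finite_row x.fin).subset fun w hw => left_ne_zero_of_mul (right_ne_zero_of_mul hw)
  simp only [kerMap, Pi.add_apply, Pi.smul_apply, smul_eq_mul, mul_finsum]
  rw [← finsum_add_distrib (hfin f a) (hfin g b)]
  exact finsum_congr fun w => by rw [hh]; ring

/-- The absolute row sums are bounded. -/
theorem HKer.exists_rowSum_real [Countable (Yf U)] (F : HKer U) :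
    ∃ M : ℝ, ∀ (y : Yf U) (s : Finset (Yf U)), ∑ z ∈ s, ‖F y z‖ ≤ M := by
  obtain ⟨M, hM⟩ := F.exists_rowSum_le
  refine ⟨M, fun y s => ?_⟩
  have h := (ENNReal.sum_le_tsum s).trans (hM y)
  simp only [enorm_eq_nnnorm, ← ENNReal.ofNNReal_finsetSum, ENNReal.coe_le_coe] at h
  exact le_of_eq_of_le (by push_cast; rfl) (NNReal.coe_le_coe.2 h)

variable [Countable (Yf U)] {D : QuotData Φ U}

/-- The operator is linear in the matrix. -/
theorem cuspOp_lin (k : ι → PPKer) {f g h : HKer U} {a b : ℂ}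
    (hh : ∀ y z, h y z = a * f y z + b * g y z) :
    cuspOp D k h = a • cuspOp D k f + b • cuspOp D k g := by
  refine ContinuousLinearMap.ext fun e => Subtype.ext (Lp.ext ?_)
  obtain ⟨φ, hm, hi, -, hae⟩ := e.2
  have hs := sliceInt_of_memLp hm hi ((Lp.memLp (e : Lp ℂ 2 D.ν)).ae_eq hae)
  rw [_root_.add_apply, _root_.smul_apply, _root_.smul_apply, Submodule.coe_add,
    Submodule.coe_smul, Submodule.coe_smul]
  filter_upwards [coeFn_cuspOp k h hm hi hae, coeFn_cuspOp k f hm hi hae,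
    coeFn_cuspOp k g hm hi hae,
    Lp.coeFn_add (a • (cuspOp D k f e : Lp ℂ 2 D.ν)) (b • (cuspOp D k g e : Lp ℂ 2 D.ν)),
    Lp.coeFn_smul a (cuspOp D k f e : Lp ℂ 2 D.ν),
    Lp.coeFn_smul b (cuspOp D k g e : Lp ℂ 2 D.ν)] with x h0 h1 h2 h3 h4 h5
  rw [h0, h3, Pi.add_apply, h4, h5, Pi.smul_apply, Pi.smul_apply, h1, h2,
    testOp_eq_kerMap k h hs, testOp_eq_kerMap k f hs, testOp_eq_kerMap k g hs, kerMap_lin hh]
  rfl

/-- An eigenvalue of a matrix on a class with a bounded representative is at most a row sum. -/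
theorem norm_eigen_le {ks : ι → PPKer} (hks : IsLipKernel ks) {μ : ℂ} (hμ : μ ≠ 0)
    {e : cuspClasses D} (he : e ≠ 0) (h : cuspOp D ks (HKer.id U) e = μ • e) (k : ι → PPKer)
    {F : HKer U} {M : ℝ} (hM : ∀ (y : Yf U) (s : Finset (Yf U)), ∑ z ∈ s, ‖F y z‖ ≤ M) {m L : ℂ}
    (h1 : cuspOp D k (HKer.id U) e = m • e) (h2 : cuspOp D k F e = L • e) :
    ‖L‖ ≤ M * ‖m‖ := by
  obtain ⟨φ, hφ⟩ := exists_regularRep hks hμ h
  have e1 := hφ.eigen _ _ _ h1
  have e2 := hφ.eigen _ _ _ h2
  rw [testOp_id k hφ.sliceInt] at e1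
  rw [testOp_eq_kerMap k F hφ.sliceInt, e1, kerMap_smul] at e2
  obtain ⟨x₀, hx₀⟩ : ∃ x, φ x ≠ 0 := by
    by_contra hz
    push Not at hz
    refine he (Subtype.ext (Lp.ext (hφ.ae_eq.trans ?_)))
    filter_upwards [Lp.coeFn_zero ℂ 2 D.ν] with x hx
    rw [Submodule.coe_zero, hx, hz]
    rfl
  have hM0 : 0 ≤ M := (Finset.sum_nonneg fun _ _ => norm_nonneg _).trans (hM x₀.fin ∅)
  obtain ⟨C, hC⟩ := hφ.bounded
  have hbdd : BddAbove (Set.range fun x => ‖φ x‖) := ⟨C, by rintro _ ⟨x, rfl⟩; exact hC x⟩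
  set S := ⨆ x, ‖φ x‖
  have hS : ∀ x, ‖φ x‖ ≤ S := fun x => le_ciSup hbdd x
  have hS0 : 0 < S := lt_of_lt_of_le (norm_pos_iff.mpr hx₀) (hS x₀)
  have key : ∀ x, ‖L‖ * ‖φ x‖ ≤ ‖m‖ * (M * S) := fun x => by
    calc ‖L‖ * ‖φ x‖ = ‖m‖ * ‖kerMap F φ x‖ := by
          rw [← norm_mul, ← norm_mul]
          exact congrArg norm (congrFun e2 x).symm
      _ ≤ ‖m‖ * (M * S) := by
          refine mul_le_mul_of_nonneg_left ?_ (norm_nonneg _)
          rw [← Space.mk_pt_fin x, kerMap_eq_sum]
          refine (norm_sum_le _ _).trans ?_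
          calc ∑ w ∈ (F.finite_row x.fin).toFinset, ‖F x.fin w * φ (Space.mk x.pt w)‖
              ≤ ∑ w ∈ (F.finite_row x.fin).toFinset, ‖F x.fin w‖ * S :=
                Finset.sum_le_sum fun w _ => by
                  rw [norm_mul]; exact mul_le_mul_of_nonneg_left (hS _) (norm_nonneg _)
            _ ≤ M * S := by
                rw [← Finset.sum_mul]; exact mul_le_mul_of_nonneg_right (hM _ _) hS0.le
  by_contra hlt
  push Not at hlt
  have hL : 0 < ‖L‖ := lt_of_le_of_lt (mul_nonneg hM0 (norm_nonneg m)) hlt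
  have : Nonempty (Space Φ U) := ⟨x₀⟩
  have hsup : S ≤ ‖m‖ * (M * S) / ‖L‖ :=
    ciSup_le fun x => (le_div_iff₀ hL).mpr (by rw [mul_comm]; exact key x)
  rw [le_div_iff₀ hL] at hsup
  nlinarith [mul_pos hS0 (sub_pos.mpr hlt)]

theorem KerFamily.comp_one' {V : ∀ v : HeightOneSpectrum (𝓞 K),
    Subgroup (GL (Fin 2) (v.adicCompletion K))} (k : KerFamily V) :
    k.comp (KerFamily.one V) = k := KerFamily.ext' fun v => LKer.comp_one (k.ker v)

theorem KerFamily.single_one' {V : ∀ v : HeightOneSpectrum (𝓞 K),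
    Subgroup (GL (Fin 2) (v.adicCompletion K))} (v : HeightOneSpectrum (𝓞 K)) :
    KerFamily.single v (1 : LKer PGL(2, v.adicCompletion K) (LocY V v)) = KerFamily.one V :=
  KerFamily.ext' fun w => by
    rcases eq_or_ne w v with rfl | hw
    · rw [KerFamily.single_ker_self]; rfl
    · rw [KerFamily.single_ker_ne hw]; rfl

/-- The matrix of a matrix at one place is linear in it. -/
theorem KerFamily.toHKer_single_lin {V : ∀ v : HeightOneSpectrum (𝓞 K),
    Subgroup (GL (Fin 2) (v.adicCompletion K))} (hV : IsLocalLevel V)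
    (v : HeightOneSpectrum (𝓞 K)) (a b : ℂ)
    (f g : LKer PGL(2, v.adicCompletion K) (LocY V v)) (y z : Yf (productLevel V)) :
    (KerFamily.single v (a • f + b • g)).toHKer hV y z
      = a * (KerFamily.single v f).toHKer hV y z + b * (KerFamily.single v g).toHKer hV y z := by
  by_cases h : ∀ w, w ≠ v → locY V w y = locY V w z
  · simp only [KerFamily.toHKer_single_apply hV v _ y z h, LKer.add_apply, LKer.smul_apply]
  · push Not at h
    obtain ⟨w, hw, hne⟩ := h
    simp only [KerFamily.toHKer_single_apply_of_ne hV _ hw hne, mul_zero, add_zero]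

/-- `X U = U² + q`. -/
theorem iwXAt_mul_iwUAt_one {v : HeightOneSpectrum (𝓞 K)}
    {J : Subgroup PGL(2, v.adicCompletion K)} (hJ : J = pglIwahori v) :
    iwXAt hJ * iwUAt hJ 1
      = (1 : ℂ) • iwUAt hJ 2 + (Ideal.absNorm v.asIdeal : ℂ) • 1 := by
  have h := iwXAt_pow_mul_iwUAt hJ (j := 1) (n := 1) le_rfl
  simp [Finset.sum_range_succ, iwUAt_zero] at h
  rw [h, one_smul, add_comm]

/-- The relation on cusp classes given the one at a place. -/
theorem cuspOp_relation {V : ∀ v : HeightOneSpectrum (𝓞 K),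
    Subgroup (GL (Fin 2) (v.adicCompletion K))} (hV : IsLocalLevel V)
    [Countable (Yf (productLevel V))] {D : QuotData Φ (productLevel V)} (k : ι → PPKer)
    {v : HeightOneSpectrum (𝓞 K)} {x u u2 : LKer PGL(2, v.adicCompletion K) (LocY V v)} {q : ℂ}
    (h : x * u = (1 : ℂ) • u2 + q • 1) {a b c : KerFamily V}
    (ha : a = KerFamily.single v (x * u)) (hb : b = KerFamily.single v u2)
    (hc : c = KerFamily.one V) :
    cuspOp D k (a.toHKer hV) = cuspOp D k (b.toHKer hV) + q • cuspOp D k (c.toHKer hV) := by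
  subst ha hb hc
  rw [h, ← KerFamily.single_one' v,
    cuspOp_lin k (KerFamily.toHKer_single_lin hV v _ _ _ _), one_smul ℂ]

end Kernel

section Joint

variable {E : Type*} [NormedAddCommGroup E] [InnerProductSpace ℂ E] [CompleteSpace E]
  {J : Type*} {P A : E →L[ℂ] E} {T : J → E →L[ℂ] E} {m : ℝ} {L : J → ℝ}

omit [CompleteSpace E] in
theorem mapsTo_jointSpace (hP : Commute A P) (hT : ∀ j, Commute A (T j)) :
    Set.MapsTo A (jointSpace P T (m, L)) (jointSpace P T (m, L)) := by
  intro v hv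
  obtain ⟨h1, h2⟩ := mem_jointSpace.1 hv
  have key : ∀ {B : E →L[ℂ] E} {c : ℂ}, Commute A B → B v = c • v → B (A v) = c • A v := by
    intro B c h ha
    rw [show B (A v) = A (B v) from (congrArg (fun f : E →L[ℂ] E => f v) h.eq).symm, ha, map_smul]
  exact mem_jointSpace.2 ⟨key hP h1, fun j => key (hT j) (h2 j)⟩

theorem finiteDimensional_joint (hc : IsCompactOperator P) (hm : m ≠ 0) :
    FiniteDimensional ℂ (jointSpace P T (m, L)) :=
  have := ContinuousLinearMap.finite_dimensional_eigenspace hc (m : ℂ)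
    (Complex.ofReal_ne_zero.mpr hm)
  Submodule.finiteDimensional_of_le (inf_le_left :
    jointSpace P T (m, L) ≤ Module.End.eigenspace (P : Module.End ℂ E) (m : ℂ))

/-- `A / m` on a joint space. -/
def scaledEnd (hP : Commute A P) (hT : ∀ j, Commute A (T j)) :
    Module.End ℂ (jointSpace P T (m, L)) :=
  (m : ℂ)⁻¹ • (A : E →ₗ[ℂ] E).restrict (mapsTo_jointSpace (m := m) (L := L) hP hT)

omit [CompleteSpace E] in
theorem coe_scaledEnd (hP : Commute A P) (hT : ∀ j, Commute A (T j))
    (v : jointSpace P T (m, L)) :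
    ((scaledEnd hP hT v : jointSpace P T (m, L)) : E) = (m : ℂ)⁻¹ • A v := rfl

omit [CompleteSpace E] in
theorem scaledEnd_relation (hm : m ≠ 0) (hP : Commute A P) (hT : ∀ j, Commute A (T j)) {j : J}
    {q : ℝ} (h : T j * A = A * A + (q : ℂ) • (P * P)) :
    scaledEnd (m := m) (L := L) hP hT * scaledEnd hP hT
        - ((L j / m : ℝ) : ℂ) • scaledEnd hP hT
        + (q : ℂ) • (1 : Module.End ℂ (jointSpace P T (m, L))) = 0 := by
  refine LinearMap.ext fun v => Subtype.ext ?_
  obtain ⟨h1, -⟩ := mem_jointSpace.1 v.2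
  obtain ⟨-, h2⟩ := mem_jointSpace.1 (mapsTo_jointSpace hP hT v.2)
  have hv : T j (A v) = A (A v) + (q : ℂ) • P (P v) :=
    congrArg (fun f : E →L[ℂ] E => f (v : E)) h
  rw [h1, map_smul, h1, h2 j] at hv
  simp only [LinearMap.add_apply, LinearMap.sub_apply, LinearMap.smul_apply, Module.End.mul_apply,
    Module.End.one_apply, Submodule.coe_add, AddSubgroupClass.coe_sub, Submodule.coe_smul,
    coe_scaledEnd, map_smul, LinearMap.zero_apply, Submodule.coe_zero,
    eq_sub_of_add_eq hv.symm, smul_smul, smul_sub]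
  have hm' : (m : ℂ) ≠ 0 := Complex.ofReal_ne_zero.mpr hm
  push_cast
  field_simp
  module

omit [CompleteSpace E] in
theorem commute_scaledEnd {A' : E →L[ℂ] E} (hP : Commute A P) (hT : ∀ j, Commute A (T j))
    (hP' : Commute A' P) (hT' : ∀ j, Commute A' (T j)) (h : Commute A A') :
    Commute (scaledEnd (m := m) (L := L) hP hT) (scaledEnd hP' hT') := by
  refine LinearMap.ext fun v => Subtype.ext ?_
  simp only [Module.End.mul_apply, coe_scaledEnd, map_smul]
  rw [show A (A' v) = A' (A v) from congrArg (fun f : E →L[ℂ] E => f (v : E)) h.eq]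

/-- Three commuting operators with the quadratic relation, on a vector of a joint space. -/
theorem isSpectralPoint_of_joint (hc : IsCompactOperator P) (hm : m ≠ 0) {A₁ A₂ A₃ : E →L[ℂ] E}
    (p₁ : Commute A₁ P) (t₁ : ∀ j, Commute A₁ (T j)) (p₂ : Commute A₂ P)
    (t₂ : ∀ j, Commute A₂ (T j)) (p₃ : Commute A₃ P) (t₃ : ∀ j, Commute A₃ (T j))
    (h₁₂ : Commute A₁ A₂) (h₁₃ : Commute A₁ A₃) (h₂₃ : Commute A₂ A₃) {j₁ j₂ j₃ : J} {l q B : ℝ}
    (l₁ : L j₁ = l) (l₂ : L j₂ = l) (l₃ : L j₃ = l) (hq : 0 < q) (hx : |l / m| ≤ B)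
    (r₁ : T j₁ * A₁ = A₁ * A₁ + (q : ℂ) • (P * P))
    (r₂ : T j₂ * A₂ = A₂ * A₂ + (q : ℂ) • (P * P))
    (r₃ : T j₃ * A₃ = A₃ * A₃ + (q : ℂ) • (P * P))
    {v : E} (hv0 : v ≠ 0) (hv : v ∈ jointSpace P T (m, L)) {ω : ℂ}
    (hω : A₁ (A₂ (A₃ v)) = ((m : ℂ) ^ 3 * ω) • v) :
    IsSpectralPoint (Real.sqrt q ^ 3) ((B + Real.sqrt q) ^ 3) ω := by
  have := finiteDimensional_joint (T := T) (L := L) hc hm
  refine isSpectralPoint_triple (V := jointSpace P T (m, L))
    (commute_scaledEnd p₁ t₁ p₂ t₂ h₁₂) (commute_scaledEnd p₁ t₁ p₃ t₃ h₁₃)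
    (commute_scaledEnd p₂ t₂ p₃ t₃ h₂₃) hq hx (l₁ ▸ scaledEnd_relation hm p₁ t₁ r₁)
    (l₂ ▸ scaledEnd_relation hm p₂ t₂ r₂) (l₃ ▸ scaledEnd_relation hm p₃ t₃ r₃)
    (Module.End.hasEigenvalue_of_hasEigenvector (x := ⟨v, hv⟩)
      ⟨Module.End.mem_eigenspace_iff.2 (Subtype.ext ?_), fun h => hv0 (congrArg Subtype.val h)⟩)
  have hm' : (m : ℂ) ≠ 0 := Complex.ofReal_ne_zero.mpr hm
  simp only [Module.End.mul_apply, coe_scaledEnd, map_smul, hω, smul_smul, Submodule.coe_smul]
  congr 1
  field_simp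

theorem exists_eigen_of_commute (hc : IsCompactOperator P) (hm : m ≠ 0) {v : E} (hv0 : v ≠ 0)
    (hv : v ∈ jointSpace P T (m, L)) (hP : Commute A P) (hT : ∀ j, Commute A (T j)) :
    ∃ (e : E) (μ : ℂ), e ≠ 0 ∧ e ∈ jointSpace P T (m, L) ∧ A e = μ • e := by
  have := finiteDimensional_joint (T := T) (L := L) hc hm
  have : Nontrivial (jointSpace P T (m, L)) :=
    ⟨⟨v, hv⟩, 0, fun h => hv0 (congrArg Subtype.val h)⟩
  obtain ⟨μ, hμ⟩ := Module.End.exists_eigenvalue
    ((A : E →ₗ[ℂ] E).restrict (mapsTo_jointSpace (m := m) (L := L) hP hT))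
  obtain ⟨e, he⟩ := hμ.exists_hasEigenvector
  exact ⟨e, μ, fun h => he.2 (Subtype.ext h), e.2,
    congrArg Subtype.val (Module.End.mem_eigenspace_iff.1 he.1)⟩

end Joint

variable {K : Type*} [Field K] [NumberField K] {K' : Type*} [Field K'] [NumberField K']
  [Algebra K K'] {Φ : Frame K Unit} {Φ' : Frame K' (Fin 3)} {tw : CubicTwist Φ Φ'}

namespace DescentData

variable (D : DescentData tw)

/-- Base kernels with a given finite part downstairs. -/
def specFamOp (k : KerFamily D.lev.loc) : cuspClasses D.quot →L[ℂ] cuspClasses D.quot :=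
  (D.withFam k (KerFamily.one _)).op

/-- Base kernels with a given finite part upstairs. -/
def specFamOp' (k : KerFamily D.lev'.loc) : cuspClasses D.quot' →L[ℂ] cuspClasses D.quot' :=
  (D.withFam (KerFamily.one _) k).op'

theorem specFamOp_mul (k l : KerFamily D.lev.loc) :
    D.specFamOp k * D.specFamOp l = cuspOp D.quot
      (fun _ => PPKer.comp (comp3 fun _ => baseKer) (comp3 fun _ => baseKer))
      ((k.comp l).toHKer D.isLocal) := by
  rw [specFamOp, specFamOp, ← TestPair.op_comp]; rfl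

theorem specFamOp'_mul (k l : KerFamily D.lev'.loc) :
    D.specFamOp' k * D.specFamOp' l = cuspOp D.quot' (fun _ => PPKer.comp baseKer baseKer)
      ((k.comp l).toHKer D.isLocal') := by
  rw [specFamOp', specFamOp', ← TestPair.op'_comp]; rfl

theorem commute_famOp {k l : KerFamily D.lev.loc} (h : k.comp l = l.comp k) :
    Commute (D.specFamOp k) (D.specFamOp l) := TestPair.commute_op _ _ h

theorem commute_famOp' {k l : KerFamily D.lev'.loc} (h : k.comp l = l.comp k) :
    Commute (D.specFamOp' k) (D.specFamOp' l) := TestPair.commute_op' _ _ h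

theorem specFamOp_mul3 (a b c : KerFamily D.lev.loc) (a' b' c' : KerFamily D.lev.loc)
    (h : (a.comp b).comp c = (a'.comp b').comp c') :
    D.specFamOp a * D.specFamOp b * D.specFamOp c = D.specFamOp a' * D.specFamOp b' * D.specFamOp c' := by
  simp only [specFamOp, ← TestPair.op_comp]
  exact cuspOp_congr (fun _ _ _ => rfl) fun y z => by
    show ((a.comp b).comp c).toHKer D.isLocal y z = ((a'.comp b').comp c').toHKer D.isLocal y z
    rw [h]

theorem specFamOp'_mul3 (a b c : KerFamily D.lev'.loc) (a' b' c' : KerFamily D.lev'.loc)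
    (h : (a.comp b).comp c = (a'.comp b').comp c') :
    D.specFamOp' a * D.specFamOp' b * D.specFamOp' c = D.specFamOp' a' * D.specFamOp' b' * D.specFamOp' c' := by
  simp only [specFamOp', ← TestPair.op'_comp]
  exact cuspOp_congr (fun _ _ _ => rfl) fun y z => by
    show ((a.comp b).comp c).toHKer D.isLocal' y z = ((a'.comp b').comp c').toHKer D.isLocal' y z
    rw [h]

/-- `X U = U² + q P²` downstairs. -/
theorem specFamOp_relation :
    D.specFamOp D.auxX * D.specFamOp (KerFamily.single D.u (D.uKer 1))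
      = D.specFamOp (KerFamily.single D.u (D.uKer 1)) * D.specFamOp (KerFamily.single D.u (D.uKer 1))
        + (((Ideal.absNorm D.u.asIdeal : ℝ) : ℂ)) • (D.specFamOp (KerFamily.one _) *
          D.specFamOp (KerFamily.one _)) := by
  rw [specFamOp_mul, specFamOp_mul, specFamOp_mul, Complex.ofReal_natCast]
  refine cuspOp_relation D.isLocal _ (iwXAt_mul_iwUAt_one D.map_loc_u) ?_ ?_
    (KerFamily.comp_one' _)
  · rw [auxX, KerFamily.single_comp_single_same]; rfl
  · rw [KerFamily.single_comp_single_same]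
    exact congrArg (KerFamily.single D.u) (D.uKer_mul 1 1)

/-- `X U = U² + q P²` at a place over `u`. -/
theorem specFamOp'_relation {w : HeightOneSpectrum (𝓞 K')} (hw : IsAbove D.u w) :
    D.specFamOp' (D.auxX' w) * D.specFamOp' (KerFamily.single w (D.uKer' hw 1))
      = D.specFamOp' (KerFamily.single w (D.uKer' hw 1)) * D.specFamOp' (KerFamily.single w (D.uKer' hw 1))
        + (((Ideal.absNorm D.u.asIdeal : ℝ) : ℂ)) • (D.specFamOp' (KerFamily.one _) *
          D.specFamOp' (KerFamily.one _)) := by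
  rw [specFamOp'_mul, specFamOp'_mul, specFamOp'_mul, Complex.ofReal_natCast, ← D.absNorm_above hw]
  refine cuspOp_relation D.isLocal' _ (iwXAt_mul_iwUAt_one (D.map_loc'_of_above hw)) ?_ ?_
    (KerFamily.comp_one' _)
  · rw [auxX', dif_pos hw, KerFamily.single_comp_single_same]; rfl
  · rw [KerFamily.single_comp_single_same]
    exact congrArg (KerFamily.single w) (D.uKer'_mul hw 1 1)

theorem auxX_comp_single :
    D.auxX.comp (KerFamily.single D.u (D.uKer 1))
      = (KerFamily.single D.u (D.uKer 1)).comp D.auxX := by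
  rw [auxX, KerFamily.single_comp_single_same, KerFamily.single_comp_single_same]
  exact congrArg (KerFamily.single D.u) (D.commute_xKer_uKer 1).eq

theorem one_comp_comm {L : Type*} [Field L] [NumberField L] {V : ∀ v : HeightOneSpectrum (𝓞 L),
    Subgroup (GL (Fin 2) (v.adicCompletion L))} (k : KerFamily V) :
    k.comp (KerFamily.one V) = (KerFamily.one V).comp k :=
  KerFamily.ext' fun v => (LKer.comp_one (k.ker v)).trans (LKer.one_comp (k.ker v)).symm

theorem aux_comp_single' {w x : HeightOneSpectrum (𝓞 K')} (hw : IsAbove D.u w)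
    (hx : IsAbove D.u x) :
    (KerFamily.single w (D.uKer' hw 1)).comp (D.auxX' x)
      = (D.auxX' x).comp (KerFamily.single w (D.uKer' hw 1)) := by
  rw [auxX', dif_pos hx]
  rcases eq_or_ne w x with rfl | h
  · rw [KerFamily.single_comp_single_same, KerFamily.single_comp_single_same]
    exact congrArg (KerFamily.single w) (D.commute_xKer'_uKer' hw 1).eq.symm
  · exact KerFamily.single_comp_comm h _ _

theorem absNorm_u_pos : (0 : ℝ) < (Ideal.absNorm D.u.asIdeal : ℝ) := by
  exact_mod_cast Nat.pos_of_ne_zero fun h => D.u.ne_bot (Ideal.absNorm_eq_zero_iff.1 h)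

/-- The constraint downstairs, for a bound on the row sums of `X`. -/
theorem isSpectralPoint_down {B : ℝ}
    (hB : ∀ (y : Yf (productLevel D.lev.loc)) (s : Finset (Yf (productLevel D.lev.loc))),
      ∑ z ∈ s, ‖D.auxX.toHKer D.isLocal y z‖ ≤ B)
    {m l : ℝ} {v : cuspClasses D.quot} {ω : ℂ} (hm : m ≠ 0) (hv0 : v ≠ 0)
    (hP : D.base.op v = (m : ℂ) • v) (hX : (D.atom .aux).op v = (l : ℂ) • v)
    (hR : (D.upow 1).op v = ((m : ℂ) * ω) • v) :
    IsSpectralPoint (Real.sqrt (Ideal.absNorm D.u.asIdeal) ^ 3)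
      ((B + Real.sqrt (Ideal.absNorm D.u.asIdeal)) ^ 3) ω := by
  change D.specFamOp (KerFamily.one _) v = (m : ℂ) • v at hP
  change D.specFamOp D.auxX v = (l : ℂ) • v at hX
  change D.specFamOp (D.auxU 1) v = ((m : ℂ) * ω) • v at hR
  set P := D.specFamOp (KerFamily.one D.lev.loc) with hPdef
  set T : Unit → cuspClasses D.quot →L[ℂ] cuspClasses D.quot := fun _ => D.specFamOp D.auxX with hT
  set A := D.specFamOp (KerFamily.single D.u (D.uKer 1))
  have hc : IsCompactOperator P := D.isCompactOperator_op_base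
  have hv : v ∈ jointSpace P T (m, fun _ => l) := mem_jointSpace.2 ⟨hP, fun _ => hX⟩
  -- the bound
  have cP : Commute D.baseRoot P := by
    show Commute D.baseRoot D.base.op
    rw [op_base]
    exact (Commute.refl _).mul_right ((Commute.refl _).mul_right (Commute.refl _))
  have cT : ∀ j : Unit, Commute D.baseRoot (T j) := fun _ =>
    cuspOp_commute _ _ fun y z => (HKer.comp_id_comm _ y z).symm
  obtain ⟨e, μ, he0, he, heμ⟩ := exists_eigen_of_commute hc hm hv0 hv cP cT
  obtain ⟨he1, he2⟩ := mem_jointSpace.1 he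
  have hμ : μ ≠ 0 := by
    rintro rfl
    have h0 : D.base.op e = 0 := by
      rw [op_base]; show D.baseRoot (D.baseRoot (D.baseRoot e)) = 0; simp [heμ]
    exact hm (Complex.ofReal_eq_zero.1 ((smul_eq_zero.1 (he1.symm.trans h0)).resolve_right he0))
  have hid : cuspOp D.quot (fun _ => comp3 fun _ => baseKer) (HKer.id _) e = (m : ℂ) • e := by
    rw [← D.ker_base]; exact he1
  have hbd := norm_eigen_le isLipKernel_baseKer hμ he0 heμ _ hB hid (he2 ())
  rw [Complex.norm_real, Complex.norm_real, Real.norm_eq_abs, Real.norm_eq_abs] at hbd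
  have hx : |l / m| ≤ B := by
    rw [abs_div, div_le_iff₀ (abs_pos.2 hm)]; exact hbd
  -- the relation and the eigenvector
  have aP : Commute A P := D.commute_famOp (one_comp_comm _)
  have aT : ∀ j : Unit, Commute A (T j) := fun _ => D.commute_famOp D.auxX_comp_single.symm
  refine isSpectralPoint_of_joint hc hm aP aT aP aT aP aT (Commute.refl A) (Commute.refl A)
    (Commute.refl A) (j₁ := ()) (j₂ := ()) (j₃ := ()) rfl rfl rfl D.absNorm_u_pos hx
    D.specFamOp_relation D.specFamOp_relation D.specFamOp_relation hv0 hv ?_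
  have h3 : A (A (A v)) = D.specFamOp (D.auxU 1) (P (P v)) := by
    refine congrArg (fun f : cuspClasses D.quot →L[ℂ] cuspClasses D.quot => f v)
      (D.specFamOp_mul3 _ _ _ (D.auxU 1) (KerFamily.one _) (KerFamily.one _) ?_)
    rw [KerFamily.comp_one', KerFamily.comp_one', KerFamily.single_comp_single_same,
      KerFamily.single_comp_single_same, auxU, ← LKer.mul_def, ← LKer.mul_def, uKer_mul, uKer_mul]
  rw [hP, map_smul, hP, map_smul, map_smul, hR, smul_smul, smul_smul] at h3
  rw [h3]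
  exact congrArg (· • v) (by ring)

/-- The constraint upstairs, for a bound on the row sums of `X`. -/
theorem isSpectralPoint_up {B : ℝ}
    (hB : ∀ (y : Yf (productLevel D.lev'.loc)) (s : Finset (Yf (productLevel D.lev'.loc))),
      ∑ z ∈ s, ‖(D.auxX' D.uAbove).toHKer D.isLocal' y z‖ ≤ B)
    {m : ℝ} {L : D.AtomIdx' → ℝ} {v : cuspClasses D.quot'} {ω : ℂ} (hm : m ≠ 0) (hv0 : v ≠ 0)
    (hP : D.base.op' v = (m : ℂ) • v) (hL : ∀ j, L (D.atomPerm j) = L j)
    (hX : ∀ j, D.atomOp' j v = (L j : ℂ) • v)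
    (hR : (D.upow 1).op' v = ((m : ℂ) * ω) • v) :
    IsSpectralPoint (Real.sqrt (Ideal.absNorm D.u.asIdeal) ^ 3)
      ((B + Real.sqrt (Ideal.absNorm D.u.asIdeal)) ^ 3) ω := by
  change D.specFamOp' (KerFamily.one _) v = (m : ℂ) • v at hP
  change D.specFamOp' (D.auxU' 1) v = ((m : ℂ) * ω) • v at hR
  set S := {w : HeightOneSpectrum (𝓞 K') // IsAbove D.u w}
  set P := D.specFamOp' (KerFamily.one D.lev'.loc)
  set T : S → cuspClasses D.quot' →L[ℂ] cuspClasses D.quot' :=
    fun w => D.specFamOp' (D.auxX' w.1) with hT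
  set A : S → cuspClasses D.quot' →L[ℂ] cuspClasses D.quot' :=
    fun w => D.specFamOp' (KerFamily.single w.1 (D.uKer' w.2 1)) with hA
  have hc : IsCompactOperator P := D.isCompactOperator_op'_base
  -- the three places and their common eigenvalue
  obtain ⟨w₁, hw₁⟩ : ∃ w : S, w = D.uAbove := ⟨_, rfl⟩
  have Pl := D.splitPlace_of_above w₁.2
  set w₂ : S := ⟨_, Pl.next.above⟩ with hw₂
  set w₃ : S := ⟨_, Pl.next.next.above⟩ with hw₃
  have l3 : L (.aux w₃) = L (.aux w₁) := hL (.aux w₁)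
  have l2 : L (.aux w₂) = L (.aux w₁) := by
    refine Eq.trans ?_ ((hL (.aux w₃)).trans l3)
    refine congrArg (fun w => L (.aux w)) (Subtype.ext ?_)
    exact (congrArg (placePerm tw.σ.toRingEquiv) (Places.placePerm_cube D.gen w₁.1)).symm
  set Lx : S → ℝ := fun w => L (.aux w) with hLx
  have hv : v ∈ jointSpace P T (m, Lx) := mem_jointSpace.2 ⟨hP, fun w => hX (.aux w)⟩
  have hid : cuspOp D.quot' (fun _ : Fin 3 => baseKer) (HKer.id _) v = (m : ℂ) • v := by
    rw [← D.op'_base]; exact hP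
  have hX1 : cuspOp D.quot' (fun _ : Fin 3 => baseKer)
      ((D.auxX' D.uAbove).toHKer D.isLocal') v = ((L (.aux w₁) : ℝ) : ℂ) • v := by
    rw [hw₁]; exact hX (.aux D.uAbove)
  have hbd := norm_eigen_le isLipKernel_baseKer (Complex.ofReal_ne_zero.mpr hm) hv0 hid _ hB hid hX1
  rw [Complex.norm_real, Complex.norm_real, Real.norm_eq_abs, Real.norm_eq_abs] at hbd
  have hx : |L (.aux w₁) / m| ≤ B := by
    rw [abs_div, div_le_iff₀ (abs_pos.2 hm)]; exact hbd
  -- commutation and relations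
  have aP : ∀ w : S, Commute (A w) P := fun w => D.commute_famOp' (one_comp_comm _)
  have aT : ∀ (w j : S), Commute (A w) (T j) := fun w j =>
    D.commute_famOp' (D.aux_comp_single' w.2 j.2)
  have aA : ∀ w x : S, w.1 ≠ x.1 → Commute (A w) (A x) := fun w x h =>
    D.commute_famOp' (KerFamily.single_comp_comm h _ _)
  have n21 : w₂.1 ≠ w₁.1 := Pl.moved
  have n31 : w₃.1 ≠ w₁.1 := Pl.moved_twice
  have n32 : w₃.1 ≠ w₂.1 := Pl.next.moved
  refine isSpectralPoint_of_joint hc hm (aP w₁) (aT w₁) (aP w₂) (aT w₂) (aP w₃) (aT w₃)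
    (aA _ _ n21.symm) (aA _ _ n31.symm) (aA _ _ n32.symm) (j₁ := w₁) (j₂ := w₂) (j₃ := w₃)
    (L := Lx) rfl l2 l3 D.absNorm_u_pos hx (D.specFamOp'_relation w₁.2) (D.specFamOp'_relation w₂.2)
    (D.specFamOp'_relation w₃.2) hv0 hv ?_
  have h3 : A w₁ (A w₂ (A w₃ v)) = D.specFamOp' (D.auxU' 1) (P (P v)) := by
    refine congrArg (fun f : cuspClasses D.quot' →L[ℂ] cuspClasses D.quot' => f v)
      (D.specFamOp'_mul3 _ _ _ (D.auxU' 1) (KerFamily.one _) (KerFamily.one _) ?_)
    rw [KerFamily.comp_one', KerFamily.comp_one']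
    refine KerFamily.ext' fun x => ?_
    show (((KerFamily.single w₁.1 _).ker x).comp ((KerFamily.single w₂.1 _).ker x)).comp
      ((KerFamily.single w₃.1 _).ker x) = _
    by_cases hx' : IsAbove D.u x
    · rw [D.auxU'_ker_above 1 hx']
      rcases eq_or_eq_of_isAbove D.gen w₁.2 hx' with rfl | rfl | rfl
      · rw [KerFamily.single_ker_self, KerFamily.single_ker_ne n21.symm,
          KerFamily.single_ker_ne n31.symm, LKer.comp_one, LKer.comp_one]
      · rw [KerFamily.single_ker_ne n21, KerFamily.single_ker_self,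
          KerFamily.single_ker_ne n32.symm, LKer.comp_one, LKer.one_comp]
      · rw [KerFamily.single_ker_ne n31, KerFamily.single_ker_ne n32, KerFamily.single_ker_self,
          LKer.one_comp, LKer.one_comp]
    · have hne : ∀ w : S, x ≠ w.1 := fun w h => hx' (h ▸ w.2)
      rw [KerFamily.single_ker_ne (hne _), KerFamily.single_ker_ne (hne _),
        KerFamily.single_ker_ne (hne _), D.auxU'_ker_of_not_above 1 hx', LKer.one_comp,
        LKer.one_comp]
      rfl
  rw [hP, map_smul, hP, map_smul, map_smul, hR, smul_smul, smul_smul] at h3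
  rw [h3]
  exact congrArg (· • v) (by ring)

/-- **The spectra of the two sides lie on the same real line and circle.** -/
theorem exists_spectrum : ∃ ρ r : ℝ, 0 < ρ ∧
    (∀ (m : ℝ) (L : D.AtomIdx → ℝ) (v : cuspClasses D.quot) (ω : ℂ), m ≠ 0 → v ≠ 0 →
      D.base.op v = (m : ℂ) • v → (∀ j, (D.atom j).op v = (L j : ℂ) • v) →
      (D.upow 1).op v = ((m : ℂ) * ω) • v → IsSpectralPoint ρ r ω) ∧
    (∀ (m : ℝ) (L : D.AtomIdx' → ℝ) (v : cuspClasses D.quot') (ω : ℂ), m ≠ 0 → v ≠ 0 →
      D.base.op' v = (m : ℂ) • v → (∀ j, L (D.atomPerm j) = L j) →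
      (∀ j, D.atomOp' j v = (L j : ℂ) • v) →
      (D.upow 1).op' v = ((m : ℂ) * ω) • v → IsSpectralPoint ρ r ω) := by
  obtain ⟨M, hM⟩ := (D.auxX.toHKer D.isLocal).exists_rowSum_real
  obtain ⟨M', hM'⟩ := ((D.auxX' D.uAbove).toHKer D.isLocal').exists_rowSum_real
  exact ⟨_, _, pow_pos (Real.sqrt_pos.2 D.absNorm_u_pos) 3,
    fun m L v ω hm hv hP hX hR => D.isSpectralPoint_down (B := max M M')
      (fun y s => (hM y s).trans (le_max_left _ _)) hm hv hP (hX .aux) hR,
    fun m L v ω hm hv hP hL hX hR => D.isSpectralPoint_up (B := max M M')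
      (fun y s => (hM' y s).trans (le_max_right _ _)) hm hv hP hL hX hR⟩

end DescentData

end Fermat.Agent.LT.Descent

end
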