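/-
The class of the target upstairs has a nonzero twisted trace against some matched pair living at
the places over `3`.
-/
import Fermat.Agent.LT.Descent.TargetIwahori
import Fermat.Agent.LT.Descent.TargetMap
import Fermat.Agent.LT.Descent.TargetSurj

set_option autoImplicit false

noncomputable section

namespace Fermat.Agent.LT.Descent

open IsDedekindDomain IsDedekindDomain.HeightOneSpectrum Matrix NumberField Module
open Fermat.Agent.LT.Adelic Fermat.Agent.LT.Aleph Fermat.Agent.LT.Tame Fermat.Agent.LT.Spectral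
open Fermat.Agent.LT.Descent.Places
open scoped MatrixGroups

namespace DescentData

variable {K : Type*} [Field K] [NumberField K] {K' : Type*} [Field K'] [NumberField K']
  [Algebra K K'] {Φ : Frame K Unit} {Φ' : Frame K' (Fin 3)} {tw : CubicTwist Φ Φ'}
  (D : DescentData tw)

/-! ### The pair over `3` -/

/-- A split place over a place over `3`. -/
theorem splitPlace_three {v : HeightOneSpectrum (𝓞 K)} (hv : v ∈ threePlaces K) :
    SplitPlace tw.σ v (D.aboveOf v) :=
  ⟨D.gen.order_three, D.gen.fixed, D.isAbove_aboveOf v,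
    D.three_split v hv _ (D.isAbove_aboveOf v)⟩

open Classical in
/-- The product below of a family upstairs at the places over `3`, and one elsewhere. -/
def threeBelow (k' : KerFamily D.lev'.loc) : KerFamily D.lev.loc where
  ker v := if h : v ∈ threePlaces K then
      (D.splitPlace_three h).pullKer (D.isSplitLevel (D.three_split v h)) (k'.ker _) *
        ((D.splitPlace_three h).next.pullKer (D.isSplitLevel (D.three_split v h)) (k'.ker _) *
          (D.splitPlace_three h).next.next.pullKer (D.isSplitLevel (D.three_split v h)) (k'.ker _))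
    else 1
  eventually_one := (finite_threePlaces (K := K)).compl_mem_cofinite |>
    Filter.mem_of_superset <| fun v hv => dif_neg hv

theorem isThreePart_threeBelow {k' : KerFamily D.lev'.loc}
    (h : ∀ w ∉ threePlaces K', k'.ker w = 1) : D.IsThreePart (D.threeBelow k') k' where
  off _ hv := dif_neg hv
  off' := h
  matched v := by
    by_cases hv : v ∈ threePlaces K
    · exact ⟨fun ht => absurd hv ht.1, fun hi => absurd (D.three_split v hv) hi.not_isSplit,
        fun _ => ⟨_, D.splitPlace_three hv, dif_pos hv⟩⟩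
    · exact IsTrivialAt.isMatchedAt ⟨dif_neg hv, fun w hw =>
        h w fun hw3 => hv ((mem_threePlaces_iff hw).1 hw3)⟩

/-- The local matrices of an element over `3`. -/
def threeFam (g : gfSupported (bad' (tw := tw))) : KerFamily D.lev'.loc :=
  KerFamily.ofDoubleCoset D.isLocal' D.lev'.isLevel (g : GfK K')

theorem threeFam_off {g : gfSupported (bad' (tw := tw))} (hg : g ∈ D.threePart)
    {w : HeightOneSpectrum (𝓞 K')} (hw : w ∉ threePlaces K') : (D.threeFam g).ker w = 1 := by
  have h1 : localGL K' w (g : GfK K') = 1 := by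
    by_cases hb : w ∈ bad' (tw := tw)
    · exact hg w (hb.resolve_left hw)
    · exact g.2 w hb
  have hmem : localPGL w (g : GfK K') ∈ (D.lev'.loc w).map ProjGenLinGroup.mk := by
    rw [localPGL, MonoidHom.comp_apply, h1, map_one]
    exact one_mem _
  refine LKer.ext' fun a c => ?_
  simp only [threeFam, KerFamily.ofDoubleCoset]
  rw [LKer.ofNbrs_apply, cosetNbrs_of_mem hmem, LKer.one_def]
  by_cases h : a = c
  · subst h
    rw [Set.indicator_of_mem (Set.mem_singleton a), LKer.one_apply_self]
    rfl
  · rw [Set.indicator_of_notMem (by rwa [Set.mem_singleton_iff, eq_comm]), LKer.one_apply_ne h]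

/-- The finite part of the pair of an element over `3`. -/
theorem threeFam_toHKer (g : gfSupported (bad' (tw := tw))) :
    (D.threeFam g).toHKer D.isLocal' = HKer.ofDoubleCoset D.quot'.level (g : GfK K') :=
  (ofDoubleCoset_eq_toHKer D.isLocal' D.lev'.isLevel _).symm

theorem nbrs_ncard_ne_zero (g : GfK K') :
    ((nbrs g ((1 : GfK K') : Yf (productLevel D.lev'.loc))).ncard : ℂ) ≠ 0 := by
  refine Nat.cast_ne_zero.2 (Set.ncard_ne_zero_of_mem
    (a := ((1 * 1 * g : GfK K') : Yf (productLevel D.lev'.loc))) ?_ (finite_nbrs D.lev'.isLevel _ _))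
  rw [nbrs_mk]
  exact ⟨1, one_mem _, rfl⟩

/-- The pair of an element over `3` on the target classes. -/
theorem op'_threeFam_targetClass {e : D.forms →ₗ[ℂ] D.forms}
    (hJ : IsLevelProj D.formsRep e D.target)
    (he : ∀ φ H, IsStab D.formsRep D.targetGroup H φ → e φ = avgOver D.formsRep D.targetGroup H φ)
    (k : KerFamily D.lev.loc) (g : gfSupported (bad' (tw := tw))) (φ : D.target) :
    (D.withFam k (D.threeFam g)).op' (D.targetClass φ) =
      ((targetMu : ℂ) * ((nbrs (g : GfK K') ((1 : GfK K') :
          Yf (productLevel D.lev'.loc))).ncard : ℂ)) • D.targetClass (levelOp hJ g φ) := by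
  show cuspOp D.quot' (fun _ => baseKer) ((D.threeFam g).toHKer D.isLocal') (D.targetClass φ) = _
  rw [D.threeFam_toHKer g]
  refine (D.cuspOp_threePart_target hJ he (fun _ => baseProfile)
    (fun _ => lipschitzWith_baseProfile.continuous) (fun _ => hasCompactSupport_baseProfile)
    g φ).trans ?_
  rw [Finset.prod_const, Finset.card_univ, Fintype.card_fin, targetMu, Complex.ofReal_pow,
    coe_baseHat, baseKer]

/-! ### The twist and the three places -/

theorem finiteDimensional_targetSpace : FiniteDimensional ℂ D.targetSpace :=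
  (hasCuspBound_of_lip (D := D.quot') isLipKernel_baseKer (HKer.id _)).finiteDimensional_eigen
    (Complex.ofReal_ne_zero.2 targetMu_ne_zero) D.targetSpace fun e he => by
      rw [← op'_base, D.base_op'_apply_target he]

theorem commute_op'_placeOp {k : KerFamily D.lev.loc} {k' : KerFamily D.lev'.loc}
    (hk : ∀ w ∉ threePlaces K', k'.ker w = 1) {w : HeightOneSpectrum (𝓞 K')}
    (h : IsAbove D.u w) (l : LKer PGL(2, w.adicCompletion K') (LocY D.lev'.loc w)) :
    Commute (D.withFam k k').op' (D.placeOp w l) :=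
  (commute_singleOp_cuspOp D.isLocal' _ _ w l (g := k') (by
    rw [hk w fun h3 => D.u_three ((mem_threePlaces_iff h).1 h3)]
    exact Commute.one_left l)).symm

/-- An operator intertwining two matrices intertwines their ends. -/
theorem restrict_mul_placeAlg {A : cuspClasses D.quot' →L[ℂ] cuspClasses D.quot'}
    (hA : Set.MapsTo A D.targetSpace D.targetSpace) {w w' : HeightOneSpectrum (𝓞 K')}
    (h : IsAbove D.u w) (h' : IsAbove D.u w') (l : Subalgebra.centralizer ℂ {D.xKer' h})
    (l' : Subalgebra.centralizer ℂ {D.xKer' h'})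
    (hl : A * D.placeOp w l.1 = D.placeOp w' l'.1 * A) :
    LinearMap.restrict (A : cuspClasses D.quot' →ₗ[ℂ] cuspClasses D.quot') hA * D.placeAlg h l =
      D.placeAlg h' l' *
        LinearMap.restrict (A : cuspClasses D.quot' →ₗ[ℂ] cuspClasses D.quot') hA := by
  refine LinearMap.ext fun e => Subtype.ext ?_
  show A ((targetMu : ℂ)⁻¹ • D.placeOp w l.1 e.1) = (targetMu : ℂ)⁻¹ • D.placeOp w' l'.1 (A e.1)
  rw [map_smul]
  exact congrArg (fun x => (targetMu : ℂ)⁻¹ • x)
    (congrArg (fun f : cuspClasses D.quot' →L[ℂ] cuspClasses D.quot' => f e.1) hl)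

/-- The pair over `3` with the twist moves `t` and `w` to the next place. -/
theorem mul_twist_mul_placeOp {k : KerFamily D.lev.loc} {k' : KerFamily D.lev'.loc}
    (hk : ∀ w ∉ threePlaces K', k'.ker w = 1) {w w' : HeightOneSpectrum (𝓞 K')}
    (h : IsAbove D.u w) (h' : IsAbove D.u w') (e : w' = permTwice (tw := tw) w) :
    ((D.withFam k k').op' * D.twist) * D.placeOp w (D.tMem h).1 =
        D.placeOp w' (D.tMem h').1 * ((D.withFam k k').op' * D.twist) ∧
      ((D.withFam k k').op' * D.twist) * D.placeOp w (D.wMem h).1 =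
        D.placeOp w' (D.wMem h').1 * ((D.withFam k k').op' * D.twist) := by
  subst e
  have hc := fun l => (D.commute_op'_placeOp (k := k) hk h' l).eq
  exact ⟨by rw [mul_assoc, tMem, tMem, D.twist_mul_placeOp_t h h', ← mul_assoc, hc, mul_assoc],
    by rw [mul_assoc, wMem, wMem, D.twist_mul_placeOp_w h h', ← mul_assoc, hc, mul_assoc]⟩

/-- The spherical part of the target classes. -/
abbrev spherPart : Submodule ℂ D.targetSpace :=
  ⨅ i : ZMod 3, End.eigenspace (D.tEnd (D.isAbove_uPlace i)) (Ideal.absNorm D.u.asIdeal : ℂ)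

/-- The target inside the spherical part. -/
def targetToSpher : D.target →ₗ[ℂ] D.spherPart :=
  LinearMap.codRestrict _ (LinearMap.codRestrict D.targetSpace D.targetClass
    D.targetClass_mem_targetSpace) fun φ => (Submodule.mem_iInf _).2 fun i => by
      refine End.mem_eigenspace_iff.2 (Subtype.ext ?_)
      show (targetMu : ℂ)⁻¹ • D.placeOp (D.uPlace i) (D.tMem (D.isAbove_uPlace i)).1
        (D.targetClass φ) = (Ideal.absNorm D.u.asIdeal : ℂ) • D.targetClass φ
      rw [singleOp_apply, tMem, D.cuspOp_iwT_targetClass φ (D.isAbove_uPlace i), smul_smul,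
        inv_mul_cancel_left₀ (Complex.ofReal_ne_zero.2 targetMu_ne_zero),
        D.absNorm_above (D.isAbove_uPlace i)]

theorem coe_targetToSpher (φ : D.target) :
    ((D.targetToSpher φ : D.spherPart) : D.targetSpace).1 = D.targetClass φ := rfl

theorem bijective_targetToSpher : Function.Bijective D.targetToSpher := by
  refine ⟨fun φ ψ h => D.targetClass_injective ?_, fun x => ?_⟩
  · rw [← D.coe_targetToSpher φ, ← D.coe_targetToSpher ψ, h]
  · have hx := (Submodule.mem_iInf _).1 x.2
    obtain ⟨φ, hφ⟩ := D.exists_targetClass_eq (e := x.1.1) x.1.2 fun w hw => by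
      obtain ⟨i, rfl⟩ := D.exists_uPlace_eq hw
      have h1 := congrArg Subtype.val (End.mem_eigenspace_iff.1 (hx i))
      rw [Submodule.coe_smul] at h1
      rw [D.absNorm_above hw, mul_smul, ← h1]
      exact (smul_inv_smul₀ (Complex.ofReal_ne_zero.2 targetMu_ne_zero) _).symm
    exact ⟨φ, Subtype.ext (Subtype.ext hφ)⟩

theorem trace_eq_trace_of_bijective {R M N : Type*} [CommRing R] [AddCommGroup M] [Module R M]
    [AddCommGroup N] [Module R N] (L : M →ₗ[R] N) (hL : Function.Bijective L) (B : Module.End R N)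
    (C : Module.End R M) (h : ∀ φ, B (L φ) = L (C φ)) :
    LinearMap.trace R N B = LinearMap.trace R M C := by
  have e : B = (LinearEquiv.ofBijective L hL).conj C := LinearMap.ext fun x => by
    obtain ⟨φ, rfl⟩ := (LinearEquiv.ofBijective L hL).surjective x
    rw [LinearEquiv.conj_apply_apply, LinearEquiv.symm_apply_apply]
    exact h φ
  rw [e, LinearMap.trace_conj']

section Pair

variable {k : KerFamily D.lev.loc} {k' : KerFamily D.lev'.loc}
  (h : Set.MapsTo ((D.withFam k k').op' * D.twist) D.targetSpace D.targetSpace)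

/-- The pair followed by the twist, on the target classes. -/
def pairEnd : Module.End ℂ D.targetSpace :=
  LinearMap.restrict (((D.withFam k k').op' * D.twist :
    cuspClasses D.quot' →L[ℂ] cuspClasses D.quot') :
      cuspClasses D.quot' →ₗ[ℂ] cuspClasses D.quot') h

theorem coe_pairEnd (e : D.targetSpace) :
    (D.pairEnd h e : cuspClasses D.quot') = (D.withFam k k').op' (D.twist e.1) := rfl

variable (hk : ∀ w ∉ threePlaces K', k'.ker w = 1)
include hk

theorem pairEnd_mul_tEnd (i : ZMod 3) :
    D.pairEnd h * D.tEnd (D.isAbove_uPlace i) =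
      D.tEnd (D.isAbove_uPlace (i + 1)) * D.pairEnd h :=
  D.restrict_mul_placeAlg h _ _ _ _
    (D.mul_twist_mul_placeOp hk _ _ (D.uPlace_succ i)).1

theorem pairEnd_mul_wEnd (i : ZMod 3) :
    D.pairEnd h * D.wEnd (D.isAbove_uPlace i) =
      D.wEnd (D.isAbove_uPlace (i + 1)) * D.pairEnd h :=
  D.restrict_mul_placeAlg h _ _ _ _
    (D.mul_twist_mul_placeOp hk _ _ (D.uPlace_succ i)).2

theorem mapsTo_pairEnd : Set.MapsTo (D.pairEnd h) D.spherPart D.spherPart :=
  have := D.finiteDimensional_targetSpace
  mapsTo_spherical (Ideal.absNorm D.u.asIdeal : ℂ) (fun i => D.tEnd (D.isAbove_uPlace i))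
    (D.pairEnd h) (D.pairEnd_mul_tEnd h hk)

theorem trace_pairEnd : LinearMap.trace ℂ D.targetSpace (D.pairEnd h) =
    2 * LinearMap.trace ℂ D.spherPart
      (LinearMap.restrict (D.pairEnd h) (D.mapsTo_pairEnd h hk)) := by
  have := D.finiteDimensional_targetSpace
  have hne : ∀ i j, i ≠ j → D.uPlace i ≠ D.uPlace j := fun i j hij he' =>
    hij (D.uPlace_injective he')
  have hc : ∀ (i j : ZMod 3) (l : ∀ i, Subalgebra.centralizer ℂ {D.xKer' (D.isAbove_uPlace i)}),
      Commute (D.placeAlg _ (l i)) (D.placeAlg _ (l j)) := fun i j l => by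
    rcases eq_or_ne i j with rfl | hij
    · exact Commute.refl _
    · exact D.commute_placeAlg _ _ (hne i j hij) _ _
  exact trace_eq_two_mul_trace_spherical (Ideal.absNorm D.u.asIdeal : ℂ) (D.targetXVal : ℂ)
    (fun i => D.tEnd (D.isAbove_uPlace i)) (fun i => D.wEnd (D.isAbove_uPlace i))
    (fun i => D.isIwahoriPair_end _) (fun i => D.iwahoriX_end _) D.sq_targetXVal_ne
    (Nat.cast_add_one_ne_zero _) (fun i j => hc i j fun i => D.tMem (D.isAbove_uPlace i))
    (fun i j hij => D.commute_placeAlg _ _ (hne i j hij) _ _)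
    (fun i j => hc i j fun i => D.wMem (D.isAbove_uPlace i))
    (D.pairEnd h) (D.pairEnd_mul_tEnd h hk) (D.pairEnd_mul_wEnd h hk) (D.mapsTo_pairEnd h hk)

end Pair

/-- The pair of an element over `3` with the twist, on the spherical part. -/
theorem pairEnd_targetToSpher {e : D.forms →ₗ[ℂ] D.forms}
    (hJ : IsLevelProj D.formsRep e D.target)
    (he : ∀ φ H, IsStab D.formsRep D.targetGroup H φ → e φ = avgOver D.formsRep D.targetGroup H φ)
    {k : KerFamily D.lev.loc} (g : gfSupported (bad' (tw := tw)))
    (h : Set.MapsTo ((D.withFam k (D.threeFam g)).op' * D.twist) D.targetSpace D.targetSpace)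
    (φ : D.target) :
    D.pairEnd h (D.targetToSpher φ : D.targetSpace) =
      (D.targetToSpher ((((targetMu : ℂ) * ((nbrs (g : GfK K') ((1 : GfK K') :
          Yf (productLevel D.lev'.loc))).ncard : ℂ)) •
        (levelOp hJ g * (D.targetTwist * D.targetTwist))) φ) : D.targetSpace) := by
  refine Subtype.ext ?_
  rw [coe_pairEnd, coe_targetToSpher, coe_targetToSpher, D.twist_targetClass φ,
    D.op'_threeFam_targetClass hJ he k g, LinearMap.smul_apply, map_smul]
  rfl

/-- **The twisted trace on the target classes is twice the one on the target.** -/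
theorem trace_restrict_eq {e : D.forms →ₗ[ℂ] D.forms} (hJ : IsLevelProj D.formsRep e D.target)
    (he : ∀ φ H, IsStab D.formsRep D.targetGroup H φ → e φ = avgOver D.formsRep D.targetGroup H φ)
    {g : gfSupported (bad' (tw := tw))} {k : KerFamily D.lev.loc} (hg : g ∈ D.threePart)
    (h : Set.MapsTo ((D.withFam k (D.threeFam g)).op' * D.twist) D.targetSpace D.targetSpace) :
    LinearMap.trace ℂ D.targetSpace (D.pairEnd h) =
      2 * (((targetMu : ℂ) * ((nbrs (g : GfK K') ((1 : GfK K') :
          Yf (productLevel D.lev'.loc))).ncard : ℂ)) *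
        LinearMap.trace ℂ D.target (levelOp hJ g * (D.targetTwist * D.targetTwist))) := by
  rw [D.trace_pairEnd h fun x hx => D.threeFam_off hg hx]
  refine congrArg (2 * ·) ((trace_eq_trace_of_bijective (M := D.target) (N := D.spherPart)
    D.targetToSpher D.bijective_targetToSpher _
    (((targetMu : ℂ) * ((nbrs (g : GfK K') ((1 : GfK K') :
      Yf (productLevel D.lev'.loc))).ncard : ℂ)) • (levelOp hJ g * (D.targetTwist * D.targetTwist)))
    fun φ => Subtype.ext ?_).trans (map_smul _ _ _))
  exact D.pairEnd_targetToSpher hJ he g h φ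

/-- **The class of the target has a nonzero twisted trace.** -/
theorem exists_trace_targetSpace_ne_zero : ∃ k k', D.IsThreePart k k' ∧
    ∀ h : Set.MapsTo ((D.withFam k k').op' * D.twist) D.targetSpace D.targetSpace,
      LinearMap.trace ℂ D.targetSpace (LinearMap.restrict
        (((D.withFam k k').op' * D.twist : cuspClasses D.quot' →L[ℂ] cuspClasses D.quot') :
          cuspClasses D.quot' →ₗ[ℂ] cuspClasses D.quot') h) ≠ 0 := by
  obtain ⟨e, hJ, he, g, hg, htr⟩ := D.exists_trace_target_ne_zero
  refine ⟨_, _, D.isThreePart_threeBelow fun w hw => D.threeFam_off hg hw, fun h => ?_⟩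
  rw [← pairEnd, D.trace_restrict_eq hJ he hg h]
  exact mul_ne_zero two_ne_zero (mul_ne_zero
    (mul_ne_zero (Complex.ofReal_ne_zero.2 targetMu_ne_zero) (D.nbrs_ncard_ne_zero _)) htr)

end DescentData

end Fermat.Agent.LT.Descent

end
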