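import Fermat.Agent.LT.Boundary.Statements
import Fermat.Agent.LT.Descent.AlephFamily
import Fermat.Agent.LT.Descent.Assembly
import Fermat.Agent.LT.Descent.Downstairs
import Fermat.Agent.LT.Descent.Exit
import Fermat.Agent.LT.Descent.Moments
import Fermat.Agent.LT.Descent.PairBounds
import Fermat.Agent.LT.Descent.SetupOct
import Fermat.Agent.LT.Descent.Sides
import Fermat.Agent.LT.Descent.Spectrum
import Fermat.Agent.LT.Descent.TargetClass

/-!
# C2: cubic descent
-/

set_option autoImplicit false

noncomputable section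

namespace Fermat.Agent.LT.Descent

open Fermat.Agent.Galois Fermat.Agent.LT.Adelic Fermat.Agent.LT.Tame Fermat.Agent.LT.Spectral
open Fermat.Agent.LT.Descent.Places
open NumberField IsDedekindDomain Matrix WeierstrassCurve
open scoped MatrixGroups InnerProductSpace

variable {K : Type} [Field K] [NumberField K] {K' : Type} [Field K'] [NumberField K']
  [Algebra K K'] {Φ : Frame K Unit} {Φ' : Frame K' (Fin 3)} {tw : CubicTwist Φ Φ'}

namespace DescentData

variable (D : DescentData tw)

/-- The twisted operator over `3` maps the target classes to themselves. -/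
theorem mapsTo_targetSpace {k : KerFamily D.lev.loc} {k' : KerFamily D.lev'.loc}
    (h3 : D.IsThreePart k k') :
    Set.MapsTo ((D.withFam k k').op' * D.twist) D.targetSpace D.targetSpace := by
  intro v hv
  have hl : ∀ p ∈ [((1 : ℂ), D.base)], p.2.IsPlain := by simp [isPlain_base]
  have hB := (D.sideUp _ hl k k' h3).mapsTo_B (m := targetMu) (L := D.targetVal)
    (L' := D.targetVal) (fun j => D.targetVal_atomPerm j) hv
  have hc : Commute D.base.op' ((D.withFam k k').op' * D.twist) := by
    refine Commute.mul_right ?_ D.commute_twist_base.symm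
    refine TestPair.commute_op' _ _ ?_
    show (KerFamily.one _).comp k' = k'.comp (KerFamily.one _)
    exact KerFamily.ext' fun w => (LKer.one_comp _).trans (LKer.comp_one _).symm
  have e : (D.sideUp _ hl k k' h3).B v =
      (targetMu : ℂ) • ((D.withFam k k').op' * D.twist) v := by
    show (D.sumOp' [((1 : ℂ), D.base)] * (D.withFam k k').op' * D.twist) v = _
    rw [mul_assoc, show D.sumOp' [((1 : ℂ), D.base)] = D.base.op' by simp [sumOp'], hc.eq]
    show ((D.withFam k k').op' * D.twist) (D.base.op' v) = _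
    rw [show D.base.op' v = (targetMu : ℂ) • v from (mem_jointSpace.1 hv).1, map_smul]
  rw [e] at hB
  exact (Submodule.smul_mem_iff _ (Complex.ofReal_ne_zero.2 targetMu_ne_zero)).1 hB

/-- A scalar cuspidal combination on the target gives the descended form. -/
theorem hasDescended_of_cuspidalSum (l : List (ℂ × D.TestPair)) (hl : D.IsCuspidalSum l)
    (hlp : ∀ p ∈ l, p.2.IsPlain) {s : ℂ} (hs : s ≠ 0)
    (hscal : ∀ e ∈ D.targetSpace, D.sumOp' l e = s • e) : D.HasDescended := by
  obtain ⟨k, k', h3, htr⟩ := D.exists_trace_targetSpace_ne_zero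
  obtain ⟨ρ, r, hρ, hsd, hsu⟩ := D.exists_spectrum
  obtain ⟨hA, hAR, hA', hAR'⟩ := D.sumOp_commute hlp
  refine (D.exists_isTargetVector l k k' (D.sideDown l hlp k k' h3) (D.sideUp l hlp k k' h3)
    rfl (fun _ => rfl) (fun _ => rfl) rfl rfl (fun _ => rfl) (fun _ => rfl) rfl rfl
    hA hAR hA' hAR' hρ
    (fun m L v ω hm hv h1 _ h2 h3 => hsd m L v ω hm hv h1 h2 h3)
    (fun m L v ω hm hv h1 hπ h2 h3 => hsu m L v ω hm hv h1 hπ h2 h3)
    (fun L => ?_) hs hscal htr (D.mapsTo_targetSpace h3)).elim
    fun _ he => D.hasDescended_of_isTargetVector he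
  obtain ⟨a, b, a', b', T, ha, hb, ha', hb', hbd⟩ := D.exists_monomial_bound L l hlp k k' h3
  obtain ⟨n₀, hn⟩ := D.exists_hasSum_pair ha hb ha' hb' T
  exact ⟨n₀ + L.length + 1, fun n h => hn l (D.monoPair L n k k') hl
    fun p hp => hbd n₀ n (by omega) p hp⟩

end DescentData

/-- **C2.** -/
theorem stmtDescent : LT.StmtDescent := by
  intro W ρ _ _ _ hρ hD
  obtain ⟨g, hg, D, hm, heig⟩ := exists_descentData hρ hD
  let := algFieldF hρ
  obtain ⟨l, s, hl, hlp, hs, hscal⟩ := D.exists_cuspidalSum
  exact hasDescentForm_of_hasDescended hρ hg D hm heig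
    (D.hasDescended_of_cuspidalSum l hl hlp hs hscal)

end Fermat.Agent.LT.Descent

end
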