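import Fermat.Agent.LT.Descent.IwahoriHecke
import Fermat.Agent.LT.Descent.LKerLinear
import Fermat.Agent.LT.Descent.TestOperator

/-!
# One place at a time

The operator of a matrix at one place acts on the line through a point at that place; cusp
operators are linear in the matrix; a commuting self-adjoint family has a common eigenvector in a
stable finite dimensional space.
-/

set_option autoImplicit false
set_option linter.unusedSectionVars false

noncomputable section

namespace Fermat.Agent.LT.Descent

open Fermat.Agent.LT.Adelic Fermat.Agent.LT.Tame Fermat.Agent.LT.Aleph Fermat.Agent.LT.Spectral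
open MeasureTheory NumberField IsDedekindDomain Matrix Filter Function Module End
open scoped MatrixGroups InnerProductSpace

/-! ### Linearity in the matrix -/

theorem lkerApply_add {G X : Type*} [Group G] [MulAction G X] (k l : LKer G X) (f : X → ℂ)
    (a : X) : lkerApply (k + l) f a = lkerApply k f a + lkerApply l f a := by
  simp only [lkerApply, LKer.add_apply, add_mul]
  exact finsum_add_distrib (LKer.finite_support_mul k a f) (LKer.finite_support_mul l a f)

theorem lkerApply_mul {G X : Type*} [Group G] [MulAction G X] (k l : LKer G X) (f : X → ℂ)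
    (a : X) : lkerApply (k * l) f a = lkerApply k (lkerApply l f) a :=
  lkerApply_comp k l f a

theorem kerMap_linear {K : Type*} [Field K] [NumberField K] {ι : Type*} {Φ : Frame K ι}
    {U : Subgroup (GfK K)} {f f₁ f₂ : HKer U} {c₁ c₂ : ℂ}
    (h : ∀ y z, f y z = c₁ * f₁ y z + c₂ * f₂ y z) (φ : Space Φ U → ℂ) :
    kerMap f φ = c₁ • kerMap f₁ φ + c₂ • kerMap f₂ φ := by
  funext x
  simp only [kerMap, Pi.add_apply, Pi.smul_apply, smul_eq_mul, h, add_mul, mul_assoc]
  rw [finsum_add_distrib, mul_finsum, mul_finsum]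
  · exact (f₁.finite_row x.fin).subset fun z hz =>
      left_ne_zero_of_mul (right_ne_zero_of_mul hz)
  · exact (f₂.finite_row x.fin).subset fun z hz =>
      left_ne_zero_of_mul (right_ne_zero_of_mul hz)

/-- **Cusp operators are linear in the matrix.** -/
theorem cuspOp_linear {K : Type*} [Field K] [NumberField K] {ι : Type*} [Fintype ι]
    {Φ : Frame K ι} {U : Subgroup (GfK K)} [Countable (Yf U)] {D : QuotData Φ U}
    (k : ι → PPKer) {f f₁ f₂ : HKer U} {c₁ c₂ : ℂ}
    (h : ∀ y z, f y z = c₁ * f₁ y z + c₂ * f₂ y z) :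
    cuspOp D k f = c₁ • cuspOp D k f₁ + c₂ • cuspOp D k f₂ := by
  refine ContinuousLinearMap.ext fun e => Subtype.ext (Lp.ext ?_)
  obtain ⟨φ, hm, hi, -, hae⟩ := e.2
  have hs := sliceInt_of_memLp hm hi ((Lp.memLp (e : Lp ℂ 2 D.ν)).ae_eq hae)
  refine (coeFn_cuspOp k f hm hi hae).trans ?_
  rw [_root_.add_apply, _root_.smul_apply, _root_.smul_apply,
    Submodule.coe_add, Submodule.coe_smul, Submodule.coe_smul]
  filter_upwards [Lp.coeFn_add (c₁ • (cuspOp D k f₁ e : Lp ℂ 2 D.ν))
      (c₂ • (cuspOp D k f₂ e : Lp ℂ 2 D.ν)),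
    Lp.coeFn_smul c₁ (cuspOp D k f₁ e : Lp ℂ 2 D.ν),
    Lp.coeFn_smul c₂ (cuspOp D k f₂ e : Lp ℂ 2 D.ν),
    coeFn_cuspOp k f₁ hm hi hae, coeFn_cuspOp k f₂ hm hi hae] with x h0 h1 h2 h3 h4
  rw [h0, Pi.add_apply, h1, h2, Pi.smul_apply, Pi.smul_apply, h3, h4,
    testOp_eq_kerMap k f hs, testOp_eq_kerMap k f₁ hs, testOp_eq_kerMap k f₂ hs,
    kerMap_linear h]
  rfl

/-! ### The line through a point at a place -/

variable {K : Type*} [Field K] [NumberField K]
  {V : ∀ v : HeightOneSpectrum (𝓞 K), Subgroup (GL (Fin 2) (v.adicCompletion K))}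
  (hV : IsLocalLevel V) (v : HeightOneSpectrum (𝓞 K))

include hV in
open Classical in
theorem exists_putAt (y : Yf (productLevel V)) (c : LocY V v) :
    ∃ z, (fun w => locY V w z) = update (fun w => locY V w y) v c :=
  hV.isRestrictedProd.exists_of_eventually _
    (((hV.isRestrictedProd.eventually_base y).and (eventually_cofinite_ne v)).mono fun w hw => by
      rw [update_of_ne hw.2]; exact hw.1)

/-- The point `y` with the coordinate at `v` replaced. -/
def putAt (y : Yf (productLevel V)) (c : LocY V v) : Yf (productLevel V) :=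
  (exists_putAt hV v y c).choose

theorem locY_putAt_self (y : Yf (productLevel V)) (c : LocY V v) :
    locY V v (putAt hV v y c) = c := by
  classical
  exact (congrFun (exists_putAt hV v y c).choose_spec v).trans (update_self ..)

theorem locY_putAt_ne (y : Yf (productLevel V)) (c : LocY V v) {w : HeightOneSpectrum (𝓞 K)}
    (hw : w ≠ v) : locY V w (putAt hV v y c) = locY V w y := by
  classical
  exact (congrFun (exists_putAt hV v y c).choose_spec w).trans (update_of_ne hw ..)

variable {hV} {v}

theorem eq_putAt {y z : Yf (productLevel V)} {c : LocY V v} (h : locY V v z = c)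
    (h' : ∀ w, w ≠ v → locY V w z = locY V w y) : z = putAt hV v y c :=
  hV.isRestrictedProd.injective (funext fun w => by
    rcases eq_or_ne w v with rfl | hw
    · rw [h, locY_putAt_self]
    · rw [h' w hw, locY_putAt_ne hV v y c hw])

theorem putAt_self (y : Yf (productLevel V)) : putAt hV v y (locY V v y) = y :=
  (eq_putAt rfl fun _ _ => rfl).symm

theorem putAt_putAt (y : Yf (productLevel V)) (a c : LocY V v) :
    putAt hV v (putAt hV v y a) c = putAt hV v y c :=
  eq_putAt (locY_putAt_self hV v _ c) fun w hw => by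
    rw [locY_putAt_ne hV v _ c hw, locY_putAt_ne hV v y a hw]

variable (hV) in
/-- **A matrix at one place acts on the line.** -/
theorem finsum_toHKer_single (f : LKer PGL(2, v.adicCompletion K) (LocY V v))
    (F : Yf (productLevel V) → ℂ) (y : Yf (productLevel V)) :
    ∑ᶠ z, ((KerFamily.single v f).toHKer hV) y z * F z =
      lkerApply f (fun c => F (putAt hV v y c)) (locY V v y) := by
  classical
  have hinj : Injective (putAt hV v y) := fun a c h => by
    rw [← locY_putAt_self hV v y a, h, locY_putAt_self]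
  have hval : ∀ c, ((KerFamily.single v f).toHKer hV) y (putAt hV v y c) =
      f (locY V v y) c := fun c => by
    rw [KerFamily.toHKer_single_apply hV v f y _ fun w hw => (locY_putAt_ne hV v y c hw).symm,
      locY_putAt_self]
  have hsupp : support (fun z => ((KerFamily.single v f).toHKer hV) y z * F z) ⊆
      Set.range (putAt hV v y) := fun z hz => by
    refine ⟨locY V v z, (eq_putAt rfl fun w hw => ?_).symm⟩
    by_contra hne
    exact left_ne_zero_of_mul hz
      (KerFamily.toHKer_single_apply_of_ne hV f hw (Ne.symm hne))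
  rw [lkerApply, ← finsum_mem_univ (fun z => _ * F z),
    ← finsum_mem_inter_support, Set.univ_inter,
    ← Set.inter_eq_right.2 hsupp, finsum_mem_inter_support, finsum_mem_range hinj]
  exact finsum_congr fun c => by rw [hval]

variable (hV) in
/-- The same on the space. -/
theorem kerMap_single {ι : Type*} {Φ : Frame K ι}
    (f : LKer PGL(2, v.adicCompletion K) (LocY V v))
    (φ : Space Φ (productLevel V) → ℂ) (τ : ι → HSpace) (y : Yf (productLevel V)) :
    kerMap ((KerFamily.single v f).toHKer hV) φ (Space.mk τ y) =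
      lkerApply f (fun c => φ (Space.mk τ (putAt hV v y c))) (locY V v y) :=
  finsum_toHKer_single hV f (fun z => φ (Space.mk τ z)) y

theorem toHKer_single_linear {f f₁ f₂ : LKer PGL(2, v.adicCompletion K) (LocY V v)} {c₁ c₂ : ℂ}
    (h : f = c₁ • f₁ + c₂ • f₂) (y z : Yf (productLevel V)) :
    ((KerFamily.single v f).toHKer hV) y z = c₁ * ((KerFamily.single v f₁).toHKer hV) y z +
      c₂ * ((KerFamily.single v f₂).toHKer hV) y z := by
  classical
  by_cases hyz : ∀ w, w ≠ v → locY V w y = locY V w z
  · rw [KerFamily.toHKer_single_apply hV v f y z hyz, KerFamily.toHKer_single_apply hV v f₁ y z hyz,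
      KerFamily.toHKer_single_apply hV v f₂ y z hyz, h, LKer.add_apply, LKer.smul_apply,
      LKer.smul_apply]
  · push Not at hyz
    obtain ⟨w, hw, hne⟩ := hyz
    rw [KerFamily.toHKer_single_apply_of_ne hV f hw hne,
      KerFamily.toHKer_single_apply_of_ne hV f₁ hw hne,
      KerFamily.toHKer_single_apply_of_ne hV f₂ hw hne, mul_zero, mul_zero, add_zero]

theorem KerFamily.single_one : KerFamily.single v (1 : LKer PGL(2, v.adicCompletion K) (LocY V v)) =
    KerFamily.one V := KerFamily.ext' fun w => by
  rcases eq_or_ne w v with rfl | hw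
  · rw [KerFamily.single_ker_self]; rfl
  · rw [KerFamily.single_ker_ne hw]; rfl

theorem KerFamily.comp_comm_of {k l : KerFamily V} (h : ∀ w, Commute (k.ker w) (l.ker w)) :
    k.comp l = l.comp k := KerFamily.ext' fun w => (h w).eq

/-! ### A common eigenvector -/

/-- A commuting self-adjoint family has a common eigenvector in a stable finite dimensional
subspace. -/
theorem exists_common_eigenvector {E : Type*} [NormedAddCommGroup E] [InnerProductSpace ℂ E]
    [CompleteSpace E] (W : Submodule ℂ E) [FiniteDimensional ℂ W] (hW : W ≠ ⊥) {J : Type*}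
    (A : J → E →L[ℂ] E) (hA : ∀ j, IsSelfAdjoint (A j)) (hAA : ∀ j j', Commute (A j) (A j'))
    (hmaps : ∀ j, ∀ e ∈ W, A j e ∈ W) :
    ∃ e ∈ W, e ≠ 0 ∧ ∃ c : J → ℝ, ∀ j, A j e = (c j : ℂ) • e := by
  let T : J → W →ₗ[ℂ] W := fun j => (A j : E →ₗ[ℂ] E).restrict (hmaps j)
  have hT : ∀ j, (T j).IsSymmetric := fun j => (hA j).isSymmetric.restrict_invariant (hmaps j)
  have hcomm : Pairwise fun j j' => Commute (T j) (T j') := fun j j' _ =>
    LinearMap.ext fun w => Subtype.ext (congrArg (fun f : E →L[ℂ] E => f (w : E)) (hAA j j').eq)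
  have htop := LinearMap.IsSymmetric.iSup_iInf_eq_top_of_commute hT hcomm
  obtain ⟨χ, hχ⟩ : ∃ χ : J → ℂ, (⨅ j, eigenspace (T j) (χ j)) ≠ ⊥ := by
    by_contra hno
    push Not at hno
    have : Nontrivial W := Submodule.nontrivial_iff_ne_bot.2 hW
    simp [hno] at htop
  obtain ⟨z, hz, hz0⟩ := Submodule.exists_mem_ne_zero_of_ne_bot hχ
  have hz0' : (z : E) ≠ 0 := fun h => hz0 (Subtype.ext h)
  have hAz : ∀ j, A j (z : E) = χ j • (z : E) := fun j =>
    congrArg Subtype.val (mem_eigenspace_iff.mp ((Submodule.mem_iInf _).1 hz j))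
  refine ⟨z, z.2, hz0', fun j => (χ j).re, fun j => ?_⟩
  rw [show (((χ j).re : ℝ) : ℂ) = χ j from
    Complex.conj_eq_iff_re.mp ((hA j).isSymmetric.conj_eigenvalue_eq_self
      (hasEigenvalue_of_hasEigenvector ⟨mem_eigenspace_iff.mpr (hAz j), hz0'⟩))]
  exact hAz j

end Fermat.Agent.LT.Descent

end
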