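import Fermat.Agent.LT.Inert.KernelAlgebra
import Fermat.Agent.LT.Inert.Completion
import Fermat.Agent.LT.Descent.Tensor
import Fermat.Agent.LT.Aleph.KerAct

/-!
# Polynomials in the Hecke matrix at a place of maximal level

`goodPoly L v P` is the family with the radial matrix of `P(T_v)` at `v` when the level there is
maximal.  It does not depend on the uniformiser and composes as the polynomials.
-/

set_option autoImplicit false
set_option linter.unusedSectionVars false

noncomputable section

namespace Fermat.Agent.LT.Descent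

open IsDedekindDomain IsDedekindDomain.HeightOneSpectrum IsLocalRing NumberField Matrix Polynomial
open Filter Function
open Fermat.Agent.LT.Adelic Fermat.Agent.LT.Tame Fermat.Agent.LT.Aleph Fermat.Agent.LT.Inert
open scoped MatrixGroups

variable {K : Type*} [Field K] [NumberField K]

theorem exists_irreducible_integers (v : HeightOneSpectrum (𝓞 K)) :
    ∃ π : v.adicCompletionIntegers K, Irreducible π :=
  (CFT.Kummer.kl_irreducible_uniformizer v).imp fun _ h => h.1

/-- Tree data at a place. -/
def placeData (v : HeightOneSpectrum (𝓞 K)) : TreeData (v.adicCompletionIntegers K) :=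
  ⟨RingEquiv.refl _, (exists_irreducible_integers v).choose,
    (exists_irreducible_integers v).choose_spec, rfl⟩

theorem resCard_eq_absNorm (v : HeightOneSpectrum (𝓞 K)) :
    resCard (v.adicCompletionIntegers K) = Ideal.absNorm v.asIdeal :=
  CFT.Kummer.kl_card_residueField v

variable (L : LevelData K)

/-- The level is maximal at `v`. -/
def LevelData.IsFullAt (v : HeightOneSpectrum (𝓞 K)) : Prop := L.loc v = localFull K v

theorem LevelData.isFullAt_of_good {v : HeightOneSpectrum (𝓞 K)} (h3 : (3 : 𝓞 K) ∉ v.asIdeal)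
    (ht : v ∉ L.tame) (ha : v ∉ L.aux) : L.IsFullAt v :=
  L.loc_of_good h3 ht ha

theorem LevelData.IsFullAt.isUnimodular {L : LevelData K} {v : HeightOneSpectrum (𝓞 K)}
    (h : L.IsFullAt v) :
    IsUnimodularLevel (v.adicCompletionIntegers K) ((L.loc v).map ProjGenLinGroup.mk) := by
  rw [show L.loc v = localFull K v from h]
  exact isUnimodularLevel_localFull v

variable {v : HeightOneSpectrum (𝓞 K)}

/-- The radial matrix at a place of maximal level. -/
def goodRad (h : L.IsFullAt v) (φ : ℕ →₀ ℂ) : LKer PGL(2, v.adicCompletion K) (LocY L.loc v) :=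
  radKer (placeData v) h.isUnimodular φ

variable (v) in
open Classical in
/-- `P(T_v)` as a family of local matrices. -/
def goodPoly (P : ℂ[X]) : KerFamily L.loc :=
  if h : L.IsFullAt v then
    KerFamily.single v (goodRad L h (heckePoly (resCard (v.adicCompletionIntegers K)) P))
  else KerFamily.one L.loc

theorem goodPoly_eq (h : L.IsFullAt v) (P : ℂ[X]) : goodPoly L v P =
    KerFamily.single v (goodRad L h (heckePoly (resCard (v.adicCompletionIntegers K)) P)) :=
  dif_pos h

theorem goodPoly_ker_self (h : L.IsFullAt v) (P : ℂ[X]) : (goodPoly L v P).ker v =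
    goodRad L h (heckePoly (resCard (v.adicCompletionIntegers K)) P) := by
  rw [goodPoly_eq L h, KerFamily.single_ker_self]

/-- Any tree data gives the same matrix. -/
theorem goodPoly_ker_self' (h : L.IsFullAt v) (D : TreeData (v.adicCompletionIntegers K))
    (hH : IsUnimodularLevel (v.adicCompletionIntegers K) ((L.loc v).map ProjGenLinGroup.mk))
    (P : ℂ[X]) : (goodPoly L v P).ker v =
      radKer D hH (heckePoly (resCard (v.adicCompletionIntegers K)) P) := by
  rw [goodPoly_ker_self L h, goodRad, radKer_congr_data (placeData v) h.isUnimodular D]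

theorem goodPoly_ker_ne {w : HeightOneSpectrum (𝓞 K)} (hw : w ≠ v) (P : ℂ[X]) :
    (goodPoly L v P).ker w = LKer.one _ _ := by
  unfold goodPoly
  split_ifs
  · exact KerFamily.single_ker_ne hw _
  · rfl

theorem goodPoly_one : goodPoly L v 1 = KerFamily.one L.loc := KerFamily.ext' fun w => by
  rcases eq_or_ne w v with rfl | hw
  · by_cases h : L.IsFullAt w
    · rw [goodPoly_ker_self L h, goodRad, radKer_heckePoly_one]; rfl
    · rw [goodPoly, dif_neg h]
  · rw [goodPoly_ker_ne L hw]; rfl

/-- **Composition is multiplication.** -/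
theorem goodPoly_mul (P R : ℂ[X]) :
    (goodPoly L v P).comp (goodPoly L v R) = goodPoly L v (P * R) := by
  by_cases h : L.IsFullAt v
  · rw [goodPoly_eq L h, goodPoly_eq L h, goodPoly_eq L h, KerFamily.single_comp_single_same,
      goodRad, goodRad, goodRad, radKer_heckePoly_mul]
    rfl
  · simp only [goodPoly, dif_neg h]
    exact KerFamily.ext' fun _ => LKer.one_comp _

/-- **All these matrices commute.** -/
theorem goodPoly_comm (w : HeightOneSpectrum (𝓞 K)) (P R : ℂ[X]) :
    (goodPoly L v P).comp (goodPoly L w R) = (goodPoly L w R).comp (goodPoly L v P) := by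
  rcases eq_or_ne v w with rfl | hvw
  · rw [goodPoly_mul, goodPoly_mul, mul_comm]
  · refine KerFamily.ext' fun u => ?_
    show ((goodPoly L v P).ker u).comp _ = ((goodPoly L w R).ker u).comp _
    rcases eq_or_ne u v with rfl | hu
    · rw [goodPoly_ker_ne L hvw, LKer.comp_one, LKer.one_comp]
    · rw [goodPoly_ker_ne L hu, LKer.comp_one, LKer.one_comp]

/-- The matrices are symmetric. -/
theorem goodPoly_transpose (P : ℂ[X]) : (goodPoly L v P).transpose = goodPoly L v P :=
  KerFamily.ext' fun u => by
    show ((goodPoly L v P).ker u).transpose = _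
    rcases eq_or_ne u v with rfl | hu
    · by_cases h : L.IsFullAt u
      · rw [goodPoly_ker_self L h, goodRad, radKer_transpose]
      · rw [goodPoly, dif_neg h]; exact LKer.transpose_one
    · rw [goodPoly_ker_ne L hu, LKer.transpose_one]

/-- Real polynomials give real matrices. -/
theorem goodPoly_im (P : ℝ[X]) (u : HeightOneSpectrum (𝓞 K)) (a c : LocY L.loc u) :
    ((goodPoly L v (P.map Complex.ofRealHom)).ker u a c).im = 0 := by
  have hone : ((LKer.one PGL(2, u.adicCompletion K) (LocY L.loc u)) a c).im = 0 := by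
    by_cases h : a = c
    · subst h; rw [LKer.one_apply_self, Complex.one_im]
    · rw [LKer.one_apply_ne h, Complex.zero_im]
  rcases eq_or_ne u v with rfl | hu
  · by_cases h : L.IsFullAt u
    · rw [goodPoly_ker_self L h, goodRad, radKer_apply, im_heckePoly_map]
    · rw [goodPoly, dif_neg h]; exact hone
  · rw [goodPoly_ker_ne L hu]; exact hone

section Uniformiser

variable {ϖ : (FiniteAdeleRing (𝓞 K) K)ˣ} (hϖ : IsUniformiserAt v ϖ)
include hϖ

theorem localPGL_heckeMatrix_of_ne {u : HeightOneSpectrum (𝓞 K)} (hu : u ≠ v) :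
    localPGL u (heckeMatrix K ϖ) = 1 := by
  have e : localGL K u (heckeMatrix K ϖ) = 1 := Units.ext (Matrix.ext fun i j => by
    fin_cases i <;> fin_cases j <;> simp [heckeMatrix, localGL_apply, hϖ.2 u hu, coe_apply_one, coe_apply_zero])
  rw [localPGL, MonoidHom.comp_apply, e, map_one]

/-- The tree data of the uniformiser. -/
theorem exists_treeData_heckeMatrix : ∃ D : TreeData (v.adicCompletionIntegers K),
    ∀ h, localPGL v (heckeMatrix K ϖ) = toL (v.adicCompletion K) (stepMat D) h := by
  have hmem : (ϖ : FiniteAdeleRing (𝓞 K) K) v ∈ v.adicCompletionIntegers K := by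
    rw [mem_adicCompletionIntegers, hϖ.1, ← WithZero.exp_zero, WithZero.exp_le_exp]
    omega
  refine ⟨⟨RingEquiv.refl _, ⟨_, hmem⟩, irreducible_of_valuation v _ hϖ.1, rfl⟩, fun h =>
    congrArg ProjGenLinGroup.mk (Units.ext (Matrix.ext fun i j => ?_))⟩
  fin_cases i <;> fin_cases j <;>
    simp [heckeMatrix, localGL_apply, stepMat, coe_apply_one, coe_apply_zero]

/-- **`T_v` is the double coset of every uniformiser.** -/
theorem ofDoubleCoset_ker_self (hV : IsLocalLevel L.loc) (hU : IsLevel (productLevel L.loc))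
    (h : L.IsFullAt v) :
    (KerFamily.ofDoubleCoset hV hU (heckeMatrix K ϖ)).ker v = goodRad L h (Finsupp.single 1 1) := by
  obtain ⟨D, hD⟩ := exists_treeData_heckeMatrix hϖ
  rw [goodRad, radKer_congr_data (placeData v) h.isUnimodular D]
  refine radKer_single_one_eq_ofNbrs D _ _ (hD _) (finite_cosetNbrs_localPGL hV hU _ v)
    fun a => ?_
  rw [← map_inv]
  exact finite_cosetNbrs_localPGL hV hU _ v a

theorem ofDoubleCoset_ker_ne (hV : IsLocalLevel L.loc) (hU : IsLevel (productLevel L.loc))
    {u : HeightOneSpectrum (𝓞 K)} (hu : u ≠ v) :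
    (KerFamily.ofDoubleCoset hV hU (heckeMatrix K ϖ)).ker u = LKer.one _ _ :=
  LKer.ext' fun a c => by
    show (cosetNbrs (localPGL u (heckeMatrix K ϖ)) a).indicator 1 c = _
    rw [localPGL_heckeMatrix_of_ne hϖ hu, cosetNbrs_of_mem (one_mem _)]
    by_cases h : a = c
    · subst h
      rw [Set.indicator_of_mem (Set.mem_singleton a), LKer.one_apply_self]; rfl
    · rw [Set.indicator_of_notMem (by simpa using Ne.symm h), LKer.one_apply_ne h]

/-- **`c · T_v` on `Yf`.** -/
theorem goodPoly_C_mul_X_toHKer (hV : IsLocalLevel L.loc) (hU : IsLevel (productLevel L.loc))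
    (h : L.IsFullAt v) (c : ℂ) :
    (goodPoly L v (C c * X)).toHKer hV =
      hkerSmul c (HKer.ofDoubleCoset hU (heckeMatrix K ϖ)) := HKer.ext' fun y z => by
  show _ = c * (HKer.ofDoubleCoset hU (heckeMatrix K ϖ)) y z
  rw [ofDoubleCoset_eq_toHKer hV hU, KerFamily.toHKer_eq_mul hV _ v, KerFamily.toHKer_eq_mul hV _ v,
    ofDoubleCoset_ker_self L hϖ hV hU h, goodPoly_ker_self L h]
  have e : heckePoly (resCard (v.adicCompletionIntegers K)) (C c * X) =
      c • Finsupp.single 1 (1 : ℂ) := by
    ext n
    have e0 : ∀ q : ℕ, mulT q (Finsupp.single 0 (1 : ℂ)) = Finsupp.single 1 1 := fun q => by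
      ext m; rcases m with _ | _ | m <;> simp [mulT_zero_apply, mulT_succ_apply]
    simp [heckePoly, Algebra.algebraMap_eq_smul_one, e0]
  rw [e, ← mul_assoc]
  refine congrArg₂ (· * ·) ?_ (finprod_congr fun u => finprod_congr fun hu => ?_)
  · rw [goodRad, radKer_apply, goodRad, radKer_apply, Finsupp.smul_apply, smul_eq_mul]
  · rw [goodPoly_ker_ne L hu, ofDoubleCoset_ker_ne L hϖ hV hU hu]

end Uniformiser

end Fermat.Agent.LT.Descent

end
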