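import Fermat.Agent.LT.Descent.Setting
import Fermat.Agent.LT.Boundary.Defs
import Fermat.Agent.LT.Density.Oct
import Fermat.Prelude.Def_GaloisRep_ComplexConjugation

/-!
# The cubic extension `F'/F` with its frames
-/

set_option autoImplicit false

noncomputable section

open Fermat.Agent.Galois Fermat.Agent.LT.Adelic NumberField WeierstrassCurve
open scoped MatrixGroups

namespace Fermat.Agent.LT.Descent

variable {W : WeierstrassCurve ℤ} {ρ : GalQ →* GL (Fin 2) (ZMod 3)}

theorem complexEmbedding_injective : Function.Injective (complexEmbedding : Qbar → ℂ) :=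
  complexEmbedding.toRingHom.injective

/-- Representative of a generator of `SL₂(𝔽₃) / Q₈`. -/
def unipThree : GL (Fin 2) (ZMod 3) :=
  ⟨!![1, 1; 0, 1], !![1, -1; 0, 1], by decide, by decide⟩

theorem inQuat_cases : ∀ a b c d : ZMod 3, a * d - b * c = 1 →
    InQuat a b c d ∨ InQuat (a - c) (b - d) c d ∨ InQuat (a + c) (b + d) c d := by
  decide +kernel

theorem unipThree_not_mem : unipThree ∉ quatSubgroup := by
  rw [mem_quatSubgroup]; decide

theorem unipThree_sq_not_mem : unipThree ^ 2 ∉ quatSubgroup := by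
  rw [mem_quatSubgroup]; decide

theorem unipThree_pow_three : unipThree ^ 3 = 1 := by
  refine Units.ext ?_
  decide

theorem det_unipThree : Matrix.GeneralLinearGroup.det unipThree = 1 := by
  refine Units.ext ?_
  rw [Matrix.GeneralLinearGroup.val_det_apply, Matrix.det_fin_two]
  decide

theorem fieldF_le (hρ : IsThreeRep W ρ) : fieldF ≤ fieldF' ρ := by
  intro x hx g
  refine hx ⟨g.1, ?_⟩
  obtain ⟨hdet, -⟩ := mem_quatSubgroup.1 g.2
  show modThreeCyclotomicChar g.1 = 1
  rw [← hρ.det]
  refine Units.ext ?_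
  rw [Matrix.GeneralLinearGroup.val_det_apply, Matrix.det_fin_two, hdet, Units.val_one]

/-- The inclusion `F → F'` as an algebra structure. -/
@[reducible]
def algFieldF (hρ : IsThreeRep W ρ) : Algebra fieldF (fieldF' ρ) :=
  (IntermediateField.inclusion (fieldF_le hρ)).toRingHom.toAlgebra

theorem fixing_fieldF'_iff (hρ : IsThreeRep W ρ) (σ : GalQ) :
    (∀ x : fieldF' ρ, σ (x : Qbar) = x) ↔ ρ σ ∈ quatSubgroup :=
  Density.fixing_iff_mem ρ hρ.factors quatSubgroup σ

theorem mem_kerOmega_iff_fixes (hρ : IsThreeRep W ρ) (σ : GalQ) :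
    (∀ x : fieldF, σ (x : Qbar) = x) ↔ σ ∈ kerOmega := by
  rw [Density.fixing_fieldF_iff hρ σ, ← Density.comap_ker_det hρ, Subgroup.mem_comap]

theorem complexConjugation_not_mem_kerOmega : complexConjugation ∉ kerOmega := by
  intro h
  obtain ⟨ζ, hζ⟩ := HasEnoughRootsOfUnity.exists_primitiveRoot Qbar 3
  have h1 : complexConjugation ζ = ζ := by
    have := modularCyclotomicCharacter.spec Qbar
      (IsAlgClosed.card_rootsOfUnity_eq (AlgebraicClosure ℚ) 3)
      (complexConjugation : Qbar ≃+* Qbar) (t := (hζ.isUnit (by norm_num)).unit) (by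
        rw [mem_rootsOfUnity]; exact Units.ext hζ.pow_eq_one)
    rw [← modThreeCyclotomicChar_apply, MonoidHom.mem_ker.1 h] at this
    simpa [show (1 : ZMod 3).val = 1 from rfl] using this
  have h2 : complexConjugation ζ = ζ ^ 2 := by
    refine complexEmbedding_injective ?_
    show complexEmbedding (complexConjugation ζ) = _
    rw [complexEmbedding_complexConjugation]
    have h3 : complexEmbedding ζ ^ 3 = 1 := by rw [← map_pow, hζ.pow_eq_one, map_one]
    rw [← Complex.inv_eq_conj (Complex.norm_eq_one_of_pow_eq_one h3 (by norm_num)), map_pow]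
    exact inv_eq_of_mul_eq_one_right ((pow_succ' _ 2).symm.trans h3)
  rw [h1] at h2
  refine hζ.pow_ne_one_of_pos_of_lt one_ne_zero (by norm_num) (?_ : ζ ^ 1 = 1)
  rw [pow_one]
  have h0 : ζ ≠ 0 := hζ.ne_zero (by norm_num)
  rw [sq] at h2
  exact (mul_left_eq_self₀.1 h2.symm).resolve_right h0

theorem exists_lift (hρ : IsThreeRep W ρ) : ∃ g : GalQ, ρ g = unipThree :=
  hρ.surjective unipThree

theorem apply_mem_fieldF' (hρ : IsThreeRep W ρ) (g : GalQ) (x : fieldF' ρ) :
    g (x : Qbar) ∈ fieldF' ρ := by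
  intro h
  have hn := Density.normal_quatSubgroup
  have hmem : ρ (g⁻¹ * h.1 * g) ∈ quatSubgroup := by
    have := hn.conj_mem _ h.2 (ρ g)⁻¹
    rwa [inv_inv, ← map_inv, ← map_mul, ← map_mul] at this
  have := (fixing_fieldF'_iff hρ _).2 hmem x
  show h.1 (g (x : Qbar)) = g (x : Qbar)
  have h2 := congrArg g this
  rwa [AlgEquiv.mul_apply, AlgEquiv.mul_apply, AlgEquiv.aut_inv, g.apply_symm_apply] at h2

theorem mem_kerOmega_of_lift (hρ : IsThreeRep W ρ) {g : GalQ} (hg : ρ g = unipThree) :
    g ∈ kerOmega := by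
  show modThreeCyclotomicChar g = 1
  rw [← hρ.det, hg, det_unipThree]

/-- Every element of `Gal(ℚ̄/F)` is a power of the lift times an element fixing `F'`. -/
theorem exists_pow_mul (hρ : IsThreeRep W ρ) {g h : GalQ} (hg : ρ g = unipThree)
    (hh : h ∈ kerOmega) : ∃ i : Fin 3, ρ ((g ^ (i : ℕ))⁻¹ * h) ∈ quatSubgroup := by
  have hd : (ρ h) 0 0 * (ρ h) 1 1 - (ρ h) 0 1 * (ρ h) 1 0 = 1 := by
    rw [← Matrix.det_fin_two, ← Matrix.GeneralLinearGroup.val_det_apply, hρ.det,
      MonoidHom.mem_ker.1 hh, Units.val_one]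
  have e1 : (ρ g)⁻¹ = ⟨!![1, -1; 0, 1], !![1, 1; 0, 1], by decide, by decide⟩ := by
    rw [hg]; rfl
  rcases inQuat_cases _ _ _ _ hd with h0 | h1 | h2
  · exact ⟨0, by simpa [mem_quatSubgroup] using h0⟩
  · refine ⟨1, ?_⟩
    rw [mem_quatSubgroup]
    simpa [map_mul, e1, Matrix.mul_apply, Fin.sum_univ_two, sub_eq_add_neg] using h1
  · refine ⟨2, ?_⟩
    have e2 : ((ρ g) ^ 2)⁻¹ = ρ g := by
      rw [hg]; exact inv_eq_of_mul_eq_one_right (by rw [← pow_succ, unipThree_pow_three])
    rw [mem_quatSubgroup, map_mul, map_inv, map_pow]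
    show InQuat _ _ _ _
    rw [show ((2 : Fin 3) : ℕ) = 2 from rfl, e2, hg]
    simpa [unipThree, Matrix.mul_apply, Fin.sum_univ_two] using h2

/-- The embedding of `F` at its infinite place. -/
def embF : fieldF →+* ℂ := complexEmbedding.toRingHom.comp fieldF.val.toRingHom

/-- The embedding of `F'` moved by `g`. -/
def embF' (ρ : GalQ →* GL (Fin 2) (ZMod 3)) (g : GalQ) : fieldF' ρ →+* ℂ :=
  (complexEmbedding.toRingHom.comp g.toAlgHom.toRingHom).comp (fieldF' ρ).val.toRingHom

theorem exists_lift_embedding (L : IntermediateField ℚ Qbar) (ψ : L →+* ℂ) :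
    ∃ h : GalQ, ∀ x : L, ψ x = complexEmbedding (h (x : Qbar)) := by
  letI : Algebra L ℂ := ψ.toAlgebra
  let Ψ : Qbar →ₐ[L] ℂ := IsAlgClosed.lift
  have hmem : ∀ x : Qbar, ∃ y, complexEmbedding y = Ψ x := by
    intro x
    letI : Algebra Qbar ℂ := complexEmbedding.toRingHom.toAlgebra
    have : IsScalarTower ℚ Qbar ℂ := IsScalarTower.of_algebraMap_eq' (Subsingleton.elim _ _)
    have hxℚ : IsIntegral ℚ (Ψ x) :=
      ((Algebra.IsAlgebraic.isAlgebraic (R := ℚ) x).isIntegral).map
        ({ Ψ.toRingHom with commutes' := fun r => by simp } : Qbar →ₐ[ℚ] ℂ)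
    have hx : IsIntegral Qbar (Ψ x) := hxℚ.tower_top
    obtain ⟨y, hy⟩ := minpoly.mem_range_of_degree_eq_one Qbar (Ψ x)
      (IsAlgClosed.degree_eq_one_of_irreducible Qbar (minpoly.irreducible hx))
    exact ⟨y, hy⟩
  choose h hh using hmem
  let h' : Qbar →ₐ[ℚ] Qbar :=
    { toFun := h
      map_one' := complexEmbedding_injective (by rw [hh, map_one, map_one])
      map_mul' := fun a b => complexEmbedding_injective (by rw [map_mul, hh, hh, hh, map_mul])
      map_zero' := complexEmbedding_injective (by rw [hh, map_zero, map_zero])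
      map_add' := fun a b => complexEmbedding_injective (by rw [map_add, hh, hh, hh, map_add])
      commutes' := fun r => complexEmbedding_injective (by
        show complexEmbedding (h _) = _
        rw [hh]; simp) }
  refine ⟨AlgEquiv.ofBijective h' (Algebra.IsAlgebraic.algHom_bijective h'), fun x => ?_⟩
  show ψ x = complexEmbedding (h _)
  rw [hh]
  exact (Ψ.commutes x).symm

theorem pow_mem_kerOmega (hρ : IsThreeRep W ρ) {g : GalQ} (hg : ρ g = unipThree) (i : ℕ) :
    g ^ i ∈ kerOmega :=
  pow_mem (mem_kerOmega_of_lift hρ hg) i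

theorem eq_of_fixes (hρ : IsThreeRep W ρ) {g : GalQ} (hg : ρ g = unipThree) {i j : Fin 3}
    (h : ∀ x : fieldF' ρ, (g ^ (i : ℕ)) (x : Qbar) = (g ^ (j : ℕ)) (x : Qbar)) : i = j := by
  have h1 := (fixing_fieldF'_iff hρ ((g ^ (i : ℕ))⁻¹ * g ^ (j : ℕ))).1 fun x => by
    rw [AlgEquiv.mul_apply, ← h x, AlgEquiv.aut_inv, AlgEquiv.symm_apply_apply]
  rw [map_mul, map_inv, map_pow, map_pow, hg] at h1
  have key : ∀ n : ℕ, n < 3 → unipThree ^ n ∈ quatSubgroup → n = 0 := by
    intro n hn hm
    interval_cases n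
    · rfl
    · exact absurd (pow_one unipThree ▸ hm) unipThree_not_mem
    · exact absurd hm unipThree_sq_not_mem
  by_contra hne
  have h2 : ∀ k : ℕ, unipThree ^ (3 + k) = unipThree ^ k := fun k => by
    rw [pow_add, unipThree_pow_three, one_mul]
  rcases lt_or_gt_of_ne (fun hv : (i : ℕ) = j => hne (Fin.ext hv)) with hlt | hlt
  · rw [show (j : ℕ) = i + (j - i) by omega, pow_add, inv_mul_cancel_left] at h1
    have := key _ (by omega) h1
    omega
  · rw [show (i : ℕ) = j + (i - j) by omega, pow_add, mul_inv_rev, inv_mul_cancel_right] at h1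
    have := key _ (by omega) (inv_mem_iff.1 h1)
    omega

theorem isComplex_of_conj_ne {K : Type*} [Field K] {φ : K →+* ℂ}
    (h : ComplexEmbedding.conjugate φ ≠ φ) : (InfinitePlace.mk φ).IsComplex := by
  rw [InfinitePlace.isComplex_mk_iff, ComplexEmbedding.isReal_iff]
  exact h

theorem conjugate_ne_of_restrict (hρ : IsThreeRep W ρ) {g g' : GalQ} (hg : g ∈ kerOmega)
    (hg' : g' ∈ kerOmega) :
    ∃ x : fieldF, starRingEnd ℂ (complexEmbedding (g (x : Qbar))) ≠
      complexEmbedding (g' (x : Qbar)) := by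
  by_contra h
  push Not at h
  refine complexConjugation_not_mem_kerOmega ((mem_kerOmega_iff_fixes hρ _).1 fun x => ?_)
  refine complexEmbedding_injective ?_
  rw [complexEmbedding_complexConjugation]
  have h1 := h x
  rwa [(mem_kerOmega_iff_fixes hρ g).2 hg, (mem_kerOmega_iff_fixes hρ g').2 hg'] at h1

/-- The frame of `F`. -/
def frameF (hρ : IsThreeRep W ρ) : Frame fieldF Unit where
  emb _ := embF
  complex _ := isComplex_of_conj_ne fun he => by
    obtain ⟨x, hx⟩ := conjugate_ne_of_restrict hρ (one_mem kerOmega) (one_mem kerOmega)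
    exact hx (RingHom.congr_fun he x)
  bij := by
    refine ⟨fun a b _ => Subsingleton.elim a b, fun w => ⟨(), ?_⟩⟩
    obtain ⟨h, hh⟩ := exists_lift_embedding fieldF w.embedding
    refine Eq.trans ?_ (InfinitePlace.mk_embedding w)
    rw [InfinitePlace.mk_eq_iff]
    by_cases hm : h ∈ kerOmega
    · refine Or.inl (RingHom.ext fun x => ?_)
      rw [hh, (mem_kerOmega_iff_fixes hρ h).2 hm]
      rfl
    · refine Or.inr (RingHom.ext fun x => ?_)
      have hc : complexConjugation * h ∈ kerOmega := by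
        have key : ∀ a b : (ZMod 3)ˣ, a ≠ 1 → b ≠ 1 → a * b = 1 := by decide
        show modThreeCyclotomicChar _ = 1
        rw [map_mul]
        exact key _ _ complexConjugation_not_mem_kerOmega hm
      have h1 := (mem_kerOmega_iff_fixes hρ _).2 hc x
      rw [hh]
      show starRingEnd ℂ (complexEmbedding (x : Qbar)) = _
      refine (congrArg (fun q => starRingEnd ℂ (complexEmbedding q)) h1.symm).trans ?_
      rw [AlgEquiv.mul_apply, complexEmbedding_complexConjugation, Complex.conj_conj]

/-- The frame of `F'`: the embedding moved by the powers of a lift of a generator. -/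
def frameF' (hρ : IsThreeRep W ρ) {g : GalQ} (hg : ρ g = unipThree) [NumberField (fieldF' ρ)] :
    Frame (fieldF' ρ) (Fin 3) where
  emb i := embF' ρ (g ^ (i : ℕ))
  complex i := isComplex_of_conj_ne fun he => by
    obtain ⟨x, hx⟩ := conjugate_ne_of_restrict hρ (pow_mem_kerOmega hρ hg i)
      (pow_mem_kerOmega hρ hg i)
    exact hx (RingHom.congr_fun he (IntermediateField.inclusion (fieldF_le hρ) x))
  bij := by
    refine ⟨fun i j hij => ?_, fun w => ?_⟩
    · rcases InfinitePlace.mk_eq_iff.1 hij with he | he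
      · exact eq_of_fixes hρ hg fun x => complexEmbedding_injective (RingHom.congr_fun he x)
      · obtain ⟨x, hx⟩ := conjugate_ne_of_restrict hρ (pow_mem_kerOmega hρ hg i)
          (pow_mem_kerOmega hρ hg j)
        exact absurd (RingHom.congr_fun he (IntermediateField.inclusion (fieldF_le hρ) x)) hx
    · obtain ⟨h, hh⟩ := exists_lift_embedding (fieldF' ρ) w.embedding
      have key : ∀ a b : (ZMod 3)ˣ, a ≠ 1 → b ≠ 1 → a * b = 1 := by decide
      by_cases hm : h ∈ kerOmega
      · obtain ⟨i, hi⟩ := exists_pow_mul hρ hg hm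
        refine ⟨i, Eq.trans ?_ (InfinitePlace.mk_embedding w)⟩
        refine congrArg InfinitePlace.mk (RingHom.ext fun x => ?_)
        have h1 := congrArg (g ^ (i : ℕ)) ((fixing_fieldF'_iff hρ _).2 hi x)
        rw [AlgEquiv.mul_apply, AlgEquiv.aut_inv, AlgEquiv.apply_symm_apply] at h1
        rw [hh, h1]
        rfl
      · have hc : complexConjugation * h ∈ kerOmega := by
          show modThreeCyclotomicChar _ = 1
          rw [map_mul]
          exact key _ _ complexConjugation_not_mem_kerOmega hm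
        obtain ⟨i, hi⟩ := exists_pow_mul hρ hg hc
        refine ⟨i, Eq.trans ?_ (InfinitePlace.mk_embedding w)⟩
        rw [InfinitePlace.mk_eq_iff]
        refine Or.inr (RingHom.ext fun x => ?_)
        have h1 := congrArg (g ^ (i : ℕ)) ((fixing_fieldF'_iff hρ _).2 hi x)
        rw [AlgEquiv.mul_apply, AlgEquiv.aut_inv, AlgEquiv.apply_symm_apply,
          AlgEquiv.mul_apply] at h1
        rw [hh]
        show starRingEnd ℂ (complexEmbedding ((g ^ (i : ℕ)) (x : Qbar))) = _
        refine (congrArg (fun q => starRingEnd ℂ (complexEmbedding q)) h1.symm).trans ?_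
        rw [complexEmbedding_complexConjugation, Complex.conj_conj]

/-- The restriction of `g` to `F'`. -/
def restrictF' (hρ : IsThreeRep W ρ) (g : GalQ) : fieldF' ρ →+* fieldF' ρ :=
  (g.toAlgHom.toRingHom.comp (fieldF' ρ).val.toRingHom).codRestrict (fieldF' ρ)
    fun x => apply_mem_fieldF' hρ g x

@[simp]
theorem coe_restrictF' (hρ : IsThreeRep W ρ) (g : GalQ) (x : fieldF' ρ) :
    (restrictF' hρ g x : Qbar) = g (x : Qbar) := rfl

/-- The generator `σ` of `Gal(F'/F)`. -/
def sigmaF' (hρ : IsThreeRep W ρ) {g : GalQ} (hg : ρ g = unipThree) :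
    letI := algFieldF hρ
    fieldF' ρ ≃ₐ[fieldF] fieldF' ρ :=
  letI := algFieldF hρ
  { toFun := restrictF' hρ g
    invFun := restrictF' hρ g⁻¹
    left_inv := fun x => Subtype.ext (by simp)
    right_inv := fun x => Subtype.ext (by simp)
    map_mul' := map_mul _
    map_add' := map_add _
    commutes' := fun x => Subtype.ext
      ((mem_kerOmega_iff_fixes hρ g).2 (mem_kerOmega_of_lift hρ hg) x) }

theorem coe_sigmaF' (hρ : IsThreeRep W ρ) {g : GalQ} (hg : ρ g = unipThree) (x : fieldF' ρ) :
    ((sigmaF' hρ hg x : fieldF' ρ) : Qbar) = g (x : Qbar) := rfl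

/-- The cubic twist attached to a lift of a generator. -/
def cubicTwist (hρ : IsThreeRep W ρ) {g : GalQ} (hg : ρ g = unipThree)
    [NumberField (fieldF' ρ)] :
    letI := algFieldF hρ
    CubicTwist (frameF hρ) (frameF' hρ hg) :=
  letI := algFieldF hρ
  { σ := sigmaF' hρ hg
    order_three := fun x => Subtype.ext (by
      have h := (fixing_fieldF'_iff hρ (g ^ 3)).2 (by
        rw [map_pow, hg, unipThree_pow_three]; exact one_mem _) x
      rw [pow_succ, pow_two, AlgEquiv.mul_apply, AlgEquiv.mul_apply] at h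
      simpa [coe_sigmaF'] using h)
    fixed := fun x hx => by
      have hx' : g (x : Qbar) = x := congrArg Subtype.val hx
      have hp : ∀ i : ℕ, (g ^ i) (x : Qbar) = x := fun i => by
        induction i with
        | zero => rfl
        | succ i ih => rw [pow_succ, AlgEquiv.mul_apply, hx', ih]
      refine ⟨⟨(x : Qbar), ?_⟩, Subtype.ext rfl⟩
      intro h
      obtain ⟨i, hi⟩ := exists_pow_mul hρ hg h.2
      have h1 := congrArg (g ^ (i : ℕ)) ((fixing_fieldF'_iff hρ _).2 hi x)
      rw [AlgEquiv.mul_apply, AlgEquiv.aut_inv, AlgEquiv.apply_symm_apply, hp] at h1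
      exact h1
    emb_base := fun i => RingHom.ext fun x => congrArg complexEmbedding
      ((mem_kerOmega_iff_fixes hρ _).2 (pow_mem_kerOmega hρ hg i) x)
    emb_twist := fun i x => by
      show complexEmbedding ((g ^ (i : ℕ)) (g (x : Qbar))) =
        complexEmbedding ((g ^ ((i + 1 : Fin 3) : ℕ)) (x : Qbar))
      rw [← AlgEquiv.mul_apply, ← pow_succ]
      fin_cases i
      · rfl
      · rfl
      · exact congrArg complexEmbedding ((fixing_fieldF'_iff hρ _).2
          (by rw [map_pow, hg, unipThree_pow_three]; exact one_mem _) x) }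

end Fermat.Agent.LT.Descent
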