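import Fermat.Agent.LT.Descent.CuspBound
import Fermat.Agent.LT.Descent.SphericalArch
import Fermat.Agent.LT.Descent.ArchCompose

/-!
# The archimedean test family of the descent

A base kernel with real Lipschitz profile and real nonzero spherical transform, and the triple
composites of kernels: `(k, k₀, k₀)` upstairs matches `k * k₀ * k₀` downstairs.
-/

set_option autoImplicit false

noncomputable section

namespace Fermat.Agent.LT.Descent

open Fermat.Agent.LT.Adelic MeasureTheory
open scoped ComplexConjugate NNReal

/-- Kernels with equal values are equal. -/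
theorem ppker_ext {k k' : PPKer} (h : ∀ p q, k p q = k' p q) : k = k' := by
  cases k; cases k'
  congr 1
  funext p q
  exact h p q

theorem ppker_comp_comm (k k' : PPKer) : PPKer.comp k k' = PPKer.comp k' k :=
  ppker_ext (PPKer.comp_comm k k')

theorem ppker_comp_assoc (k k' k'' : PPKer) :
    PPKer.comp (PPKer.comp k k') k'' = PPKer.comp k (PPKer.comp k' k'') :=
  ppker_ext (PPKer.comp_assoc k k' k'')

theorem ppker_comp_left_comm (k k' k'' : PPKer) :
    PPKer.comp k (PPKer.comp k' k'') = PPKer.comp k' (PPKer.comp k k'') := by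
  rw [← ppker_comp_assoc, ppker_comp_comm k k', ppker_comp_assoc]

theorem conjKer_comp_eq (k k' : PPKer) :
    (PPKer.comp k k').conjKer = PPKer.comp k.conjKer k'.conjKer :=
  ppker_ext fun p q => by
    simp only [PPKer.conjKer_apply, PPKer.comp_apply, ← integral_conj, map_mul]

/-! ### Real profiles -/

/-- The kernel of a real profile. -/
def realKer (k : ℝ → ℝ) (hk : Continuous k) (hc : HasCompactSupport k) : PPKer :=
  PPKer.ofProfile (fun u => (k u : ℂ)) (Complex.continuous_ofReal.comp hk)
    (hc.comp_left Complex.ofReal_zero)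

theorem realKer_apply (k : ℝ → ℝ) (hk : Continuous k) (hc : HasCompactSupport k) (p q : HSpace) :
    realKer k hk hc p q = (k (HSpace.coshDist p q) : ℂ) := rfl

theorem conjKer_realKer (k : ℝ → ℝ) (hk : Continuous k) (hc : HasCompactSupport k) :
    (realKer k hk hc).conjKer = realKer k hk hc :=
  ppker_ext fun p q => by rw [PPKer.conjKer_apply, realKer_apply]; exact Complex.conj_ofReal _

theorem exists_hat_realKer (k : ℝ → ℝ) (hk : Continuous k) (hc : HasCompactSupport k) :
    ∃ c : ℝ, PPKer.hat (realKer k hk hc) 0 = (c : ℂ) := by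
  refine ⟨∫ τ, k (HSpace.coshDist HSpace.base τ) * τ.r ∂HSpace.measure, ?_⟩
  simp only [PPKer.hat, realKer_apply, add_zero, Complex.cpow_one, ← Complex.ofReal_mul]
  exact integral_complex_ofReal

theorem lipschitzWith_ofReal_comp {L : ℝ≥0} {k : ℝ → ℝ} (hL : LipschitzWith L k) :
    LipschitzWith L fun u => (k u : ℂ) := by
  simpa [Function.comp_def] using Complex.ofRealLI.isometry.lipschitz.comp hL

theorem isLipKernel_of_real {ι : Type*} [Finite ι] (k : ι → ℝ → ℝ) {L : ι → ℝ≥0}
    (hL : ∀ i, LipschitzWith (L i) (k i)) (hc : ∀ i, HasCompactSupport (k i)) :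
    IsLipKernel fun i => realKer (k i) (hL i).continuous (hc i) := by
  cases nonempty_fintype ι
  choose T hT using fun i => (hc i).isCompact.bddAbove
  refine ⟨fun i u => (k i u : ℂ), ∑ i, L i, max 1 (∑ i, |T i|), le_max_left _ _,
    fun i => (lipschitzWith_ofReal_comp (hL i)).weaken
      (Finset.single_le_sum (f := L) (fun j _ => zero_le) (Finset.mem_univ i)),
    fun i t ht => ?_, fun i p q => rfl⟩
  show ((k i t : ℝ) : ℂ) = 0
  rw [Complex.ofReal_eq_zero]
  by_contra h
  have h1 : t ≤ T i := hT i (subset_tsupport _ h)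
  have h2 : |T i| ≤ ∑ j, |T j| :=
    Finset.single_le_sum (f := fun j => |T j|) (fun j _ => abs_nonneg _) (Finset.mem_univ i)
  linarith [le_abs_self (T i), le_max_right (1 : ℝ) (∑ j, |T j|)]

/-! ### The base kernel -/

/-- The profile of the base kernel. -/
def baseProfile : ℝ → ℝ := exists_profile.choose

theorem lipschitzWith_baseProfile : LipschitzWith 1 baseProfile := exists_profile.choose_spec.1

theorem hasCompactSupport_baseProfile : HasCompactSupport baseProfile :=
  exists_profile.choose_spec.2.1

/-- The base kernel `k₀`. -/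
def baseKer : PPKer :=
  realKer baseProfile lipschitzWith_baseProfile.continuous hasCompactSupport_baseProfile

theorem conjKer_baseKer : baseKer.conjKer = baseKer := conjKer_realKer _ _ _

theorem hat_baseKer_ne_zero : PPKer.hat baseKer 0 ≠ 0 := exists_profile.choose_spec.2.2

theorem exists_hat_baseKer : ∃ c : ℝ, c ≠ 0 ∧ PPKer.hat baseKer 0 = (c : ℂ) := by
  obtain ⟨c, hc⟩ := exists_hat_realKer baseProfile lipschitzWith_baseProfile.continuous
    hasCompactSupport_baseProfile
  exact ⟨c, fun h => hat_baseKer_ne_zero (by rw [baseKer, hc, h, Complex.ofReal_zero]), hc⟩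

theorem isLipKernel_baseKer {ι : Type*} [Finite ι] : IsLipKernel fun _ : ι => baseKer :=
  isLipKernel_of_real (fun _ => baseProfile) (fun _ => lipschitzWith_baseProfile)
    fun _ => hasCompactSupport_baseProfile

/-! ### Triple composites -/

/-- The composite of three kernels. -/
def comp3 (k : Fin 3 → PPKer) : PPKer := PPKer.comp (k 0) (PPKer.comp (k 1) (k 2))

theorem isComposite3_comp3 (k : Fin 3 → PPKer) : IsComposite3 (comp3 k) k := fun _ _ => rfl

theorem isComposite3_iff {kc : PPKer} {k : Fin 3 → PPKer} :
    IsComposite3 kc k ↔ kc = comp3 k :=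
  ⟨fun h => ppker_ext h, fun h => h ▸ isComposite3_comp3 k⟩

theorem comp3_comp (k l : Fin 3 → PPKer) :
    comp3 (fun i => PPKer.comp (k i) (l i)) = PPKer.comp (comp3 k) (comp3 l) := by
  simp only [comp3, ppker_comp_assoc, ppker_comp_comm, ppker_comp_left_comm]

/-- Composites are closed under componentwise composition. -/
theorem IsComposite3.comp {kc lc : PPKer} {k l : Fin 3 → PPKer} (hk : IsComposite3 kc k)
    (hl : IsComposite3 lc l) :
    IsComposite3 (PPKer.comp kc lc) fun i => PPKer.comp (k i) (l i) := by
  rw [isComposite3_iff] at hk hl ⊢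
  rw [hk, hl, comp3_comp]

theorem conjKer_comp3 (k : Fin 3 → PPKer) :
    (comp3 k).conjKer = comp3 fun i => (k i).conjKer := by
  simp only [comp3, conjKer_comp_eq]

theorem hat_comp3 (k : Fin 3 → PPKer) (s : ℂ) :
    PPKer.hat (comp3 k) s = PPKer.hat (k 0) s * PPKer.hat (k 1) s * PPKer.hat (k 2) s := by
  rw [comp3, PPKer.hat_comp, PPKer.hat_comp, mul_assoc]

/-- `k` at one place and the base kernel at the two others. -/
def baseAt (i : Fin 3) (k : PPKer) : Fin 3 → PPKer := Function.update (fun _ => baseKer) i k

theorem isComposite3_baseAt (i : Fin 3) (k : PPKer) :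
    IsComposite3 (PPKer.comp k (PPKer.comp baseKer baseKer)) (baseAt i k) := by
  rw [isComposite3_iff]
  fin_cases i <;> simp [comp3, baseAt, ppker_comp_left_comm k baseKer]
  rw [ppker_comp_comm baseKer k]

theorem baseAt_zero (k : PPKer) : baseAt 0 k = ![k, baseKer, baseKer] := by
  funext j
  fin_cases j <;> simp [baseAt]

theorem isLipKernel_baseAt (i : Fin 3) {L : ℝ≥0} {k : ℝ → ℝ} (hL : LipschitzWith L k)
    (hc : HasCompactSupport k) : IsLipKernel (baseAt i (realKer k hL.continuous hc)) := by
  classical
  have h := isLipKernel_of_real (Function.update (fun _ : Fin 3 => baseProfile) i k)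
    (L := Function.update (fun _ : Fin 3 => (1 : ℝ≥0)) i L) (fun j => ?_) (fun j => ?_)
  · convert h using 1
    funext j
    refine ppker_ext fun p q => ?_
    rcases eq_or_ne j i with rfl | hj <;>
      simp [baseAt, baseKer, realKer_apply, Function.update_of_ne, *]
  · rcases eq_or_ne j i with rfl | hj
    · simpa using hL
    · simpa [Function.update_of_ne hj] using lipschitzWith_baseProfile
  · rcases eq_or_ne j i with rfl | hj
    · simpa using hc
    · simpa [Function.update_of_ne hj] using hasCompactSupport_baseProfile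

end Fermat.Agent.LT.Descent
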