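import Fermat.Agent.LT.Descent.IwahoriAtoms
import Fermat.Agent.LT.Descent.Transfer

/-!
# The test families at the auxiliary place

`auxX`, `auxX' w` put `X` at `u` and at one place `w` over it; `auxU n` puts `U^(3n)` at `u` and
`auxU' n` puts `Uⁿ` at the three places over it.  They are locally matched, commute, have real
entries, and `Xʲ U^(3n)`, `Xʲ Uⁿ` have big support.
-/

set_option autoImplicit false
set_option linter.unusedSectionVars false

noncomputable section

namespace Fermat.Agent.LT.Descent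

open IsDedekindDomain IsDedekindDomain.HeightOneSpectrum Matrix NumberField Filter Function
open Fermat.Agent.LT.Adelic Fermat.Agent.LT.Tame Fermat.Agent.LT.Aleph
open Fermat.Agent.LT.Descent.Places
open scoped MatrixGroups

variable {K : Type*} [Field K] [NumberField K] {K' : Type*} [Field K'] [NumberField K']
  [Algebra K K'] {Φ : Frame K Unit} {Φ' : Frame K' (Fin 3)} {tw : CubicTwist Φ Φ'}

namespace DescentData

variable (D : DescentData tw)

/-- The level at `u` is the Iwahori group. -/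
theorem map_loc_u : (D.lev.loc D.u).map ProjGenLinGroup.mk = pglIwahori D.u := by
  rw [D.lev.loc_of_aux D.u_three D.u_not_tame (Set.mem_singleton _)]
  rfl

/-- The levels over `u` are Iwahori groups. -/
theorem map_loc'_of_above {w : HeightOneSpectrum (𝓞 K')} (h : IsAbove D.u w) :
    (D.lev'.loc w).map ProjGenLinGroup.mk = pglIwahori w := by
  have h3 : (3 : 𝓞 K') ∉ w.asIdeal := fun h' => D.u_three ((mem_threePlaces_iff h).1 h')
  rw [D.lev'.loc_of_aux h3 (mt (D.mem_lev'_tame_iff h).1 D.u_not_tame)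
    ((D.mem_lev'_aux_iff h).2 (Set.mem_singleton _))]
  rfl

/-- `X` at `u`. -/
def xKer : LKer PGL(2, D.u.adicCompletion K) (LocY D.lev.loc D.u) := iwXAt D.map_loc_u

/-- `Uⁿ` at `u`. -/
def uKer (n : ℕ) : LKer PGL(2, D.u.adicCompletion K) (LocY D.lev.loc D.u) :=
  iwUAt D.map_loc_u n

/-- `X` at a place over `u`. -/
def xKer' {w : HeightOneSpectrum (𝓞 K')} (h : IsAbove D.u w) :
    LKer PGL(2, w.adicCompletion K') (LocY D.lev'.loc w) := iwXAt (D.map_loc'_of_above h)

/-- `Uⁿ` at a place over `u`. -/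
def uKer' {w : HeightOneSpectrum (𝓞 K')} (h : IsAbove D.u w) (n : ℕ) :
    LKer PGL(2, w.adicCompletion K') (LocY D.lev'.loc w) := iwUAt (D.map_loc'_of_above h) n

theorem absNorm_above {w : HeightOneSpectrum (𝓞 K')} (h : IsAbove D.u w) :
    Ideal.absNorm w.asIdeal = Ideal.absNorm D.u.asIdeal := D.u_split.absNorm D.gen h

/-- Read at `u` the matrix `X` over it is `X`. -/
theorem pullKer_xKer' {w : HeightOneSpectrum (𝓞 K')} (P : SplitPlace tw.σ D.u w)
    (h : IsAbove D.u w) :
    P.pullKer (D.isSplitLevel D.u_split) (D.xKer' h) = D.xKer :=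
  P.pullKer_of_carries _ (carries_iwXAt P _ _ _ (D.absNorm_above h))

/-- Read at `u` the matrix `Uⁿ` over it is `Uⁿ`. -/
theorem pullKer_uKer' {w : HeightOneSpectrum (𝓞 K')} (P : SplitPlace tw.σ D.u w)
    (h : IsAbove D.u w) (n : ℕ) :
    P.pullKer (D.isSplitLevel D.u_split) (D.uKer' h n) = D.uKer n :=
  P.pullKer_of_carries _ (carries_iwUAt P _ _ _ n)

/-! ### The families -/

/-- `X` at `u`. -/
def auxX : KerFamily D.lev.loc := KerFamily.single D.u D.xKer

open Classical in
/-- `X` at the place `w` over `u`. -/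
def auxX' (w : HeightOneSpectrum (𝓞 K')) : KerFamily D.lev'.loc :=
  if h : IsAbove D.u w then KerFamily.single w (D.xKer' h) else KerFamily.one D.lev'.loc

/-- `U^(3n)` at `u`. -/
def auxU (n : ℕ) : KerFamily D.lev.loc := KerFamily.single D.u (D.uKer (3 * n))

open Classical in
/-- `Uⁿ` at the places over `u`. -/
def auxU' (n : ℕ) : KerFamily D.lev'.loc where
  ker w := if h : IsAbove D.u w then D.uKer' h n else 1
  eventually_one := by
    refine ((finite_placesAbove (T := {D.u}) D.gen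
      (Set.finite_singleton _)).compl_mem_cofinite) |> Filter.mem_of_superset <| fun w hw => ?_
    exact dif_neg fun h => hw ⟨D.u, rfl, h⟩

theorem auxX_ker_u : D.auxX.ker D.u = D.xKer := KerFamily.single_ker_self _ _

theorem auxX_ker_ne {v : HeightOneSpectrum (𝓞 K)} (h : v ≠ D.u) : D.auxX.ker v = 1 :=
  KerFamily.single_ker_ne h _

theorem auxX'_ker_self {w : HeightOneSpectrum (𝓞 K')} (h : IsAbove D.u w) :
    (D.auxX' w).ker w = D.xKer' h := by
  rw [auxX', dif_pos h, KerFamily.single_ker_self]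

theorem auxX'_ker_ne {w x : HeightOneSpectrum (𝓞 K')} (h : x ≠ w) : (D.auxX' w).ker x = 1 := by
  unfold auxX'
  split_ifs
  · exact KerFamily.single_ker_ne h _
  · rfl

theorem auxX'_ker_of_not_above {w x : HeightOneSpectrum (𝓞 K')} (h : ¬IsAbove D.u x) :
    (D.auxX' w).ker x = 1 := by
  rcases eq_or_ne x w with rfl | hx
  · rw [auxX', dif_neg h]; rfl
  · exact D.auxX'_ker_ne hx

theorem auxU_ker_u (n : ℕ) : (D.auxU n).ker D.u = D.uKer (3 * n) := KerFamily.single_ker_self _ _

theorem auxU_ker_ne (n : ℕ) {v : HeightOneSpectrum (𝓞 K)} (h : v ≠ D.u) : (D.auxU n).ker v = 1 :=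
  KerFamily.single_ker_ne h _

theorem auxU'_ker_above (n : ℕ) {w : HeightOneSpectrum (𝓞 K')} (h : IsAbove D.u w) :
    (D.auxU' n).ker w = D.uKer' h n := by
  classical
  show (if h : IsAbove D.u w then D.uKer' h n else 1) = _
  rw [dif_pos h]

theorem auxU'_ker_of_not_above (n : ℕ) {w : HeightOneSpectrum (𝓞 K')} (h : ¬IsAbove D.u w) :
    (D.auxU' n).ker w = 1 := dif_neg h

/-! ### Matching -/

/-- A split place over `u`. -/
theorem splitPlace_of_above {w : HeightOneSpectrum (𝓞 K')} (h : IsAbove D.u w) :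
    SplitPlace tw.σ D.u w := ⟨D.gen.order_three, D.gen.fixed, h, D.u_split w h⟩

theorem isMatchedAt_u {k : KerFamily D.lev.loc} {k' : KerFamily D.lev'.loc}
    (h : ∃ (w : HeightOneSpectrum (𝓞 K')) (P : SplitPlace tw.σ D.u w),
      k.ker D.u = P.pullKer (D.isSplitLevel D.u_split) (k'.ker w) *
        (P.next.pullKer (D.isSplitLevel D.u_split) (k'.ker _) *
          P.next.next.pullKer (D.isSplitLevel D.u_split) (k'.ker _))) :
    D.IsMatchedAt k k' D.u where
  tame ht := absurd ht D.u_not_tame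
  inert hi := absurd D.u_split hi.not_isSplit
  split _ := h

/-- `X` matches `X` at one place over `u`. -/
theorem isLocallyMatched_auxX {w : HeightOneSpectrum (𝓞 K')} (h : IsAbove D.u w) :
    D.IsLocallyMatched D.auxX (D.auxX' w) := fun v => by
  rcases eq_or_ne v D.u with rfl | hv
  · refine D.isMatchedAt_u ⟨w, D.splitPlace_of_above h, ?_⟩
    rw [auxX_ker_u, auxX'_ker_self D h, D.auxX'_ker_ne (D.splitPlace_of_above h).moved,
      D.auxX'_ker_ne (D.splitPlace_of_above h).moved_twice, pullKer_xKer', SplitPlace.pullKer_one,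
      SplitPlace.pullKer_one, one_mul, mul_one]
  · exact IsTrivialAt.isMatchedAt ⟨D.auxX_ker_ne hv, fun x hx =>
      D.auxX'_ker_of_not_above fun hu => hv (isAbove_unique hx hu)⟩

/-- `U^(3n)` matches `Uⁿ` at the three places over `u`. -/
theorem isLocallyMatched_auxU (n : ℕ) : D.IsLocallyMatched (D.auxU n) (D.auxU' n) := fun v => by
  rcases eq_or_ne v D.u with rfl | hv
  · obtain ⟨w, hw⟩ := exists_isAbove (K' := K') D.u
    have P := D.splitPlace_of_above hw
    refine D.isMatchedAt_u ⟨w, P, ?_⟩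
    rw [auxU_ker_u, D.auxU'_ker_above n hw, D.auxU'_ker_above n P.next.above,
      D.auxU'_ker_above n P.next.next.above, pullKer_uKer', pullKer_uKer', pullKer_uKer']
    simp only [uKer, iwUAt_mul]
    congr 1
    ring
  · exact IsTrivialAt.isMatchedAt ⟨D.auxU_ker_ne n hv, fun x hx =>
      D.auxU'_ker_of_not_above n fun hu => hv (isAbove_unique hx hu)⟩

/-! ### Commutation, real entries, symmetry -/

theorem commute_xKer_uKer (n : ℕ) : Commute D.xKer (D.uKer n) := commute_iwXAt_iwUAt _ n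

theorem uKer_mul (n m : ℕ) : D.uKer n * D.uKer m = D.uKer (n + m) := iwUAt_mul _ n m

theorem uKer_zero : D.uKer 0 = 1 := iwUAt_zero _

theorem commute_xKer'_uKer' {w : HeightOneSpectrum (𝓞 K')} (h : IsAbove D.u w) (n : ℕ) :
    Commute (D.xKer' h) (D.uKer' h n) := commute_iwXAt_iwUAt _ n

theorem uKer'_mul {w : HeightOneSpectrum (𝓞 K')} (h : IsAbove D.u w) (n m : ℕ) :
    D.uKer' h n * D.uKer' h m = D.uKer' h (n + m) := iwUAt_mul _ n m

theorem uKer'_zero {w : HeightOneSpectrum (𝓞 K')} (h : IsAbove D.u w) : D.uKer' h 0 = 1 :=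
  iwUAt_zero _

/-- The families below commute. -/
theorem auxX_comp_auxU (n : ℕ) : D.auxX.comp (D.auxU n) = (D.auxU n).comp D.auxX := by
  rw [auxX, auxU, KerFamily.single_comp_single_same, KerFamily.single_comp_single_same]
  exact congrArg (KerFamily.single D.u) (D.commute_xKer_uKer _).eq

theorem auxU_comp_auxU (n m : ℕ) : (D.auxU n).comp (D.auxU m) = D.auxU (n + m) := by
  rw [auxU, auxU, auxU, KerFamily.single_comp_single_same, mul_add]
  exact congrArg (KerFamily.single D.u) (D.uKer_mul _ _)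

theorem auxU'_comp_auxU' (n m : ℕ) : (D.auxU' n).comp (D.auxU' m) = D.auxU' (n + m) :=
  KerFamily.ext' fun w => by
    show (D.auxU' n).ker w * (D.auxU' m).ker w = _
    by_cases h : IsAbove D.u w
    · rw [D.auxU'_ker_above n h, D.auxU'_ker_above m h, D.auxU'_ker_above _ h, uKer'_mul]
    · rw [D.auxU'_ker_of_not_above n h, D.auxU'_ker_of_not_above m h,
        D.auxU'_ker_of_not_above _ h, one_mul]

theorem auxX'_comp_auxU' (w : HeightOneSpectrum (𝓞 K')) (n : ℕ) :
    (D.auxX' w).comp (D.auxU' n) = (D.auxU' n).comp (D.auxX' w) := KerFamily.ext' fun x => by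
  show (D.auxX' w).ker x * (D.auxU' n).ker x = (D.auxU' n).ker x * (D.auxX' w).ker x
  by_cases h : IsAbove D.u x
  · rcases eq_or_ne x w with rfl | hx
    · rw [D.auxX'_ker_self h, D.auxU'_ker_above n h, (D.commute_xKer'_uKer' h n).eq]
    · rw [D.auxX'_ker_ne hx, one_mul, mul_one]
  · rw [D.auxX'_ker_of_not_above h, one_mul, mul_one]

theorem auxX'_comp_auxX' (w x : HeightOneSpectrum (𝓞 K')) :
    (D.auxX' w).comp (D.auxX' x) = (D.auxX' x).comp (D.auxX' w) := KerFamily.ext' fun y => by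
  show (D.auxX' w).ker y * (D.auxX' x).ker y = (D.auxX' x).ker y * (D.auxX' w).ker y
  rcases eq_or_ne y w with rfl | hw
  · rcases eq_or_ne y x with rfl | hx
    · rfl
    · rw [D.auxX'_ker_ne hx, one_mul, mul_one]
  · rw [D.auxX'_ker_ne hw, one_mul, mul_one]

theorem isReal_xKer : D.xKer.IsReal := isReal_iwXAt _

theorem isReal_uKer (n : ℕ) : (D.uKer n).IsReal := isReal_iwUAt _ n

theorem transpose_xKer : D.xKer.transpose = D.xKer := transpose_iwXAt _

theorem isReal_xKer' {w : HeightOneSpectrum (𝓞 K')} (h : IsAbove D.u w) : (D.xKer' h).IsReal :=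
  isReal_iwXAt _

theorem isReal_uKer' {w : HeightOneSpectrum (𝓞 K')} (h : IsAbove D.u w) (n : ℕ) :
    (D.uKer' h n).IsReal := isReal_iwUAt _ n

theorem transpose_xKer' {w : HeightOneSpectrum (𝓞 K')} (h : IsAbove D.u w) :
    (D.xKer' h).transpose = D.xKer' h := transpose_iwXAt _

theorem transpose_auxX : D.auxX.transpose = D.auxX := KerFamily.ext' fun v => by
  show (D.auxX.ker v).transpose = D.auxX.ker v
  rcases eq_or_ne v D.u with rfl | hv
  · rw [auxX_ker_u, transpose_xKer]
  · rw [D.auxX_ker_ne hv]; exact LKer.transpose_one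

theorem transpose_auxX' (w : HeightOneSpectrum (𝓞 K')) : (D.auxX' w).transpose = D.auxX' w :=
  KerFamily.ext' fun x => by
  show ((D.auxX' w).ker x).transpose = (D.auxX' w).ker x
  by_cases h : IsAbove D.u x
  · rcases eq_or_ne x w with rfl | hx
    · rw [D.auxX'_ker_self h, transpose_xKer']
    · rw [D.auxX'_ker_ne hx]; exact LKer.transpose_one
  · rw [D.auxX'_ker_of_not_above h]; exact LKer.transpose_one

/-! ### Expansion and support -/

/-- `Xʲ Uⁿ` at `u` in powers of `U`. -/
theorem xKer_pow_mul_uKer {j n : ℕ} (hjn : j ≤ n) :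
    D.xKer ^ j * D.uKer n = ∑ k ∈ Finset.range (j + 1),
      ((j.choose k : ℂ) * (Ideal.absNorm D.u.asIdeal : ℂ) ^ (j - k)) • D.uKer (n + 2 * k - j) :=
  iwXAt_pow_mul_iwUAt _ hjn

/-- **Big support below.** -/
theorem isBigOn_aux (k : KerFamily D.lev.loc) {j n : ℕ} (hjn : j < n)
    (hu : k.ker D.u = D.xKer ^ j * D.uKer n) {a b : 𝓞 K}
    (haway : ∀ v, v ≠ D.u → (k.ker v).SuppIn
      (IsBoxed Valued.v (v.intValuation a) (v.intValuation b))) :
    IsBigOn (k.toHKer D.isLocal) {D.u} a b (Set.Icc ((n : ℤ) - j) (n + j)) := by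
  refine isBigOn_toHKer D.isLocal k (fun v hv => haway v (by simpa using hv)) fun v hv => ?_
  rw [Set.mem_singleton_iff] at hv
  subst hv
  rw [hu]
  exact suppIn_iwXAt_pow_mul_iwUAt (V := D.lev.loc) D.map_loc_u hjn

/-- **Big support above.** -/
theorem isBigOn_aux' (k : KerFamily D.lev'.loc) {J n : ℕ} (hJn : J < n)
    (hu : ∀ (w : HeightOneSpectrum (𝓞 K')) (h : IsAbove D.u w),
      ∃ j ≤ J, k.ker w = D.xKer' h ^ j * D.uKer' h n) {a b : 𝓞 K'}
    (haway : ∀ w, ¬IsAbove D.u w → (k.ker w).SuppIn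
      (IsBoxed Valued.v (w.intValuation a) (w.intValuation b))) :
    IsBigOn (k.toHKer D.isLocal') (placesAbove {D.u}) a b (Set.Icc ((n : ℤ) - J) (n + J)) := by
  refine isBigOn_toHKer D.isLocal' k (fun w hw => haway w fun h => hw ⟨D.u, rfl, h⟩) fun w hw => ?_
  obtain ⟨v, hv, hvw⟩ := hw
  rw [Set.mem_singleton_iff] at hv
  subst hv
  obtain ⟨j, hj, he⟩ := hu w hvw
  rw [he]
  refine (suppIn_iwXAt_pow_mul_iwUAt (V := D.lev'.loc) (D.map_loc'_of_above hvw)
    (lt_of_le_of_lt hj hJn)).mono fun M => ?_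
  rintro ⟨e, ⟨he1, he2⟩, hM⟩
  exact ⟨e, ⟨by omega, by omega⟩, hM⟩

end DescentData

end Fermat.Agent.LT.Descent
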