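import Mathlib.Algebra.DirectSum.LinearMap
import Mathlib.Analysis.Complex.Basic
import Mathlib.Analysis.Complex.Polynomial.Basic
import Mathlib.Analysis.InnerProductSpace.Trace
import Mathlib.Analysis.InnerProductSpace.PiL2
import Mathlib.LinearAlgebra.Eigenspace.Minpoly
import Mathlib.LinearAlgebra.Eigenspace.Triangularizable
import Mathlib.Tactic.LinearCombination

/-!
# Traces of powers inside one finite-dimensional class

For commuting `U, A` the trace of `Uⁿ A` is `∑ ωⁿ tr(A | generalised eigenspace of ω)`, and each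
of these traces is at most the dimension times a bound for `A`.  The eigenvalues of a product of
three commuting roots of `U² - xU + q = 0` with `x` real are real or of absolute value `√q³`.
-/

set_option autoImplicit false

noncomputable section

namespace Fermat.Agent.LT.Descent

open Module

section Trace

variable {V : Type*} [AddCommGroup V] [Module ℂ V] (U A : End ℂ V)

/-- The trace of `A` on the generalised `ω`-eigenspace of `U`. -/
def eigTrace (h : Commute U A) (ω : ℂ) : ℂ :=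
  LinearMap.trace ℂ (U.maxGenEigenspace ω)
    (A.restrict (End.mapsTo_maxGenEigenspace_of_comm h ω))

variable [FiniteDimensional ℂ V]

/-- The eigenvalues. -/
def eigs : Finset ℂ := U.finite_hasEigenvalue.toFinset

theorem mem_eigs {ω : ℂ} : ω ∈ eigs U ↔ U.HasEigenvalue ω := Set.Finite.mem_toFinset _

theorem maxGenEigenspace_ne_bot_iff {ω : ℂ} : U.maxGenEigenspace ω ≠ ⊥ ↔ U.HasEigenvalue ω :=
  End.hasUnifEigenvalue_iff_hasUnifEigenvalue_one ENat.top_pos

variable {U A}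

/-- **Decomposition of the trace of `Uⁿ A`.** -/
theorem trace_pow_mul (h : Commute U A) (n : ℕ) :
    LinearMap.trace ℂ V (U ^ n * A) = ∑ ω ∈ eigs U, ω ^ n * eigTrace U A h ω := by
  classical
  have hUn : ∀ ω, Set.MapsTo (U ^ n * A : End ℂ V) (U.maxGenEigenspace ω) (U.maxGenEigenspace ω) :=
    fun ω => End.mapsTo_maxGenEigenspace_of_comm (((Commute.refl U).pow_right n).mul_right h) ω
  have hint := DirectSum.isInternal_submodule_of_iSupIndep_of_iSup_eq_top
    U.independent_maxGenEigenspace U.iSup_maxGenEigenspace_eq_top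
  have hfin : {ω | U.maxGenEigenspace ω ≠ ⊥}.Finite :=
    U.finite_hasEigenvalue.subset fun ω hω => (maxGenEigenspace_ne_bot_iff U).1 hω
  rw [LinearMap.trace_eq_sum_trace_restrict' hint hfin hUn]
  refine Finset.sum_congr (Finset.ext fun ω => ?_) fun ω _ => ?_
  · rw [Set.Finite.mem_toFinset, mem_eigs]; exact maxGenEigenspace_ne_bot_iff U
  · have hA := End.mapsTo_maxGenEigenspace_of_comm h ω
    have hU := End.mapsTo_maxGenEigenspace_of_comm (Commute.refl U) ω
    clear hint hfin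
    induction n with
    | zero =>
      rw [pow_zero ω, one_mul, eigTrace]
      exact congrArg _ (LinearMap.ext fun v => Subtype.ext (by simp))
    | succ n ih =>
      have hn : ∀ μ, Set.MapsTo (U ^ n * A : End ℂ V) (U.maxGenEigenspace μ)
          (U.maxGenEigenspace μ) :=
        fun μ => End.mapsTo_maxGenEigenspace_of_comm (((Commute.refl U).pow_right n).mul_right h) μ
      have hsplit : (U ^ (n + 1) * A : End ℂ V).restrict (hUn ω) =
          ((U ^ n * A : End ℂ V).restrict (hn ω)) ∘ₗ (U.restrict hU) := by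
        refine LinearMap.ext fun v => Subtype.ext ?_
        show (U ^ (n + 1) * A : End ℂ V) v = (U ^ n * A : End ℂ V) (U v)
        rw [pow_succ, mul_assoc, h.eq, ← mul_assoc]
        rfl
      rw [hsplit, LinearMap.trace_comp_eq_mul_of_commute_of_isNilpotent ω
        (LinearMap.restrict_commute (((Commute.refl U).pow_right n).mul_right h).symm (hn ω) hU)
        (End.isNilpotent_restrict_maxGenEigenspace_sub_algebraMap U ω), ih hn, pow_succ,
        mul_left_comm, mul_assoc]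

/-- The generalised eigenspaces fill the space. -/
theorem sum_finrank_maxGenEigenspace :
    ∑ ω ∈ eigs U, (finrank ℂ (U.maxGenEigenspace ω) : ℝ) = finrank ℂ V := by
  have key := trace_pow_mul (U := U) (A := 1) (Commute.one_right U) 0
  rw [pow_zero, one_mul, LinearMap.trace_one] at key
  have h1 : ∀ ω, eigTrace U 1 (Commute.one_right U) ω =
      (finrank ℂ (U.maxGenEigenspace ω) : ℂ) := fun ω => by
    rw [eigTrace, ← LinearMap.trace_one ℂ (U.maxGenEigenspace ω)]
    rfl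
  simp only [h1, pow_zero, one_mul] at key
  exact_mod_cast key.symm

theorem trace_eq_sum_eigTrace (h : Commute U A) :
    LinearMap.trace ℂ V A = ∑ ω ∈ eigs U, eigTrace U A h ω := by
  simpa using trace_pow_mul h 0

end Trace

section Bound

variable {V : Type*} [NormedAddCommGroup V] [InnerProductSpace ℂ V] [FiniteDimensional ℂ V]
  {U A : End ℂ V}

theorem norm_trace_le {W : Type*} [NormedAddCommGroup W] [InnerProductSpace ℂ W]
    [FiniteDimensional ℂ W] (T : End ℂ W) {a : ℝ} (hT : ∀ v, ‖T v‖ ≤ a * ‖v‖) :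
    ‖LinearMap.trace ℂ W T‖ ≤ finrank ℂ W * a := by
  rw [LinearMap.trace_eq_sum_inner T (stdOrthonormalBasis ℂ W)]
  refine (norm_sum_le _ _).trans ?_
  calc ∑ i, ‖inner ℂ (stdOrthonormalBasis ℂ W i) (T (stdOrthonormalBasis ℂ W i))‖
      ≤ ∑ _i : Fin (finrank ℂ W), a := Finset.sum_le_sum fun i _ => by
        have h1 := norm_inner_le_norm (𝕜 := ℂ) (stdOrthonormalBasis ℂ W i)
          (T (stdOrthonormalBasis ℂ W i))
        have h2 := hT (stdOrthonormalBasis ℂ W i)
        rw [(stdOrthonormalBasis ℂ W).norm_eq_one, one_mul] at h1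
        rw [(stdOrthonormalBasis ℂ W).norm_eq_one, mul_one] at h2
        exact h1.trans h2
    _ = finrank ℂ W * a := by simp

theorem norm_eigTrace_le (h : Commute U A) {a : ℝ} (hA : ∀ v, ‖A v‖ ≤ a * ‖v‖) (ω : ℂ) :
    ‖eigTrace U A h ω‖ ≤ finrank ℂ (U.maxGenEigenspace ω) * a :=
  norm_trace_le _ fun v => hA v

/-- The total size of the traces on one class. -/
theorem sum_norm_eigTrace_le (h : Commute U A) {a : ℝ} (hA : ∀ v, ‖A v‖ ≤ a * ‖v‖) :
    ∑ ω ∈ eigs U, ‖eigTrace U A h ω‖ ≤ finrank ℂ V * a := by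
  rw [← sum_finrank_maxGenEigenspace (U := U), Finset.sum_mul]
  exact Finset.sum_le_sum fun ω _ => norm_eigTrace_le h hA ω

end Bound

section Roots

/-- The roots of `c² - xc + q` for real `x` and positive `q`. -/
theorem root_cases {x q : ℝ} (hq : 0 < q) {c : ℂ} (hc : c * c - x * c + q = 0) :
    c ≠ 0 ∧ ‖c‖ ≤ |x| + Real.sqrt q ∧
      ((c.im = 0 ∧ 4 * q ≤ x ^ 2) ∨ (‖c‖ = Real.sqrt q ∧ x ^ 2 < 4 * q)) := by
  have hre := congrArg Complex.re hc
  have him := congrArg Complex.im hc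
  simp only [Complex.add_re, Complex.sub_re, Complex.mul_re, Complex.ofReal_re, Complex.ofReal_im,
    Complex.add_im, Complex.sub_im, Complex.mul_im, Complex.zero_re, Complex.zero_im, zero_mul,
    sub_zero, add_zero] at hre him
  have hc0 : c ≠ 0 := by
    rintro rfl
    simp at hre
    linarith
  refine ⟨hc0, ?_⟩
  rcases eq_or_ne c.im 0 with hb | hb
  · rw [hb] at hre
    have hn : ‖c‖ = |c.re| := by
      rw [Complex.norm_def, Complex.normSq_apply, hb, mul_zero, add_zero, Real.sqrt_mul_self_eq_abs]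
    refine ⟨?_, Or.inl ⟨hb, by nlinarith [sq_nonneg (2 * c.re - x)]⟩⟩
    rw [hn]
    have h0 : 0 < |c.re| := by
      refine abs_pos.2 fun h => hc0 (Complex.ext h hb)
    have h1 : |c.re| * |c.re| ≤ |x| * |c.re| := by
      rw [abs_mul_abs_self, ← abs_mul]
      nlinarith [le_abs_self (x * c.re)]
    linarith [le_of_mul_le_mul_right h1 h0, Real.sqrt_nonneg q]
  · have hx : 2 * c.re = x := by
      refine mul_left_cancel₀ hb ?_
      linarith
    have hn : ‖c‖ = Real.sqrt q := by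
      rw [Complex.norm_def]
      congr 1
      rw [Complex.normSq_apply]
      rw [← hx] at hre
      nlinarith
    refine ⟨by linarith [abs_nonneg x], Or.inr ⟨hn, ?_⟩⟩
    have : 0 < c.im * c.im := mul_self_pos.2 hb
    rw [← hx] at hre ⊢
    nlinarith

variable {V : Type*} [AddCommGroup V] [Module ℂ V] [FiniteDimensional ℂ V]

theorem exists_eigen_inf {f : End ℂ V} {W : Submodule ℂ V} (hW : W ≠ ⊥)
    (hf : Set.MapsTo f W W) : ∃ c : ℂ, W ⊓ f.eigenspace c ≠ ⊥ := by
  haveI : Nontrivial W := Submodule.nontrivial_iff_ne_bot.2 hW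
  obtain ⟨c, hc⟩ := End.exists_eigenvalue (f.restrict hf)
  obtain ⟨v, hv⟩ := hc.exists_hasEigenvector
  refine ⟨c, (Submodule.ne_bot_iff _).2 ⟨v, ⟨v.2, End.mem_eigenspace_iff.2 ?_⟩, ?_⟩⟩
  · exact congrArg Subtype.val (End.mem_eigenspace_iff.1 hv.1)
  · exact fun h => hv.2 (Subtype.ext h)

/-- An eigenvalue of a product of three commuting elements is a product of eigenvalues of a
common eigenvector. -/
theorem exists_joint_of_hasEigenvalue {U₁ U₂ U₃ : End ℂ V} (h₁₂ : Commute U₁ U₂)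
    (h₁₃ : Commute U₁ U₃) (h₂₃ : Commute U₂ U₃) {ω : ℂ} (hω : (U₁ * U₂ * U₃).HasEigenvalue ω) :
    ∃ (v : V) (c₁ c₂ c₃ : ℂ), v ≠ 0 ∧ U₁ v = c₁ • v ∧ U₂ v = c₂ • v ∧ U₃ v = c₃ • v ∧
      c₁ * c₂ * c₃ = ω := by
  have inv : ∀ (g f : End ℂ V) (μ : ℂ), Commute f g →
      Set.MapsTo g (f.eigenspace μ) (f.eigenspace μ) := fun g f μ hfg v hv => by
    rw [SetLike.mem_coe, End.mem_eigenspace_iff] at hv ⊢
    rw [← End.mul_apply, hfg.eq, End.mul_apply, hv, map_smul]
  set P := U₁ * U₂ * U₃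
  have hP1 : Commute P U₁ := ((Commute.refl _).mul_left h₁₂.symm).mul_left h₁₃.symm
  have hP2 : Commute P U₂ := (h₁₂.mul_left (Commute.refl _)).mul_left h₂₃.symm
  have hP3 : Commute P U₃ := (h₁₃.mul_left h₂₃).mul_left (Commute.refl _)
  obtain ⟨c₁, h1⟩ := exists_eigen_inf hω (inv U₁ P ω hP1)
  obtain ⟨c₂, h2⟩ := exists_eigen_inf h1
    (fun v hv => ⟨inv U₂ P ω hP2 hv.1, inv U₂ U₁ c₁ h₁₂ hv.2⟩)
  obtain ⟨c₃, h3⟩ := exists_eigen_inf h2
    (fun v hv => ⟨⟨inv U₃ P ω hP3 hv.1.1, inv U₃ U₁ c₁ h₁₃ hv.1.2⟩, inv U₃ U₂ c₂ h₂₃ hv.2⟩)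
  obtain ⟨v, ⟨⟨⟨hv, hv1⟩, hv2⟩, hv3⟩, hv0⟩ := (Submodule.ne_bot_iff _).1 h3
  rw [SetLike.mem_coe, End.mem_eigenspace_iff] at hv hv1 hv2 hv3
  refine ⟨v, c₁, c₂, c₃, hv0, hv1, hv2, hv3, smul_left_injective ℂ hv0 ?_⟩
  show (c₁ * c₂ * c₃) • v = ω • v
  rw [← hv]
  simp only [P, End.mul_apply, hv1, hv2, hv3, map_smul, smul_smul]
  congr 1
  ring

/-- `ω` is nonzero, bounded by `R`, and real or of absolute value `ρ`. -/
def IsSpectralPoint (ρ R : ℝ) (ω : ℂ) : Prop := ω ≠ 0 ∧ ‖ω‖ ≤ R ∧ (ω.im = 0 ∨ ‖ω‖ = ρ)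

/-- **The spectral constraint at the split place.** -/
theorem isSpectralPoint_triple {U₁ U₂ U₃ : End ℂ V} (h₁₂ : Commute U₁ U₂) (h₁₃ : Commute U₁ U₃)
    (h₂₃ : Commute U₂ U₃) {q x B : ℝ} (hq : 0 < q) (hx : |x| ≤ B)
    (r₁ : U₁ * U₁ - (x : ℂ) • U₁ + (q : ℂ) • 1 = 0)
    (r₂ : U₂ * U₂ - (x : ℂ) • U₂ + (q : ℂ) • 1 = 0)
    (r₃ : U₃ * U₃ - (x : ℂ) • U₃ + (q : ℂ) • 1 = 0)
    {ω : ℂ} (hω : (U₁ * U₂ * U₃).HasEigenvalue ω) :
    IsSpectralPoint (Real.sqrt q ^ 3) ((B + Real.sqrt q) ^ 3) ω := by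
  obtain ⟨v, c₁, c₂, c₃, hv0, hv1, hv2, hv3, rfl⟩ := exists_joint_of_hasEigenvalue h₁₂ h₁₃ h₂₃ hω
  have root : ∀ (U : End ℂ V) (c : ℂ), U * U - (x : ℂ) • U + (q : ℂ) • 1 = 0 → U v = c • v →
      c * c - x * c + q = 0 := by
    intro U c r hc
    have h1 := congr($r v)
    simp only [LinearMap.add_apply, LinearMap.sub_apply, LinearMap.smul_apply, End.mul_apply,
      End.one_apply, hc, map_smul, smul_smul, ← sub_smul, ← add_smul, LinearMap.zero_apply] at h1
    exact (smul_eq_zero.1 h1).resolve_right hv0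
  obtain ⟨a1, b1, e1⟩ := root_cases hq (root U₁ c₁ r₁ hv1)
  obtain ⟨a2, b2, e2⟩ := root_cases hq (root U₂ c₂ r₂ hv2)
  obtain ⟨a3, b3, e3⟩ := root_cases hq (root U₃ c₃ r₃ hv3)
  refine ⟨mul_ne_zero (mul_ne_zero a1 a2) a3, ?_, ?_⟩
  · rw [norm_mul, norm_mul, pow_three, ← mul_assoc]
    have hB : (0 : ℝ) ≤ B + Real.sqrt q := add_nonneg ((abs_nonneg x).trans hx) (Real.sqrt_nonneg q)
    exact mul_le_mul (mul_le_mul (by linarith) (by linarith) (norm_nonneg _) hB) (by linarith)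
      (norm_nonneg _) (mul_nonneg hB hB)
  · rcases e1 with ⟨i1, hl⟩ | ⟨n1, hl⟩
    · left
      have i2 : c₂.im = 0 := (e2.resolve_right fun h => absurd h.2 (not_lt.2 hl)).1
      have i3 : c₃.im = 0 := (e3.resolve_right fun h => absurd h.2 (not_lt.2 hl)).1
      simp [Complex.mul_im, i1, i2, i3]
    · right
      have n2 : ‖c₂‖ = Real.sqrt q := (e2.resolve_left fun h => absurd h.2 (not_le.2 hl)).1
      have n3 : ‖c₃‖ = Real.sqrt q := (e3.resolve_left fun h => absurd h.2 (not_le.2 hl)).1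
      rw [norm_mul, norm_mul, n1, n2, n3]
      ring

/-- The constraint for the cube of one element. -/
theorem isSpectralPoint_cube {U : End ℂ V} {q x B : ℝ} (hq : 0 < q) (hx : |x| ≤ B)
    (r : U * U - (x : ℂ) • U + (q : ℂ) • 1 = 0) {ω : ℂ} (hω : (U ^ 3).HasEigenvalue ω) :
    IsSpectralPoint (Real.sqrt q ^ 3) ((B + Real.sqrt q) ^ 3) ω := by
  rw [show U ^ 3 = U * U * U by rw [pow_three, mul_assoc]] at hω
  exact isSpectralPoint_triple (Commute.refl U) (Commute.refl U) (Commute.refl U) hq hx r r r hω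

end Roots

end Fermat.Agent.LT.Descent
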