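import Fermat.Agent.LT.Descent.ClassAlgebra
import Fermat.Agent.LT.Separation.Joint

/-!
# Separation of classes

Two families of finite-dimensional classes, each with commuting `U, A` and real data `lam`: equal
moments `∑ lam^m · tr(Uⁿ A)` for all large `n` (depending on `m`) give equal sums of `tr A` over
the classes with any given data.  A class with nonzero twisted trace on one side thus produces
one with the same data on the other.
-/

set_option autoImplicit false

noncomputable section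

namespace Fermat.Agent.LT.Descent

open Module Fermat.Agent.LT.Separation

/-- Equal moments from some point on give equal totals. -/
theorem tsum_eq_of_moments {ι κ : Type*} (c z : ι → ℂ) (c' z' : κ → ℂ) (R : ℝ) (n₀ : ℕ)
    (hc : Summable fun i => ‖c i‖) (hc' : Summable fun i => ‖c' i‖)
    (hz : ∀ i, z i ≠ 0 ∧ ‖z i‖ ≤ R ∧ ((z i).im = 0 ∨ ‖z i‖ = 1))
    (hz' : ∀ i, z' i ≠ 0 ∧ ‖z' i‖ ≤ R ∧ ((z' i).im = 0 ∨ ‖z' i‖ = 1))
    (hm : ∀ n, n₀ ≤ n → ∑' i, c i * z i ^ n = ∑' i, c' i * z' i ^ n) :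
    ∑' i, c i = ∑' i, c' i := by
  set d : ι ⊕ κ → ℂ := Sum.elim c fun i => -c' i with hd
  set y : ι ⊕ κ → ℂ := Sum.elim z z' with hy
  have hy' : ∀ i, y i ≠ 0 ∧ ‖y i‖ ≤ R ∧ ((y i).im = 0 ∨ ‖y i‖ = 1) := fun i => by
    cases i with
    | inl i => exact hz i
    | inr i => exact hz' i
  have hsd : Summable fun i => ‖d i‖ :=
    (HasSum.sum (f := fun i => ‖d i‖) (a := ∑' i, ‖c i‖) (b := ∑' i, ‖c' i‖) hc.hasSum
      (HasSum.congr_fun hc'.hasSum fun i => by simp [hd])).summable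
  have hsum : ∀ n, Summable (fun i => c i * z i ^ n) ∧ Summable (fun i => c' i * z' i ^ n) := by
    refine fun n => ⟨?_, ?_⟩
    · refine Summable.of_norm_bounded (hc.mul_right (R ^ n)) fun i => ?_
      rw [norm_mul, norm_pow]
      exact mul_le_mul_of_nonneg_left (pow_le_pow_left₀ (norm_nonneg _) (hz i).2.1 n) (norm_nonneg _)
    · refine Summable.of_norm_bounded (hc'.mul_right (R ^ n)) fun i => ?_
      rw [norm_mul, norm_pow]
      exact mul_le_mul_of_nonneg_left (pow_le_pow_left₀ (norm_nonneg _) (hz' i).2.1 n) (norm_nonneg _)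
  have hmom : ∀ n, n₀ ≤ n → ∑' i, d i * y i ^ n = 0 := fun n hn => by
    rw [← sub_eq_zero.2 (hm n hn), sub_eq_add_neg, ← tsum_neg]
    exact (HasSum.sum (f := fun i => d i * y i ^ n) (a := ∑' i, c i * z i ^ n)
      (b := ∑' i, -(c' i * z' i ^ n)) (hsum n).1.hasSum
      (HasSum.congr_fun (hsum n).2.neg.hasSum fun i => by simp [hd, hy])).tsum_eq
  have hfib : ∀ v, fibreSum y d v = 0 := fun v => by
    rcases eq_or_ne v 0 with rfl | hv
    · rw [fibreSum]
      haveI : IsEmpty {i // y i = 0} := ⟨fun i => (hy' i).1 i.2⟩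
      exact tsum_empty
    · exact fibreSum_eq_zero_of_moments d y R n₀ hsd (fun i => (hy' i).2.1) (fun i => (hy' i).2.2)
        hmom hv
  have htot : HasSum d (∑' i, c i + ∑' i, -c' i) :=
    HasSum.sum (f := d) hc.of_norm.hasSum hc'.of_norm.neg.hasSum
  have h0 : ∑' i, d i = 0 := by
    have h1 := hasSum_fibreSum_mul y d (fun _ => 1) (by simpa using hsd.of_norm) hsd.of_norm
    simp only [hfib, zero_mul, mul_one] at h1
    exact h1.unique hasSum_zero
  rwa [htot.tsum_eq, tsum_neg, ← sub_eq_add_neg, sub_eq_zero] at h0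

section Family

variable {Λ J : Type*} {V : Λ → Type*} [∀ i, NormedAddCommGroup (V i)]
  [∀ i, InnerProductSpace ℂ (V i)] [∀ i, FiniteDimensional ℂ (V i)]

/-- A class together with an eigenvalue. -/
abbrev ClassEigen (U : ∀ i, End ℂ (V i)) := Σ i, {ω // ω ∈ eigs (U i)}

/-- The weight of a class and an eigenvalue. -/
def classWeight (U A : ∀ i, End ℂ (V i)) (h : ∀ i, Commute (U i) (A i)) (p : ClassEigen U) : ℂ :=
  eigTrace (U p.1) (A p.1) (h p.1) p.2

variable {U A : ∀ i, End ℂ (V i)} (h : ∀ i, Commute (U i) (A i)) {a : Λ → ℝ}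

theorem summable_norm_classWeight (hA : ∀ i v, ‖A i v‖ ≤ a i * ‖v‖)
    (hsum : Summable fun i => finrank ℂ (V i) * a i) :
    Summable fun p => ‖classWeight U A h p‖ := by
  refine (summable_sigma_of_nonneg fun p => norm_nonneg _).2 ⟨fun i => Summable.of_finite, ?_⟩
  refine Summable.of_nonneg_of_le (fun i => tsum_nonneg fun _ => norm_nonneg _) (fun i => ?_) hsum
  rw [tsum_fintype]
  refine le_of_eq_of_le ?_ (sum_norm_eigTrace_le (h i) (hA i))
  exact Finset.sum_coe_sort (eigs (U i)) fun ω => ‖eigTrace (U i) (A i) (h i) ω‖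

/-- Sums over classes and eigenvalues. -/
theorem tsum_classWeight_mul (hA : ∀ i v, ‖A i v‖ ≤ a i * ‖v‖)
    (hsum : Summable fun i => finrank ℂ (V i) * a i) (g : Λ → ℂ) {G : ℝ} (hg : ∀ i, ‖g i‖ ≤ G)
    {ρ R : ℝ} (hU : ∀ i ω, (U i).HasEigenvalue ω → IsSpectralPoint ρ R ω) (n : ℕ) :
    ∑' p : ClassEigen U, classWeight U A h p * g p.1 * (p.2 : ℂ) ^ n =
      ∑' i, g i * LinearMap.trace ℂ (V i) (U i ^ n * A i) := by
  have hs : Summable fun p : ClassEigen U => classWeight U A h p * g p.1 * (p.2 : ℂ) ^ n := by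
    refine Summable.of_norm_bounded
      ((summable_norm_classWeight h hA hsum).mul_right (G * R ^ n)) fun p => ?_
    rw [norm_mul, norm_mul, norm_pow, mul_assoc]
    refine mul_le_mul_of_nonneg_left ?_ (norm_nonneg _)
    exact mul_le_mul (hg p.1) (pow_le_pow_left₀ (norm_nonneg _) (hU _ _ ((mem_eigs _).1 p.2.2)).2.1 n)
      (pow_nonneg (norm_nonneg _) n) ((norm_nonneg _).trans (hg p.1))
  rw [hs.tsum_sigma]
  refine tsum_congr fun i => ?_
  rw [tsum_fintype, trace_pow_mul (h i), Finset.mul_sum]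
  refine Eq.trans ?_ (Finset.sum_coe_sort (eigs (U i)) _)
  refine Finset.sum_congr rfl fun ω _ => ?_
  show eigTrace (U i) (A i) (h i) ω * g i * (ω : ℂ) ^ n = _
  ring

end Family

variable {Λ Λ' J : Type*}
  {V : Λ → Type*} [∀ i, NormedAddCommGroup (V i)] [∀ i, InnerProductSpace ℂ (V i)]
  [∀ i, FiniteDimensional ℂ (V i)]
  {V' : Λ' → Type*} [∀ i, NormedAddCommGroup (V' i)] [∀ i, InnerProductSpace ℂ (V' i)]
  [∀ i, FiniteDimensional ℂ (V' i)]

/-- **Separation.** Equal traces of `(monomial) · Uⁿ A` for large `n` give, for every value of the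
data, equal sums of `tr A` over the classes with that value. -/
theorem tsum_trace_class_eq (U A : ∀ i, End ℂ (V i)) (U' A' : ∀ i, End ℂ (V' i))
    (h : ∀ i, Commute (U i) (A i)) (h' : ∀ i, Commute (U' i) (A' i))
    (a : Λ → ℝ) (a' : Λ' → ℝ) (hA : ∀ i v, ‖A i v‖ ≤ a i * ‖v‖)
    (hA' : ∀ i v, ‖A' i v‖ ≤ a' i * ‖v‖)
    (hsum : Summable fun i => finrank ℂ (V i) * a i)
    (hsum' : Summable fun i => finrank ℂ (V' i) * a' i)
    (lam : Λ → J → ℝ) (lam' : Λ' → J → ℝ) (B : J → ℝ) (hB : ∀ i j, |lam i j| ≤ B j)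
    (hB' : ∀ i j, |lam' i j| ≤ B j) {ρ R : ℝ} (hρ : 0 < ρ)
    (hU : ∀ i ω, (U i).HasEigenvalue ω → IsSpectralPoint ρ R ω)
    (hU' : ∀ i ω, (U' i).HasEigenvalue ω → IsSpectralPoint ρ R ω)
    (hm : ∀ m : J →₀ ℕ, ∃ n₀ : ℕ, ∀ n, n₀ ≤ n →
      ∑' i, eigMonomial lam m i * LinearMap.trace ℂ (V i) (U i ^ n * A i) =
        ∑' i, eigMonomial lam' m i * LinearMap.trace ℂ (V' i) (U' i ^ n * A' i))
    (L : J → ℝ) :
    ∑' i, Set.indicator {i | lam i = L} (fun i => LinearMap.trace ℂ (V i) (A i)) i =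
      ∑' i, Set.indicator {i | lam' i = L} (fun i => LinearMap.trace ℂ (V' i) (A' i)) i := by
  classical
  set G : (J →₀ ℕ) → ℝ := fun m => m.prod fun j k => B j ^ k
  have hg : ∀ m i, ‖eigMonomial lam m i‖ ≤ G m := fun m => norm_eigMonomial_le lam B hB m
  have hg' : ∀ m i, ‖eigMonomial lam' m i‖ ≤ G m := fun m => norm_eigMonomial_le lam' B hB' m
  have hw := summable_norm_classWeight h hA hsum
  have hw' := summable_norm_classWeight h' hA' hsum'
  -- normalise the eigenvalues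
  have hz : ∀ p : ClassEigen U, ((p.2 : ℂ) / ρ) ≠ 0 ∧ ‖((p.2 : ℂ) / ρ)‖ ≤ R / ρ ∧
      ((((p.2 : ℂ) / ρ)).im = 0 ∨ ‖((p.2 : ℂ) / ρ)‖ = 1) := fun p => by
    obtain ⟨h0, hR, hc⟩ := hU _ _ ((mem_eigs _).1 p.2.2)
    rw [norm_div, Complex.norm_real, Real.norm_eq_abs, abs_of_pos hρ, Complex.div_ofReal_im]
    refine ⟨div_ne_zero h0 (Complex.ofReal_ne_zero.2 hρ.ne'),
      div_le_div_of_nonneg_right hR hρ.le, ?_⟩
    rcases hc with hc | hc
    · exact Or.inl (by rw [hc, zero_div])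
    · exact Or.inr (by rw [hc, div_self hρ.ne'])
  have hz' : ∀ p : ClassEigen U', ((p.2 : ℂ) / ρ) ≠ 0 ∧ ‖((p.2 : ℂ) / ρ)‖ ≤ R / ρ ∧
      ((((p.2 : ℂ) / ρ)).im = 0 ∨ ‖((p.2 : ℂ) / ρ)‖ = 1) := fun p => by
    obtain ⟨h0, hR, hc⟩ := hU' _ _ ((mem_eigs _).1 p.2.2)
    rw [norm_div, Complex.norm_real, Real.norm_eq_abs, abs_of_pos hρ, Complex.div_ofReal_im]
    refine ⟨div_ne_zero h0 (Complex.ofReal_ne_zero.2 hρ.ne'),
      div_le_div_of_nonneg_right hR hρ.le, ?_⟩
    rcases hc with hc | hc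
    · exact Or.inl (by rw [hc, zero_div])
    · exact Or.inr (by rw [hc, div_self hρ.ne'])
  -- the moments at `n = 0`
  have key : ∀ m : J →₀ ℕ, ∑' p : ClassEigen U, classWeight U A h p * eigMonomial lam m p.1 =
      ∑' p : ClassEigen U', classWeight U' A' h' p * eigMonomial lam' m p.1 := by
    intro m
    obtain ⟨n₀, hn⟩ := hm m
    refine tsum_eq_of_moments _ (fun p : ClassEigen U => (p.2 : ℂ) / ρ) _
      (fun p : ClassEigen U' => (p.2 : ℂ) / ρ) (R / ρ) n₀ ?_ ?_ hz hz' fun n hn' => ?_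
    · exact Summable.of_nonneg_of_le (fun _ => norm_nonneg _) (fun p => by
        rw [norm_mul]; exact mul_le_mul_of_nonneg_left (hg m p.1) (norm_nonneg _))
        (hw.mul_right (G m))
    · exact Summable.of_nonneg_of_le (fun _ => norm_nonneg _) (fun p => by
        rw [norm_mul]; exact mul_le_mul_of_nonneg_left (hg' m p.1) (norm_nonneg _))
        (hw'.mul_right (G m))
    · simp only [div_pow, ← mul_div_assoc, tsum_div_const]
      congr 1
      rw [tsum_classWeight_mul h hA hsum _ (hg m) hU, tsum_classWeight_mul h' hA' hsum' _ (hg' m) hU',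
        hn n hn']
  have hcomb := tsum_indicator_eigenclass_eq_zero
    (Sum.elim (classWeight U A h) fun p => -classWeight U' A' h' p)
    (Sum.elim (fun p : ClassEigen U => lam p.1) fun p : ClassEigen U' => lam' p.1) B L
    ((HasSum.sum (f := fun i => ‖Sum.elim (classWeight U A h) (fun p => -classWeight U' A' h' p) i‖)
      (a := ∑' p, ‖classWeight U A h p‖) (b := ∑' p, ‖classWeight U' A' h' p‖) hw.hasSum
      (HasSum.congr_fun hw'.hasSum fun i => by simp)).summable)
    (fun i j => by cases i <;> simp [hB, hB'])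
    (fun m => by
      rw [← sub_eq_zero.2 (key m), sub_eq_add_neg, ← tsum_neg]
      refine (HasSum.sum (f := fun i => Sum.elim (classWeight U A h)
        (fun p => -classWeight U' A' h' p) i * eigMonomial (Sum.elim (fun p : ClassEigen U => lam p.1)
          fun p : ClassEigen U' => lam' p.1) m i)
        (a := ∑' p : ClassEigen U, classWeight U A h p * eigMonomial lam m p.1)
        (b := ∑' p : ClassEigen U', -(classWeight U' A' h' p * eigMonomial lam' m p.1)) ?_ ?_).tsum_eq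
      · exact (summable_mul_eigMonomial _ (fun p : ClassEigen U => lam p.1) B hw (fun p => hB p.1)
          m).of_norm.hasSum
      · exact HasSum.congr_fun ((summable_mul_eigMonomial _ (fun p : ClassEigen U' => lam' p.1) B hw'
          (fun p => hB' p.1) m).of_norm.neg.hasSum) fun i => by simp [eigMonomial])
  have collapse : ∀ (S : Set Λ),
      ∑' p : ClassEigen U, Set.indicator {p | p.1 ∈ S} (classWeight U A h) p =
        ∑' i, Set.indicator S (fun i => LinearMap.trace ℂ (V i) (A i)) i := by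
    intro S
    rw [(hw.of_norm.indicator _).tsum_sigma]
    refine tsum_congr fun i => ?_
    by_cases hi : i ∈ S
    · rw [Set.indicator_of_mem hi, trace_eq_sum_eigTrace (h i), tsum_fintype]
      refine Eq.trans ?_ (Finset.sum_coe_sort (eigs (U i)) _)
      exact Finset.sum_congr rfl fun ω _ => Set.indicator_of_mem (by exact hi) _
    · rw [Set.indicator_of_notMem hi]
      exact (tsum_congr fun ω => Set.indicator_of_notMem (by exact hi) _).trans tsum_zero
  have collapse' : ∀ (S : Set Λ'),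
      ∑' p : ClassEigen U', Set.indicator {p | p.1 ∈ S} (classWeight U' A' h') p =
        ∑' i, Set.indicator S (fun i => LinearMap.trace ℂ (V' i) (A' i)) i := by
    intro S
    rw [(hw'.of_norm.indicator _).tsum_sigma]
    refine tsum_congr fun i => ?_
    by_cases hi : i ∈ S
    · rw [Set.indicator_of_mem hi, trace_eq_sum_eigTrace (h' i), tsum_fintype]
      refine Eq.trans ?_ (Finset.sum_coe_sort (eigs (U' i)) _)
      exact Finset.sum_congr rfl fun ω _ => Set.indicator_of_mem (by exact hi) _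
    · rw [Set.indicator_of_notMem hi]
      exact (tsum_congr fun ω => Set.indicator_of_notMem (by exact hi) _).trans tsum_zero
  rw [← collapse {i | lam i = L}, ← collapse' {i | lam' i = L}, ← sub_eq_zero, sub_eq_add_neg,
    ← tsum_neg, ← hcomb]
  refine (HasSum.sum (f := Set.indicator {i | Sum.elim (fun p : ClassEigen U => lam p.1)
      (fun p : ClassEigen U' => lam' p.1) i = L}
      (Sum.elim (classWeight U A h) fun p => -classWeight U' A' h' p))
    (hw.of_norm.indicator {p : ClassEigen U | lam p.1 = L}).hasSum ?_).tsum_eq.symm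
  refine HasSum.congr_fun (hw'.of_norm.indicator {p : ClassEigen U' | lam' p.1 = L}).neg.hasSum
    fun p => ?_
  by_cases hp : lam' p.1 = L <;> simp [hp]

/-- **A nonzero class downstairs.** -/
theorem exists_class_ne_zero (U A : ∀ i, End ℂ (V i)) (U' A' : ∀ i, End ℂ (V' i))
    (h : ∀ i, Commute (U i) (A i)) (h' : ∀ i, Commute (U' i) (A' i))
    (a : Λ → ℝ) (a' : Λ' → ℝ) (hA : ∀ i v, ‖A i v‖ ≤ a i * ‖v‖)
    (hA' : ∀ i v, ‖A' i v‖ ≤ a' i * ‖v‖)
    (hsum : Summable fun i => finrank ℂ (V i) * a i)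
    (hsum' : Summable fun i => finrank ℂ (V' i) * a' i)
    (lam : Λ → J → ℝ) (lam' : Λ' → J → ℝ) (B : J → ℝ) (hB : ∀ i j, |lam i j| ≤ B j)
    (hB' : ∀ i j, |lam' i j| ≤ B j) {ρ R : ℝ} (hρ : 0 < ρ)
    (hU : ∀ i ω, (U i).HasEigenvalue ω → IsSpectralPoint ρ R ω)
    (hU' : ∀ i ω, (U' i).HasEigenvalue ω → IsSpectralPoint ρ R ω)
    (hm : ∀ m : J →₀ ℕ, ∃ n₀ : ℕ, ∀ n, n₀ ≤ n →
      ∑' i, eigMonomial lam m i * LinearMap.trace ℂ (V i) (U i ^ n * A i) =
        ∑' i, eigMonomial lam' m i * LinearMap.trace ℂ (V' i) (U' i ^ n * A' i))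
    (L : J → ℝ)
    (htarget : ∑' i, Set.indicator {i | lam i = L} (fun i => LinearMap.trace ℂ (V i) (A i)) i ≠ 0) :
    ∃ i, lam' i = L ∧ LinearMap.trace ℂ (V' i) (A' i) ≠ 0 ∧ Nontrivial (V' i) := by
  by_contra hcon
  refine htarget ((tsum_trace_class_eq U A U' A' h h' a a' hA hA' hsum hsum' lam lam' B hB hB' hρ
    hU hU' hm L).trans ?_)
  refine (tsum_congr fun i => ?_).trans tsum_zero
  refine Set.indicator_apply_eq_zero.2 fun hi => by_contra fun hne => hcon ⟨i, hi, hne, ?_⟩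
  by_contra hnt
  haveI := not_nontrivial_iff_subsingleton.1 hnt
  exact hne (by rw [Subsingleton.elim (A' i) 0, map_zero])

end Fermat.Agent.LT.Descent
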