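import Fermat.Agent.LT.Descent.TestOperator
import Fermat.Agent.LT.Spectral.CuspBound
import Fermat.Agent.LT.Spectral.Trace

/-!
# Growth of cusp functions under test operators

A Lipschitz point-pair operator turns a square integrable cuspidal function into one of size
`r ^ (n - 1)` on strips, and lowers any power growth by one.
-/

set_option autoImplicit false

noncomputable section

namespace Fermat.Agent.LT.Descent

open Fermat.Agent.LT.Adelic Fermat.Agent.LT.Spectral MeasureTheory NumberField IsDedekindDomain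
  Filter Matrix
open scoped MatrixGroups ENNReal NNReal ComplexConjugate

/-- Every kernel is a Lipschitz function of `cosh` of the distance, with bounded range. -/
def IsLipKernel {ι : Type*} (k : ι → PPKer) : Prop :=
  ∃ (κ : ι → ℝ → ℂ) (L : ℝ≥0) (T : ℝ), 1 ≤ T ∧ (∀ i, LipschitzWith L (κ i)) ∧
    (∀ i t, T < t → κ i t = 0) ∧ ∀ i p q, k i p q = κ i (HSpace.coshDist p q)

theorem IsLipKernel.conjKer {ι : Type*} {k : ι → PPKer} (h : IsLipKernel k) :
    IsLipKernel fun i => (k i).conjKer := by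
  obtain ⟨κ, L, T, hT, hL, hs, he⟩ := h
  refine ⟨fun i t => conj (κ i t), L, T, hT, fun i => ?_, fun i t ht => by simp [hs i t ht],
    fun i p q => congrArg conj (he i p q)⟩
  simpa [Function.comp_def] using Complex.conjLIE.isometry.lipschitz.comp (hL i)

theorem isLipKernel_ofProfile {ι : Type*} {k₀ : ℝ → ℂ} {L : ℝ≥0} (hL : LipschitzWith L k₀)
    (hc : HasCompactSupport k₀) :
    IsLipKernel fun _ : ι => PPKer.ofProfile k₀ hL.continuous hc := by
  obtain ⟨T, hT⟩ := hc.isCompact.bddAbove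
  refine ⟨fun _ => k₀, L, max T 1, le_max_right _ _, fun _ => hL, fun i t ht => ?_,
    fun i p q => rfl⟩
  by_contra h
  exact absurd ((hT (subset_tsupport _ h)).trans (le_max_left T 1)) (not_le.mpr ht)

variable {K : Type*} [Field K] [NumberField K] {ι : Type*} [Fintype ι] {Φ : Frame K ι}
  {U : Subgroup (GfK K)}

/-- A point over `Y` high in a balanced cusp, with arbitrary horizontal coordinate. -/
def InStrip (Y : Set (Yf U)) (c C : ℝ) (x : Space Φ U) : Prop :=
  x.fin ∈ Y ∧ (∀ i, c ≤ (x.pt i).r) ∧ ∀ i l, (x.pt i).r ≤ C * (x.pt l).r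

/-- Growth at most `r ^ a` on every strip. -/
def HasGrowth (φ : Space Φ U → ℂ) (a : ℤ) : Prop :=
  ∀ (Y : Set (Yf U)) (c C : ℝ), Y.Finite → 0 < c → 1 ≤ C → ∃ G : ℝ, 0 ≤ G ∧
    ∀ x : Space Φ U, InStrip Y c C x → ∀ j, ‖φ x‖ ≤ G * (x.pt j).r ^ a

theorem map_piCoords :
    (Measure.pi fun _ : ι => HSpace.measure).map piCoords
      = ((volume.prod volume).restrict (posCone ι)).withDensity hypDensity' := by
  refine Measure.ext fun s hs => ?_
  rw [withDensity_apply _ hs, Measure.restrict_restrict hs, Measure.map_apply measurable_piCoords hs,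
    ← lintegral_indicator_one (measurable_piCoords hs), ← setLIntegral_indicator hs]
  refine Eq.trans (lintegral_congr fun τ => ?_)
    ((lintegral_pi_hspace (measurable_one.indicator hs)).trans (lintegral_congr fun p => ?_))
  · rfl
  · by_cases h : p ∈ s <;> simp [h]

/-- Change of variables for integrals. -/
theorem integral_pi_hspace {G : (ι → ℂ) × (ι → ℝ) → ℂ} (hG : Measurable G) :
    ∫ τ, G (piCoords τ) ∂(Measure.pi fun _ : ι => HSpace.measure)
      = ∫ p in posCone ι, (hypDensity p.2 : ℂ) * G p ∂(volume.prod volume) := by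
  rw [← integral_map measurable_piCoords.aemeasurable hG.aestronglyMeasurable, map_piCoords,
    integral_withDensity_eq_integral_toReal_smul measurable_hypDensity'
      (Eventually.of_forall fun p => ENNReal.prod_lt_top fun i _ => ENNReal.ofReal_lt_top)]
  refine setIntegral_congr_fun measurableSet_posCone fun p hp => ?_
  rw [Complex.real_smul, hypDensity', ENNReal.toReal_prod, hypDensity]
  congr 2
  refine Finset.prod_congr rfl fun i _ => ?_
  rw [ENNReal.toReal_ofReal (inv_nonneg.mpr (pow_nonneg (hp i).le 3)), inv_pow]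

theorem hypKernel_eq_prod {k : ι → PPKer} {κ : ι → ℝ → ℂ}
    (he : ∀ i p q, k i p q = κ i (HSpace.coshDist p q)) {p q : (ι → ℂ) × (ι → ℝ)}
    (hp : p ∈ posCone ι) (hq : q ∈ posCone ι) :
    hypKernel κ p.1 p.2 q.2 q.1 = ∏ i, k i (ptOf p i) (ptOf q i) := by
  refine Finset.prod_congr rfl fun i _ => ?_
  rw [he, HSpace.coshDist, chd, ptOf_r hp, ptOf_r hq, ptOf_z, ptOf_z, Complex.normSq_eq_norm_sq]

variable [Countable (Yf U)]

/-- The slice of the operator at infinity is the integral over the window. -/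
theorem slice_archOp_eq {k : ι → PPKer} {κ : ι → ℝ → ℂ} {L : ℝ≥0} {T : ℝ} (hT : 1 ≤ T)
    (hL : ∀ i, LipschitzWith L (κ i)) (hs : ∀ i t, T < t → κ i t = 0)
    (he : ∀ i p q, k i p q = κ i (HSpace.coshDist p q)) {D : QuotData Φ U} {φ : Space Φ U → ℂ}
    (hm : Measurable φ) (hinv : ∀ (g : PGL(2, K)) x, φ (g • x) = φ x) (h2 : MemLp φ 2 D.ν)
    (y : Yf U) (z : ι → ℂ) {r : ι → ℝ} (hr0 : ∀ i, 0 < r i) :
    slice (archOp k φ) y (z, r) = ∫ r' in heightWindow T r,
      (hypDensity r' : ℂ) * ∫ z', hypKernel κ z r r' z' * slice φ y (z', r') := by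
  have hT0 : 0 < T := zero_lt_one.trans_le hT
  set W := heightWindow T r
  have hW : ∀ r' ∈ W, ∀ i, 0 < r' i := fun r' hr' i =>
    (div_pos (hr0 i) (by positivity)).trans_le (hr'.1 i)
  have hkc : Continuous fun p : (ι → ℂ) × (ι → ℝ) => fun i => (p.1 i, p.2 i) := by fun_prop
  have hkm : Measurable fun p : (ι → ℂ) × (ι → ℝ) => hypKernel κ z r p.2 p.1 :=
    Finset.measurable_prod _ fun i _ => (hL i).continuous.measurable.comp (by
      unfold chd
      exact (((measurable_const.sub ((measurable_pi_apply i).comp measurable_fst)).norm.pow_const 2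
        |>.add measurable_const).add (((measurable_pi_apply i).comp measurable_snd).pow_const 2)).div
        ((measurable_const.mul ((measurable_pi_apply i).comp measurable_snd))))
  have hG : Measurable fun p : (ι → ℂ) × (ι → ℝ) =>
      hypKernel κ z r p.2 p.1 * slice φ y p := hkm.mul (measurable_slice hm y)
  have h0 : slice (archOp k φ) y (z, r)
      = ∫ p in posCone ι, (hypDensity p.2 : ℂ) * (hypKernel κ z r p.2 p.1 * slice φ y p)
          ∂(volume.prod volume) := by
    rw [← integral_pi_hspace hG]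
    simp only [slice, archOp, Space.pt_mk, Space.fin_mk, ptOf_piCoords]
    refine integral_congr_ae (Eventually.of_forall fun τ => ?_)
    simp only
    congr 1
    rw [hypKernel_eq_prod he (p := (z, r)) hr0 (piCoords_mem_posCone τ), ptOf_piCoords]
  -- restrict to the window
  set F := fun p : (ι → ℂ) × (ι → ℝ) =>
    (hypDensity p.2 : ℂ) * (hypKernel κ z r p.2 p.1 * slice φ y p) with hF
  have hzero : ∀ p ∈ posCone ι \ (Set.univ ×ˢ W), F p = 0 := by
    rintro ⟨z', r'⟩ ⟨hp, hn⟩
    rw [hF]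
    simp only
    rw [hypKernel_eq_zero_of_notMem_window hT0 hs hr0 hp (fun h => hn ⟨trivial, h⟩) z', zero_mul,
      mul_zero]
  rw [h0,
    setIntegral_eq_of_subset_of_forall_sdiff_eq_zero measurableSet_posCone
      (s := Set.univ ×ˢ W) (fun p hp => hW p.2 hp.2) hzero,
    ← Measure.prod_restrict, Measure.restrict_univ, integral_prod_symm]
  · simp only [hF, integral_const_mul]
  · -- integrability on the whole strip
    obtain ⟨i₀⟩ := (Reduction.isFrame_of_frame Φ).placeEquiv.nonempty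
    have hb : ∃ ρ : ℝ, ∀ i, 2 * T * r i ≤ ρ :=
      ⟨∑ i, 2 * T * r i, fun i => Finset.single_le_sum (f := fun l => 2 * T * r l)
        (fun l _ => mul_nonneg (by positivity) (hr0 l).le) (Finset.mem_univ i)⟩
    obtain ⟨ρ, hρ⟩ := hb
    obtain ⟨a, ha, hab⟩ : ∃ a > 0, ∀ i, a ≤ r i / (2 * T) := by
      obtain ⟨m, -, hm'⟩ := Finset.exists_min_image Finset.univ r ⟨i₀, Finset.mem_univ _⟩
      exact ⟨r m / (2 * T), div_pos (hr0 m) (by positivity), fun i =>
        div_le_div_of_nonneg_right (hm' i (Finset.mem_univ i)) (by positivity)⟩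
    have hρ0 : 0 ≤ ρ := le_trans (mul_nonneg (by positivity) (hr0 i₀).le) (hρ i₀)
    have hint := integrableOn_slab hm hinv h2 y (‖z‖ + ρ) (b := ρ) ha
    obtain ⟨Bk, hBk⟩ := exists_bound_pi k
    obtain ⟨Bd, hBd⟩ := (isCompact_Icc (a := fun i => r i / (2 * T))
      (b := fun i => 2 * T * r i)).exists_bound_of_continuousOn
        (f := fun r' : ι → ℝ => hypDensity r')
        (continuousOn_finsetProd _ fun i _ => ((continuous_apply i).continuousOn.inv₀
          fun r' hr' => (hW r' hr' i).ne').pow 3)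
    refine Integrable.mono' (g := (slab ι (‖z‖ + ρ) a ρ).indicator
      fun p => Bd * (Bk * ‖slice φ y p‖)) ?_ ?_ ?_
    · rw [show ((volume : Measure (ι → ℂ)).prod (volume.restrict W)) =
        (volume.prod volume).restrict (Set.univ ×ˢ W) by
          rw [← Measure.prod_restrict, Measure.restrict_univ]]
      exact ((integrable_indicator_iff (measurableSet_slab _ _ _)).mpr
        ((hint.norm.const_mul Bk).const_mul Bd)).integrableOn
    · exact ((Complex.measurable_ofReal.comp ((Finset.measurable_prod _ fun i _ =>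
        ((measurable_pi_apply i).inv).pow_const 3).comp measurable_snd)).mul hG).aestronglyMeasurable
    · filter_upwards [Measure.quasiMeasurePreserving_snd.ae
        (ae_restrict_mem (measurableSet_Icc : MeasurableSet W))] with p hp
      have hpos : p ∈ posCone ι := hW p.2 hp
      by_cases h : hypKernel κ z r p.2 p.1 = 0
      · simp only [hF, h, zero_mul, mul_zero, norm_zero]
        refine Set.indicator_nonneg (fun q _ => mul_nonneg ?_ (mul_nonneg ?_ (norm_nonneg _))) _
        · exact (norm_nonneg _).trans (hBd p.2 hp)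
        · exact (norm_nonneg _).trans (hBk (ptOf p) (ptOf p))
      · have hmem : p ∈ slab ι (‖z‖ + ρ) a ρ := by
          refine ⟨mem_closedBall_zero_iff.mpr ((pi_norm_le_iff_of_nonneg
            (add_nonneg (norm_nonneg _) hρ0)).mpr fun i => ?_),
            fun i _ => ⟨(hab i).trans (hp.1 i), (hp.2 i).trans (hρ i)⟩⟩
          have hi : κ i (chd (z i) (r i) (p.1 i) (p.2 i)) ≠ 0 :=
            Finset.prod_ne_zero_iff.mp h i (Finset.mem_univ i)
          obtain ⟨-, -, h3⟩ := window_of_chd_le (hr0 i) (hpos i) hT0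
            (not_lt.mp fun hlt => hi (hs i _ hlt))
          calc ‖p.1 i‖ ≤ ‖z i‖ + ‖z i - p.1 i‖ := norm_le_norm_add_norm_sub' (p.1 i) (z i) |>.trans
                (le_of_eq (by rw [norm_sub_rev]))
            _ ≤ ‖z‖ + ρ := add_le_add (norm_le_pi_norm z i) (h3.trans (hρ i))
        rw [Set.indicator_of_mem hmem, hF]
        simp only [norm_mul, Complex.norm_real]
        refine mul_le_mul (hBd p.2 hp) (mul_le_mul_of_nonneg_right ?_ (norm_nonneg _))
          (by positivity) ((norm_nonneg _).trans (hBd p.2 hp))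
        rw [hypKernel_eq_prod he (p := (z, r)) hr0 hpos]
        exact hBk _ _

/-- The bound high in a cusp, in the two forms used below. -/
theorem exists_norm_archOp_le {k : ι → PPKer} (hk : IsLipKernel k) (D : QuotData Φ U) (y : Yf U)
    {c C : ℝ} (hc : 0 < c) (hC : 1 ≤ C) :
    ∃ (M c' C' : ℝ), 0 ≤ M ∧ 0 < c' ∧ 1 ≤ C' ∧ ∀ φ : Space Φ U → ℂ, Measurable φ →
      (∀ (g : PGL(2, K)) x, φ (g • x) = φ x) → MemLp φ 2 D.ν → IsCuspidalFn φ →
      ∀ (z : ι → ℂ) (r : ι → ℝ), (∀ i, c ≤ r i) → (∀ i l, r i ≤ C * r l) → ∀ j,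
        ‖slice (archOp k φ) y (z, r)‖
            ≤ M * r j ^ ((Fintype.card ι : ℤ) - 1) * (eLpNorm φ 2 D.ν).toReal ∧
        ∀ (a : ℤ) (G : ℝ), 0 ≤ G →
          (∀ x : Space Φ U, InStrip {y} c' C' x → ∀ l, ‖φ x‖ ≤ G * (x.pt l).r ^ a) →
          ‖slice (archOp k φ) y (z, r)‖ ≤ M * C' ^ a.natAbs * G * r j ^ (a - 1) := by
  have : Nonempty ι := (Reduction.isFrame_of_frame Φ).placeEquiv.nonempty
  obtain ⟨κ, L, T, hT, hL, hs, he⟩ := hk
  have hT0 : 0 < T := zero_lt_one.trans_le hT
  obtain ⟨d, hd⟩ := exists_period D.level y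
  obtain ⟨R, hR⟩ := exists_fundDom_subset_closedBall (Φ := Φ) hd.ne_zero
  set B := fundDom Φ d hd.ne_zero with hB
  obtain ⟨K₁, hK₁0, hK₁⟩ := exists_cusp_bound (isAddFundamentalDomain_fundDom (Φ := Φ) hd.ne_zero)
    hR (volume_fundDom_ne_zero hd.ne_zero) hL hT hs hc hC
  set C' := 4 * T ^ 2 * C with hC'
  have hC'1 : 1 ≤ C' := by
    calc (1 : ℝ) = 1 * 1 * 1 := by norm_num
      _ ≤ 4 * T ^ 2 * C := by
          gcongr
          · norm_num
          · exact one_le_pow₀ hT
  have hc' : 0 < c / (2 * T) := by positivity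
  obtain ⟨N, hN⟩ := lintegral_slice_box_le D y (C := C') (R := R) hc'
  set n := Fintype.card ι with hn
  set vB := (volume B).toReal with hvB
  set W₁ := √(vB * ((2 * T) ^ 4 * C ^ 2) ^ n) with hW₁
  refine ⟨K₁ * √(N : ℝ) + K₁ * W₁, c / (2 * T), C', by positivity, hc', hC'1, ?_⟩
  intro φ hm hinv h2 hcusp z r hr hbal j
  have hr0 : ∀ i, 0 < r i := fun i => hc.trans_le (hr i)
  set W := heightWindow T r with hW
  have hWm : MeasurableSet W := measurableSet_Icc
  have hWpos : ∀ r' ∈ W, ∀ i, 0 < r' i := fun r' hr' i =>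
    (div_pos (hr0 i) (by positivity)).trans_le (hr'.1 i)
  have hrl : ∀ i l, r i ≤ C * r l := hbal
  have hbox : ∀ p ∈ B ×ˢ W, Reduction.InBox (c / (2 * T)) C' R (ptOf p) ∧ p ∈ posCone ι := by
    rintro ⟨z', r'⟩ ⟨hz', hr'⟩
    have hpos : (z', r') ∈ posCone ι := hWpos r' hr'
    refine ⟨⟨fun i => ?_, fun i l => ?_, fun i => ?_⟩, hpos⟩
    · rw [ptOf_r hpos]
      exact (div_le_div_of_nonneg_right (hr i) (by positivity)).trans (hr'.1 i)
    · rw [ptOf_r hpos, ptOf_r hpos]
      calc r' i ≤ 2 * T * r i := hr'.2 i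
        _ ≤ 2 * T * (C * r l) := mul_le_mul_of_nonneg_left (hrl i l) (by positivity)
        _ = C' * (r l / (2 * T)) := by rw [hC']; field_simp; ring
        _ ≤ C' * r' l := mul_le_mul_of_nonneg_left (hr'.1 l) (by linarith)
    · exact (norm_le_pi_norm z' i).trans (mem_closedBall_zero_iff.mp (hR hz'))
  have hL2 : IntegrableOn (fun p => ‖slice φ y p‖ ^ 2) (B ×ˢ W) (volume.prod volume) := by
    obtain ⟨b, hb⟩ : ∃ b, ∀ i, 2 * T * r i ≤ b :=
      ⟨∑ i, 2 * T * r i, fun i => Finset.single_le_sum (f := fun l => 2 * T * r l)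
        (fun l _ => mul_nonneg (by positivity) (hr0 l).le) (Finset.mem_univ i)⟩
    obtain ⟨M₂, hM₂⟩ := exists_eLpNorm_slab_le D y R (b := b) hc'
    have hlp : MemLp (slice φ y) 2 ((volume.prod volume).restrict (slab ι R (c / (2 * T)) b)) :=
      ⟨(measurable_slice hm y).aestronglyMeasurable, (hM₂ φ hm hinv).trans_lt
        (ENNReal.mul_lt_top ENNReal.coe_lt_top h2.eLpNorm_lt_top)⟩
    refine IntegrableOn.mono_set (t := slab ι R (c / (2 * T)) b)
      ((memLp_two_iff_integrable_sq_norm (measurable_slice hm y).aestronglyMeasurable).mp hlp) ?_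
    rintro ⟨z', r'⟩ ⟨hz', hr'⟩
    exact ⟨hR hz', fun i _ => ⟨(div_le_div_of_nonneg_right (hr i) (by positivity)).trans (hr'.1 i),
      (hr'.2 i).trans (hb i)⟩⟩
  have hper : ∀ (g : periodLattice Φ d hd.ne_zero) (z : ι → ℂ) (r : ι → ℝ),
      slice φ y ((g : ι → ℂ) + z, r) = slice φ y (z, r) := fun g z r =>
    slice_periodic (fun g x => (isInvariant_iff_pgl φ).mpr hinv g x) hd g z r
  have hmain : ‖slice (archOp k φ) y (z, r)‖ ≤ K₁ * r j ^ (n - 1) *
      √(∫ p in B ×ˢ W, hypDensity p.2 * ‖slice φ y p‖ ^ 2 ∂volume.prod volume) := by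
    rw [slice_archOp_eq hT hL hs he hm hinv h2 y z hr0]
    exact hK₁ (slice φ y) (measurable_slice hm y) hper (hcusp y d hd) z r hr hbal hL2 j
  set Q := ∫ p in B ×ˢ W, hypDensity p.2 * ‖slice φ y p‖ ^ 2 ∂volume.prod volume with hQ
  have hdens : ∀ p ∈ B ×ˢ W, 0 ≤ hypDensity p.2 := fun p hp =>
    Finset.prod_nonneg fun i _ => pow_nonneg (inv_nonneg.mpr (hWpos _ hp.2 i).le) 3
  have hn1 : 1 ≤ n := Fintype.card_pos
  refine ⟨?_, fun a G hG hgr => ?_⟩
  · refine hmain.trans ?_
    have hQle : √Q ≤ √(N : ℝ) * (eLpNorm φ 2 D.ν).toReal := by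
      rw [← Real.sqrt_sq (ENNReal.toReal_nonneg (a := eLpNorm φ 2 D.ν)),
        ← Real.sqrt_mul (Nat.cast_nonneg N)]
      refine Real.sqrt_le_sqrt ?_
      have h := hN (fun x => ‖φ x‖ₑ ^ 2) (hm.enorm.pow_const 2) (fun g x => by rw [hinv])
        (B ×ˢ W) ((measurableSet_fundDom _).prod hWm) hbox
      have hsq : ∫⁻ x, ‖φ x‖ₑ ^ 2 ∂D.ν = eLpNorm φ 2 D.ν ^ 2 := by
        rw [eLpNorm_eq_lintegral_rpow_enorm_toReal (by norm_num) ENNReal.ofNat_ne_top]
        simp only [ENNReal.toReal_ofNat, ← ENNReal.rpow_two]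
        rw [← ENNReal.rpow_mul]
        norm_num
      rw [hsq] at h
      rw [hQ, integral_eq_lintegral_of_nonneg_ae
        ((ae_restrict_mem ((measurableSet_fundDom _).prod hWm)).mono fun p hp =>
          mul_nonneg (hdens p hp) (sq_nonneg _))
        (((Finset.measurable_prod _ fun i _ => ((measurable_pi_apply i).inv).pow_const 3).comp
          measurable_snd).mul ((measurable_slice hm y).norm.pow_const 2)).aestronglyMeasurable,
        ← ENNReal.toReal_natCast, ← ENNReal.toReal_pow, ← ENNReal.toReal_mul]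
      refine ENNReal.toReal_mono
        (ENNReal.mul_ne_top (ENNReal.natCast_ne_top N) (ENNReal.pow_ne_top h2.eLpNorm_lt_top.ne))
        (le_trans (le_of_eq ?_) h)
      refine setLIntegral_congr_fun ((measurableSet_fundDom _).prod hWm) fun p hp => ?_
      show ENNReal.ofReal (hypDensity p.2 * ‖slice φ y p‖ ^ 2) = hypDensity' p * _
      rw [ENNReal.ofReal_mul (hdens p hp), ENNReal.ofReal_pow (norm_nonneg _),
        ofReal_norm, hypDensity, hypDensity', ENNReal.ofReal_prod_of_nonneg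
          fun i _ => pow_nonneg (inv_nonneg.mpr (hWpos _ hp.2 i).le) 3]
      simp only [inv_pow]
      rfl
    rw [show r j ^ ((n : ℤ) - 1) = r j ^ (n - 1) by
      rw [← zpow_natCast, Nat.cast_sub hn1, Nat.cast_one]]
    calc K₁ * r j ^ (n - 1) * √Q ≤ K₁ * r j ^ (n - 1) * (√(N : ℝ) * (eLpNorm φ 2 D.ν).toReal) :=
          mul_le_mul_of_nonneg_left hQle (mul_nonneg hK₁0 (pow_nonneg (hr0 j).le _))
      _ ≤ _ := by
          have h0 : 0 ≤ K₁ * W₁ * r j ^ (n - 1) * (eLpNorm φ 2 D.ν).toReal :=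
            mul_nonneg (mul_nonneg (mul_nonneg hK₁0 (Real.sqrt_nonneg _))
              (pow_nonneg (hr0 j).le _)) ENNReal.toReal_nonneg
          nlinarith
  · refine hmain.trans ?_
    -- pointwise bound on the window
    have hpt : ∀ p ∈ B ×ˢ W, ‖slice φ y p‖ ≤ G * (C' ^ a.natAbs * r j ^ a) := by
      rintro ⟨z', r'⟩ hp
      obtain ⟨hb, hpos⟩ := hbox _ hp
      have h1 := hgr (Space.mk (ptOf (z', r')) y) ⟨rfl, hb.1, hb.2.1⟩ j
      refine h1.trans (mul_le_mul_of_nonneg_left ?_ hG)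
      rw [Space.pt_mk, ptOf_r hpos]
      have hp' : 0 < r' j := hpos j
      have hTC : 2 * T ≤ C' := by
        rw [hC']
        nlinarith [mul_le_mul hT hC zero_le_one (zero_le_one.trans hT),
          mul_nonneg (sub_nonneg.mpr hT) (sub_nonneg.mpr hC)]
      have hq1 : r' j ≤ C' * r j :=
        (hp.2.2 j).trans (mul_le_mul_of_nonneg_right hTC (hr0 j).le)
      have hq2 : r j ≤ C' * r' j := by
        have h3 : r j ≤ 2 * T * r' j := by
          have := hp.2.1 j
          rwa [div_le_iff₀ (by positivity), mul_comm (r' j)] at this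
        exact h3.trans (mul_le_mul_of_nonneg_right hTC hp'.le)
      rcases Int.natAbs_eq a with ha | ha <;> rw [ha] <;>
        simp only [Int.natAbs_neg, Int.natAbs_natCast, _root_.zpow_neg, zpow_natCast]
      · rw [← mul_pow]
        exact pow_le_pow_left₀ hp'.le hq1 _
      · rw [← inv_pow, ← inv_pow, ← mul_pow]
        refine pow_le_pow_left₀ (inv_nonneg.mpr hp'.le) ?_ _
        rw [← div_eq_mul_inv, inv_eq_one_div, div_le_div_iff₀ hp' (hr0 j), one_mul]
        exact hq2
    set P := G * (C' ^ a.natAbs * r j ^ a) with hP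
    have hP0 : 0 ≤ P := mul_nonneg hG
      (mul_nonneg (pow_nonneg (by linarith) _) (zpow_nonneg (hr0 j).le _))
    have hvol : vB * ((volume W).toReal * ∏ i, (2 * T / r i) ^ 3)
        ≤ vB * (((2 * T) ^ 4 * C ^ 2) / r j ^ 2) ^ n :=
      mul_le_mul_of_nonneg_left (window_volume_le hT hr0 hbal j) ENNReal.toReal_nonneg
    have hfin : (volume.prod volume) (B ×ˢ W) ≠ ⊤ := by
      rw [Measure.prod_prod]
      exact ENNReal.mul_ne_top ((measure_mono hR).trans_lt measure_closedBall_lt_top).ne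
        (isCompact_Icc.measure_lt_top).ne
    have hQle : Q ≤ vB * (((2 * T) ^ 4 * C ^ 2) / r j ^ 2) ^ n * P ^ 2 := by
      have h1 := norm_setIntegral_le_of_norm_le_const (μ := volume.prod volume)
        (f := fun p : (ι → ℂ) × (ι → ℝ) => hypDensity p.2 * ‖slice φ y p‖ ^ 2)
        (C := (∏ i, (2 * T / r i) ^ 3) * P ^ 2) hfin.lt_top fun p hp => ?_
      swap
      · rw [norm_mul, Real.norm_of_nonneg (hdens p hp), norm_pow, norm_norm]
        refine mul_le_mul ?_ (pow_le_pow_left₀ (norm_nonneg _) (hpt p hp) 2) (by positivity)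
          (Finset.prod_nonneg fun i _ => pow_nonneg (div_nonneg (by positivity) (hr0 i).le) 3)
        refine Finset.prod_le_prod
          (fun i _ => pow_nonneg (inv_nonneg.mpr (hWpos _ hp.2 i).le) 3) fun i _ =>
          pow_le_pow_left₀ (inv_nonneg.mpr (hWpos _ hp.2 i).le) ?_ 3
        rw [← inv_div]
        exact inv_anti₀ (div_pos (hr0 i) (by positivity)) (hp.2.1 i)
      rw [Measure.real, Measure.prod_prod, ENNReal.toReal_mul] at h1
      refine ((le_abs_self Q).trans h1).trans ?_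
      rw [show (∏ i, (2 * T / r i) ^ 3) * P ^ 2 * ((volume B).toReal * (volume W).toReal)
        = vB * ((volume W).toReal * ∏ i, (2 * T / r i) ^ 3) * P ^ 2 by rw [hvB]; ring]
      exact mul_le_mul_of_nonneg_right hvol (sq_nonneg _)
    have hsq : √Q ≤ W₁ / r j ^ n * P := by
      refine (Real.sqrt_le_sqrt hQle).trans (le_of_eq ?_)
      rw [Real.sqrt_mul' _ (sq_nonneg _), Real.sqrt_sq hP0, hW₁, div_pow, ← pow_mul,
        ← mul_div_assoc, Real.sqrt_div' _ (pow_nonneg (hr0 j).le _), mul_comm 2 n, pow_mul,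
        Real.sqrt_sq (pow_nonneg (hr0 j).le _)]
    refine (mul_le_mul_of_nonneg_left hsq (mul_nonneg hK₁0 (pow_nonneg (hr0 j).le _))).trans ?_
    have hrn : r j ^ (n - 1) / r j ^ n = (r j)⁻¹ := by
      rw [show r j ^ n = r j ^ (n - 1) * r j by
        rw [← pow_succ]
        congr 1
        omega, div_mul_eq_div_div, div_self (pow_ne_zero _ (hr0 j).ne'), one_div]
    calc K₁ * r j ^ (n - 1) * (W₁ / r j ^ n * P)
        = K₁ * W₁ * (r j ^ (n - 1) / r j ^ n) * P := by ring
      _ = K₁ * W₁ * C' ^ a.natAbs * G * r j ^ (a - 1) := by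
          rw [hrn, hP, zpow_sub₀ (hr0 j).ne', zpow_one]
          ring
      _ ≤ _ := by
          have h0 : 0 ≤ K₁ * √(N : ℝ) * (C' ^ a.natAbs * G * r j ^ (a - 1)) :=
            mul_nonneg (mul_nonneg hK₁0 (Real.sqrt_nonneg _))
              (mul_nonneg (mul_nonneg (pow_nonneg (by linarith) _) hG) (zpow_nonneg (hr0 j).le _))
          nlinarith

end Fermat.Agent.LT.Descent

end
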