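import Mathlib.Algebra.Algebra.Basic
import Mathlib.Algebra.BigOperators.Intervals
import Mathlib.Algebra.BigOperators.GroupWithZero.Action
import Mathlib.Analysis.Complex.Basic
import Mathlib.Data.Nat.Choose.Sum
import Mathlib.LinearAlgebra.Trace
import Mathlib.Tactic.LinearCombination
import Mathlib.Tactic.Module

/-!
# The Iwahori relations at one place

A pair `t, w` with `t² = (q-1)t + q` and `w² = 1`; `U = tw`, and `X = tw + wt - (q-1)w` commutes
with both.  When `X` is a scalar `x` with `x² ≠ (q+1)²`, the spherical idempotent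
`e` projects onto the `q`-eigenspace of `t` and `e + wew = 1`.
-/

set_option autoImplicit false
set_option linter.unusedSectionVars false

noncomputable section

namespace Fermat.Agent.LT.Descent

/-- The relations between the averaging operator and the Atkin-Lehner operator. -/
structure IsIwahoriPair {A : Type*} [Ring A] [Algebra ℂ A] (q : ℂ) (t w : A) : Prop where
  sq_t : t * t = (q - 1) • t + q • 1
  sq_w : w * w = 1

/-- The element commuting with the pair. -/
def iwahoriX {A : Type*} [Ring A] [Algebra ℂ A] (q : ℂ) (t w : A) : A :=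
  t * w + w * t - (q - 1) • w

/-- The inverse of `t * w`. -/
def iwahoriUInv {A : Type*} [Ring A] [Algebra ℂ A] (q : ℂ) (t w : A) : A :=
  q⁻¹ • (w * t - (q - 1) • w)

/-- The idempotent onto the spherical vectors, when `X` is the scalar `x`. -/
def spherIdem {A : Type*} [Ring A] [Algebra ℂ A] (q x : ℂ) (t w : A) : A :=
  (x ^ 2 - (q + 1) ^ 2)⁻¹ • ((t + 1) * (x • w - (q + 1) • 1))

namespace IsIwahoriPair

variable {A : Type*} [Ring A] [Algebra ℂ A] {q x : ℂ} {t w : A} (h : IsIwahoriPair q t w)

include h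

theorem t_mul_t_mul (z : A) : t * (t * z) = (q - 1) • (t * z) + q • z := by
  rw [← mul_assoc, h.sq_t, add_mul, smul_mul_assoc, smul_mul_assoc, one_mul]

theorem w_mul_w_mul (z : A) : w * (w * z) = z := by
  rw [← mul_assoc, h.sq_w, one_mul]

theorem commute_iwahoriX_t : Commute (iwahoriX q t w) t := by
  simp only [Commute, SemiconjBy, iwahoriX, mul_add, add_mul, mul_sub, sub_mul, smul_mul_assoc,
    mul_smul_comm, mul_assoc, h.sq_t, h.t_mul_t_mul, mul_one, smul_add]
  module

theorem commute_iwahoriX_w : Commute (iwahoriX q t w) w := by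
  simp only [Commute, SemiconjBy, iwahoriX, mul_add, add_mul, mul_sub, sub_mul, smul_mul_assoc,
    mul_smul_comm, mul_assoc, h.sq_w, h.w_mul_w_mul, mul_one]
  module

/-- The quadratic relation of `U = tw` over `X`. -/
theorem sq_U : t * w * (t * w) - iwahoriX q t w * (t * w) + q • 1 = 0 := by
  simp only [iwahoriX, add_mul, sub_mul, smul_mul_assoc, mul_assoc, h.t_mul_t_mul, h.sq_w,
    h.w_mul_w_mul, mul_add, mul_smul_comm, mul_one, smul_add]
  module

theorem U_mul_UInv (hq : q ≠ 0) : t * w * iwahoriUInv q t w = 1 := by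
  simp only [iwahoriUInv, mul_smul_comm, mul_sub, mul_assoc, h.w_mul_w_mul, h.sq_w, mul_one,
    h.sq_t, add_sub_cancel_left, smul_smul, inv_mul_cancel₀ hq, one_smul]

theorem UInv_mul_U (hq : q ≠ 0) : iwahoriUInv q t w * (t * w) = 1 := by
  simp only [iwahoriUInv, smul_mul_assoc, sub_mul, mul_assoc, h.t_mul_t_mul, mul_add,
    mul_smul_comm, h.sq_w, add_sub_cancel_left, smul_smul, inv_mul_cancel₀ hq, one_smul]

theorem iwahoriX_eq (hq : q ≠ 0) : iwahoriX q t w = t * w + q • iwahoriUInv q t w := by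
  rw [iwahoriUInv, smul_smul, mul_inv_cancel₀ hq, one_smul, iwahoriX, add_sub_assoc]

/-- The unit `U`. -/
def uUnit (hq : q ≠ 0) : Aˣ :=
  ⟨t * w, iwahoriUInv q t w, h.U_mul_UInv hq, h.UInv_mul_U hq⟩

/-- Powers of `X` times a high power of `U` are combinations of powers of `U`. -/
theorem pow_iwahoriX_mul_pow (hq : q ≠ 0) {j n : ℕ} (hjn : j ≤ n) :
    iwahoriX q t w ^ j * (t * w) ^ n =
      ∑ k ∈ Finset.range (j + 1),
        ((j.choose k : ℂ) * q ^ (j - k)) • (t * w) ^ (n + 2 * k - j) := by
  have hcomm : Commute (t * w) (q • iwahoriUInv q t w) :=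
    Commute.smul_right (by rw [Commute, SemiconjBy, h.U_mul_UInv hq, h.UInv_mul_U hq]) q
  rw [h.iwahoriX_eq hq, hcomm.add_pow, Finset.sum_mul]
  refine Finset.sum_congr rfl fun k hk => ?_
  have hk' : k ≤ j := Nat.lt_succ_iff.1 (Finset.mem_range.1 hk)
  have hred : ∀ i m : ℕ, iwahoriUInv q t w ^ i * (t * w) ^ (i + m) = (t * w) ^ m := by
    intro i
    induction i with
    | zero => simp
    | succ i ih =>
      intro m
      rw [pow_succ, show i + 1 + m = (i + m) + 1 by omega, pow_succ' (t * w), mul_assoc,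
        ← mul_assoc (iwahoriUInv q t w), h.UInv_mul_U hq, one_mul, ih]
  rw [smul_pow, show ((j.choose k : ℕ) : A) = (j.choose k : ℂ) • (1 : A) by
    rw [Algebra.smul_def, map_natCast, mul_one]]
  simp only [smul_mul_assoc, mul_smul_comm, mul_assoc, one_mul, mul_one, smul_smul]
  congr 1
  rw [show n = (j - k) + (n - (j - k)) by omega, hred, ← pow_add]
  congr 1
  omega

theorem mul_t_add_one : (t + 1) * (t + 1) = (q + 1) • (t + 1) := by
  simp only [add_mul, mul_add, h.sq_t, one_mul, mul_one]
  module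

theorem t_mul_add_one : t * (t + 1) = q • (t + 1) := by
  rw [mul_add, mul_one, h.sq_t]
  module

/-- On a spherical element `(t+1)w` is `X`. -/
theorem add_one_mul_w_mul {b : A} (hb : t * b = q • b) :
    (t + 1) * (w * b) = iwahoriX q t w * b := by
  simp only [iwahoriX, add_mul, sub_mul, mul_assoc, smul_mul_assoc, hb, mul_smul_comm, one_mul]
  module

theorem t_mul_spherIdem : t * spherIdem q x t w = q • spherIdem q x t w := by
  rw [spherIdem, mul_smul_comm, ← mul_assoc, h.t_mul_add_one, smul_mul_assoc, smul_comm]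

variable (hX : iwahoriX q t w = x • (1 : A)) (hx : x ^ 2 ≠ (q + 1) ^ 2)

include hX

theorem w_mul_t : w * t = x • 1 - t * w + (q - 1) • w := by
  rw [← hX, iwahoriX]
  abel

theorem middle : (t + 1) * (x • w - (q + 1) • 1) * (t + 1) =
    (x ^ 2 - (q + 1) ^ 2) • (t + 1) := by
  have h1 : (t + 1) * (w * (t + 1)) = iwahoriX q t w * (t + 1) :=
    h.add_one_mul_w_mul h.t_mul_add_one
  simp only [mul_sub, sub_mul, mul_smul_comm, smul_mul_assoc, mul_assoc, one_mul, h1,
    h.mul_t_add_one, hX, smul_smul]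
  rw [← sub_smul]
  congr 1
  ring

include hx

theorem spherIdem_mul_add_one : spherIdem q x t w * (t + 1) = t + 1 := by
  rw [spherIdem, smul_mul_assoc, h.middle hX, smul_smul, inv_mul_cancel₀ (sub_ne_zero.2 hx),
    one_smul]

theorem spherIdem_mul_self : spherIdem q x t w * spherIdem q x t w = spherIdem q x t w := by
  conv_lhs => arg 2; rw [spherIdem]
  rw [mul_smul_comm, ← mul_assoc, h.spherIdem_mul_add_one hX hx, spherIdem]

/-- `e` fixes every spherical element. -/
theorem spherIdem_mul {b : A} (hq1 : q + 1 ≠ 0) (hb : t * b = q • b) :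
    spherIdem q x t w * b = b := by
  have hb' : b = (q + 1)⁻¹ • ((t + 1) * b) := by
    rw [add_mul, hb, one_mul]
    match_scalars
    field_simp
  conv_lhs => rw [hb']
  rw [mul_smul_comm, ← mul_assoc, h.spherIdem_mul_add_one hX hx, ← hb']

theorem spherIdem_add_conj : spherIdem q x t w + w * spherIdem q x t w * w = 1 := by
  have hD := sub_ne_zero.2 hx
  rw [spherIdem, mul_smul_comm, smul_mul_assoc, ← smul_add]
  have key : (t + 1) * (x • w - (q + 1) • 1) + w * ((t + 1) * (x • w - (q + 1) • 1)) * w =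
      (x ^ 2 - (q + 1) ^ 2) • 1 := by
    have hwt := h.w_mul_t hX
    have hwtw : w * (t * w) = x • w - t + (q - 1) • 1 := by
      rw [← mul_assoc, hwt]
      simp only [add_mul, sub_mul, smul_mul_assoc, one_mul, mul_assoc, h.sq_w, mul_one]
    simp only [add_mul, mul_sub, sub_mul, mul_add, mul_smul_comm, smul_mul_assoc, mul_one,
      one_mul, mul_assoc, h.sq_w, hwt, hwtw]
    module
  rw [key, smul_smul, inv_mul_cancel₀ hD, one_smul]

theorem spherIdem_ne_zero [Nontrivial A] : spherIdem q x t w ≠ 0 := fun h0 =>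
  zero_ne_one (α := A) (by rw [← h.spherIdem_add_conj hX hx, h0, mul_zero, zero_mul, add_zero])

end IsIwahoriPair

/-- An intertwiner of two pairs intertwines the idempotents. -/
theorem spherIdem_semiconj {A : Type*} [Ring A] [Algebra ℂ A] (q x : ℂ) {S t₁ w₁ t₂ w₂ : A}
    (ht : S * t₁ = t₂ * S) (hw : S * w₁ = w₂ * S) :
    S * spherIdem q x t₁ w₁ = spherIdem q x t₂ w₂ * S := by
  simp only [spherIdem, mul_smul_comm, smul_mul_assoc]
  congr 1
  have h1 : S * (t₁ + 1) = (t₂ + 1) * S := by rw [mul_add, add_mul, mul_one, one_mul, ht]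
  have h2 : S * (x • w₁ - (q + 1) • 1) = (x • w₂ - (q + 1) • 1) * S := by
    simp only [mul_sub, sub_mul, mul_smul_comm, smul_mul_assoc, hw, mul_one, one_mul]
  rw [← mul_assoc, h1, mul_assoc, h2, mul_assoc]

end Fermat.Agent.LT.Descent
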