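import Fermat.Agent.LT.Descent.IwahoriLocal
import Fermat.Agent.LT.Descent.Support.Local

/-!
# The powers of `U = tw`

`Eₙ = ⋃_b n(b) diag(ϖⁿ, 1) J`: `t * w` is the indicator of `E₁`, `E₀ = J` and
`Eₙ * Eₘ = Eₙ₊ₘ`, so the `n`-th power of `U` is the indicator of `Eₙ`, supported on
matrices congruent to `[[0, *], [0, 1]]`.
-/

set_option autoImplicit false
set_option linter.unusedSectionVars false

noncomputable section

namespace Fermat.Agent.LT.Descent

open IsDedekindDomain IsDedekindDomain.HeightOneSpectrum Matrix NumberField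
open Fermat.Agent.LT.Adelic Fermat.Agent.LT.Aleph Fermat.Agent.LT.Tame
open scoped MatrixGroups

variable {K : Type*} [Field K] [NumberField K] {v : HeightOneSpectrum (𝓞 K)}

local notation "Kv" => v.adicCompletion K

/-- `n(b) diag(ϖⁿ, 1)`. -/
def bigMat (ϖ : Kvˣ) (n : ℕ) (b : Kv) : GL (Fin 2) Kv := unipotent b * diag2 (ϖ ^ n) 1

/-- Its class in `PGL₂`. -/
def bigRep (ϖ : Kvˣ) (n : ℕ) (b : Kv) : PGL(2, Kv) := ProjGenLinGroup.mk (bigMat ϖ n b)

/-- The cosets `n(b) diag(ϖⁿ, 1) J`, `b` integral. -/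
def bigSet (ϖ : Kvˣ) (n : ℕ) : Set PGL(2, Kv) :=
  {g | ∃ b : Kv, Valued.v b ≤ 1 ∧ (bigRep ϖ n b)⁻¹ * g ∈ pglIwahori v}

/-- The kernel of `Uⁿ`. -/
def iwUPow (ϖ : Kvˣ) (n : ℕ) : PGL(2, Kv) → ℂ := Set.indicator (bigSet ϖ n) 1

theorem coe_bigMat (ϖ : Kvˣ) (n : ℕ) (b : Kv) :
    ((bigMat ϖ n b : GL (Fin 2) Kv) : Matrix (Fin 2) (Fin 2) Kv) =
      !![(ϖ : Kv) ^ n, b; 0, 1] := by
  rw [bigMat, Units.val_mul, coe_unipotent, coe_diag2, Matrix.mul_fin_two]
  simp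

theorem bigMat_mul (ϖ : Kvˣ) (n m : ℕ) (b c : Kv) :
    bigMat ϖ n b * bigMat ϖ m c = bigMat ϖ (n + m) (b + (ϖ : Kv) ^ n * c) := by
  refine Units.ext ?_
  rw [Units.val_mul, coe_bigMat, coe_bigMat, coe_bigMat, Matrix.mul_fin_two]
  simp [pow_add, add_comm]

theorem bigRep_mul (ϖ : Kvˣ) (n m : ℕ) (b c : Kv) :
    bigRep ϖ n b * bigRep ϖ m c = bigRep ϖ (n + m) (b + (ϖ : Kv) ^ n * c) := by
  rw [bigRep, bigRep, bigRep, ← map_mul, bigMat_mul]

theorem bigRep_zero_zero (ϖ : Kvˣ) : bigRep ϖ 0 0 = 1 := by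
  have h : bigMat ϖ 0 (0 : Kv) = 1 := Units.ext (by
    rw [coe_bigMat]
    ext i j
    fin_cases i <;> fin_cases j <;> simp)
  rw [bigRep, h, map_one]

/-- Two representatives with congruent parameters give one coset. -/
theorem bigRep_congr {ϖ : Kvˣ} {n : ℕ} {b b' : Kv} (h : Valued.v (b' - b) ≤ Valued.v (ϖ : Kv) ^ n) :
    (bigRep ϖ n b)⁻¹ * bigRep ϖ n b' ∈ pglIwahori v := by
  have hx : Valued.v (((ϖ : Kv) ^ n)⁻¹ * (b' - b)) ≤ 1 := by
    rw [map_mul, map_inv₀, map_pow]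
    refine inv_mul_le_one_of_le₀ h zero_le
  have e : (bigMat ϖ n b)⁻¹ * bigMat ϖ n b' = unipotent (((ϖ : Kv) ^ n)⁻¹ * (b' - b)) := by
    rw [inv_mul_eq_iff_eq_mul]
    refine Units.ext ?_
    rw [Units.val_mul, coe_bigMat, coe_bigMat, coe_unipotent, Matrix.mul_fin_two]
    have := ϖ.ne_zero
    simp
  rw [bigRep, bigRep, ← map_inv, ← map_mul, e]
  exact mk_mem_pglIwahori_of (fun i j => (isIntLocal_unipotent hx i j).1)
    (isIntLocal_unipotent hx).valued_det (by simp)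

theorem congr_of_bigRep {ϖ : Kvˣ} {n : ℕ} {b b' : Kv}
    (h : (bigRep ϖ n b)⁻¹ * bigRep ϖ n b' ∈ pglIwahori v) :
    Valued.v (b' - b) ≤ Valued.v (ϖ : Kv) ^ n := by
  rw [bigRep, bigRep, ← map_inv, ← map_mul] at h
  obtain ⟨δ, hδ, hδg⟩ := Subgroup.mem_map.1 h
  obtain ⟨c, hc⟩ := ProjGenLinGroup.mk_eq_mk_iff.1 hδg
  have he : ∀ i j, (((bigMat ϖ n b)⁻¹ * bigMat ϖ n b' : GL (Fin 2) Kv) :
      Matrix (Fin 2) (Fin 2) Kv) i j = (c : Kv) * (δ : Matrix (Fin 2) (Fin 2) Kv) i j := fun i j => by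
    rw [← coe_scalar_mul, hc]
  have e : (((bigMat ϖ n b)⁻¹ * bigMat ϖ n b' : GL (Fin 2) Kv) : Matrix (Fin 2) (Fin 2) Kv) =
      !![1, ((ϖ : Kv) ^ n)⁻¹ * (b' - b); 0, 1] := by
    rw [show (bigMat ϖ n b)⁻¹ * bigMat ϖ n b' = unipotent (((ϖ : Kv) ^ n)⁻¹ * (b' - b)) from ?_,
      coe_unipotent]
    rw [inv_mul_eq_iff_eq_mul]
    refine Units.ext ?_
    rw [Units.val_mul, coe_bigMat, coe_bigMat, coe_unipotent, Matrix.mul_fin_two]
    have := ϖ.ne_zero
    simp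
  rw [e] at he
  have h00 : (1 : Kv) = (c : Kv) * (δ : Matrix (Fin 2) (Fin 2) Kv) 0 0 := by simpa using he 0 0
  have h01 : ((ϖ : Kv) ^ n)⁻¹ * (b' - b) = (c : Kv) * (δ : Matrix (Fin 2) (Fin 2) Kv) 0 1 := by
    simpa using he 0 1
  have h11 : (1 : Kv) = (c : Kv) * (δ : Matrix (Fin 2) (Fin 2) Kv) 1 1 := by simpa using he 1 1
  have hd : (c : Kv) * c * (δ : Matrix (Fin 2) (Fin 2) Kv).det = 1 := by
    have h10 : (0 : Kv) = (c : Kv) * (δ : Matrix (Fin 2) (Fin 2) Kv) 1 0 := by simpa using he 1 0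
    rw [Matrix.det_fin_two]
    linear_combination (-(c : Kv) * (δ : Matrix (Fin 2) (Fin 2) Kv) 1 1) * h00 - h11 +
      ((c : Kv) * (δ : Matrix (Fin 2) (Fin 2) Kv) 0 1) * h10
  have hc1 : Valued.v (c : Kv) = 1 := by
    have h2 := congrArg Valued.v hd
    rw [map_mul, map_mul, hδ.1.valued_det, mul_one, map_one, ← sq] at h2
    rcases lt_trichotomy (Valued.v (c : Kv)) 1 with h1 | h1 | h1
    · exact absurd h2 (pow_lt_one₀ zero_le h1 two_ne_zero).ne
    · exact h1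
    · exact absurd h2 (one_lt_pow₀ h1 two_ne_zero).ne'
  have hle : Valued.v (((ϖ : Kv) ^ n)⁻¹ * (b' - b)) ≤ 1 := by
    rw [h01, map_mul, hc1, one_mul]
    exact (hδ.1 0 1).1
  rw [map_mul, map_inv₀, map_pow] at hle
  exact (inv_mul_le_one₀ (pow_pos (zero_lt_iff.2 ((Valuation.ne_zero_iff _).2 ϖ.ne_zero)) n)).1 hle

variable (v)

/-- Left translation by `J` permutes the cosets. -/
theorem exists_mul_bigRep {ϖ : (v.adicCompletion K)ˣ}
    (hϖ : Valued.v (ϖ : v.adicCompletion K) = WithZero.exp (-1 : ℤ)) (n : ℕ)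
    {k : PGL(2, v.adicCompletion K)} (hk : k ∈ pglIwahori v) {b : v.adicCompletion K}
    (hb : Valued.v b ≤ 1) :
    ∃ b', Valued.v b' ≤ 1 ∧ (bigRep ϖ n b')⁻¹ * (k * bigRep ϖ n b) ∈ pglIwahori v := by
  obtain ⟨γ, hγ, rfl⟩ := Subgroup.mem_map.1 hk
  set M := (γ : Matrix (Fin 2) (Fin 2) (v.adicCompletion K)) with hM
  have hdet : Valued.v (M 0 0 * M 1 1 - M 0 1 * M 1 0) = 1 := by
    rw [← Matrix.det_fin_two]; exact hγ.1.valued_det
  have h11 : Valued.v (M 1 1) = 1 := by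
    refine le_antisymm (hγ.1 1 1).1 (le_of_not_gt fun hlt => ?_)
    refine absurd hdet (lt_of_le_of_lt (Valuation.map_sub _ _ _) (max_lt ?_ ?_)).ne <;> rw [map_mul]
    · exact lt_of_le_of_lt ((mul_le_mul' (hγ.1 0 0).1 le_rfl).trans (one_mul _).le) hlt
    · exact lt_of_le_of_lt ((mul_le_mul' (hγ.1 0 1).1 le_rfl).trans (one_mul _).le) hγ.2.1
  have hden : Valued.v (M 1 0 * b + M 1 1) = 1 := by
    rw [← h11]
    refine Valuation.map_add_eq_of_lt_right _ ?_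
    rw [map_mul, h11]
    exact lt_of_le_of_lt ((mul_le_mul' le_rfl hb).trans (mul_one _).le) hγ.2.1
  have hnum : Valued.v (M 0 0 * b + M 0 1) ≤ 1 := by
    refine le_trans (Valuation.map_add _ _ _) (max_le ?_ (hγ.1 0 1).1)
    rw [map_mul]; exact mul_le_one' (hγ.1 0 0).1 hb
  have hden0 : M 1 0 * b + M 1 1 ≠ 0 := fun h0 => by
    rw [h0, map_zero] at hden; exact zero_ne_one hden
  set b' := (M 0 0 * b + M 0 1) / (M 1 0 * b + M 1 1) with hb'
  have hb'le : Valued.v b' ≤ 1 := by rw [hb', map_div₀, hden, div_one]; exact hnum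
  have hkey : b' * (M 1 0 * b + M 1 1) = M 0 0 * b + M 0 1 := div_mul_cancel₀ _ hden0
  clear_value b'
  refine ⟨b', hb'le, ?_⟩
  rw [bigRep, bigRep, ← map_inv, ← map_mul, ← map_mul]
  have hϖ0 := ϖ.ne_zero
  have e : (((bigMat ϖ n b')⁻¹ * (γ * bigMat ϖ n b) : GL (Fin 2) (v.adicCompletion K)) :
      Matrix (Fin 2) (Fin 2) (v.adicCompletion K)) =
      !![M 0 0 - b' * M 1 0, 0; (ϖ : v.adicCompletion K) ^ n * M 1 0, M 1 0 * b + M 1 1] := by
    have hinv : (((bigMat ϖ n b')⁻¹ : GL (Fin 2) (v.adicCompletion K)) :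
        Matrix (Fin 2) (Fin 2) (v.adicCompletion K)) =
        !![((ϖ : v.adicCompletion K) ^ n)⁻¹, -(((ϖ : v.adicCompletion K) ^ n)⁻¹ * b'); 0, 1] := by
      rw [bigMat, _root_.mul_inv_rev, Units.val_mul,
        show (((diag2 (ϖ ^ n) 1)⁻¹ : GL (Fin 2) (v.adicCompletion K)) :
          Matrix (Fin 2) (Fin 2) (v.adicCompletion K)) =
          !![(((ϖ ^ n)⁻¹ : (v.adicCompletion K)ˣ) : v.adicCompletion K), 0;
            0, ((1⁻¹ : (v.adicCompletion K)ˣ) : v.adicCompletion K)] from rfl,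
        show (((unipotent b')⁻¹ : GL (Fin 2) (v.adicCompletion K)) :
          Matrix (Fin 2) (Fin 2) (v.adicCompletion K)) = !![1, -b'; 0, 1] from rfl,
        Matrix.mul_fin_two]
      simp
    rw [Units.val_mul, Units.val_mul, hinv, coe_bigMat, ← hM]
    refine Matrix.ext fun i j => ?_
    fin_cases i <;> fin_cases j <;> simp [Matrix.mul_apply, Fin.sum_univ_two] 
    · field_simp
      ring
    · rw [mul_assoc, hkey, add_neg_cancel]
    · ring
  refine mk_mem_pglIwahori_of (fun i j => ?_) ?_ ?_ <;> rw [e]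
  · have hpn : Valued.v ((ϖ : v.adicCompletion K) ^ n * M 1 0) ≤ 1 := by
      rw [map_mul, map_pow]
      exact mul_le_one' (pow_le_one' (valued_pi_lt hϖ).le n) hγ.2.1.le
    fin_cases i <;> fin_cases j
    · simpa using le_trans (Valuation.map_sub _ _ _) (max_le (hγ.1 0 0).1
        ((map_mul _ _ _).trans_le (mul_le_one' hb'le hγ.2.1.le)))
    · simp
    · simpa using hpn
    · simpa using hden.le
  · rw [Matrix.det_fin_two_of, zero_mul, sub_zero]
    rw [show (M 0 0 - b' * M 1 0) * (M 1 0 * b + M 1 1) = M 0 0 * M 1 1 - M 0 1 * M 1 0 by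
      linear_combination (-M 1 0) * hkey]
    exact hdet
  · simp only [Matrix.cons_val', Matrix.cons_val_one, Matrix.cons_val_zero, Matrix.of_apply,
      Matrix.empty_val', Matrix.cons_val_fin_one, map_mul, map_pow]
    exact lt_of_le_of_lt ((mul_le_mul' (pow_le_one' (valued_pi_lt hϖ).le n) le_rfl).trans
      (one_mul _).le) hγ.2.1

variable {v}

theorem isBiInvariant_iwUPow {ϖ : Kvˣ} (hϖ : Valued.v (ϖ : Kv) = WithZero.exp (-1 : ℤ)) (n : ℕ) :
    IsBiInvariant (pglIwahori v) (iwUPow ϖ n) := by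
  have half : ∀ k ∈ pglIwahori v, ∀ g, g ∈ bigSet ϖ n → k * g ∈ bigSet ϖ n := by
    rintro k hk g ⟨b, hb, hg⟩
    obtain ⟨b', hb', h'⟩ := exists_mul_bigRep v hϖ n hk hb
    refine ⟨b', hb', ?_⟩
    have := (pglIwahori v).mul_mem h' hg
    rwa [show (bigRep ϖ n b')⁻¹ * (k * bigRep ϖ n b) * ((bigRep ϖ n b)⁻¹ * g) =
      (bigRep ϖ n b')⁻¹ * (k * g) by group] at this
  have right : ∀ l ∈ pglIwahori v, ∀ g, g * l ∈ bigSet ϖ n ↔ g ∈ bigSet ϖ n := fun l hl g => by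
    refine exists_congr fun b => and_congr_right fun _ => ?_
    rw [← mul_assoc, (pglIwahori v).mul_mem_cancel_right hl]
  intro k hk l hl g
  refine indicator_one_eq_iff ((right l hl (k * g)).trans ⟨fun h => ?_, half k hk g⟩)
  simpa using half k⁻¹ ((pglIwahori v).inv_mem hk) _ h

theorem iwUPow_zero (ϖ : Kvˣ) : iwUPow ϖ 0 = iwOne (pglIwahori v) := funext fun g => by
  refine indicator_one_eq_iff ⟨?_, fun hg => ⟨0, by simp, ?_⟩⟩
  · rintro ⟨b, hb, hg⟩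
    have h1 := bigRep_congr (ϖ := ϖ) (n := 0) (b := 0) (b' := b) (by simpa using hb)
    rw [bigRep_zero_zero, inv_one, one_mul] at h1
    simpa using (pglIwahori v).mul_mem h1 hg
  · rwa [bigRep_zero_zero, inv_one, one_mul]

/-- **`Uⁿ * Uᵐ = Uⁿ⁺ᵐ`.** -/
theorem iwUPow_mul {ϖ : Kvˣ} (hϖ : Valued.v (ϖ : Kv) = WithZero.exp (-1 : ℤ)) (n m : ℕ) :
    heckeConv (isBiInvariant_iwUPow hϖ n) (isBiInvariant_iwUPow hϖ m) = iwUPow ϖ (n + m) := by
  have hpn : Valued.v (ϖ : Kv) ^ n ≤ 1 := pow_le_one' (valued_pi_lt hϖ).le n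
  have hcomb : ∀ (b b' : Kv) (x : PGL(2, Kv)), (bigRep ϖ m b')⁻¹ * ((bigRep ϖ n b)⁻¹ * x) ∈
      pglIwahori v ↔ (bigRep ϖ (n + m) (b + (ϖ : Kv) ^ n * b'))⁻¹ * x ∈ pglIwahori v := by
    intro b b' x
    rw [← bigRep_mul, _root_.mul_inv_rev, mul_assoc]
  funext x
  by_cases hx : x ∈ bigSet ϖ (n + m)
  · obtain ⟨b, hb, hxb⟩ := hx
    rw [show iwUPow ϖ (n + m) x = 1 from
        Set.indicator_of_mem (s := bigSet ϖ (n + m)) ⟨b, hb, hxb⟩ _, heckeConv,
      finsum_eq_single _ ((bigRep ϖ n b : PGL(2, Kv)) : PGL(2, Kv) ⧸ pglIwahori v)]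
    · rw [cosetKernel_one_left, cosetKernel_mk, iwUPow, iwUPow,
        Set.indicator_of_mem (s := bigSet ϖ n) ⟨b, hb, by simp⟩,
        Set.indicator_of_mem (s := bigSet ϖ m) ⟨0, by simp, by rw [hcomb, mul_zero, add_zero]; exact hxb⟩]
      simp
    · intro c hc
      induction c using QuotientGroup.induction_on with
      | _ z =>
        rw [cosetKernel_one_left, cosetKernel_mk, iwUPow]
        by_contra hne
        obtain ⟨b₁, hb₁, hz⟩ := Set.mem_of_indicator_ne_zero (left_ne_zero_of_mul hne)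
        obtain ⟨b₂, hb₂, hz'⟩ := Set.mem_of_indicator_ne_zero (right_ne_zero_of_mul hne)
        -- `x` also lies in the coset of `(b₁, b₂)`
        have hxz : x ∈ bigSet ϖ (n + m) ∧ (bigRep ϖ m b₂)⁻¹ * (z⁻¹ * x) ∈ pglIwahori v :=
          ⟨⟨b, hb, hxb⟩, hz'⟩
        obtain ⟨k, hk, rfl⟩ : ∃ k ∈ pglIwahori v, z = bigRep ϖ n b₁ * k :=
          ⟨_, hz, (mul_inv_cancel_left _ _).symm⟩
        obtain ⟨b₃, hb₃, h3⟩ := exists_mul_bigRep v hϖ m hk hb₂
        have h4 : (bigRep ϖ m b₃)⁻¹ * ((bigRep ϖ n b₁)⁻¹ * x) ∈ pglIwahori v := by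
          have := (pglIwahori v).mul_mem h3 hxz.2
          rwa [show (bigRep ϖ m b₃)⁻¹ * (k * bigRep ϖ m b₂) * ((bigRep ϖ m b₂)⁻¹ *
            ((bigRep ϖ n b₁ * k)⁻¹ * x)) = (bigRep ϖ m b₃)⁻¹ * ((bigRep ϖ n b₁)⁻¹ * x) by group]
            at this
        rw [hcomb] at h4
        have h5 : Valued.v ((b₁ + (ϖ : Kv) ^ n * b₃) - b) ≤ Valued.v (ϖ : Kv) ^ (n + m) := by
          refine congr_of_bigRep ?_
          have := (pglIwahori v).mul_mem hxb ((pglIwahori v).inv_mem h4)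
          rwa [show (bigRep ϖ (n + m) b)⁻¹ * x * ((bigRep ϖ (n + m) (b₁ + (ϖ : Kv) ^ n * b₃))⁻¹ *
            x)⁻¹ = (bigRep ϖ (n + m) b)⁻¹ * bigRep ϖ (n + m) (b₁ + (ϖ : Kv) ^ n * b₃) by group]
            at this
        refine hc (QuotientGroup.eq.2 ?_).symm
        have h6 : Valued.v (b₁ - b) ≤ Valued.v (ϖ : Kv) ^ n := by
          rw [show b₁ - b = (b₁ + (ϖ : Kv) ^ n * b₃ - b) - (ϖ : Kv) ^ n * b₃ by ring]
          refine le_trans (Valuation.map_sub _ _ _) (max_le (h5.trans ?_) ?_)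
          · rw [pow_add]; exact (mul_le_mul' le_rfl (pow_le_one' (valued_pi_lt hϖ).le m)).trans (mul_one _).le
          · rw [map_mul, map_pow]; exact (mul_le_mul' le_rfl hb₃).trans (mul_one _).le
        have := (pglIwahori v).mul_mem (bigRep_congr h6) hk
        rwa [mul_assoc] at this
  · rw [show iwUPow ϖ (n + m) x = 0 from Set.indicator_of_notMem hx _, heckeConv]
    refine finsum_eq_zero_of_forall_eq_zero fun c => ?_
    induction c using QuotientGroup.induction_on with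
    | _ z =>
      rw [cosetKernel_one_left, cosetKernel_mk, iwUPow]
      by_contra hne
      obtain ⟨b₁, hb₁, hz⟩ := Set.mem_of_indicator_ne_zero (left_ne_zero_of_mul hne)
      obtain ⟨b₂, hb₂, hz'⟩ := Set.mem_of_indicator_ne_zero (right_ne_zero_of_mul hne)
      obtain ⟨k, hk, rfl⟩ : ∃ k ∈ pglIwahori v, z = bigRep ϖ n b₁ * k :=
        ⟨_, hz, (mul_inv_cancel_left _ _).symm⟩
      obtain ⟨b₃, hb₃, h3⟩ := exists_mul_bigRep v hϖ m hk hb₂
      have h4 : (bigRep ϖ m b₃)⁻¹ * ((bigRep ϖ n b₁)⁻¹ * x) ∈ pglIwahori v := by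
        have := (pglIwahori v).mul_mem h3 hz'
        rwa [show (bigRep ϖ m b₃)⁻¹ * (k * bigRep ϖ m b₂) * ((bigRep ϖ m b₂)⁻¹ *
          ((bigRep ϖ n b₁ * k)⁻¹ * x)) = (bigRep ϖ m b₃)⁻¹ * ((bigRep ϖ n b₁)⁻¹ * x) by group]
          at this
      refine hx ⟨_, ?_, (hcomb b₁ b₃ x).1 h4⟩
      refine le_trans (Valuation.map_add _ _ _) (max_le hb₁ ?_)
      rw [map_mul, map_pow]
      exact mul_le_one' hpn hb₃

/-- **`t * w = U`.** -/
theorem iwT_mul_iwW_eq {ϖ : Kvˣ} (hϖ : Valued.v (ϖ : Kv) = WithZero.exp (-1 : ℤ)) :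
    heckeConv (isBiInvariant_iwT (pglIwahori_le v))
      (isBiInvariant_iwW (atkin_normalises hϖ)) = iwUPow ϖ 1 := by
  funext x
  rw [iwT_mul_iwW (pglIwahori_le v) (atkin_normalises hϖ) (atkin_sq_mem ϖ)]
  have hswap : ∀ b : Kv, (ProjGenLinGroup.mk (unipotent b * weyl) : PGL(2, Kv)) * atkin ϖ =
      bigRep ϖ 1 b := by
    intro b
    rw [atkin, atkinMat, ← map_mul, bigRep, bigMat, pow_one, ProjGenLinGroup.mk_eq_mk_iff]
    refine ⟨-1, Units.ext ?_⟩
    simp only [Units.val_mul, coe_unipotent, coe_weyl, coe_diag2]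
    ext i j
    fin_cases i <;> fin_cases j <;> simp [GeneralLinearGroup.scalar, Matrix.mul_apply, Fin.sum_univ_two]
  refine indicator_one_eq_iff ⟨fun hx => ?_, ?_⟩
  · obtain ⟨hH, hJ⟩ := hx
    obtain ⟨c, hc⟩ : ((x * (atkin ϖ)⁻¹ : PGL(2, Kv)) : PGL(2, Kv) ⧸ pglIwahori v) ∈
        Set.range fun o => ((ProjGenLinGroup.mk (iwRep v o) : PGL(2, Kv)) :
          PGL(2, Kv) ⧸ pglIwahori v) := by
      rw [← lvlCosets_eq_range]; exact (mem_lvlCosets_iff (pglIwahori_le v)).2 hH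
    rcases c with _ | r
    · exact absurd (by simpa [iwRep] using QuotientGroup.eq.1 hc) hJ
    · refine ⟨repParam r, valued_repParam_le r, ?_⟩
      have h1 := atkin_normalises hϖ _ (QuotientGroup.eq.1 hc)
      rw [← hswap, show ProjGenLinGroup.mk (unipotent (repParam r) * weyl) =
        (ProjGenLinGroup.mk (iwRep v (some r)) : PGL(2, Kv)) from rfl]
      rwa [show (atkin ϖ)⁻¹ * ((ProjGenLinGroup.mk (iwRep v (some r)))⁻¹ * (x * (atkin ϖ)⁻¹)) *
        atkin ϖ = (ProjGenLinGroup.mk (iwRep v (some r)) * atkin ϖ)⁻¹ * x by group] at h1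
  · rintro ⟨b, hb, hxb⟩
    rw [← hswap] at hxb
    have h1 := atkin_normalises hϖ _ hxb
    rw [show (atkin ϖ)⁻¹ * ((ProjGenLinGroup.mk (unipotent b * weyl) * atkin ϖ)⁻¹ * x) * atkin ϖ =
      (atkin ϖ)⁻¹ * (atkin ϖ)⁻¹ * ((ProjGenLinGroup.mk (unipotent b * weyl))⁻¹ * (x * atkin ϖ))
      by group, atkin_inv, atkin_sq, one_mul] at h1
    rw [atkin_inv]
    have hint : IsIntLocal (unipotent b * weyl : GL (Fin 2) Kv) :=
      (isIntLocal_unipotent hb).mul isIntLocal_weyl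
    have hmem : ProjGenLinGroup.mk (unipotent b * weyl) ∈ pglFull v :=
      Subgroup.mem_map_of_mem _ hint
    refine ⟨?_, fun hJ => ?_⟩
    · have := (pglFull v).mul_mem hmem (pglIwahori_le v h1)
      rwa [mul_inv_cancel_left] at this
    · have hw : ProjGenLinGroup.mk (unipotent b * weyl) ∈ pglIwahori v := by
        have := (pglIwahori v).mul_mem hJ ((pglIwahori v).inv_mem h1)
        rwa [show x * atkin ϖ * ((ProjGenLinGroup.mk (unipotent b * weyl))⁻¹ * (x * atkin ϖ))⁻¹ =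
          ProjGenLinGroup.mk (unipotent b * weyl) by group] at this
      have := lt_one_of_mk_mem hint hw
      simp [Matrix.mul_apply, Fin.sum_univ_two] at this

/-- The kernel of `Uⁿ` lives on finitely many cosets. -/
theorem hasFiniteSupportMod_iwUPow {ϖ : Kvˣ} (hϖ : Valued.v (ϖ : Kv) = WithZero.exp (-1 : ℤ))
    (n : ℕ) : HasFiniteSupportMod (isBiInvariant_iwUPow hϖ n) := by
  induction n with
  | zero =>
    refine (Set.finite_singleton ((1 : PGL(2, Kv)) : PGL(2, Kv) ⧸ pglIwahori v)).subset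
      fun c hc => ?_
    induction c using QuotientGroup.induction_on with
    | _ z =>
      rw [Function.mem_support, cosetKernel_one_left, iwUPow_zero, iwOne] at hc
      exact (QuotientGroup.eq.2 (by simpa using Set.mem_of_indicator_ne_zero hc)).symm
  | succ n ih =>
    have h1 : HasFiniteSupportMod (isBiInvariant_iwUPow hϖ 1) := by
      have := (hasFiniteSupportMod_iwT (pglIwahori_le v) (finite_lvlCosets v)).heckeConv
        (hasFiniteSupportMod_iwW (atkin_normalises hϖ))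
      unfold HasFiniteSupportMod at this ⊢
      convert this using 3
      exact (iwT_mul_iwW_eq hϖ).symm
    have := ih.heckeConv h1
    unfold HasFiniteSupportMod at this ⊢
    convert this using 3
    exact (iwUPow_mul hϖ n 1).symm

/-- A representative in the support of `Uⁿ` is `[[0, *], [0, 1]]`-shaped with determinant `ϖⁿ`. -/
theorem iwBig_of_iwUPow_ne_zero {ϖ : Kvˣ} (hϖ : Valued.v (ϖ : Kv) = WithZero.exp (-1 : ℤ)) {n : ℕ}
    (hn : n ≠ 0) {γ : GL (Fin 2) Kv} (h : iwUPow ϖ n (ProjGenLinGroup.mk γ) ≠ 0) :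
    IwBig Valued.v (WithZero.exp (-(n : ℤ))) (γ : Matrix (Fin 2) (Fin 2) Kv) := by
  obtain ⟨b, hb, hb'⟩ := Set.mem_of_indicator_ne_zero h
  rw [bigRep, ← map_inv, ← map_mul] at hb'
  obtain ⟨δ, hδ, hδg⟩ := Subgroup.mem_map.1 hb'
  obtain ⟨c, hc⟩ := ProjGenLinGroup.mk_eq_mk_iff.1 hδg
  have hval : Valued.v ((ϖ : Kv) ^ n) = WithZero.exp (-(n : ℤ)) := by
    rw [map_pow, hϖ, ← WithZero.exp_nsmul, nsmul_eq_mul, mul_neg, mul_one]
  have hlt : Valued.v ((ϖ : Kv) ^ n) < 1 := by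
    rw [map_pow]; exact pow_lt_one₀ zero_le (valued_pi_lt hϖ) hn
  have hbig : IwBig Valued.v (WithZero.exp (-(n : ℤ)))
      ((bigMat ϖ n b : GL (Fin 2) Kv) : Matrix (Fin 2) (Fin 2) Kv) := by
    rw [coe_bigMat]
    refine ⟨1, one_ne_zero, fun i j => ?_, by simpa using hlt, by simp, by simp,
      by simp [Matrix.det_fin_two, hval]⟩
    fin_cases i <;> fin_cases j <;> simp [hb, pow_le_one' (valued_pi_lt hϖ).le n]
  have hdet := hδ.1.valued_det
  rw [Matrix.det_fin_two] at hdet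
  have hsmall : Valued.v ((δ : Matrix (Fin 2) (Fin 2) Kv) 0 1 *
      (δ : Matrix (Fin 2) (Fin 2) Kv) 1 0) < 1 := by
    rw [map_mul]
    exact lt_of_le_of_lt ((mul_le_mul' (hδ.1 0 1).1 le_rfl).trans (one_mul _).le) hδ.2.1
  have hdiag : Valued.v ((δ : Matrix (Fin 2) (Fin 2) Kv) 0 0) *
      Valued.v ((δ : Matrix (Fin 2) (Fin 2) Kv) 1 1) = 1 := by
    rw [← map_mul, ← hdet]
    refine (Valuation.map_sub_eq_of_lt_left _ (lt_of_lt_of_le hsmall (le_of_not_gt fun hlt' => ?_))).symm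
    exact absurd hdet (lt_of_le_of_lt (Valuation.map_sub _ _ _) (max_lt hlt' hsmall)).ne
  have h00 : Valued.v ((δ : Matrix (Fin 2) (Fin 2) Kv) 0 0) = 1 :=
    le_antisymm (hδ.1 0 0).1 (hdiag ▸ (mul_le_mul' le_rfl (hδ.1 1 1).1).trans (mul_one _).le)
  have h11 : Valued.v ((δ : Matrix (Fin 2) (Fin 2) Kv) 1 1) = 1 := by
    rw [h00, one_mul] at hdiag; exact hdiag
  have hiw : IsIwahori Valued.v (δ : Matrix (Fin 2) (Fin 2) Kv) :=
    ⟨1, one_ne_zero, fun i j => by rw [one_mul]; exact (hδ.1 i j).1, by rwa [one_mul],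
      by rw [one_mul]; exact hδ.2.1, by rwa [one_mul]⟩
  have hγ : γ = bigMat ϖ n b * (δ * GeneralLinearGroup.scalar (Fin 2) c) := by
    rw [hc, mul_inv_cancel_left]
  have := (hbig.mul_iwahori hiw).smul (s := (c : Kv)) c.ne_zero
  rw [hγ]
  convert this using 1
  refine Matrix.ext fun i j => ?_
  rw [Units.val_mul, Matrix.smul_apply, Matrix.mul_apply, Matrix.mul_apply, smul_eq_mul,
    Finset.mul_sum]
  exact Finset.sum_congr rfl fun k _ => by rw [coe_scalar_mul]; ring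

end Fermat.Agent.LT.Descent
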