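import Fermat.Agent.LT.Descent.IwahoriTensor

/-!
# Spherical functions at a place with Iwahori level

`t f = q f` says exactly that `f` is constant on `GL₂(O)`-cosets, and then `t (w f) + w f` is the
sum of `f` over the `q + 1` neighbouring vertices: the eigenvalue of `X` is the Hecke eigenvalue.
-/

set_option autoImplicit false
set_option linter.unusedSectionVars false

noncomputable section

namespace Fermat.Agent.LT.Descent

open IsDedekindDomain IsDedekindDomain.HeightOneSpectrum Matrix NumberField Function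
open Fermat.Agent.LT.Adelic Fermat.Agent.LT.Aleph Fermat.Agent.LT.Tame
open scoped MatrixGroups

/-- The operator of a local matrix. -/
def lkerApply {G X : Type*} [Group G] [MulAction G X] (k : LKer G X) (f : X → ℂ) (a : X) : ℂ :=
  ∑ᶠ c, k a c * f c

theorem lkerApply_comp {G X : Type*} [Group G] [MulAction G X] (k l : LKer G X) (f : X → ℂ)
    (a : X) : lkerApply (k.comp l) f a = lkerApply k (lkerApply l f) a := by
  classical
  set S := (k.finite_row a).toFinset
  set T := S.biUnion fun c => (l.finite_row c).toFinset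
  have hS : ∀ c, k a c ≠ 0 → c ∈ S := fun c h => (Set.Finite.mem_toFinset _).2 h
  have hT : ∀ c d, c ∈ S → l c d ≠ 0 → d ∈ T := fun c d hc h =>
    Finset.mem_biUnion.2 ⟨c, hc, (Set.Finite.mem_toFinset _).2 h⟩
  have hcomp : ∀ d, (k.comp l) a d = ∑ c ∈ S, k a c * l c d := fun d =>
    finsum_eq_sum_of_support_subset _ fun c hc =>
      Finset.mem_coe.2 (hS c (left_ne_zero_of_mul hc))
  have hin : ∀ c ∈ S, lkerApply l f c = ∑ d ∈ T, l c d * f d := fun c hc =>
    finsum_eq_sum_of_support_subset _ fun d hd =>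
      Finset.mem_coe.2 (hT c d hc (left_ne_zero_of_mul hd))
  rw [lkerApply, lkerApply, finsum_eq_sum_of_support_subset (s := T) _ fun d hd => ?_,
    finsum_eq_sum_of_support_subset (s := S) _ fun c hc =>
      Finset.mem_coe.2 (hS c (left_ne_zero_of_mul hc))]
  · have h1 : ∀ c ∈ S, k a c * lkerApply l f c = ∑ d ∈ T, k a c * l c d * f d := fun c hc => by
      rw [hin c hc, Finset.mul_sum]
      exact Finset.sum_congr rfl fun d _ => (mul_assoc _ _ _).symm
    rw [Finset.sum_congr rfl h1, Finset.sum_comm]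
    exact Finset.sum_congr rfl fun d _ => by rw [hcomp, Finset.sum_mul]
  · have h := left_ne_zero_of_mul hd
    rw [hcomp] at h
    obtain ⟨c, hc, hne⟩ := Finset.exists_ne_zero_of_sum_ne_zero h
    exact Finset.mem_coe.2 (hT c d hc (right_ne_zero_of_mul hne))

variable {K : Type*} [Field K] [NumberField K] {v : HeightOneSpectrum (𝓞 K)}
  {J : Subgroup PGL(2, v.adicCompletion K)} {ϖ : (v.adicCompletion K)ˣ}

/-- `t f` sums over the other `q` cosets of the same `GL₂(O)`-coset. -/
theorem lkerApply_iwTKer [Fintype (𝓞 K ⧸ v.asIdeal)] (hJ : J = pglIwahori v)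
    (f : PGL(2, v.adicCompletion K) ⧸ J → ℂ) (x : PGL(2, v.adicCompletion K)) :
    lkerApply (iwTKer hJ) f (x : PGL(2, v.adicCompletion K) ⧸ J) =
      ∑ r : 𝓞 K ⧸ v.asIdeal, f ((x * ProjGenLinGroup.mk (iwRep v (some r)) :
        PGL(2, v.adicCompletion K)) : PGL(2, v.adicCompletion K) ⧸ J) := by
  classical
  subst hJ
  set g : 𝓞 K ⧸ v.asIdeal → PGL(2, v.adicCompletion K) ⧸ pglIwahori v := fun r =>
    ((x * ProjGenLinGroup.mk (iwRep v (some r)) : PGL(2, v.adicCompletion K)) :
      PGL(2, v.adicCompletion K) ⧸ pglIwahori v) with hg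
  have hinj : Function.Injective g := fun r r' h => by
    have h1 := congrArg (fun c => x⁻¹ • c) h
    simp only [hg, MulAction.Quotient.smul_coe, smul_eq_mul, inv_mul_cancel_left] at h1
    exact Option.some_injective _ (iwRep_coset_injective v h1)
  have hval : ∀ y : PGL(2, v.adicCompletion K),
      (iwTKer (J := pglIwahori v) rfl) (x : PGL(2, v.adicCompletion K) ⧸ pglIwahori v)
        (y : PGL(2, v.adicCompletion K) ⧸ pglIwahori v) =
      if (y : PGL(2, v.adicCompletion K) ⧸ pglIwahori v) ∈ Finset.univ.image g then 1 else 0 := by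
    intro y
    rw [iwTKer, LKer.ofBiInvariant_apply, iwT, Set.indicator_apply, Pi.one_apply]
    refine if_congr ?_ rfl rfl
    constructor
    · rintro ⟨h1, h2⟩
      obtain ⟨o, ho⟩ := (Set.ext_iff.1 (lvlCosets_eq_range v) _).1
        ((mem_lvlCosets_iff (pglIwahori_le v)).2 h1)
      rcases o with _ | r
      · exact absurd (by simpa [iwRep] using QuotientGroup.eq.1 ho) h2
      · refine Finset.mem_image.2 ⟨r, Finset.mem_univ _, ?_⟩
        have := congrArg (fun c => x • c) ho
        simpa [hg, MulAction.Quotient.smul_coe] using this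
    · intro h
      obtain ⟨r, -, hr⟩ := Finset.mem_image.1 h
      have hc : ((x⁻¹ * y : PGL(2, v.adicCompletion K)) :
          PGL(2, v.adicCompletion K) ⧸ pglIwahori v) =
          (ProjGenLinGroup.mk (iwRep v (some r)) : PGL(2, v.adicCompletion K)) := by
        have := congrArg (fun c => x⁻¹ • c) hr
        simpa [hg, MulAction.Quotient.smul_coe] using this.symm
      refine ⟨(mem_lvlCosets_iff (pglIwahori_le v)).1
        ((Set.ext_iff.1 (lvlCosets_eq_range v) _).2 ⟨some r, hc.symm⟩), fun hmem => ?_⟩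
      have h1 : ((1 : PGL(2, v.adicCompletion K)) : PGL(2, v.adicCompletion K) ⧸ pglIwahori v) =
          (ProjGenLinGroup.mk (iwRep v (some r)) : PGL(2, v.adicCompletion K)) := by
        rw [← hc]; exact QuotientGroup.eq.2 (by simpa using hmem)
      exact Option.some_ne_none r (iwRep_coset_injective v (h1.symm.trans (by simp [iwRep])))
  rw [lkerApply, finsum_eq_sum_of_support_subset (s := Finset.univ.image g) _ fun c hc => ?_,
    Finset.sum_image hinj.injOn]
  · refine Finset.sum_congr rfl fun r _ => ?_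
    show (iwTKer (J := pglIwahori v) rfl) _ (g r) * f (g r) = _
    rw [hval, if_pos (Finset.mem_image_of_mem g (Finset.mem_univ r)), one_mul]
  · induction c using QuotientGroup.induction_on with
    | _ y =>
      by_contra hne
      exact left_ne_zero_of_mul hc ((hval y).trans (if_neg hne))

/-- `w f` is the translate by the Atkin-Lehner element. -/
theorem lkerApply_iwWKer (hJ : J = pglIwahori v)
    (hϖ : Valued.v (ϖ : v.adicCompletion K) = WithZero.exp (-1 : ℤ))
    (f : PGL(2, v.adicCompletion K) ⧸ J → ℂ) (x : PGL(2, v.adicCompletion K)) :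
    lkerApply (iwWKer hJ hϖ) f (x : PGL(2, v.adicCompletion K) ⧸ J) =
      f ((x * atkin ϖ : PGL(2, v.adicCompletion K)) : PGL(2, v.adicCompletion K) ⧸ J) := by
  rw [lkerApply, finsum_eq_single _
    ((x * atkin ϖ : PGL(2, v.adicCompletion K)) : PGL(2, v.adicCompletion K) ⧸ J)]
  · rw [iwWKer, LKer.ofBiInvariant_apply, iwW,
      Set.indicator_of_mem (s := {g | (atkin ϖ)⁻¹ * g ∈ J}) (by simp)]
    simp
  · intro c hc
    induction c using QuotientGroup.induction_on with
    | _ y =>
      rw [iwWKer, LKer.ofBiInvariant_apply, iwW,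
        Set.indicator_of_notMem (s := {g | (atkin ϖ)⁻¹ * g ∈ J}) (fun h => hc ?_), zero_mul]
      refine (QuotientGroup.eq.2 ?_).symm
      rwa [_root_.mul_inv_rev, mul_assoc]

/-- **`t f = q f` is invariance under `GL₂(O)`.** -/
theorem forall_lkerApply_iwTKer_eq_iff (hJ : J = pglIwahori v)
    (f : PGL(2, v.adicCompletion K) ⧸ J → ℂ) :
    (∀ a, lkerApply (iwTKer hJ) f a = (Ideal.absNorm v.asIdeal : ℂ) * f a) ↔
      ∀ (x : PGL(2, v.adicCompletion K)), ∀ h ∈ pglFull v,
        f ((x * h : PGL(2, v.adicCompletion K)) : PGL(2, v.adicCompletion K) ⧸ J) =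
          f (x : PGL(2, v.adicCompletion K) ⧸ J) := by
  subst hJ
  have := Fintype.ofFinite (𝓞 K ⧸ v.asIdeal)
  have hq : (Ideal.absNorm v.asIdeal : ℂ) = Fintype.card (𝓞 K ⧸ v.asIdeal) := by
    rw [Ideal.absNorm_apply, Submodule.cardQuot_apply, ← Nat.card_eq_fintype_card]
  constructor
  · intro ht
    -- the sum over a whole `GL₂(O)`-coset
    set F : PGL(2, v.adicCompletion K) → ℂ := fun x => ∑ o : Option (𝓞 K ⧸ v.asIdeal),
      f ((x * ProjGenLinGroup.mk (iwRep v o) : PGL(2, v.adicCompletion K)) :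
        PGL(2, v.adicCompletion K) ⧸ pglIwahori v) with hF
    have hFf : ∀ x, F x = ((Ideal.absNorm v.asIdeal : ℂ) + 1) *
        f (x : PGL(2, v.adicCompletion K) ⧸ pglIwahori v) := fun x => by
      have h1 := ht (x : PGL(2, v.adicCompletion K) ⧸ pglIwahori v)
      rw [lkerApply_iwTKer rfl] at h1
      simp only [hF, Fintype.sum_option, h1]
      simp [iwRep]; ring
    have hFinv : ∀ x, ∀ h ∈ pglFull v, F (x * h) = F x := by
      intro x h hh
      have hperm : ∀ o, ∃ o', ((h * ProjGenLinGroup.mk (iwRep v o) : PGL(2, v.adicCompletion K)) :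
          PGL(2, v.adicCompletion K) ⧸ pglIwahori v) =
          (ProjGenLinGroup.mk (iwRep v o') : PGL(2, v.adicCompletion K)) := fun o => by
        have := (mem_lvlCosets_iff (pglIwahori_le v)).2 ((pglFull v).mul_mem hh
          (Subgroup.mem_map_of_mem ProjGenLinGroup.mk (isIntLocal_iwRep o)))
        rw [lvlCosets_eq_range] at this
        exact this.imp fun _ h => h.symm
      choose σ hσ using hperm
      have hσinj : Function.Injective σ := fun o o' e => by
        refine iwRep_coset_injective v ?_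
        have := (hσ o).trans ((congrArg (fun o'' => ((ProjGenLinGroup.mk (iwRep v o'') :
          PGL(2, v.adicCompletion K)) : PGL(2, v.adicCompletion K) ⧸ pglIwahori v)) e).trans
          (hσ o').symm)
        have := congrArg (fun c => h⁻¹ • c) this
        simpa [MulAction.Quotient.smul_coe] using this
      refine Fintype.sum_bijective σ ⟨hσinj, Finite.injective_iff_surjective.1 hσinj⟩ _ _ fun o => ?_
      congr 1
      have := congrArg (fun c => x • c) (hσ o)
      simpa [MulAction.Quotient.smul_coe, mul_assoc] using this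
    intro x h hh
    have hne : (Ideal.absNorm v.asIdeal : ℂ) + 1 ≠ 0 := Nat.cast_add_one_ne_zero _
    exact mul_left_cancel₀ hne (by rw [← hFf, ← hFf, hFinv x h hh])
  · intro hinv a
    induction a using QuotientGroup.induction_on with
    | _ x =>
      rw [lkerApply_iwTKer rfl, Finset.sum_congr rfl fun r _ => hinv x _
        (Subgroup.mem_map_of_mem _ (isIntLocal_iwRep (some r))), Finset.sum_const, Finset.card_univ,
        nsmul_eq_mul, hq]

/-- **On spherical functions `(t + 1) w` is the sum over the neighbouring vertices.** -/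
theorem lkerApply_add_one_w [Fintype (𝓞 K ⧸ v.asIdeal)] (hJ : J = pglIwahori v)
    (hϖ : Valued.v (ϖ : v.adicCompletion K) = WithZero.exp (-1 : ℤ))
    (f : PGL(2, v.adicCompletion K) ⧸ J → ℂ)
    (hf : ∀ (x : PGL(2, v.adicCompletion K)), ∀ h ∈ pglFull v,
      f ((x * h : PGL(2, v.adicCompletion K)) : PGL(2, v.adicCompletion K) ⧸ J) =
        f (x : PGL(2, v.adicCompletion K) ⧸ J))
    (x : PGL(2, v.adicCompletion K)) :
    lkerApply (iwTKer hJ) (lkerApply (iwWKer hJ hϖ) f) (x : PGL(2, v.adicCompletion K) ⧸ J) +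
        lkerApply (iwWKer hJ hϖ) f (x : PGL(2, v.adicCompletion K) ⧸ J) =
      (∑ r : 𝓞 K ⧸ v.asIdeal,
        f ((x * bigRep ϖ 1 (repParam r) : PGL(2, v.adicCompletion K)) :
          PGL(2, v.adicCompletion K) ⧸ J)) +
        f ((x * ProjGenLinGroup.mk (diag2 1 ϖ) : PGL(2, v.adicCompletion K)) :
          PGL(2, v.adicCompletion K) ⧸ J) := by
  rw [lkerApply_iwTKer hJ, lkerApply_iwWKer hJ hϖ]
  congr 1
  · refine Finset.sum_congr rfl fun r _ => ?_
    rw [lkerApply_iwWKer hJ hϖ, mul_assoc]
    congr 3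
    rw [atkin, ← map_mul, bigRep, bigMat, pow_one, ProjGenLinGroup.mk_eq_mk_iff]
    refine ⟨-1, Units.ext ?_⟩
    simp only [atkinMat, iwRep, Units.val_mul, coe_unipotent, coe_weyl, coe_diag2]
    ext i j
    fin_cases i <;> fin_cases j <;>
      simp [GeneralLinearGroup.scalar, Matrix.mul_apply, Fin.sum_univ_two]
  · have hw : ProjGenLinGroup.mk (weyl : GL (Fin 2) (v.adicCompletion K)) ∈ pglFull v :=
      Subgroup.mem_map_of_mem _ isIntLocal_weyl
    rw [← hf (x * ProjGenLinGroup.mk (diag2 1 ϖ)) _ hw, mul_assoc, atkin, ← map_mul]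
    congr 4
    refine Units.ext ?_
    simp only [atkinMat, Units.val_mul, coe_weyl, coe_diag2, Matrix.mul_fin_two]
    simp

end Fermat.Agent.LT.Descent
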