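import Fermat.Agent.LT.Tame.Split
import Mathlib.Analysis.Complex.Basic
import Mathlib.Data.Set.Card

/-!
# The Iwahori relations for coset kernels

`J ≤ H` with `q + 1` cosets in `H`, and `ω` normalising `J` with `ω² ∈ J`.  The indicators `t` of
`H ∖ J` and `w` of `ωJ` satisfy `t * t = (q-1)t + q`, `w * w = 1`, are symmetric, and `t * w` is
the indicator of `(H ∖ J)ω`.
-/

set_option autoImplicit false
set_option linter.unusedSectionVars false

noncomputable section

namespace Fermat.Agent.LT.Descent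

open Fermat.Agent.LT.Tame

variable {G : Type*} [Group G] (H J : Subgroup G)

/-- The identity kernel. -/
def iwOne : G → ℂ := Set.indicator (J : Set G) 1

/-- The averaging kernel. -/
def iwT : G → ℂ := Set.indicator ((H : Set G) \ (J : Set G)) 1

/-- The Atkin-Lehner kernel. -/
def iwW (ω : G) : G → ℂ := Set.indicator {g | ω⁻¹ * g ∈ J} 1

/-- The cosets of `J` inside `H`. -/
def lvlCosets : Set (G ⧸ J) := (fun g : G => (g : G ⧸ J)) '' (H : Set G)

variable {H J}

theorem indicator_one_eq_iff {α : Type*} {s t : Set α} {x y : α} (h : x ∈ s ↔ y ∈ t) :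
    Set.indicator s (1 : α → ℂ) x = Set.indicator t 1 y := by
  by_cases hx : x ∈ s
  · rw [Set.indicator_of_mem hx, Set.indicator_of_mem (h.1 hx)]; rfl
  · rw [Set.indicator_of_notMem hx, Set.indicator_of_notMem (hx ∘ h.2)]

theorem isBiInvariant_iwOne : IsBiInvariant J (iwOne J) := fun k hk l hl g =>
  indicator_one_eq_iff (by
    simp only [SetLike.mem_coe, J.mul_mem_cancel_right hl, J.mul_mem_cancel_left hk])

theorem isBiInvariant_iwT (hle : J ≤ H) : IsBiInvariant J (iwT H J) := fun k hk l hl g =>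
  indicator_one_eq_iff (by
    simp only [Set.mem_sdiff, SetLike.mem_coe, J.mul_mem_cancel_right hl,
      J.mul_mem_cancel_left hk, H.mul_mem_cancel_right (hle hl),
      H.mul_mem_cancel_left (hle hk)])

theorem isBiInvariant_iwW {ω : G} (hn : ∀ k ∈ J, ω⁻¹ * k * ω ∈ J) : IsBiInvariant J (iwW J ω) :=
  fun k hk l hl g => indicator_one_eq_iff (by
    show ω⁻¹ * (k * g * l) ∈ J ↔ ω⁻¹ * g ∈ J
    rw [show ω⁻¹ * (k * g * l) = ω⁻¹ * k * ω * (ω⁻¹ * g) * l by group,
      J.mul_mem_cancel_right hl, J.mul_mem_cancel_left (hn k hk)])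

theorem iwT_add_iwOne (hle : J ≤ H) (g : G) :
    iwT H J g + iwOne J g = Set.indicator (H : Set G) 1 g := by
  simp only [iwT, iwOne]
  rw [← Set.indicator_union_of_notMem_inter (fun h => h.1.2 h.2)]
  exact indicator_one_eq_iff (by
    simp only [Set.mem_union, Set.mem_sdiff, SetLike.mem_coe]
    exact ⟨fun h => h.elim And.left (fun h => hle h), fun h => (em (g ∈ J)).elim Or.inr
      fun h' => Or.inl ⟨h, h'⟩⟩)

theorem iwT_inv (g : G) : iwT H J g⁻¹ = iwT H J g :=
  indicator_one_eq_iff (by simp [Set.mem_sdiff, inv_mem_iff])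

theorem iwOne_inv (g : G) : iwOne J g⁻¹ = iwOne J g := indicator_one_eq_iff (by simp [inv_mem_iff])

theorem mem_iff_mul_mem_of_sq {ω : G} (hn : ∀ k ∈ J, ω⁻¹ * k * ω ∈ J) (h2 : ω * ω ∈ J) (g : G) :
    g * ω ∈ J ↔ ω⁻¹ * g ∈ J := by
  constructor <;> intro h
  · have h1 := hn _ (J.mul_mem h (J.inv_mem h2))
    have h3 := J.mul_mem h1 (J.one_mem)
    rwa [show ω⁻¹ * (g * ω * (ω * ω)⁻¹) * ω * 1 = ω⁻¹ * g by group] at h3
  · have h1 := hn _ h
    have h3 := J.mul_mem h2 h1
    rwa [show ω * ω * (ω⁻¹ * (ω⁻¹ * g) * ω) = g * ω by group] at h3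

theorem iwW_inv {ω : G} (hn : ∀ k ∈ J, ω⁻¹ * k * ω ∈ J) (h2 : ω * ω ∈ J) (g : G) :
    iwW J ω g⁻¹ = iwW J ω g := by
  refine indicator_one_eq_iff (?_ : ω⁻¹ * g⁻¹ ∈ J ↔ ω⁻¹ * g ∈ J)
  rw [← inv_mem_iff (x := ω⁻¹ * g⁻¹), _root_.mul_inv_rev, inv_inv, inv_inv,
    mem_iff_mul_mem_of_sq hn h2]

/-! ### Convolutions -/

theorem cosetKernel_one_left {f : G → ℂ} (hf : IsBiInvariant J f) (x : G) :
    cosetKernel hf ((1 : G) : G ⧸ J) (x : G ⧸ J) = f x := by
  rw [cosetKernel_mk, inv_one, one_mul]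

/-- A kernel with a single coset translates. -/
theorem heckeConv_of_single {f g : G → ℂ} (hf : IsBiInvariant J f) (hg : IsBiInvariant J g) (y : G)
    (hy : ∀ x, f x = Set.indicator {x | y⁻¹ * x ∈ J} 1 x) (x : G) :
    heckeConv hf hg x = g (y⁻¹ * x) := by
  rw [heckeConv, finsum_eq_single _ (y : G ⧸ J)]
  · rw [cosetKernel_one_left, hy, Set.indicator_of_mem (by simp), cosetKernel_mk, Pi.one_apply,
      one_mul]
  · intro c hc
    induction c using QuotientGroup.induction_on with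
    | _ z =>
      rw [cosetKernel_one_left, hy, Set.indicator_of_notMem (fun hz => hc ?_), zero_mul]
      exact (QuotientGroup.eq.2 hz).symm

theorem heckeConv_iwOne_left {g : G → ℂ} (hg : IsBiInvariant J g) :
    heckeConv isBiInvariant_iwOne hg = g := funext fun x => by
  rw [heckeConv_of_single isBiInvariant_iwOne hg 1 (fun z => indicator_one_eq_iff (by simp)) x,
    inv_one, one_mul]

theorem heckeConv_iwOne_right {f : G → ℂ} (hf : IsBiInvariant J f) :
    heckeConv hf isBiInvariant_iwOne = f := funext fun x => by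
  rw [heckeConv, finsum_eq_single _ (x : G ⧸ J)]
  · rw [cosetKernel_one_left, cosetKernel_mk, inv_mul_cancel, iwOne,
      Set.indicator_of_mem (J.one_mem), Pi.one_apply, mul_one]
  · intro c hc
    induction c using QuotientGroup.induction_on with
    | _ z =>
      rw [cosetKernel_mk (hf := isBiInvariant_iwOne), iwOne,
        Set.indicator_of_notMem (fun hz => hc (QuotientGroup.eq.2 hz)), mul_zero]

theorem iwW_mul_iwW {ω : G} (hn : ∀ k ∈ J, ω⁻¹ * k * ω ∈ J) (h2 : ω * ω ∈ J) :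
    heckeConv (isBiInvariant_iwW hn) (isBiInvariant_iwW hn) = iwOne J := funext fun x => by
  rw [heckeConv_of_single (isBiInvariant_iwW hn) (isBiInvariant_iwW hn) ω (fun _ => rfl) x]
  refine indicator_one_eq_iff (?_ : ω⁻¹ * (ω⁻¹ * x) ∈ J ↔ x ∈ J)
  rw [← J.mul_mem_cancel_left h2 (y := ω⁻¹ * (ω⁻¹ * x))]
  group

theorem hasFiniteSupportMod_iwW {ω : G} (hn : ∀ k ∈ J, ω⁻¹ * k * ω ∈ J) :
    HasFiniteSupportMod (isBiInvariant_iwW hn) := by
  refine (Set.finite_singleton (ω : G ⧸ J)).subset fun c hc => ?_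
  induction c using QuotientGroup.induction_on with
  | _ z =>
    rw [Function.mem_support, cosetKernel_one_left, iwW] at hc
    exact (QuotientGroup.eq.2 (Set.mem_of_indicator_ne_zero (s := {g | ω⁻¹ * g ∈ J}) hc)).symm

theorem mem_lvlCosets_iff (hle : J ≤ H) {x : G} : (x : G ⧸ J) ∈ lvlCosets H J ↔ x ∈ H := by
  refine ⟨?_, fun hx => ⟨x, hx, rfl⟩⟩
  rintro ⟨y, hy, e⟩
  simpa using H.mul_mem hy (hle (QuotientGroup.eq.1 e))

theorem cosetKernel_iwT_ne_zero_iff (hle : J ≤ H) (c : G ⧸ J) :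
    cosetKernel (isBiInvariant_iwT hle) ((1 : G) : G ⧸ J) c ≠ 0 ↔
      c ∈ lvlCosets H J \ {((1 : G) : G ⧸ J)} := by
  induction c using QuotientGroup.induction_on with
  | _ z =>
    rw [cosetKernel_one_left, iwT, Set.mem_sdiff, mem_lvlCosets_iff hle, Set.mem_singleton_iff]
    constructor
    · intro h
      obtain ⟨h1, h2⟩ := Set.mem_of_indicator_ne_zero h
      exact ⟨h1, fun e => h2 (by simpa using QuotientGroup.eq.1 e)⟩
    · rintro ⟨h1, h2⟩
      rw [Set.indicator_of_mem (s := (H : Set G) \ (J : Set G))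
        ⟨h1, fun h3 => h2 (QuotientGroup.eq.2 (by simpa using h3))⟩]
      exact one_ne_zero

theorem hasFiniteSupportMod_iwT (hle : J ≤ H) (hfin : (lvlCosets H J).Finite) :
    HasFiniteSupportMod (isBiInvariant_iwT hle) :=
  hfin.sdiff.subset fun c hc => (cosetKernel_iwT_ne_zero_iff hle c).1 hc

/-- **The quadratic relation.** -/
theorem iwT_mul_iwT (hle : J ≤ H) {q : ℕ} (hfin : (lvlCosets H J).Finite)
    (hcard : (lvlCosets H J).ncard = q + 1) (x : G) :
    heckeConv (isBiInvariant_iwT hle) (isBiInvariant_iwT hle) x =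
      ((q : ℂ) - 1) * iwT H J x + q * iwOne J x := by
  classical
  set S := hfin.toFinset with hS
  have hScard : S.card = q + 1 := by rw [hS, ← Set.ncard_eq_toFinset_card _ hfin, hcard]
  have hone : ((1 : G) : G ⧸ J) ∈ S := by
    rw [hS, Set.Finite.mem_toFinset, mem_lvlCosets_iff hle]; exact H.one_mem
  rw [heckeConv, finsum_eq_sum_of_support_subset _ (s := S.erase ((1 : G) : G ⧸ J)) (fun c hc => by
    have h1 := (cosetKernel_iwT_ne_zero_iff hle c).1 (left_ne_zero_of_mul hc)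
    simpa [hS, and_comm] using h1)]
  have hterm : ∀ c ∈ S.erase ((1 : G) : G ⧸ J),
      cosetKernel (isBiInvariant_iwT hle) ((1 : G) : G ⧸ J) c *
        cosetKernel (isBiInvariant_iwT hle) c (x : G ⧸ J) =
      if x ∈ H ∧ c ≠ (x : G ⧸ J) then 1 else 0 := by
    intro c hc
    induction c using QuotientGroup.induction_on with
    | _ z =>
      rw [Finset.mem_erase, hS, Set.Finite.mem_toFinset, mem_lvlCosets_iff hle] at hc
      rw [cosetKernel_one_left, cosetKernel_mk, iwT,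
        Set.indicator_of_mem (s := (H : Set G) \ (J : Set G))
          ⟨hc.2, fun h => hc.1 (QuotientGroup.eq.2 (by simpa using h))⟩, Pi.one_apply, one_mul, Set.indicator_apply, Pi.one_apply]
      refine if_congr ?_ rfl rfl
      rw [Set.mem_sdiff, SetLike.mem_coe, SetLike.mem_coe, H.mul_mem_cancel_left (H.inv_mem hc.2),
        ne_eq, QuotientGroup.eq]
  rw [Finset.sum_congr rfl hterm, Finset.sum_boole]
  by_cases hxH : x ∈ H
  · have hxS : (x : G ⧸ J) ∈ S := by rw [hS, Set.Finite.mem_toFinset, mem_lvlCosets_iff hle]; exact hxH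
    simp only [hxH, true_and, Finset.filter_ne']
    by_cases hxJ : x ∈ J
    · rw [show (x : G ⧸ J) = ((1 : G) : G ⧸ J) from QuotientGroup.eq.2 (by simpa using hxJ),
        Finset.erase_idem, Finset.card_erase_of_mem hone, hScard, iwT, iwOne,
        Set.indicator_of_notMem (fun h => h.2 hxJ), Set.indicator_of_mem hxJ]
      simp
    · have hne : (x : G ⧸ J) ≠ ((1 : G) : G ⧸ J) := fun e => hxJ (by simpa using QuotientGroup.eq.1 e)
      rw [Finset.card_erase_of_mem (Finset.mem_erase.2 ⟨hne, hxS⟩), Finset.card_erase_of_mem hone,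
        hScard, iwT, iwOne, Set.indicator_of_mem (s := (H : Set G) \ (J : Set G)) ⟨hxH, hxJ⟩,
        Set.indicator_of_notMem hxJ]
      have hq : 1 ≤ q := by
        have := Finset.card_pos.2 ⟨_, Finset.mem_erase.2 ⟨hne, hxS⟩⟩
        rw [Finset.card_erase_of_mem hone, hScard] at this
        omega
      simp [Nat.cast_sub hq]
  · have hxJ : x ∉ J := fun h => hxH (hle h)
    simp [hxH, iwT, iwOne, hxJ]

/-- `t * w` is the indicator of `(H ∖ J) ω`. -/
theorem iwT_mul_iwW (hle : J ≤ H) {ω : G} (hn : ∀ k ∈ J, ω⁻¹ * k * ω ∈ J) (h2 : ω * ω ∈ J)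
    (x : G) :
    heckeConv (isBiInvariant_iwT hle) (isBiInvariant_iwW hn) x = iwT H J (x * ω⁻¹) := by
  have hkey : ∀ z : G, ω⁻¹ * (z⁻¹ * x) ∈ J ↔ z⁻¹ * (x * ω⁻¹) ∈ J := by
    intro z
    have h := mem_iff_mul_mem_of_sq hn h2 (z⁻¹ * x)
    rw [← h]
    have e : z⁻¹ * x * ω = z⁻¹ * (x * ω⁻¹) * (ω * ω) := by group
    rw [e, J.mul_mem_cancel_right h2]
  rw [heckeConv, finsum_eq_single _ ((x * ω⁻¹ : G) : G ⧸ J)]
  · rw [cosetKernel_one_left, cosetKernel_mk, iwW, Set.indicator_of_mem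
      (s := {g | ω⁻¹ * g ∈ J}) ((hkey _).2 (by simp)), Pi.one_apply, mul_one]
  · intro c hc
    induction c using QuotientGroup.induction_on with
    | _ z =>
      rw [cosetKernel_mk (hf := isBiInvariant_iwW hn), iwW,
        Set.indicator_of_notMem (s := {g | ω⁻¹ * g ∈ J})
          (fun hz => hc (QuotientGroup.eq.2 ((hkey z).1 hz))), mul_zero]

end Fermat.Agent.LT.Descent
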