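import Fermat.Agent.LT.Descent.CuspGrowth

/-!
# Periodised test kernels are bounded in one variable

For a fixed point the periodised kernel is a bounded function of the other point: the returns to
a box around the fixed point have bounded multiplicity. Consequently periodised kernels compose
pointwise and the columns of a composite with cuspidal image are cusp classes.
-/

set_option autoImplicit false

noncomputable section

namespace Fermat.Agent.LT.Descent

open Fermat.Agent.LT.Adelic Fermat.Agent.LT.Spectral MeasureTheory NumberField IsDedekindDomain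
  Filter Matrix
open scoped MatrixGroups ENNReal NNReal ComplexConjugate InnerProductSpace

variable {K : Type*} [Field K] [NumberField K] {ι : Type*} [Fintype ι] {Φ : Frame K ι}
  {U : Subgroup (GfK K)}

/-- The periodisation of a nonnegative multiple has finite mass. -/
theorem integrable_periodize_mul {G X : Type*} [Group G] [Countable G] [MeasurableSpace X]
    [MulAction G X] [MeasurableConstSMul G X] {μ : Measure X} [SMulInvariantMeasure G X μ]
    {w : X → ℝ≥0∞} (hw : Geom.IsWeight G μ w) {F φ : X → ℂ} (hF : Measurable F)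
    (hφ : Measurable φ) (hinv : ∀ (g : G) x, φ (g • x) = φ x)
    (hint : Integrable (fun x => F x * φ x) μ) :
    Integrable (fun x => (∑' g : G, F (g • x)) * φ x) (quotMeasure μ w) := by
  have hm : Measurable fun x => (∑' g : G, F (g • x)) * φ x :=
    (Measurable.tsum fun g => hF.comp (measurable_const_smul g)).mul hφ
  refine ⟨hm.aestronglyMeasurable, ?_⟩
  rw [HasFiniteIntegral, lintegral_withDensity_eq_lintegral_mul _ hw.1 hm.enorm]
  refine lt_of_le_of_lt (lintegral_mono fun y => ?_)
    ((Geom.lintegral_weight_mul_tsum (G := G) hw (hF.mul hφ).enorm).trans_lt hint.hasFiniteIntegral)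
  show w y * ‖(∑' g : G, F (g • y)) * φ y‖ₑ ≤ w y * ∑' g : G, ‖F (g • y) * φ (g • y)‖ₑ
  refine mul_le_mul_right ?_ _
  simp only [hinv, enorm_mul, ENNReal.tsum_mul_right]
  exact mul_le_mul_left enorm_tsum_le_tsum_enorm _

/-- The kernel at a fixed point is supported in a box. -/
theorem exists_box_testKernel (k : ι → PPKer) (f : HKer U) (x : Space Φ U) :
    ∃ (Y : Set (Yf U)) (c C R : ℝ), Y.Finite ∧ 0 < c ∧
      ∀ y, testKernel k f x y ≠ 0 → y ∈ boxSet Φ Y c C R := by
  obtain ⟨C₁, hC₁, hk⟩ := exists_compact_pi k (isCompact_singleton (x := x.pt))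
  obtain ⟨c, b, R, hc, hbox⟩ := exists_box_of_isCompact (hC₁.union (isCompact_singleton (x := x.pt)))
    ⟨x.pt, Or.inr rfl⟩
  refine ⟨_, c, b / c, R, f.finite_row x.fin, hc, fun y hy => ?_⟩
  have hb := hbox y.pt (Or.inl (hk x.pt rfl y.pt (right_ne_zero_of_mul hy)))
  refine ⟨left_ne_zero_of_mul hy, fun i => (hb i).1, fun i j => ?_, fun i => (hb i).2.2⟩
  calc (y.pt i).r ≤ b := (hb i).2.1
    _ = b / c * c := (div_mul_cancel₀ b hc.ne').symm
    _ ≤ b / c * (y.pt j).r := mul_le_mul_of_nonneg_left (hb j).1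
        (div_nonneg ((y.pt i).r_pos.le.trans (hb i).2.1) hc.le)

theorem exists_norm_testKernel_le (k : ι → PPKer) (f : HKer U) (x : Space Φ U) :
    ∃ B : ℝ, ∀ y, ‖testKernel k f x y‖ ≤ B := by
  obtain ⟨B, hB⟩ := exists_bound_pi k
  have hB0 : 0 ≤ B := (norm_nonneg _).trans (hB x.pt x.pt)
  refine ⟨(∑ z ∈ (f.finite_row x.fin).toFinset, ‖f x.fin z‖) * B, fun y => ?_⟩
  rw [testKernel, norm_mul]
  refine mul_le_mul ?_ (hB _ _) (norm_nonneg _) (Finset.sum_nonneg fun _ _ => norm_nonneg _)
  by_cases h0 : f x.fin y.fin = 0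
  · rw [h0, norm_zero]
    exact Finset.sum_nonneg fun _ _ => norm_nonneg _
  · exact Finset.single_le_sum (f := fun z => ‖f x.fin z‖) (fun _ _ => norm_nonneg _)
      ((f.finite_row x.fin).mem_toFinset.mpr h0)

theorem exists_tsum_testKernel_le (hU : IsLevel U) (k : ι → PPKer) (f : HKer U) (x : Space Φ U) :
    ∃ B : ℝ≥0, ∀ y, ∑' g : PGL(2, K), ‖testKernel k f x (g • y)‖ₑ ≤ B := by
  obtain ⟨Y, c, C, R, hY, hc, hsupp⟩ := exists_box_testKernel k f x
  obtain ⟨B, hB⟩ := exists_norm_testKernel_le k f x
  obtain ⟨M, hM⟩ := exists_multiplicity (Φ := Φ) hU hY (C := C) (R := R) hc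
  refine ⟨M * B.toNNReal, fun y => ?_⟩
  have hfin := (hM y).1
  rw [tsum_eq_sum (s := hfin.toFinset) fun g hg => by
    rw [enorm_eq_zero]
    by_contra hne
    exact hg (hfin.mem_toFinset.mpr (hsupp _ hne))]
  refine (Finset.sum_le_card_nsmul _ _ (B.toNNReal : ℝ≥0∞) fun g _ => ?_).trans ?_
  · rw [← ofReal_norm]
    exact ENNReal.ofReal_le_ofReal (hB _)
  · rw [nsmul_eq_mul, ENNReal.coe_mul, ← Set.ncard_eq_toFinset_card _ hfin]
    exact mul_le_mul_left (by exact_mod_cast (hM y).2) _

theorem exists_tsum_testKernel_le_right (hU : IsLevel U) (k : ι → PPKer) (f : HKer U)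
    (x : Space Φ U) :
    ∃ B : ℝ≥0, ∀ y, ∑' g : PGL(2, K), ‖testKernel k f y (g • x)‖ₑ ≤ B := by
  obtain ⟨B, hB⟩ := exists_tsum_testKernel_le hU (fun i => (k i).conjKer) f.adj x
  refine ⟨B, fun y => le_trans (le_of_eq ?_) (hB y)⟩
  rw [← (Equiv.inv PGL(2, K)).tsum_eq fun g => ‖testKernel k f y (g • x)‖ₑ]
  refine tsum_congr fun g => ?_
  simp only [Equiv.inv_apply]
  rw [← conj_testKernel k f x (g • y), RCLike.enorm_conj, ← testKernel_pglSmul k f g y (g⁻¹ • x),
    smul_inv_smul]

theorem summable_testKernel_smul (hU : IsLevel U) (k : ι → PPKer) (f : HKer U) (x y : Space Φ U) :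
    Summable fun g : PGL(2, K) => testKernel k f y (g • x) := by
  obtain ⟨B, hB⟩ := exists_tsum_testKernel_le_right hU k f x
  exact .of_enorm (ne_top_of_le_ne_top ENNReal.coe_ne_top (hB y))

theorem exists_norm_perKer_le (hU : IsLevel U) (k : ι → PPKer) (f : HKer U) (x : Space Φ U) :
    ∃ B : ℝ, ∀ y, ‖perKer PGL(2, K) (testKernel k f) y x‖ ≤ B := by
  obtain ⟨B, hB⟩ := exists_tsum_testKernel_le_right hU k f x
  exact ⟨B, fun y => by
    have h := (enorm_tsum_le_tsum_enorm (f := fun g : PGL(2, K) =>
      testKernel k f y (g • x))).trans (hB y)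
    exact (NNReal.coe_le_coe.mpr (enorm_le_coe.mp h) :)⟩

theorem conj_perKer_testKernel (k : ι → PPKer) (f : HKer U) (x y : Space Φ U) :
    conj (perKer PGL(2, K) (testKernel k f) y x)
      = perKer PGL(2, K) (testKernel (fun i => (k i).conjKer) f.adj) x y := by
  simp only [perKer, Complex.conj_tsum]
  rw [← (Equiv.inv PGL(2, K)).tsum_eq fun g => conj (testKernel k f y (g • x))]
  refine tsum_congr fun g => ?_
  simp only [Equiv.inv_apply]
  rw [← testKernel_pglSmul k f g y (g⁻¹ • x), smul_inv_smul]
  exact conj_testKernel k f x (g • y)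

variable [Countable (Yf U)] {D : QuotData Φ U}

omit [Countable (Yf U)] in
theorem perKer_testKernel_smul_left (k : ι → PPKer) (f : HKer U) (g : PGL(2, K))
    (x y : Space Φ U) :
    perKer PGL(2, K) (testKernel k f) (g • x) y = perKer PGL(2, K) (testKernel k f) x y :=
  perKer_smul_left (testKernel_pglSmul k f) g x y

theorem measurable_column (k : ι → PPKer) (f : HKer U) (x : Space Φ U) :
    Measurable fun y => perKer PGL(2, K) (testKernel k f) y x :=
  (measurable_perKer (measurable_testKernel k f)).comp (measurable_id.prodMk measurable_const)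

/-- Columns are square integrable. -/
theorem memLp_column (k : ι → PPKer) (f : HKer U) (x : Space Φ U) :
    MemLp (fun y => perKer PGL(2, K) (testKernel k f) y x) 2 D.ν := by
  obtain ⟨B, hB⟩ := exists_norm_perKer_le D.level k f x
  exact MemLp.of_bound (measurable_column k f x).aestronglyMeasurable B
    (Eventually.of_forall hB)

theorem sliceInt_column (D : QuotData Φ U) (k : ι → PPKer) (f : HKer U) (x : Space Φ U) :
    SliceInt fun y => perKer PGL(2, K) (testKernel k f) y x :=
  sliceInt_of_memLp (D := D) (measurable_column k f x)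
    (fun g y => perKer_testKernel_smul_left k f g y x) (memLp_column k f x)

/-- Periodised test kernels compose pointwise. -/
theorem integral_perKer_testKernel_comp (k₁ k₂ : ι → PPKer) (f₁ f₂ : HKer U) (x z : Space Φ U) :
    ∫ y, perKer PGL(2, K) (testKernel k₁ f₁) x y * perKer PGL(2, K) (testKernel k₂ f₂) y z ∂D.ν
      = perKer PGL(2, K) (testKernel (fun i => PPKer.comp (k₁ i) (k₂ i)) (f₁.comp f₂)) x z := by
  rw [integral_perKer_mul_perKer (G := PGL(2, K)) D.isWeight (measurable_testKernel k₁ f₁)
    (measurable_testKernel k₂ f₂) (testKernel_pglSmul k₂ f₂) x z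
    (summable_testKernel_smul D.level k₂ f₂ z)]
  · exact tsum_congr fun g => testKernel_comp k₁ k₂ f₁ f₂ x (g • z)
  · obtain ⟨B, hB⟩ := exists_tsum_testKernel_le_right D.level k₂ f₂ z
    obtain ⟨M, hM⟩ := exists_schurBound (Φ := Φ) k₁ f₁
    have hm : Measurable fun y => testKernel k₁ f₁ x y :=
      measurable_testKernel_comp k₁ f₁ (a := fun _ => x) measurable_const measurable_id
    have hm2 : ∀ g : PGL(2, K), Measurable fun y => testKernel k₂ f₂ y (g • z) := fun g =>
      measurable_testKernel_comp k₂ f₂ (b := fun _ => g • z) measurable_id measurable_const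
    refine ne_top_of_le_ne_top (ENNReal.mul_ne_top (ENNReal.coe_ne_top (r := M))
      (ENNReal.coe_ne_top (r := B))) (le_trans (le_of_eq (lintegral_tsum fun g =>
        (hm.mul (hm2 g)).enorm.aemeasurable).symm) ?_)
    calc ∫⁻ y, ∑' g : PGL(2, K), ‖testKernel k₁ f₁ x y * testKernel k₂ f₂ y (g • z)‖ₑ
          ∂Space.measure Φ U
        ≤ ∫⁻ y, ‖testKernel k₁ f₁ x y‖ₑ * B ∂Space.measure Φ U := lintegral_mono fun y => by
          simp only [enorm_mul, ENNReal.tsum_mul_left]
          exact mul_le_mul_right (hB y) _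
      _ ≤ M * B := by
          rw [lintegral_mul_const _ hm.enorm]
          exact mul_le_mul_left (hM.row x) _

omit [Countable (Yf U)] in
/-- Columns are continuous on each slice. -/
theorem continuous_column (hU : IsLevel U) (k : ι → PPKer) (f : HKer U) (x : Space Φ U) (y : Yf U) :
    Continuous fun τ : ι → HSpace => perKer PGL(2, K) (testKernel k f) (Space.mk τ y) x := by
  refine continuous_iff_continuousAt.mpr fun τ₀ => ?_
  obtain ⟨C₀, hC₀, hnhds⟩ := exists_compact_mem_nhds τ₀
  obtain ⟨C₁, hC₁, hk⟩ := exists_compact_pi k hC₀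
  obtain ⟨c, b, R, hc, hbox⟩ := exists_box_of_isCompact (hC₁.union (isCompact_singleton (x := τ₀)))
    ⟨τ₀, Or.inr rfl⟩
  obtain ⟨M, hM⟩ := exists_multiplicity (Φ := Φ) hU (f.finite_row y) (C := b / c) (R := R) hc
  have hfin := (hM x).1
  have heq : Set.EqOn (fun τ : ι → HSpace => perKer PGL(2, K) (testKernel k f) (Space.mk τ y) x)
      (fun τ => ∑ g ∈ hfin.toFinset, testKernel k f (Space.mk τ y) (g • x)) C₀ := by
    intro τ hτ
    refine tsum_eq_sum fun g hg => ?_
    by_contra hne
    have hb := hbox (g • x).pt (Or.inl (hk τ hτ _ (right_ne_zero_of_mul hne)))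
    refine hg (hfin.mem_toFinset.mpr ⟨left_ne_zero_of_mul hne, fun i => (hb i).1, fun i j => ?_,
      fun i => (hb i).2.2⟩)
    calc ((g • x).pt i).r ≤ b := (hb i).2.1
      _ = b / c * c := (div_mul_cancel₀ b hc.ne').symm
      _ ≤ b / c * ((g • x).pt j).r := mul_le_mul_of_nonneg_left (hb j).1
          (div_nonneg (((g • x).pt i).r_pos.le.trans (hb i).2.1) hc.le)
  refine ContinuousAt.congr (Continuous.continuousAt ?_)
    (Filter.eventuallyEq_of_mem hnhds heq).symm
  refine continuous_finsetSum _ fun g _ => ?_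
  simp only [testKernel, Space.pt_mk, Space.fin_mk]
  exact continuous_const.mul ((continuous_prod_kernel k).comp (Continuous.prodMk_left _))

omit [Countable (Yf U)] in
/-- Periodisation commutes with finite combinations. -/
theorem perKer_sum {α : Type*} [Fintype α] (hU : IsLevel U) (c : α → ℂ) (k : α → ι → PPKer)
    (f : α → HKer U) (x y : Space Φ U) :
    perKer PGL(2, K) (fun u v => ∑ a, c a * testKernel (k a) (f a) u v) x y
      = ∑ a, c a * perKer PGL(2, K) (testKernel (k a) (f a)) x y := by
  simp only [perKer]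
  rw [Summable.tsum_finsetSum fun a _ => (summable_testKernel_smul hU (k a) (f a) y x).mul_left (c a)]
  simp only [tsum_mul_left]

/-- The columns of a finite combination of periodised kernels are cusp classes. -/
def HasCuspidalColumnsSum (D : QuotData Φ U) {α : Type*} [Fintype α] (c : α → ℂ)
    (k : α → ι → PPKer) (f : α → HKer U) : Prop :=
  ∀ x, ∃ e : cuspClasses D, (e : Lp ℂ 2 D.ν)
    =ᵐ[D.ν] fun y => ∑ a, c a * perKer PGL(2, K) (testKernel (k a) (f a)) y x

/-- A combination with cuspidal image, followed on the right by one test function, has cuspidal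
columns; it is enough to test the image on bounded invariant functions with continuous slices. -/
theorem hasCuspidalColumnsSum_comp {α : Type*} [Fintype α] (c : α → ℂ) {ka : α → ι → PPKer}
    {fa : α → HKer U}
    (hcusp : ∀ φ : Space Φ U → ℂ, IsInvariant φ →
      (∀ y : Yf U, Continuous fun τ : ι → HSpace => φ (Space.mk τ y)) → (∃ C : ℝ, ∀ x, ‖φ x‖ ≤ C) →
      HasZeroMean fun x => ∑ a, c a * testOp (ka a) (fa a) φ x)
    (kb : ι → PPKer) (fb : HKer U) :
    HasCuspidalColumnsSum D c (fun a i => PPKer.comp (ka a i) (kb i))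
      (fun a => (fa a).comp fb) := by
  intro x
  set ψ := fun y => perKer PGL(2, K) (testKernel kb fb) y x with hψ
  have hm : Measurable ψ := measurable_column kb fb x
  have hinv : ∀ (g : PGL(2, K)) y, ψ (g • y) = ψ y := fun g y =>
    perKer_testKernel_smul_left kb fb g y x
  have h2 : MemLp ψ 2 D.ν := memLp_column kb fb x
  have hs := sliceInt_column D kb fb x
  set F := fun y => ∑ a, c a * testOp (ka a) (fa a) ψ y with hF
  have heq : (fun y => ∑ a, c a * perKer PGL(2, K)
      (testKernel (fun i => PPKer.comp (ka a i) (kb i)) ((fa a).comp fb)) y x) = F := funext fun y =>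
    Finset.sum_congr rfl fun a _ => by
      rw [← integral_perKer_testKernel_comp (D := D),
        integral_perKer_testKernel_mul (ka a) (fa a) hs hinv y]
  have hFm : Measurable F :=
    Finset.measurable_sum _ fun a _ => (hs.testOp (ka a) (fa a)).measurable.const_mul _
  have hFi : ∀ (g : PGL(2, K)) y, F (g • y) = F y := fun g y => by
    refine Finset.sum_congr rfl fun a _ => ?_
    rw [(isInvariant_iff_pgl _).mp (isInvariant_testOp (ka a) (fa a)
      ((isInvariant_iff_pgl ψ).mpr hinv)) g y]
  have hF2 : MemLp F 2 D.ν :=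
    memLp_finsetSum _ fun a _ => (memLp_testOp (ka a) (fa a) hm hinv h2).const_mul _
  refine ⟨⟨hF2.toLp _, F, hFm, hFi, isCuspidalFn_of_hasZeroMean hFm hFi hF2
    (hcusp ψ ((isInvariant_iff_pgl ψ).mpr hinv) (continuous_column D.level kb fb x)
      (exists_norm_perKer_le D.level kb fb x)), hF2.coeFn_toLp⟩, ?_⟩
  rw [heq]
  exact hF2.coeFn_toLp

/-- The columns of the periodised kernel are cusp classes. -/
def HasCuspidalColumns (D : QuotData Φ U) (k : ι → PPKer) (f : HKer U) : Prop :=
  ∀ x, ∃ e : cuspClasses D, (e : Lp ℂ 2 D.ν) =ᵐ[D.ν] fun y => perKer PGL(2, K) (testKernel k f) y x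

theorem HasCuspidalColumns.congr {k k' : ι → PPKer} {f f' : HKer U}
    (h : HasCuspidalColumns D k f) (hk : ∀ i p q, k i p q = k' i p q)
    (hf : ∀ y z, f y z = f' y z) : HasCuspidalColumns D k' f' := by
  rw [HasCuspidalColumns, ← testKernel_congr hk hf]
  exact h

/-- A composite whose left factor has cuspidal image has cuspidal columns. -/
theorem hasCuspidalColumns_comp {ka : ι → PPKer} {fa : HKer U}
    (hcusp : ∀ φ : Space Φ U → ℂ, Measurable φ → (∀ (g : PGL(2, K)) x, φ (g • x) = φ x) →
      MemLp φ 2 D.ν → IsCuspidalFn (testOp ka fa φ)) (kb : ι → PPKer) (fb : HKer U) :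
    HasCuspidalColumns D (fun i => PPKer.comp (ka i) (kb i)) (fa.comp fb) := by
  intro x
  set ψ := fun y => perKer PGL(2, K) (testKernel kb fb) y x with hψ
  have hm : Measurable ψ := measurable_column kb fb x
  have hinv : ∀ (g : PGL(2, K)) y, ψ (g • y) = ψ y := fun g y =>
    perKer_testKernel_smul_left kb fb g y x
  have h2 : MemLp ψ 2 D.ν := memLp_column kb fb x
  have hs := sliceInt_column D kb fb x
  have heq : (fun y => perKer PGL(2, K) (testKernel (fun i => PPKer.comp (ka i) (kb i))
      (fa.comp fb)) y x) = testOp ka fa ψ := funext fun y => by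
    rw [← integral_perKer_testKernel_comp (D := D),
      integral_perKer_testKernel_mul ka fa hs hinv y]
  have hL := memLp_testOp (D := D) ka fa hm hinv h2
  refine ⟨⟨hL.toLp _, testOp ka fa ψ, (hs.testOp ka fa).measurable,
    (isInvariant_iff_pgl _).mp (isInvariant_testOp ka fa ((isInvariant_iff_pgl ψ).mpr hinv)),
    hcusp ψ hm hinv h2, hL.coeFn_toLp⟩, ?_⟩
  rw [heq]
  exact hL.coeFn_toLp

end Fermat.Agent.LT.Descent

end
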