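import Fermat.Agent.LT.Descent.PairTrace

/-!
# Moments of combinations of test pairs

The cuspidal operators are combinations of tensor kernels, so the traces of the descent are taken
for a pair followed by a finite family of pairs with coefficients. For matched products with a
high power at the places over `u` both sides have the same trace.
-/

set_option autoImplicit false

noncomputable section

namespace Fermat.Agent.LT.Descent

open Fermat.Agent.LT.Adelic Fermat.Agent.LT.Spectral Fermat.Agent.LT.Descent.Places
open MeasureTheory NumberField IsDedekindDomain Matrix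
open scoped MatrixGroups InnerProductSpace

variable {K : Type*} [Field K] [NumberField K] {K' : Type*} [Field K'] [NumberField K']
  [Algebra K K'] {Φ : Frame K Unit} {Φ' : Frame K' (Fin 3)} {tw : CubicTwist Φ Φ'}

namespace DescentData

variable (D : DescentData tw)

/-- For high exponents at the places over `u` both diagonals have finite mass. -/
theorem exists_integrable_diag {a b : 𝓞 K} (ha : a ≠ 0) (hb : b ≠ 0) {a' b' : 𝓞 K'} (ha' : a' ≠ 0)
    (hb' : b' ≠ 0) (T : ℝ) :
    ∃ n0 : ℕ, ∀ t : D.TestPair, t.IsBounded D a b a' b' T n0 →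
      Integrable (fun x => perKer PGL(2, K) (testKernel (fun _ => t.arch) t.ker) x x) D.quot.ν ∧
      Integrable (fun x => perKer PGL(2, K') (testKernel t.arch' t.ker') x (twistPt D.sigmaY x))
        D.quot'.ν := by
  obtain ⟨w, hw⟩ := exists_isAbove (K' := K') D.u
  obtain ⟨n1, h1⟩ := exists_support_classes Φ D.u ha hb T
  obtain ⟨n2, h2⟩ := exists_twisted_support_classes Φ tw (S := placesAbove {D.u})
    (fun v hv => (D.placePerm_mem_placesAbove_iff _ v).2 hv)
    (fun x hx => by
      obtain ⟨v, hv, hvx⟩ := hx
      rw [Set.mem_singleton_iff] at hv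
      exact hv ▸ IsAbove.liesOver hvx)
    ⟨w, ⟨D.u, rfl, hw⟩, fun x => D.u_split.valuation_algebraMap D.gen hw x⟩ ha' hb' T
  refine ⟨max n1 n2, fun t hbd => ?_⟩
  obtain ⟨P, hP, hPn, hbig⟩ := hbd.big
  obtain ⟨P', hP', hPn', hbig'⟩ := hbd.big'
  obtain ⟨C, hC, hs⟩ := h1 _ _ t.ker P (fun _ => hbd.range) hbig hP fun n h =>
    lt_of_le_of_lt (by exact_mod_cast le_max_left n1 n2) (hPn n h)
  obtain ⟨C', hC', hs'⟩ := h2 _ D.sigmaY (fun _ => rfl) _ t.ker' P' hbd.range' hbig' hP' fun n h =>
    lt_of_le_of_lt (by exact_mod_cast le_max_right n1 n2) (hPn' n h)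
  exact ⟨integrable_perKer_diag _ _ measurable_id
      (lintegral_support_ne_top D.quot.level D.quot.isWeight C (fun c h => (hC c h).2.2) hs),
    integrable_perKer_diag _ _ measurable_twistPt
      (lintegral_twisted_support_ne_top tw D.quot'.level D.isTwistMap_sigmaY D.quot'.isWeight C'
        (fun c h => (hC' c h).2.2) hs')⟩

namespace TestPair

variable {D}

/-- The family can be the second factor of a trace: bounded adjoints, cuspidal columns of the
combination, which commutes with the twist upstairs. -/
structure IsTraceFactorSum {α : Type*} [Fintype α] (c : α → ℂ) (s : α → D.TestPair) : Prop where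
  adj : ∀ r, HasCuspBound D.quot (fun _ : Unit => (s r).arch.conjKer) (s r).ker.adj
  adj' : ∀ r, HasCuspBound D.quot' (fun i => ((s r).arch' i).conjKer) (s r).ker'.adj
  col : HasCuspidalColumnsSum D.quot c (fun r (_ : Unit) => (s r).arch) fun r => (s r).ker
  col' : HasCuspidalColumnsSum D.quot' c (fun r => (s r).arch') fun r => (s r).ker'
  symm : ∀ x y, ∑ r, c r * testKernel (s r).arch' (s r).ker' (twistPt D.sigmaY x)
      (twistPt (Φ' := Φ') D.sigmaY y)
    = ∑ r, c r * testKernel (s r).arch' (s r).ker' x y

/-- Invariance of a combination under the twist from a permutation of its terms. -/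
theorem symm_of_perm {α : Type*} [Fintype α] (c : α → ℂ) (s : α → D.TestPair) (π : Equiv.Perm α)
    (hc : ∀ r, c (π r) = c r) (hk : ∀ r i p q, (s (π r)).arch' i p q = (s r).arch' (i - 1) p q)
    (hf : ∀ r y z, (s (π r)).ker' y z = (s r).ker' (D.sigmaY y) (D.sigmaY z))
    (x y : Space Φ' (Tame.productLevel D.lev'.loc)) :
    ∑ r, c r * testKernel (s r).arch' (s r).ker' (twistPt D.sigmaY x)
        (twistPt (Φ' := Φ') D.sigmaY y)
      = ∑ r, c r * testKernel (s r).arch' (s r).ker' x y :=
  sum_testKernel_twistPt c π hc hk hf x y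

variable {α : Type*} [Fintype α]

/-- **The trace of a combination downstairs.** -/
theorem hasSum_op (c : α → ℂ) (t : D.TestPair) (s : α → D.TestPair) (h₁ : t.HasBound)
    (h₂ : IsTraceFactorSum c s)
    (hint : ∀ r, Integrable (fun x => perKer PGL(2, K)
      (testKernel (fun _ => (t.comp (s r)).arch) (t.comp (s r)).ker) x x) D.quot.ν)
    {κ : Type*} [Countable κ] (b : HilbertBasis κ ℂ (cuspClasses D.quot)) :
    HasSum (fun k => ⟪b k, (∑ r, c r • (s r).op) (t.op (b k))⟫_ℂ)
      (∑ r, c r * (t.comp (s r)).diag D) := by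
  have hker : ∀ r, (t.comp (s r)).ker = t.ker.comp (s r).ker := fun r =>
    KerFamily.toHKer_comp _ _ _
  have h := hasSum_trace_twisted_sum b c h₁.bound h₂.adj h₂.col (MeasurePreserving.id _)
    measurable_id (fun _ => rfl) (fun _ => rfl) (fun _ _ => rfl) (ContinuousLinearMap.id ℂ _)
    fun _ _ _ hi he => ⟨hi, he⟩
  convert h using 1
  · simp only [op, ContinuousLinearMap.id_apply]
  · simp only [diag, ← integral_const_mul]
    rw [← integral_finsetSum _ fun r _ => (hint r).const_mul _]
    refine integral_congr_ae (Filter.Eventually.of_forall fun x => ?_)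
    refine Finset.sum_congr rfl fun r _ => ?_
    rw [hker r]
    rfl

/-- **The twisted trace of a combination upstairs.** -/
theorem hasSum_op' (c : α → ℂ) (t : D.TestPair) (s : α → D.TestPair) (h₁ : t.HasBound)
    (h₂ : IsTraceFactorSum c s)
    (hint : ∀ r, Integrable (fun x => perKer PGL(2, K')
      (testKernel (t.comp (s r)).arch' (t.comp (s r)).ker') x (twistPt D.sigmaY x)) D.quot'.ν)
    {κ : Type*} [Countable κ] (b : HilbertBasis κ ℂ (cuspClasses D.quot')) :
    HasSum (fun k => ⟪b k, (∑ r, c r • (s r).op') (t.op' (D.twist (b k)))⟫_ℂ)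
      (∑ r, c r * (t.comp (s r)).diag' D) := by
  have hker : ∀ r, (t.comp (s r)).ker' = t.ker'.comp (s r).ker' := fun r =>
    KerFamily.toHKer_comp _ _ _
  have h := Descent.hasSum_trace_twistPt_sum b c D.isTwistMap_sigmaY D.bijective_sigmaY
    D.sigmaY_cube h₁.bound' h₂.adj' h₂.col' h₂.symm
  convert h using 1
  · funext k
    rfl
  · simp only [diag', ← integral_const_mul]
    rw [← integral_finsetSum _ fun r _ => (hint r).const_mul _]
    refine integral_congr_ae (Filter.Eventually.of_forall fun x => ?_)
    refine Finset.sum_congr rfl fun r _ => ?_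
    rw [hker r]
    rfl

end TestPair

/-- **Equal moments**: operators on the two sides factoring through a pair and a family with
matched, bounded products have the same trace in every countable basis. -/
theorem exists_moment_eq {a b : 𝓞 K} (ha : a ≠ 0) (hb : b ≠ 0) {a' b' : 𝓞 K'} (ha' : a' ≠ 0)
    (hb' : b' ≠ 0) (T : ℝ) :
    ∃ n0 : ℕ, ∀ {α : Type} [Fintype α] (c : α → ℂ) (t : D.TestPair) (s : α → D.TestPair),
      t.HasBound → TestPair.IsTraceFactorSum c s → (∀ r, (t.comp (s r)).IsMatched) →
      (∀ r, (t.comp (s r)).IsBounded D a b a' b' T n0) →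
      ∀ (X : cuspClasses D.quot →L[ℂ] cuspClasses D.quot)
        (X' : cuspClasses D.quot' →L[ℂ] cuspClasses D.quot'),
        (∀ e, X e = (∑ r, c r • (s r).op) (t.op e)) →
        (∀ e, X' e = (∑ r, c r • (s r).op') (t.op' (D.twist e))) →
        ∃ I : ℂ,
          (∀ (S : Set (cuspClasses D.quot)) (B : HilbertBasis S ℂ (cuspClasses D.quot)),
            Countable S → HasSum (fun k => ⟪B k, X (B k)⟫_ℂ) I) ∧
          ∀ (S : Set (cuspClasses D.quot')) (B : HilbertBasis S ℂ (cuspClasses D.quot')),
            Countable S → HasSum (fun k => ⟪B k, X' (B k)⟫_ℂ) I := by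
  obtain ⟨n1, h1⟩ := D.exists_integrable_diag ha hb ha' hb' T
  obtain ⟨n2, h2⟩ := D.exists_diag_eq ha hb ha' hb' T
  refine ⟨max n1 n2, fun {α} _ c t s ht hs hm hbd X X' hX hX' => ?_⟩
  have hint := fun r => h1 _ ((hbd r).mono D (le_max_left n1 n2))
  have heq := fun r => h2 _ (hm r) ((hbd r).mono D (le_max_right n1 n2))
  refine ⟨∑ r, c r * (t.comp (s r)).diag D, fun S B hS => ?_, fun S B hS => ?_⟩
  · simp only [hX]
    exact TestPair.hasSum_op c t s ht hs (fun r => (hint r).1) B
  · simp only [hX', heq]
    exact TestPair.hasSum_op' c t s ht hs (fun r => (hint r).2) B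

namespace TestPair

variable {D}

theorem ker_comp_base (l : D.TestPair) :
    (l.comp D.base).ker = l.ker.comp (HKer.id (Tame.productLevel D.lev.loc)) :=
  (KerFamily.toHKer_comp _ _ _).trans (congrArg _ D.ker_base)

theorem ker'_comp_base (l : D.TestPair) :
    (l.comp D.base).ker' = l.ker'.comp (HKer.id (Tame.productLevel D.lev'.loc)) :=
  (KerFamily.toHKer_comp _ _ _).trans (congrArg _ D.ker'_base)

theorem hasCuspBound_arch_base :
    HasCuspBound D.quot (fun _ : Unit => D.base.arch) (HKer.id (Tame.productLevel D.lev.loc)) :=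
  ((D.hasCuspBound_baseRoot.comp_left (fun _ => PPKer.comp baseKer baseKer) (HKer.id _)).congr
    (fun _ p q => congrArg (fun k : PPKer => k p q) (ppker_comp_assoc baseKer baseKer baseKer)))
    fun y z => HKer.id_comp_apply _ y z

/-- A pair followed by the base pair has bounded point functionals. -/
theorem hasBound_comp_base (m : D.TestPair) : (m.comp D.base).HasBound where
  bound := ker_comp_base m ▸ hasCuspBound_arch_base.comp_left (fun _ => m.arch) m.ker
  bound' := ker'_comp_base m ▸ D.hasCuspBound_op'_base.comp_left m.arch' m.ker'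

variable {α : Type*} [Fintype α]

/-- **Second factors**: a combination with cuspidal images, commuting with the twist by a
permutation of its terms, followed by the base pair. -/
theorem isTraceFactorSum_comp_base (c : α → ℂ) (l : α → D.TestPair) (π : Equiv.Perm α)
    (hc : ∀ r, c (π r) = c r) (hk : ∀ r i p q, (l (π r)).arch' i p q = (l r).arch' (i - 1) p q)
    (hf : ∀ r y z, (l (π r)).ker' y z = (l r).ker' (D.sigmaY y) (D.sigmaY z))
    (hdown : ∀ φ : Space Φ (Tame.productLevel D.lev.loc) → ℂ, IsInvariant φ →
      (∀ y, Continuous fun τ : Unit → HSpace => φ (Space.mk τ y)) → (∃ C : ℝ, ∀ x, ‖φ x‖ ≤ C) →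
      HasZeroMean fun x => ∑ r, c r * testOp (fun _ => (l r).arch) (l r).ker φ x)
    (hup : ∀ φ : Space Φ' (Tame.productLevel D.lev'.loc) → ℂ, IsInvariant φ →
      (∀ y, Continuous fun τ : Fin 3 → HSpace => φ (Space.mk τ y)) → (∃ C : ℝ, ∀ x, ‖φ x‖ ≤ C) →
      HasZeroMean fun x => ∑ r, c r * testOp (l r).arch' (l r).ker' φ x) :
    IsTraceFactorSum c fun r => (l r).comp D.base where
  adj r := by
    refine (hasCuspBound_arch_base.comp_right (fun _ => (l r).arch.conjKer) (l r).ker.adj).congr
      (fun _ p q => ?_) fun y z => ?_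
    · show _ = (PPKer.comp (l r).arch D.base.arch).conjKer p q
      rw [conjKer_comp_eq, ppker_comp_comm (l r).arch.conjKer,
        show D.base.arch.conjKer = D.base.arch by
          simp only [base, conjKer_comp3, conjKer_baseKer]]
    · rw [ker_comp_base, HKer.id_comp_apply, HKer.adj_apply, HKer.adj_apply, HKer.comp_id_apply]
  adj' r := by
    refine (D.hasCuspBound_op'_base.comp_right (fun i => ((l r).arch' i).conjKer)
      (l r).ker'.adj).congr (fun i p q => ?_) fun y z => ?_
    · show _ = (PPKer.comp ((l r).arch' i) baseKer).conjKer p q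
      rw [conjKer_comp_eq, ppker_comp_comm ((l r).arch' i).conjKer, conjKer_baseKer]
    · rw [ker'_comp_base, HKer.id_comp_apply, HKer.adj_apply, HKer.adj_apply, HKer.comp_id_apply]
  col := by
    simp only [ker_comp_base]
    exact hasCuspidalColumnsSum_comp c hdown (fun _ => D.base.arch) _
  col' := by
    simp only [ker'_comp_base]
    exact hasCuspidalColumnsSum_comp c hup (fun _ => baseKer) _
  symm := symm_of_perm c _ π hc
    (fun r i p q => by
      show PPKer.comp ((l (π r)).arch' i) baseKer p q = PPKer.comp ((l r).arch' (i - 1)) baseKer p q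
      rw [ppker_ext (hk r i)])
    fun r y z => by
      rw [ker'_comp_base, ker'_comp_base, HKer.comp_id_apply, HKer.comp_id_apply, hf]

end TestPair

end DescentData

end Fermat.Agent.LT.Descent

end
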