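import Fermat.Agent.LT.Descent.Action
import Fermat.Agent.LT.Spectral.Model
import Fermat.Agent.LT.Geom.Weight

/-!
# Pushing an orbit integral down along an equivariant partial map

A weight on the base pulls back along `(τ, y) ↦ (a τ, p y)`; the integral against it of a product
function is a sum over the target of an archimedean integral times a fibre sum.
-/

set_option autoImplicit false

noncomputable section

namespace Fermat.Agent.LT.Descent

open Fermat.Agent.LT.Adelic Fermat.Agent.LT.Geom MeasureTheory NumberField IsDedekindDomain Matrix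
open scoped MatrixGroups ENNReal

/-- Regrouping a sum along a partial map defined on the support. -/
theorem tsum_eq_tsum_fibre {Y M : Type*} (p : Y → Option M) (F : Y → ℂ) (hF : Summable F)
    (hp : ∀ y, F y ≠ 0 → (p y).isSome) :
    ∑' y, F y = ∑' m, ∑' y : {y // p y = some m}, F y := by
  have h1 : ∑' y, F y = ∑' o : Option M, ∑' y : {y // p y = o}, F y := by
    rw [← (Equiv.sigmaFiberEquiv p).tsum_eq F]
    exact Summable.tsum_sigma ((Equiv.sigmaFiberEquiv p).summable_iff.mpr hF)
  rw [h1]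
  refine ((Option.some_injective M).tsum_eq ?_).symm
  intro o ho
  cases o with
  | some m => exact ⟨m, rfl⟩
  | none =>
    refine absurd ?_ ho
    refine (tsum_congr fun y : {y // p y = none} => ?_).trans tsum_zero
    by_contra hy
    have := hp y hy
    rw [y.2] at this
    exact Bool.noConfusion this

section Space

variable {K : Type*} [Field K] [NumberField K] {ι : Type*} [Fintype ι] {Φ : Frame K ι}
  {U : Subgroup (GfK K)}

theorem integrable_slice {F : Space Φ U → ℂ} (hF : Integrable F (Space.measure Φ U)) (y : Yf U) :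
    Integrable (fun τ => F (Space.mk τ y)) (Measure.pi fun _ : ι => HSpace.measure) :=
  (hF.mono_measure (Measure.le_sum
    (fun y : Yf U => (Measure.pi fun _ : ι => HSpace.measure).map fun τ => Space.mk τ y) y)
    ).comp_measurable (Space.measurable_mk y)

theorem hasSum_integral_space {F : Space Φ U → ℂ} (hF : Integrable F (Space.measure Φ U)) :
    HasSum (fun y => ∫ τ, F (Space.mk τ y) ∂(Measure.pi fun _ : ι => HSpace.measure))
      (∫ x, F x ∂Space.measure Φ U) := by
  refine (hasSum_integral_measure hF).congr_fun fun y => ?_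
  exact (integral_map (Space.measurable_mk y).aemeasurable
    (hF.mono_measure (Measure.le_sum _ y)).1).symm

theorem ae_space_of_slices [Countable (Yf U)] {q : Space Φ U → Prop}
    (hq : MeasurableSet {x | q x})
    (h : ∀ y, ∀ᵐ τ ∂(Measure.pi fun _ : ι => HSpace.measure), q (Space.mk τ y)) :
    ∀ᵐ x ∂Space.measure Φ U, q x :=
  (Measure.ae_sum_iff' hq).mpr fun y =>
    (ae_map_iff (Space.measurable_mk y).aemeasurable hq).mpr (h y)

end Space

section Pull

variable {K K₁ : Type*} [Field K] [NumberField K] [Field K₁] [NumberField K₁]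
  {ι ι₁ : Type*} [Fintype ι] [Fintype ι₁] {Φ : Frame K ι} {Φ₁ : Frame K₁ ι₁}
  {U : Subgroup (GfK K)} {U₁ : Subgroup (GfK K₁)}

/-- The weight pulled back along `a` and `p`; `ψ₀` where `p` is undefined. -/
def pullWeight (a : (ι₁ → HSpace) → (ι → HSpace)) (p : Yf U₁ → Option (Yf U))
    (η : Space Φ U → ℝ≥0∞) (ψ₀ : Space Φ₁ U₁ → ℝ≥0∞) (x : Space Φ₁ U₁) : ℝ≥0∞ :=
  (p x.fin).elim (ψ₀ x) fun m => η (Space.mk (a x.pt) m)

variable {a : (ι₁ → HSpace) → (ι → HSpace)} {p : Yf U₁ → Option (Yf U)}
  {η : Space Φ U → ℝ≥0∞} {ψ₀ : Space Φ₁ U₁ → ℝ≥0∞}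

omit [Fintype ι] [Fintype ι₁] in
theorem pullWeight_mk (τ : ι₁ → HSpace) (y : Yf U₁) :
    pullWeight a p η ψ₀ (Space.mk τ y) =
      (p y).elim (ψ₀ (Space.mk τ y)) fun m => η (Space.mk (a τ) m) := rfl

omit [Fintype ι] [Fintype ι₁] in
theorem measurable_pullWeight [Countable (Yf U₁)] (ha : Measurable a) (hη : Measurable η)
    (hψ₀ : Measurable ψ₀) :
    Measurable (pullWeight a p η ψ₀) := by
  refine Space.measurable_iff.mpr fun y => ?_
  simp only [pullWeight_mk]
  cases p y with
  | none => exact hψ₀.comp (Space.measurable_mk y)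
  | some m => exact hη.comp ((Space.measurable_mk m).comp ha)

theorem isWeight_pullWeight [Countable (Yf U)] [Countable (Yf U₁)]
    {T : Subgroup PGL(2, K)} {H : Subgroup PGL(2, K₁)} (e : H ≃ T)
    (hp : ∀ (h : H) y, p ((h : PGL(2, K₁)) • y) = (p y).map fun m => (e h : PGL(2, K)) • m)
    (ha : Measurable a)
    (haq : Measure.QuasiMeasurePreserving a (Measure.pi fun _ : ι₁ => HSpace.measure)
      (Measure.pi fun _ : ι => HSpace.measure))
    (haeq : ∀ (h : H) (x : Space Φ₁ U₁) (m : Yf U),
      Space.mk (Φ := Φ) (a ((h : PGL(2, K₁)) • x).pt) ((e h : PGL(2, K)) • m)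
        = (e h : PGL(2, K)) • Space.mk (a x.pt) m)
    (hη : IsWeight T (Space.measure Φ U) η) (hψ₀ : IsWeight H (Space.measure Φ₁ U₁) ψ₀) :
    IsWeight H (Space.measure Φ₁ U₁) (pullWeight a p η ψ₀) := by
  have hm := measurable_pullWeight (p := p) ha hη.1 hψ₀.1
  refine ⟨hm, ?_⟩
  refine ae_space_of_slices ?_ fun y => ?_
  · exact (Measurable.tsum fun h : H =>
      hm.comp (measurable_const_smul (h : PGL(2, K₁)))) (measurableSet_singleton 1)
  · have hkey : ∀ (h : H) (τ : ι₁ → HSpace),
        pullWeight a p η ψ₀ ((h : PGL(2, K₁)) • Space.mk τ y) =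
          (p y).elim (ψ₀ ((h : PGL(2, K₁)) • Space.mk τ y))
            fun m => η ((e h : PGL(2, K)) • Space.mk (a τ) m) := by
      intro h τ
      simp only [pullWeight, fin_pgl_smul, Space.fin_mk, hp]
      cases p y with
      | none => rfl
      | some m => exact congrArg η (haeq h (Space.mk τ y) m)
    cases hpy : p y with
    | none =>
      refine (ae_of_ae_map (Space.measurable_mk y).aemeasurable
        (((Measure.ae_sum_iff.mp hψ₀.2)) y)).mono fun τ hτ => ?_
      refine Eq.trans (tsum_congr fun h => ?_) hτ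
      exact (hkey h τ).trans (by rw [hpy]; rfl)
    | some m =>
      refine (haq.ae (ae_of_ae_map (Space.measurable_mk m).aemeasurable
        (((Measure.ae_sum_iff.mp hη.2)) m))).mono fun τ hτ => ?_
      refine Eq.trans (tsum_congr fun h => ?_)
        ((e.tsum_eq fun t : T => η ((t : PGL(2, K)) • Space.mk (a τ) m)).trans hτ)
      exact (hkey h τ).trans (by rw [hpy]; rfl)

/-- The archimedean factor over the point `m`. -/
def pullFactor (a : (ι₁ → HSpace) → (ι → HSpace)) (η : Space Φ U → ℝ≥0∞)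
    (G : (ι₁ → HSpace) → ℂ) (m : Yf U) : ℂ :=
  ∫ τ, (η (Space.mk (a τ) m)).toReal • G τ ∂(Measure.pi fun _ : ι₁ => HSpace.measure)

omit [Fintype ι] in
theorem integrable_pullFactor {G : (ι₁ → HSpace) → ℂ} {g : Yf U₁ → ℂ}
    (hint : Integrable (fun x => (pullWeight a p η ψ₀ x).toReal • (g x.fin * G x.pt))
      (Space.measure Φ₁ U₁)) {y : Yf U₁} {m : Yf U} (hy : g y ≠ 0) (hpy : p y = some m) :
    Integrable (fun τ => (η (Space.mk (a τ) m)).toReal • G τ)
      (Measure.pi fun _ : ι₁ => HSpace.measure) := by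
  refine ((integrable_slice hint y).const_mul (g y)⁻¹).congr
    (Filter.Eventually.of_forall fun τ => ?_)
  simp only [pullWeight_mk, hpy, Option.elim_some, Space.fin_mk, Space.pt_mk,
    Complex.real_smul]
  field_simp

theorem integral_pullWeight {G : (ι₁ → HSpace) → ℂ} {g : Yf U₁ → ℂ}
    (hp : ∀ y, g y ≠ 0 → (p y).isSome)
    (hfin : ∀ m, (Function.support g ∩ {y | p y = some m}).Finite)
    (hint : Integrable (fun x => (pullWeight a p η ψ₀ x).toReal • (g x.fin * G x.pt))
      (Space.measure Φ₁ U₁)) :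
    ∫ x, (pullWeight a p η ψ₀ x).toReal • (g x.fin * G x.pt) ∂Space.measure Φ₁ U₁
      = ∑' m, pullFactor a η G m * ∑ᶠ y ∈ {y | p y = some m}, g y := by
  have h := hasSum_integral_space hint
  have hterm : ∀ y m, p y = some m →
      ∫ τ, (pullWeight a p η ψ₀ (Space.mk τ y)).toReal • (g y * G τ)
          ∂(Measure.pi fun _ : ι₁ => HSpace.measure) = pullFactor a η G m * g y := by
    intro y m hpy
    rw [pullFactor, ← integral_mul_const]
    refine integral_congr_ae (Filter.Eventually.of_forall fun τ => ?_)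
    simp only [pullWeight_mk, hpy, Option.elim_some, Complex.real_smul]
    ring
  simp only [Space.fin_mk, Space.pt_mk] at h
  rw [← h.tsum_eq]
  rw [tsum_eq_tsum_fibre p _ h.summable fun y hy => hp y fun h0 => hy (by simp [h0])]
  refine tsum_congr fun m => ?_
  rw [tsum_congr fun y : {y // p y = some m} => hterm y m y.2, tsum_mul_left]
  congr 1
  rw [tsum_eq_finsum]
  · exact finsum_subtype_eq_finsum_cond (f := g) (p := fun y => p y = some m)
  · refine ((hfin m).preimage Subtype.val_injective.injOn).subset fun y hy => ?_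
    exact ⟨hy, y.2⟩

/-- Equal fibre sums and equal archimedean factors give equal integrals. -/
theorem tsum_pullFactor_congr {ι₂ : Type*} [Fintype ι₂] {Y₂ : Type*}
    {a₂ : (ι₂ → HSpace) → (ι → HSpace)} {G : (ι₁ → HSpace) → ℂ} {G₂ : (ι₂ → HSpace) → ℂ}
    {g : Yf U₁ → ℂ} {g₂ : Y₂ → ℂ} (p₂ : Y₂ → Option (Yf U))
    (hsum : ∀ m, ∑ᶠ y ∈ {y | p y = some m}, g y = ∑ᶠ y ∈ {y | p₂ y = some m}, g₂ y)
    (hfac : ∀ m y, p y = some m → g y ≠ 0 → pullFactor a η G m = pullFactor a₂ η G₂ m) :
    ∑' m, pullFactor a η G m * ∑ᶠ y ∈ {y | p y = some m}, g y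
      = ∑' m, pullFactor a₂ η G₂ m * ∑ᶠ y ∈ {y | p₂ y = some m}, g₂ y := by
  refine tsum_congr fun m => ?_
  by_cases h0 : ∑ᶠ y ∈ {y | p y = some m}, g y = 0
  · rw [h0, ← hsum m, h0, mul_zero, mul_zero]
  · obtain ⟨y, hy, hy0⟩ := exists_ne_zero_of_finsum_mem_ne_zero h0
    rw [hfac m y hy hy0, hsum m]

end Pull

end Fermat.Agent.LT.Descent

end
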