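import Fermat.Agent.LT.Descent.TensorMatch
import Fermat.Agent.LT.Tame.SplitPlace

/-!
# Places with one place above

Over such a place the local space upstairs is a single coset space, the twist is the automorphism
of the completion, and local matches can be stated there.  Conditions holding at almost all
places upstairs hold on the whole fibre over almost all places below.
-/

set_option autoImplicit false
set_option linter.unusedSectionVars false

noncomputable section

namespace Fermat.Agent.LT.Descent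

open IsDedekindDomain IsDedekindDomain.HeightOneSpectrum Matrix NumberField Filter Function
open Fermat.Agent.LT.Adelic Fermat.Agent.LT.Tame Fermat.Agent.LT.Aleph Fermat.Agent.LT.Geom
open scoped MatrixGroups

variable {K K' : Type*} [Field K] [NumberField K] [Field K'] [NumberField K'] [Algebra K K']
  {π : HeightOneSpectrum (𝓞 K') → HeightOneSpectrum (𝓞 K)}
  {V : ∀ v : HeightOneSpectrum (𝓞 K), Subgroup (GL (Fin 2) (v.adicCompletion K))}
  {V' : ∀ w : HeightOneSpectrum (𝓞 K'), Subgroup (GL (Fin 2) (w.adicCompletion K'))}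

/-- A condition at almost all places upstairs holds on almost all fibres. -/
theorem eventually_forall_fibre {P : HeightOneSpectrum (𝓞 K') → Prop}
    (h : ∀ᶠ w in cofinite, P w) : ∀ᶠ v in cofinite, ∀ w, π w = v → P w := by
  refine eventually_cofinite.2 (((eventually_cofinite.1 h).image π).subset fun v hv => ?_)
  simp only [Set.mem_ofPred_eq, not_forall] at hv
  obtain ⟨w, hw, hP⟩ := hv
  exact ⟨w, hP, hw⟩

/-- The automorphism of `K'_w` of an automorphism fixing the place. -/
def fixAut (σ : K' ≃+* K') (w : HeightOneSpectrum (𝓞 K')) (hfix : placePerm σ w = w) :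
    w.adicCompletion K' ≃+* w.adicCompletion K' :=
  completionEquiv σ (v := w) (w := w) fun x => by rw [valuation_apply_placePerm, hfix]

theorem fixAut_coe (σ : K' ≃+* K') (w : HeightOneSpectrum (𝓞 K')) (hfix : placePerm σ w = w)
    (x : K') : fixAut σ w hfix (x : w.adicCompletion K') = (σ x : _) :=
  completionEquiv_coe σ _ x

variable {v : HeightOneSpectrum (𝓞 K)} {w₀ : HeightOneSpectrum (𝓞 K')}

variable (V') in
/-- The fibre space of a place with one place above. -/
def singleFibreEquiv (hw₀ : π w₀ = v) (huniq : ∀ w, π w = v → w = w₀) :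
    FibreY π V' v ≃ LocY V' w₀ :=
  letI : Unique {w // π w = v} :=
    ⟨⟨⟨w₀, hw₀⟩⟩, fun w => Subtype.ext (huniq w.1 w.2)⟩
  Equiv.piUnique fun w : {w // π w = v} => LocY V' w.1

theorem singleFibreEquiv_apply (hw₀ : π w₀ = v) (huniq : ∀ w, π w = v → w = w₀)
    (Y : FibreY π V' v) : singleFibreEquiv V' hw₀ huniq Y = Y ⟨w₀, hw₀⟩ := rfl

theorem singleFibreEquiv_symm_apply (hw₀ : π w₀ = v) (huniq : ∀ w, π w = v → w = w₀)
    (y : LocY V' w₀) : (singleFibreEquiv V' hw₀ huniq).symm y ⟨w₀, hw₀⟩ = y :=
  (singleFibreEquiv V' hw₀ huniq).apply_symm_apply y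

theorem singleFibreEquiv_symm_basePt (hw₀ : π w₀ = v) (huniq : ∀ w, π w = v → w = w₀) :
    (singleFibreEquiv V' hw₀ huniq).symm (basePt V' w₀) = fibreBase π V' v := by
  rw [Equiv.symm_apply_eq]
  rfl

/-- The local centraliser acts on the coset space above. -/
@[reducible] def singleAction (hπ : IsPlaceCover π) (hw₀ : π w₀ = v) (γ : PGL(2, K)) :
    MulAction (locTorus γ v) (LocY V' w₀) :=
  MulAction.compHom _ ((pglMap (hπ.emb v ⟨w₀, hw₀⟩)).comp (locTorus γ v).subtype)

variable (hπ : IsPlaceCover π) (σ : K' ≃ₐ[K] K')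
  (hσ : ∀ w, ∀ g ∈ V' (placePerm σ.toRingEquiv w), GeneralLinearGroup.map
    (completionEquiv σ.toRingEquiv (valuation_apply_placePerm σ.toRingEquiv w)).toRingHom g
      ∈ V' w)
  (hw₀ : π w₀ = v) (huniq : ∀ w, π w = v → w = w₀)

/-- The twist of the coset space above. -/
def singleTwist (y : LocY V' w₀) : LocY V' w₀ :=
  fibreTwist hπ σ hσ v ((singleFibreEquiv V' hw₀ huniq).symm y) ⟨w₀, hw₀⟩

theorem singleTwist_mk (hfix : placePerm σ.toRingEquiv w₀ = w₀)
    (g : PGL(2, w₀.adicCompletion K')) :
    singleTwist hπ σ hσ hw₀ huniq (g : LocY V' w₀) =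
      ((pglMap (fixAut σ.toRingEquiv w₀ hfix).toRingHom g : PGL(2, w₀.adicCompletion K')) :
        LocY V' w₀) := by
  have key : ∀ (u : HeightOneSpectrum (𝓞 K')) (hu : π u = v)
      (h : ∀ x, w₀.valuation K' (σ.toRingEquiv x) = u.valuation K' x) (hs : _), u = w₀ →
      (Quotient.map' (pglMap (completionEquiv σ.toRingEquiv h).toRingHom) hs
          ((singleFibreEquiv V' hw₀ huniq).symm (g : LocY V' w₀) ⟨u, hu⟩) : LocY V' w₀) =
        ((pglMap (fixAut σ.toRingEquiv w₀ hfix).toRingHom g : PGL(2, w₀.adicCompletion K')) :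
          LocY V' w₀) := by
    rintro u hu h hs rfl
    rw [singleFibreEquiv_symm_apply]
    rfl
  unfold singleTwist fibreTwist cosetTwist
  exact key _ _ _ _ hfix

theorem locTwDiag_single (k' : KerFamily V') (δ : PGL(2, K')) (y : LocY V' w₀) :
    locTwDiag hπ σ hσ k' δ v ((singleFibreEquiv V' hw₀ huniq).symm y) =
      k'.ker w₀ y (pglMap (algebraMap K' (w₀.adicCompletion K')) δ •
        singleTwist hπ σ hσ hw₀ huniq y) := by
  rw [locTwDiag, finprod_eq_single _ ⟨w₀, hw₀⟩ fun w hw =>
    absurd (Subtype.ext (huniq w.1 w.2)) hw, singleFibreEquiv_symm_apply]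
  rfl

/-- **A match on the single coset space above.** -/
theorem matchesAtPlace_of_single (k : KerFamily V) (k' : KerFamily V') (γ : PGL(2, K))
    (δ : PGL(2, K'))
    (h : letI := singleAction (V' := V') hπ hw₀ γ
      HasFibreMatch (locTorus γ v) (locDiag k γ v) fun y : LocY V' w₀ => k'.ker w₀ y
        (pglMap (algebraMap K' (w₀.adicCompletion K')) δ • singleTwist hπ σ hσ hw₀ huniq y)) :
    MatchesAtPlace hπ σ hσ k k' γ δ v := by
  letI := singleAction (V' := V') hπ hw₀ γ
  letI := fibreAction (V' := V') hπ γ v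
  show HasFibreMatch (locTorus γ v) _ _
  refine hasFibreMatch_of_equiv (singleFibreEquiv V' hw₀ huniq).symm (fun t y => ?_) h
    (locTwDiag_single hπ σ hσ hw₀ huniq k' δ)
  rw [Equiv.symm_apply_eq, singleFibreEquiv_apply, fibreAction_apply, singleFibreEquiv_symm_apply]
  rfl

/-- **A base match on the single coset space above.** -/
theorem baseMatchesAtPlace_of_single (k : KerFamily V) (k' : KerFamily V') (γ : PGL(2, K))
    (δ : PGL(2, K'))
    (h : letI := singleAction (V' := V') hπ hw₀ γ
      HasBaseMatch (locTorus γ v) (locDiag k γ v) (fun y : LocY V' w₀ => k'.ker w₀ y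
        (pglMap (algebraMap K' (w₀.adicCompletion K')) δ • singleTwist hπ σ hσ hw₀ huniq y))
        (basePt V v) (basePt V' w₀)) :
    BaseMatchesAtPlace hπ σ hσ k k' γ δ v := by
  letI := singleAction (V' := V') hπ hw₀ γ
  letI := fibreAction (V' := V') hπ γ v
  show HasBaseMatch (locTorus γ v) _ _ _ _
  rw [← singleFibreEquiv_symm_basePt hw₀ huniq]
  refine hasBaseMatch_of_equiv (singleFibreEquiv V' hw₀ huniq).symm (fun t y => ?_) h
    (locTwDiag_single hπ σ hσ hw₀ huniq k' δ)
  rw [Equiv.symm_apply_eq, singleFibreEquiv_apply, fibreAction_apply, singleFibreEquiv_symm_apply]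
  rfl

end Fermat.Agent.LT.Descent

end
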